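import Fermat.Agent.MU.S35.KernelAt
import Fermat.Agent.S36.G.Types

section MergeWrap_S36_G_Defs -- from S36/G/Defs.lean

set_option autoImplicit false
set_option linter.style.haveILetI false
set_option linter.unusedSectionVars false

/-!
# Cluster G (S36, Carayol at `q² ∥ M`): the CORE targets  (architect helper80)

Blueprint: `NOTES/blueprint-G-S36-v2.md`.  Level `M = N₁ q`, `N₁ = q M₀`, `q ∤ M₀`;
`π₁^* = heckeAlphaBar Qb N₁ q` (the inclusion `F_{N₁} ⊂ F_M`), `π₂^* = w_{q²} ∘ π₁^* ∘ w_q`, so that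
`ker π₂_* = ker (π₁_* ∘ (w_{q²})_*)`;  `D : ALData` with `D.Q = q ^ 2`, `w_{q²} = wAt D hM`.

Definitions only.

* `CoreTorsionAt lam N₁ q c P` : **(CORE)**, torsion form: a class `y ∈ J₀(M)[lam^n]` which is fixed by
  the inertia group of `P ∣ q` and killed by `π₁_*` and `π₂_*` is killed by `c` (`c` independent
  of `n`).  The bridge (helper36, helper8: `CoreAt`) consumes `∃ c ≠ 0, ∃ P, CoreTorsionAt ..`.
* `CoreFunAt N₁ q c P n`       : **(CORE)**, function form: a Kummer generator `g` (`n ∣ div g`) whose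
  class is fixed by inertia and whose two norms to level `N₁` are constants times `n`-th powers has
  `g ^ c = a uⁿ`.
-/

noncomputable section

namespace Fermat.Agent.S36G

open ModularCurve AlgebraicCurve Fermat.Agent.F3 Fermat.Agent.F3G Fermat.Agent.GaussInt
  Fermat.Agent.AtkinLehner Fermat.Agent.Kronecker Fermat.Agent.F3I2 Fermat.Agent.F3Deg
  Fermat.Agent.F3DegW Fermat.Agent.BadRed

local notation "Qb" => AlgebraicClosure ℚ

/-- **(CORE)**, torsion form. -/
def CoreTorsionAt (lam N₁ q : ℕ) [NeZero N₁] [NeZero q] (c : ℕ) (P : ValuationSubring Qb) :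
    Prop :=
  ∀ (D : ALData) (hM : N₁ * q = D.Q * D.R), D.Q = q ^ 2 →
    ∀ (n : ℕ) (y : JZero (N₁ * q)), lam ^ n • y = 0 →
      pushAlpha N₁ q y = 0 → pushAlpha N₁ q (pushWAt D hM y) = 0 →
      (∀ σ ∈ P.inertiaSubgroupIn ℚ, σ • y = y) → c • y = 0

/-- the class of `g` (modulo constants and `n`-th powers) is fixed by the inertia group of `P`. -/
def InertiaFixedFun (M : ℕ) [NeZero M] (P : ValuationSubring Qb) (n : ℕ) (g : FBar M) : Prop :=
  ∀ τ ∈ P.inertiaSubgroupIn ℚ, ∃ (u : FBar M) (a : Qb), a ≠ 0 ∧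
    galFun M τ g = algebraMap Qb (FBar M) a * u ^ n * g

/-- `x` is a constant times an `n`-th power. -/
def IsCPow {F : Type*} [Field F] [Algebra Qb F] (n : ℕ) (x : F) : Prop :=
  ∃ (u : F) (a : Qb), a ≠ 0 ∧ x = algebraMap Qb F a * u ^ n

/-- **(CORE)**, function form, for the exponent `n`. -/
def CoreFunAt (N₁ q : ℕ) [NeZero N₁] [NeZero q] (c : ℕ) (P : ValuationSubring Qb) (n : ℕ) :
    Prop :=
  ∀ (D : ALData) (hM : N₁ * q = D.Q * D.R), D.Q = q ^ 2 →
    ∀ g : FBar (N₁ * q), g ≠ 0 → (∀ v : Place Qb (FBar (N₁ * q)), (n : ℤ) ∣ v.ord g) →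
      InertiaFixedFun (N₁ * q) P n g →
      IsCPow n (normAlong (heckeAlphaBar Qb N₁ q) g) →
      IsCPow n (normAlong (heckeAlphaBar Qb N₁ q) (wAt D hM g)) →
      IsCPow n (g ^ c)

/-- the statement of the seat `CORE-TF` (helper34): function form ⟹ torsion form. -/
def CoreTorsionOfFunStatement (lam N₁ q : ℕ) [NeZero N₁] [NeZero q] (c : ℕ)
    (P : ValuationSubring Qb) : Prop :=
  (∀ n : ℕ, CoreFunAt N₁ q c P (lam ^ n)) → CoreTorsionAt lam N₁ q c P

end Fermat.Agent.S36G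
end
end MergeWrap_S36_G_Defs
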