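import Mathlib
import Fermat.Prelude.Def_ModularCurve_HeckeModule
import Fermat.Prelude.Def_CuspForm_Newforms
import Fermat.Prelude.Def_GaloisRep_LocalConditions
import Fermat.Agent.MU.E.Desc.Comm.Degree
import Fermat.Agent.MU.Lib.BadRed.Bridge.AuxNew
import Fermat.Agent.MU.F3.I2.Deg.ALPushAt
import Fermat.Agent.F3.Galois.HeckeComm
import Fermat.Agent.E.Desc.Comm.Functorial
import Fermat.Agent.MU.Lib.HeckeInputs.Qbar
import Fermat.Agent.Lib.Kronecker.NormEmb
import Fermat.Agent.MU.Lib.Kronecker.NormProd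
import Fermat.Agent.MU.Lib.BadRed.Bridge.PullAux
import Fermat.Agent.MU.F3.Transfer.Final
import Fermat.Agent.MU.F3.Transfer.PsiBound
import Fermat.Agent.MU.R38.P.Final
import Fermat.Agent.MU.S35.KernelAt
import Fermat.Agent.MU.S35.LatticeCond
import Fermat.Agent.MU.Lib.BadRed.Bridge.NormRel
import Fermat.Agent.F3.I2.RootClass
import Fermat.Agent.MU.S36.G.Defs
import Fermat.Agent.MU.Lib.BadRed.Bridge.LevelCast
import Fermat.Agent.MU.F3.I2.Deg.Canon
import Fermat.Agent.MU.S33.PNew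
import Fermat.Agent.MU.S35.SMO
import Fermat.Agent.MU.Lib.BadRed.Final.Main
import Fermat.Agent.MU.S35.TransferCond
import Fermat.Agent.MU.S35.AssemblyNew

section MergeWrap_E_Desc_Comm_Prim -- from E/Desc/Comm/Prim.lean

set_option autoImplicit false
set_option linter.unusedSectionVars false
set_option linter.unusedVariables false
set_option linter.style.haveILetI false
set_option synthInstance.maxHeartbeats 400000

noncomputable section

open AlgebraicCurve ModularCurve Fermat.Agent.S24 Fermat.Agent.S24.EmbFHom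
open scoped MatrixGroups

namespace Fermat.Agent.EDescComm

local notation "Qb" => AlgebraicClosure ℚ

/-- `j_M = j(q^M)` as a function on `X₀(M)`. -/
def jTop (M : ℕ) [NeZero M] : ↥(modularFunctionFieldBar M) :=
  ⟨coeffEmb Qb (qExpand ℚ M jq), coeffEmb_mem_laurentBaseChange Qb (jqd_mem_full M dvd_rfl)⟩

theorem coe_jTop (M : ℕ) [NeZero M] :
    ((jTop M : ↥(modularFunctionFieldBar M)) : LaurentSeries Qb) =
      coeffEmb Qb (qExpand ℚ M jq) := rfl

theorem coeffEmb_qExpand_rat (n : ℕ) [NeZero n] (x : LaurentSeries ℚ) :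
    coeffEmb Qb (qExpand ℚ n x) = qExpand Qb n (coeffEmb Qb x) := by
  unfold coeffEmb
  rw [coeffMap_qExpand]

theorem embHom_jTop (M : ℕ) [NeZero M] :
    embHom M M dvd_rfl (jTop M) = jdLL M M dvd_rfl := by
  apply expLL_injective M
  rw [expLL_embHom, expLL_jdLL, coe_jTop, ← qExpand_coeffEmb_jqd, qExpandAlgHomC_apply]

theorem smul_embHom_jTop_iff (M : ℕ) [NeZero M] (γ : SL(2, ℤ)) :
    γ • embHom M M dvd_rfl (jTop M) = embHom M M dvd_rfl (jTop M) ↔
      γ ∈ CongruenceSubgroup.Gamma0 M := by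
  rw [embHom_jTop, smul_jdLL_eq_iff, smul_jd_eq_iff]

/-- **Primitive element**: `F_M = ℚ̄(j, j_M)`. -/
theorem adjoin_jBar_jTop (M : ℕ) [NeZero M] :
    IntermediateField.adjoin Qb ({jBar M, jTop M} : Set ↥(modularFunctionFieldBar M)) = ⊤ := by
  set P : IntermediateField Qb ↥(modularFunctionFieldBar M) :=
    IntermediateField.adjoin Qb ({jBar M, jTop M} : Set ↥(modularFunctionFieldBar M)) with hP
  have hjP : jBar M ∈ P := IntermediateField.subset_adjoin Qb _ (Set.mem_insert _ _)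
  have hjTP : jTop M ∈ P :=
    IntermediateField.subset_adjoin Qb _ (Set.mem_insert_of_mem _ rfl)
  have hj : embHom M M dvd_rfl (jBar M) = jLL M := embHom_jq M M dvd_rfl (jBar M) rfl
  have hH' := Fermat.Agent.Kronecker.mem_Gamma0_iff_smul_embHom M M dvd_rfl
  obtain ⟨-, hrank⟩ := Fermat.Agent.Kronecker.finrank_hom_mul_index_eq_index (Γ := SL(2, ℤ))
    ((embHom M M dvd_rfl).comp P.val) (embHom M M dvd_rfl) P.val (fun x => rfl)
    (⟨jBar M, hjP⟩ : ↥P) (exists_finiteIndex_fixing M)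
    (fun g => by
      show g • embHom M M dvd_rfl (jBar M) = embHom M M dvd_rfl (jBar M)
      rw [hj]; exact smul_jLL M g)
    (fun x hx => by
      show x ∈ IntermediateField.adjoin Qb {embHom M M dvd_rfl (jBar M)}
      rw [hj]; exact Fermat.Agent.S24Inv.mem_adjoin_jLL_of_invariant' M x hx)
    (CongruenceSubgroup.Gamma0 M) (CongruenceSubgroup.Gamma0 M)
    (fun g => by
      constructor
      · intro hg x
        exact (hH' g).mp hg (x : ↥(modularFunctionFieldBar M))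
      · intro hg
        exact (smul_embHom_jTop_iff M g).mp (hg ⟨jTop M, hjTP⟩))
    hH'
  have hpos : 0 < (CongruenceSubgroup.Gamma0 M).index :=
    Nat.pos_of_ne_zero Subgroup.FiniteIndex.index_ne_zero
  have h1 : (letI := P.val.toRingHom.toAlgebra;
      Module.finrank ↥P ↥(modularFunctionFieldBar M)) = 1 := by
    have := Nat.eq_of_mul_eq_mul_right hpos (hrank.trans (one_mul _).symm)
    exact this
  exact IntermediateField.finrank_eq_one_iff_eq_top.mp h1

section Span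

variable {A B C : ℕ} [NeZero A] [NeZero B] [NeZero C]

theorem inclF_jBar (c : ℕ) [NeZero c] (hA : A * c = B) : inclF c hA (jBar A) = jBar B := by
  apply Subtype.ext
  rw [coe_inclF, coe_jBar, coe_jBar]

theorem scaleF_jTop (d : ℕ) [NeZero d] (hC : C * d = B) : scaleF d hC (jTop C) = jTop B := by
  apply Subtype.ext
  rw [coe_scaleF, coe_jTop, coe_jTop, coeffEmb_qExpand_rat, coeffEmb_qExpand_rat,
    qExpand_qExpand]
  have h : d * C = B := by rw [mul_comm]; exact hC
  subst h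
  rfl

/-- **Spanning**: `F_B` is spanned over `F_A` by the image of `F_C` under `f(q) ↦ f(q^d)`. -/
theorem span_scaleF (c d : ℕ) [NeZero c] [NeZero d] (hA : A * c = B) (hC : C * d = B) :
    letI := algebraAlong (inclF c hA : ↥(modularFunctionFieldBar A) →ₐ[Qb] _)
    ⊤ ≤ Submodule.span ↥(modularFunctionFieldBar A)
      (Set.range (scaleF d hC : ↥(modularFunctionFieldBar C) →ₐ[Qb] _)) := by
  letI := algebraAlong (inclF c hA : ↥(modularFunctionFieldBar A) →ₐ[Qb] _)
  haveI := isScalarTower_along (inclF c hA : ↥(modularFunctionFieldBar A) →ₐ[Qb] _)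
  haveI : Module.Finite ↥(modularFunctionFieldBar A) ↥(modularFunctionFieldBar B) :=
    finiteAlong_bar _
  set b' : ↥(modularFunctionFieldBar C) →ₐ[Qb] ↥(modularFunctionFieldBar B) := scaleF d hC
    with hb'
  set T : IntermediateField ↥(modularFunctionFieldBar A) ↥(modularFunctionFieldBar B) :=
    IntermediateField.adjoin ↥(modularFunctionFieldBar A) (Set.range b') with hT
  have hall : ∀ x : ↥(modularFunctionFieldBar B), x ∈ T := by
    intro x
    have hx : x ∈ IntermediateField.adjoin Qb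
        ({jBar B, jTop B} : Set ↥(modularFunctionFieldBar B)) := by
      rw [adjoin_jBar_jTop B]
      trivial
    induction hx using IntermediateField.adjoin_induction with
    | mem y hy =>
      rcases hy with rfl | hy
      · rw [← inclF_jBar c hA]
        exact T.algebraMap_mem (jBar A)
      · rw [Set.mem_singleton_iff] at hy
        subst hy
        rw [← scaleF_jTop d hC]
        exact IntermediateField.subset_adjoin _ _ ⟨jTop C, rfl⟩
    | algebraMap k =>
      rw [IsScalarTower.algebraMap_apply Qb ↥(modularFunctionFieldBar A)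
        ↥(modularFunctionFieldBar B)]
      exact T.algebraMap_mem _
    | add y z _ _ hy hz => exact T.add_mem hy hz
    | inv y _ hy => exact T.inv_mem hy
    | mul y z _ _ hy hz => exact T.mul_mem hy hz
  have hTs : T.toSubalgebra = Algebra.adjoin ↥(modularFunctionFieldBar A) (Set.range b') :=
    IntermediateField.adjoin_toSubalgebra _
  have hcl : (Submonoid.closure (Set.range b') : Set ↥(modularFunctionFieldBar B))
      = Set.range b' := by
    have h1 : Set.range b' = ((MonoidHom.mrange (b' : ↥(modularFunctionFieldBar C) →*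
        ↥(modularFunctionFieldBar B)) : Submonoid _) : Set _) := by
      ext y
      simp
    rw [h1, Submonoid.closure_eq]
  intro x _
  have hxT : x ∈ T.toSubalgebra := hall x
  rw [hTs, ← Subalgebra.mem_toSubmodule, Algebra.adjoin_eq_span, hcl] at hxT
  exact hxT

end Span

end Fermat.Agent.EDescComm
end
end MergeWrap_E_Desc_Comm_Prim

section MergeWrap_E_Desc_Comm_Main -- from E/Desc/Comm/Main.lean

set_option autoImplicit false
set_option linter.unusedSectionVars false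
set_option linter.unusedVariables false
set_option linter.style.haveILetI false
set_option synthInstance.maxHeartbeats 400000

noncomputable section

open AlgebraicCurve ModularCurve

namespace Fermat.Agent.EDescComm

local notation "Qb" => AlgebraicClosure ℚ

theorem qExpand_congr_level {a b : ℕ} [NeZero a] [NeZero b] (h : a = b)
    (x : LaurentSeries Qb) : qExpand Qb a x = qExpand Qb b x := by
  subst h
  rfl

section Square

variable (N r s : ℕ) [NeZero N] [NeZero r] [NeZero s]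

/-- the data of the two base change squares `F_N, F_{N r}, F_{N s}, F_{N r s}`. -/
theorem commData_incl_scale (hr : r.Prime) (hs : s.Prime) (hrs : r ≠ s) :
    CommData (K := Qb)
      (inclF r rfl : ↥(modularFunctionFieldBar N) →ₐ[Qb] ↥(modularFunctionFieldBar (N * r)))
      (scaleF r rfl : ↥(modularFunctionFieldBar N) →ₐ[Qb] ↥(modularFunctionFieldBar (N * r)))
      (inclF s rfl : ↥(modularFunctionFieldBar N) →ₐ[Qb] ↥(modularFunctionFieldBar (N * s)))
      (scaleF s rfl : ↥(modularFunctionFieldBar N) →ₐ[Qb] ↥(modularFunctionFieldBar (N * s)))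
      (inclF s rfl : ↥(modularFunctionFieldBar (N * r)) →ₐ[Qb]
        ↥(modularFunctionFieldBar (N * r * s)))
      (scaleF s rfl : ↥(modularFunctionFieldBar (N * r)) →ₐ[Qb]
        ↥(modularFunctionFieldBar (N * r * s)))
      (inclF r (Nat.mul_right_comm N s r) : ↥(modularFunctionFieldBar (N * s)) →ₐ[Qb]
        ↥(modularFunctionFieldBar (N * r * s)))
      (scaleF r (Nat.mul_right_comm N s r) : ↥(modularFunctionFieldBar (N * s)) →ₐ[Qb]
        ↥(modularFunctionFieldBar (N * r * s))) := by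
  have sq₁ : IsBCSquare (K := Qb)
      (inclF s rfl : ↥(modularFunctionFieldBar N) →ₐ[Qb] ↥(modularFunctionFieldBar (N * s)))
      (scaleF r rfl : ↥(modularFunctionFieldBar N) →ₐ[Qb] ↥(modularFunctionFieldBar (N * r)))
      (inclF s rfl : ↥(modularFunctionFieldBar (N * r)) →ₐ[Qb]
        ↥(modularFunctionFieldBar (N * r * s)))
      (scaleF r (Nat.mul_right_comm N s r) : ↥(modularFunctionFieldBar (N * s)) →ₐ[Qb]
        ↥(modularFunctionFieldBar (N * r * s))) :=
    { comm := by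
        apply AlgHom.ext
        intro x
        apply Subtype.ext
        show ((inclF s rfl (scaleF r rfl x) : ↥(modularFunctionFieldBar (N * r * s))) :
            LaurentSeries Qb) = ((scaleF r (Nat.mul_right_comm N s r) (inclF s rfl x) :
              ↥(modularFunctionFieldBar (N * r * s))) : LaurentSeries Qb)
        rw [coe_inclF, coe_scaleF, coe_scaleF, coe_inclF]
      finite := finiteAlong_bar _
      finrank_eq := finrankAlong_inclF_eq hr hs hrs rfl rfl rfl
      span := span_scaleF s r rfl (Nat.mul_right_comm N s r) }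
  have sq₂ : IsBCSquare (K := Qb)
      (inclF r rfl : ↥(modularFunctionFieldBar N) →ₐ[Qb] ↥(modularFunctionFieldBar (N * r)))
      (scaleF s rfl : ↥(modularFunctionFieldBar N) →ₐ[Qb] ↥(modularFunctionFieldBar (N * s)))
      (inclF r (Nat.mul_right_comm N s r) : ↥(modularFunctionFieldBar (N * s)) →ₐ[Qb]
        ↥(modularFunctionFieldBar (N * r * s)))
      (scaleF s rfl : ↥(modularFunctionFieldBar (N * r)) →ₐ[Qb]
        ↥(modularFunctionFieldBar (N * r * s))) :=
    { comm := by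
        apply AlgHom.ext
        intro x
        apply Subtype.ext
        show ((inclF r (Nat.mul_right_comm N s r) (scaleF s rfl x) :
            ↥(modularFunctionFieldBar (N * r * s))) : LaurentSeries Qb) =
          ((scaleF s rfl (inclF r rfl x) : ↥(modularFunctionFieldBar (N * r * s))) :
            LaurentSeries Qb)
        rw [coe_inclF, coe_scaleF, coe_scaleF, coe_inclF]
      finite := finiteAlong_bar _
      finrank_eq := finrankAlong_inclF_eq hs hr hrs.symm rfl rfl (Nat.mul_right_comm N s r)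
      span := span_scaleF r s (Nat.mul_right_comm N s r) rfl }
  exact
    { sq₁ := sq₁
      sq₂ := sq₂
      incl := by
        apply AlgHom.ext
        intro x
        apply Subtype.ext
        show ((inclF s rfl (inclF r rfl x) : ↥(modularFunctionFieldBar (N * r * s))) :
            LaurentSeries Qb) = ((inclF r (Nat.mul_right_comm N s r) (inclF s rfl x) :
              ↥(modularFunctionFieldBar (N * r * s))) : LaurentSeries Qb)
        rw [coe_inclF, coe_inclF, coe_inclF, coe_inclF]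
      scale := by
        apply AlgHom.ext
        intro x
        apply Subtype.ext
        show ((scaleF r (Nat.mul_right_comm N s r) (scaleF s rfl x) :
            ↥(modularFunctionFieldBar (N * r * s))) : LaurentSeries Qb) =
          ((scaleF s rfl (scaleF r rfl x) : ↥(modularFunctionFieldBar (N * r * s))) :
            LaurentSeries Qb)
        rw [coe_scaleF, coe_scaleF, coe_scaleF, coe_scaleF, qExpand_qExpand, qExpand_qExpand]
        exact qExpand_congr_level (mul_comm r s) _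
      finAs := finiteAlong_bar _
      finAr := finiteAlong_bar _
      normαs := normFormulaAlong_bar _ _
      normαr := normFormulaAlong_bar _ _
      normAs := normFormulaAlong_bar _ _
      normAr := normFormulaAlong_bar _ _
      degE := deg_one_bar N
      degLr := deg_one_bar (N * r)
      degLs := deg_one_bar (N * s)
      degM := deg_one_bar (N * r * s)
      approxLr := weakApprox_bar (N * r)
      approxLs := weakApprox_bar (N * s) }

end Square

/-- the Hecke operator as a correspondence. -/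
theorem heckeOperatorAlong_eq_correspondence (N ℓ : ℕ) [NeZero N] [NeZero ℓ] :
    heckeOperatorAlong Qb N ℓ =
      Pic0.correspondence (heckeBetaBar Qb N ℓ) (heckeAlphaBar Qb N ℓ)
        (isIntegral_bar _) (isIntegral_bar _) (fundamentalIdentityAlong_bar _ _)
        (finiteAlong_bar _) (normFormulaAlong_bar _ _) :=
  heckeOperatorAlong_eq (L := Qb) (N := N) (ℓ := ℓ) (isIntegral_bar _) (isIntegral_bar _)
    (fundamentalIdentityAlong_bar _ _) (finiteAlong_bar _) (normFormulaAlong_bar _ _)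

/-- `T_r T_s = T_s T_r` on `J₀(N)`, for distinct primes. -/
theorem heckeOperatorAlong_comm (N r s : ℕ) [NeZero N] [NeZero r] [NeZero s]
    (hr : r.Prime) (hs : s.Prime) (hrs : r ≠ s) (x : JZero N) :
    heckeOperatorAlong Qb N r (heckeOperatorAlong Qb N s x) =
      heckeOperatorAlong Qb N s (heckeOperatorAlong Qb N r x) := by
  rw [heckeOperatorAlong_eq_correspondence N r, heckeOperatorAlong_eq_correspondence N s]
  have h := commData_incl_scale N r s hr hs hrs
  rw [← heckeAlphaBar_eq_inclF N r, ← heckeBetaBar_eq_scaleF N r, ← heckeAlphaBar_eq_inclF N s,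
    ← heckeBetaBar_eq_scaleF N s] at h
  exact h.pic0_correspondence_comm (isIntegral_bar _) (isIntegral_bar _) (isIntegral_bar _)
    (isIntegral_bar _) (isIntegral_bar _) (isIntegral_bar _) (isIntegral_bar _)
    (isIntegral_bar _) _ _ _ _ _ _ x

/-- **The Hecke operators of `J₀(N)` commute.** -/
theorem heckeOperatorsCommuteBar (N : ℕ) [NeZero N] : HeckeOperatorsCommuteBar N := by
  intro ℓ ℓ'
  by_cases h : ℓ = ℓ'
  · rw [h]
  · haveI : NeZero (ℓ : ℕ) := ⟨ℓ.2.ne_zero⟩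
    haveI : NeZero (ℓ' : ℕ) := ⟨ℓ'.2.ne_zero⟩
    apply LinearMap.ext
    intro x
    rw [Module.End.mul_apply, Module.End.mul_apply, heckeOperatorBar_apply,
      heckeOperatorBar_apply, heckeOperatorBar_apply, heckeOperatorBar_apply]
    exact heckeOperatorAlong_comm N ℓ ℓ' ℓ.2 ℓ'.2 (fun hc => h (Subtype.ext hc)) x

end Fermat.Agent.EDescComm
end
end MergeWrap_E_Desc_Comm_Main

section MergeWrap_R38_P_WSide -- from R38/P/WSide.lean

set_option autoImplicit false
set_option linter.style.haveILetI false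
set_option linter.unusedSectionVars false
set_option linter.unusedVariables false
set_option synthInstance.maxHeartbeats 400000

noncomputable section

namespace Fermat.Agent.R38

open ModularCurve AlgebraicCurve Fermat.Agent.F3G Fermat.Agent.F3Deg Fermat.Agent.F3DegP
  Fermat.Agent.F3DegW Fermat.Agent.BadRed Fermat.Agent.Kronecker Fermat.Agent.S24Diff
open Fermat.Agent.AtkinLehner (ALData atkinLehner atkinLehner_atkinLehner exists_factor factor_pos)

local notation "Qb" => AlgebraicClosure ℚ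

/-! ### push-forward along an automorphism = action of the inverse automorphism -/

section Generic

variable {K F : Type*} [Field K] [Field F] [Algebra K F]

/-- the restriction of a place along an automorphism. -/
theorem wSide_restrictAlong_algEquiv (e : F ≃ₐ[K] F) (he : e.toAlgHom.toRingHom.IsIntegral)
    (w : Place K F) :
    w.restrictAlong e.toAlgHom he = (SemilinearAut.ofAlgAut e)⁻¹ • w := by
  apply Place.ext
  ext x
  rw [Fermat.Agent.F3G.mem_restrictAlong_iff, mem_smul_place_iff, inv_inv]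
  rfl

/-- the push-forward of divisors along an automorphism (all places of degree one). -/
theorem wSide_pushforwardAlong_algEquiv (e : F ≃ₐ[K] F) (he : e.toAlgHom.toRingHom.IsIntegral)
    (hdeg : ∀ v : Place K F, v.deg = 1) (D : Divisor K F) :
    Divisor.pushforwardAlong e.toAlgHom he D = (SemilinearAut.ofAlgAut e)⁻¹ • D := by
  induction D using Finsupp.induction with
  | zero => rw [map_zero, smul_zero]
  | single_add w n D _ _ ih =>
    rw [map_add, smul_add, ih,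
      Fermat.Agent.EDescComm.pushforwardAlong_single_of_deg_one e.toAlgHom he hdeg hdeg w n,
      SemilinearAut.smul_single, wSide_restrictAlong_algEquiv]

variable [IsAlgClosed K] [CharZero K]

/-- **`e_* = (e⁻¹) • ·`** on divisor classes. -/
theorem pushAut_eq_smul (e : F ≃ₐ[K] F) {t : F} (h : IsFunctionFieldOver K F t)
    (hdeg : ∀ v : Place K F, v.deg = 1) (y : Pic0 K F) :
    pushAut e h y = (SemilinearAut.ofAlgAut e)⁻¹ • y := by
  obtain ⟨E, rfl⟩ := Pic0.mk_surjective y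
  rw [pushAut_mk, SemilinearAut.pic0_smul_mk]
  refine congrArg Pic0.mk (Subtype.ext ?_)
  rw [coe_pushDegZero, SemilinearAut.coe_degZeroSMulHom]
  exact wSide_pushforwardAlong_algEquiv e _ hdeg E

end Generic

/-! ### `T_ℓ` commutes with intertwined automorphisms -/

section Abstract

variable {L : Type*} [Field L] [Algebra ℚ L] (N ℓ : ℕ) [NeZero N] [NeZero ℓ]

/-- `T_ℓ` on `Pic⁰ (F_N)` commutes with a semilinear automorphism `g` of `F_N` as soon as some
semilinear automorphism `g'` of `F_{Nℓ}` is intertwined with `g` by both degeneracy maps. -/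
theorem heckeOperatorAlong_smul_of_intertwines
    (g : SemilinearAut L (laurentBaseChange L (modularFunctionFieldFull N)))
    (g' : SemilinearAut L (laurentBaseChange L (modularFunctionFieldFull (N * ℓ))))
    (hα : SemilinearAut.IntertwinesAlong (heckeAlphaBar L N ℓ).toRingHom g g')
    (hβ : SemilinearAut.IntertwinesAlong (heckeBetaBar L N ℓ).toRingHom g g')
    (x : Pic0 L (laurentBaseChange L (modularFunctionFieldFull N))) :
    heckeOperatorAlong L N ℓ (g • x) = g • heckeOperatorAlong L N ℓ x := by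
  by_cases h : HeckeInputsAlong L N ℓ
  · obtain ⟨hα', hβ', hP, hfin, hFI, hN⟩ := h
    haveI := hP
    rw [heckeOperatorAlong_eq hα' hβ' hFI hfin hN]
    exact pic0_correspondence_smul (heckeBetaBar L N ℓ) (heckeAlphaBar L N ℓ) hβ' hα' hFI hfin hN
      hβ hα x
  · rw [heckeOperatorAlong_of_not h]
    simp

end Abstract

/-! ### the Atkin–Lehner involutions at the levels `N` and `N ℓ` -/

section Compat

/-- `qExpand` only depends on the exponent. -/
theorem wSide_qExpand_congr {a b : ℕ} [NeZero a] [NeZero b] (h : a = b)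
    (f : LaurentSeries Qb) : qExpand Qb a f = qExpand Qb b f := by
  subst h
  rfl

/-- **compatibility of `w_Q` at the levels `M = Q R` and `M ℓ = Q (R ℓ)` with `q ↦ q^ℓ`** (on
expansions). -/
theorem coe_wAt_heckeBetaBar (D D' : ALData) {M ℓ : ℕ} [NeZero M] [NeZero ℓ]
    (hM : M = D.Q * D.R) (hM' : M * ℓ = D'.Q * D'.R) (hQ : D'.Q = D.Q) (hR : D'.R = D.R * ℓ)
    (x : FBar M) :
    ((wAt D' hM' (heckeBetaBar Qb M ℓ x) : FBar (M * ℓ)) : LaurentSeries Qb) =
      qExpand Qb ℓ ((wAt D hM x : FBar M) : LaurentSeries Qb) := by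
  set Φ₁ : FBar M →+* LaurentSeries Qb :=
    ((modularFunctionFieldBar (M * ℓ)).val.toRingHom.comp
      ((wAt D' hM').toAlgHom.toRingHom.comp (heckeBetaBar Qb M ℓ).toRingHom)) with hΦ₁
  set Φ₂ : FBar M →+* LaurentSeries Qb :=
    ((modularFunctionFieldBar (M * ℓ)).val.toRingHom.comp
      ((heckeBetaBar Qb M ℓ).toRingHom.comp (wAt D hM).toAlgHom.toRingHom)) with hΦ₂
  have key : Φ₁ = Φ₂ := by
    refine ringHom_ext_FBar M Φ₁ Φ₂ (fun c => ?_) (fun d hdne hd => ?_)
    · show ((wAt D' hM' (heckeBetaBar Qb M ℓ (algebraMap Qb (FBar M) c)) : FBar (M * ℓ)) :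
          LaurentSeries Qb) =
        ((heckeBetaBar Qb M ℓ (wAt D hM (algebraMap Qb (FBar M) c)) : FBar (M * ℓ)) :
          LaurentSeries Qb)
      rw [AlgHom.commutes, AlgEquiv.commutes, AlgEquiv.commutes, AlgHom.commutes]
    · show ((wAt D' hM' (heckeBetaBar Qb M ℓ (jdBar M d hd)) : FBar (M * ℓ)) :
          LaurentSeries Qb) =
        ((heckeBetaBar Qb M ℓ (wAt D hM (jdBar M d hd)) : FBar (M * ℓ)) : LaurentSeries Qb)
      have hd0 : d ∣ D.Q * D.R := hM ▸ hd
      obtain ⟨d₁, e₁, d₂, f₂, h1, h2, rfl⟩ := exists_factor D hd0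
      obtain ⟨p1, p2, p3, p4⟩ := factor_pos D h1 h2
      have hℓ0 : 0 < ℓ := Nat.pos_of_ne_zero (NeZero.ne ℓ)
      haveI : NeZero (e₁ * d₂) := ⟨(Nat.mul_pos p2 p3).ne'⟩
      haveI : NeZero (d₁ * (d₂ * ℓ)) := ⟨(Nat.mul_pos p1 (Nat.mul_pos p3 hℓ0)).ne'⟩
      haveI : NeZero (e₁ * (d₂ * ℓ)) := ⟨(Nat.mul_pos p2 (Nat.mul_pos p3 hℓ0)).ne'⟩
      haveI : NeZero (ℓ * (d₁ * d₂)) := ⟨(Nat.mul_pos hℓ0 (Nat.mul_pos p1 p3)).ne'⟩
      haveI : NeZero (ℓ * (e₁ * d₂)) := ⟨(Nat.mul_pos hℓ0 (Nat.mul_pos p2 p3)).ne'⟩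
      have h2' : d₂ * ℓ * f₂ = D'.R := by
        rw [hR, ← h2]
        ring
      have h1' : d₁ * e₁ = D'.Q := by rw [hQ, h1]
      have hy : ((heckeBetaBar Qb M ℓ (jdBar M (d₁ * d₂) hd) : FBar (M * ℓ)) :
          LaurentSeries Qb) = qExpand Qb (d₁ * (d₂ * ℓ)) (jqModC Qb) := by
        rw [coe_heckeBetaBar, coe_jdBar, qExpand_qExpand]
        exact wSide_qExpand_congr (by ring) _
      rw [coe_wAt_of_coe_eq D' hM' _ d₁ e₁ (d₂ * ℓ) f₂ h1' h2' hy, coe_heckeBetaBar,
        coe_wAt_of_coe_eq D hM _ d₁ e₁ d₂ f₂ h1 h2 (coe_jdBar M _ hd), qExpand_qExpand]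
      exact wSide_qExpand_congr (by ring) _
  have h := congrArg (fun Φ : FBar M →+* LaurentSeries Qb => Φ x) key
  have h' : ((wAt D' hM' (heckeBetaBar Qb M ℓ x) : FBar (M * ℓ)) : LaurentSeries Qb) =
      ((heckeBetaBar Qb M ℓ (wAt D hM x) : FBar (M * ℓ)) : LaurentSeries Qb) := h
  rw [h', coe_heckeBetaBar]

/-- `α` intertwines `w_Q` at the levels `M` and `M ℓ`. -/
theorem intertwines_heckeAlphaBar_wAt (D D' : ALData) {M ℓ : ℕ} [NeZero M] [NeZero ℓ]
    (hM : M = D.Q * D.R) (hM' : M * ℓ = D'.Q * D'.R) (hQ : D'.Q = D.Q) (hR : D'.R = D.R * ℓ) :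
    SemilinearAut.IntertwinesAlong (heckeAlphaBar Qb M ℓ).toRingHom
      (SemilinearAut.ofAlgAut (wAt D hM)) (SemilinearAut.ofAlgAut (wAt D' hM')) := by
  intro x
  apply Subtype.ext
  show ((wAt D' hM' (heckeAlphaBar Qb M ℓ x) : FBar (M * ℓ)) : LaurentSeries Qb) =
    ((heckeAlphaBar Qb M ℓ (wAt D hM x) : FBar (M * ℓ)) : LaurentSeries Qb)
  rw [coe_wAt_heckeAlphaBar D D' hM hM' hQ hR, coe_heckeAlphaBar]

/-- `β` intertwines `w_Q` at the levels `M` and `M ℓ`. -/
theorem intertwines_heckeBetaBar_wAt (D D' : ALData) {M ℓ : ℕ} [NeZero M] [NeZero ℓ]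
    (hM : M = D.Q * D.R) (hM' : M * ℓ = D'.Q * D'.R) (hQ : D'.Q = D.Q) (hR : D'.R = D.R * ℓ) :
    SemilinearAut.IntertwinesAlong (heckeBetaBar Qb M ℓ).toRingHom
      (SemilinearAut.ofAlgAut (wAt D hM)) (SemilinearAut.ofAlgAut (wAt D' hM')) := by
  intro x
  apply Subtype.ext
  show ((wAt D' hM' (heckeBetaBar Qb M ℓ x) : FBar (M * ℓ)) : LaurentSeries Qb) =
    ((heckeBetaBar Qb M ℓ (wAt D hM x) : FBar (M * ℓ)) : LaurentSeries Qb)
  rw [coe_wAt_heckeBetaBar D D' hM hM' hQ hR, coe_heckeBetaBar]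

end Compat

/-! ### the commutation -/

section Main

variable (D : ALData)

attribute [local instance] Fermat.Agent.F3DegP.neZero_level

/-- `Q` and `R` are coprime. -/
theorem wSide_coprime : Nat.Coprime D.Q D.R := by
  have h : IsCoprime (D.Q : ℤ) (D.R : ℤ) := ⟨D.a, -D.b, by linarith [D.hdet]⟩
  exact Nat.isCoprime_iff_coprime.mp h

/-- **`w_* y = w • y`**: the Atkin–Lehner push-forward is the action of the automorphism `w`. -/
theorem pushW_eq_smul (y : JZero (D.Q * D.R)) :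
    pushW D y = SemilinearAut.ofAlgAut (atkinLehner D) • y := by
  have hinv : (SemilinearAut.ofAlgAut (atkinLehner D))⁻¹ =
      (SemilinearAut.ofAlgAut (atkinLehner D) :
        SemilinearAut Qb (modularFunctionFieldBar (D.Q * D.R))) := by
    rw [inv_eq_iff_mul_eq_one, ← map_mul]
    have : atkinLehner D * atkinLehner D = 1 :=
      AlgEquiv.ext fun x => atkinLehner_atkinLehner D x
    rw [this, map_one]
  unfold pushW
  rw [pushAut_eq_smul _ _
    (fun v => Fermat.Agent.S24Res.deg_eq_one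
      (Fermat.Agent.S24.isFunctionFieldOver_jBar (D.Q * D.R)) v), hinv]

/-- **`T_ℓ ∘ w_* = w_* ∘ T_ℓ`** on `J₀(Q R)(ℚ̄)`, `ℓ ∤ Q`. -/
theorem heckeOperatorBar_pushW (ℓ : Nat.Primes) (hℓ : ¬ (ℓ : ℕ) ∣ D.Q)
    (y : JZero (D.Q * D.R)) :
    heckeOperatorBar (D.Q * D.R) ℓ (pushW D y) = pushW D (heckeOperatorBar (D.Q * D.R) ℓ y) := by
  haveI : NeZero (ℓ : ℕ) := ⟨ℓ.2.ne_zero⟩
  have hcop : Nat.Coprime D.Q (D.R * (ℓ : ℕ)) :=
    Nat.Coprime.mul_right (wSide_coprime D)
      ((Nat.coprime_comm.mp ((Nat.Prime.coprime_iff_not_dvd ℓ.2).mpr hℓ)))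
  obtain ⟨D', hQ, hR⟩ := ALData.exists_of_coprime D.hQ (Nat.mul_pos D.hR ℓ.2.pos) hcop
  have hM' : D.Q * D.R * (ℓ : ℕ) = D'.Q * D'.R := by rw [hQ, hR, mul_assoc]
  have hα := intertwines_heckeAlphaBar_wAt D D' (rfl : D.Q * D.R = D.Q * D.R) hM' hQ hR
  have hβ := intertwines_heckeBetaBar_wAt D D' (rfl : D.Q * D.R = D.Q * D.R) hM' hQ hR
  rw [wAt_eq_rfl] at hα hβ
  rw [heckeOperatorBar_apply, heckeOperatorBar_apply, pushW_eq_smul, pushW_eq_smul]
  exact heckeOperatorAlong_smul_of_intertwines (D.Q * D.R) (ℓ : ℕ) _ _ hα hβ y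

/-- **`T_ℓ ∘ w_* = w_* ∘ T_ℓ`** at a level `M = Q R`. -/
theorem heckeOperatorBar_pushWAt {M : ℕ} [NeZero M] (hM : M = D.Q * D.R) (ℓ : Nat.Primes)
    (hℓ : ¬ (ℓ : ℕ) ∣ D.Q) (y : JZero M) :
    heckeOperatorBar M ℓ (pushWAt D hM y) = pushWAt D hM (heckeOperatorBar M ℓ y) := by
  subst hM
  rw [pushWAt_rfl]
  convert heckeOperatorBar_pushW D ℓ hℓ y

end Main

end Fermat.Agent.R38
end
end MergeWrap_R38_P_WSide

section MergeWrap_S36_G_AuxNorm -- from S36/G/AuxNorm.lean

set_option autoImplicit false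
set_option linter.style.haveILetI false

noncomputable section

namespace Fermat.Agent.S36G

open Fermat.Agent.Kronecker

section AuxNorm

variable {Γ L K F1 F F1' F' : Type*} [Group Γ] [Field L] [MulSemiringAction Γ L]
  [Field K] [CharZero K] [Field F1] [Field F] [Field F1'] [Field F']
  [Algebra K F1] [Algebra K F] [Algebra K F1'] [Algebra K F'] [Algebra K L]

/-- **Base change of the norm** in a Galois datum. -/
theorem aux_norm_baseChange
    (φ1 : F1 →ₐ[K] L) (φ : F →ₐ[K] L) (φ1' : F1' →ₐ[K] L) (φ' : F' →ₐ[K] L)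
    (π : F1 →ₐ[K] F) (π' : F1' →ₐ[K] F') (α1 : F1 →ₐ[K] F1') (α : F →ₐ[K] F')
    (hπ : ∀ x, φ (π x) = φ1 x) (hπ' : ∀ x, φ' (π' x) = φ1' x)
    (hα1 : ∀ x, φ1' (α1 x) = φ1 x) (hα : ∀ x, φ' (α x) = φ x)
    (H H1' H' : Subgroup Γ) [H1'.FiniteIndex] [H'.FiniteIndex]
    (hH : ∀ g : Γ, g ∈ H ↔ ∀ x : F, g • φ x = φ x)
    (hH1' : ∀ g : Γ, g ∈ H1' ↔ ∀ x : F1', g • φ1' x = φ1' x)
    (hH' : ∀ g : Γ, g ∈ H' ↔ ∀ x : F', g • φ' x = φ' x)
    (hle : ∀ g : Γ, g ∈ H → g ∈ H1' → g ∈ H')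
    (hfd : letI := π.toRingHom.toAlgebra; FiniteDimensional F1 F)
    (hfd' : letI := π'.toRingHom.toAlgebra; FiniteDimensional F1' F')
    (hdeg : (letI := π.toRingHom.toAlgebra; Module.finrank F1 F) * H1'.index ≤ H'.index)
    (hdeg' : (letI := π'.toRingHom.toAlgebra; Module.finrank F1' F') * H1'.index ≤ H'.index)
    (x : F) :
    (letI := π'.toRingHom.toAlgebra; Algebra.norm F1') (α x)
      = α1 ((letI := π.toRingHom.toAlgebra; Algebra.norm F1) x) := by
  classical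
  -- `H' ≤ H1'`
  have hH'le : H' ≤ H1' := by
    intro g hg
    rw [hH1']
    intro y
    have := (hH' g).mp hg (π' y)
    rwa [hπ'] at this
  -- coset representatives
  let Q := H1' ⧸ (H'.subgroupOf H1')
  have hne : (H'.subgroupOf H1').index ≠ 0 := by
    intro h0
    have h1 : H'.relIndex H1' = 0 := h0
    have h2 := Subgroup.relIndex_mul_index hH'le
    rw [h1, zero_mul] at h2
    exact Subgroup.FiniteIndex.index_ne_zero h2.symm
  haveI : (H'.subgroupOf H1').FiniteIndex := ⟨hne⟩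
  haveI : Finite Q := Subgroup.finite_quotient_of_finiteIndex
  letI : Fintype Q := Fintype.ofFinite Q
  let g : Q → Γ := fun i => ((Quotient.out i : H1') : Γ)
  have hgmem : ∀ i, g i ∈ H1' := fun i => (Quotient.out i : H1').2
  have hcardQ : Fintype.card Q * H1'.index = H'.index := by
    have h2 := Subgroup.relIndex_mul_index hH'le
    rw [← h2]
    congr 1
    rw [← Nat.card_eq_fintype_card]
    rfl
  have hpos : 0 < H1'.index := Nat.pos_of_ne_zero Subgroup.FiniteIndex.index_ne_zero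
  -- separation of the cosets
  have hsep : ∀ i j : Q, (g j)⁻¹ * g i ∈ H' → i = j := by
    intro i j hij
    have h1 : (Quotient.out j : H1')⁻¹ * (Quotient.out i : H1') ∈ H'.subgroupOf H1' := by
      rw [Subgroup.mem_subgroupOf]
      exact hij
    have h2 : (QuotientGroup.mk (Quotient.out j : H1') : Q) = QuotientGroup.mk (Quotient.out i : H1') :=
      QuotientGroup.eq.mpr h1
    have e1 : (QuotientGroup.mk (Quotient.out j : H1') : Q) = j := Quotient.out_eq j
    have e2 : (QuotientGroup.mk (Quotient.out i : H1') : Q) = i := Quotient.out_eq i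
    rw [e1, e2] at h2
    exact h2.symm
  have hsmul_inv : ∀ (a b : Γ) (y z : L), a • y = b • z → y = (a⁻¹ * b) • z := by
    intro a b y z h
    rw [mul_smul, ← h, inv_smul_smul]
  -- the two norm formulas
  have hN' := norm_hom_eq_prod_smul (Γ := Γ) φ1' φ' π' hπ' hfd' g
    (fun i y => (hH1' (g i)).mp (hgmem i) y)
    (fun i j hij => hsep i j ((hH' _).mpr fun y => by
      have := hsmul_inv (g j) (g i) (φ' y) (φ' y) (hij y).symm
      exact this.symm))
    (by
      have := hdeg'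
      rw [← hcardQ] at this
      exact Nat.le_of_mul_le_mul_right this hpos)
    (α x)
  have hH1'le : ∀ i, ∀ y : F1, g i • φ1 y = φ1 y := by
    intro i y
    rw [← hα1]
    exact (hH1' (g i)).mp (hgmem i) (α1 y)
  have hN := norm_hom_eq_prod_smul (Γ := Γ) φ1 φ π hπ hfd g hH1'le
    (fun i j hij => hsep i j (hle _ ((hH _).mpr fun y => by
      have := hsmul_inv (g j) (g i) (φ y) (φ y) (hij y).symm
      exact this.symm) (H1'.mul_mem (H1'.inv_mem (hgmem j)) (hgmem i))))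
    (by
      have := hdeg
      rw [← hcardQ] at this
      exact Nat.le_of_mul_le_mul_right this hpos)
    x
  apply φ1'.toRingHom.injective
  show φ1' _ = φ1' _
  rw [hN', hα1, hN]
  exact Finset.prod_congr rfl fun i _ => by rw [hα]

end AuxNorm

end Fermat.Agent.S36G
end
end MergeWrap_S36_G_AuxNorm

section MergeWrap_S36_G_AuxNormMod -- from S36/G/AuxNormMod.lean

set_option autoImplicit false
set_option linter.style.haveILetI false
set_option linter.unusedSectionVars false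

noncomputable section

namespace Fermat.Agent.S36G

open ModularCurve AlgebraicCurve Fermat.Agent.S24 Fermat.Agent.S24.EmbFHom
  Fermat.Agent.Kronecker
open scoped MatrixGroups

local notation "Qb" => AlgebraicClosure ℚ

section

set_option synthInstance.maxHeartbeats 400000
set_option maxHeartbeats 1000000

/-- a homomorphism between modular function fields which is the identity on `q`-expansions
is compatible with the embeddings in `LL M`. -/
theorem aux_embHom_of_coe (N N' M : ℕ) [NeZero N] [NeZero N'] [NeZero M] (hNM : N ∣ M)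
    (hN'M : N' ∣ M) (π : ↥(modularFunctionFieldBar N) →ₐ[Qb] ↥(modularFunctionFieldBar N'))
    (hπ : ∀ x, ((π x : ↥(modularFunctionFieldBar N')) : LaurentSeries Qb)
      = (x : LaurentSeries Qb))
    (x : ↥(modularFunctionFieldBar N)) :
    embHom N' M hN'M (π x) = embHom N M hNM x := by
  apply expLL_injective M
  rw [expLL_embHom, expLL_embHom, hπ]

/-- the degree of an inclusion of modular function fields. -/
theorem aux_finrank_of_coe (N N' M : ℕ) [NeZero N] [NeZero N'] [NeZero M] (hNM : N ∣ M)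
    (hN'M : N' ∣ M) (π : ↥(modularFunctionFieldBar N) →ₐ[Qb] ↥(modularFunctionFieldBar N'))
    (hπ : ∀ x, ((π x : ↥(modularFunctionFieldBar N')) : LaurentSeries Qb)
      = (x : LaurentSeries Qb)) :
    letI := π.toRingHom.toAlgebra
    FiniteDimensional ↥(modularFunctionFieldBar N) ↥(modularFunctionFieldBar N') ∧
      Module.finrank ↥(modularFunctionFieldBar N) ↥(modularFunctionFieldBar N')
        * dedekindPsi N = dedekindPsi N' := by
  have hj : embHom N M hNM (jBar N) = jLL M := embHom_jq N M hNM (jBar N) rfl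
  obtain ⟨hfd, hrank⟩ := finrank_hom_mul_index_eq_index (Γ := SL(2, ℤ))
    (embHom N M hNM) (embHom N' M hN'M) π (aux_embHom_of_coe N N' M hNM hN'M π hπ)
    (jBar N) (exists_finiteIndex_fixing M)
    (fun g => by rw [hj]; exact smul_jLL M g)
    (fun x hx => by
      rw [hj]; exact Fermat.Agent.S24Inv.mem_adjoin_jLL_of_invariant' M x hx)
    (CongruenceSubgroup.Gamma0 N) (CongruenceSubgroup.Gamma0 N')
    (mem_Gamma0_iff_smul_embHom N M hNM)
    (mem_Gamma0_iff_smul_embHom N' M hN'M)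
  refine ⟨hfd, ?_⟩
  rw [index_Gamma0 N, index_Gamma0 N'] at hrank
  exact hrank

/-- **Base change of the norm** for modular function fields. -/
theorem aux_norm_modular (N1 N N1' N' : ℕ) [NeZero N1] [NeZero N] [NeZero N1'] [NeZero N']
    (h1 : N1 ∣ N') (h2 : N ∣ N') (h3 : N1' ∣ N')
    (hle : ∀ γ : SL(2, ℤ), γ ∈ CongruenceSubgroup.Gamma0 N → γ ∈ CongruenceSubgroup.Gamma0 N1' →
      γ ∈ CongruenceSubgroup.Gamma0 N')
    (hψ : dedekindPsi N * dedekindPsi N1' = dedekindPsi N1 * dedekindPsi N')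
    (π : ↥(modularFunctionFieldBar N1) →ₐ[Qb] ↥(modularFunctionFieldBar N))
    (π' : ↥(modularFunctionFieldBar N1') →ₐ[Qb] ↥(modularFunctionFieldBar N'))
    (α1 : ↥(modularFunctionFieldBar N1) →ₐ[Qb] ↥(modularFunctionFieldBar N1'))
    (α : ↥(modularFunctionFieldBar N) →ₐ[Qb] ↥(modularFunctionFieldBar N'))
    (hπ : ∀ x, ((π x : ↥(modularFunctionFieldBar N)) : LaurentSeries Qb) = (x : LaurentSeries Qb))
    (hπ' : ∀ x, ((π' x : ↥(modularFunctionFieldBar N')) : LaurentSeries Qb)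
      = (x : LaurentSeries Qb))
    (hα1 : ∀ x, ((α1 x : ↥(modularFunctionFieldBar N1')) : LaurentSeries Qb)
      = (x : LaurentSeries Qb))
    (hα : ∀ x, ((α x : ↥(modularFunctionFieldBar N')) : LaurentSeries Qb)
      = (x : LaurentSeries Qb))
    (x : ↥(modularFunctionFieldBar N)) :
    (letI := π'.toRingHom.toAlgebra; Algebra.norm ↥(modularFunctionFieldBar N1')) (α x)
      = α1 ((letI := π.toRingHom.toAlgebra; Algebra.norm ↥(modularFunctionFieldBar N1)) x) := by
  obtain ⟨hfd, hrank⟩ := aux_finrank_of_coe N1 N N' h1 h2 π hπ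
  obtain ⟨hfd', hrank'⟩ := aux_finrank_of_coe N1' N' N' h3 dvd_rfl π' hπ'
  have hpos1 : 0 < dedekindPsi N1 := by
    rw [← index_Gamma0 N1]
    exact Nat.pos_of_ne_zero Subgroup.FiniteIndex.index_ne_zero
  have key : ∀ d : ℕ, d * dedekindPsi N1 = dedekindPsi N → d * dedekindPsi N1' ≤ dedekindPsi N' := by
    intro d hd
    apply le_of_eq
    apply Nat.eq_of_mul_eq_mul_right hpos1
    calc d * dedekindPsi N1' * dedekindPsi N1 = (d * dedekindPsi N1) * dedekindPsi N1' := by ring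
      _ = dedekindPsi N * dedekindPsi N1' := by rw [hd]
      _ = dedekindPsi N' * dedekindPsi N1 := by rw [hψ]; ring
  refine aux_norm_baseChange (Γ := SL(2, ℤ)) (embHom N1 N' h1) (embHom N N' h2)
    (embHom N1' N' h3) (embHom N' N' dvd_rfl) π π' α1 α
    (aux_embHom_of_coe N1 N N' h1 h2 π hπ)
    (aux_embHom_of_coe N1' N' N' h3 dvd_rfl π' hπ')
    (aux_embHom_of_coe N1 N1' N' h1 h3 α1 hα1)
    (aux_embHom_of_coe N N' N' h2 dvd_rfl α hα)
    (CongruenceSubgroup.Gamma0 N) (CongruenceSubgroup.Gamma0 N1') (CongruenceSubgroup.Gamma0 N')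
    (mem_Gamma0_iff_smul_embHom N N' h2)
    (mem_Gamma0_iff_smul_embHom N1' N' h3)
    (mem_Gamma0_iff_smul_embHom N' N' dvd_rfl)
    hle hfd hfd' ?_ ?_ x
  · rw [index_Gamma0 N1', index_Gamma0 N']
    exact key _ hrank
  · rw [index_Gamma0 N1', index_Gamma0 N']
    exact le_of_eq hrank'

end

end Fermat.Agent.S36G
end
end MergeWrap_S36_G_AuxNormMod

section MergeWrap_S36_G_AuxLevel -- from S36/G/AuxLevel.lean

set_option autoImplicit false
set_option linter.unusedSectionVars false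
set_option linter.style.haveILetI false

noncomputable section

namespace Fermat.Agent.S36G

open ModularCurve AlgebraicCurve Fermat.Agent.F3 Fermat.Agent.F3G
  Fermat.Agent.AtkinLehner Fermat.Agent.Kronecker Fermat.Agent.F3I2 Fermat.Agent.F3Deg
  Fermat.Agent.F3DegW Fermat.Agent.F3T Fermat.Agent.FF Fermat.Agent.BadRed
  Fermat.Agent.BadRed.PullAux

local notation "Qb" => AlgebraicClosure ℚ

section Norm

set_option synthInstance.maxHeartbeats 400000
set_option maxHeartbeats 1000000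

variable {N₀ q ℓ : ℕ} [NeZero N₀] [NeZero q] [NeZero ℓ]

/-- `Γ₀(N₀ q) ∩ Γ₀(N₀ ℓ) ⊆ Γ₀(N₀ ℓ q)` for coprime `q`, `ℓ`. -/
theorem aux_gamma0_inter (hcop : Nat.Coprime q ℓ) (γ : Matrix.SpecialLinearGroup (Fin 2) ℤ)
    (h1 : γ ∈ CongruenceSubgroup.Gamma0 (N₀ * q)) (h2 : γ ∈ CongruenceSubgroup.Gamma0 (N₀ * ℓ)) :
    γ ∈ CongruenceSubgroup.Gamma0 (N₀ * ℓ * q) := by
  rw [CongruenceSubgroup.Gamma0_mem] at h1 h2 ⊢
  rw [ZMod.intCast_zmod_eq_zero_iff_dvd] at h1 h2 ⊢
  have e : ((N₀ * ℓ * q : ℕ) : ℤ) = (N₀ : ℤ) * ((q : ℤ) * (ℓ : ℤ)) := by push_cast; ring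
  rw [e]
  have hN0 : (N₀ : ℤ) ≠ 0 := by exact_mod_cast NeZero.ne N₀
  obtain ⟨a, ha⟩ := h1
  obtain ⟨b, hb⟩ := h2
  have hqa : (q : ℤ) ∣ (γ 1 0) / (N₀ : ℤ) := by
    refine ⟨a, ?_⟩
    rw [ha]
    push_cast
    rw [mul_assoc, Int.mul_ediv_cancel_left _ hN0]
  have hℓb : (ℓ : ℤ) ∣ (γ 1 0) / (N₀ : ℤ) := by
    refine ⟨b, ?_⟩
    rw [hb]
    push_cast
    rw [mul_assoc, Int.mul_ediv_cancel_left _ hN0]
  have hcop' : IsCoprime (q : ℤ) (ℓ : ℤ) := Nat.isCoprime_iff_coprime.mpr hcop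
  have hql := hcop'.mul_dvd hqa hℓb
  have hdiv : (N₀ : ℤ) ∣ γ 1 0 := ⟨(q : ℤ) * a, by rw [ha]; push_cast; ring⟩
  obtain ⟨t, ht⟩ := hql
  refine ⟨t, ?_⟩
  have := Int.ediv_mul_cancel hdiv
  rw [← this, ht]
  ring

/-- `ψ(N₀ q) ψ(N₀ ℓ) = ψ(N₀) ψ(N₀ ℓ q)` for primes `q ≠ ℓ`. -/
theorem aux_psi (hq : q.Prime) (hℓ : ℓ.Prime) (hqℓ : q ≠ ℓ) :
    dedekindPsi (N₀ * q) * dedekindPsi (N₀ * ℓ)
      = dedekindPsi N₀ * dedekindPsi (N₀ * ℓ * q) := by
  have h := Fermat.Agent.HeckeComm.dedekindPsi_square hq hℓ hqℓ (N := N₀) (NeZero.ne N₀)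
  rw [mul_comm (dedekindPsi N₀), h]

/-- **the norm along `α_q` commutes with the inclusion of the levels `N₀ q ⊂ N₀ ℓ q`**
(`q ∣ N₀` allowed). -/
theorem aux_normAlong_inclBar (hq : q.Prime) (hℓ : ℓ.Prime) (hqℓ : q ≠ ℓ)
    (h : N₀ * q ∣ N₀ * ℓ * q) (h₀ : N₀ ∣ N₀ * ℓ) (x : FBar (N₀ * q)) :
    normAlong (heckeAlphaBar Qb (N₀ * ℓ) q) (inclBar h x) =
      inclBar h₀ (normAlong (heckeAlphaBar Qb N₀ q) x) := by
  have hcop : Nat.Coprime q ℓ := (Nat.coprime_primes hq hℓ).mpr hqℓ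
  exact aux_norm_modular N₀ (N₀ * q) (N₀ * ℓ) (N₀ * ℓ * q)
    (Dvd.intro _ (mul_assoc N₀ ℓ q).symm) h (Dvd.intro _ rfl)
    (aux_gamma0_inter hcop) (aux_psi hq hℓ hqℓ)
    (heckeAlphaBar Qb N₀ q) (heckeAlphaBar Qb (N₀ * ℓ) q) (inclBar h₀) (inclBar h)
    (fun y => by rw [coe_heckeAlphaBar]) (fun y => by rw [coe_heckeAlphaBar])
    (fun y => coe_inclBar h₀ y) (fun y => coe_inclBar h y) x

end Norm

section Classes

set_option synthInstance.maxHeartbeats 400000
set_option maxHeartbeats 1000000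

variable {N₀ q ℓ : ℕ} [NeZero N₀] [NeZero q] [NeZero ℓ]

/-- **`α^*` commutes with the degeneracy push-forward `α_{q,*}`** on torsion classes
(`q ∣ N₀` allowed). -/
theorem aux_pushAlpha_pullJZero (hq : q.Prime) (hℓ : ℓ.Prime) (hqℓ : q ≠ ℓ)
    (h : N₀ * q ∣ N₀ * ℓ * q) (h₀ : N₀ ∣ N₀ * ℓ) {n : ℕ} (hn : n ≠ 0)
    (x : JZero (N₀ * q)) (hx : n • x = 0) :
    pushAlpha (N₀ * ℓ) q (pullJZero h x) = pullJZero h₀ (pushAlpha N₀ q x) := by
  haveI := hasPrincipalDivisors_bar (N₀ * ℓ * q)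
  haveI := hasPrincipalDivisors_bar (N₀ * ℓ)
  have hx' : (n : ℤ) • x = 0 := by rwa [natCast_zsmul]
  obtain ⟨E, f, hf, rfl, hE⟩ := exists_div_of_zsmul_eq_zero (n : ℤ) x hx'
  have hE' : IsRootDiv n f E := ⟨hf, hE⟩
  set hH := Fermat.Agent.HeckeInputs.hi_heckeInputsAlong_Qbar N₀ q with hHdef
  set hH' := Fermat.Agent.HeckeInputs.hi_heckeInputsAlong_Qbar (N₀ * ℓ) q with hHdef'
  rw [pullJZero_mk, pushAlpha_mk, pushAlpha_mk, pullJZero_mk]
  refine congrArg Pic0.mk
    (eq_of_isRootDiv hn (x := normAlong (heckeAlphaBar Qb (N₀ * ℓ) q) (inclBar h f)) ?_ ?_)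
  · exact IsRootDiv.push (heckeAlphaBar Qb (N₀ * ℓ) q) hH'.fst hH'.snd.snd.snd.fst
      hH'.snd.snd.snd.snd.2
      (isRootDiv_pull (inclBar h) (inclBar_isIntegral h) (inclBar_fundId h) hE')
  · rw [aux_normAlong_inclBar hq hℓ hqℓ h h₀ f]
    exact isRootDiv_pull (inclBar h₀) (inclBar_isIntegral h₀) (inclBar_fundId h₀)
      (IsRootDiv.push (heckeAlphaBar Qb N₀ q) hH.fst hH.snd.snd.snd.fst
        hH.snd.snd.snd.snd.2 hE')

/-- the transfer core for a prime `ℓ` (dividing `N` or not). -/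
theorem aux_transferCore (N : ℕ) [NeZero N] (hℓ : ℓ.Prime) : TransferCore N ℓ := by
  apply transferCore
  have h := dedekindPsi_prime_pow_mul_lt hℓ (a := 1) one_pos
    (Nat.pos_of_ne_zero (NeZero.ne N))
  simpa using h

/-- **(CORE) property** at level `N₁ q` for the Atkin–Lehner datum `D`, the constant `c` and the
place `P` (the body of `CoreAt`, without level casts). -/
def CoreProp (lam N₁ q : ℕ) [NeZero N₁] [NeZero q] (D : ALData) (hM : N₁ * q = D.Q * D.R)
    (c : ℕ) (H : Subgroup (Qb ≃ₐ[ℚ] Qb)) : Prop :=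
  ∀ (n : ℕ) (y : JZero (N₁ * q)), lam ^ n • y = 0 →
    pushAlpha N₁ q y = 0 → pushAlpha N₁ q (pushWAt D hM y) = 0 →
    (∀ σ ∈ H, σ • y = y) → c • y = 0

/-- **Step 0 (AUX)**: (CORE) at the level `N₀ ℓ q` implies (CORE) at the level `N₀ q`, with the
same constant and the same group (`ℓ ≠ q` primes; `q ∣ N₀` and `ℓ ∣ N₀` allowed). -/
theorem coreProp_of_aux {lam : ℕ} (hlam : lam ≠ 0) (hq : q.Prime) (hℓ : ℓ.Prime)
    (hqℓ : q ≠ ℓ) (D D' : ALData) (hM : N₀ * q = D.Q * D.R)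
    (hM' : N₀ * ℓ * q = D'.Q * D'.R) (hQ : D'.Q = D.Q) (hR : D'.R = D.R * ℓ)
    (c : ℕ) (H : Subgroup (Qb ≃ₐ[ℚ] Qb))
    (hcore : CoreProp lam (N₀ * ℓ) q D' hM' c H) : CoreProp lam N₀ q D hM c H := by
  intro n y hy h1 h2 hI
  have h : N₀ * q ∣ N₀ * ℓ * q := ⟨ℓ, by ring⟩
  have h₀ : N₀ ∣ N₀ * ℓ := Dvd.intro _ rfl
  have hn : lam ^ n ≠ 0 := pow_ne_zero n hlam
  have hyw : lam ^ n • pushWAt D hM y = 0 := by
    rw [← map_nsmul, hy, map_zero]
  have key := hcore n (pullJZero h y) (by rw [← map_nsmul, hy, map_zero])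
    (by rw [aux_pushAlpha_pullJZero hq hℓ hqℓ h h₀ hn y hy, h1, map_zero])
    (by rw [pushWAt_pullJZero D D' hM hM' h hQ hR hn y hy,
          aux_pushAlpha_pullJZero hq hℓ hqℓ h h₀ hn _ hyw, h2, map_zero])
    (fun σ hσ => by rw [← pullJZero_smul, hI σ hσ])
  rw [← map_nsmul] at key
  have hcy : lam ^ n • (c • y) = 0 := by
    rw [smul_comm, hy, smul_zero]
  exact pullJZero_injective_of_torsion (N₀ * q) ℓ (aux_transferCore (N₀ * q) hℓ)
    (by ring) h (Nat.pos_of_ne_zero hn) (c • y) hcy key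

end Classes

end Fermat.Agent.S36G
end
end MergeWrap_S36_G_AuxLevel

section MergeWrap_S36_Bridge_Defs -- from S36/Bridge/Defs.lean

set_option autoImplicit false
set_option linter.unusedSectionVars false
set_option linter.style.haveILetI false

noncomputable section

namespace Fermat.Agent.S36B

open ModularCurve AlgebraicCurve CongruenceSubgroup IsLocalRing
open Fermat.Agent.F3 Fermat.Agent.F3EC Fermat.Agent.F3Deg Fermat.Agent.F3DegW
open Fermat.Agent.AtkinLehner (ALData)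
open scoped TensorProduct

local notation "Qb" => AlgebraicClosure ℚ

/-! ### (CORE) -/

/-- **(CORE)** at a prime `q` (used for `q² ∥ M`, `q ≠ lam`): there are a constant `c ≠ 0` and
a place `P ∣ q` such that every `y ∈ J₀(M)[lam ^ n]` (any `n`) which is fixed by the inertia
group of `P` and killed by `α_*` and by `α_* ∘ w_*` (`w = w_{q²}`) is killed by `c`. -/
def CoreAt (lam M q : ℕ) [NeZero M] [NeZero q] [NeZero (M / q)] : Prop :=
  ∀ (D : ALData), D.Q = q ^ 2 → ∀ (hM : M = D.Q * D.R) (hMq : M = M / q * q),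
    ∃ c : ℕ, c ≠ 0 ∧ ∃ P : ValuationSubring Qb, P.LiesOverPrime q ∧
      ∀ (n : ℕ) (y : JZero M), lam ^ n • y = 0 →
        Fermat.Agent.S35.pushAlphaAt hMq y = 0 →
        Fermat.Agent.S35.pushAlphaAt hMq (pushWAt D hM y) = 0 →
        (∀ σ ∈ P.inertiaSubgroupIn ℚ, σ • y = y) → c • y = 0

/-- **(CORE)** for all levels. -/
def CoreAll : Prop :=
  ∀ (lam M q : ℕ) [NeZero M] [NeZero q] [NeZero (M / q)], lam.Prime → q.Prime → q ≠ lam →
    M.factorization q = 2 → CoreAt lam M q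

/-! ### newness inputs (J-side route) -/

/-- **(N-DM1, α)** `α_* ∘ T_ℓ = T_ℓ ∘ α_*` on `J₀`, `ℓ ∤ N₀ q` (`q ∣ N₀` allowed). -/
def PushAlphaHecke : Prop :=
  ∀ (N₀ q : ℕ) [NeZero N₀] [NeZero q] [NeZero (N₀ * q)], q.Prime →
    ∀ (ℓ : Nat.Primes), ¬ (ℓ : ℕ) ∣ N₀ * q → ∀ y : JZero (N₀ * q),
      pushAlpha N₀ q (heckeOperatorBar (N₀ * q) ℓ y) = heckeOperatorBar N₀ ℓ (pushAlpha N₀ q y)

/-- **(N-DM1, w)** `w_* ∘ T_ℓ = T_ℓ ∘ w_*` on `J₀(M)`, `ℓ ∤ M`. -/
def PushWHecke : Prop :=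
  ∀ (M : ℕ) [NeZero M] (D : ALData) (hM : M = D.Q * D.R) (ℓ : Nat.Primes), ¬ (ℓ : ℕ) ∣ M →
    ∀ y : JZero M,
      pushWAt D hM (heckeOperatorBar M ℓ y) = heckeOperatorBar M ℓ (pushWAt D hM y)

/-- **(N-KS)** `κ_{p^k}` is onto the `p^k`-torsion. -/
def KappaSurj : Prop :=
  ∀ (N : ℕ) [NeZero N] (p : ℕ), p.Prime → ∀ k : ℕ, Function.Surjective (kappaC N (p ^ k))

/-- **(N-NV)** `g` a newform of level `M`, `N₁ ∣ M`, `N₁ ≠ M`: a vector
`y ∈ O ⊗ Hom_par(Γ₀(N₁), ℤ)` on which `T_ℓ` acts by `ι (a_ℓ(g))` for all primes `ℓ ∤ M`,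
`ℓ ∉ S`, is zero. -/
def NewLevel : Prop :=
  ∀ (M N₁ : ℕ) [NeZero M] [NeZero N₁], N₁ ∣ M → N₁ ≠ M →
    ∀ (g : CuspForm (Gamma0 M) 2), g.IsNewform →
    ∀ (S : Finset ℕ), (∀ r : ℕ, r.Prime → r ∣ M → r ∈ S) →
      ∀ (O : Type) [CommRing O] [IsDomain O] [CharZero O]
        (chig : CuspForm.heckeAlgebra M 2 (↑S : Set ℕ) →+* ℂ),
        (∀ (ℓ : ℕ) (hℓ : ℓ.Prime) (hℓM : ¬ ℓ ∣ M) (hℓS : ℓ ∉ (↑S : Set ℕ)),
          chig (CuspForm.heckeAlgebra.T hℓ hℓM hℓS) = ModularFormClass.qCoeff g ℓ) →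
        ∀ (iota : chig.range →+* O) (y : O ⊗[ℤ] HomPar N₁),
          (∀ (ℓ : ℕ) (hℓ : ℓ.Prime) (hℓM : ¬ ℓ ∣ M) (hℓS : ℓ ∉ (↑S : Set ℕ)),
            (heckeHom N₁ ⟨ℓ, hℓ⟩).baseChange O y =
              (iota.comp chig.rangeRestrict) (CuspForm.heckeAlgebra.T hℓ hℓM hℓS) • y) →
          y = 0

/-- **(N-LIM)** `g` a newform of level `M`, `N₁ ∣ M`, `N₁ ≠ M`, `O` a complete DVR with `p ∈ 𝔪`:
a compatible family `z n ∈ O ⊗ J₀(N₁)[p ^ n]` on which `T_ℓ` acts by `ι (a_ℓ(g))` for all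
primes `ℓ ∤ M`, `ℓ ∉ S`, is zero. -/
def EigenTateZero : Prop :=
  ∀ (M N₁ : ℕ) [NeZero M] [NeZero N₁], N₁ ∣ M → N₁ ≠ M →
    ∀ (g : CuspForm (Gamma0 M) 2), g.IsNewform →
    ∀ (p : ℕ), p.Prime →
    ∀ (S : Finset ℕ), (∀ r : ℕ, r.Prime → r ∣ M → r ∈ S) →
      ∀ (O : Type) [CommRing O] [IsDomain O] [IsDiscreteValuationRing O]
        [IsAdicComplete (maximalIdeal O) O] [CharZero O], (p : O) ∈ maximalIdeal O →
      ∀ (chig : CuspForm.heckeAlgebra M 2 (↑S : Set ℕ) →+* ℂ),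
        (∀ (ℓ : ℕ) (hℓ : ℓ.Prime) (hℓM : ¬ ℓ ∣ M) (hℓS : ℓ ∉ (↑S : Set ℕ)),
          chig (CuspForm.heckeAlgebra.T hℓ hℓM hℓS) = ModularFormClass.qCoeff g ℓ) →
        ∀ (iota : chig.range →+* O) (z : (n : ℕ) → O ⊗[ℤ] Jtors N₁ (p ^ n)),
          (∀ n, (Fermat.Agent.S30.mulPTors N₁ p n).baseChange O (z (n + 1)) = z n) →
          (∀ (n ℓ : ℕ) (hℓ : ℓ.Prime) (hℓM : ¬ ℓ ∣ M) (hℓS : ℓ ∉ (↑S : Set ℕ)),
            (heckeTors N₁ (p ^ n) ⟨ℓ, hℓ⟩).baseChange O (z n) =
              (iota.comp chig.rangeRestrict) (CuspForm.heckeAlgebra.T hℓ hℓM hℓS) • z n) →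
          ∀ n, z n = 0

end Fermat.Agent.S36B
end
end MergeWrap_S36_Bridge_Defs

section MergeWrap_S36_G_AuxCore -- from S36/G/AuxCore.lean

set_option autoImplicit false
set_option linter.unusedSectionVars false
set_option linter.style.haveILetI false

noncomputable section

namespace Fermat.Agent.S36G

open ModularCurve AlgebraicCurve Fermat.Agent.F3 Fermat.Agent.F3G
  Fermat.Agent.AtkinLehner Fermat.Agent.F3I2 Fermat.Agent.F3Deg
  Fermat.Agent.F3DegW Fermat.Agent.BadRed Fermat.Agent.S35 Fermat.Agent.S36B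

local notation "Qb" => AlgebraicClosure ℚ

section

set_option synthInstance.maxHeartbeats 400000
set_option maxHeartbeats 1000000

/-- `coreProp_of_aux` with level casts. -/
theorem aux_core_cast {lam q r : ℕ} [NeZero q] [NeZero r] {M N₁ M' N₁' : ℕ} [NeZero M]
    [NeZero N₁] [NeZero M'] [NeZero N₁'] (hlam : lam ≠ 0) (hq : q.Prime) (hr : r.Prime)
    (hqr : q ≠ r) (hMq : M = N₁ * q) (hMq' : M' = N₁' * q) (hN : N₁' = N₁ * r)
    (D D' : ALData) (hM : M = D.Q * D.R) (hM' : M' = D'.Q * D'.R) (hQ : D'.Q = D.Q)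
    (hR : D'.R = D.R * r) (c : ℕ) (H : Subgroup (Qb ≃ₐ[ℚ] Qb))
    (hcore : ∀ (n : ℕ) (y : JZero M'), lam ^ n • y = 0 → pushAlphaAt hMq' y = 0 →
      pushAlphaAt hMq' (pushWAt D' hM' y) = 0 → (∀ σ ∈ H, σ • y = y) → c • y = 0) :
    ∀ (n : ℕ) (y : JZero M), lam ^ n • y = 0 → pushAlphaAt hMq y = 0 →
      pushAlphaAt hMq (pushWAt D hM y) = 0 → (∀ σ ∈ H, σ • y = y) → c • y = 0 := by
  subst hN
  subst hMq
  subst hMq'
  exact coreProp_of_aux (N₀ := N₁) (q := q) (ℓ := r) hlam hq hr hqr D D' hM hM' hQ hR c H hcore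

/-- **Step 0 (AUX)** for `CoreAt`: descent from the auxiliary level `M * r`. -/
theorem coreAt_of_aux (lam M q r M' : ℕ) [NeZero M] [NeZero q] [NeZero (M / q)] [NeZero M']
    [NeZero (M' / q)] (hlam : lam ≠ 0) (hq : q.Prime) (hr : r.Prime)
    (hqr : q ≠ r) (hM' : M' = M * r) (h : CoreAt lam M' q) : CoreAt lam M q := by
  intro D hDQ hM hMq
  haveI : NeZero r := ⟨hr.ne_zero⟩
  have hcopQR : Nat.Coprime D.Q D.R := by
    have h1 : IsCoprime (D.Q : ℤ) (D.R : ℤ) := ⟨D.a, -D.b, by have := D.hdet; linarith⟩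
    exact Nat.isCoprime_iff_coprime.mp h1
  have hcopQr : Nat.Coprime D.Q r := by
    rw [hDQ]
    exact Nat.Coprime.pow_left 2 ((Nat.coprime_primes hq hr).mpr hqr)
  obtain ⟨D', hQ', hR'⟩ := ALData.exists_of_coprime D.hQ (Nat.mul_pos D.hR hr.pos)
    (Nat.Coprime.mul_right hcopQR hcopQr)
  have hM'' : M' = D'.Q * D'.R := by rw [hM', hQ', hR', hM]; ring
  have hqM : q ∣ M := ⟨M / q, by rw [mul_comm]; exact hMq⟩
  have hMq' : M' = M' / q * q := by
    rw [Nat.div_mul_cancel]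
    rw [hM']
    exact hqM.mul_right r
  have hN : M' / q = M / q * r := by
    apply Nat.eq_of_mul_eq_mul_right hq.pos
    rw [← hMq', hM']
    calc M * r = M / q * q * r := by rw [← hMq]
      _ = M / q * r * q := by ring
  obtain ⟨c, hc, P, hP, hcore⟩ := h D' (hQ'.trans hDQ) hM'' hMq'
  exact ⟨c, hc, P, hP, aux_core_cast hlam hq hr hqr hMq hMq' hN D D' hM hM'' hQ' hR' c
    (P.inertiaSubgroupIn ℚ) hcore⟩

/-- level cast for `CoreAt`. -/
theorem coreAt_congr {lam q M M' : ℕ} [NeZero q] [NeZero M] [NeZero (M / q)] [NeZero M']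
    [NeZero (M' / q)] (h : M = M') (hc : CoreAt lam M q) : CoreAt lam M' q := by
  subst h
  exact hc

/-- positivity of `M * a / q`. -/
theorem aux_neZero_div {M a q : ℕ} [NeZero (M / q)] (ha : a ≠ 0) (hq : 0 < q) :
    NeZero (M * a / q) := by
  refine ⟨?_⟩
  have h1 : 0 < M / q := Nat.pos_of_ne_zero (NeZero.ne (M / q))
  have h2 : q ≤ M := by
    by_contra hlt
    rw [Nat.div_eq_of_lt (not_le.mp hlt)] at h1
    exact lt_irrefl 0 h1
  have h3 : q ≤ M * a := le_trans h2 (Nat.le_mul_of_pos_right M (Nat.pos_of_ne_zero ha))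
  exact (Nat.div_pos h3 hq).ne'

/-- **Step 0 (AUX)**, general auxiliary factor: for `R` prime to `q`,
`CoreAt lam (M * R) q → CoreAt lam M q`. -/
theorem coreAt_of_aux_mul (lam q : ℕ) [NeZero q] (hlam : lam ≠ 0) (hq : q.Prime) (R : ℕ) :
    Nat.Coprime R q → ∀ (M : ℕ) [NeZero M] [NeZero (M / q)] [NeZero (M * R)]
      [NeZero (M * R / q)], CoreAt lam (M * R) q → CoreAt lam M q := by
  induction R using Nat.recOnMul with
  | zero =>
    intro _ M _ _ h0 _ _
    exact absurd (mul_zero M) (NeZero.ne (M * 0))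
  | one =>
    intro _ M _ _ _ _ hc
    exact coreAt_congr (mul_one M) hc
  | prime p hp =>
    intro hcop M _ _ _ _ hc
    have hqp : q ≠ p := by
      rintro rfl
      rw [Nat.coprime_self] at hcop
      exact hq.ne_one hcop
    exact coreAt_of_aux lam M q p (M * p) hlam hq hp hqp rfl hc
  | mul a b iha ihb =>
    intro hcop M _ _ hMab _ hc
    have hab : a * b ≠ 0 := fun h0 => by
      have := NeZero.ne (M * (a * b))
      rw [h0, mul_zero] at this
      exact this rfl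
    have ha : a ≠ 0 := left_ne_zero_of_mul hab
    have hb : b ≠ 0 := right_ne_zero_of_mul hab
    have hcopa : Nat.Coprime a q := Nat.Coprime.coprime_mul_right hcop
    have hcopb : Nat.Coprime b q := Nat.Coprime.coprime_mul_left hcop
    haveI : NeZero (M * a) := ⟨Nat.mul_ne_zero (NeZero.ne M) ha⟩
    haveI : NeZero (M * a / q) := aux_neZero_div ha hq.pos
    haveI : NeZero (M * a * b) := ⟨Nat.mul_ne_zero (NeZero.ne (M * a)) hb⟩
    haveI : NeZero (M * a * b / q) := aux_neZero_div hb hq.pos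
    have hc' : CoreAt lam (M * a * b) q := coreAt_congr (mul_assoc M a b).symm hc
    exact iha hcopa M (ihb hcopb (M * a) hc')

end

end Fermat.Agent.S36G
end
end MergeWrap_S36_G_AuxCore

section MergeWrap_S36_G_CoreDict -- from S36/G/CoreDict.lean

set_option autoImplicit false
set_option linter.style.haveILetI false
set_option linter.unusedSectionVars false

noncomputable section

namespace Fermat.Agent.S36G

open ModularCurve AlgebraicCurve Fermat.Agent.F3 Fermat.Agent.F3G Fermat.Agent.F3I2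

local notation "Qb" => AlgebraicClosure ℚ

section generic

variable {K F : Type*} [Field K] [Field F] [Algebra K F]

/-- `(1/n) div (g ^ c) = c • (1/n) div g`. -/
theorem cd_isRootDiv_pow {n : ℕ} {g : F} {E : Divisor.degZero (K := K) (F := F)}
    (hE : IsRootDiv n g E) (c : ℕ) : IsRootDiv n (g ^ c) (c • E) := by
  refine ⟨pow_ne_zero c hE.1, fun v => ?_⟩
  rw [AddSubgroup.coe_nsmul, Finsupp.smul_apply, nsmul_eq_mul, ← zpow_natCast g c,
    Place.ord_zpow, ← hE.2 v]
  ring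

/-- `n ∣ ord_v g` for a Kummer generator. -/
theorem cd_dvd_ord {n : ℕ} {g : F} {E : Divisor.degZero (K := K) (F := F)}
    (hE : IsRootDiv n g E) (v : Place K F) : (n : ℤ) ∣ v.ord g :=
  ⟨_, (hE.2 v).symm⟩

/-- **functions → torsion**: if `n E = div g` and `g ^ c = a · vⁿ` then `c • [E] = 0`. -/
theorem cd_kill_of_pow {n : ℕ} (hn : 0 < n) {g : F} {E : Divisor.degZero (K := K) (F := F)}
    (hE : IsRootDiv n g E) (c : ℕ) {v : F} {a : K} (ha : a ≠ 0)
    (h : g ^ c = algebraMap K F a * v ^ n) : c • Pic0.mk E = 0 := by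
  have h1 : IsRootDiv n (g ^ c) (c • E) := cd_isRootDiv_pow hE c
  have h2 : IsRootDiv n (v ^ n) (c • E) := by
    have h3 := h1.const_mul (inv_ne_zero ha)
    rw [h, ← mul_assoc, ← map_mul, inv_mul_cancel₀ ha, map_one, one_mul] at h3
    exact h3
  have h4 : Pic0.mk (c • E) = 0 := h2.mk_eq_zero_of_pow hn
  have e4 : c • Pic0.mk E = Pic0.mk (c • E) :=
    (map_nsmul (QuotientAddGroup.mk' _) c E).symm
  rw [e4, h4]

end generic

section Modular

variable {N : ℕ} [NeZero N]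

/-- **torsion → functions**: if `n E = div g` and `c • [E] = 0` then `g ^ c = a · vⁿ`. -/
theorem cd_pow_of_kill {n : ℕ} {g : FBar N}
    {E : Divisor.degZero (K := Qb) (F := FBar N)} (hE : IsRootDiv n g E) (c : ℕ)
    (h : c • Pic0.mk E = 0) :
    ∃ (v : FBar N) (a : Qb), a ≠ 0 ∧ g ^ c = algebraMap Qb (FBar N) a * v ^ n := by
  have h1 : IsRootDiv n (g ^ c) (c • E) := cd_isRootDiv_pow hE c
  have e4 : c • Pic0.mk E = Pic0.mk (c • E) :=
    (map_nsmul (QuotientAddGroup.mk' _) c E).symm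
  rw [e4] at h
  obtain ⟨y, hy, hord⟩ := h1.exists_of_mk_eq_zero h
  have hyn : y ^ n ≠ 0 := pow_ne_zero n hy
  set w : FBar N := g ^ c / y ^ n with hw
  have hw0 : w ≠ 0 := div_ne_zero h1.1 hyn
  have hw_ord : ∀ v : Place Qb (FBar N), v.ord w = 0 := by
    intro v
    have e1 : v.ord (g ^ c) = v.ord w + v.ord (y ^ n) := by
      rw [← v.ord_mul hw0 hyn, hw, div_mul_cancel₀ _ hyn]
    have e2 : v.ord (y ^ n) = (n : ℤ) * v.ord y := by
      rw [← zpow_natCast, Place.ord_zpow]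
    have e3 := hord v
    linarith
  obtain ⟨a, ha, hwa⟩ := Fermat.Agent.BadRed.normRel_const_of_ord_eq_zero N hw0 hw_ord
  refine ⟨y, a, ha, ?_⟩
  rw [← hwa, hw, div_mul_cancel₀ _ hyn]

/-- **torsion → functions, Galois**: a class `[E]`, `n E = div g`, fixed by `σ` has
`σ g = c · uⁿ · g`. -/
theorem cd_gal_of_fixed {n : ℕ} {g : FBar N}
    {E : Divisor.degZero (K := Qb) (F := FBar N)} (hE : IsRootDiv n g E) (σ : GQ)
    (hfix : σ • Pic0.mk E = Pic0.mk E) :
    ∃ (u : FBar N) (c : Qb), c ≠ 0 ∧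
      galFun N σ g = algebraMap Qb (FBar N) c * u ^ n * g := by
  set G := arithmeticGalois (modularFunctionFieldFull N) σ with hG
  set E' := SemilinearAut.degZeroSMulHom G E with hE'
  have e1 : σ • Pic0.mk E = Pic0.mk E' := SemilinearAut.pic0_smul_mk G E
  have hg' : G • g ≠ 0 := by simpa using hE.1
  have hE'r : IsRootDiv n (G • g) E' :=
    ⟨hg', fun v => mul_smul_divisor_apply_eq_ord G (n : ℤ) hE.2 v⟩
  have h1 : IsRootDiv n (G • g * g⁻¹) (E' + -E) := hE'r.mul hE.inv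
  have h0 : Pic0.mk (E' + -E) = 0 := by
    have : Pic0.mk (E' + -E) = Pic0.mk E' - Pic0.mk E := by
      rw [← sub_eq_add_neg]; rfl
    rw [this, ← e1, hfix, sub_self]
  obtain ⟨y, hy, hord⟩ := h1.exists_of_mk_eq_zero h0
  have hyn : y ^ n ≠ 0 := pow_ne_zero n hy
  set w : FBar N := G • g * g⁻¹ / y ^ n with hw
  have hw0 : w ≠ 0 := div_ne_zero h1.1 hyn
  have hw_ord : ∀ v : Place Qb (FBar N), v.ord w = 0 := by
    intro v
    have e1 : v.ord (G • g * g⁻¹) = v.ord w + v.ord (y ^ n) := by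
      rw [← v.ord_mul hw0 hyn, hw, div_mul_cancel₀ _ hyn]
    have e2 : v.ord (y ^ n) = (n : ℤ) * v.ord y := by
      rw [← zpow_natCast, Place.ord_zpow]
    have e3 := hord v
    linarith
  obtain ⟨c, hc, hwc⟩ := Fermat.Agent.BadRed.normRel_const_of_ord_eq_zero N hw0 hw_ord
  refine ⟨y, c, hc, ?_⟩
  show G • g = _
  rw [← hwc, hw, div_mul_cancel₀ _ hyn, inv_mul_cancel_right₀ hE.1]

end Modular

end Fermat.Agent.S36G
end
end MergeWrap_S36_G_CoreDict

section MergeWrap_S36_G_CoreTorsion -- from S36/G/CoreTorsion.lean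

set_option autoImplicit false
set_option linter.style.haveILetI false
set_option linter.unusedSectionVars false

noncomputable section

namespace Fermat.Agent.S36G

open ModularCurve AlgebraicCurve Fermat.Agent.F3 Fermat.Agent.F3G Fermat.Agent.F3I2
  Fermat.Agent.F3Deg Fermat.Agent.F3DegW Fermat.Agent.BadRed
open Fermat.Agent.AtkinLehner (ALData)

local notation "Qb" => AlgebraicClosure ℚ

/-- **seat CORE-TF: function form ⟹ torsion form** (`lam ≠ 0`). -/
theorem coreTorsionOfFun (lam N₁ q : ℕ) [NeZero N₁] [NeZero q] (c : ℕ)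
    (P : ValuationSubring Qb) (hlam : lam ≠ 0) : CoreTorsionOfFunStatement lam N₁ q c P := by
  intro h D hM hDQ n y hy hA hB hfix
  have hn : lam ^ n ≠ 0 := pow_ne_zero n hlam
  have hy' : ((lam ^ n : ℕ) : ℤ) • y = 0 := by rwa [natCast_zsmul]
  obtain ⟨E, g, hE, rfl⟩ := exists_isRootDiv_of_torsion (lam ^ n) y hy'
  have hNA : IsCPow (lam ^ n) (normAlong (heckeAlphaBar Qb N₁ q) g) :=
    exists_norm_eq_of_pushAlpha_eq_zero hn hE hA
  have hNB : IsCPow (lam ^ n) (normAlong (heckeAlphaBar Qb N₁ q) (wAt D hM g)) := by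
    obtain ⟨E', hE', hE'r⟩ := isRootDiv_pushWAt D hM hE
    rw [hE'] at hB
    exact exists_norm_eq_of_pushAlpha_eq_zero hn hE'r hB
  have hI : InertiaFixedFun (N₁ * q) P (lam ^ n) g :=
    fun τ hτ => cd_gal_of_fixed hE τ (hfix τ hτ)
  obtain ⟨v, a, ha, hv⟩ := h n D hM hDQ g hE.1 (cd_dvd_ord hE) hI hNA hNB
  exact cd_kill_of_pow (Nat.pos_of_ne_zero hn) hE c ha hv

section glue

variable {M N₁ q : ℕ} [NeZero M] [NeZero N₁] [NeZero q]

/-- transport of the torsion form along a level equation `M = N₁ q`. -/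
theorem ct_kill_at (h : M = N₁ * q) (D : ALData) (hM : M = D.Q * D.R) (hDQ : D.Q = q ^ 2)
    {lam c : ℕ} {P : ValuationSubring Qb} (hT : CoreTorsionAt lam N₁ q c P)
    (n : ℕ) (y : JZero M) (hy : lam ^ n • y = 0)
    (hA : Fermat.Agent.S35.pushAlphaAt h y = 0)
    (hB : Fermat.Agent.S35.pushAlphaAt h (pushWAt D hM y) = 0)
    (hfix : ∀ σ ∈ P.inertiaSubgroupIn ℚ, σ • y = y) : c • y = 0 := by
  subst h
  exact hT D hM hDQ n y hy hA hB hfix

end glue

/-- **torsion form ⟹ the interface `CoreAt` of the bridge.** -/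
theorem coreAt_of_coreTorsionAt (lam M q : ℕ) [NeZero M] [NeZero q] [NeZero (M / q)]
    (h : ∃ c : ℕ, c ≠ 0 ∧ ∃ P : ValuationSubring Qb, P.LiesOverPrime q ∧
      CoreTorsionAt lam (M / q) q c P) : Fermat.Agent.S36B.CoreAt lam M q := by
  intro D hDQ hM hMq
  obtain ⟨c, hc, P, hP, hT⟩ := h
  exact ⟨c, hc, P, hP, fun n y hy hA hB hfix => ct_kill_at hMq D hM hDQ hT n y hy hA hB hfix⟩

/-- **function form ⟹ `CoreAt`.** -/
theorem coreAt_of_coreFunAt (lam M q : ℕ) [NeZero M] [NeZero q] [NeZero (M / q)]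
    (hlam : lam ≠ 0)
    (h : ∃ c : ℕ, c ≠ 0 ∧ ∃ P : ValuationSubring Qb, P.LiesOverPrime q ∧
      ∀ n : ℕ, CoreFunAt (M / q) q c P (lam ^ n)) : Fermat.Agent.S36B.CoreAt lam M q := by
  obtain ⟨c, hc, P, hP, hF⟩ := h
  exact coreAt_of_coreTorsionAt lam M q
    ⟨c, hc, P, hP, coreTorsionOfFun lam (M / q) q c P hlam hF⟩

end Fermat.Agent.S36G
end
end MergeWrap_S36_G_CoreTorsion

section MergeWrap_S36_Bridge_PushAlpha -- from S36/Bridge/PushAlpha.lean

set_option autoImplicit false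
set_option linter.style.haveILetI false
set_option linter.unusedSectionVars false

noncomputable section

namespace Fermat.Agent.S36B

open UpperHalfPlane CongruenceSubgroup ModularCurve AlgebraicCurve
open Fermat.Agent.F3Dict Fermat.Agent.F3Dict.EmbFHom Fermat.Agent.F3Ratio
  Fermat.Agent.F3RatioCusp Fermat.Agent.F3I2 Fermat.Agent.S23 Fermat.Agent.LDeg
  Fermat.Agent.F3Deg Fermat.Agent.F3EC Fermat.Agent.RR
open scoped MatrixGroups ModularForm Manifold

/-! ### the wreath hom of an arbitrary system of right coset representatives -/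

section Generic

variable {G H : Type*} [Group G] [Group H] (f : H →* G)

/-- the right cosets of the image of `f`. -/
abbrev RCos : Type _ := Quotient (QuotientGroup.rightRel f.range)

/-- a representative of a right coset. -/
def rcRep (i : RCos f) : G := Quotient.out i

theorem rcRep_mk (i : RCos f) : (Quotient.mk'' (rcRep f i) : RCos f) = i := Quotient.out_eq' i

theorem rc_hex (γ : G) (i : RCos f) :
    ∃ (j : RCos f) (n : H), rcRep f i * (MonoidHom.id G) γ = f n * rcRep f j := by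
  refine ⟨Quotient.mk'' (rcRep f i * γ), ?_⟩
  have h : QuotientGroup.rightRel f.range
      (rcRep f (Quotient.mk'' (rcRep f i * γ))) (rcRep f i * γ) :=
    Quotient.exact' (rcRep_mk f _)
  rw [QuotientGroup.rightRel_apply] at h
  obtain ⟨n, hn⟩ := h
  refine ⟨n, ?_⟩
  rw [hn, MonoidHom.id_apply, inv_mul_cancel_right]

theorem rc_distinct : CosetsDistinct f (rcRep f) := by
  intro i j n h
  have h1 : QuotientGroup.rightRel f.range (rcRep f j) (rcRep f i) := by
    rw [QuotientGroup.rightRel_apply]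
    exact ⟨n, by rw [h, mul_inv_cancel_right]⟩
  have h2 : (Quotient.mk'' (rcRep f j) : RCos f) = Quotient.mk'' (rcRep f i) :=
    Quotient.sound' h1
  rw [rcRep_mk, rcRep_mk] at h2
  exact h2.symm

/-- the wreath hom of the representatives `rcRep`. -/
def rcW (hf : Function.Injective f) : WreathHom G H (RCos f) :=
  WreathHom.ofUnique (rc_hex f) hf (rc_distinct f)

theorem rcW_realizes (hf : Function.Injective f) :
    (rcW f hf).Realizes (MonoidHom.id G) f (rcRep f) :=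
  WreathHom.ofUnique_realizes (rc_hex f) hf (rc_distinct f)

instance instNonemptyRCos : Nonempty (RCos f) := ⟨Quotient.mk'' 1⟩

/-- the right cosets of a subgroup of finite index are a finite type. -/
@[reducible] def fintypeRCos [f.range.FiniteIndex] : Fintype (RCos f) := by
  haveI : Finite (G ⧸ f.range) := Subgroup.finite_quotient_of_finiteIndex
  haveI : Finite (RCos f) :=
    Finite.of_equiv _ (QuotientGroup.quotientRightRelEquivQuotientLeftRel f.range).symm
  exact Fintype.ofFinite _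

end Generic

/-! ### the level `N₀ q` -/

section Level

variable (N₀ q : ℕ) [NeZero N₀] [NeZero q]

instance instNeZeroMulPA : NeZero (N₀ * q) := ⟨Nat.mul_ne_zero (NeZero.ne N₀) (NeZero.ne q)⟩

theorem range_incl_eq :
    (Fermat.Agent.L.incl N₀ q).range = (Gamma0 (N₀ * q)).subgroupOf (Gamma0 N₀) :=
  Subgroup.inclusion_range _

instance instFiniteIndexInclPA : (Fermat.Agent.L.incl N₀ q).range.FiniteIndex := by
  rw [range_incl_eq]
  infer_instance

/-- the index set: the right cosets of `Γ₀(N₀ q)` in `Γ₀(N₀)`. -/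
abbrev IdxA : Type := RCos (Fermat.Agent.L.incl N₀ q)

instance instFintypeIdxA : Fintype (IdxA N₀ q) := fintypeRCos (Fermat.Agent.L.incl N₀ q)

/-- the wreath hom of `Γ₀(N₀ q) ⊂ Γ₀(N₀)`. -/
def coresWA : WreathHom ↥(Gamma0 N₀) ↥(Gamma0 (N₀ * q)) (IdxA N₀ q) :=
  rcW (Fermat.Agent.L.incl N₀ q) (incl_injective N₀ q)

theorem coresWA_realizes :
    (coresWA N₀ q).Realizes (MonoidHom.id (Gamma0 N₀)) (Fermat.Agent.L.incl N₀ q)
      (rcRep (Fermat.Agent.L.incl N₀ q)) :=
  rcW_realizes _ _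

/-- the representatives as elements of `SL(2,ℤ)`. -/
def repA (i : IdxA N₀ q) : SL(2, ℤ) :=
  ((rcRep (Fermat.Agent.L.incl N₀ q) i : ↥(Gamma0 N₀)) : SL(2, ℤ))

theorem repA_mem (i : IdxA N₀ q) : repA N₀ q i ∈ Gamma0 N₀ :=
  (rcRep (Fermat.Agent.L.incl N₀ q) i).2

theorem repA_mul (γ : ↥(Gamma0 N₀)) (i : IdxA N₀ q) :
    repA N₀ q i * (γ : SL(2, ℤ)) =
      (((coresWA N₀ q).elt γ i : ↥(Gamma0 (N₀ * q))) : SL(2, ℤ)) *
        repA N₀ q ((coresWA N₀ q).perm γ i) := by
  have h := coresWA_realizes N₀ q γ i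
  exact congrArg (fun z : ↥(Gamma0 N₀) => (z : SL(2, ℤ))) h

theorem card_idxA : Fintype.card (IdxA N₀ q) = (Fermat.Agent.L.incl N₀ q).range.index :=
  (index_range_of_realizes (coresWA_realizes N₀ q) (rc_distinct _)).symm

theorem card_idxA_mul_index :
    Fintype.card (IdxA N₀ q) * (Gamma0 N₀).index = (Gamma0 (N₀ * q)).index := by
  rw [card_idxA, range_incl_eq]
  exact Subgroup.relIndex_mul_index (Fermat.Agent.L.Gamma0_mul_le N₀ q)

/-- The corestriction along `incl` is the operator of `coresWA`. -/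
theorem coresAll_eq_opA (A : Type*) [AddCommGroup A]
    (c : Additive (Gamma0 (N₀ * q)) →+ A) :
    Fermat.Agent.L.coresAll N₀ q A c = (coresWA N₀ q).op A c :=
  coresFun_eq_op (Fermat.Agent.L.incl N₀ q) (incl_injective N₀ q) (coresWA N₀ q)
    (rcRep (Fermat.Agent.L.incl N₀ q)) (coresWA_realizes N₀ q) (rc_distinct _) A c

/-- **Degree**: `[F_{N₀ q} : F_{N₀}] = [Γ₀(N₀) : Γ₀(N₀ q)]`. -/
theorem finrank_heckeAlphaBar_gen :
    letI := (heckeAlphaBar ℂ N₀ q).toRingHom.toAlgebra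
    FiniteDimensional ↥(Fermat.Agent.F3Dict.FC N₀) ↥(Fermat.Agent.F3Dict.FC (N₀ * q)) ∧
      Module.finrank ↥(Fermat.Agent.F3Dict.FC N₀) ↥(Fermat.Agent.F3Dict.FC (N₀ * q))
        = Fintype.card (IdxA N₀ q) := by
  have hj : embHom N₀ (N₀ * q) (dvd_mul_right N₀ q) (jBar N₀) = jLL (N₀ * q) :=
    embHom_jq N₀ (N₀ * q) (dvd_mul_right N₀ q) (jBar N₀) rfl
  obtain ⟨hfd, hrank⟩ := Fermat.Agent.Kronecker.finrank_hom_mul_index_eq_index (Γ := SL(2, ℤ))
    (embHom N₀ (N₀ * q) (dvd_mul_right N₀ q)) (embHom (N₀ * q) (N₀ * q) dvd_rfl)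
    (heckeAlphaBar ℂ N₀ q) (Fermat.Agent.KroneckerC.embHom_heckeAlphaBar N₀ q)
    (jBar N₀) (exists_finiteIndex_fixing (N₀ * q))
    (fun g => by rw [hj]; exact smul_jLL (N₀ * q) g)
    (fun x hx => by
      rw [hj]; exact Fermat.Agent.F3DictInv.mem_adjoin_jLL_of_invariant' (N₀ * q) x hx)
    (CongruenceSubgroup.Gamma0 N₀) (CongruenceSubgroup.Gamma0 (N₀ * q))
    (Fermat.Agent.KroneckerC.mem_Gamma0_iff_smul_embHom N₀ (N₀ * q) (dvd_mul_right N₀ q))
    (Fermat.Agent.KroneckerC.mem_Gamma0_iff_smul_embHom (N₀ * q) (N₀ * q) dvd_rfl)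
  refine ⟨hfd, ?_⟩
  rw [← card_idxA_mul_index] at hrank
  have hpos : 0 < (Gamma0 N₀).index := Nat.pos_of_ne_zero Subgroup.FiniteIndex.index_ne_zero
  exact Nat.eq_of_mul_eq_mul_right hpos hrank

variable {N₀ q}

/-- **The norm along `α` is the product of the conjugates** `rᵢ⁻¹ • x` in `LL (N₀ q)`. -/
theorem embHom_norm_alpha_gen (x : ↥(F3I2.FC (N₀ * q))) :
    embHom N₀ (N₀ * q) (dvd_mul_right N₀ q)
        (Fermat.Agent.F3G.normAlong (heckeAlphaBar ℂ N₀ q) x)
      = ∏ i : IdxA N₀ q, (repA N₀ q i)⁻¹ • embHom (N₀ * q) (N₀ * q) dvd_rfl x := by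
  obtain ⟨hfd, hrank⟩ := finrank_heckeAlphaBar_gen N₀ q
  refine Fermat.Agent.Kronecker.norm_hom_eq_prod_smul (Γ := SL(2, ℤ))
    (embHom N₀ (N₀ * q) (dvd_mul_right N₀ q)) (embHom (N₀ * q) (N₀ * q) dvd_rfl)
    (heckeAlphaBar ℂ N₀ q) (Fermat.Agent.KroneckerC.embHom_heckeAlphaBar N₀ q) hfd
    (fun i => (repA N₀ q i)⁻¹) (fun i y => ?_) (fun i j hij => ?_) ?_ x
  · exact (Fermat.Agent.KroneckerC.mem_Gamma0_iff_smul_embHom N₀ (N₀ * q) (dvd_mul_right N₀ q)
      _).mp (inv_mem (repA_mem N₀ q i)) y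
  · have hmem : repA N₀ q j * (repA N₀ q i)⁻¹ ∈ Gamma0 (N₀ * q) := by
      rw [Fermat.Agent.KroneckerC.mem_Gamma0_iff_smul_embHom (N₀ * q) (N₀ * q) dvd_rfl]
      intro y
      rw [mul_smul, hij y, smul_inv_smul]
    have h1 : rcRep (Fermat.Agent.L.incl N₀ q) j =
        Fermat.Agent.L.incl N₀ q ⟨_, hmem⟩ * rcRep (Fermat.Agent.L.incl N₀ q) i := by
      apply Subtype.ext
      show repA N₀ q j = repA N₀ q j * (repA N₀ q i)⁻¹ * repA N₀ q i
      rw [inv_mul_cancel_right]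
    exact (rc_distinct (Fermat.Agent.L.incl N₀ q) j i _ h1).symm
  · rw [hrank]

/-- **(Dα-C), the analytic core, any level**: if `x = f / g` on `Γ₀(N₀ q)` then
`Norm_α x = ∏ᵢ (f ∣ rᵢ) / ∏ᵢ (g ∣ rᵢ)` on `Γ₀(N₀)`. -/
theorem isRatioF_norm_alpha_gen {w : ℤ}
    {x : ↥(F3I2.FC (N₀ * q))} {f g : ℍ → ℂ}
    (hf : IsMF (G0 (N₀ * q)) w f) (hg : IsMF (G0 (N₀ * q)) w g)
    (h : IsRatioF (N₀ * q) x f g) :
    IsRatioF N₀ (Fermat.Agent.F3G.normAlong (heckeAlphaBar ℂ N₀ q) x)
      (∏ i : IdxA N₀ q, f ∣[w] repA N₀ q i)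
      (∏ i : IdxA N₀ q, g ∣[w] repA N₀ q i) := by
  obtain ⟨A, rfl⟩ := hf
  obtain ⟨B, rfl⟩ := hg
  obtain ⟨hg0, -, hqe⟩ := h
  have hB0 : B ≠ 0 := by
    rintro rfl
    exact hg0 rfl
  have hAB : F3I2.IsRatio (N₀ * q) x A B := ⟨hB0, hqe⟩
  -- the forms at level `N₀`
  have hFA := IsFormChar.wreathProd (isFormChar_of_modularForm A) (coresWA N₀ q)
    (repA N₀ q) (repA_mul N₀ q)
  have hFB := IsFormChar.wreathProd (isFormChar_of_modularForm B) (coresWA N₀ q)
    (repA N₀ q) (repA_mul N₀ q)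
  rw [wreathChar_one] at hFA hFB
  obtain ⟨A', hA'⟩ := hFA.exists_modularForm
  obtain ⟨B', hB'⟩ := hFB.exists_modularForm
  have hB'0 : B' ≠ 0 := by
    rintro rfl
    exact wreathProd_ne_zero (w := w) (ModularFormClass.holo B) hg0 (repA N₀ q) hB'.symm
  -- the function field side
  obtain ⟨a, b, hb, hab⟩ := IsFractionRing.div_surjective (A := AL (N₀ * q))
    (embHom (N₀ * q) (N₀ * q) dvd_rfl x)
  have hb0 : b ≠ 0 := nonZeroDivisors.ne_zero hb
  have hbL : algebraMap (AL (N₀ * q)) (LL (N₀ * q)) b ≠ 0 := by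
    intro h0
    exact hb0 ((IsFractionRing.injective (AL (N₀ * q)) (LL (N₀ * q))) (by rw [h0, map_zero]))
  have hx : embHom (N₀ * q) (N₀ * q) dvd_rfl x * algebraMap (AL (N₀ * q)) (LL (N₀ * q)) b
      = algebraMap (AL (N₀ * q)) (LL (N₀ * q)) a := by
    rw [← hab, div_mul_cancel₀ _ hbL]
  have hmul := mul_eq_mul_of_isRatio dvd_rfl x A B hAB a b hx
  set a' : AL (N₀ * q) := ∏ i : IdxA N₀ q, (repA N₀ q i)⁻¹ • a with ha'
  set b' : AL (N₀ * q) := ∏ i : IdxA N₀ q, (repA N₀ q i)⁻¹ • b with hb'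
  have hb'0 : b' ≠ 0 := by
    rw [hb', Finset.prod_ne_zero_iff]
    intro i _ h0
    apply hb0
    have := congrArg (fun f => (repA N₀ q i) • f) h0
    simpa using this
  have hx' : embHom N₀ (N₀ * q) (dvd_mul_right N₀ q)
        (Fermat.Agent.F3G.normAlong (heckeAlphaBar ℂ N₀ q) x) *
          algebraMap (AL (N₀ * q)) (LL (N₀ * q)) b'
      = algebraMap (AL (N₀ * q)) (LL (N₀ * q)) a' := by
    rw [embHom_norm_alpha_gen x, ha', hb', map_prod, map_prod, ← Finset.prod_mul_distrib]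
    refine Finset.prod_congr rfl fun i _ => ?_
    rw [← LL.smul_algebraMap, ← LL.smul_algebraMap, ← smul_mul', hx]
  have hmul' : mfFun A' * (b' : Fun) = mfFun B' * (a' : Fun) := by
    have e1 : mfFun A' = ∏ i : IdxA N₀ q, slFun A (repA N₀ q i) := by
      ext τ
      rw [mfFun_apply, hA', Finset.prod_apply, fun_prod_apply]
      rfl
    have e2 : mfFun B' = ∏ i : IdxA N₀ q, slFun B (repA N₀ q i) := by
      ext τ
      rw [mfFun_apply, hB', Finset.prod_apply, fun_prod_apply]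
      rfl
    rw [e1, e2, ha', hb', coe_prod_AL, coe_prod_AL, ← Finset.prod_mul_distrib,
      ← Finset.prod_mul_distrib]
    refine Finset.prod_congr rfl fun i _ => ?_
    have h1 := slFun_mul_smul_eq A B a b hmul (repA N₀ q i)⁻¹
    rwa [inv_inv] at h1
  have hfin := (isRatio_of_mul_eq_mul (dvd_mul_right N₀ q) _ A' B' hB'0 a' b' hb'0 hx'
    hmul').isRatioF
  rwa [hA', hB'] at hfin

/-- **`IsTheta` and `α_*`, any level.** -/
theorem isTheta_pushAlpha_gen {n : ℕ}
    {χ : ↥(Gamma0 (N₀ * q)) →* ℂˣ} {c : Pic0 ℂ (Fermat.Agent.F3I2.FC (N₀ * q))}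
    (h : IsTheta (N₀ * q) n χ c) :
    IsTheta N₀ n (wreathChar (coresWA N₀ q) χ)
      (pushAlphaAlong ℂ N₀ q (Fermat.Agent.HeckeInputs.hi_heckeInputsAlong_complex N₀ q) c) := by
  obtain ⟨hχ, w, f, B, x, D, hf, hB, hf0, hB0, hr, hD, rfl⟩ := h
  set hH := Fermat.Agent.HeckeInputs.hi_heckeInputsAlong_complex N₀ q with hHdef
  have hf' := IsFormChar.wreathProd hf (coresWA N₀ q) (repA N₀ q) (repA_mul N₀ q)
  have hB' := IsFormChar.wreathProd hB (coresWA N₀ q) (repA N₀ q) (repA_mul N₀ q)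
  rw [wreathChar_one] at hB'
  refine ⟨wreathChar_pow_eq_one _ hχ, _, _, _,
    Fermat.Agent.F3G.normAlong (heckeAlphaBar ℂ N₀ q) x,
    pushDegZero (heckeAlphaBar ℂ N₀ q) hH.fst D, hf', hB',
    wreathProd_ne_zero hf.mdiff hf0 _, wreathProd_ne_zero hB.mdiff hB0 _, ?_, ?_, rfl⟩
  · have hfm : IsMF (G0 (N₀ * q)) ((n : ℤ) * w) (f ^ n) := hf.pow_isMF hχ
    have hBm : IsMF (G0 (N₀ * q)) ((n : ℤ) * w) (B ^ n) :=
      (hB.isMF.pow n).cast (mul_comm _ _)
    have key := isRatioF_norm_alpha_gen hfm hBm hr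
    simp only [slash_pow_SL2, Finset.prod_pow] at key
    exact key
  · exact IsRootDiv.push (heckeAlphaBar ℂ N₀ q) hH.fst hH.snd.snd.snd.fst hH.snd.snd.snd.snd.2 hD

/-- The character of the transfer, any level. -/
theorem charOf_coresPar_gen (n : ℕ) (c : HomPar (N₀ * q)) :
    charOf n (coresPar N₀ q c) = wreathChar (coresWA N₀ q) (charOf n c) :=
  charOf_eq_wreathChar (coresWA N₀ q) n c (coresPar N₀ q c)
    ((coresPar_coe N₀ q c).trans (coresAll_eq_opA N₀ q ℤ c.1))

/-- **(Dα)**, graph form, any level: `IsKappa n c y → IsKappa n (tr c) (α_* y)`. -/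
theorem isKappa_pushAlpha_gen {n : ℕ} {c : HomPar (N₀ * q)}
    {y : JZero (N₀ * q)} (h : IsKappa (descBc (N₀ * q)) n c y) :
    IsKappa (descBc N₀) n (coresPar N₀ q c) (pushAlpha N₀ q y) := by
  have h1 := isTheta_pushAlpha_gen h
  rw [IsKappa, descBc_pushAlpha, charOf_coresPar_gen]
  exact h1

/-- **(Dα), any level** (P-a): `α_* (κ^{N₀ q}_n c) = κ^{N₀}_n (tr c)`, no hypothesis on `N₀`,
`q`. -/
theorem kappaC_pushAlpha_gen (n : ℕ) (c : HomPar (N₀ * q)) :
    pushAlpha N₀ q ((kappaC (N₀ * q) n c : Fermat.Agent.F3.Jtors (N₀ * q) n) : JZero (N₀ * q)) =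
      ((kappaC N₀ n (coresPar N₀ q c) : Fermat.Agent.F3.Jtors N₀ n) : JZero N₀) := by
  rw [coe_kappaC, coe_kappaC]
  rcases Nat.eq_zero_or_pos n with rfl | hn
  · rw [kappaFun_zero_level, kappaFun_zero_level, map_zero]
  · exact (kappaFun_eq_of_isKappa hn (isKappa_pushAlpha_gen (isKappa_kappaFun hn c))).symm

/-- If the transfer of `c` vanishes, then `κ_n(c)` is killed by `α_*` (any level). -/
theorem pushAlpha_kappaC_eq_zero_gen (n : ℕ)
    {c : HomPar (N₀ * q)} (hc : coresPar N₀ q c = 0) :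
    pushAlpha N₀ q ((kappaC (N₀ * q) n c : Fermat.Agent.F3.Jtors (N₀ * q) n) : JZero (N₀ * q))
      = 0 := by
  rw [kappaC_pushAlpha_gen (N₀ := N₀) (q := q) n c, hc, map_zero]
  rfl

end Level

end Fermat.Agent.S36B
end
end MergeWrap_S36_Bridge_PushAlpha

section MergeWrap_S36_Bridge_PushWHecke -- from S36/Bridge/PushWHecke.lean

set_option autoImplicit false

namespace Fermat.Agent.S36B

/-- **(N-DM1, w)** -/
theorem pushWHecke : PushWHecke := by
  intro M _ D hM ℓ hℓ y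
  have hQ : ¬ (ℓ : ℕ) ∣ D.Q := fun h => hℓ (hM ▸ Dvd.dvd.mul_right h D.R)
  exact (Fermat.Agent.R38.heckeOperatorBar_pushWAt D hM ℓ hQ y).symm

end Fermat.Agent.S36B
end MergeWrap_S36_Bridge_PushWHecke

section MergeWrap_S36_Bridge_KappaTrick -- from S36/Bridge/KappaTrick.lean

set_option autoImplicit false
set_option linter.unusedSectionVars false
set_option linter.style.haveILetI false

noncomputable section

namespace Fermat.Agent.S36B

open ModularCurve AlgebraicCurve CongruenceSubgroup IsLocalRing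
open Fermat.Agent.F3 Fermat.Agent.F3EC Fermat.Agent.F3Deg Fermat.Agent.F3DegW Fermat.Agent.LDeg
open Fermat.Agent.S35
open Fermat.Agent.AtkinLehner (ALData)
open scoped TensorProduct

/-! ### the `κ` trick -/

section Trick

variable {N : ℕ} [NeZero N]

/-- an element of `Hom_par(Γ₀(N), ℤ)` divisible by all powers of `p` is zero. -/
theorem homPar_eq_zero_of_forall_pow {p : ℕ} (hp : 1 < p) (c : HomPar N)
    (h : ∀ k : ℕ, ∃ c' : HomPar N, c = ((p ^ k : ℕ) : ℤ) • c') : c = 0 := by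
  apply Subtype.ext
  refine AddMonoidHom.ext fun γ => ?_
  show (c : Additive (Gamma0 N) →+ ℤ) γ = 0
  by_contra hne
  obtain ⟨c', hc'⟩ := h ((c : Additive (Gamma0 N) →+ ℤ) γ).natAbs
  have hdvd : ((p ^ ((c : Additive (Gamma0 N) →+ ℤ) γ).natAbs : ℕ) : ℤ) ∣
      (c : Additive (Gamma0 N) →+ ℤ) γ := by
    refine ⟨(c' : Additive (Gamma0 N) →+ ℤ) γ, ?_⟩
    conv_lhs => rw [hc']
    rfl
  have h1 := Int.natAbs_dvd_natAbs.mpr hdvd
  rw [Int.natAbs_natCast] at h1
  have h2 := Nat.le_of_dvd (Int.natAbs_pos.mpr hne) h1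
  exact absurd h2 (not_le.mpr (Nat.lt_pow_self hp))

/-- **the `κ` trick**: `κ_{p^k}(c) = κ_{p^k}(c')` for all `k` implies `c = c'`. -/
theorem homPar_eq_of_kappaC {p : ℕ} (hp : p.Prime) {c c' : HomPar N}
    (h : ∀ k : ℕ, ((kappaC N (p ^ k) c : Jtors N (p ^ k)) : JZero N) =
      ((kappaC N (p ^ k) c' : Jtors N (p ^ k)) : JZero N)) : c = c' := by
  rw [← sub_eq_zero]
  refine homPar_eq_zero_of_forall_pow hp.one_lt (c - c') fun k => ?_
  have h0 : kappaC N (p ^ k) (c - c') = 0 := by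
    rw [map_sub, sub_eq_zero]
    exact Subtype.ext (h k)
  exact kappaC_ker (pow_pos hp.pos k) h0

end Trick

/-! ### `α_*` and `κ` at level `M = N₁ q` -/

section At

variable {M N₁ q : ℕ} [NeZero M] [NeZero N₁] [NeZero q]

/-- **(Dα)** at level `M = N₁ q`, any `q`. -/
theorem pushAlphaAt_kappaC_gen (h : M = N₁ * q) (n : ℕ) (c : HomPar M) :
    pushAlphaAt h ((kappaC M n c : Jtors M n) : JZero M) =
      ((kappaC N₁ n (coresParAt h c) : Jtors N₁ n) : JZero N₁) := by
  subst h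
  exact kappaC_pushAlpha_gen n c

/-- **(Db)** at level `M = N₁ q`, any `q`, any Atkin–Lehner data. -/
theorem pushAlphaAt_pushWAt_kappaC_gen (h : M = N₁ * q) (D : ALData) (hM : M = D.Q * D.R)
    (n : ℕ) (c : HomPar M) :
    pushAlphaAt h (pushWAt D hM ((kappaC M n c : Jtors M n) : JZero M)) =
      ((kappaC N₁ n (coresParAt h (wPar D hM c)) : Jtors N₁ n) : JZero N₁) := by
  rw [kappaC_pushWAt D hM n c, pushAlphaAt_kappaC_gen]

/-- `α_*` commutes with `T_ℓ` at level `M = N₁ q`. -/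
theorem pushAlphaAt_hecke (hPA : PushAlphaHecke) (h : M = N₁ * q) (hq : q.Prime)
    (ℓ : Nat.Primes) (hℓ : ¬ (ℓ : ℕ) ∣ M) (y : JZero M) :
    pushAlphaAt h (heckeOperatorBar M ℓ y) = heckeOperatorBar N₁ ℓ (pushAlphaAt h y) := by
  subst h
  exact hPA N₁ q hq ℓ hℓ y

/-- **(P-b)** the transfer commutes with `T_ℓ`, `ℓ ∤ M`, at level `M = N₁ q` (any `q`). -/
theorem coresParAt_heckeHom (hPA : PushAlphaHecke) (h : M = N₁ * q) (hq : q.Prime)
    (ℓ : Nat.Primes) (hℓ : ¬ (ℓ : ℕ) ∣ M) (c : HomPar M) :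
    coresParAt h (heckeHom M ℓ c) = heckeHom N₁ ℓ (coresParAt h c) := by
  have hℓN : ¬ (ℓ : ℕ) ∣ N₁ := fun h' => hℓ (by rw [h]; exact Dvd.dvd.mul_right h' q)
  refine homPar_eq_of_kappaC Nat.prime_two fun k => ?_
  rw [← pushAlphaAt_kappaC_gen h, kappaC_hecke (2 ^ k) ℓ hℓ c, kappaC_hecke (2 ^ k) ℓ hℓN]
  show pushAlphaAt h (heckeOperatorBar M ℓ ((kappaC M (2 ^ k) c : Jtors M (2 ^ k)) : JZero M)) =
    heckeOperatorBar N₁ ℓ
      ((kappaC N₁ (2 ^ k) (coresParAt h c) : Jtors N₁ (2 ^ k)) : JZero N₁)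
  rw [pushAlphaAt_hecke hPA h hq ℓ hℓ, pushAlphaAt_kappaC_gen h]

/-- the Atkin–Lehner operator commutes with `T_ℓ`, `ℓ ∤ M`, on `Hom_par`. -/
theorem wPar_heckeHom (D : ALData) (hM : M = D.Q * D.R) (ℓ : Nat.Primes)
    (hℓ : ¬ (ℓ : ℕ) ∣ M) (c : HomPar M) :
    wPar D hM (heckeHom M ℓ c) = heckeHom M ℓ (wPar D hM c) := by
  refine homPar_eq_of_kappaC Nat.prime_two fun k => ?_
  rw [← kappaC_pushWAt D hM, kappaC_hecke (2 ^ k) ℓ hℓ c, kappaC_hecke (2 ^ k) ℓ hℓ]
  show pushWAt D hM (heckeOperatorBar M ℓ ((kappaC M (2 ^ k) c : Jtors M (2 ^ k)) : JZero M)) =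
    heckeOperatorBar M ℓ ((kappaC M (2 ^ k) (wPar D hM c) : Jtors M (2 ^ k)) : JZero M)
  rw [pushWHecke M D hM ℓ hℓ, kappaC_pushWAt D hM]

end At

end Fermat.Agent.S36B
end
end MergeWrap_S36_Bridge_KappaTrick

section MergeWrap_S36_Bridge_NewLevel -- from S36/Bridge/NewLevel.lean

set_option autoImplicit false
set_option linter.unusedSectionVars false
set_option linter.style.haveILetI false

noncomputable section

namespace Fermat.Agent.S36B

open ModularCurve AlgebraicCurve CongruenceSubgroup IsLocalRing ModularFormClass CuspForm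
open Fermat.Agent.F3 Fermat.Agent.F3EC Fermat.Agent.F3Deg Fermat.Agent.F3DegW
open Fermat.Agent.S35
open scoped TensorProduct

/-- **(N-NV)** the eigen-character of a newform of level `M` does not occur at a proper divisor
level `N₁ ∣ M`. -/
theorem newLevel : NewLevel := by
  intro M N₁ _ _ hdvd hne g hg S hS O _ _ _ chig hchig iota y hy
  classical
  by_contra hy0
  haveI : Module.Finite ℤ (heckeAlgebra M 2 (↑S : Set ℕ)) :=
    Fermat.Agent.S22.result M 2 ↑S
  haveI : Algebra.IsIntegral ℤ chig.range := by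
    refine ⟨fun z => ?_⟩
    obtain ⟨t, rfl⟩ := chig.rangeRestrict_surjective z
    exact (Algebra.IsIntegral.isIntegral (R := ℤ) t).map chig.rangeRestrict.toIntAlgHom
  have hι : Function.Injective iota := nv_injective_of_isIntegral iota
  have hNS : ∀ r : ℕ, r.Prime → r ∣ N₁ → r ∈ (↑S : Set ℕ) := fun r hr hrN =>
    Finset.mem_coe.mpr (hS r hr (hrN.trans hdvd))
  have hnd : ∀ ℓ : ℕ, ℓ.Prime → ℓ ∉ (↑S : Set ℕ) → ¬ ℓ ∣ M := fun ℓ hℓ hℓS h =>
    hℓS (Finset.mem_coe.mpr (hS ℓ hℓ h))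
  set r : ℕ → chig.range := fun ℓ =>
    if h : ℓ.Prime ∧ ¬ ℓ ∣ M ∧ ℓ ∉ (↑S : Set ℕ) then
      chig.rangeRestrict (heckeAlgebra.T h.1 h.2.1 h.2.2) else 0 with hr
  have hrℓ : ∀ (ℓ : ℕ) (hℓ : ℓ.Prime) (hℓM : ¬ ℓ ∣ M) (hℓS : ℓ ∉ (↑S : Set ℕ)),
      r ℓ = chig.rangeRestrict (heckeAlgebra.T hℓ hℓM hℓS) := fun ℓ hℓ hℓM hℓS => by
    simp only [hr, dif_pos (show ℓ.Prime ∧ ¬ ℓ ∣ M ∧ ℓ ∉ (↑S : Set ℕ) from ⟨hℓ, hℓM, hℓS⟩)]
  have hyeig : ∀ (ℓ : ℕ) (hℓ : ℓ.Prime), ¬ ℓ ∣ N₁ → ℓ ∉ (↑S : Set ℕ) →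
      (heckeHom N₁ ⟨ℓ, hℓ⟩).baseChange O y = iota (r ℓ) • y := by
    intro ℓ hℓ _ hℓS
    have hℓM := hnd ℓ hℓ hℓS
    rw [hy ℓ hℓ hℓM hℓS, hrℓ ℓ hℓ hℓM hℓS]
    rfl
  obtain ⟨Ψ, hΨ⟩ := nv_exists_character_of_eigenvector hNS iota hι chig.range.subtype r y hy0 hyeig
  obtain ⟨g₀, hg₀, hg₀Ψ⟩ := nv_exists_eigenform_of_character hNS Ψ
  have hagree : ∀ ℓ : ℕ, ℓ.Prime → ℓ ∉ S → qCoeff g ℓ = qCoeff g₀ ℓ := by
    intro ℓ hℓ hℓS
    have hℓS' : ℓ ∉ (↑S : Set ℕ) := fun h => hℓS (Finset.mem_coe.mp h)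
    have hℓM := hnd ℓ hℓ hℓS'
    have hℓN : ¬ ℓ ∣ N₁ := fun h => hℓM (h.trans hdvd)
    rw [hg₀Ψ ℓ hℓ hℓN hℓS', hΨ ℓ hℓ hℓN hℓS', hrℓ ℓ hℓ hℓM hℓS', ← hchig ℓ hℓ hℓM hℓS']
    rfl
  exact Fermat.Agent.S35SMO.not_isNewform_of_agree hdvd hne hg.1 hg₀ S hagree hg

end Fermat.Agent.S36B
end
end MergeWrap_S36_Bridge_NewLevel

section MergeWrap_S36_Bridge_KolchinLam -- from S36/Bridge/KolchinLam.lean

/-!
# S36 bridge, BR-1: Kolchin for operators with `(g - 1)² = 0`  (helper8)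

`R` a Noetherian domain, `Λ` a nonzero finite torsion-free `R`-module, `ρ : G →* End_R Λ`,
`H ≤ G` a subgroup such that `(ρ σ - 1)² = 0` for all `σ ∈ H`.  Then `H` fixes a nonzero
vector of `Λ`.

Proof.  For `σ, τ ∈ H` put `A = ρ σ - 1`, `B = ρ τ - 1`.  From `A² = B² = 0` and
`(ρ (σ τ) - 1)² = (A + B + A B)² = 0` one gets `A B A = - A B A B`, hence `A B A B = 0`
(multiply by `B`), hence `A B A = B A B = 0` and `A B + B A = 0`.  The `R`-span of `ρ(H)` in
`End_R Λ` is finitely generated, so spanned by finitely many `ρ σ_i`; a common fixed vector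
of the `σ_i` is found by induction (`v ↦ (ρ τ - 1) v`), and it is fixed by all of `H`.
-/

set_option autoImplicit false

namespace Fermat.Agent.S36B

section Algebra

variable {E : Type*} [Ring E]

/-- the anticommutation: `A² = B² = 0`, `(A + B + A B)² = 0` give `A B + B A = 0`. -/
theorem kol_anticomm {A B : E} (hA : A * A = 0) (hB : B * B = 0)
    (hAB : (A + B + A * B) * (A + B + A * B) = 0) : A * B + B * A = 0 := by
  -- expand
  have hE : A * B + B * A + A * B * A + B * A * B + A * B * A * B = 0 := by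
    have e : (A + B + A * B) * (A + B + A * B)
        = A * A + A * B + A * (A * B) + (B * A + B * B + B * (A * B))
          + (A * B * A + A * B * B + A * B * (A * B)) := by
      noncomm_ring
    rw [e] at hAB
    have h1 : A * (A * B) = 0 := by rw [← mul_assoc, hA, zero_mul]
    have h2 : A * B * B = 0 := by rw [mul_assoc, hB, mul_zero]
    rw [hA, hB, h1, h2] at hAB
    rw [← hAB]
    noncomm_ring
  -- `A * E = A B A + A B A B`
  have ha : A * B * A + A * B * A * B = 0 := by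
    have := congrArg (fun X => A * X) hE
    simp only [mul_zero] at this
    have e : A * (A * B + B * A + A * B * A + B * A * B + A * B * A * B)
        = (A * A) * B + A * B * A + (A * A) * B * A + A * B * A * B + (A * A) * B * A * B := by
      noncomm_ring
    rw [e, hA] at this
    simpa using this
  -- multiply by `B`
  have hABAB : A * B * A * B = 0 := by
    have := congrArg (fun X => X * B) ha
    simp only [zero_mul] at this
    have e : (A * B * A + A * B * A * B) * B = A * B * A * B + A * B * A * (B * B) := by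
      noncomm_ring
    rw [e, hB, mul_zero, add_zero] at this
    exact this
  have hABA : A * B * A = 0 := by
    rw [hABAB, add_zero] at ha
    exact ha
  have hBAB : B * A * B = 0 := by
    have := congrArg (fun X => X * B) hE
    simp only [zero_mul] at this
    have e : (A * B + B * A + A * B * A + B * A * B + A * B * A * B) * B
        = A * (B * B) + B * A * B + A * B * A * B + B * A * (B * B) + A * B * A * (B * B) := by
      noncomm_ring
    rw [e, hB, hABAB] at this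
    simpa using this
  rw [hABAB, hABA, hBAB] at hE
  simpa using hE

end Algebra

section Kolchin

variable {R : Type*} [CommRing R] [IsDomain R] [IsNoetherianRing R]
  {Λ : Type*} [AddCommGroup Λ] [Module R Λ] [Module.Finite R Λ] [Module.IsTorsionFree R Λ]
  [Nontrivial Λ] {G : Type*} [Group G]

/-- **Kolchin** for a subgroup of operators with `(g - 1)² = 0`. -/
theorem exists_fixed_of_sq_zero (ρ : G →* Module.End R Λ) (H : Subgroup G)
    (hH : ∀ σ ∈ H, (ρ σ - 1) * (ρ σ - 1) = 0) :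
    ∃ v : Λ, v ≠ 0 ∧ ∀ σ ∈ H, ρ σ v = v := by
  classical
  -- anticommutation
  have hanti : ∀ σ ∈ H, ∀ τ ∈ H, (ρ σ - 1) * (ρ τ - 1) + (ρ τ - 1) * (ρ σ - 1) = 0 := by
    intro σ hσ τ hτ
    refine kol_anticomm (hH σ hσ) (hH τ hτ) ?_
    have e : (ρ σ - 1) + (ρ τ - 1) + (ρ σ - 1) * (ρ τ - 1) = ρ (σ * τ) - 1 := by
      rw [map_mul]
      noncomm_ring
    rw [e]
    exact hH _ (H.mul_mem hσ hτ)
  -- finitely many generators of the span
  set s : Set (Module.End R Λ) := {f | ∃ σ ∈ H, ρ σ = f} with hs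
  have hfg : (Submodule.span R s).FG := IsNoetherian.noetherian _
  obtain ⟨F, hFs, hFspan⟩ := (Submodule.fg_span_iff_fg_span_finset_subset s).mp hfg
  -- a common fixed vector of the generators
  have hfix : ∀ F' : Finset (Module.End R Λ), (↑F' : Set (Module.End R Λ)) ⊆ s →
      ∃ v : Λ, v ≠ 0 ∧ ∀ f ∈ F', f v = v := by
    intro F'
    induction F' using Finset.induction_on with
    | empty =>
      intro _
      obtain ⟨v, hv⟩ := exists_ne (0 : Λ)
      exact ⟨v, hv, fun f hf => absurd hf (Finset.notMem_empty f)⟩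
    | insert g F'' hg ih =>
      intro hsub
      have hsub' : (↑F'' : Set (Module.End R Λ)) ⊆ s := fun f hf =>
        hsub (Finset.mem_coe.mpr (Finset.mem_insert_of_mem (Finset.mem_coe.mp hf)))
      obtain ⟨v, hv, hvF⟩ := ih hsub'
      obtain ⟨τ, hτ, hτg⟩ := hsub (Finset.mem_coe.mpr (Finset.mem_insert_self g F''))
      by_cases hgv : g v = v
      · refine ⟨v, hv, fun f hf => ?_⟩
        rcases Finset.mem_insert.mp hf with rfl | hf
        · exact hgv
        · exact hvF f hf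
      · refine ⟨g v - v, sub_ne_zero.mpr hgv, fun f hf => ?_⟩
        rcases Finset.mem_insert.mp hf with rfl | hf
        · -- `(f - 1)² v = 0`
          have h := congrArg (fun X : Module.End R Λ => X v) (hH τ hτ)
          rw [hτg] at h
          simp only [Module.End.mul_apply, LinearMap.sub_apply, Module.End.one_apply,
            LinearMap.zero_apply, map_sub] at h
          rw [map_sub]
          exact sub_eq_zero.mp h
        · obtain ⟨σ, hσ, hσf⟩ := hsub' (Finset.mem_coe.mpr hf)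
          have h := congrArg (fun X : Module.End R Λ => X v) (hanti σ hσ τ hτ)
          rw [hσf, hτg] at h
          simp only [Module.End.mul_apply, LinearMap.sub_apply, Module.End.one_apply,
            LinearMap.zero_apply, LinearMap.add_apply, map_sub, hvF f hf] at h
          -- `h : f (g v) - v - (g v - v) + (g v - g v) = 0`
          rw [map_sub, hvF f hf]
          have h' : f (g v) - v - (g v - v) = 0 := by
            rw [← h]
            abel
          exact sub_eq_zero.mp h'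
  obtain ⟨v, hv, hvF⟩ := hfix F hFs
  refine ⟨v, hv, fun τ hτ => ?_⟩
  -- `ρ τ v ∈ R v`
  have hmem : ρ τ ∈ Submodule.span R (↑F : Set (Module.End R Λ)) := by
    rw [← hFspan]
    exact Submodule.subset_span ⟨τ, hτ, rfl⟩
  have hscal : ∀ f ∈ Submodule.span R (↑F : Set (Module.End R Λ)), ∃ r : R, f v = r • v := by
    intro f hf
    induction hf using Submodule.span_induction with
    | mem f hf => exact ⟨1, by rw [one_smul]; exact hvF f (Finset.mem_coe.mp hf)⟩
    | zero => exact ⟨0, by rw [zero_smul, LinearMap.zero_apply]⟩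
    | add f g _ _ hf hg =>
      obtain ⟨r, hr⟩ := hf
      obtain ⟨r', hr'⟩ := hg
      exact ⟨r + r', by rw [LinearMap.add_apply, hr, hr', add_smul]⟩
    | smul a f _ hf =>
      obtain ⟨r, hr⟩ := hf
      exact ⟨a * r, by rw [LinearMap.smul_apply, hr, smul_smul]⟩
  obtain ⟨r, hr⟩ := hscal _ hmem
  have h := congrArg (fun X : Module.End R Λ => X v) (hH τ hτ)
  simp only [Module.End.mul_apply, LinearMap.sub_apply, Module.End.one_apply,
    LinearMap.zero_apply, map_sub, hr, map_smul] at h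
  -- `h : r • r • v - r • v - (r • v - v) = 0`
  have h2 : ((r - 1) * (r - 1)) • v = 0 := by
    rw [← h]
    simp only [sub_smul, mul_smul, one_smul, smul_sub]
  have h3 : (r - 1) * (r - 1) = 0 := (smul_eq_zero.mp h2).resolve_right hv
  have h4 : r = 1 := by
    have := mul_self_eq_zero.mp h3
    exact sub_eq_zero.mp this
  rw [hr, h4, one_smul]

end Kolchin

end Fermat.Agent.S36B
end MergeWrap_S36_Bridge_KolchinLam

section MergeWrap_S36_Bridge_Endgame -- from S36/Bridge/Endgame.lean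

set_option autoImplicit false

/-!
# S36 bridge, BR-3: the endgame on the eigen-lattice  (helper8)

The frozen S36 asks for ONE attached representation which is not unipotent on inertia at the
primes `q ≠ λ` with `q² ‖ M`.  The representation `ρ'` of the S30 core satisfies
`charpoly (ρ' σ) = X² - t(σ) X + ε(σ)` for all `σ`, where `t` is determined by the quadratic
relation `σ² - t(σ) σ + ε(σ) = 0` on the eigen-lattice `Λ` (`QuadRel`).

Input of this file (`NoInertiaFixed`): for every such `q` there is a place `P` over `q` such that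
the inertia group at `P` fixes no nonzero vector of `Λ`.
(Source: `Λ` lies in the Tate module of the `q`-new part `ker π₁_* ∩ ker π₂_*` of `J₀(M)`; the
inertia-fixed part of its torsion has bounded exponent: (CORE), `CoreAt` below.)

If `ρ'` were unipotent on inertia at `q`, then `t = 2`, `ε = 1` on the inertia group at `P`,
so `(σ - 1)² = 0` on `Λ` there, and Kolchin (`exists_fixed_of_sq_zero`) gives a nonzero fixed
vector of `Λ`.

`s36Statement_of_lattice`: the frozen statement of S36 (as the Prop `S36Statement`) from the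
lattice input `S36LatticeInput`.  The hypotheses `hlam2`, `hres` of S36 are not used.
-/

namespace Fermat.Agent.S36B

open Module IsLocalRing Polynomial Fermat.Agent.S30

/-! ### the lattice without inertia-fixed vectors -/

section Lattice

variable {p N : ℕ} {S : Finset ℕ} {𝒪 : Type} [CommRing 𝒪] [IsDomain 𝒪]
  [IsDiscreteValuationRing 𝒪] [CharZero 𝒪]

/-- **No inertia-fixed vectors**: for every prime `q ≠ p` with `q² ‖ N` there is a place `P`
over `q` whose inertia group fixes no nonzero vector of the module. -/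
def NoInertiaFixed (p N : ℕ) {𝒪 : Type} [CommRing 𝒪] {Λ : Type} [AddCommGroup Λ] [Module 𝒪 Λ]
    (ρ : GQ →* Module.End 𝒪 Λ) : Prop :=
  ∀ q : ℕ, q.Prime → q ≠ p → N.factorization q = 2 →
    ∃ P : ValuationSubring (AlgebraicClosure ℚ), P.LiesOverPrime q ∧
      ∀ v : Λ, (∀ σ ∈ P.inertiaSubgroupIn ℚ, ρ σ v = v) → v = 0

/-- comparison of coefficients: `X² - t X + e = (X - 1)²` gives `t = 2`, `e = 1`. -/
theorem coeff_eq_of_unip {R : Type*} [CommRing R] {t e : R}
    (h : (X : R[X]) ^ 2 - C t * X + C e = (X - 1) ^ 2) : t = 2 ∧ e = 1 := by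
  have h0 := congrArg (fun f : R[X] => f.coeff 0) h
  have h1 := congrArg (fun f : R[X] => f.coeff 1) h
  have e2 : ((X : R[X]) - 1) ^ 2 = X ^ 2 - C (2 : R) * X + C (1 : R) := by
    simp only [map_ofNat, map_one]
    ring
  rw [e2] at h0 h1
  simp only [coeff_add, coeff_sub, coeff_X_pow, coeff_C_mul, coeff_X_zero, coeff_X_one,
    coeff_C_zero, coeff_C_succ, mul_zero, mul_one, sub_zero, zero_add, add_zero,
    OfNat.zero_ne_ofNat, OfNat.one_ne_ofNat, if_false, zero_sub, neg_inj] at h0 h1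
  exact ⟨h1, h0⟩

/-- The Galois representation attached to a `FrobLattice` without inertia-fixed vectors:
besides the two clauses of S30 it is not unipotent on inertia at the primes `q ≠ p`,
`q² ‖ N`. -/
theorem exists_galoisRepAdic_of_frobLattice_nofix (hdens : F3.FrobDensityLite) (hpS : p ∈ S)
    (a : ℕ → 𝒪) (L : FrobLattice p N S 𝒪 a) (E : CycloCharData p 𝒪)
    (hL : NoInertiaFixed p N L.ρ) :
    ∃ ρ : GaloisRepAdic 𝒪,
      (∀ ℓ : ℕ, ℓ.Prime → ℓ ∉ S →
        ∀ A : ValuationSubring (AlgebraicClosure ℚ), A.LiesOverPrime ℓ →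
          ∀ σ : GQ, A.IsFrobeniusAt σ ℓ →
            LinearMap.charpoly (ρ.ρ σ) = X ^ 2 - C (a ℓ) * X + C ((ℓ : 𝒪))) ∧
      (∀ q : ℕ, q.Prime → ¬ q ∣ N → q ≠ p → ρ.IsUnramifiedAt q) ∧
      (∀ q : ℕ, q.Prime → q ≠ p → N.factorization q = 2 → ¬ ρ.IsUnipotentOnInertiaAt q) := by
  obtain ⟨t, hQ, ht⟩ := exists_quadRel_of_frobLattice hdens hpS a L E
  obtain ⟨V, iV1, iV2, iV3, iV4, ρ', hfin, hchar, hcont, hker⟩ :=
    repConclusion_of_quadRel L.ρ E.ε t hQ complexConjugation complexConjugation_mul_self E.conj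
  have hadic : GaloisActionIsAdicContinuous 𝒪 ρ' := by
    intro n
    obtain ⟨L₁, hL₁fin, hL₁⟩ := L.cont n
    obtain ⟨L₂, hL₂fin, hL₂⟩ := E.level n
    refine ⟨L₁ ⊔ L₂, IntermediateField.finiteDimensional_sup L₁ L₂, ?_⟩
    intro σ hσ v
    exact hcont n σ (hL₁ σ (fun x hx => hσ x (le_sup_left (a := L₁) (b := L₂) hx)))
      (hL₂ σ (fun x hx => hσ x (le_sup_right (a := L₁) (b := L₂) hx))) v
  refine ⟨{ V := V, finrank_eq := hfin, ρ := ρ', isAdicContinuous := hadic }, ?_, ?_, ?_⟩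
  · intro ℓ hℓ hℓS A hA σ hσ
    have hℓp : ℓ ≠ p := fun h => hℓS (h ▸ hpS)
    show LinearMap.charpoly (ρ' σ) = _
    rw [hchar σ, ht ℓ hℓ hℓS A hA σ hσ, E.frob ℓ hℓ hℓp A hA σ hσ]
  · intro q hq hqN hqp P hP σ hσ
    show ρ' σ = 1
    exact hker σ (L.unram q hq hqN hqp P hP σ hσ) (E.inertia q hq hqp P hP σ hσ)
  · intro q hq hqp hq2 hunip
    obtain ⟨P, hP, hfix⟩ := hL q hq hqp hq2
    -- `(σ - 1)² = 0` on the lattice, for `σ` in the inertia group at `P`
    have hsq : ∀ σ ∈ P.inertiaSubgroupIn ℚ, (L.ρ σ - 1) * (L.ρ σ - 1) = 0 := by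
      intro σ hσ
      have h1 : LinearMap.charpoly (ρ' σ) = (X - 1) ^ 2 := hunip P hP σ hσ
      rw [hchar σ] at h1
      obtain ⟨ht2, he1⟩ := coeff_eq_of_unip h1
      have h2 := hQ σ
      rw [ht2, he1] at h2
      rw [← h2, sub_mul, mul_sub, mul_sub, mul_one, one_mul, one_mul, one_smul, two_smul]
      abel
    obtain ⟨v, hv, hvfix⟩ := exists_fixed_of_sq_zero L.ρ (P.inertiaSubgroupIn ℚ) hsq
    exact hv (hfix v hvfix)

end Lattice

/-! ### S36 from the lattice -/

/-- The frozen statement of S36, as a proposition. -/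
def S36Statement : Prop :=
  ∀ {M : ℕ} [NeZero M] {g : CuspForm (CongruenceSubgroup.Gamma0 M) 2} (_hg : g.IsNewform)
    (lam : ℕ) [Fact lam.Prime]
    (S : Finset ℕ)
    (O' : Type) [CommRing O'] [IsDomain O'] [IsDiscreteValuationRing O']
    [IsAdicComplete (IsLocalRing.maximalIdeal O') O'] [Finite (IsLocalRing.ResidueField O')]
    [CharZero O'] (_hlamO' : (lam : O') ∈ IsLocalRing.maximalIdeal O')
    (_hlam2 : lam ≠ 2)
    (chig : CuspForm.heckeAlgebra M 2 (↑S : Set ℕ) →+* ℂ)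
    (_hchig : ∀ (ℓ : ℕ) (hℓ : ℓ.Prime) (hℓM : ¬ ℓ ∣ M) (hℓS : ℓ ∉ (↑S : Set ℕ)),
      chig (CuspForm.heckeAlgebra.T hℓ hℓM hℓS) = ModularFormClass.qCoeff g ℓ)
    (iota : chig.range →+* O')
    (_hlamS : lam ∈ S) (_hMS : ∀ q : ℕ, q.Prime → q ∣ M → q ∈ S)
    (_hres : ∀ (O'' : Type) [CommRing O''] [IsDomain O''] [IsDiscreteValuationRing O'']
      [IsAdicComplete (IsLocalRing.maximalIdeal O'') O''] [Finite (IsLocalRing.ResidueField O'')]
      [CharZero O'']
      [Algebra O' O''] [Module.Finite O' O''] [IsLocalHom (algebraMap O' O'')],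
      Function.Injective (algebraMap O' O'') → ∀ (ρ : GaloisRepAdic O''),
      (∀ (ℓ : ℕ) (hℓ : ℓ.Prime) (_hℓlam : ℓ ≠ lam) (hℓM : ¬ ℓ ∣ M) (hℓS : ℓ ∉ (↑S : Set ℕ)),
        ∀ A : ValuationSubring (AlgebraicClosure ℚ), A.LiesOverPrime ℓ →
          ∀ σ : AlgebraicClosure ℚ ≃ₐ[ℚ] AlgebraicClosure ℚ, A.IsFrobeniusAt σ ℓ →
            LinearMap.charpoly (ρ.ρ σ) =
              X ^ 2 - C (algebraMap O' O'' ((iota.comp chig.rangeRestrict)
                (CuspForm.heckeAlgebra.T hℓ hℓM hℓS))) * X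
                + C ((ℓ : O'')))
      → ρ.residual.IsAbsolutelyIrreducible ∧ ρ.residual.IsOdd),
    ∃ (O'' : Type) (_ : CommRing O'') (_ : IsDomain O'') (_ : IsDiscreteValuationRing O'')
      (_ : IsAdicComplete (IsLocalRing.maximalIdeal O'') O'')
      (_ : Finite (IsLocalRing.ResidueField O''))
      (_ : CharZero O'') (_ : Algebra O' O'') (_ : Module.Finite O' O'')
      (_ : IsLocalHom (algebraMap O' O'')),
      Function.Injective (algebraMap O' O'') ∧
      ∃ ρ : GaloisRepAdic O'',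
        (∀ (ℓ : ℕ) (hℓ : ℓ.Prime) (hℓM : ¬ ℓ ∣ M) (hℓS : ℓ ∉ (↑S : Set ℕ)),
          ∀ A : ValuationSubring (AlgebraicClosure ℚ), A.LiesOverPrime ℓ →
            ∀ σ : AlgebraicClosure ℚ ≃ₐ[ℚ] AlgebraicClosure ℚ, A.IsFrobeniusAt σ ℓ →
              LinearMap.charpoly (ρ.ρ σ) =
                X ^ 2 - C (algebraMap O' O'' ((iota.comp chig.rangeRestrict)
                  (CuspForm.heckeAlgebra.T hℓ hℓM hℓS))) * X
                  + C ((ℓ : O''))) ∧
        (∀ q : ℕ, q.Prime → q ≠ lam → M.factorization q = 2 → ¬ ρ.IsUnipotentOnInertiaAt q)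

/-- **The lattice input of S36**: for a newform `g` of level `M` and a point `ι ∘ χ_g` of the
Hecke algebra there is a `FrobLattice` without inertia-fixed vectors at the primes `q ≠ λ`,
`q² ‖ M`. -/
def S36LatticeInput : Prop :=
  ∀ {M : ℕ} [NeZero M] {g : CuspForm (CongruenceSubgroup.Gamma0 M) 2} (_hg : g.IsNewform)
    (lam : ℕ) [Fact lam.Prime]
    (S : Finset ℕ)
    (O' : Type) [CommRing O'] [IsDomain O'] [IsDiscreteValuationRing O']
    [IsAdicComplete (IsLocalRing.maximalIdeal O') O'] [Finite (IsLocalRing.ResidueField O')]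
    [CharZero O'] (_hlamO' : (lam : O') ∈ IsLocalRing.maximalIdeal O')
    (_hlam2 : lam ≠ 2)
    (chig : CuspForm.heckeAlgebra M 2 (↑S : Set ℕ) →+* ℂ)
    (_hchig : ∀ (ℓ : ℕ) (hℓ : ℓ.Prime) (hℓM : ¬ ℓ ∣ M) (hℓS : ℓ ∉ (↑S : Set ℕ)),
      chig (CuspForm.heckeAlgebra.T hℓ hℓM hℓS) = ModularFormClass.qCoeff g ℓ)
    (iota : chig.range →+* O')
    (_hlamS : lam ∈ S) (_hMS : ∀ q : ℕ, q.Prime → q ∣ M → q ∈ S),
    ∃ L : FrobLattice lam M S O' (heckeEigenvalue (iota.comp chig.rangeRestrict)),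
      NoInertiaFixed lam M L.ρ

/-- **S36 from the lattice input** (Frobenius density and the cyclotomic character are taken as
hypotheses here; both are unconditional, see `S30/Final.lean`). -/
theorem s36Statement_of_lattice (hdens : F3.FrobDensityLite)
    (hcyc : ∀ (p : ℕ) [Fact p.Prime] (𝒪 : Type) [CommRing 𝒪] [IsDomain 𝒪]
      [IsDiscreteValuationRing 𝒪] [IsAdicComplete (maximalIdeal 𝒪) 𝒪]
      [Finite (ResidueField 𝒪)] [CharZero 𝒪], (p : 𝒪) ∈ maximalIdeal 𝒪 →
      Nonempty (CycloCharData p 𝒪))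
    (hlat : S36LatticeInput) : S36Statement := by
  intro M _ g hg lam _ S O' _ _ _ _ _ _ hlamO' hlam2 chig hchig iota hlamS hMS _
  obtain ⟨E⟩ := hcyc lam O' hlamO'
  obtain ⟨L, hL⟩ := hlat hg lam S O' hlamO' hlam2 chig hchig iota hlamS hMS
  obtain ⟨ρ, hρ, -, hρ2⟩ := exists_galoisRepAdic_of_frobLattice_nofix hdens
    hlamS (heckeEigenvalue (iota.comp chig.rangeRestrict)) L E hL
  refine ⟨O', inferInstance, inferInstance, inferInstance, inferInstance, inferInstance,
    inferInstance, Algebra.id O', inferInstance, ?_, Function.injective_id, ρ, ?_, hρ2⟩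
  · exact ⟨fun _ h => h⟩
  · intro ℓ hℓ hℓM hℓS A hA σ hσ
    have hℓS' : ℓ ∉ S := fun h => hℓS (Finset.mem_coe.mpr h)
    rw [hρ ℓ hℓ hℓS' A hA σ hσ, heckeEigenvalue_eq (iota.comp chig.rangeRestrict) hℓ hℓM hℓS]
    rfl

end Fermat.Agent.S36B
end MergeWrap_S36_Bridge_Endgame

section MergeWrap_S36_Bridge_TransferFix -- from S36/Bridge/TransferFix.lean

/-!
# S36 bridge, BR-2: the conditional eigen-lattice has no fixed vectors  (helper8)

`exists_eigenLattice_transfer_fix` is `S35.exists_eigenLattice_transfer_cond` (same lattice,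
same clauses) with ONE more clause, the

**fixed-vector transfer**: if `H ⊆ G` and `c ≠ 0` are such that every
`y ∈ J[p ^ n]` (any `n`) with `u y = 0` which is fixed by `H` is killed by `c`, then the lattice
has no nonzero vector fixed by `H`.

Proof: flatness of `O` over `ℤ` applied to `Φ = (u, (σ - 1)_{σ ∈ H₀}) : J[p ^ k] → J' × J^{H₀}`
(`H₀ ⊆ H` finite, detecting the `H`-fixed points of the finite group `J[p ^ k]`) gives
`c • X_k = 0` for every term `X_k` of a fixed vector `X`; then `X_n = p ^ c • X_{n + c} = 0`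
(Bezout for `c` and `p ^ (n + c)`).
-/

set_option autoImplicit false
set_option linter.unusedSectionVars false
set_option linter.style.haveILetI false

noncomputable section

namespace Fermat.Agent.S36B

open IsLocalRing Fermat.Agent.S30Tate Fermat.Agent.S35
open scoped TensorProduct

/-! ### base change of products (copies of the lemmas of `S35/KernelAt.lean`) -/

section BC

variable {O : Type*} [CommRing O] {H₀ : Type*} [AddCommGroup H₀]

theorem bcProd_eq_zero {H₁ H₂ : Type*} [AddCommGroup H₁] [AddCommGroup H₂]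
    (t₁ : H₀ →ₗ[ℤ] H₁) (t₂ : H₀ →ₗ[ℤ] H₂) (x : O ⊗[ℤ] H₀)
    (h₁ : t₁.baseChange O x = 0) (h₂ : t₂.baseChange O x = 0) :
    (LinearMap.prod t₁ t₂).baseChange O x = 0 := by
  have e : LinearMap.prod t₁ t₂ =
      LinearMap.inl ℤ H₁ H₂ ∘ₗ t₁ + LinearMap.inr ℤ H₁ H₂ ∘ₗ t₂ := by
    ext c <;> simp
  rw [e, LinearMap.baseChange_add, LinearMap.add_apply, LinearMap.baseChange_comp,
    LinearMap.baseChange_comp, LinearMap.comp_apply, LinearMap.comp_apply, h₁, h₂, map_zero,
    map_zero, add_zero]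

theorem bcPi_eq_zero {ι : Type*} [Finite ι] {H : ι → Type*}
    [∀ i, AddCommGroup (H i)] (t : ∀ i, H₀ →ₗ[ℤ] H i) (x : O ⊗[ℤ] H₀)
    (h : ∀ i, (t i).baseChange O x = 0) :
    (LinearMap.pi t).baseChange O x = 0 := by
  classical
  haveI : Fintype ι := Fintype.ofFinite ι
  have e : LinearMap.pi t = ∑ i, LinearMap.single ℤ H i ∘ₗ t i := by
    ext c j
    simp [LinearMap.sum_apply, Finset.sum_apply]
  have e2 : (LinearMap.pi t).baseChange O =
      ∑ i, (LinearMap.single ℤ H i ∘ₗ t i).baseChange O := by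
    rw [e]
    exact map_sum (LinearMap.baseChangeHom ℤ O H₀ (∀ i, H i)) _ _
  rw [e2, LinearMap.sum_apply]
  refine Finset.sum_eq_zero fun i _ => ?_
  rw [LinearMap.baseChange_comp, LinearMap.comp_apply, h i, map_zero]

end BC

/-! ### the flatness step -/

section Flat

variable (O : Type*) [CommRing O] [Module.Flat ℤ O] {J : Type*} [AddCommGroup J]
  {G : Type*} [Group G] [DistribMulAction G J]

/-- If the `H`-fixed points of `J[k] ∩ ker u` are killed by `c`, so are the `H`-fixed points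
of `(O ⊗ J)[k] ∩ ker (u ⊗ 1)`. -/
theorem fix_smul_eq_zero_of_torsion_of_ker {J' : Type*} [AddCommGroup J'] (u : J →ₗ[ℤ] J')
    (H : Set G) (c k : ℕ) (hfin : {y : J | k • y = 0}.Finite)
    (hc : ∀ y : J, k • y = 0 → u y = 0 → (∀ σ ∈ H, σ • y = y) → c • y = 0)
    (m : O ⊗[ℤ] J) (hm : (k : O) • m = 0) (hum : u.baseChange O m = 0)
    (hfix : ∀ σ ∈ H, galBC O J σ m = m) : (c : O) • m = 0 := by
  classical
  -- the finite index set: the points of `J[k]` moved by `H`
  let I₁ : Type _ := {y : {y : J // k • y = 0} // ∃ σ ∈ H, σ • y.1 ≠ y.1}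
  haveI : Finite {y : J // k • y = 0} := hfin.to_subtype
  haveI : Finite I₁ := Subtype.finite
  let s : I₁ → G := fun i => i.2.choose
  have hsH : ∀ i : I₁, s i ∈ H := fun i => i.2.choose_spec.1
  have hsne : ∀ i : I₁, s i • i.1.1 ≠ i.1.1 := fun i => i.2.choose_spec.2
  -- the map `Φ`
  let w : J →ₗ[ℤ] J' × (I₁ → J) :=
    LinearMap.prod u (LinearMap.pi fun i => galLinZ J (s i) - LinearMap.id)
  have hwm : w.baseChange O m = 0 := by
    refine bcProd_eq_zero _ _ m hum (bcPi_eq_zero _ m fun i => ?_)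
    rw [LinearMap.baseChange_sub, LinearMap.baseChange_id, LinearMap.sub_apply,
      LinearMap.id_apply, ← galBC_apply, hfix _ (hsH i), sub_self]
  have h := tc_baseChange_eq_zero_of_torsion_of_ker O k w ((c : ℤ) • (LinearMap.id : J →ₗ[ℤ] J))
    (fun y hy hwy => by
      have hu0 : u y = 0 := congrArg Prod.fst hwy
      have hall : ∀ i : I₁, s i • y - y = 0 := fun i => congrFun (congrArg Prod.snd hwy) i
      have hfixy : ∀ σ ∈ H, σ • y = y := by
        intro σ hσ
        by_contra hne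
        have hi := hall ⟨⟨y, hy⟩, σ, hσ, hne⟩
        exact hsne ⟨⟨y, hy⟩, σ, hσ, hne⟩ (sub_eq_zero.mp hi)
      have := hc y hy hu0 hfixy
      simpa using this) m hm hwm
  rw [LinearMap.baseChange_smul, LinearMap.baseChange_id, LinearMap.smul_apply,
    LinearMap.id_apply] at h
  rw [natCast_smul_tensor]
  exact h

end Flat

/-! ### Bezout -/

/-- killed by `c ≠ 0` and by `p ^ k`  ⟹  killed by `p ^ c`. -/
theorem pow_smul_eq_zero_of_smul_eq_zero {O : Type*} [CommRing O] {M : Type*} [AddCommGroup M]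
    [Module O M] {p : ℕ} (hp : p.Prime) {c : ℕ} (hc : c ≠ 0) (k : ℕ) (m : M)
    (h1 : (c : O) • m = 0) (h2 : (p : O) ^ k • m = 0) : (p : O) ^ c • m = 0 := by
  -- the gcd kills `m`
  have hd : ((Nat.gcd c (p ^ k) : ℕ) : O) • m = 0 := by
    have hb := Nat.gcd_eq_gcd_ab c (p ^ k)
    have hb' : ((Nat.gcd c (p ^ k) : ℕ) : O)
        = (c : O) * ((Nat.gcdA c (p ^ k) : ℤ) : O) + (p : O) ^ k * ((Nat.gcdB c (p ^ k) : ℤ) : O) := by
      have := congrArg (fun z : ℤ => (z : O)) hb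
      simpa using this
    rw [hb', add_smul, mul_comm (c : O), mul_smul, h1, smul_zero, mul_comm ((p : O) ^ k), mul_smul,
      h2, smul_zero, add_zero]
  obtain ⟨j, -, hj⟩ := (Nat.dvd_prime_pow hp).mp (Nat.gcd_dvd_right c (p ^ k))
  have hjc : j ≤ c := by
    have h3 : p ^ j ≤ c := by
      rw [← hj]
      exact Nat.le_of_dvd (Nat.pos_of_ne_zero hc) (Nat.gcd_dvd_left c (p ^ k))
    exact (Nat.lt_pow_self hp.one_lt).le.trans h3
  rw [hj, Nat.cast_pow] at hd
  have e : (p : O) ^ c = (p : O) ^ (c - j) * (p : O) ^ j := by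
    rw [← pow_add, Nat.sub_add_cancel hjc]
  rw [e, mul_smul, hd, smul_zero]

/-! ### the lattice -/

/-- **Conditional transfer with the fixed-vector clause.** -/
theorem exists_eigenLattice_transfer_fix
    {O : Type} [CommRing O] [IsDomain O] [IsDiscreteValuationRing O]
    [IsAdicComplete (maximalIdeal O) O] [CharZero O]
    {p : ℕ} (hp : p.Prime) (hpO : (p : O) ∈ maximalIdeal O)
    {J : Type} [AddCommGroup J] {G : Type} [Group G] [DistribMulAction G J]
    {ι : Type} (T : ι → Module.End ℤ J) (c : ι → O)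
    (hT : ∀ i (σ : G) (x : J), T i (σ • x) = σ • T i x)
    (hfinAll : ∀ n : ℕ, {x : J | p ^ n • x = 0}.Finite)
    (μ : ∀ n, Submodule.torsionBy ℤ J ((p ^ (n + 1) : ℕ) : ℤ) →ₗ[ℤ]
      Submodule.torsionBy ℤ J ((p ^ n : ℕ) : ℤ))
    (hμ : ∀ n (y : Submodule.torsionBy ℤ J ((p ^ (n + 1) : ℕ) : ℤ)),
      ((μ n y : Submodule.torsionBy ℤ J ((p ^ n : ℕ) : ℤ)) : J) = (p : ℤ) • (y : J))
    (Tt : ∀ (_ : ι) (n : ℕ), Submodule.torsionBy ℤ J ((p ^ n : ℕ) : ℤ) →ₗ[ℤ]
      Submodule.torsionBy ℤ J ((p ^ n : ℕ) : ℤ))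
    (hTt : ∀ i n (y : Submodule.torsionBy ℤ J ((p ^ n : ℕ) : ℤ)),
      ((Tt i n y : Submodule.torsionBy ℤ J ((p ^ n : ℕ) : ℤ)) : J) = T i (y : J))
    (x : (n : ℕ) → O ⊗[ℤ] Submodule.torsionBy ℤ J ((p ^ n : ℕ) : ℤ))
    (hx0 : ∃ n, x n ≠ 0)
    (hcompat : ∀ n, (μ n).baseChange O (x (n + 1)) = x n)
    (heig : ∀ i n, (Tt i n).baseChange O (x n) = c i • x n)
    -- the kernel condition
    {J' : Type} [AddCommGroup J'] (u : J →ₗ[ℤ] J')
    (hu : ∀ (σ : G) (y : J), u y = 0 → u (σ • y) = 0)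
    (hux : ∀ n, (u ∘ₗ (Submodule.torsionBy ℤ J ((p ^ n : ℕ) : ℤ)).subtype).baseChange O (x n) = 0) :
    ∃ (Λ : Type) (_ : AddCommGroup Λ) (_ : Module O Λ) (_ : Module.Free O Λ)
      (_ : Module.Finite O Λ) (_ : Nontrivial Λ) (ρ : G →* Module.End O Λ),
      (∀ (n : ℕ) (σ : G), (∀ y : J, p ^ n • y = 0 → σ • y = y) →
          ∀ v : Λ, ρ σ v - v ∈ (maximalIdeal O ^ n) • (⊤ : Submodule O Λ)) ∧
      (∀ σ : G, (∀ (n : ℕ) (y : J), p ^ n • y = 0 → σ • y = y) → ρ σ = 1) ∧
      (∀ (σ : G) (i : ι) (ℓ : ℕ),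
          (∀ (n : ℕ) (y : J), p ^ n • y = 0 → σ • σ • y - T i (σ • y) + ℓ • y = 0) →
          ρ σ * ρ σ - c i • ρ σ + (ℓ : O) • (1 : Module.End O Λ) = 0) ∧
      (∀ l : List (ℤ × G),
          (∀ (n : ℕ) (y : J), p ^ n • y = 0 → u y = 0 →
            (l.map fun ag => ag.1 • (ag.2 • y)).sum = 0) →
          (l.map fun ag => ag.1 • ρ ag.2).sum = 0) ∧
      (∀ (H : Set G) (d : ℕ), d ≠ 0 →
          (∀ (n : ℕ) (y : J), p ^ n • y = 0 → u y = 0 → (∀ σ ∈ H, σ • y = y) → d • y = 0) →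
          ∀ v : Λ, (∀ σ ∈ H, ρ σ v = v) → v = 0) := by
  have hfin : {x : J | p • x = 0}.Finite := by
    have := hfinAll 1
    simpa using this
  have hπ0 : (p : O) ≠ 0 := Nat.cast_ne_zero.mpr hp.ne_zero
  have hfg : (Submodule.torsionBy O (O ⊗[ℤ] J) (p : O)).FG := torsionBy_tensor_fg O p hfin
  have hcomm : ∀ (σ : G) (i : ι) (m : O ⊗[ℤ] J),
      (T i).baseChange O (galBC O J σ m) = galBC O J σ ((T i).baseChange O m) :=
    fun σ i m => galBC_comm O (T i) (hT i) σ m
  have hstab : ∀ (σ : G) (m : O ⊗[ℤ] J), u.baseChange O m = 0 →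
      u.baseChange O (galBC O J σ m) = 0 := by
    intro σ m hm
    rw [galBC_apply, ← LinearMap.comp_apply, ← LinearMap.baseChange_comp]
    exact tc_baseChange_eq_zero_of_ker O u (u ∘ₗ galLinZ J σ) (fun y hy => hu σ y hy) m hm
  have hcast : ∀ (n : ℕ) (m : O ⊗[ℤ] J), (p : O) ^ n • m = 0 →
      ((p ^ n : ℕ) : O) • m = 0 := fun n m hm => by
    rw [Nat.cast_pow]; exact hm
  obtain ⟨X, hX, hXne⟩ :=
    tc_exists_mem_condTate_ne_zero T c μ hμ Tt hTt x hx0 hcompat heig u hux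
  refine ⟨tcCondTate (p : O) (fun i => (T i).baseChange O) c (u.baseChange O),
    inferInstance, inferInstance,
    tcCondTate_free hpO hπ0 hfg, tcCondTate_finite hpO hπ0 hfg,
    ⟨⟨⟨X, hX⟩, 0, fun h => hXne (congrArg Subtype.val h)⟩⟩,
    tcCondTateRep (galBC O J) hcomm hstab, ?_, ?_, ?_, ?_, ?_⟩
  · intro n σ hfix v
    exact tcCondTateRep_sub_mem (galBC O J) hcomm hstab hpO hπ0
      (fun m hm => galBC_fix O (p ^ n) σ hfix m (hcast n m hm)) v
  · intro σ hfix
    apply tcCondTateRep_eq_one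
    intro n m hm
    exact galBC_fix O (p ^ n) σ (hfix n) m (hcast n m hm)
  · intro σ i ℓ hq
    exact tcCondTateRep_quadratic (h := fun i => (T i).baseChange O) (galBC O J) hcomm hstab i
      (ℓ : O) (fun n m hm => galBC_quadratic O (p ^ n) σ (T i) ℓ (hq n) m (hcast n m hm))
  · intro l hl
    apply tcCondTateRep_list_eq_zero
    intro n m hm hum
    rw [← listLinZ_baseChange]
    exact tc_baseChange_eq_zero_of_torsion_of_ker O (p ^ n) u (listLinZ l)
      (fun y hy huy => by rw [listLinZ_apply]; exact hl n y hy huy) m (hcast n m hm) hum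
  · intro H d hd hH v hv
    apply Subtype.ext
    funext n
    show v.1 n = 0
    -- `v n = p ^ d • v (n + d)`
    have h1 : (p : O) ^ d • v.1 (n + d) = v.1 n := tate_pow_smul v.2.1.1 d n
    rw [← h1]
    have hm : (p : O) ^ (n + d) • v.1 (n + d) = 0 := tcCondTate_pow_smul_self v (n + d)
    have hum : u.baseChange O (v.1 (n + d)) = 0 := v.2.2 (n + d)
    have hfixm : ∀ σ ∈ H, galBC O J σ (v.1 (n + d)) = v.1 (n + d) := by
      intro σ hσ
      have := congrArg (fun w : tcCondTate (p : O) (fun i => (T i).baseChange O) c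
        (u.baseChange O) => w.1 (n + d)) (hv σ hσ)
      exact this
    have hdm : (d : O) • v.1 (n + d) = 0 :=
      fix_smul_eq_zero_of_torsion_of_ker O u H d (p ^ (n + d)) (hfinAll (n + d))
        (hH (n + d)) (v.1 (n + d)) (hcast (n + d) _ hm) hum hfixm
    exact pow_smul_eq_zero_of_smul_eq_zero (O := O) (M := O ⊗[ℤ] J) hp hd (n + d)
      (v.1 (n + d)) hdm hm

end Fermat.Agent.S36B
end
end MergeWrap_S36_Bridge_TransferFix

section MergeWrap_S36_Bridge_LatticeFix -- from S36/Bridge/LatticeFix.lean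

set_option autoImplicit false
set_option linter.unusedSectionVars false
set_option linter.style.haveILetI false

/-!
# S36 bridge, BR-4 (generic half): the `FrobLattice` without inertia-fixed vectors  (helper8)

Input: an eigen-class `x n ∈ 𝒪 ⊗ J₀(M)[pⁿ]` killed by a `G_ℚ`-stable kernel condition
`u : J₀(M) → J'`, and (CORE) for `u`: at every prime `q ≠ p` with `q² ‖ M` there are `c ≠ 0`
and a place `P` over `q` such that every `y ∈ J₀(M)[pⁿ]` (any `n`) with `u y = 0` which is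
fixed by the inertia group at `P` is killed by `c`.
Output: a `FrobLattice` with `NoInertiaFixed` (the input of `S36/Bridge/Endgame.lean`).

This is the analogue of `S35.exists_frobLattice_quartic`; the proof is the same with
`exists_eigenLattice_transfer_fix` in place of `exists_eigenLattice_transfer_cond`.
-/

noncomputable section

namespace Fermat.Agent.S36B

open ModularCurve AlgebraicCurve IsLocalRing
open scoped TensorProduct
open Fermat.Agent.S30 Fermat.Agent.S30Tate Fermat.Agent.S35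

/-- **(CORE) for a kernel map `u`** at level `M`, residue characteristic `p`. -/
def CoreFor (p M : ℕ) [NeZero M] {J' : Type} [AddCommGroup J'] (u : JZero M →ₗ[ℤ] J') : Prop :=
  ∀ q : ℕ, q.Prime → q ≠ p → M.factorization q = 2 →
    ∃ c : ℕ, c ≠ 0 ∧ ∃ P : ValuationSubring (AlgebraicClosure ℚ), P.LiesOverPrime q ∧
      ∀ (n : ℕ) (y : JZero M), p ^ n • y = 0 → u y = 0 →
        (∀ σ ∈ P.inertiaSubgroupIn ℚ, σ • y = y) → c • y = 0

/-- **BR-4, generic half.** -/
theorem exists_frobLattice_nofix (M : ℕ) [NeZero M]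
    (hFin : F3.TorsionFinite M)
    (hUnr : F3.TorsionUnramified M) (hFrob : F3.TorsionFrobQuadratic M)
    (hOpen : F3.TorsionOpenStab M) (hComm : F3.HeckeGaloisComm M)
    (p : ℕ) [Fact p.Prime] (S : Finset ℕ) (hpS : p ∈ S)
    (hNS : ∀ q : ℕ, q.Prime → q ∣ M → q ∈ S)
    (𝒪 : Type) [CommRing 𝒪] [IsDomain 𝒪] [IsDiscreteValuationRing 𝒪]
    [IsAdicComplete (maximalIdeal 𝒪) 𝒪] [Finite (ResidueField 𝒪)] [CharZero 𝒪]
    (hp𝒪 : (p : 𝒪) ∈ maximalIdeal 𝒪) (χ : CuspForm.heckeAlgebra M 2 (↑S : Set ℕ) →+* 𝒪)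
    -- the eigen-class
    (x : (n : ℕ) → 𝒪 ⊗[ℤ] F3.Jtors M (p ^ n))
    (hx0 : ∃ n, x n ≠ 0)
    (hcompat : ∀ n, (mulPTors M p n).baseChange 𝒪 (x (n + 1)) = x n)
    (heig : ∀ (n ℓ : ℕ) (hℓ : ℓ.Prime) (hℓN : ¬ ℓ ∣ M) (hℓS : ℓ ∉ (↑S : Set ℕ)),
      (F3.heckeTors M (p ^ n) ⟨ℓ, hℓ⟩).baseChange 𝒪 (x n) =
        χ (CuspForm.heckeAlgebra.T hℓ hℓN hℓS) • x n)
    -- the kernel condition
    {J' : Type} [AddCommGroup J'] (u : JZero M →ₗ[ℤ] J')
    (hu : ∀ (σ : GQ) (y : JZero M), u y = 0 → u (σ • y) = 0)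
    (hux : ∀ n, (u ∘ₗ (F3.Jtors M (p ^ n)).subtype).baseChange 𝒪 (x n) = 0)
    -- (CORE)
    (hcore : CoreFor p M u) :
    ∃ L : FrobLattice p M S 𝒪 (heckeEigenvalue χ), NoInertiaFixed p M L.ρ := by
  have hp : p.Prime := Fact.out
  obtain ⟨Λ, _, _, _, _, _, ρ, hcont, hunr, hfrob, -, hfix⟩ :=
    exists_eigenLattice_transfer_fix (O := 𝒪) (G := GQ) (J := JZero M) (ι := HeckeIdx M S)
      hp hp𝒪
      (fun i => heckeOperatorBar M ⟨i.1, i.2.1⟩)
      (fun i => χ (CuspForm.heckeAlgebra.T i.2.1 i.2.2.1 i.2.2.2))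
      (fun i σ y => hComm ⟨i.1, i.2.1⟩ σ y)
      (fun n => hFin (p ^ n) (pow_pos hp.pos n))
      (fun n => mulPTors M p n)
      (fun n y => mulPTors_coe M p n y)
      (fun i n => F3.heckeTors M (p ^ n) ⟨i.1, i.2.1⟩)
      (fun i n y => rfl)
      x hx0 hcompat
      (fun i n => heig n i.1 i.2.1 i.2.2.1 i.2.2.2)
      u hu hux
  have hnofix : ∀ q : ℕ, q.Prime → q ≠ p → M.factorization q = 2 →
      ∃ P : ValuationSubring (AlgebraicClosure ℚ), P.LiesOverPrime q ∧
        ∀ v : Λ, (∀ σ ∈ P.inertiaSubgroupIn ℚ, ρ σ v = v) → v = 0 := by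
    intro q hq hqp hq2
    obtain ⟨c, hc, P, hP, hcP⟩ := hcore q hq hqp hq2
    refine ⟨P, hP, fun v hv => ?_⟩
    refine hfix {σ : GQ | σ ∈ P.inertiaSubgroupIn ℚ} c hc ?_ v ?_
    · intro n y hy huy hσ
      exact hcP n y hy huy (fun σ hσ' => hσ σ hσ')
    · intro σ hσ
      exact hv σ hσ
  refine ⟨{
    Λ := Λ
    ρ := ρ
    cont := ?_
    unram := ?_
    frob := ?_ }, hnofix⟩
  · -- adic continuity
    intro n
    have hpos : 0 < p ^ n := pow_pos hp.pos n
    haveI : Finite {y : JZero M // p ^ n • y = 0} := (hFin (p ^ n) hpos).to_subtype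
    choose L hLfin hL using fun y : {y : JZero M // p ^ n • y = 0} => hOpen (p ^ n) hpos y.1 y.2
    haveI : ∀ y, FiniteDimensional ℚ (L y) := hLfin
    refine ⟨⨆ y, L y, inferInstance, fun σ hσ v => ?_⟩
    have hfix : ∀ y : JZero M, p ^ n • y = 0 → σ • y = y := fun y hy =>
      hL ⟨y, hy⟩ σ (fun z hz => hσ z (le_iSup L ⟨y, hy⟩ hz))
    exact hcont n σ hfix v
  · -- unramified
    intro q hq hqN hqp P hP σ hσ
    exact hunr σ (fun n y hy =>
      hUnr (p ^ n) q hq (not_dvd_mul_pow hp hq hqN hqp n) P hP σ hσ y hy)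
  · -- Frobenius relation
    intro ℓ hℓ hℓS A hA σ hσ
    have hℓS' : ℓ ∉ (↑S : Set ℕ) := fun h => hℓS (Finset.mem_coe.mp h)
    have hℓN : ¬ ℓ ∣ M := fun h => hℓS (hNS ℓ hℓ h)
    have hℓp : ℓ ≠ p := fun h => hℓS (h ▸ hpS)
    rw [heckeEigenvalue_eq χ hℓ hℓN hℓS']
    exact hfrob σ (⟨ℓ, hℓ, hℓN, hℓS'⟩ : HeckeIdx M S) ℓ (fun n y hy =>
      hFrob (p ^ n) ℓ hℓ (not_dvd_mul_pow hp hℓ hℓN hℓp n) A hA σ hσ y hy)

end Fermat.Agent.S36B
end
end MergeWrap_S36_Bridge_LatticeFix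

section MergeWrap_S36_Bridge_Lattice -- from S36/Bridge/Lattice.lean

set_option autoImplicit false
set_option linter.unusedSectionVars false
set_option linter.style.haveILetI false

noncomputable section

namespace Fermat.Agent.S36B

open ModularCurve AlgebraicCurve CongruenceSubgroup IsLocalRing
open Fermat.Agent.F3 Fermat.Agent.F3EC Fermat.Agent.F3Deg Fermat.Agent.F3DegW Fermat.Agent.LDeg
open Fermat.Agent.S35
open Fermat.Agent.AtkinLehner (ALData)
open scoped TensorProduct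

local notation "Qb" => AlgebraicClosure ℚ

/-! ### the index set and the data -/

/-- the primes `q ≠ p` with `q² ∥ M`. -/
abbrev SqIdx (M p : ℕ) : Type := {q : ℕ // q.Prime ∧ q ≠ p ∧ M.factorization q = 2}

namespace SqIdx

variable {M p : ℕ} [NeZero M] (i : SqIdx M p)

theorem prime : i.1.Prime := i.2.1
theorem ne_p : i.1 ≠ p := i.2.2.1
theorem fact : M.factorization i.1 = 2 := i.2.2.2

theorem sq_dvd : i.1 ^ 2 ∣ M :=
  (i.prime.pow_dvd_iff_le_factorization (NeZero.ne M)).mpr (le_of_eq i.fact.symm)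

theorem dvd : i.1 ∣ M := (dvd_pow_self i.1 two_ne_zero).trans i.sq_dvd

/-- `M = (M / q) * q`. -/
theorem level_eq : M = M / i.1 * i.1 := (Nat.div_mul_cancel i.dvd).symm

theorem neZero_q : NeZero i.1 := ⟨i.prime.ne_zero⟩

theorem neZero_N : NeZero (M / i.1) :=
  ⟨fun h => NeZero.ne M (by rw [i.level_eq, h, zero_mul])⟩

theorem div_ne : M / i.1 ≠ M := fun h =>
  (Nat.div_lt_self (Nat.pos_of_ne_zero (NeZero.ne M)) i.prime.one_lt).ne h

theorem div_dvd : M / i.1 ∣ M := Nat.div_dvd_of_dvd i.dvd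

theorem sq_pos : 0 < i.1 ^ 2 := pow_pos i.prime.pos 2

theorem div_sq_pos : 0 < M / i.1 ^ 2 :=
  Nat.div_pos (Nat.le_of_dvd (Nat.pos_of_ne_zero (NeZero.ne M)) i.sq_dvd) i.sq_pos

theorem coprime_sq : Nat.Coprime (i.1 ^ 2) (M / i.1 ^ 2) := by
  have h := Nat.coprime_ordCompl i.prime (NeZero.ne M)
  rw [i.fact] at h
  exact Nat.Coprime.pow_left 2 h

theorem exists_data : ∃ D : ALData, D.Q = i.1 ^ 2 ∧ D.R = M / i.1 ^ 2 :=
  ALData.exists_of_coprime i.sq_pos i.div_sq_pos i.coprime_sq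

/-- the Atkin–Lehner data at `q²`. -/
def data : ALData := i.exists_data.choose

theorem data_Q : i.data.Q = i.1 ^ 2 := i.exists_data.choose_spec.1
theorem data_R : i.data.R = M / i.1 ^ 2 := i.exists_data.choose_spec.2

theorem level_eq_data : M = i.data.Q * i.data.R := by
  rw [i.data_Q, i.data_R]
  exact (Nat.mul_div_cancel' i.sq_dvd).symm

instance finite (M p : ℕ) [NeZero M] : Finite (SqIdx M p) := by
  have hfin : {q : ℕ | q.Prime ∧ q ≠ p ∧ M.factorization q = 2}.Finite :=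
    ((Finset.range (M + 1)).finite_toSet).subset fun q hq => by
      simp only [Finset.coe_range, Set.mem_Iio]
      have hdvd : q ∣ M := by
        refine (dvd_pow_self q two_ne_zero).trans ?_
        exact (hq.1.pow_dvd_iff_le_factorization (NeZero.ne M)).mpr (le_of_eq hq.2.2.symm)
      exact Nat.lt_succ_of_le (Nat.le_of_dvd (Nat.pos_of_ne_zero (NeZero.ne M)) hdvd)
  exact hfin.to_subtype

/-- `α_*` at `q`. -/
def degA : JZero M →+ JZero (M / i.1) :=
  haveI := i.neZero_q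
  haveI := i.neZero_N
  pushAlphaAt i.level_eq

/-- `α_* ∘ w_*` at `q`. -/
def degB : JZero M →+ JZero (M / i.1) :=
  i.degA.comp (pushWAt i.data i.level_eq_data)

/-- the transfer at `q`. -/
def corA : HomPar M →ₗ[ℤ] HomPar (M / i.1) :=
  haveI := i.neZero_q
  haveI := i.neZero_N
  coresParAt i.level_eq

/-- the transfer twisted by `w_{q²}`. -/
def corB : HomPar M →ₗ[ℤ] HomPar (M / i.1) :=
  i.corA ∘ₗ wPar i.data i.level_eq_data

theorem degA_smul (σ : Qb ≃ₐ[ℚ] Qb) (y : JZero M) : i.degA (σ • y) = σ • i.degA y :=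
  haveI := i.neZero_q
  haveI := i.neZero_N
  pushAlphaAt_smul i.level_eq σ y

theorem degB_smul (σ : Qb ≃ₐ[ℚ] Qb) (y : JZero M) : i.degB (σ • y) = σ • i.degB y := by
  unfold degB
  rw [AddMonoidHom.comp_apply, pushWAt_smul, degA_smul]
  rfl

theorem degA_kappaC (n : ℕ) (c : HomPar M) :
    haveI := i.neZero_N
    i.degA ((kappaC M n c : Jtors M n) : JZero M) =
      ((kappaC (M / i.1) n (i.corA c) : Jtors (M / i.1) n) : JZero (M / i.1)) :=
  haveI := i.neZero_q
  haveI := i.neZero_N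
  pushAlphaAt_kappaC_gen i.level_eq n c

theorem degB_kappaC (n : ℕ) (c : HomPar M) :
    haveI := i.neZero_N
    i.degB ((kappaC M n c : Jtors M n) : JZero M) =
      ((kappaC (M / i.1) n (i.corB c) : Jtors (M / i.1) n) : JZero (M / i.1)) :=
  haveI := i.neZero_q
  haveI := i.neZero_N
  pushAlphaAt_pushWAt_kappaC_gen i.level_eq i.data i.level_eq_data n c

theorem corA_heckeHom (hPA : PushAlphaHecke) (ℓ : Nat.Primes) (hℓ : ¬ (ℓ : ℕ) ∣ M)
    (c : HomPar M) :
    haveI := i.neZero_N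
    i.corA (heckeHom M ℓ c) = heckeHom (M / i.1) ℓ (i.corA c) :=
  haveI := i.neZero_q
  haveI := i.neZero_N
  coresParAt_heckeHom hPA i.level_eq i.prime ℓ hℓ c

theorem corB_heckeHom (hPA : PushAlphaHecke) (ℓ : Nat.Primes) (hℓ : ¬ (ℓ : ℕ) ∣ M)
    (c : HomPar M) :
    haveI := i.neZero_N
    i.corB (heckeHom M ℓ c) = heckeHom (M / i.1) ℓ (i.corB c) := by
  haveI := i.neZero_N
  show i.corA (wPar i.data i.level_eq_data (heckeHom M ℓ c)) =
    heckeHom (M / i.1) ℓ (i.corA (wPar i.data i.level_eq_data c))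
  rw [wPar_heckeHom i.data i.level_eq_data ℓ hℓ c, i.corA_heckeHom hPA ℓ hℓ]

end SqIdx

/-! ### the kernel map -/

/-- the target of the kernel map. -/
abbrev SqTarget (M p : ℕ) : Type := (i : SqIdx M p) → JZero (M / i.1) × JZero (M / i.1)

/-- **the kernel map** `u`: `y ↦ (α_* y, α_* w_* y)` at all primes `q ≠ p`, `q² ∥ M`. -/
def sqU (M p : ℕ) [NeZero M] : JZero M →ₗ[ℤ] SqTarget M p :=
  LinearMap.pi fun i => LinearMap.prod i.degA.toIntLinearMap i.degB.toIntLinearMap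

variable {M p : ℕ} [NeZero M]

theorem sqU_apply (y : JZero M) (i : SqIdx M p) : sqU M p y i = (i.degA y, i.degB y) := rfl

theorem sqU_eq_zero_iff (y : JZero M) :
    sqU M p y = 0 ↔ ∀ i : SqIdx M p, i.degA y = 0 ∧ i.degB y = 0 := by
  constructor
  · intro h i
    have := congrFun h i
    rw [sqU_apply] at this
    exact ⟨congrArg Prod.fst this, congrArg Prod.snd this⟩
  · intro h
    funext i
    rw [sqU_apply, (h i).1, (h i).2]
    rfl

/-- **`hu`**: the kernel of `u` is Galois-stable. -/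
theorem sqU_smul (σ : Qb ≃ₐ[ℚ] Qb) (y : JZero M) (h : sqU M p y = 0) :
    sqU M p (σ • y) = 0 := by
  rw [sqU_eq_zero_iff] at h ⊢
  intro i
  have h0 : σ • (0 : JZero (M / i.1)) = 0 := smul_zero (A := JZero (M / i.1)) σ
  exact ⟨by rw [i.degA_smul, (h i).1]; exact h0, by rw [i.degB_smul, (h i).2]; exact h0⟩

/-- **`hux`**, abstract form: an `x₀` killed by all transfers has its eigen-class killed
by `𝒪 ⊗ u`. -/
theorem sqU_newClass_of {O : Type*} [CommRing O] {x₀ : O ⊗[ℤ] HomPar M}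
    (hx₀ : ∀ i : SqIdx M p, i.corA.baseChange O x₀ = 0 ∧ i.corB.baseChange O x₀ = 0) (n : ℕ) :
    (sqU M p ∘ₗ (Jtors M (p ^ n)).subtype).baseChange O (newClass M p O x₀ n) = 0 := by
  refine newClass_ker (sqU M p)
    (LinearMap.pi fun i : SqIdx M p => LinearMap.prod i.corA i.corB) n
    (LinearMap.pi fun i : SqIdx M p =>
      haveI := i.neZero_N
      (LinearMap.prodMap ((Jtors (M / i.1) (p ^ n)).subtype ∘ₗ kappaC (M / i.1) (p ^ n))
        ((Jtors (M / i.1) (p ^ n)).subtype ∘ₗ kappaC (M / i.1) (p ^ n))) ∘ₗ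
        LinearMap.proj i) ?_ ?_
  · intro c
    funext i
    rw [sqU_apply, i.degA_kappaC, i.degB_kappaC]
    rfl
  · exact baseChange_pi_eq_zero _ x₀ fun i =>
      baseChange_prod_eq_zero _ _ x₀ (hx₀ i).1 (hx₀ i).2

/-- a Hecke-equivariant map carries eigenvectors to eigenvectors (after base change). -/
theorem baseChange_eig_of_comm {O : Type*} [CommRing O] {H H' : Type*} [AddCommGroup H]
    [AddCommGroup H'] (τ : H →ₗ[ℤ] H') (T : H →ₗ[ℤ] H) (T' : H' →ₗ[ℤ] H')
    (hτ : ∀ c, τ (T c) = T' (τ c)) {a : O} {x : O ⊗[ℤ] H} (hx : T.baseChange O x = a • x) :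
    T'.baseChange O (τ.baseChange O x) = a • τ.baseChange O x := by
  have hcomm : T'.baseChange O ∘ₗ τ.baseChange O = τ.baseChange O ∘ₗ T.baseChange O := by
    rw [← LinearMap.baseChange_comp, ← LinearMap.baseChange_comp]
    congr 1
    refine LinearMap.ext fun c => ?_
    rw [LinearMap.comp_apply, LinearMap.comp_apply]
    exact (hτ c).symm
  have h1 := congrArg (fun f => f x) hcomm
  simp only [LinearMap.comp_apply] at h1
  rw [h1, hx, map_smul]

/-- **`hux`**: the eigen-class of a newform of level `M` is killed by `𝒪 ⊗ u`. -/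
theorem sqU_newClass (hPA : PushAlphaHecke)
    (g : CuspForm (Gamma0 M) 2) (hg : g.IsNewform)
    (S : Finset ℕ) (hS : ∀ r : ℕ, r.Prime → r ∣ M → r ∈ S)
    (O : Type) [CommRing O] [IsDomain O] [CharZero O]
    (chig : CuspForm.heckeAlgebra M 2 (↑S : Set ℕ) →+* ℂ)
    (hchig : ∀ (ℓ : ℕ) (hℓ : ℓ.Prime) (hℓM : ¬ ℓ ∣ M) (hℓS : ℓ ∉ (↑S : Set ℕ)),
      chig (CuspForm.heckeAlgebra.T hℓ hℓM hℓS) = ModularFormClass.qCoeff g ℓ)
    (iota : chig.range →+* O) (x₀ : O ⊗[ℤ] HomPar M)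
    (hx : ∀ (ℓ : ℕ) (hℓ : ℓ.Prime) (hℓM : ¬ ℓ ∣ M) (hℓS : ℓ ∉ (↑S : Set ℕ)),
      (heckeHom M ⟨ℓ, hℓ⟩).baseChange O x₀ =
        (iota.comp chig.rangeRestrict) (CuspForm.heckeAlgebra.T hℓ hℓM hℓS) • x₀) (n : ℕ) :
    (sqU M p ∘ₗ (Jtors M (p ^ n)).subtype).baseChange O (newClass M p O x₀ n) = 0 := by
  refine sqU_newClass_of (fun i => ?_) n
  haveI := i.neZero_q
  haveI := i.neZero_N
  constructor
  · exact newLevel M (M / i.1) i.div_dvd i.div_ne g hg S hS O chig hchig iota _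
      (fun ℓ hℓ hℓM hℓS => baseChange_eig_of_comm i.corA (heckeHom M ⟨ℓ, hℓ⟩)
        (heckeHom (M / i.1) ⟨ℓ, hℓ⟩) (fun c => i.corA_heckeHom hPA ⟨ℓ, hℓ⟩ hℓM c)
        (hx ℓ hℓ hℓM hℓS))
  · exact newLevel M (M / i.1) i.div_dvd i.div_ne g hg S hS O chig hchig iota _
      (fun ℓ hℓ hℓM hℓS => baseChange_eig_of_comm i.corB (heckeHom M ⟨ℓ, hℓ⟩)
        (heckeHom (M / i.1) ⟨ℓ, hℓ⟩) (fun c => i.corB_heckeHom hPA ⟨ℓ, hℓ⟩ hℓM c)
        (hx ℓ hℓ hℓM hℓS))

/-- **`hcore`**: (CORE) for the kernel map `sqU`, from `CoreAll`. -/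
theorem coreFor_sqU (hcore : CoreAll) (hp : p.Prime) : CoreFor p M (sqU M p) := by
  intro q hq hqp hq2
  set i : SqIdx M p := ⟨q, hq, hqp, hq2⟩ with hi
  haveI := i.neZero_q
  haveI := i.neZero_N
  obtain ⟨c, hc, P, hP, hcP⟩ :=
    hcore p M q hp hq hqp hq2 i.data i.data_Q i.level_eq_data i.level_eq
  refine ⟨c, hc, P, hP, fun n y hy huy hfix => ?_⟩
  have h12 := (sqU_eq_zero_iff y).mp huy i
  exact hcP n y hy h12.1 h12.2 hfix

/-! ### the lattice input -/

/-- **the lattice input of S36 from (CORE)** (and the commutation of `α_*` with `T_ℓ`). -/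
theorem s36LatticeInput_of (hcore : CoreAll) (hPA : PushAlphaHecke) : S36LatticeInput := by
  intro M _ g hg lam _ S O' _ _ _ _ _ _ hlamO' _ chig hchig iota hlamS hMS
  have hp : lam.Prime := Fact.out
  have hMS' : ∀ q : ℕ, q.Prime → q ∣ M → q ∈ (↑S : Set ℕ) := fun q hq hqM =>
    Finset.mem_coe.mpr (hMS q hq hqM)
  obtain ⟨x₀, hx₀, hx⟩ :=
    Fermat.Agent.F3EP.exists_eigenvector_homPar' hMS' (iota.comp chig.rangeRestrict)
  have hpu : ¬ IsUnit (lam : O') := fun hu => (IsLocalRing.mem_maximalIdeal _).mp hlamO' hu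
  exact exists_frobLattice_nofix M
    (Fermat.Agent.F3TF.torsionFinite M)
    (Fermat.Agent.GaussInt.torsionUnramified_of_keyLemmaAt
      (Fermat.Agent.GaussInt.keyLemmaAt_all M))
    (Fermat.Agent.GaussIntFP.torsionFrobQuadratic_of_keyLemmaAt
      (Fermat.Agent.GaussInt.keyLemmaAt_all M) (Fermat.Agent.F3W.heckeInputs_all M))
    (Fermat.Agent.F3.torsionOpenStab M) (Fermat.Agent.F3G.heckeGaloisComm M)
    lam S hlamS hMS O' hlamO' (iota.comp chig.rangeRestrict)
    (newClass M lam O' x₀)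
    (newClass_ne_zero hp hpu hx₀)
    (fun n => newClass_compat hp x₀ n)
    (fun n ℓ hℓ hℓN hℓS => newClass_eig ⟨ℓ, hℓ⟩ hℓN (hx ℓ hℓ hℓN hℓS) n)
    (sqU M lam)
    (fun σ y h => sqU_smul σ y h)
    (fun n => sqU_newClass hPA g hg S hMS O' chig hchig iota x₀ hx n)
    (coreFor_sqU hcore hp)

/-- **S36 from (CORE).** -/
theorem s36Statement_of_core (hcore : CoreAll) (hPA : PushAlphaHecke) : S36Statement :=
  s36Statement_of_lattice Fermat.Agent.F3.frobDensityLite
    (fun p _ 𝒪 _ _ _ _ _ _ hp => ⟨Fermat.Agent.Cyclo.cycloCharData (p := p) (𝒪 := 𝒪) hp⟩)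
    (s36LatticeInput_of hcore hPA)

end Fermat.Agent.S36B
end
end MergeWrap_S36_Bridge_Lattice

section MergeWrap_S36_Bridge_PushAlphaHecke -- from S36/Bridge/PushAlphaHecke.lean

set_option autoImplicit false
set_option linter.unusedSectionVars false
set_option linter.unusedVariables false
set_option linter.style.haveILetI false
set_option synthInstance.maxHeartbeats 400000

noncomputable section

namespace Fermat.Agent.S36B

open AlgebraicCurve ModularCurve Fermat.Agent.EDescComm Fermat.Agent.F3Deg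

local notation "Qb" => AlgebraicClosure ℚ

/-- `α_*` commutes with the Hecke correspondence, on divisors (abstract form, from the data of
the two base change squares). -/
theorem pushforward_correspondence_of_commData
    {K E Lr Ls M : Type*} [Field K] [Field E] [Field Lr] [Field Ls] [Field M]
    [Algebra K E] [Algebra K Lr] [Algebra K Ls] [Algebra K M]
    [HasPrincipalDivisors K Lr] [HasPrincipalDivisors K Ls] [HasPrincipalDivisors K M]
    {αr βr : E →ₐ[K] Lr} {αs βs : E →ₐ[K] Ls} {As Bs : Lr →ₐ[K] M} {Ar Br : Ls →ₐ[K] M}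
    (h : CommData αr βr αs βs As Bs Ar Br)
    (hαr : αr.toRingHom.IsIntegral)
    (hαs : αs.toRingHom.IsIntegral) (hβs : βs.toRingHom.IsIntegral)
    (hAs : As.toRingHom.IsIntegral) (hBs : Bs.toRingHom.IsIntegral)
    (hAr : Ar.toRingHom.IsIntegral)
    (D : Divisor K Lr) :
    Divisor.pushforwardAlong αr hαr (Divisor.correspondence Bs As hBs hAs D) =
      Divisor.correspondence βs αs hβs hαs (Divisor.pushforwardAlong αr hαr D) := by
  simp only [Divisor.correspondence_apply]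
  rw [pullbackAlong_pushforwardAlong hαr hβs hAr hBs h.sq₂ h.normαr h.finAr h.normAr
      h.degE h.degLr h.approxLr,
    ← pushforwardAlong_comp αs Ar hαs hAr (isIntegral_comp αs Ar hαs hAr) h.degE h.degLs h.degM,
    ← pushforwardAlong_comp αr As hαr hAs (isIntegral_comp αr As hαr hAs) h.degE h.degLr h.degM]
  exact pushforwardAlong_eq_of_eq h.incl _ _ _

/-- `α_* ∘ T_ℓ = T_ℓ ∘ α_*` on `J₀`, `q ≠ ℓ` primes (`Along` form). -/
theorem pushAlpha_heckeOperatorAlong (N₀ q ℓ : ℕ) [NeZero N₀] [NeZero q] [NeZero ℓ]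
    (hq : q.Prime) (hℓ : ℓ.Prime) (hqℓ : q ≠ ℓ) (y : JZero (N₀ * q)) :
    pushAlpha N₀ q (heckeOperatorAlong Qb (N₀ * q) ℓ y) =
      heckeOperatorAlong Qb N₀ ℓ (pushAlpha N₀ q y) := by
  have h := commData_incl_scale N₀ q ℓ hq hℓ hqℓ
  rw [← heckeAlphaBar_eq_inclF N₀ q, ← heckeBetaBar_eq_scaleF N₀ q, ← heckeAlphaBar_eq_inclF N₀ ℓ,
    ← heckeBetaBar_eq_scaleF N₀ ℓ, ← heckeAlphaBar_eq_inclF (N₀ * q) ℓ,
    ← heckeBetaBar_eq_scaleF (N₀ * q) ℓ] at h
  obtain ⟨D, rfl⟩ := Pic0.mk_surjective y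
  rw [heckeOperatorAlong_eq_correspondence (N₀ * q) ℓ, heckeOperatorAlong_eq_correspondence N₀ ℓ,
    Pic0.correspondence_mk, pushAlpha_mk, pushAlpha_mk, Pic0.correspondence_mk]
  congr 1
  apply Subtype.ext
  rw [coe_pushDegZero, Pic0.coe_degZeroCorrespondence, Pic0.coe_degZeroCorrespondence,
    coe_pushDegZero]
  exact pushforward_correspondence_of_commData h (isIntegral_bar _) (isIntegral_bar _)
    (isIntegral_bar _) (isIntegral_bar _) (isIntegral_bar _) (isIntegral_bar _) D.1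

/-- **(N-DM1, α)** -/
theorem pushAlphaHecke : PushAlphaHecke := by
  intro N₀ q _ _ _ hq ℓ hℓ y
  haveI : NeZero (ℓ : ℕ) := ⟨ℓ.2.ne_zero⟩
  have hqℓ : q ≠ (ℓ : ℕ) := fun hc => hℓ (hc ▸ Dvd.intro_left N₀ rfl)
  rw [heckeOperatorBar_apply, heckeOperatorBar_apply]
  exact pushAlpha_heckeOperatorAlong N₀ q ℓ hq ℓ.2 hqℓ y

end Fermat.Agent.S36B
end
end MergeWrap_S36_Bridge_PushAlphaHecke

section MergeWrap_S36_Bridge_Final -- from S36/Bridge/Final.lean

set_option autoImplicit false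
set_option linter.unusedSectionVars false
set_option linter.style.haveILetI false

noncomputable section

namespace Fermat.Agent.S36B

open ModularCurve AlgebraicCurve CongruenceSubgroup IsLocalRing
open Fermat.Agent.F3 Fermat.Agent.F3EC Fermat.Agent.F3Deg Fermat.Agent.F3DegW Fermat.Agent.LDeg
open Fermat.Agent.S35
open Fermat.Agent.AtkinLehner (ALData)
open scoped TensorProduct

/-- **(CORE)** as consumed by S36: at the primes `lam ≠ 2`. -/
def CoreOdd : Prop :=
  ∀ (lam M q : ℕ) [NeZero M] [NeZero q] [NeZero (M / q)], lam.Prime → lam ≠ 2 → q.Prime →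
    q ≠ lam → M.factorization q = 2 → CoreAt lam M q

theorem coreOdd_of_coreAll (h : CoreAll) : CoreOdd :=
  fun lam M q _ _ _ hlam _ hq hql hq2 => h lam M q hlam hq hql hq2

variable {M p : ℕ} [NeZero M]

/-- **`hcore`**: (CORE) for the kernel map `sqU`, from (CORE) at the fixed `p`, `M`. -/
theorem coreFor_sqU_of
    (hcore : ∀ (q : ℕ) [NeZero q] [NeZero (M / q)], q.Prime → q ≠ p →
      M.factorization q = 2 → CoreAt p M q) : CoreFor p M (sqU M p) := by
  intro q hq hqp hq2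
  set i : SqIdx M p := ⟨q, hq, hqp, hq2⟩ with hi
  haveI := i.neZero_q
  haveI := i.neZero_N
  obtain ⟨c, hc, P, hP, hcP⟩ :=
    hcore q hq hqp hq2 i.data i.data_Q i.level_eq_data i.level_eq
  refine ⟨c, hc, P, hP, fun n y hy huy hfix => ?_⟩
  have h12 := (sqU_eq_zero_iff y).mp huy i
  exact hcP n y hy h12.1 h12.2 hfix

/-- **the lattice input of S36 from (CORE) at `lam ≠ 2`.** -/
theorem s36LatticeInput_of_coreOdd (hcore : CoreOdd) : S36LatticeInput := by
  intro M _ g hg lam _ S O' _ _ _ _ _ _ hlamO' hlam2 chig hchig iota hlamS hMS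
  have hp : lam.Prime := Fact.out
  have hMS' : ∀ q : ℕ, q.Prime → q ∣ M → q ∈ (↑S : Set ℕ) := fun q hq hqM =>
    Finset.mem_coe.mpr (hMS q hq hqM)
  obtain ⟨x₀, hx₀, hx⟩ :=
    Fermat.Agent.F3EP.exists_eigenvector_homPar' hMS' (iota.comp chig.rangeRestrict)
  have hpu : ¬ IsUnit (lam : O') := fun hu => (IsLocalRing.mem_maximalIdeal _).mp hlamO' hu
  exact exists_frobLattice_nofix M
    (Fermat.Agent.F3TF.torsionFinite M)
    (Fermat.Agent.GaussInt.torsionUnramified_of_keyLemmaAt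
      (Fermat.Agent.GaussInt.keyLemmaAt_all M))
    (Fermat.Agent.GaussIntFP.torsionFrobQuadratic_of_keyLemmaAt
      (Fermat.Agent.GaussInt.keyLemmaAt_all M) (Fermat.Agent.F3W.heckeInputs_all M))
    (Fermat.Agent.F3.torsionOpenStab M) (Fermat.Agent.F3G.heckeGaloisComm M)
    lam S hlamS hMS O' hlamO' (iota.comp chig.rangeRestrict)
    (newClass M lam O' x₀)
    (newClass_ne_zero hp hpu hx₀)
    (fun n => newClass_compat hp x₀ n)
    (fun n ℓ hℓ hℓN hℓS => newClass_eig ⟨ℓ, hℓ⟩ hℓN (hx ℓ hℓ hℓN hℓS) n)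
    (sqU M lam)
    (fun σ y h => sqU_smul σ y h)
    (fun n => sqU_newClass pushAlphaHecke g hg S hMS O' chig hchig iota x₀ hx n)
    (coreFor_sqU_of fun q _ _ hq hql hq2 => hcore lam M q hp hlam2 hq hql hq2)

/-- **S36 from (CORE) at `lam ≠ 2`.** -/
theorem s36Statement_of_coreOdd (hcore : CoreOdd) : S36Statement :=
  s36Statement_of_lattice Fermat.Agent.F3.frobDensityLite
    (fun p _ 𝒪 _ _ _ _ _ _ hp => ⟨Fermat.Agent.Cyclo.cycloCharData (p := p) (𝒪 := 𝒪) hp⟩)
    (s36LatticeInput_of_coreOdd hcore)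

end Fermat.Agent.S36B
end
end MergeWrap_S36_Bridge_Final

section MergeWrap_S36_G_CoreOddOf -- from S36/G/CoreOddOf.lean

set_option autoImplicit false
set_option linter.unusedSectionVars false
set_option linter.style.haveILetI false

noncomputable section

namespace Fermat.Agent.S36G

open Fermat.Agent.S36B

local notation "Qb" => AlgebraicClosure ℚ

/-- multiplying the level by a factor prime to `q` does not change the exponent of `q`. -/
theorem factorization_mul_of_coprime {M R q : ℕ} (hM : M ≠ 0) (hR : R ≠ 0) (hq : q.Prime)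
    (hcop : Nat.Coprime R q) : (M * R).factorization q = M.factorization q := by
  rw [Nat.factorization_mul hM hR, Finsupp.add_apply]
  have h0 : R.factorization q = 0 := by
    apply Nat.factorization_eq_zero_of_not_dvd
    intro hdvd
    have h1 : q ∣ Nat.gcd R q := Nat.dvd_gcd hdvd dvd_rfl
    rw [Nat.Coprime] at hcop
    rw [hcop] at h1
    exact hq.one_lt.ne' (Nat.dvd_one.mp h1)
  rw [h0, add_zero]

/-- **top wiring, generic form.** -/
theorem coreOdd_of_good (Good : ℕ → ℕ → ℕ → Prop)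
    (hex : ∀ lam q M : ℕ, lam.Prime → lam ≠ 2 → q.Prime → q ≠ lam → M.factorization q = 2 →
      ∃ R : ℕ, R ≠ 0 ∧ Nat.Coprime R q ∧ Good lam q (M * R))
    (hcore : ∀ (lam q M : ℕ) [NeZero M] [NeZero q] [NeZero (M / q)], lam.Prime → lam ≠ 2 →
      q.Prime → q ≠ lam → M.factorization q = 2 → Good lam q M → CoreAt lam M q) :
    CoreOdd := by
  intro lam M q _ _ _ hlam hlam2 hq hql hq2
  obtain ⟨R, hR0, hcop, hgood⟩ := hex lam q M hlam hlam2 hq hql hq2
  haveI : NeZero (M * R) := ⟨Nat.mul_ne_zero (NeZero.ne M) hR0⟩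
  haveI : NeZero (M * R / q) := aux_neZero_div hR0 hq.pos
  have hfac : (M * R).factorization q = 2 := by
    rw [factorization_mul_of_coprime (NeZero.ne M) hR0 hq hcop, hq2]
  exact coreAt_of_aux_mul lam q hlam.ne_zero hq R hcop M
    (hcore lam q (M * R) hlam hlam2 hq hql hfac hgood)

/-- the auxiliary condition: `M` is divisible by a prime `r ≡ 11 mod 12`, `r ≠ q`. -/
def AuxGood (q M : ℕ) : Prop := ∃ r : ℕ, r.Prime ∧ r % 12 = 11 ∧ r ≠ q ∧ r ∣ M

theorem exists_auxGood (q M : ℕ) (hq : q.Prime) :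
    ∃ R : ℕ, R ≠ 0 ∧ Nat.Coprime R q ∧ AuxGood q (M * R) := by
  by_cases h : q = 11
  · refine ⟨23, by norm_num, ?_, 23, by norm_num, by norm_num, by rw [h]; norm_num,
      Dvd.intro_left M rfl⟩
    rw [h]
    norm_num
  · refine ⟨11, by norm_num, ?_, 11, by norm_num, by norm_num, fun h' => h h'.symm,
      Dvd.intro_left M rfl⟩
    exact (Nat.coprime_primes (by norm_num) hq).mpr (fun h' => h h'.symm)

/-- **top wiring**: `CoreOdd` from `CoreAt` at the auxiliary levels. -/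
theorem coreOdd_of_auxGood
    (hcore : ∀ (lam q M : ℕ) [NeZero M] [NeZero q] [NeZero (M / q)], lam.Prime → lam ≠ 2 →
      q.Prime → q ≠ lam → M.factorization q = 2 → AuxGood q M → CoreAt lam M q) :
    CoreOdd :=
  coreOdd_of_good (fun _ q M => AuxGood q M)
    (fun _ q M _ _ hq _ _ => exists_auxGood q M hq) hcore

/-- **top wiring**: `CoreOdd` from the function form of (CORE) at the auxiliary levels. -/
theorem coreOdd_of_coreFun
    (hfun : ∀ (lam q M : ℕ) [NeZero M] [NeZero q] [NeZero (M / q)], lam.Prime → lam ≠ 2 →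
      q.Prime → q ≠ lam → M.factorization q = 2 → AuxGood q M →
      ∃ c : ℕ, c ≠ 0 ∧ ∃ P : ValuationSubring Qb, P.LiesOverPrime q ∧
        ∀ n : ℕ, CoreFunAt (M / q) q c P (lam ^ n)) :
    CoreOdd :=
  coreOdd_of_auxGood fun lam q M _ _ _ hlam hlam2 hq hql hq2 hgood =>
    coreAt_of_coreFunAt lam M q hlam.ne_zero (hfun lam q M hlam hlam2 hq hql hq2 hgood)

/-- **frozen S36 (as `S36Statement`) from the function form of (CORE) at the auxiliary
levels.** -/
theorem s36Statement_of_coreFun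
    (hfun : ∀ (lam q M : ℕ) [NeZero M] [NeZero q] [NeZero (M / q)], lam.Prime → lam ≠ 2 →
      q.Prime → q ≠ lam → M.factorization q = 2 → AuxGood q M →
      ∃ c : ℕ, c ≠ 0 ∧ ∃ P : ValuationSubring Qb, P.LiesOverPrime q ∧
        ∀ n : ℕ, CoreFunAt (M / q) q c P (lam ^ n)) :
    S36Statement :=
  s36Statement_of_coreOdd (coreOdd_of_coreFun hfun)

end Fermat.Agent.S36G
end
end MergeWrap_S36_G_CoreOddOf

section MergeWrap_S36_G_CoreOddOf23 -- from S36/G/CoreOddOf23.lean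

set_option autoImplicit false
set_option linter.unusedSectionVars false
set_option linter.style.haveILetI false

noncomputable section

namespace Fermat.Agent.S36G

open Fermat.Agent.S36B

local notation "Qb" => AlgebraicClosure ℚ

/-- the auxiliary condition with the extra divisibility at `q = 2, 3`. -/
def AuxGood23 (q M : ℕ) : Prop :=
  AuxGood q M ∧ (q = 2 → 3 ∣ M) ∧ (q = 3 → 2 ∣ M)

theorem auxGood_mul_right {q M : ℕ} (h : AuxGood q M) (R : ℕ) : AuxGood q (M * R) := by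
  obtain ⟨r, hr, hr12, hrq, hrM⟩ := h
  exact ⟨r, hr, hr12, hrq, Dvd.dvd.mul_right hrM R⟩

theorem exists_auxGood23 (q M : ℕ) (hq : q.Prime) :
    ∃ R : ℕ, R ≠ 0 ∧ Nat.Coprime R q ∧ AuxGood23 q (M * R) := by
  obtain ⟨R, hR, hRq, hgood⟩ := exists_auxGood q M hq
  by_cases h2 : q = 2
  · refine ⟨R * 3, mul_ne_zero hR (by norm_num), ?_, ?_, ?_, ?_⟩
    · exact Nat.Coprime.mul_left hRq (by rw [h2]; norm_num)
    · rw [← mul_assoc]
      exact auxGood_mul_right hgood 3
    · intro _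
      exact Dvd.dvd.mul_left (Dvd.intro_left R rfl) M
    · intro h3
      rw [h2] at h3
      exact absurd h3 (by norm_num)
  · by_cases h3 : q = 3
    · refine ⟨R * 2, mul_ne_zero hR (by norm_num), ?_, ?_, ?_, ?_⟩
      · exact Nat.Coprime.mul_left hRq (by rw [h3]; norm_num)
      · rw [← mul_assoc]
        exact auxGood_mul_right hgood 2
      · intro h
        exact absurd h h2
      · intro _
        exact Dvd.dvd.mul_left (Dvd.intro_left R rfl) M
    · exact ⟨R, hR, hRq, hgood, fun h => absurd h h2, fun h => absurd h h3⟩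

/-- **top wiring**: `CoreOdd` from the function form of (CORE) at the levels with `AuxGood23`. -/
theorem coreOdd_of_coreFun23
    (hfun : ∀ (lam q M : ℕ) [NeZero M] [NeZero q] [NeZero (M / q)], lam.Prime → lam ≠ 2 →
      q.Prime → q ≠ lam → M.factorization q = 2 → AuxGood23 q M →
      ∃ c : ℕ, c ≠ 0 ∧ ∃ P : ValuationSubring Qb, P.LiesOverPrime q ∧
        ∀ n : ℕ, CoreFunAt (M / q) q c P (lam ^ n)) :
    CoreOdd :=
  coreOdd_of_good (fun _ q M => AuxGood23 q M)
    (fun _ q M _ _ hq _ _ => exists_auxGood23 q M hq)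
    (fun lam q M _ _ _ hlam hlam2 hq hql hq2 hgood =>
      coreAt_of_coreFunAt lam M q hlam.ne_zero (hfun lam q M hlam hlam2 hq hql hq2 hgood))

/-- **frozen S36 (as `S36Statement`) from the function form of (CORE) at the levels with
`AuxGood23`.** -/
theorem s36Statement_of_coreFun23
    (hfun : ∀ (lam q M : ℕ) [NeZero M] [NeZero q] [NeZero (M / q)], lam.Prime → lam ≠ 2 →
      q.Prime → q ≠ lam → M.factorization q = 2 → AuxGood23 q M →
      ∃ c : ℕ, c ≠ 0 ∧ ∃ P : ValuationSubring Qb, P.LiesOverPrime q ∧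
        ∀ n : ℕ, CoreFunAt (M / q) q c P (lam ^ n)) :
    S36Statement :=
  s36Statement_of_coreOdd (coreOdd_of_coreFun23 hfun)

end Fermat.Agent.S36G
end
end MergeWrap_S36_G_CoreOddOf23
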