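import Mathlib
import Fermat.Agent.MU.Lib.BadRed.Graph.GlueDefs
import Fermat.Agent.S36.G.Types
import Fermat.Agent.MU.Lib.BadRed.Graph.GlueOrd

section MergeWrap_S36_G_GraphAlg -- from S36/G/GraphAlg.lean

/-!
# Cluster G (S36), Step 3: the graph algebra on `K_{|Vert|, s}` (helper92)

`Vert = {∞, 0} ∪ Mid`, `SS` the supersingular points.  A cochain `ζ : SS × Vert → G` (`G = kˣ`,
any commutative group) with

* (F1) `ζ(P,∞) · ∏_m ζ(P,m)^e / ζ(P,0)^q` independent of `P`   (`π₁_* x = 0`),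
* (F2) `ζ(P,∞)^q / (∏_m ζ(P,m)^e · ζ(P,0))` independent of `P` (`π₂_* x = 0`),
* (F3) `ζ(P,m) / ζ(P,m')` independent of `P`                    (`x` is fixed by inertia),

where `e · |Mid| + 1 = q`, has a `(q² - 1)`-th power which is a coboundary:
`ζ(P,v)^(q²-1) = a v / b P`.
-/

set_option autoImplicit false

namespace Fermat.Agent.S36G

variable {G : Type*} [CommGroup G] {SS Mid : Type*} [Fintype Mid]

/-- the exponent `q² - 1 = (q - 1) (q + 1)`. -/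
theorem ga_exp (q : ℕ) (hq : 1 ≤ q) : q ^ 2 - 1 = (q - 1) * (q + 1) := by
  obtain ⟨r, rfl⟩ : ∃ r, q = r + 1 := ⟨q - 1, by omega⟩
  have : (r + 1) ^ 2 = r * (r + 1 + 1) + 1 := by ring
  rw [this]
  simp

/-- **graph algebra**, quotient form: with `X P = ζ(P,∞)/ζ(P,0)`, `Y P m = ζ(P,m)/ζ(P,0)`. -/
theorem ga_quot (q e : ℕ) (hq : e * Fintype.card Mid + 1 = q)
    (X : SS → G) (Y : SS → Mid → G) (A B : G) (d : Mid → Mid → G)
    (h1 : ∀ P, X P * ∏ m, Y P m ^ e = A)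
    (h2 : ∀ P, X P ^ q / ∏ m, Y P m ^ e = B)
    (h3 : ∀ P m m', Y P m / Y P m' = d m m') :
    (∀ P, X P ^ (q + 1) = A * B) ∧
      ∀ P m, Y P m ^ ((q - 1) * (q + 1)) = A ^ (q + 1) / (A * B * (∏ m', d m' m ^ e) ^ (q + 1)) := by
  have hX : ∀ P, X P ^ (q + 1) = A * B := by
    intro P
    rw [← h1 P, ← h2 P, pow_succ]
    rw [mul_comm (X P ^ q) (X P), mul_assoc, mul_div_assoc', mul_comm (∏ m, Y P m ^ e) (X P ^ q),
      mul_div_assoc, div_self', mul_one]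
  refine ⟨hX, fun P m => ?_⟩
  have hprod : ∏ m', Y P m' ^ e = Y P m ^ (q - 1) * ∏ m', d m' m ^ e := by
    have h : ∀ m', Y P m' ^ e = Y P m ^ e * d m' m ^ e := by
      intro m'
      rw [← h3 P m' m, ← mul_pow, mul_div_cancel]
    rw [Finset.prod_congr rfl fun m' _ => h m', Finset.prod_mul_distrib, Finset.prod_const,
      Finset.card_univ, ← pow_mul]
    have : e * Fintype.card Mid = q - 1 := by omega
    rw [this]
  have hY : Y P m ^ (q - 1) = A / (X P * ∏ m', d m' m ^ e) := by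
    rw [eq_div_iff_mul_eq', ← h1 P, hprod]
    ac_rfl
  rw [pow_mul, hY, div_pow, mul_pow, hX P]

/-- **graph algebra**: a cochain on `K_{|Vert|, s}` satisfying (F1), (F2), (F3) has a
`(q² - 1)`-th power which is a coboundary. -/
theorem graphAlg (q e : ℕ) (hq : e * Fintype.card Mid + 1 = q)
    (zoo z0 : SS → G) (zm : SS → Mid → G) (A B : G) (d : Mid → Mid → G)
    (h1 : ∀ P, zoo P * (∏ m, zm P m ^ e) / z0 P ^ q = A)
    (h2 : ∀ P, zoo P ^ q / ((∏ m, zm P m ^ e) * z0 P) = B)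
    (h3 : ∀ P m m', zm P m / zm P m' = d m m') :
    ∃ (aoo a0 : G) (am : Mid → G) (b : SS → G),
      (∀ P, zoo P ^ (q ^ 2 - 1) = aoo / b P) ∧ (∀ P, z0 P ^ (q ^ 2 - 1) = a0 / b P) ∧
        ∀ P m, zm P m ^ (q ^ 2 - 1) = am m / b P := by
  have hq1 : 1 ≤ q := by omega
  have hcard : e * Fintype.card Mid = q - 1 := by omega
  rw [ga_exp q hq1]
  set X : SS → G := fun P => zoo P / z0 P with hXdef
  set Y : SS → Mid → G := fun P m => zm P m / z0 P with hYdef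
  have hprodY : ∀ P, ∏ m, Y P m ^ e = (∏ m, zm P m ^ e) / z0 P ^ (q - 1) := by
    intro P
    simp only [hYdef, div_pow]
    rw [Finset.prod_div_distrib, Finset.prod_const, Finset.card_univ, ← pow_mul, hcard]
  have h1' : ∀ P, X P * ∏ m, Y P m ^ e = A := by
    intro P
    rw [hprodY P, ← h1 P]
    simp only [hXdef]
    have hqq : z0 P ^ q = z0 P ^ (q - 1) * z0 P := by
      rw [← pow_succ]
      congr 1
      omega
    rw [hqq]
    rw [div_mul_div_comm, mul_comm (z0 P) _]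
  have h2' : ∀ P, X P ^ q / ∏ m, Y P m ^ e = B := by
    intro P
    rw [hprodY P, ← h2 P]
    simp only [hXdef, div_pow]
    have hqq : z0 P ^ q = z0 P ^ (q - 1) * z0 P := by
      rw [← pow_succ]
      congr 1
      omega
    rw [hqq, div_div_div_eq, mul_comm (zoo P ^ q) _, mul_comm (z0 P ^ (q - 1) * z0 P) _,
      ← mul_assoc, mul_comm (∏ m, zm P m ^ e) (z0 P ^ (q - 1)), mul_assoc,
      mul_div_mul_left_eq_div]
  have h3' : ∀ P m m', Y P m / Y P m' = d m m' := by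
    intro P m m'
    rw [← h3 P m m']
    simp only [hYdef]
    rw [div_div_div_cancel_right]
  obtain ⟨hX, hY⟩ := ga_quot q e hq X Y A B d h1' h2' h3'
  refine ⟨(A * B) ^ (q - 1), 1,
    fun m => A ^ (q + 1) / (A * B * (∏ m', d m' m ^ e) ^ (q + 1)),
    fun P => (z0 P ^ ((q - 1) * (q + 1)))⁻¹, fun P => ?_, fun P => ?_, fun P m => ?_⟩
  · beta_reduce
    rw [← hX P, ← pow_mul, mul_comm (q + 1) (q - 1), div_inv_eq_mul]
    simp only [hXdef, div_pow]
    rw [div_mul_cancel]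
  · beta_reduce
    rw [div_inv_eq_mul, one_mul]
  · beta_reduce
    rw [← hY P m, div_inv_eq_mul]
    simp only [hYdef, div_pow]
    rw [div_mul_cancel]

end Fermat.Agent.S36G
end MergeWrap_S36_G_GraphAlg

section MergeWrap_S36_G_Step3 -- from S36/G/Step3.lean

set_option autoImplicit false

/-!
# Cluster G (S36), Step 3 (toric), ABSTRACT assembly  (helper3)

Blueprint v2, section 3, Step 3.  Nothing here mentions modular curves: a `GraphSetup` `N`, the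
statements `GraphWDStatement N`, `GraphToricStatement N` of the gluing package and the graph
algebra `graphAlg`.

* `s3_wd_cocycle` : **(G-WD) in value form**.  If `e * u ^ n` (`u` without poles in the annuli)
  has reductions `H_c ^ n` and `H` has the nonzero values `VA i`, `VB i` at the two branches of the
  node `i`, then `γ (src i) * VA i = γ (tgt i) * VB i` for constants `γ_c ≠ 0`
  ("the cocycle `VA / VB` of a trivial class is a coboundary").
* `s3_principal_of_coboundary` : **(G-TORIC) in value form**.  If `div g = n D`, `D` ordinary,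
  `red_c (g / a_c) = h_c ^ n`, `h` has the nonzero values `va i`, `vb i` at the branches and the
  `M`-th power of the cocycle `va / vb` is a coboundary, then `M • D` is principal.
* `s3_graphAlg` : the graph algebra of `K_{|Vert|, s}` for values in a field: (F1), (F2), (F3) in
  the multiplicative form delivered by `s3_wd_cocycle` ⟹ the `(q² - 1)`-th power of the cocycle
  is a coboundary.
* `step3` : the assembly: `(q² - 1) • D` is principal.

How the modular instance uses it (architect helper80): `g`, `D`, `a`, `h` = the normal form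
(G-ORD) of the class `x''` of Step 2 with base `m D₀` (`D₀` saturated for `π₁`, `π₂` and stable under
inertia); (F1) = `s3_wd_cocycle` for `N_{π₁} g = e u ^ n` with the roots
`H_∞ = H_m = h_∞ ∏ N (h_m)`, `H_0 = h_0 ^ q`, `H_P = N_{k(H_P)/k(W)} h_P` and the values of norms
(VAL-NORM); (F2) the same for `π₂`; (F3) = `s3_wd_cocycle` for `s g / g = e w ^ n`, `s` in the
inertia group swapping `m`, `m'`, with the roots `s̄ (h_{s⁻¹ c}) / h_c`.
-/

noncomputable section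

open AlgebraicCurve Fermat.Agent.RR Fermat.Agent.Deuring

namespace Fermat.Agent.S36G

open Fermat.Agent.BadRed Fermat.Agent.BadRedG Fermat.Agent.BadRed.Gluing

variable {K F k : Type*} [Field K] [Field F] [Algebra K F] [Field k]
  {κ : Type*} {Fk : κ → Type*} [∀ c, Field (Fk c)] [∀ c, Algebra k (Fk c)] {ι : Type*}

/-! ### (G-WD) and (G-TORIC) in value form -/

/-- **(G-WD) in value form.** -/
theorem s3_wd_cocycle [Finite κ] (N : GraphSetup K F k κ Fk ι) (hWD : GraphWDStatement N)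
    {n : ℕ} (hn : n ≠ 0) {u : F} {e : K} (hu : u ≠ 0) (he : e ≠ 0)
    (hpole : ∀ P : Place K F, P.ord u < 0 → N.IsOrd P)
    {a : κ → K} {H : ∀ c, Fk c} (ha : ∀ c, a c ≠ 0)
    (hred : ∀ c, (N.S c).red (algebraMap K F e * u ^ n / algebraMap K F (a c)) = H c ^ n)
    (hH0 : ∀ c, H c ≠ 0) {VA VB : ι → k}
    (hVA : ∀ i, ValAt (N.s₁ i) (H (N.src i)) (VA i))
    (hVB : ∀ i, ValAt (N.s₂ i) (H (N.tgt i)) (VB i))
    (hVA0 : ∀ i, VA i ≠ 0) (hVB0 : ∀ i, VB i ≠ 0) :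
    ∃ γ : κ → k, (∀ c, γ c ≠ 0) ∧ ∀ i, γ (N.src i) * VA i = γ (N.tgt i) * VB i := by
  have hU : N.UnitAtBranches H :=
    ⟨hH0, fun i => ⟨ord_eq_zero_of_valAt (hVA i) (hVA0 i), ord_eq_zero_of_valAt (hVB i) (hVB0 i)⟩⟩
  obtain ⟨γ, hγ, hnod⟩ := hWD n hn u e hu he hpole a H ha hred hU
  refine ⟨γ, hγ, fun i => ?_⟩
  obtain ⟨x, hx1, hx2⟩ := hnod i
  have h1 : ValAt (N.s₁ i) (γ (N.src i) • H (N.src i)) (γ (N.src i) * VA i) :=
    (hVA i).smul (γ (N.src i))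
  have h2 : ValAt (N.s₂ i) (γ (N.tgt i) • H (N.tgt i)) (γ (N.tgt i) * VB i) :=
    (hVB i).smul (γ (N.tgt i))
  rw [h1.unique hx1, h2.unique hx2]

/-- order of a power. -/
theorem s3_ord_pow (P : Place K F) (f : F) (m : ℕ) : P.ord (f ^ m) = m * P.ord f :=
  ord_pow_nat P f m

/-- **(G-TORIC) in value form**: if the `M`-th power of the cocycle `va / vb` of the roots `h` of
`g` is the coboundary of `ε`, then `M • D` is principal. -/
theorem s3_principal_of_coboundary [Fintype κ] [Fintype ι] (N : GraphSetup K F k κ Fk ι)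
    (hToric : GraphToricStatement N) (hrel : N.GenusRel)
    {n : ℕ} (hn0 : (n : K) ≠ 0) (c₀ : κ) (hnA : ((n : K))⁻¹ ∈ (N.S c₀).A)
    {g : F} {D : Divisor K F} (hg : g ≠ 0) (hdiv : ∀ P : Place K F, P.ord g = n * D P)
    (hDord : N.IsOrdDiv D) {a : κ → K} {h : ∀ c, Fk c} (ha : ∀ c, a c ≠ 0)
    (hred : ∀ c, (N.S c).red (g / algebraMap K F (a c)) = h c ^ n) (hh0 : ∀ c, h c ≠ 0)
    {va vb : ι → k} (hva : ∀ i, ValAt (N.s₁ i) (h (N.src i)) (va i))
    (hvb : ∀ i, ValAt (N.s₂ i) (h (N.tgt i)) (vb i))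
    (hva0 : ∀ i, va i ≠ 0) (hvb0 : ∀ i, vb i ≠ 0)
    (M : ℕ) (ε : κ → k) (hε : ∀ c, ε c ≠ 0)
    (hcob : ∀ i, ε (N.src i) * va i ^ M = ε (N.tgt i) * vb i ^ M) :
    M • D ∈ Divisor.principal (K := K) (F := F) := by
  have hn : n ≠ 0 := by
    rintro rfl
    exact hn0 Nat.cast_zero
  -- lifts of the constants `ε c ^ n`
  have hlift : ∀ c, ∃ t : K, ∃ ht : t ∈ (N.S c).A, (N.S c).res ⟨t, ht⟩ = ε c ^ n := by
    intro c
    obtain ⟨⟨t, ht⟩, h1⟩ := (N.S c).res_surj (ε c ^ n)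
    exact ⟨t, ht, h1⟩
  choose t htA htres using hlift
  have ht0 : ∀ c, t c ≠ 0 := by
    intro c h0
    have h1 := htres c
    have h2 : (⟨t c, htA c⟩ : (N.S c).A) = 0 := Subtype.ext h0
    rw [h2, map_zero] at h1
    exact pow_ne_zero n (hε c) h1.symm
  -- the new roots
  set H' : ∀ c, Fk c := fun c => ε c • h c ^ M with hH'
  have hH'0 : ∀ c, H' c ≠ 0 := fun c => smul_ne_zero (hε c) (pow_ne_zero M (hh0 c))
  have hVA' : ∀ i, ValAt (N.s₁ i) (H' (N.src i)) (ε (N.src i) * va i ^ M) := fun i =>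
    (valAt_pow (hva i) M).smul (ε (N.src i))
  have hVB' : ∀ i, ValAt (N.s₂ i) (H' (N.tgt i)) (ε (N.tgt i) * vb i ^ M) := fun i =>
    (valAt_pow (hvb i) M).smul (ε (N.tgt i))
  have hU' : N.UnitAtBranches H' :=
    ⟨hH'0, fun i => ⟨ord_eq_zero_of_valAt (hVA' i) (mul_ne_zero (hε _) (pow_ne_zero M (hva0 i))),
      ord_eq_zero_of_valAt (hVB' i) (mul_ne_zero (hε _) (pow_ne_zero M (hvb0 i)))⟩⟩
  have hNod' : N.IsNodalTuple H' := fun i =>
    ⟨ε (N.src i) * va i ^ M, hVA' i, by rw [hcob i]; exact hVB' i⟩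
  -- the new constants
  set a' : κ → K := fun c => a c ^ M / t c with ha'
  have ha'0 : ∀ c, a' c ≠ 0 := fun c => div_ne_zero (pow_ne_zero M (ha c)) (ht0 c)
  have hred' : ∀ c, (N.S c).red (g ^ M / algebraMap K F (a' c)) = H' c ^ n := by
    intro c
    have hne : (N.S c).red (g / algebraMap K F (a c)) ≠ 0 := by
      rw [hred c]
      exact pow_ne_zero n (hh0 c)
    have hmem := (N.S c).mem_of_red_ne_zero hne
    have e1 : g ^ M / algebraMap K F (a' c) = t c • (g / algebraMap K F (a c)) ^ M := by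
      have h1 : algebraMap K F (a c) ≠ 0 := (map_ne_zero _).mpr (ha c)
      have h2 : algebraMap K F (t c) ≠ 0 := (map_ne_zero _).mpr (ht0 c)
      rw [ha', Algebra.smul_def, map_div₀, map_pow, div_pow]
      field_simp
    rw [e1, (N.S c).red_smul (htA c) (pow_mem hmem M), (N.S c).red_pow hmem, hred c, htres c,
      hH', smul_pow, ← pow_mul, ← pow_mul, mul_comm n M]
  have hdiv' : ∀ P : Place K F, P.ord (g ^ M) = n * (M • D) P := by
    intro P
    rw [s3_ord_pow, hdiv, Finsupp.smul_apply, nsmul_eq_mul]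
    ring
  have hDord' : N.IsOrdDiv (M • D) := by
    intro P hP
    apply hDord P
    intro h0
    apply hP
    rw [Finsupp.smul_apply, h0, smul_zero]
  exact hToric hrel n hn0 c₀ hnA (g ^ M) (M • D) (pow_ne_zero M hg) hdiv' hDord' a' H' ha'0 hred'
    hU' hNod'

/-! ### the graph algebra for values in a field, and the assembly -/

theorem s3_f1 {A B X Y A0 B0 gi g0 gP : k}
    (hB : B ≠ 0) (hY : Y ≠ 0) (hA0 : A0 ≠ 0) (hgi : gi ≠ 0)
    (E1 : gi * (A * X) = gP * (B * Y)) (E2 : g0 * A0 = gP * B0) :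
    A / B * (X / Y) / (A0 / B0) = g0 / gi := by
  field_simp
  linear_combination B0 * E1 - (B * Y) * E2

theorem s3_f2 {A B X Y A0 B0 gi g0 gP : k}
    (hB : B ≠ 0) (hA0 : A0 ≠ 0) (hX : X ≠ 0) (hgi : gi ≠ 0)
    (E1 : gi * A = gP * B) (E2 : g0 * (A0 * X) = gP * (B0 * Y)) :
    A / B / (X / Y * (A0 / B0)) = g0 / gi := by
  field_simp
  linear_combination (B0 * Y) * E1 - B * E2

theorem s3_f3 {A B A' B' d : k} (hB : B ≠ 0) (hA' : A' ≠ 0)
    (E : A * B' = d * (A' * B)) : A / B / (A' / B') = d := by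
  field_simp
  linear_combination E

theorem s3_f4 {A B x b : k} {M : ℕ} (hB : B ≠ 0) (hx : x ≠ 0) (hb : b ≠ 0)
    (E : (A / B) ^ M = x / b) : x⁻¹ * A ^ M = b⁻¹ * B ^ M := by
  have hBM : B ^ M ≠ 0 := pow_ne_zero M hB
  rw [div_pow] at E
  field_simp at E ⊢
  linear_combination E

section Modular

variable {Mid SS : Type} [Fintype Mid]

/-- **graph algebra, field form**: (F1), (F2), (F3) in the multiplicative form delivered by
`s3_wd_cocycle` imply that the `(q² - 1)`-th power of the cocycle `va / vb` is a coboundary. -/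
theorem s3_graphAlg (q e : ℕ) (hq : e * Fintype.card Mid + 1 = q)
    (va vb : Nod Mid SS → k) (hva0 : ∀ i, va i ≠ 0) (hvb0 : ∀ i, vb i ≠ 0)
    (hF1 : ∃ γ : Vtx Mid SS → k, (∀ c, γ c ≠ 0) ∧
      (∀ P, γ (Vtx.vert Vrt.oo) * (va (P, Vrt.oo) * ∏ m, va (P, Vrt.mid m) ^ e) =
        γ (Vtx.hor P) * (vb (P, Vrt.oo) * ∏ m, vb (P, Vrt.mid m) ^ e)) ∧
      ∀ P, γ (Vtx.vert Vrt.zero) * va (P, Vrt.zero) ^ q =
        γ (Vtx.hor P) * vb (P, Vrt.zero) ^ q)
    (hF2 : ∃ γ : Vtx Mid SS → k, (∀ c, γ c ≠ 0) ∧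
      (∀ P, γ (Vtx.vert Vrt.oo) * va (P, Vrt.oo) ^ q = γ (Vtx.hor P) * vb (P, Vrt.oo) ^ q) ∧
      ∀ P, γ (Vtx.vert Vrt.zero) * (va (P, Vrt.zero) * ∏ m, va (P, Vrt.mid m) ^ e) =
        γ (Vtx.hor P) * (vb (P, Vrt.zero) * ∏ m, vb (P, Vrt.mid m) ^ e))
    (hF3 : ∀ m m' : Mid, ∃ d : k, d ≠ 0 ∧
      ∀ P, va (P, Vrt.mid m) * vb (P, Vrt.mid m') = d * (va (P, Vrt.mid m') * vb (P, Vrt.mid m))) :
    ∃ ε : Vtx Mid SS → k, (∀ c, ε c ≠ 0) ∧
      ∀ (P : SS) (v : Vrt Mid),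
        ε (Vtx.vert v) * va (P, v) ^ (q ^ 2 - 1) = ε (Vtx.hor P) * vb (P, v) ^ (q ^ 2 - 1) := by
  classical
  obtain ⟨γ₁, hγ₁, h1a, h1b⟩ := hF1
  obtain ⟨γ₂, hγ₂, h2a, h2b⟩ := hF2
  choose d hd0 hd using hF3
  -- the cocycle, in the group of units
  let ζ : Nod Mid SS → kˣ := fun i => Units.mk0 (va i) (hva0 i) / Units.mk0 (vb i) (hvb0 i)
  have hζ : ∀ i, ((ζ i : kˣ) : k) = va i / vb i := fun i => by
    simp only [ζ, Units.val_div_eq_div_val, Units.val_mk0]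
  have hX : ∀ P, (∏ m, va (P, Vrt.mid m) ^ e) ≠ 0 := fun P =>
    Finset.prod_ne_zero_iff.mpr fun m _ => pow_ne_zero e (hva0 _)
  have hY : ∀ P, (∏ m, vb (P, Vrt.mid m) ^ e) ≠ 0 := fun P =>
    Finset.prod_ne_zero_iff.mpr fun m _ => pow_ne_zero e (hvb0 _)
  have hprod : ∀ P, (((∏ m, ζ (P, Vrt.mid m) ^ e : kˣ)) : k) =
      (∏ m, va (P, Vrt.mid m) ^ e) / ∏ m, vb (P, Vrt.mid m) ^ e := by
    intro P
    rw [Units.coe_prod, ← Finset.prod_div_distrib]
    refine Finset.prod_congr rfl fun m _ => ?_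
    rw [Units.val_pow_eq_pow_val, hζ, div_pow]
  have k1 : ∀ P, ζ (P, Vrt.oo) * (∏ m, ζ (P, Vrt.mid m) ^ e) / ζ (P, Vrt.zero) ^ q =
      Units.mk0 _ (hγ₁ (Vtx.vert Vrt.zero)) / Units.mk0 _ (hγ₁ (Vtx.vert Vrt.oo)) := by
    intro P
    apply Units.ext
    rw [Units.val_div_eq_div_val, Units.val_mul, Units.val_pow_eq_pow_val, hprod, hζ, hζ,
      Units.val_div_eq_div_val, Units.val_mk0, Units.val_mk0, div_pow]
    exact s3_f1 (hvb0 _) (hY P) (pow_ne_zero q (hva0 _)) (hγ₁ _) (h1a P) (h1b P)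
  have k2 : ∀ P, ζ (P, Vrt.oo) ^ q / ((∏ m, ζ (P, Vrt.mid m) ^ e) * ζ (P, Vrt.zero)) =
      Units.mk0 _ (hγ₂ (Vtx.vert Vrt.zero)) / Units.mk0 _ (hγ₂ (Vtx.vert Vrt.oo)) := by
    intro P
    apply Units.ext
    rw [Units.val_div_eq_div_val, Units.val_mul, Units.val_pow_eq_pow_val, hprod, hζ, hζ,
      Units.val_div_eq_div_val, Units.val_mk0, Units.val_mk0, div_pow]
    exact s3_f2 (pow_ne_zero q (hvb0 _)) (hva0 _) (hX P) (hγ₂ _) (h2a P) (h2b P)
  have k3 : ∀ P m m', ζ (P, Vrt.mid m) / ζ (P, Vrt.mid m') = Units.mk0 _ (hd0 m m') := by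
    intro P m m'
    apply Units.ext
    rw [Units.val_div_eq_div_val, hζ, hζ, Units.val_mk0]
    exact s3_f3 (hvb0 _) (hva0 _) (hd m m' P)
  obtain ⟨aoo, a0, am, b, hoo, h0, hm⟩ := graphAlg q e hq (fun P => ζ (P, Vrt.oo))
    (fun P => ζ (P, Vrt.zero)) (fun P m => ζ (P, Vrt.mid m)) _ _
    (fun m m' => Units.mk0 _ (hd0 m m')) k1 k2 k3
  -- the coboundary
  let εu : Vtx Mid SS → kˣ := fun c =>
    match c with
    | Vtx.vert Vrt.oo => aoo⁻¹
    | Vtx.vert Vrt.zero => a0⁻¹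
    | Vtx.vert (Vrt.mid m) => (am m)⁻¹
    | Vtx.hor P => (b P)⁻¹
  have hgen : ∀ (P : SS) (v : Vrt Mid) (x : kˣ), ζ (P, v) ^ (q ^ 2 - 1) = x / b P →
      ((x⁻¹ : kˣ) : k) * va (P, v) ^ (q ^ 2 - 1) =
        (((b P)⁻¹ : kˣ) : k) * vb (P, v) ^ (q ^ 2 - 1) := by
    intro P v x hx
    have h := congrArg Units.val hx
    rw [Units.val_pow_eq_pow_val, hζ, Units.val_div_eq_div_val] at h
    rw [Units.val_inv_eq_inv_val, Units.val_inv_eq_inv_val]
    exact s3_f4 (hvb0 _) x.ne_zero (b P).ne_zero h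
  refine ⟨fun c => (εu c : k), fun c => (εu c).ne_zero, fun P v => ?_⟩
  cases v with
  | oo => exact hgen P Vrt.oo aoo (hoo P)
  | zero => exact hgen P Vrt.zero a0 (h0 P)
  | mid m => exact hgen P (Vrt.mid m) (am m) (hm P m)

/-- **Step 3, assembly**: on the modular graph `K_{|Vert|, s}`, a class whose normal form has the
cocycle `va / vb` satisfying (F1), (F2), (F3) is killed by `q² - 1`. -/
theorem step3 [Fintype SS] {Fk : Vtx Mid SS → Type*} [∀ c, Field (Fk c)] [∀ c, Algebra k (Fk c)]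
    (N : GraphSetup K F k (Vtx Mid SS) Fk (Nod Mid SS))
    (hsrc : ∀ i, N.src i = nodSrc i) (htgt : ∀ i, N.tgt i = nodTgt i)
    (hToric : GraphToricStatement N) (hrel : N.GenusRel)
    {n : ℕ} (hn0 : (n : K) ≠ 0) (c₀ : Vtx Mid SS) (hnA : ((n : K))⁻¹ ∈ (N.S c₀).A)
    {g : F} {D : Divisor K F} (hg : g ≠ 0) (hdiv : ∀ P : Place K F, P.ord g = n * D P)
    (hDord : N.IsOrdDiv D) {a : Vtx Mid SS → K} {h : ∀ c, Fk c} (ha : ∀ c, a c ≠ 0)
    (hred : ∀ c, (N.S c).red (g / algebraMap K F (a c)) = h c ^ n) (hh0 : ∀ c, h c ≠ 0)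
    {va vb : Nod Mid SS → k} (hva : ∀ i, ValAt (N.s₁ i) (h (N.src i)) (va i))
    (hvb : ∀ i, ValAt (N.s₂ i) (h (N.tgt i)) (vb i))
    (hva0 : ∀ i, va i ≠ 0) (hvb0 : ∀ i, vb i ≠ 0)
    (q e : ℕ) (hq : e * Fintype.card Mid + 1 = q)
    (hF1 : ∃ γ : Vtx Mid SS → k, (∀ c, γ c ≠ 0) ∧
      (∀ P, γ (Vtx.vert Vrt.oo) * (va (P, Vrt.oo) * ∏ m, va (P, Vrt.mid m) ^ e) =
        γ (Vtx.hor P) * (vb (P, Vrt.oo) * ∏ m, vb (P, Vrt.mid m) ^ e)) ∧
      ∀ P, γ (Vtx.vert Vrt.zero) * va (P, Vrt.zero) ^ q =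
        γ (Vtx.hor P) * vb (P, Vrt.zero) ^ q)
    (hF2 : ∃ γ : Vtx Mid SS → k, (∀ c, γ c ≠ 0) ∧
      (∀ P, γ (Vtx.vert Vrt.oo) * va (P, Vrt.oo) ^ q = γ (Vtx.hor P) * vb (P, Vrt.oo) ^ q) ∧
      ∀ P, γ (Vtx.vert Vrt.zero) * (va (P, Vrt.zero) * ∏ m, va (P, Vrt.mid m) ^ e) =
        γ (Vtx.hor P) * (vb (P, Vrt.zero) * ∏ m, vb (P, Vrt.mid m) ^ e))
    (hF3 : ∀ m m' : Mid, ∃ d : k, d ≠ 0 ∧
      ∀ P, va (P, Vrt.mid m) * vb (P, Vrt.mid m') = d * (va (P, Vrt.mid m') * vb (P, Vrt.mid m))) :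
    (q ^ 2 - 1) • D ∈ Divisor.principal (K := K) (F := F) := by
  obtain ⟨ε, hε, hcob⟩ := s3_graphAlg q e hq va vb hva0 hvb0 hF1 hF2 hF3
  refine s3_principal_of_coboundary N hToric hrel hn0 c₀ hnA hg hdiv hDord ha hred hh0 hva hvb
    hva0 hvb0 (q ^ 2 - 1) ε hε fun i => ?_
  rw [hsrc i, htgt i]
  exact hcob i.1 i.2

/-- (G-WD) in value form on the modular graph: `γ (vert v) * VA (P, v) = γ (hor P) * VB (P, v)`. -/
theorem s3_wd_cocycle_modular [Fintype SS] {Fk : Vtx Mid SS → Type*} [∀ c, Field (Fk c)]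
    [∀ c, Algebra k (Fk c)] (N : GraphSetup K F k (Vtx Mid SS) Fk (Nod Mid SS))
    (hsrc : ∀ i, N.src i = nodSrc i) (htgt : ∀ i, N.tgt i = nodTgt i)
    (hWD : GraphWDStatement N)
    {n : ℕ} (hn : n ≠ 0) {u : F} {e : K} (hu : u ≠ 0) (he : e ≠ 0)
    (hpole : ∀ P : Place K F, P.ord u < 0 → N.IsOrd P)
    {a : Vtx Mid SS → K} {H : ∀ c, Fk c} (ha : ∀ c, a c ≠ 0)
    (hred : ∀ c, (N.S c).red (algebraMap K F e * u ^ n / algebraMap K F (a c)) = H c ^ n)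
    (hH0 : ∀ c, H c ≠ 0) {VA VB : Nod Mid SS → k}
    (hVA : ∀ i, ValAt (N.s₁ i) (H (N.src i)) (VA i))
    (hVB : ∀ i, ValAt (N.s₂ i) (H (N.tgt i)) (VB i))
    (hVA0 : ∀ i, VA i ≠ 0) (hVB0 : ∀ i, VB i ≠ 0) :
    ∃ γ : Vtx Mid SS → k, (∀ c, γ c ≠ 0) ∧
      ∀ (P : SS) (v : Vrt Mid), γ (Vtx.vert v) * VA (P, v) = γ (Vtx.hor P) * VB (P, v) := by
  obtain ⟨γ, hγ, h⟩ := s3_wd_cocycle N hWD hn hu he hpole ha hred hH0 hVA hVB hVA0 hVB0
  refine ⟨γ, hγ, fun P v => ?_⟩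
  have := h (P, v)
  rwa [hsrc, htgt] at this

/-- **(F1)** from the cocycle relation of the norm `N_{π₁} g`: the values of its roots at the
branches are `va ∞ ∏ va_m ^ e` (nodes `(P, ∞)`) and `va_0 ^ q` (nodes `(P, 0)`). -/
theorem s3_F1_of_cocycle {va vb VA VB : Nod Mid SS → k} {q e : ℕ}
    (hA1 : ∀ P, VA (P, Vrt.oo) = va (P, Vrt.oo) * ∏ m, va (P, Vrt.mid m) ^ e)
    (hB1 : ∀ P, VB (P, Vrt.oo) = vb (P, Vrt.oo) * ∏ m, vb (P, Vrt.mid m) ^ e)
    (hA0 : ∀ P, VA (P, Vrt.zero) = va (P, Vrt.zero) ^ q)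
    (hB0 : ∀ P, VB (P, Vrt.zero) = vb (P, Vrt.zero) ^ q)
    (h : ∃ γ : Vtx Mid SS → k, (∀ c, γ c ≠ 0) ∧
      ∀ (P : SS) (v : Vrt Mid), γ (Vtx.vert v) * VA (P, v) = γ (Vtx.hor P) * VB (P, v)) :
    ∃ γ : Vtx Mid SS → k, (∀ c, γ c ≠ 0) ∧
      (∀ P, γ (Vtx.vert Vrt.oo) * (va (P, Vrt.oo) * ∏ m, va (P, Vrt.mid m) ^ e) =
        γ (Vtx.hor P) * (vb (P, Vrt.oo) * ∏ m, vb (P, Vrt.mid m) ^ e)) ∧
      ∀ P, γ (Vtx.vert Vrt.zero) * va (P, Vrt.zero) ^ q =
        γ (Vtx.hor P) * vb (P, Vrt.zero) ^ q := by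
  obtain ⟨γ, hγ, h⟩ := h
  refine ⟨γ, hγ, fun P => ?_, fun P => ?_⟩
  · rw [← hA1, ← hB1]
    exact h P Vrt.oo
  · rw [← hA0, ← hB0]
    exact h P Vrt.zero

/-- **(F2)** from the cocycle relation of the norm `N_{π₂} g`: the values of its roots at the
branches are `va_∞ ^ q` (nodes `(P, ∞)`) and `va_0 ∏ va_m ^ e` (nodes `(P, 0)`). -/
theorem s3_F2_of_cocycle {va vb VA VB : Nod Mid SS → k} {q e : ℕ}
    (hA1 : ∀ P, VA (P, Vrt.oo) = va (P, Vrt.oo) ^ q)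
    (hB1 : ∀ P, VB (P, Vrt.oo) = vb (P, Vrt.oo) ^ q)
    (hA0 : ∀ P, VA (P, Vrt.zero) = va (P, Vrt.zero) * ∏ m, va (P, Vrt.mid m) ^ e)
    (hB0 : ∀ P, VB (P, Vrt.zero) = vb (P, Vrt.zero) * ∏ m, vb (P, Vrt.mid m) ^ e)
    (h : ∃ γ : Vtx Mid SS → k, (∀ c, γ c ≠ 0) ∧
      ∀ (P : SS) (v : Vrt Mid), γ (Vtx.vert v) * VA (P, v) = γ (Vtx.hor P) * VB (P, v)) :
    ∃ γ : Vtx Mid SS → k, (∀ c, γ c ≠ 0) ∧
      (∀ P, γ (Vtx.vert Vrt.oo) * va (P, Vrt.oo) ^ q = γ (Vtx.hor P) * vb (P, Vrt.oo) ^ q) ∧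
      ∀ P, γ (Vtx.vert Vrt.zero) * (va (P, Vrt.zero) * ∏ m, va (P, Vrt.mid m) ^ e) =
        γ (Vtx.hor P) * (vb (P, Vrt.zero) * ∏ m, vb (P, Vrt.mid m) ^ e) := by
  obtain ⟨γ, hγ, h⟩ := h
  refine ⟨γ, hγ, fun P => ?_, fun P => ?_⟩
  · rw [← hA1, ← hB1]
    exact h P Vrt.oo
  · rw [← hA0, ← hB0]
    exact h P Vrt.zero

omit [Fintype Mid] in
/-- **(F3)** for one pair `m`, `m'` from the cocycle relation of `s g / g`, `s` in the inertia
group with `s m = m'`, `s ∞ = ∞`: the values of its roots `s̄ (h_{s⁻¹ c}) / h_c` at the branches are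
`va (P, m) / va (P, m')` resp. `vb (P, m) / vb (P, m')` at the node `(P, m')`, and equal on both
sides at the node `(P, ∞)`. -/
theorem s3_F3_of_cocycle {va vb VA VB : Nod Mid SS → k} (m m' : Mid)
    (hVB0 : ∀ i, VB i ≠ 0)
    (hoo : ∀ P, VA (P, Vrt.oo) = VB (P, Vrt.oo))
    (hA : ∀ P, VA (P, Vrt.mid m') * va (P, Vrt.mid m') = va (P, Vrt.mid m))
    (hB : ∀ P, VB (P, Vrt.mid m') * vb (P, Vrt.mid m') = vb (P, Vrt.mid m))
    (h : ∃ γ : Vtx Mid SS → k, (∀ c, γ c ≠ 0) ∧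
      ∀ (P : SS) (v : Vrt Mid), γ (Vtx.vert v) * VA (P, v) = γ (Vtx.hor P) * VB (P, v)) :
    ∃ d : k, d ≠ 0 ∧
      ∀ P, va (P, Vrt.mid m) * vb (P, Vrt.mid m') = d * (va (P, Vrt.mid m') * vb (P, Vrt.mid m)) := by
  obtain ⟨γ, hγ, h⟩ := h
  have hhor : ∀ P, γ (Vtx.hor P) = γ (Vtx.vert Vrt.oo) := by
    intro P
    have h1 := h P Vrt.oo
    rw [hoo P] at h1
    exact (mul_right_cancel₀ (hVB0 _) h1).symm
  refine ⟨γ (Vtx.vert Vrt.oo) / γ (Vtx.vert (Vrt.mid m')),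
    div_ne_zero (hγ _) (hγ _), fun P => ?_⟩
  have h2 := h P (Vrt.mid m')
  rw [hhor P] at h2
  have hg := hγ (Vtx.vert (Vrt.mid m'))
  rw [← hA P, ← hB P]
  field_simp
  linear_combination (va (P, Vrt.mid m') * vb (P, Vrt.mid m')) * h2

end Modular

end Fermat.Agent.S36G
end
end MergeWrap_S36_G_Step3

section MergeWrap_S36_G_Step3Core -- from S36/G/Step3Core.lean

set_option autoImplicit false

/-!
# Cluster G (S36), Step 3 (toric): from `W₀` to `g ^ (q² - 1) = a uⁿ`, ABSTRACT  (helper3)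

`step3_core`: on a `GraphSetup` of shape `K_{|Vert|, s}` (`Vtx Mid SS`, `Nod Mid SS`), a Kummer
generator `g` (`n ∣ div g`) which is, up to constants, an `n`-th power in ALL the residue fields
(`N.IsPowAt n c g` for all `c`: the output of Steps 1, 2) and which has the three properties
`P₁` ("`N_{π₁} g` is a constant times an `n`-th power"), `P₂` (the same for `π₂`), `P₃` ("the class
of `g` is fixed by inertia") satisfies `g ^ (q² - 1) = a uⁿ`.

The modular input is packed in three statements about NORMAL FORMS (`IsNormalForm N n R g D h va vb`: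
`div g = n D`, `D` ordinary, `D ≥ -R`, `g` integral for all the valuations with `red_c g = h_c ^ n`,
`h` with the nonzero values `va i`, `vb i` at the two branches of the node `i`):

* `CocycleF1 N n q e R P₁` : for a normal form with `P₁ g`, the relation (F1) between `va`, `vb`
  (= `s3_F1_of_cocycle` + `s3_wd_cocycle_modular` applied to `N_{π₁} g`; seats NORM-VERT, NORM-HOR,
  VAL-NORM; needs `R` saturated for `π₁`);
* `CocycleF2 N n q e R P₂` : the same for `π₂`;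
* `CocycleF3 N n R P₃`     : for a normal form with `P₃ g`, the relation (F3) (seat INERT).

The abstract package supplies the rest: `GraphOrdStatement N` (G-ORD, normal form),
`GraphToricStatement N` (G-TORIC), `step3`.
-/

noncomputable section

open AlgebraicCurve Fermat.Agent.RR Fermat.Agent.Deuring

namespace Fermat.Agent.S36G

open Fermat.Agent.BadRed Fermat.Agent.BadRedG Fermat.Agent.BadRed.Gluing

variable {K F k : Type*} [Field K] [Field F] [Algebra K F] [Field k]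

/-- **normal form** of a Kummer generator with base divisor `R`. -/
structure IsNormalForm {κ : Type*} {Fk : κ → Type*} [∀ c, Field (Fk c)] [∀ c, Algebra k (Fk c)]
    {ι : Type*} (N : GraphSetup K F k κ Fk ι) (n : ℕ) (R : Divisor K F) (g : F)
    (D : Divisor K F) (h : ∀ c, Fk c) (va vb : ι → k) : Prop where
  hg : g ≠ 0
  hdiv : ∀ P : Place K F, P.ord g = n * D P
  hDord : N.IsOrdDiv D
  hDR : ∀ P : Place K F, -R P ≤ D P
  hmem : ∀ c, g ∈ (N.S c).Ov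
  hred : ∀ c, (N.S c).red g = h c ^ n
  hh0 : ∀ c, h c ≠ 0
  hva : ∀ i, ValAt (N.s₁ i) (h (N.src i)) (va i)
  hvb : ∀ i, ValAt (N.s₂ i) (h (N.tgt i)) (vb i)
  hva0 : ∀ i, va i ≠ 0
  hvb0 : ∀ i, vb i ≠ 0

section Modular

variable {Mid SS : Type} [Fintype Mid] {Fk : Vtx Mid SS → Type*} [∀ c, Field (Fk c)]
  [∀ c, Algebra k (Fk c)]

/-- **(F1) for normal forms** with the property `P₁`. -/
def CocycleF1 (N : GraphSetup K F k (Vtx Mid SS) Fk (Nod Mid SS)) (n q e : ℕ)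
    (R : Divisor K F) (P₁ : F → Prop) : Prop :=
  ∀ (g : F) (D : Divisor K F) (h : ∀ c, Fk c) (va vb : Nod Mid SS → k),
    IsNormalForm N n R g D h va vb → P₁ g →
    ∃ γ : Vtx Mid SS → k, (∀ c, γ c ≠ 0) ∧
      (∀ P, γ (Vtx.vert Vrt.oo) * (va (P, Vrt.oo) * ∏ m, va (P, Vrt.mid m) ^ e) =
        γ (Vtx.hor P) * (vb (P, Vrt.oo) * ∏ m, vb (P, Vrt.mid m) ^ e)) ∧
      ∀ P, γ (Vtx.vert Vrt.zero) * va (P, Vrt.zero) ^ q =
        γ (Vtx.hor P) * vb (P, Vrt.zero) ^ q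

/-- **(F2) for normal forms** with the property `P₂`. -/
def CocycleF2 (N : GraphSetup K F k (Vtx Mid SS) Fk (Nod Mid SS)) (n q e : ℕ)
    (R : Divisor K F) (P₂ : F → Prop) : Prop :=
  ∀ (g : F) (D : Divisor K F) (h : ∀ c, Fk c) (va vb : Nod Mid SS → k),
    IsNormalForm N n R g D h va vb → P₂ g →
    ∃ γ : Vtx Mid SS → k, (∀ c, γ c ≠ 0) ∧
      (∀ P, γ (Vtx.vert Vrt.oo) * va (P, Vrt.oo) ^ q = γ (Vtx.hor P) * vb (P, Vrt.oo) ^ q) ∧
      ∀ P, γ (Vtx.vert Vrt.zero) * (va (P, Vrt.zero) * ∏ m, va (P, Vrt.mid m) ^ e) =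
        γ (Vtx.hor P) * (vb (P, Vrt.zero) * ∏ m, vb (P, Vrt.mid m) ^ e)

omit [Fintype Mid] in
/-- **(F3) for normal forms** with the property `P₃`. -/
def CocycleF3 (N : GraphSetup K F k (Vtx Mid SS) Fk (Nod Mid SS)) (n : ℕ)
    (R : Divisor K F) (P₃ : F → Prop) : Prop :=
  ∀ (g : F) (D : Divisor K F) (h : ∀ c, Fk c) (va vb : Nod Mid SS → k),
    IsNormalForm N n R g D h va vb → P₃ g →
    ∀ m m' : Mid, ∃ d : k, d ≠ 0 ∧
      ∀ P, va (P, Vrt.mid m) * vb (P, Vrt.mid m') = d * (va (P, Vrt.mid m') * vb (P, Vrt.mid m))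

omit [Fintype Mid] in
/-- the modular graph has a vertex. -/
instance s3c_nonempty_vtx : Nonempty (Vtx Mid SS) := ⟨Vtx.vert Vrt.oo⟩

omit [Fintype Mid] in
/-- a nonzero function all of whose orders vanish is a constant. -/
theorem s3c_const_of_ord_zero (hF : IsRRField K F) {w : F} (hw0 : w ≠ 0)
    (hord : ∀ P : Place K F, P.ord w = 0) : ∃ a : K, a ≠ 0 ∧ w = algebraMap K F a := by
  have hmem : w ∈ riemannRochSpace (0 : Divisor K F) := by
    rw [mem_riemannRochSpace_iff]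
    intro P
    right
    rw [hord P]
    simp
  obtain ⟨a, ha⟩ := (mem_riemannRochSpace_zero_iff hF w).mp hmem
  refine ⟨a, ?_, ha.symm⟩
  rintro rfl
  rw [map_zero] at ha
  exact hw0 ha.symm

/-- **Step 3, from `W₀` to the function equation.** -/
theorem step3_core [IsAlgClosed K] [Fintype SS]
    (N : GraphSetup K F k (Vtx Mid SS) Fk (Nod Mid SS))
    (hsrc : ∀ i, N.src i = nodSrc i) (htgt : ∀ i, N.tgt i = nodTgt i)
    (hOrd : GraphOrdStatement N) (hToric : GraphToricStatement N) (hrel : N.GenusRel)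
    {n : ℕ} (hn0 : (n : K) ≠ 0) (c₀ : Vtx Mid SS) (hnA : ((n : K))⁻¹ ∈ (N.S c₀).A)
    {R : Divisor K F} (hR : GBig N R) (q e : ℕ) (hq : e * Fintype.card Mid + 1 = q)
    (P₁ P₂ P₃ : F → Prop)
    (hP₁ : ∀ g φ : F, φ ≠ 0 → P₁ g → P₁ (φ ^ n * g))
    (hP₂ : ∀ g φ : F, φ ≠ 0 → P₂ g → P₂ (φ ^ n * g))
    (hP₃ : ∀ g φ : F, φ ≠ 0 → P₃ g → P₃ (φ ^ n * g))
    (hF1 : CocycleF1 N n q e R P₁) (hF2 : CocycleF2 N n q e R P₂) (hF3 : CocycleF3 N n R P₃)
    {g : F} (hg : g ≠ 0) (hdvd : ∀ P : Place K F, (n : ℤ) ∣ P.ord g)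
    (hW0 : ∀ c, N.IsPowAt n c g) (h1 : P₁ g) (h2 : P₂ g) (h3 : P₃ g) :
    ∃ (u : F) (a : K), a ≠ 0 ∧ g ^ (q ^ 2 - 1) = algebraMap K F a * u ^ n := by
  classical
  have hn : n ≠ 0 := by
    rintro rfl
    exact hn0 Nat.cast_zero
  have hnZ : (n : ℤ) ≠ 0 := by exact_mod_cast hn
  set hF := (N.S c₀).hF with hFdef
  -- the divisor `D = div g / n`
  set D : Divisor K F := (divOf hF g).mapRange (fun z => z / (n : ℤ)) (by simp) with hD
  have hdiv : ∀ P : Place K F, P.ord g = n * D P := by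
    intro P
    rw [hD, Finsupp.mapRange_apply, divOf_apply]
    exact (Int.mul_ediv_cancel' (hdvd P)).symm
  have hnsmul : n • D = divOf hF g := by
    ext P
    rw [Finsupp.smul_apply, divOf_apply, nsmul_eq_mul, hdiv]
  have hdeg : Divisor.degree D = 0 := by
    have h1 : Divisor.degree (n • D) = 0 := by rw [hnsmul]; exact degree_divOf hF g
    rw [map_nsmul, nsmul_eq_mul] at h1
    rcases mul_eq_zero.mp h1 with h | h
    · exact absurd h hnZ
    · exact h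
  -- gluing data and the normal form
  obtain ⟨d, hdD, hdg⟩ := exists_glueData_of_gen N hn hdeg hg hdiv hW0
  obtain ⟨φ, d', hφ0, hφLam, hD', hg', -, -, hunit, hord', hred'⟩ :=
    exists_move_of_graphOrd N hOrd hrel hn d hR c₀
  -- values at the branches
  have hvalA : ∀ i, ∃ x : k, ValAt (N.s₁ i) (d'.h (N.src i)) x := fun i =>
    exists_valAt (N.S (N.src i)).hFk (N.s₁ i) (hunit.2 i).1.ge
  have hvalB : ∀ i, ∃ x : k, ValAt (N.s₂ i) (d'.h (N.tgt i)) x := fun i =>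
    exists_valAt (N.S (N.tgt i)).hFk (N.s₂ i) (hunit.2 i).2.ge
  choose va hva using hvalA
  choose vb hvb using hvalB
  have hva0 : ∀ i, va i ≠ 0 := by
    intro i h0
    have h := hva i
    rw [h0, valAt_zero_right_iff] at h
    rcases h with h | h
    · exact hunit.1 _ h
    · rw [(hunit.2 i).1] at h
      exact lt_irrefl _ h
  have hvb0 : ∀ i, vb i ≠ 0 := by
    intro i h0
    have h := hvb i
    rw [h0, valAt_zero_right_iff] at h
    rcases h with h | h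
    · exact hunit.1 _ h
    · rw [(hunit.2 i).2] at h
      exact lt_irrefl _ h
  have hNF : IsNormalForm N n R d'.g d'.D d'.h va vb :=
    { hg := d'.hg
      hdiv := d'.hdiv
      hDord := hord'
      hDR := by
        intro P
        rw [hD', Finsupp.add_apply, divOf_apply]
        rcases (mem_riemannRochSpace_iff.mp hφLam.1) P with h | h
        · exact absurd h hφ0
        · rw [Finsupp.add_apply] at h
          linarith
      hmem := fun c => (hred' c).1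
      hred := fun c => (hred' c).2
      hh0 := hunit.1
      hva := hva
      hvb := hvb
      hva0 := hva0
      hvb0 := hvb0 }
  have hg'eq : d'.g = φ ^ n * g := by rw [hg', hdg]
  have h1' : P₁ d'.g := by rw [hg'eq]; exact hP₁ g φ hφ0 h1
  have h2' : P₂ d'.g := by rw [hg'eq]; exact hP₂ g φ hφ0 h2
  have h3' : P₃ d'.g := by rw [hg'eq]; exact hP₃ g φ hφ0 h3
  -- Step 3
  have hprin := step3 N hsrc htgt hToric hrel hn0 c₀ hnA d'.hg d'.hdiv hord'
    (a := fun _ => 1) (h := d'.h) (fun _ => one_ne_zero)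
    (fun c => by rw [map_one, div_one]; exact (hred' c).2) hunit.1 hva hvb hva0 hvb0 q e hq
    (hF1 _ _ _ _ _ hNF h1') (hF2 _ _ _ _ _ hNF h2') (hF3 _ _ _ _ _ hNF h3')
  obtain ⟨w, hw0, hw⟩ := hprin
  -- the function equation
  set M : ℕ := q ^ 2 - 1 with hM
  have hφM : (φ ^ M) ≠ 0 := pow_ne_zero M hφ0
  set u : F := w / φ ^ M with hu
  have hu0 : u ≠ 0 := div_ne_zero hw0 hφM
  have hun : u ^ n ≠ 0 := pow_ne_zero n hu0
  set x : F := g ^ M / u ^ n with hx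
  have hx0 : x ≠ 0 := div_ne_zero (pow_ne_zero M hg) hun
  have hordx : ∀ P : Place K F, P.ord x = 0 := by
    intro P
    have e1 : P.ord (g ^ M) = M * (n * D P) := by rw [s3_ord_pow, hdiv]
    have e2 : P.ord (u ^ n) = n * (P.ord w - M * P.ord φ) := by
      rw [s3_ord_pow, hu, div_eq_mul_inv, P.ord_mul hw0 (inv_ne_zero hφM), P.ord_inv,
        s3_ord_pow]
      ring
    have e3 : P.ord w = M * (D P + P.ord φ) := by
      rw [← hw P, Finsupp.smul_apply, hD', Finsupp.add_apply, divOf_apply, hdD, nsmul_eq_mul]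
    rw [hx, div_eq_mul_inv, P.ord_mul (pow_ne_zero M hg) (inv_ne_zero hun), P.ord_inv, e1, e2,
      e3]
    ring
  obtain ⟨a, ha0, ha⟩ := s3c_const_of_ord_zero hF hx0 hordx
  refine ⟨u, a, ha0, ?_⟩
  rw [← ha, hx, div_mul_cancel₀ _ hun]

end Modular

end Fermat.Agent.S36G
end
end MergeWrap_S36_G_Step3Core
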