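import Mathlib
import Fermat.Agent.MU.S36.G.Step3Core

section MergeWrap_S36_G_CocycleF12 -- from S36/G/CocycleF12.lean

set_option autoImplicit false
set_option linter.unusedSectionVars false
set_option linter.style.haveILetI false

/-!
# Cluster G (S36), wiring of (F1), (F2): `CocycleF1/F2` from the ROOTS OF THE NORMS  (helper36)

`CocycleF1 N n q e R P₁`, `CocycleF2 N n q e R P₂` (`S36/G/Step3Core.lean`) are the two inputs
`hF1`, `hF2` of `coreFunAt_of_graph` (`S36/G/CoreWire.lean`).  Here they are reduced to ONE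
statement each about the norm `Nm g ∈ F` of a function `g` which is a unit with residues `h_c ^ n`
for all the valuations of the graph (`Nm = π₁^* ∘ N_{π₁}` resp. `π₂^* ∘ N_{π₂}`):

* `NormRoots N n Nm V` : **roots of the norm**.  If `red_c g = h_c ^ n` (`g` integral for all `c`)
  and `h` has the nonzero values `va`, `vb` at the branches, then `Nm g` has, up to constants, the
  residues `H_c ^ n`, where `H` has the values `V va`, `V vb` at the branches.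
  For `π₁`: `V = vF1 q e`: `(P, ∞), (P, m) ↦ v (P, ∞) ∏_m v (P, m) ^ e`, `(P, 0) ↦ v (P, 0) ^ q`
  (`H_∞ = H_m = h_∞ ∏_m N (h_m)`, `H_0 = h_0 ^ q`, `H_P = N_{k(H_P)/k(W)} h_P`; seats NORM-VERT,
  NORM-HOR for the residues (N1)-(N3), VAL-NORM / HP-NORMVAL for the values).
  For `π₂`: `V = vF2 q e` (`∞` and `0` exchanged).
* `NormSat N n R Nm`   : **saturation**: the poles of `Nm g` are ordinary places as soon as
  `div g ≥ - n R` (`R` is saturated for `π` and ordinary).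
* `cocycleF1_of_normRoots`, `cocycleF2_of_normRoots` : the wiring, from (G-WD).
-/

noncomputable section

open AlgebraicCurve Fermat.Agent.RR Fermat.Agent.Deuring

namespace Fermat.Agent.S36G

open Fermat.Agent.BadRed Fermat.Agent.BadRedG Fermat.Agent.BadRed.Gluing

variable {K F k : Type*} [Field K] [Field F] [Algebra K F] [Field k]

variable {Mid SS : Type} [Fintype Mid] {Fk : Vtx Mid SS → Type*} [∀ c, Field (Fk c)]
  [∀ c, Algebra k (Fk c)]

/-! ### the values of the roots of the norms -/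

/-- the values at the branches of the roots of `N_{π₁} g`. -/
def vF1 (q e : ℕ) (v : Nod Mid SS → k) : Nod Mid SS → k := fun i =>
  match i.2 with
  | Vrt.zero => v (i.1, Vrt.zero) ^ q
  | _ => v (i.1, Vrt.oo) * ∏ m, v (i.1, Vrt.mid m) ^ e

/-- the values at the branches of the roots of `N_{π₂} g`. -/
def vF2 (q e : ℕ) (v : Nod Mid SS → k) : Nod Mid SS → k := fun i =>
  match i.2 with
  | Vrt.oo => v (i.1, Vrt.oo) ^ q
  | _ => v (i.1, Vrt.zero) * ∏ m, v (i.1, Vrt.mid m) ^ e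

theorem vF1_oo (q e : ℕ) (v : Nod Mid SS → k) (P : SS) :
    vF1 q e v (P, Vrt.oo) = v (P, Vrt.oo) * ∏ m, v (P, Vrt.mid m) ^ e := rfl

theorem vF1_zero (q e : ℕ) (v : Nod Mid SS → k) (P : SS) :
    vF1 q e v (P, Vrt.zero) = v (P, Vrt.zero) ^ q := rfl

theorem vF1_mid (q e : ℕ) (v : Nod Mid SS → k) (P : SS) (m : Mid) :
    vF1 q e v (P, Vrt.mid m) = v (P, Vrt.oo) * ∏ m, v (P, Vrt.mid m) ^ e := rfl

theorem vF2_oo (q e : ℕ) (v : Nod Mid SS → k) (P : SS) :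
    vF2 q e v (P, Vrt.oo) = v (P, Vrt.oo) ^ q := rfl

theorem vF2_zero (q e : ℕ) (v : Nod Mid SS → k) (P : SS) :
    vF2 q e v (P, Vrt.zero) = v (P, Vrt.zero) * ∏ m, v (P, Vrt.mid m) ^ e := rfl

theorem vF2_mid (q e : ℕ) (v : Nod Mid SS → k) (P : SS) (m : Mid) :
    vF2 q e v (P, Vrt.mid m) = v (P, Vrt.zero) * ∏ m, v (P, Vrt.mid m) ^ e := rfl

theorem vF1_ne_zero (q e : ℕ) {v : Nod Mid SS → k} (hv : ∀ i, v i ≠ 0) (i : Nod Mid SS) :
    vF1 q e v i ≠ 0 := by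
  obtain ⟨P, w⟩ := i
  have hprod : v (P, Vrt.oo) * ∏ m, v (P, Vrt.mid m) ^ e ≠ 0 :=
    mul_ne_zero (hv _) (Finset.prod_ne_zero_iff.mpr fun m _ => pow_ne_zero e (hv _))
  cases w with
  | oo => exact hprod
  | zero => exact pow_ne_zero q (hv _)
  | mid m => exact hprod

theorem vF2_ne_zero (q e : ℕ) {v : Nod Mid SS → k} (hv : ∀ i, v i ≠ 0) (i : Nod Mid SS) :
    vF2 q e v i ≠ 0 := by
  obtain ⟨P, w⟩ := i
  have hprod : v (P, Vrt.zero) * ∏ m, v (P, Vrt.mid m) ^ e ≠ 0 :=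
    mul_ne_zero (hv _) (Finset.prod_ne_zero_iff.mpr fun m _ => pow_ne_zero e (hv _))
  cases w with
  | oo => exact pow_ne_zero q (hv _)
  | zero => exact hprod
  | mid m => exact hprod

/-! ### the two statements -/

/-- **roots of the norm** `Nm` with the values `V`. -/
def NormRoots (N : GraphSetup K F k (Vtx Mid SS) Fk (Nod Mid SS)) (n : ℕ) (Nm : F → F)
    (V : (Nod Mid SS → k) → Nod Mid SS → k) : Prop :=
  ∀ (g : F) (h : ∀ c, Fk c) (va vb : Nod Mid SS → k),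
    (∀ c, g ∈ (N.S c).Ov) → (∀ c, (N.S c).red g = h c ^ n) → (∀ c, h c ≠ 0) →
    (∀ i, ValAt (N.s₁ i) (h (N.src i)) (va i)) → (∀ i, ValAt (N.s₂ i) (h (N.tgt i)) (vb i)) →
    (∀ i, va i ≠ 0) → (∀ i, vb i ≠ 0) →
    ∃ (a : Vtx Mid SS → K) (H : ∀ c, Fk c), (∀ c, a c ≠ 0) ∧ (∀ c, H c ≠ 0) ∧
      (∀ c, (N.S c).red (Nm g / algebraMap K F (a c)) = H c ^ n) ∧
      (∀ i, ValAt (N.s₁ i) (H (N.src i)) (V va i)) ∧
      (∀ i, ValAt (N.s₂ i) (H (N.tgt i)) (V vb i))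

/-- **saturation** of the base divisor `R` for the norm `Nm`. -/
def NormSat (N : GraphSetup K F k (Vtx Mid SS) Fk (Nod Mid SS)) (n : ℕ) (R : Divisor K F)
    (Nm : F → F) : Prop :=
  ∀ g : F, g ≠ 0 → (∀ P : Place K F, -((n : ℤ) * R P) ≤ P.ord g) →
    ∀ P : Place K F, P.ord (Nm g) < 0 → N.IsOrd P

/-! ### the wiring -/

/-- the cocycle relation for the values `V va`, `V vb` of the roots of the norm. -/
theorem cocycle_of_normRoots [Fintype SS]
    (N : GraphSetup K F k (Vtx Mid SS) Fk (Nod Mid SS))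
    (hsrc : ∀ i, N.src i = nodSrc i) (htgt : ∀ i, N.tgt i = nodTgt i)
    (hWD : GraphWDStatement N) {n : ℕ} (hn : n ≠ 0) {R : Divisor K F}
    (Nm : F → F) (V : (Nod Mid SS → k) → Nod Mid SS → k)
    (hV0 : ∀ v : Nod Mid SS → k, (∀ i, v i ≠ 0) → ∀ i, V v i ≠ 0)
    (hroots : NormRoots N n Nm V) (hsat : NormSat N n R Nm)
    (P₁ : F → Prop)
    (hP : ∀ g : F, g ≠ 0 → P₁ g → ∃ (u : F) (e₀ : K), e₀ ≠ 0 ∧ Nm g ≠ 0 ∧
      Nm g = algebraMap K F e₀ * u ^ n)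
    {g : F} {D : Divisor K F} {h : ∀ c, Fk c} {va vb : Nod Mid SS → k}
    (hnf : IsNormalForm N n R g D h va vb) (h1 : P₁ g) :
    ∃ γ : Vtx Mid SS → k, (∀ c, γ c ≠ 0) ∧
      ∀ (P : SS) (v : Vrt Mid), γ (Vtx.vert v) * V va (P, v) = γ (Vtx.hor P) * V vb (P, v) := by
  obtain ⟨u, e₀, he₀, hNm0, hNm⟩ := hP g hnf.hg h1
  have hu : u ≠ 0 := by
    rintro rfl
    rw [zero_pow hn, mul_zero] at hNm
    exact hNm0 hNm
  obtain ⟨a, H, ha, hH0, hred, hVA, hVB⟩ :=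
    hroots g h va vb hnf.hmem hnf.hred hnf.hh0 hnf.hva hnf.hvb hnf.hva0 hnf.hvb0
  have hpole : ∀ P : Place K F, P.ord u < 0 → N.IsOrd P := by
    intro P hP
    refine hsat g hnf.hg (fun Q => ?_) P ?_
    · rw [hnf.hdiv Q]
      have := hnf.hDR Q
      have hn' : (0 : ℤ) ≤ n := Int.natCast_nonneg n
      nlinarith
    · rw [hNm, Place.ord_mul P ((map_ne_zero _).mpr he₀) (pow_ne_zero n hu),
        Fermat.Agent.S24Res.ord_algebraMap, zero_add, s3_ord_pow]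
      have hn' : (0 : ℤ) < n := by exact_mod_cast Nat.pos_of_ne_zero hn
      nlinarith
  exact s3_wd_cocycle_modular N hsrc htgt hWD hn hu he₀ hpole ha
    (fun c => by rw [← hNm]; exact hred c) hH0 hVA hVB
    (hV0 va hnf.hva0) (hV0 vb hnf.hvb0)

/-- **(F1)** from the roots of the norm `N_{π₁}`. -/
theorem cocycleF1_of_normRoots [Fintype SS]
    (N : GraphSetup K F k (Vtx Mid SS) Fk (Nod Mid SS))
    (hsrc : ∀ i, N.src i = nodSrc i) (htgt : ∀ i, N.tgt i = nodTgt i)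
    (hWD : GraphWDStatement N) {n : ℕ} (hn : n ≠ 0) (q e : ℕ) {R : Divisor K F}
    (Nm : F → F) (hroots : NormRoots N n Nm (vF1 q e)) (hsat : NormSat N n R Nm)
    (P₁ : F → Prop)
    (hP : ∀ g : F, g ≠ 0 → P₁ g → ∃ (u : F) (e₀ : K), e₀ ≠ 0 ∧ Nm g ≠ 0 ∧
      Nm g = algebraMap K F e₀ * u ^ n) :
    CocycleF1 N n q e R P₁ := by
  intro g D h va vb hnf h1
  obtain ⟨γ, hγ, hrel⟩ := cocycle_of_normRoots N hsrc htgt hWD hn Nm (vF1 q e)
    (fun v hv => vF1_ne_zero q e hv) hroots hsat P₁ hP hnf h1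
  exact ⟨γ, hγ, fun P => hrel P Vrt.oo, fun P => hrel P Vrt.zero⟩

/-- **(F2)** from the roots of the norm `N_{π₂}`. -/
theorem cocycleF2_of_normRoots [Fintype SS]
    (N : GraphSetup K F k (Vtx Mid SS) Fk (Nod Mid SS))
    (hsrc : ∀ i, N.src i = nodSrc i) (htgt : ∀ i, N.tgt i = nodTgt i)
    (hWD : GraphWDStatement N) {n : ℕ} (hn : n ≠ 0) (q e : ℕ) {R : Divisor K F}
    (Nm : F → F) (hroots : NormRoots N n Nm (vF2 q e)) (hsat : NormSat N n R Nm)
    (P₂ : F → Prop)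
    (hP : ∀ g : F, g ≠ 0 → P₂ g → ∃ (u : F) (e₀ : K), e₀ ≠ 0 ∧ Nm g ≠ 0 ∧
      Nm g = algebraMap K F e₀ * u ^ n) :
    CocycleF2 N n q e R P₂ := by
  intro g D h va vb hnf h2
  obtain ⟨γ, hγ, hrel⟩ := cocycle_of_normRoots N hsrc htgt hWD hn Nm (vF2 q e)
    (fun v hv => vF2_ne_zero q e hv) hroots hsat P₂ hP hnf h2
  exact ⟨γ, hγ, fun P => hrel P Vrt.oo, fun P => hrel P Vrt.zero⟩

end Fermat.Agent.S36G
end
end MergeWrap_S36_G_CocycleF12
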