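import Mathlib
import Fermat.Agent.MU.S36.G.CocycleF12

section MergeWrap_S36_G_NormLayer -- from S36/G/NormLayer.lean

set_option autoImplicit false
set_option linter.unusedSectionVars false
set_option linter.style.haveILetI false

/-!
# Cluster G (S36), wiring of (F1), (F2): `NormRoots` from the NORM LAYER  (helper36)

`NormLayer1 N n q e Nm` (for `π₁`) and `NormLayer2 N n q e Nm` (for `π₂`, `∞` and `0` exchanged)
collect, for the norm `Nm : F → F` seen in `F`, exactly what the seats NORM-VERT, NORM-HOR (residues)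
and VAL-NORM / HP-NORMVAL (values) deliver:

* maps of residue fields `jm m : Fk_a → Fk_m` (inclusion), `nm m : Fk_m → Fk_a` (norm),
  `NP P : Fk_P → Fk_P` (norm to `k(W)` resp. `k(Zc)`, seen in `Fk_P`);  `a = ∞` for `π₁`, `a = 0`
  for `π₂`;
* **residues** of `Nm g` for `g` a unit for all the valuations:
  `red_a (Nm g) = red_a g * ∏_m nm (red_m g)`, `red_m (Nm g) = jm (red_a (Nm g))`,
  `red_b (Nm g) = (red_b g) ^ q`, `red_P (Nm g) = NP (red_P g)`;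
* **values** at the branches, in FAMILY form (no casts along `N.src i = nodSrc i`):
  `nm x` has the value `c ^ e` at `P_a` if `x` has the value `c` at `P_m`; `jm y` has at `P_m` the
  value of `y` at `P_a`; `NP h` has the value `c_a ∏_m c_m ^ e` at `p_a` and at the `p_m`, and
  the value `c_b ^ q` at `p_b`.

`normRoots_of_layer1 : NormLayer1 N n q e Nm → NormRoots N n Nm (vF1 q e)`,
`normRoots_of_layer2 : NormLayer2 N n q e Nm → NormRoots N n Nm (vF2 q e)`.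
-/

noncomputable section

open AlgebraicCurve Fermat.Agent.RR Fermat.Agent.Deuring

namespace Fermat.Agent.S36G

open Fermat.Agent.BadRed Fermat.Agent.BadRedG Fermat.Agent.BadRed.Gluing

variable {K F k : Type*} [Field K] [Field F] [Algebra K F] [Field k]

variable {Mid SS : Type} [Fintype Mid] {Fk : Vtx Mid SS → Type*} [∀ c, Field (Fk c)]
  [∀ c, Algebra k (Fk c)]

/-! ### values of families -/

section Families

variable (N : GraphSetup K F k (Vtx Mid SS) Fk (Nod Mid SS))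

/-- the value at the first branch of a node only depends on the component `nodSrc i`. -/
theorem valAt_src_congr (hsrc : ∀ i, N.src i = nodSrc i) {H H' : ∀ c, Fk c} (i : Nod Mid SS)
    (hc : H (nodSrc i) = H' (nodSrc i)) {c : k}
    (h : ValAt (N.s₁ i) (H (N.src i)) c) : ValAt (N.s₁ i) (H' (N.src i)) c := by
  have e : H (N.src i) = H' (N.src i) := by rw [hsrc i]; exact hc
  rwa [← e]

/-- the value at the second branch of a node only depends on the component `nodTgt i`. -/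
theorem valAt_tgt_congr (htgt : ∀ i, N.tgt i = nodTgt i) {H H' : ∀ c, Fk c} (i : Nod Mid SS)
    (hc : H (nodTgt i) = H' (nodTgt i)) {c : k}
    (h : ValAt (N.s₂ i) (H (N.tgt i)) c) : ValAt (N.s₂ i) (H' (N.tgt i)) c := by
  have e : H (N.tgt i) = H' (N.tgt i) := by rw [htgt i]; exact hc
  rwa [← e]

omit [Fintype Mid] in
/-- values of finite products. -/
theorem valAt_finset_prod {k' F' : Type*} [Field k'] [Field F'] [Algebra k' F']
    (Q : Place k' F') {ι : Type*} (s : Finset ι) (f : ι → F') (c : ι → k')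
    (h : ∀ j ∈ s, ValAt Q (f j) (c j)) : ValAt Q (∏ j ∈ s, f j) (∏ j ∈ s, c j) := by
  classical
  induction s using Finset.induction_on with
  | empty => rw [Finset.prod_empty, Finset.prod_empty]; exact valAt_one Q
  | insert j s hj ih =>
    rw [Finset.prod_insert hj, Finset.prod_insert hj]
    exact valAt_mul (h j (Finset.mem_insert_self j s))
      (ih fun j' hj' => h j' (Finset.mem_insert_of_mem hj'))

end Families

/-! ### the norm layer for `π₁` -/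

/-- **the norm layer for `π₁`** (`a = ∞`, `b = 0`). -/
structure NormLayer1 (N : GraphSetup K F k (Vtx Mid SS) Fk (Nod Mid SS)) (n q e : ℕ)
    (Nm : F → F) where
  /-- the inclusion of the residue field of `v_∞` in that of `v_m` -/
  jm : ∀ m : Mid, Fk (Vtx.vert Vrt.oo) →+* Fk (Vtx.vert (Vrt.mid m))
  /-- the norm of the residue field of `v_m` over that of `v_∞` -/
  nm : ∀ m : Mid, Fk (Vtx.vert (Vrt.mid m)) →* Fk (Vtx.vert Vrt.oo)
  /-- the norm of `k(H_P)` over `k(W)`, seen in `k(H_P)` -/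
  NP : ∀ P : SS, Fk (Vtx.hor P) →* Fk (Vtx.hor P)
  nm_ne_zero : ∀ m x, x ≠ 0 → nm m x ≠ 0
  NP_ne_zero : ∀ P x, x ≠ 0 → NP P x ≠ 0
  /-- (N2) -/
  red_oo : ∀ g : F, (∀ c, g ∈ (N.S c).Ov) → (∀ c, (N.S c).red g ≠ 0) →
    (N.S (Vtx.vert Vrt.oo)).red (Nm g) =
      (N.S (Vtx.vert Vrt.oo)).red g * ∏ m, nm m ((N.S (Vtx.vert (Vrt.mid m))).red g)
  /-- the residues of `F₁` at `v_m` and at `v_∞` agree -/
  red_mid : ∀ g : F, (∀ c, g ∈ (N.S c).Ov) → (∀ c, (N.S c).red g ≠ 0) → ∀ m,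
    (N.S (Vtx.vert (Vrt.mid m))).red (Nm g) = jm m ((N.S (Vtx.vert Vrt.oo)).red (Nm g))
  /-- (N1) -/
  red_zero : ∀ g : F, (∀ c, g ∈ (N.S c).Ov) → (∀ c, (N.S c).red g ≠ 0) →
    (N.S (Vtx.vert Vrt.zero)).red (Nm g) = (N.S (Vtx.vert Vrt.zero)).red g ^ q
  /-- (N3) -/
  red_hor : ∀ g : F, (∀ c, g ∈ (N.S c).Ov) → (∀ c, (N.S c).red g ≠ 0) → ∀ P,
    (N.S (Vtx.hor P)).red (Nm g) = NP P ((N.S (Vtx.hor P)).red g)
  /-- `N(x)(P_∞) = x(P_m) ^ e` -/
  val_nm : ∀ (P : SS) (m : Mid) (x y : ∀ c, Fk c) (c : k),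
    y (Vtx.vert Vrt.oo) = nm m (x (Vtx.vert (Vrt.mid m))) →
    ValAt (N.s₁ (P, Vrt.mid m)) (x (N.src (P, Vrt.mid m))) c →
    ValAt (N.s₁ (P, Vrt.oo)) (y (N.src (P, Vrt.oo))) (c ^ e)
  /-- `y(P_m) = y(P_∞)` for `y` in the residue field of `v_∞` -/
  val_jm : ∀ (P : SS) (m : Mid) (y z : ∀ c, Fk c) (c : k),
    z (Vtx.vert (Vrt.mid m)) = jm m (y (Vtx.vert Vrt.oo)) →
    ValAt (N.s₁ (P, Vrt.oo)) (y (N.src (P, Vrt.oo))) c →
    ValAt (N.s₁ (P, Vrt.mid m)) (z (N.src (P, Vrt.mid m))) c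
  /-- `N(h)(W = ∞) = h(p_∞) ∏_m h(p_m) ^ e`, at `p_∞` and at the `p_m` -/
  val_NP_oo : ∀ (P : SS) (h H : ∀ c, Fk c) (ca : k) (cm : Mid → k),
    H (Vtx.hor P) = NP P (h (Vtx.hor P)) →
    ValAt (N.s₂ (P, Vrt.oo)) (h (N.tgt (P, Vrt.oo))) ca →
    (∀ m, ValAt (N.s₂ (P, Vrt.mid m)) (h (N.tgt (P, Vrt.mid m))) (cm m)) →
    ValAt (N.s₂ (P, Vrt.oo)) (H (N.tgt (P, Vrt.oo))) (ca * ∏ m, cm m ^ e) ∧
      ∀ m, ValAt (N.s₂ (P, Vrt.mid m)) (H (N.tgt (P, Vrt.mid m))) (ca * ∏ m, cm m ^ e)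
  /-- `N(h)(W = 0) = h(p_0) ^ q` -/
  val_NP_zero : ∀ (P : SS) (h H : ∀ c, Fk c) (c : k),
    H (Vtx.hor P) = NP P (h (Vtx.hor P)) →
    ValAt (N.s₂ (P, Vrt.zero)) (h (N.tgt (P, Vrt.zero))) c →
    ValAt (N.s₂ (P, Vrt.zero)) (H (N.tgt (P, Vrt.zero))) (c ^ q)

/-- the roots of the norm `N_{π₁} g`. -/
def NormLayer1.root {N : GraphSetup K F k (Vtx Mid SS) Fk (Nod Mid SS)} {n q e : ℕ}
    {Nm : F → F} (L : NormLayer1 N n q e Nm) (h : ∀ c, Fk c) : ∀ c, Fk c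
  | Vtx.vert Vrt.oo =>
      h (Vtx.vert Vrt.oo) * ∏ m, L.nm m (h (Vtx.vert (Vrt.mid m)))
  | Vtx.vert Vrt.zero => h (Vtx.vert Vrt.zero) ^ q
  | Vtx.vert (Vrt.mid m) =>
      L.jm m (h (Vtx.vert Vrt.oo) * ∏ m', L.nm m' (h (Vtx.vert (Vrt.mid m'))))
  | Vtx.hor P => L.NP P (h (Vtx.hor P))

/-- **`NormRoots` for `π₁` from the norm layer.** -/
theorem normRoots_of_layer1 (N : GraphSetup K F k (Vtx Mid SS) Fk (Nod Mid SS))
    (hsrc : ∀ i, N.src i = nodSrc i) (htgt : ∀ i, N.tgt i = nodTgt i)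
    {n q e : ℕ} {Nm : F → F} (L : NormLayer1 N n q e Nm) : NormRoots N n Nm (vF1 q e) := by
  classical
  intro g h va vb hmem hred hh0 hva hvb hva0 hvb0
  have hr0 : ∀ c, (N.S c).red g ≠ 0 := fun c => by rw [hred c]; exact pow_ne_zero n (hh0 c)
  have hprod0 : h (Vtx.vert Vrt.oo) * ∏ m, L.nm m (h (Vtx.vert (Vrt.mid m))) ≠ 0 :=
    mul_ne_zero (hh0 _) (Finset.prod_ne_zero_iff.mpr fun m _ => L.nm_ne_zero m _ (hh0 _))
  refine ⟨fun _ => 1, L.root h, fun _ => one_ne_zero, ?_, ?_, ?_, ?_⟩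
  · -- the roots do not vanish
    intro c
    match c with
    | Vtx.vert Vrt.oo => exact hprod0
    | Vtx.vert Vrt.zero => exact pow_ne_zero q (hh0 _)
    | Vtx.vert (Vrt.mid m) => exact (map_ne_zero (L.jm m)).mpr hprod0
    | Vtx.hor P => exact L.NP_ne_zero P _ (hh0 _)
  · -- the residues
    have hoo : (N.S (Vtx.vert Vrt.oo)).red (Nm g) =
        (h (Vtx.vert Vrt.oo) * ∏ m, L.nm m (h (Vtx.vert (Vrt.mid m)))) ^ n := by
      rw [L.red_oo g hmem hr0, hred, mul_pow, ← Finset.prod_pow]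
      congr 1
      refine Finset.prod_congr rfl fun m _ => ?_
      rw [hred, map_pow]
    intro c
    rw [map_one, div_one]
    match c with
    | Vtx.vert Vrt.oo => exact hoo
    | Vtx.vert Vrt.zero =>
      rw [L.red_zero g hmem hr0, hred]
      show (h (Vtx.vert Vrt.zero) ^ n) ^ q = (h (Vtx.vert Vrt.zero) ^ q) ^ n
      rw [← pow_mul, ← pow_mul, mul_comm]
    | Vtx.vert (Vrt.mid m) =>
      rw [L.red_mid g hmem hr0 m, hoo, map_pow]
      rfl
    | Vtx.hor P =>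
      rw [L.red_hor g hmem hr0 P, hred, map_pow]
      rfl
  · -- the values on the vertical side
    have hVoo : ∀ P : SS, ValAt (N.s₁ (P, Vrt.oo)) (L.root h (N.src (P, Vrt.oo)))
        (va (P, Vrt.oo) * ∏ m, va (P, Vrt.mid m) ^ e) := by
      intro P
      -- auxiliary families
      let Y : Mid → ∀ c, Fk c := fun m c =>
        match c with
        | Vtx.vert Vrt.oo => L.nm m (h (Vtx.vert (Vrt.mid m)))
        | c' => h c'
      have hY : ∀ m, ValAt (N.s₁ (P, Vrt.oo)) (Y m (N.src (P, Vrt.oo)))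
          (va (P, Vrt.mid m) ^ e) := fun m =>
        L.val_nm P m h (Y m) (va (P, Vrt.mid m)) rfl (hva (P, Vrt.mid m))
      have h1 : ValAt (N.s₁ (P, Vrt.oo))
          ((fun c => h c * ∏ m, Y m c) (N.src (P, Vrt.oo)))
          (va (P, Vrt.oo) * ∏ m, va (P, Vrt.mid m) ^ e) :=
        valAt_mul (hva (P, Vrt.oo)) (valAt_finset_prod _ _ _ _ fun m _ => hY m)
      have hc : (fun c => h c * ∏ m, Y m c) (nodSrc (P, Vrt.oo)) =
          L.root h (nodSrc (P, Vrt.oo)) := rfl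
      exact valAt_src_congr N hsrc (H := fun c => h c * ∏ m, Y m c) (H' := L.root h)
        (P, Vrt.oo) hc h1
    rintro ⟨P, w⟩
    match w with
    | Vrt.oo => exact hVoo P
    | Vrt.zero =>
      have h1 : ValAt (N.s₁ (P, Vrt.zero)) ((fun c => h c ^ q) (N.src (P, Vrt.zero)))
          (va (P, Vrt.zero) ^ q) := valAt_pow (hva (P, Vrt.zero)) q
      have hc : (fun c => h c ^ q) (nodSrc (P, Vrt.zero)) =
          L.root h (nodSrc (P, Vrt.zero)) := rfl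
      have h2 := valAt_src_congr N hsrc (H := fun c => h c ^ q) (H' := L.root h)
        (P, Vrt.zero) hc h1
      exact h2
    | Vrt.mid m =>
      exact L.val_jm P m (L.root h) (L.root h) _ rfl (hVoo P)
  · -- the values on the horizontal side
    rintro ⟨P, w⟩
    have hoo := L.val_NP_oo P h (L.root h) (vb (P, Vrt.oo)) (fun m => vb (P, Vrt.mid m)) rfl
      (hvb (P, Vrt.oo)) (fun m => hvb (P, Vrt.mid m))
    match w with
    | Vrt.oo => exact hoo.1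
    | Vrt.zero => exact L.val_NP_zero P h (L.root h) _ rfl (hvb (P, Vrt.zero))
    | Vrt.mid m => exact hoo.2 m

/-! ### the norm layer for `π₂` -/

/-- **the norm layer for `π₂`** (`a = 0`, `b = ∞`). -/
structure NormLayer2 (N : GraphSetup K F k (Vtx Mid SS) Fk (Nod Mid SS)) (n q e : ℕ)
    (Nm : F → F) where
  /-- the inclusion of the residue field of `v_0` in that of `v_m` -/
  jm : ∀ m : Mid, Fk (Vtx.vert Vrt.zero) →+* Fk (Vtx.vert (Vrt.mid m))
  /-- the norm of the residue field of `v_m` over that of `v_0` -/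
  nm : ∀ m : Mid, Fk (Vtx.vert (Vrt.mid m)) →* Fk (Vtx.vert Vrt.zero)
  /-- the norm of `k(H_P)` over `k(Z)`, seen in `k(H_P)` -/
  NP : ∀ P : SS, Fk (Vtx.hor P) →* Fk (Vtx.hor P)
  nm_ne_zero : ∀ m x, x ≠ 0 → nm m x ≠ 0
  NP_ne_zero : ∀ P x, x ≠ 0 → NP P x ≠ 0
  /-- (N2') -/
  red_zero : ∀ g : F, (∀ c, g ∈ (N.S c).Ov) → (∀ c, (N.S c).red g ≠ 0) →
    (N.S (Vtx.vert Vrt.zero)).red (Nm g) =
      (N.S (Vtx.vert Vrt.zero)).red g * ∏ m, nm m ((N.S (Vtx.vert (Vrt.mid m))).red g)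
  /-- the residues of `F₁` at `v_m` and at `v_0` agree -/
  red_mid : ∀ g : F, (∀ c, g ∈ (N.S c).Ov) → (∀ c, (N.S c).red g ≠ 0) → ∀ m,
    (N.S (Vtx.vert (Vrt.mid m))).red (Nm g) = jm m ((N.S (Vtx.vert Vrt.zero)).red (Nm g))
  /-- (N1') -/
  red_oo : ∀ g : F, (∀ c, g ∈ (N.S c).Ov) → (∀ c, (N.S c).red g ≠ 0) →
    (N.S (Vtx.vert Vrt.oo)).red (Nm g) = (N.S (Vtx.vert Vrt.oo)).red g ^ q
  /-- (N3') -/
  red_hor : ∀ g : F, (∀ c, g ∈ (N.S c).Ov) → (∀ c, (N.S c).red g ≠ 0) → ∀ P,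
    (N.S (Vtx.hor P)).red (Nm g) = NP P ((N.S (Vtx.hor P)).red g)
  /-- `N(x)(P_0) = x(P_m) ^ e` -/
  val_nm : ∀ (P : SS) (m : Mid) (x y : ∀ c, Fk c) (c : k),
    y (Vtx.vert Vrt.zero) = nm m (x (Vtx.vert (Vrt.mid m))) →
    ValAt (N.s₁ (P, Vrt.mid m)) (x (N.src (P, Vrt.mid m))) c →
    ValAt (N.s₁ (P, Vrt.zero)) (y (N.src (P, Vrt.zero))) (c ^ e)
  /-- `y(P_m) = y(P_0)` for `y` in the residue field of `v_0` -/
  val_jm : ∀ (P : SS) (m : Mid) (y z : ∀ c, Fk c) (c : k),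
    z (Vtx.vert (Vrt.mid m)) = jm m (y (Vtx.vert Vrt.zero)) →
    ValAt (N.s₁ (P, Vrt.zero)) (y (N.src (P, Vrt.zero))) c →
    ValAt (N.s₁ (P, Vrt.mid m)) (z (N.src (P, Vrt.mid m))) c
  /-- `N(h)(Z = 0) = h(p_0) ∏_m h(p_m) ^ e`, at `p_0` and at the `p_m` -/
  val_NP_zero : ∀ (P : SS) (h H : ∀ c, Fk c) (ca : k) (cm : Mid → k),
    H (Vtx.hor P) = NP P (h (Vtx.hor P)) →
    ValAt (N.s₂ (P, Vrt.zero)) (h (N.tgt (P, Vrt.zero))) ca →
    (∀ m, ValAt (N.s₂ (P, Vrt.mid m)) (h (N.tgt (P, Vrt.mid m))) (cm m)) →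
    ValAt (N.s₂ (P, Vrt.zero)) (H (N.tgt (P, Vrt.zero))) (ca * ∏ m, cm m ^ e) ∧
      ∀ m, ValAt (N.s₂ (P, Vrt.mid m)) (H (N.tgt (P, Vrt.mid m))) (ca * ∏ m, cm m ^ e)
  /-- `N(h)(Z = ∞) = h(p_∞) ^ q` -/
  val_NP_oo : ∀ (P : SS) (h H : ∀ c, Fk c) (c : k),
    H (Vtx.hor P) = NP P (h (Vtx.hor P)) →
    ValAt (N.s₂ (P, Vrt.oo)) (h (N.tgt (P, Vrt.oo))) c →
    ValAt (N.s₂ (P, Vrt.oo)) (H (N.tgt (P, Vrt.oo))) (c ^ q)

/-- the roots of the norm `N_{π₂} g`. -/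
def NormLayer2.root {N : GraphSetup K F k (Vtx Mid SS) Fk (Nod Mid SS)} {n q e : ℕ}
    {Nm : F → F} (L : NormLayer2 N n q e Nm) (h : ∀ c, Fk c) : ∀ c, Fk c
  | Vtx.vert Vrt.zero =>
      h (Vtx.vert Vrt.zero) * ∏ m, L.nm m (h (Vtx.vert (Vrt.mid m)))
  | Vtx.vert Vrt.oo => h (Vtx.vert Vrt.oo) ^ q
  | Vtx.vert (Vrt.mid m) =>
      L.jm m (h (Vtx.vert Vrt.zero) * ∏ m', L.nm m' (h (Vtx.vert (Vrt.mid m'))))
  | Vtx.hor P => L.NP P (h (Vtx.hor P))

/-- **`NormRoots` for `π₂` from the norm layer.** -/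
theorem normRoots_of_layer2 (N : GraphSetup K F k (Vtx Mid SS) Fk (Nod Mid SS))
    (hsrc : ∀ i, N.src i = nodSrc i) (htgt : ∀ i, N.tgt i = nodTgt i)
    {n q e : ℕ} {Nm : F → F} (L : NormLayer2 N n q e Nm) : NormRoots N n Nm (vF2 q e) := by
  classical
  intro g h va vb hmem hred hh0 hva hvb hva0 hvb0
  have hr0 : ∀ c, (N.S c).red g ≠ 0 := fun c => by rw [hred c]; exact pow_ne_zero n (hh0 c)
  have hprod0 : h (Vtx.vert Vrt.zero) * ∏ m, L.nm m (h (Vtx.vert (Vrt.mid m))) ≠ 0 :=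
    mul_ne_zero (hh0 _) (Finset.prod_ne_zero_iff.mpr fun m _ => L.nm_ne_zero m _ (hh0 _))
  refine ⟨fun _ => 1, L.root h, fun _ => one_ne_zero, ?_, ?_, ?_, ?_⟩
  · -- the roots do not vanish
    intro c
    match c with
    | Vtx.vert Vrt.zero => exact hprod0
    | Vtx.vert Vrt.oo => exact pow_ne_zero q (hh0 _)
    | Vtx.vert (Vrt.mid m) => exact (map_ne_zero (L.jm m)).mpr hprod0
    | Vtx.hor P => exact L.NP_ne_zero P _ (hh0 _)
  · -- the residues
    have hzz : (N.S (Vtx.vert Vrt.zero)).red (Nm g) =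
        (h (Vtx.vert Vrt.zero) * ∏ m, L.nm m (h (Vtx.vert (Vrt.mid m)))) ^ n := by
      rw [L.red_zero g hmem hr0, hred, mul_pow, ← Finset.prod_pow]
      congr 1
      refine Finset.prod_congr rfl fun m _ => ?_
      rw [hred, map_pow]
    intro c
    rw [map_one, div_one]
    match c with
    | Vtx.vert Vrt.zero => exact hzz
    | Vtx.vert Vrt.oo =>
      rw [L.red_oo g hmem hr0, hred]
      show (h (Vtx.vert Vrt.oo) ^ n) ^ q = (h (Vtx.vert Vrt.oo) ^ q) ^ n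
      rw [← pow_mul, ← pow_mul, mul_comm]
    | Vtx.vert (Vrt.mid m) =>
      rw [L.red_mid g hmem hr0 m, hzz, map_pow]
      rfl
    | Vtx.hor P =>
      rw [L.red_hor g hmem hr0 P, hred, map_pow]
      rfl
  · -- the values on the vertical side
    have hVzero : ∀ P : SS, ValAt (N.s₁ (P, Vrt.zero)) (L.root h (N.src (P, Vrt.zero)))
        (va (P, Vrt.zero) * ∏ m, va (P, Vrt.mid m) ^ e) := by
      intro P
      -- auxiliary families
      let Y : Mid → ∀ c, Fk c := fun m c =>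
        match c with
        | Vtx.vert Vrt.zero => L.nm m (h (Vtx.vert (Vrt.mid m)))
        | c' => h c'
      have hY : ∀ m, ValAt (N.s₁ (P, Vrt.zero)) (Y m (N.src (P, Vrt.zero)))
          (va (P, Vrt.mid m) ^ e) := fun m =>
        L.val_nm P m h (Y m) (va (P, Vrt.mid m)) rfl (hva (P, Vrt.mid m))
      have h1 : ValAt (N.s₁ (P, Vrt.zero))
          ((fun c => h c * ∏ m, Y m c) (N.src (P, Vrt.zero)))
          (va (P, Vrt.zero) * ∏ m, va (P, Vrt.mid m) ^ e) :=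
        valAt_mul (hva (P, Vrt.zero)) (valAt_finset_prod _ _ _ _ fun m _ => hY m)
      have hc : (fun c => h c * ∏ m, Y m c) (nodSrc (P, Vrt.zero)) =
          L.root h (nodSrc (P, Vrt.zero)) := rfl
      exact valAt_src_congr N hsrc (H := fun c => h c * ∏ m, Y m c) (H' := L.root h)
        (P, Vrt.zero) hc h1
    rintro ⟨P, w⟩
    match w with
    | Vrt.zero => exact hVzero P
    | Vrt.oo =>
      have h1 : ValAt (N.s₁ (P, Vrt.oo)) ((fun c => h c ^ q) (N.src (P, Vrt.oo)))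
          (va (P, Vrt.oo) ^ q) := valAt_pow (hva (P, Vrt.oo)) q
      have hc : (fun c => h c ^ q) (nodSrc (P, Vrt.oo)) =
          L.root h (nodSrc (P, Vrt.oo)) := rfl
      have h2 := valAt_src_congr N hsrc (H := fun c => h c ^ q) (H' := L.root h)
        (P, Vrt.oo) hc h1
      exact h2
    | Vrt.mid m =>
      exact L.val_jm P m (L.root h) (L.root h) _ rfl (hVzero P)
  · -- the values on the horizontal side
    rintro ⟨P, w⟩
    have hzz := L.val_NP_zero P h (L.root h) (vb (P, Vrt.zero)) (fun m => vb (P, Vrt.mid m)) rfl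
      (hvb (P, Vrt.zero)) (fun m => hvb (P, Vrt.mid m))
    match w with
    | Vrt.zero => exact hzz.1
    | Vrt.oo => exact L.val_NP_oo P h (L.root h) _ rfl (hvb (P, Vrt.oo))
    | Vrt.mid m => exact hzz.2 m

end Fermat.Agent.S36G
end
end MergeWrap_S36_G_NormLayer
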