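import Mathlib
import Fermat.Agent.MU.S36.G.Step3Core
import Fermat.Agent.MU.Lib.BadRed.Graph.Deuring.PermDef
import Fermat.Agent.MU.Lib.BadRed.Graph.Deuring.Main
import Fermat.Agent.MU.Lib.BadRed.Graph.Deuring.PermNode
import Fermat.Agent.MU.S36.G.SeedInst
import Fermat.Agent.MU.S36.G.InertEnds
import Fermat.Agent.MU.Lib.BadRed.Graph.GlueWD

section MergeWrap_S36_G_CocycleF3 -- from S36/G/CocycleF3.lean

set_option autoImplicit false
set_option linter.unusedSectionVars false

/-!
# Cluster G (S36), Step 3: the relation (F3) from the inertia action, ABSTRACT  (helper55, INERT)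

* `s3f_quot_cocycle` : two normal forms `g`, `g'` (roots `h`, `h'`, values `va, vb`, `va', vb'` at
  the branches) with `g' = a uⁿ g`: the cocycle `(va' / va) / (vb' / vb)` is a coboundary
  (`GraphWDStatement` applied to `u` with the roots `h' / h`).
* `IsNormalForm.smul_act` : **equivariance of normal forms**: an automorphism `t` of the package
  (`N.Act t`) which maps the branches of the node `νi i` to the branches of the node `i`
  (`PlaceCorr`) maps a normal form with values `va, vb` to a normal form of `t • g` with values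
  `va ∘ νi`, `vb ∘ νi`.
* `cocycleF3_of_act` : `CocycleF3 N n R P₃` if, for every `g` with `P₃ g` and every pair `m, m'` of
  middle vertices, there is such a `t` with `t • g = a uⁿ g`, `νi (P, ∞) = (P, ∞)`,
  `νi (P, m') = (P, m)`.
-/

noncomputable section

open AlgebraicCurve Fermat.Agent.RR Fermat.Agent.Deuring

namespace Fermat.Agent.S36G

open Fermat.Agent.BadRed Fermat.Agent.BadRedG Fermat.Agent.BadRed.Gluing

variable {K F k : Type*} [Field K] [Field F] [Algebra K F] [Field k]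

section Val

variable {L : Type*} [Field L] [Algebra k L]

/-- the value of an inverse. -/
theorem s3f_valAt_inv {Q : Place k L} {y : L} {x : k} (h : ValAt Q y x) (hx : x ≠ 0) :
    ValAt Q y⁻¹ x⁻¹ := by
  have hx' : algebraMap k L x ≠ 0 := by
    rwa [ne_eq, map_eq_zero_iff _ (algebraMap k L).injective]
  rcases h with h | h
  · left
    rw [h, map_inv₀]
  · right
    have hy0 : Q.ord y = 0 := ord_eq_zero_of_valAt (Or.inr h) hx
    have hy : y ≠ 0 := by
      rintro rfl
      rw [zero_sub, ← neg_one_mul] at h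
      by_cases h1 : (-1 : L) = 0
      · rw [h1, zero_mul, Place.ord_zero] at h
        exact lt_irrefl _ h
      · rw [Place.ord_mul _ h1 hx', Fermat.Agent.S24Res.ord_algebraMap] at h
        have h2 : Q.ord (-1 : L) = 0 := by
          have := Fermat.Agent.S24Res.ord_algebraMap Q (-1 : k)
          rwa [map_neg, map_one] at this
        rw [h2] at h
        exact lt_irrefl _ h
    have hne : y - algebraMap k L x ≠ 0 := by
      intro h0
      rw [h0, Place.ord_zero] at h
      exact lt_irrefl _ h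
    have e : y⁻¹ - (algebraMap k L) x⁻¹ =
        (y - algebraMap k L x) * (-(y⁻¹ * (algebraMap k L x)⁻¹)) := by
      rw [map_inv₀]
      field_simp
      ring
    have hm : -(y⁻¹ * (algebraMap k L x)⁻¹) ≠ 0 :=
      neg_ne_zero.mpr (mul_ne_zero (inv_ne_zero hy) (inv_ne_zero hx'))
    have hm0 : Q.ord (-(y⁻¹ * (algebraMap k L x)⁻¹)) = 0 := by
      have h1 : -(y⁻¹ * (algebraMap k L x)⁻¹) = algebraMap k L (-x⁻¹) * y⁻¹ := by
        rw [map_neg, map_inv₀]
        ring
      have h2 : algebraMap k L (-x⁻¹) ≠ 0 := by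
        rw [ne_eq, map_eq_zero_iff _ (algebraMap k L).injective]
        exact neg_ne_zero.mpr (inv_ne_zero hx)
      rw [h1, Place.ord_mul _ h2 (inv_ne_zero hy), Fermat.Agent.S24Res.ord_algebraMap,
        Place.ord_inv, hy0]
      simp
    rw [e, Place.ord_mul _ hne hm, hm0, add_zero]
    exact h

/-- the value of a quotient. -/
theorem s3f_valAt_div {Q : Place k L} {y y' : L} {x x' : k} (h : ValAt Q y x)
    (h' : ValAt Q y' x') (hx' : x' ≠ 0) : ValAt Q (y / y') (x / x') := by
  rw [div_eq_mul_inv, div_eq_mul_inv]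
  exact valAt_mul h (s3f_valAt_inv h' hx')

/-- transport of values along an isomorphism of function fields. -/
theorem s3f_valAt_corr {L' : Type*} [Field L'] [Algebra k L'] (e : L ≃ₐ[k] L')
    {Q : Place k L} {Q' : Place k L'} (hQ : PlaceCorr e Q Q') {y : L} {x : k}
    (h : ValAt Q y x) : ValAt Q' (e y) x := by
  rcases h with h | h
  · left
    rw [h, AlgEquiv.commutes]
  · right
    have := hQ (y - algebraMap k L x)
    rw [map_sub, AlgEquiv.commutes] at this
    rw [this]
    exact h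

end Val

variable {κ : Type*} {Fk : κ → Type*} [∀ c, Field (Fk c)] [∀ c, Algebra k (Fk c)] {ι : Type*}

/-- **two normal forms with `g' = a uⁿ g`**: the quotient of the value cocycles is a
coboundary. -/
theorem s3f_quot_cocycle [Finite κ] (N : GraphSetup K F k κ Fk ι) (hWD : GraphWDStatement N)
    {n : ℕ} (hn : n ≠ 0) {R : Divisor K F} {g : F} {D : Divisor K F} {h : ∀ c, Fk c}
    {va vb : ι → k} (hNF : IsNormalForm N n R g D h va vb)
    {g' : F} {h' : ∀ c, Fk c} {va' vb' : ι → k}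
    (hord' : ∀ P : Place K F, P.ord g' ≠ 0 → N.IsOrd P)
    (hmem' : ∀ c, g' ∈ (N.S c).Ov) (hred' : ∀ c, (N.S c).red g' = h' c ^ n)
    (hh0' : ∀ c, h' c ≠ 0)
    (hva' : ∀ i, ValAt (N.s₁ i) (h' (N.src i)) (va' i))
    (hvb' : ∀ i, ValAt (N.s₂ i) (h' (N.tgt i)) (vb' i))
    (hva0' : ∀ i, va' i ≠ 0) (hvb0' : ∀ i, vb' i ≠ 0)
    {u : F} {a : K} (ha : a ≠ 0) (hgu : g' = algebraMap K F a * u ^ n * g)
    (hg'0 : g' ≠ 0) :
    ∃ γ : κ → k, (∀ c, γ c ≠ 0) ∧
      ∀ i, γ (N.src i) * (va' i / va i) = γ (N.tgt i) * (vb' i / vb i) := by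
  have hg0 : g ≠ 0 := hNF.hg
  have ha' : algebraMap K F a ≠ 0 := by
    rwa [ne_eq, map_eq_zero_iff _ (algebraMap K F).injective]
  have hun : u ^ n ≠ 0 := by
    intro h0
    rw [h0, mul_zero, zero_mul] at hgu
    exact hg'0 hgu
  have hu : u ≠ 0 := fun h0 => hun (by rw [h0, zero_pow hn])
  have hpole : ∀ P : Place K F, P.ord u < 0 → N.IsOrd P := by
    intro P hP
    by_cases h1 : P.ord g' = 0
    · have h2 : P.ord g' = (n : ℤ) * P.ord u + P.ord g := by
        rw [hgu, Place.ord_mul _ (mul_ne_zero ha' hun) hg0, Place.ord_mul _ ha' hun,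
          Fermat.Agent.S24Res.ord_algebraMap, zero_add, ord_pow_nat]
      have h3 : P.ord g ≠ 0 := by
        intro h3
        rw [h1, h3, add_zero] at h2
        have h4 : (0 : ℤ) < n := by exact_mod_cast Nat.pos_of_ne_zero hn
        have h5 : (n : ℤ) * P.ord u < 0 := mul_neg_of_pos_of_neg h4 hP
        omega
      refine hNF.hDord P ?_
      intro h4
      rw [hNF.hdiv P, h4, mul_zero] at h3
      exact h3 rfl
    · exact hord' P h1
  have hred : ∀ c, (N.S c).red (algebraMap K F a * u ^ n / algebraMap K F ((fun _ => (1 : K)) c))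
      = (h' c / h c) ^ n := by
    intro c
    have hrg : (N.S c).red g ≠ 0 := by
      rw [hNF.hred c]
      exact pow_ne_zero _ (hNF.hh0 c)
    have hinv : g⁻¹ ∈ (N.S c).Ov := (N.S c).inv_mem_of_red_ne_zero hrg
    have e1 : algebraMap K F a * u ^ n / algebraMap K F ((fun _ => (1 : K)) c) = g' * g⁻¹ := by
      rw [hgu]
      simp only [map_one, div_one]
      rw [mul_assoc (algebraMap K F a * u ^ n), mul_inv_cancel₀ hg0, mul_one]
    rw [e1, (N.S c).red_mul (hmem' c) hinv, (N.S c).red_inv (hNF.hmem c) hinv hg0, hred' c,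
      hNF.hred c, div_pow, div_eq_mul_inv]
  have hH0 : ∀ c, h' c / h c ≠ 0 := fun c => div_ne_zero (hh0' c) (hNF.hh0 c)
  exact s3_wd_cocycle N hWD hn hu ha hpole (a := fun _ => (1 : K)) (H := fun c => h' c / h c)
    (fun _ => one_ne_zero) hred hH0
    (VA := fun i => va' i / va i) (VB := fun i => vb' i / vb i)
    (fun i => s3f_valAt_div (hva' i) (hNF.hva i) (hNF.hva0 i))
    (fun i => s3f_valAt_div (hvb' i) (hNF.hvb i) (hNF.hvb0 i))
    (fun i => div_ne_zero (hva0' i) (hNF.hva0 i))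
    (fun i => div_ne_zero (hvb0' i) (hNF.hvb0 i))

/-! ### Equivariance of normal forms -/

/-- the action `t` maps the two branches of the node `νi i` to the two branches of the node `i`
(`νi` = the inverse of the permutation of the nodes). -/
structure NodeCorr (N : GraphSetup K F k κ Fk ι) {t : SemilinearAut K F} (act : N.Act t)
    (νi : ι → ι) : Prop where
  corr₁ : ∀ i, ∃ h₁ : act.π (N.src (νi i)) = N.src i,
    PlaceCorr ((act.e (N.src (νi i))).trans (AlgEquiv.cast (R := k) (A := Fk) h₁))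
      (N.s₁ (νi i)) (N.s₁ i)
  corr₂ : ∀ i, ∃ h₂ : act.π (N.tgt (νi i)) = N.tgt i,
    PlaceCorr ((act.e (N.tgt (νi i))).trans (AlgEquiv.cast (R := k) (A := Fk) h₂))
      (N.s₂ (νi i)) (N.s₂ i)

/-- the transported roots `ē (h_{π⁻¹ c})`. -/
def s3fRoot {N : GraphSetup K F k κ Fk ι} {t : SemilinearAut K F} (act : N.Act t)
    (h : ∀ c, Fk c) (c : κ) : Fk c :=
  AlgEquiv.cast (R := k) (A := Fk) (Equiv.apply_symm_apply act.π c)
    (act.e (act.π.symm c) (h (act.π.symm c)))

theorem s3fRoot_eq {N : GraphSetup K F k κ Fk ι} {t : SemilinearAut K F} (act : N.Act t)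
    (h : ∀ c, Fk c) {c' c : κ} (hc : act.π c' = c) :
    s3fRoot act h c = AlgEquiv.cast (R := k) (A := Fk) hc (act.e c' (h c')) := by
  subst hc
  unfold s3fRoot
  have key : ∀ (c'' : κ) (p : act.π c'' = act.π c'), c'' = c' →
      AlgEquiv.cast (R := k) (A := Fk) p (act.e c'' (h c'')) =
        AlgEquiv.cast (R := k) (A := Fk) rfl (act.e c' (h c')) := by
    intro c'' p hcc
    subst hcc
    rfl
  exact key _ _ (Equiv.symm_apply_apply _ _)

theorem s3fRoot_ne_zero {N : GraphSetup K F k κ Fk ι} {t : SemilinearAut K F} (act : N.Act t)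
    {h : ∀ c, Fk c} (hh : ∀ c, h c ≠ 0) (c : κ) : s3fRoot act h c ≠ 0 := by
  unfold s3fRoot
  rw [ne_eq, map_eq_zero_iff _ (AlgEquiv.injective _), map_eq_zero_iff _ (AlgEquiv.injective _)]
  exact hh _

/-- `t • g` is integral at every component. -/
theorem s3f_smul_mem {N : GraphSetup K F k κ Fk ι} {t : SemilinearAut K F} (act : N.Act t)
    {g : F} (hmem : ∀ c, g ∈ (N.S c).Ov) (c : κ) : t • g ∈ (N.S c).Ov := by
  have h := act.mem (act.π.symm c) g (hmem _)
  rwa [Equiv.apply_symm_apply] at h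

/-- the reductions of `t • g` are the `n`-th powers of the transported roots. -/
theorem s3f_smul_red {N : GraphSetup K F k κ Fk ι} {t : SemilinearAut K F} (act : N.Act t)
    {g : F} {h : ∀ c, Fk c} {n : ℕ} (hmem : ∀ c, g ∈ (N.S c).Ov)
    (hred : ∀ c, (N.S c).red g = h c ^ n) (c : κ) :
    (N.S c).red (t • g) = s3fRoot act h c ^ n := by
  have key : ∀ (c' c : κ) (hc : act.π c' = c),
      (N.S c).red (t • g) = (AlgEquiv.cast (R := k) (A := Fk) hc (act.e c' (h c'))) ^ n := by
    intro c' c hc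
    subst hc
    rw [act.red c' g (hmem c'), hred c', map_pow]
    rfl
  rw [key (act.π.symm c) c (Equiv.apply_symm_apply _ _),
    s3fRoot_eq act h (Equiv.apply_symm_apply act.π c)]

/-- the orders of `t • g`. -/
theorem s3f_ord_smul (t : SemilinearAut K F) (P : Place K F) (g : F) :
    P.ord (t • g) = (t⁻¹ • P).ord g := by
  have h := SemilinearAut.ord_smul t (t⁻¹ • P) g
  rwa [smul_inv_smul] at h

/-- **(F3), abstract**: an automorphism `t` of the package with `t • g = a uⁿ g` which maps the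
branches of the node `νi i` to the branches of the node `i`: the cocycle
`(va (νi i) / va i) / (vb (νi i) / vb i)` is a coboundary. -/
theorem s3f_cocycle_of_act [Finite κ] (N : GraphSetup K F k κ Fk ι) (hWD : GraphWDStatement N)
    {n : ℕ} (hn : n ≠ 0) {R : Divisor K F} {g : F} {D : Divisor K F} {h : ∀ c, Fk c}
    {va vb : ι → k} (hNF : IsNormalForm N n R g D h va vb)
    {t : SemilinearAut K F} (act : N.Act t) {νi : ι → ι} (hν : NodeCorr N act νi)
    {u : F} {a : K} (ha : a ≠ 0) (hgu : t • g = algebraMap K F a * u ^ n * g) :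
    ∃ γ : κ → k, (∀ c, γ c ≠ 0) ∧
      ∀ i, γ (N.src i) * (va (νi i) / va i) = γ (N.tgt i) * (vb (νi i) / vb i) := by
  have hg'0 : t • g ≠ 0 := by
    rw [SemilinearAut.smul_def, ne_eq, map_eq_zero_iff _ (RingEquiv.injective _)]
    exact hNF.hg
  refine s3f_quot_cocycle N hWD hn hNF (g' := t • g) (h' := s3fRoot act h)
    (va' := fun i => va (νi i)) (vb' := fun i => vb (νi i)) ?_ (s3f_smul_mem act hNF.hmem)
    (s3f_smul_red act hNF.hmem hNF.hred) (s3fRoot_ne_zero act hNF.hh0) ?_ ?_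
    (fun i => hNF.hva0 _) (fun i => hNF.hvb0 _) ha hgu hg'0
  · intro P hP
    rw [s3f_ord_smul, hNF.hdiv] at hP
    have h1 : D (t⁻¹ • P) ≠ 0 := fun h0 => hP (by rw [h0, mul_zero])
    have h2 := act.ord _ (hNF.hDord _ h1)
    rwa [smul_inv_smul] at h2
  · intro i
    obtain ⟨h₁, hc⟩ := hν.corr₁ i
    rw [s3fRoot_eq act h h₁]
    exact s3f_valAt_corr _ hc (hNF.hva (νi i))
  · intro i
    obtain ⟨h₂, hc⟩ := hν.corr₂ i
    rw [s3fRoot_eq act h h₂]
    exact s3f_valAt_corr _ hc (hNF.hvb (νi i))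

/-! ### The modular graph `K_{|Vert|, s}` -/

section Modular

variable {Mid SS : Type} [Fintype Mid] [Fintype SS] {Fk : Vtx Mid SS → Type*}
  [∀ c, Field (Fk c)] [∀ c, Algebra k (Fk c)]

/-- **(F3) from the inertia action**: `CocycleF3 N n R P₃` holds if for every `g` with `P₃ g` and
every pair `m, m'` of middle vertices there is an automorphism `t` of the package with
`t • g = a uⁿ g` which maps the node `(P, ∞)` to itself and the node `(P, m)` to `(P, m')`. -/
theorem cocycleF3_of_act (N : GraphSetup K F k (Vtx Mid SS) Fk (Nod Mid SS))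
    (hsrc : ∀ i, N.src i = nodSrc i) (htgt : ∀ i, N.tgt i = nodTgt i)
    (hWD : GraphWDStatement N) {n : ℕ} (hn : n ≠ 0) (R : Divisor K F) (P₃ : F → Prop)
    (hact : ∀ g : F, P₃ g → ∀ m m' : Mid,
      ∃ (t : SemilinearAut K F) (act : N.Act t) (νi : Nod Mid SS → Nod Mid SS),
        NodeCorr N act νi ∧ (∀ P, νi (P, Vrt.oo) = (P, Vrt.oo)) ∧
          (∀ P, νi (P, Vrt.mid m') = (P, Vrt.mid m)) ∧
          ∃ (u : F) (a : K), a ≠ 0 ∧ t • g = algebraMap K F a * u ^ n * g) :
    CocycleF3 N n R P₃ := by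
  intro g D h va vb hNF hP m m'
  obtain ⟨t, act, νi, hν, hoo, hmm, u, a, ha, hgu⟩ := hact g hP m m'
  obtain ⟨γ, hγ, hcob⟩ := s3f_cocycle_of_act N hWD hn hNF act hν ha hgu
  refine s3_F3_of_cocycle (VA := fun i => va (νi i) / va i) (VB := fun i => vb (νi i) / vb i)
    m m' (fun i => div_ne_zero (hNF.hvb0 _) (hNF.hvb0 _)) ?_ ?_ ?_
    ⟨γ, hγ, fun P v => ?_⟩
  · intro P
    show va (νi (P, Vrt.oo)) / va (P, Vrt.oo) = vb (νi (P, Vrt.oo)) / vb (P, Vrt.oo)
    rw [hoo P, div_self (hNF.hva0 _), div_self (hNF.hvb0 _)]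
  · intro P
    show va (νi (P, Vrt.mid m')) / va (P, Vrt.mid m') * va (P, Vrt.mid m') = va (P, Vrt.mid m)
    rw [hmm P, div_mul_cancel₀ _ (hNF.hva0 _)]
  · intro P
    show vb (νi (P, Vrt.mid m')) / vb (P, Vrt.mid m') * vb (P, Vrt.mid m') = vb (P, Vrt.mid m)
    rw [hmm P, div_mul_cancel₀ _ (hNF.hvb0 _)]
  · have := hcob (P, v)
    rwa [hsrc, htgt] at this

end Modular

end Fermat.Agent.S36G
end
end MergeWrap_S36_G_CocycleF3

section MergeWrap_S36_G_CocycleF3Seed -- from S36/G/CocycleF3Seed.lean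

set_option autoImplicit false
set_option linter.unusedSectionVars false

/-!
# Cluster G (S36), Step 3: the relation (F3) for the package of a SEED  (helper55, INERT)

`N = G.graphSetup`, `G : GraphSeed` on the modular graph `K_{|Vert|, s}`.

* `GraphSeed.actOfPermAut`   : an automorphism of the seed acts on the package (`N.Act t`);
* `nodeCorr_of_isPermAut`    : if `π` fixes the horizontal components, the node `(P, σ v)` is
                               mapped to the node `(P, v)` (`π (vert (σ v)) = vert v`);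
* `cocycleF3_of_seed`        : `CocycleF3 G.graphSetup n R P₃` if for every `g` with `P₃ g` and
  every pair `m ≠ m'` of middle vertices there is an automorphism `t` of the seed
  (`G.IsPermAut t π e`, e.g. from `GraphSeed.IsPermAutW.isPermAut`) with `π (hor P) = hor P`,
  `π (vert ∞) = vert ∞`, `π (vert (mid m)) = vert (mid m')` and `t • g = a uⁿ g`.
-/

noncomputable section

open AlgebraicCurve Fermat.Agent.RR Fermat.Agent.Deuring

namespace Fermat.Agent.S36G

open Fermat.Agent.BadRed Fermat.Agent.BadRedG Fermat.Agent.BadRed.Gluing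

variable {K F k : Type*} [Field K] [Field F] [Algebra K F] [Field k]

section General

variable {κ : Type*} {Fk : κ → Type*} [∀ c, Field (Fk c)] [∀ c, Algebra k (Fk c)] {ι : Type*}
  [Fintype κ] [Fintype ι] [Infinite k] [Nonempty κ]

/-- an automorphism of the seed acts on its package. -/
def _root_.Fermat.Agent.BadRedG.GraphSeed.actOfPermAut (G : GraphSeed K F k κ Fk ι)
    {t : SemilinearAut K F} {π : Equiv.Perm κ} {e : ∀ c, Fk c ≃ₐ[k] Fk (π c)}
    (ht : G.IsPermAut t π e) : G.graphSetup.Act t where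
  π := π
  e := e
  mem := ht.mem
  red := ht.red
  ord := fun P hP => G.graphSetup_ordSmulPerm t π e ht P hP

end General

section Modular

variable {Mid SS : Type} [Fintype Mid] [Fintype SS] {Fk : Vtx Mid SS → Type*}
  [∀ c, Field (Fk c)] [∀ c, Algebra k (Fk c)] [Infinite k]

/-- the nodes of the modular graph are permuted as their vertices. -/
theorem nodeCorr_of_isPermAut (G : GraphSeed K F k (Vtx Mid SS) Fk (Nod Mid SS))
    (hsrc : ∀ i, G.src i = nodSrc i) (htgt : ∀ i, G.tgt i = nodTgt i)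
    {t : SemilinearAut K F} {π : Equiv.Perm (Vtx Mid SS)}
    {e : ∀ c, Fk c ≃ₐ[k] Fk (π c)} (ht : G.IsPermAut t π e)
    (hπP : ∀ P, π (Vtx.hor P) = Vtx.hor P) (σ : Vrt Mid → Vrt Mid)
    (hσ : ∀ v, π (Vtx.vert (σ v)) = Vtx.vert v) :
    NodeCorr G.graphSetup (G.actOfPermAut ht) (fun i => (i.1, σ i.2)) := by
  have key : ∀ i : Nod Mid SS, ∃ (h₁ : π (G.src (i.1, σ i.2)) = G.src i)
      (h₂ : π (G.tgt (i.1, σ i.2)) = G.tgt i),
      PlaceCorr ((e (G.src (i.1, σ i.2))).trans (AlgEquiv.cast (R := k) (A := Fk) h₁))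
        (G.s₁ (i.1, σ i.2)) (G.s₁ i) ∧
      PlaceCorr ((e (G.tgt (i.1, σ i.2))).trans (AlgEquiv.cast (R := k) (A := Fk) h₂))
        (G.s₂ (i.1, σ i.2)) (G.s₂ i) := by
    rintro ⟨P, v⟩
    obtain ⟨j', hj | hj⟩ := ht.node (P, σ v)
    · obtain ⟨h₁, h₂, c₁, c₂⟩ := hj
      have e1 : j' = (P, v) := by
        have a1 := h₁
        have a2 := h₂
        rw [hsrc, hsrc, nodSrc, nodSrc, hσ] at a1
        rw [htgt, htgt, nodTgt, nodTgt, hπP] at a2
        exact Prod.ext (Vtx.hor.inj a2).symm (Vtx.vert.inj a1).symm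
      subst e1
      exact ⟨h₁, h₂, c₁, c₂⟩
    · obtain ⟨h₁, -, -, -⟩ := hj
      rw [hsrc, htgt, nodSrc, nodTgt, hσ] at h₁
      cases h₁
  exact ⟨fun i => ⟨(key i).choose, (key i).choose_spec.choose_spec.1⟩,
    fun i => ⟨(key i).choose_spec.choose, (key i).choose_spec.choose_spec.2⟩⟩

/-- **(F3) for the package of a seed.** -/
theorem cocycleF3_of_seed (G : GraphSeed K F k (Vtx Mid SS) Fk (Nod Mid SS))
    (hsrc : ∀ i, G.src i = nodSrc i) (htgt : ∀ i, G.tgt i = nodTgt i)
    (hWD : GraphWDStatement G.graphSetup) {n : ℕ} (hn : n ≠ 0) (R : Divisor K F)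
    (P₃ : F → Prop)
    (hact : ∀ g : F, P₃ g → ∀ m m' : Mid, m ≠ m' →
      ∃ (t : SemilinearAut K F) (π : Equiv.Perm (Vtx Mid SS)) (e : ∀ c, Fk c ≃ₐ[k] Fk (π c)),
        G.IsPermAut t π e ∧ (∀ P, π (Vtx.hor P) = Vtx.hor P) ∧
          π (Vtx.vert Vrt.oo) = Vtx.vert Vrt.oo ∧
          π (Vtx.vert (Vrt.mid m)) = Vtx.vert (Vrt.mid m') ∧
          ∃ (u : F) (a : K), a ≠ 0 ∧ t • g = algebraMap K F a * u ^ n * g) :
    CocycleF3 G.graphSetup n R P₃ := by
  intro g D h va vb hNF hP m m'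
  by_cases hmm : m = m'
  · subst hmm
    exact ⟨1, one_ne_zero, fun P => by rw [one_mul]⟩
  obtain ⟨t, π, e, ht, hπP, hπoo, hπm, u, a, ha, hgu⟩ := hact g hP m m' hmm
  -- the inverse of `π` on the vertical vertices
  have hex : ∀ v : Vrt Mid, ∃ w : Vrt Mid, π (Vtx.vert w) = Vtx.vert v := by
    intro v
    rcases hw : π.symm (Vtx.vert v) with w | P
    · exact ⟨w, by rw [← hw, Equiv.apply_symm_apply]⟩
    · exfalso
      have h1 : π (Vtx.hor P) = Vtx.vert v := by rw [← hw, Equiv.apply_symm_apply]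
      rw [hπP] at h1
      cases h1
  choose σ hσ using hex
  have hσoo : σ Vrt.oo = Vrt.oo :=
    Vtx.vert.inj (π.injective ((hσ Vrt.oo).trans hπoo.symm))
  have hσm : σ (Vrt.mid m') = Vrt.mid m :=
    Vtx.vert.inj (π.injective ((hσ (Vrt.mid m')).trans hπm.symm))
  have hν := nodeCorr_of_isPermAut G hsrc htgt ht hπP σ hσ
  obtain ⟨γ, hγ, hcob⟩ := s3f_cocycle_of_act G.graphSetup hWD hn hNF (G.actOfPermAut ht) hν
    ha hgu
  refine s3_F3_of_cocycle (VA := fun i => va (i.1, σ i.2) / va i)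
    (VB := fun i => vb (i.1, σ i.2) / vb i)
    m m' (fun i => div_ne_zero (hNF.hvb0 _) (hNF.hvb0 _)) ?_ ?_ ?_
    ⟨γ, hγ, fun P v => ?_⟩
  · intro P
    show va (P, σ Vrt.oo) / va (P, Vrt.oo) = vb (P, σ Vrt.oo) / vb (P, Vrt.oo)
    rw [hσoo, div_self (hNF.hva0 _), div_self (hNF.hvb0 _)]
  · intro P
    show va (P, σ (Vrt.mid m')) / va (P, Vrt.mid m') * va (P, Vrt.mid m') = va (P, Vrt.mid m)
    rw [hσm, div_mul_cancel₀ _ (hNF.hva0 _)]
  · intro P
    show vb (P, σ (Vrt.mid m')) / vb (P, Vrt.mid m') * vb (P, Vrt.mid m') = vb (P, Vrt.mid m)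
    rw [hσm, div_mul_cancel₀ _ (hNF.hvb0 _)]
  · have := hcob (P, v)
    have hs : G.graphSetup.src (P, v) = Vtx.vert v := hsrc (P, v)
    have ht' : G.graphSetup.tgt (P, v) = Vtx.hor P := htgt (P, v)
    rwa [hs, ht'] at this

end Modular

end Fermat.Agent.S36G
end
end MergeWrap_S36_G_CocycleF3Seed

section MergeWrap_S36_Seed_Perm -- from S36/Seed/Perm.lean

set_option autoImplicit false
set_option linter.unusedSectionVars false

/-!
# Cluster G (S36), SEED-PERM: automorphisms of the modular seed  (helper92)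

The export asked by INERT-MOD (`hF3`): the modular seed `I.seed x ..` of helper40's
`ModMatchInput` (`S36/G/SeedInst.lean`) is a WEAK automorphism target
(`GraphSeed.IsPermAutW`, `Lib/BadRed/Graph/Deuring/PermNode.lean`) for every semilinear
automorphism `t` which

* maps `O_c` to `O_{π c}` compatibly with the reductions (`mem`, `red`),
* fixes the seed function (`t • x = x`: the seed function of SEED v3 is a rational function of
  `u₁` with rational coefficients),
* preserves the two kinds of branch points: the points `P_v` on the vertical components and the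
  ends `PJA ∪ PJM ∪ PJ2` on the horizontal components.

Abstract part:

* `seedPermPlace e Q`, `seedPerm_placeCorr` : the image of a place under an isomorphism of function
  fields, `PlaceCorr e Q (seedPermPlace e Q)`; `seedPerm_placeCorr_unique`;
* `seedPerm_poleDiv_corr` : `(e y)_∞ (Q') = (y)_∞ (Q)`;
* `seedPerm_poleDiv_smul` : `t • x = x ⟹ (x)_∞ (t • P) = (x)_∞ (P)`.

Modular part (`ModMatchInput`):

* `ModMatchInput.isBr_core_iff` : the branches of the core are the `P_v` and the ends;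
* `ModMatchInput.seedPerm_isPermAutW` : the statement above.
-/

noncomputable section

open AlgebraicCurve Fermat.Agent.RR Fermat.Agent.Deuring

namespace Fermat.Agent.S36G

open Fermat.Agent.BadRed Fermat.Agent.BadRedG

/-! ### The image of a place under an isomorphism -/

section Corr

variable {k L L' : Type*} [Field k] [Field L] [Field L'] [Algebra k L] [Algebra k L']

/-- the image of a valuation subring under an isomorphism. -/
def seedPermVS (e : L ≃ₐ[k] L') (A : ValuationSubring L) : ValuationSubring L' :=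
  A.comap (e.symm : L' →+* L)

theorem mem_seedPermVS (e : L ≃ₐ[k] L') (A : ValuationSubring L) (y : L') :
    y ∈ seedPermVS e A ↔ e.symm y ∈ A := Iff.rfl

theorem apply_mem_seedPermVS (e : L ≃ₐ[k] L') (A : ValuationSubring L) {x : L} (hx : x ∈ A) :
    e x ∈ seedPermVS e A := by
  rw [mem_seedPermVS, e.symm_apply_apply]
  exact hx

/-- the isomorphism of the valuation rings. -/
def seedPermVSEquiv (e : L ≃ₐ[k] L') (A : ValuationSubring L) : A ≃+* seedPermVS e A where
  toFun x := ⟨e x, apply_mem_seedPermVS e A x.2⟩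
  invFun y := ⟨e.symm y, y.2⟩
  left_inv x := by
    ext
    simp
  right_inv y := by
    ext
    simp
  map_mul' x y := by
    ext
    simp
  map_add' x y := by
    ext
    simp

@[simp]
theorem coe_seedPermVSEquiv (e : L ≃ₐ[k] L') (A : ValuationSubring L) (x : A) :
    ((seedPermVSEquiv e A x : seedPermVS e A) : L') = e (x : L) := rfl

/-- the image of a place under an isomorphism of function fields. -/
def seedPermPlace (e : L ≃ₐ[k] L') (Q : Place k L) : Place k L' where
  toValuationSubring := seedPermVS e Q.toValuationSubring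
  algebraMap_mem' := fun a => by
    rw [mem_seedPermVS, e.symm.commutes]
    exact Q.algebraMap_mem' a
  ne_top' := fun h => Q.ne_top' (by
    refine SetLike.ext fun x => ⟨fun _ => ValuationSubring.mem_top x, fun _ => ?_⟩
    have h1 : e x ∈ seedPermVS e Q.toValuationSubring := by
      rw [h]
      exact ValuationSubring.mem_top _
    rw [mem_seedPermVS, e.symm_apply_apply] at h1
    exact h1)
  isPrincipalIdealRing' :=
    IsPrincipalIdealRing.of_surjective
      (seedPermVSEquiv e Q.toValuationSubring : _ ≃+* _)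
      (seedPermVSEquiv e Q.toValuationSubring).surjective

/-- **the image place corresponds**: `ord_{Q'} (e y) = ord_Q y`. -/
theorem seedPerm_placeCorr (e : L ≃ₐ[k] L') (Q : Place k L) :
    PlaceCorr e Q (seedPermPlace e Q) := by
  intro y
  rcases eq_or_ne y 0 with rfl | hy
  · simp
  obtain ⟨π, hπ⟩ := IsDiscreteValuationRing.exists_irreducible Q.toValuationSubring
  obtain ⟨u, hu⟩ := Q.exists_unit_mul_zpow hy hπ
  set n := Q.ord y with hn
  set f := seedPermVSEquiv e Q.toValuationSubring with hf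
  have hπ' : Irreducible (f π) := (MulEquiv.irreducible_iff f).mpr hπ
  have hu' : IsUnit (f (u : Q.toValuationSubring)) := u.isUnit.map f
  have hcoeu : ((Units.val hu'.unit : seedPermVS e Q.toValuationSubring) : L') =
      e ((u : Q.toValuationSubring) : L) := by
    rw [IsUnit.unit_spec]
    rfl
  have hcoeπ : ((f π : seedPermVS e Q.toValuationSubring) : L') = e (π : L) := rfl
  have key : e y = ((Units.val hu'.unit : seedPermVS e Q.toValuationSubring) : L') *
      (((f π : seedPermVS e Q.toValuationSubring) : L') ^ n) := by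
    rw [hcoeu, hcoeπ]
    conv_lhs => rw [hu]
    rw [map_mul, map_zpow₀]
  rw [key]
  exact (seedPermPlace e Q).ord_unit_smul_zpow (u := hu'.unit) (π := f π) hπ' n

/-- every place has an image. -/
theorem seedPerm_exists_placeCorr (e : L ≃ₐ[k] L') (Q : Place k L) :
    ∃ Q' : Place k L', PlaceCorr e Q Q' :=
  ⟨seedPermPlace e Q, seedPerm_placeCorr e Q⟩

/-- a place is determined by its order function. -/
theorem seedPerm_place_ext {Q Q' : Place k L} (h : ∀ y : L, Q'.ord y = Q.ord y) : Q' = Q := by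
  have hmem : ∀ (R : Place k L) (y : L), y ∈ R.toValuationSubring ↔ y = 0 ∨ 0 ≤ R.ord y := by
    intro R y
    constructor
    · intro hy
      rcases eq_or_ne y 0 with rfl | hy0
      · exact Or.inl rfl
      right
      obtain ⟨π, hπ⟩ := IsDiscreteValuationRing.exists_irreducible R.toValuationSubring
      have hy0' : (⟨y, hy⟩ : R.toValuationSubring) ≠ 0 := by
        intro h0
        exact hy0 (congrArg Subtype.val h0)
      obtain ⟨m, v, hv⟩ := IsDiscreteValuationRing.eq_unit_mul_pow_irreducible hy0' hπ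
      have h1 : y = ((v : R.toValuationSubring) : L) * ((π : L) ^ (m : ℤ)) := by
        have := congrArg Subtype.val hv
        simpa using this
      rw [h1, R.ord_unit_smul_zpow v hπ]
      exact Int.natCast_nonneg m
    · rintro (rfl | hy)
      · exact zero_mem _
      by_contra hmem
      have hy0 : y ≠ 0 := fun h0 => hmem (h0 ▸ zero_mem _)
      have hinv : y⁻¹ ∈ R.toValuationSubring :=
        (R.toValuationSubring.mem_or_inv_mem y).resolve_left hmem
      obtain ⟨π, hπ⟩ := IsDiscreteValuationRing.exists_irreducible R.toValuationSubring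
      have hinv0 : (⟨y⁻¹, hinv⟩ : R.toValuationSubring) ≠ 0 := by
        intro h0
        exact inv_ne_zero hy0 (congrArg Subtype.val h0)
      obtain ⟨m, v, hv⟩ := IsDiscreteValuationRing.eq_unit_mul_pow_irreducible hinv0 hπ
      have h1 : y⁻¹ = ((v : R.toValuationSubring) : L) * ((π : L) ^ (m : ℤ)) := by
        have := congrArg Subtype.val hv
        simpa using this
      have h2 : R.ord y⁻¹ = (m : ℤ) := by rw [h1, R.ord_unit_smul_zpow v hπ]
      rw [R.ord_inv] at h2
      have hm0 : m = 0 := by omega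
      subst hm0
      have h3 : y⁻¹ = ((v : R.toValuationSubring) : L) := by
        rw [h1]
        simp
      apply hmem
      have h4 : y = (((v⁻¹ : (R.toValuationSubring)ˣ) : R.toValuationSubring) : L) := by
        have h5 : ((v : R.toValuationSubring) : L) *
            (((v⁻¹ : (R.toValuationSubring)ˣ) : R.toValuationSubring) : L) = 1 := by
          rw [← MulMemClass.coe_mul, Units.mul_inv]
          rfl
        rw [← h3] at h5
        field_simp at h5
        exact h5.symm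
      rw [h4]
      exact SetLike.coe_mem _
  apply Place.ext
  ext y
  rw [hmem Q' y, hmem Q y, h y]

/-- the image of a place is unique. -/
theorem seedPerm_placeCorr_unique {e : L ≃ₐ[k] L'} {Q : Place k L} {Q' Q'' : Place k L'}
    (h : PlaceCorr e Q Q') (h' : PlaceCorr e Q Q'') : Q' = Q'' := by
  apply seedPerm_place_ext
  intro y
  have h1 := h (e.symm y)
  have h2 := h' (e.symm y)
  rw [e.apply_symm_apply] at h1 h2
  rw [h1, h2]

/-- corresponding places have the same multiplicity in the pole divisors. -/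
theorem seedPerm_poleDiv_corr (hL : IsRRField k L) (hL' : IsRRField k L') {e : L ≃ₐ[k] L'}
    {Q : Place k L} {Q' : Place k L'} (h : PlaceCorr e Q Q') (y : L) :
    poleDiv hL' (e y) Q' = poleDiv hL y Q := by
  rw [poleDiv_apply, poleDiv_apply, h y]

end Corr

section Smul

variable {K F : Type*} [Field K] [Field F] [Algebra K F]

/-- the pole divisor of a function fixed by `t` is fixed by `t`. -/
theorem seedPerm_poleDiv_smul (h : IsRRField K F) (t : SemilinearAut K F) {x : F}
    (hx : t • x = x) (P : Place K F) : poleDiv h x (t • P) = poleDiv h x P := by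
  rw [poleDiv_apply, poleDiv_apply]
  have h1 := SemilinearAut.ord_smul t P x
  rw [hx] at h1
  rw [h1]

end Smul

/-! ### The modular seed -/

section Mod

variable {K F k : Type} [Field K] [Field F] [Algebra K F] [Field k]
  {Mid SS : Type} [Fintype Mid] [Fintype SS]
  {Fk0 : Type} [Field Fk0] [Algebra k Fk0]
  {FkM : Mid → Type} [∀ m, Field (FkM m)] [∀ m, Algebra k (FkM m)]
  {FkP : SS → Type} [∀ P, Field (FkP P)] [∀ P, Algebra k (FkP P)]

namespace ModMatchInput

variable (I : ModMatchInput K F k Mid SS Fk0 FkM FkP)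

/-- `p` is one of the ends `p_∞`, `p_m`, `p_0` of a horizontal component. -/
def IsEnd (p : Σ c, Place k (FkOf Fk0 FkM FkP c)) : Prop :=
  p ∈ I.PJA ∨ p ∈ I.PJM ∨ p ∈ I.PJ2

/-- `p` is one of the supersingular points `P_v` of a vertical component. -/
def IsVertBr (p : Σ c, Place k (FkOf Fk0 FkM FkP c)) : Prop :=
  ∃ (P : SS) (v : Vrt Mid), p = I.ptV P v

theorem isVertBr_fst {p : Σ c, Place k (FkOf Fk0 FkM FkP c)} (h : I.IsVertBr p) :
    ∃ v : Vrt Mid, p.1 = Vtx.vert v := by
  obtain ⟨P, v, rfl⟩ := h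
  exact ⟨v, rfl⟩

theorem not_isVertBr_hor (P : SS) (Q : Place k (FkOf Fk0 FkM FkP (Vtx.hor P))) :
    ¬ I.IsVertBr ⟨Vtx.hor P, Q⟩ := by
  intro h
  obtain ⟨v, hv⟩ := I.isVertBr_fst h
  cases hv

theorem isVertBr_vert_iff (v : Vrt Mid) (Q : Place k (FkOf Fk0 FkM FkP (Vtx.vert v))) :
    I.IsVertBr ⟨Vtx.vert v, Q⟩ ↔ ∃ P : SS, Q = I.pv P v := by
  constructor
  · rintro ⟨P, v', h⟩
    have h1 : (Vtx.vert v : Vtx Mid SS) = Vtx.vert v' := congrArg Sigma.fst h
    have h2 : v = v' := Vtx.vert.inj h1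
    subst h2
    unfold ptV at h
    rw [Sigma.mk.injEq] at h
    exact ⟨P, eq_of_heq h.2⟩
  · rintro ⟨P, rfl⟩
    exact ⟨P, v, rfl⟩

variable [Infinite k]

theorem exists_ptH_of_isEnd {p : Σ c, Place k (FkOf Fk0 FkM FkP c)} (h : I.IsEnd p) :
    ∃ i : Nod Mid SS, I.ptH i = p := by
  rcases h with h | h | h
  · obtain ⟨P, hP⟩ := I.exists_ptH_eqA p h
    exact ⟨(P, Vrt.oo), hP⟩
  · obtain ⟨P, m, hP⟩ := I.exists_ptH_eqM p h
    exact ⟨(P, Vrt.mid m), hP⟩
  · obtain ⟨P, hP⟩ := I.exists_ptH_eq2 p h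
    exact ⟨(P, Vrt.zero), hP⟩

theorem isEnd_fst {p : Σ c, Place k (FkOf Fk0 FkM FkP c)} (h : I.IsEnd p) :
    ∃ P : SS, p.1 = Vtx.hor P := by
  obtain ⟨i, rfl⟩ := I.exists_ptH_of_isEnd h
  exact ⟨i.1, rfl⟩

theorem not_isEnd_vert (v : Vrt Mid) (Q : Place k (FkOf Fk0 FkM FkP (Vtx.vert v))) :
    ¬ I.IsEnd ⟨Vtx.vert v, Q⟩ := by
  intro h
  obtain ⟨P, hP⟩ := I.isEnd_fst h
  cases hP

variable [Nonempty SS]

theorem isEnd_ptH (i : Nod Mid SS) : I.IsEnd (I.ptH i) := I.ptH_mem i

/-- **the branches of the modular core**: the points `P_v` and the ends. -/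
theorem isBr_core_iff (p : Σ c, Place k (FkOf Fk0 FkM FkP c)) :
    I.core.IsBr p ↔ I.IsVertBr p ∨ I.IsEnd p := by
  unfold GraphCore.IsBr
  constructor
  · rintro (⟨i, hi⟩ | ⟨i, hi⟩)
    · exact Or.inl ⟨i.1, i.2, hi⟩
    · right
      rw [hi]
      exact I.ptH_mem i
  · rintro (⟨P, v, h⟩ | h)
    · exact Or.inl ⟨(P, v), h⟩
    · obtain ⟨i, hi⟩ := I.exists_ptH_of_isEnd h
      exact Or.inr ⟨i, hi.symm⟩

section Seed

variable (x : F) (hx : ∀ c, x ∈ (I.S c).Ov)
    (hD₀ : I.D₀ = poleDiv (I.S (Vtx.vert Vrt.oo)).hF x)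
    (hpos : ∀ c, 0 < Divisor.degree (poleDiv (I.S c).hFk ((I.S c).red x)))
    (hn₁ : ∀ (P : SS) (v : Vrt Mid), 0 ≤ (I.pv P v).ord ((I.S (Vtx.vert v)).red x))
    (hn₂ : ∀ p : Σ c, Place k (FkOf Fk0 FkM FkP c), p ∈ I.PJA ∨ p ∈ I.PJM ∨ p ∈ I.PJ2 →
      0 ≤ p.2.ord ((I.S p.1).red x))
    (hdeg : Divisor.degree (poleDiv (I.S (Vtx.vert Vrt.oo)).hF x) ≤
      ∑ c, Divisor.degree (poleDiv (I.S c).hFk ((I.S c).red x)))
    (hgenus : genusFF K F + Fintype.card (Vtx Mid SS) ≤
      (∑ c, genusFF k (FkOf Fk0 FkM FkP c)) + Fintype.card (Nod Mid SS) + 1)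

/-- **the modular seed and its automorphisms** (general form): a semilinear automorphism `t`
which permutes the valuation rings compatibly with the reductions, fixes the seed function and
preserves the two kinds of branch points is a weak automorphism of the seed. -/
theorem seedPerm_isPermAutW (t : SemilinearAut K F) (π : Equiv.Perm (Vtx Mid SS))
    (e : ∀ c, FkOf Fk0 FkM FkP c ≃ₐ[k] FkOf Fk0 FkM FkP (π c))
    (hmem : ∀ (c : Vtx Mid SS) (f : F), f ∈ (I.S c).Ov → t • f ∈ (I.S (π c)).Ov)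
    (hred : ∀ (c : Vtx Mid SS) (f : F), f ∈ (I.S c).Ov →
      (I.S (π c)).red (t • f) = e c ((I.S c).red f))
    (htx : t • x = x)
    (hV : ∀ (c : Vtx Mid SS) (Q : Place k (FkOf Fk0 FkM FkP c))
      (Q' : Place k (FkOf Fk0 FkM FkP (π c))), PlaceCorr (e c) Q Q' →
        (I.IsVertBr ⟨c, Q⟩ ↔ I.IsVertBr ⟨π c, Q'⟩))
    (hE : ∀ (c : Vtx Mid SS) (Q : Place k (FkOf Fk0 FkM FkP c))
      (Q' : Place k (FkOf Fk0 FkM FkP (π c))), PlaceCorr (e c) Q Q' →
        (I.IsEnd ⟨c, Q⟩ ↔ I.IsEnd ⟨π c, Q'⟩)) :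
    (I.seed x hx hD₀ hpos hn₁ hn₂ hdeg hgenus).IsPermAutW t π e where
  mem := hmem
  red := hred
  D₀_smul := fun P => by
    rw [seed_D₀]
    exact seedPerm_poleDiv_smul _ t htx P
  R_smul := fun c Q => by
    refine ⟨seedPermPlace (e c) Q, seedPerm_placeCorr (e c) Q, ?_⟩
    rw [seed_R, seed_R]
    have h1 : (I.S (π c)).red x = e c ((I.S c).red x) := by
      have h2 := hred c x (hx c)
      rwa [htx] at h2
    rw [h1]
    exact seedPerm_poleDiv_corr _ _ (seedPerm_placeCorr (e c) Q) _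
  br_iff := fun c Q Q' hcorr => by
    rw [seed_toGraphCore, isBr_core_iff, isBr_core_iff, hV c Q Q' hcorr, hE c Q Q' hcorr]

/-- **the modular seed and its automorphisms** (form used by INERT-MOD): `π` maps vertical
components to vertical components and horizontal components to horizontal components; then only
the supersingular points of the vertical components and the ends of the horizontal components
have to be checked. -/
theorem seedPerm_isPermAutW' (t : SemilinearAut K F) (π : Equiv.Perm (Vtx Mid SS))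
    (e : ∀ c, FkOf Fk0 FkM FkP c ≃ₐ[k] FkOf Fk0 FkM FkP (π c))
    (hmem : ∀ (c : Vtx Mid SS) (f : F), f ∈ (I.S c).Ov → t • f ∈ (I.S (π c)).Ov)
    (hred : ∀ (c : Vtx Mid SS) (f : F), f ∈ (I.S c).Ov →
      (I.S (π c)).red (t • f) = e c ((I.S c).red f))
    (htx : t • x = x)
    (hπv : ∀ v : Vrt Mid, ∃ v' : Vrt Mid, π (Vtx.vert v) = Vtx.vert v')
    (hπh : ∀ P : SS, ∃ P' : SS, π (Vtx.hor P) = Vtx.hor P')
    (hV : ∀ (v : Vrt Mid) (Q : Place k (FkOf Fk0 FkM FkP (Vtx.vert v)))
      (Q' : Place k (FkOf Fk0 FkM FkP (π (Vtx.vert v)))), PlaceCorr (e (Vtx.vert v)) Q Q' →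
        ((∃ P : SS, Q = I.pv P v) ↔ I.IsVertBr ⟨π (Vtx.vert v), Q'⟩))
    (hE : ∀ (P : SS) (Q : Place k (FkOf Fk0 FkM FkP (Vtx.hor P)))
      (Q' : Place k (FkOf Fk0 FkM FkP (π (Vtx.hor P)))), PlaceCorr (e (Vtx.hor P)) Q Q' →
        (I.IsEnd ⟨Vtx.hor P, Q⟩ ↔ I.IsEnd ⟨π (Vtx.hor P), Q'⟩)) :
    (I.seed x hx hD₀ hpos hn₁ hn₂ hdeg hgenus).IsPermAutW t π e := by
  have hnotE : ∀ (c : Vtx Mid SS) (v : Vrt Mid), c = Vtx.vert v →
      ∀ Q : Place k (FkOf Fk0 FkM FkP c), ¬ I.IsEnd ⟨c, Q⟩ := by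
    rintro c v rfl Q
    exact I.not_isEnd_vert v Q
  have hnotV : ∀ (c : Vtx Mid SS) (P : SS), c = Vtx.hor P →
      ∀ Q : Place k (FkOf Fk0 FkM FkP c), ¬ I.IsVertBr ⟨c, Q⟩ := by
    rintro c P rfl Q
    exact I.not_isVertBr_hor P Q
  refine I.seedPerm_isPermAutW x hx hD₀ hpos hn₁ hn₂ hdeg hgenus t π e hmem hred htx ?_ ?_
  · intro c Q Q' hcorr
    cases c with
    | vert v =>
      rw [I.isVertBr_vert_iff]
      exact hV v Q Q' hcorr
    | hor P =>
      obtain ⟨P', hP'⟩ := hπh P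
      exact iff_of_false (I.not_isVertBr_hor P Q) (hnotV _ P' hP' Q')
  · intro c Q Q' hcorr
    cases c with
    | vert v =>
      obtain ⟨v', hv'⟩ := hπv v
      exact iff_of_false (I.not_isEnd_vert v Q) (hnotE _ v' hv' Q')
    | hor P => exact hE P Q Q' hcorr

end Seed

end ModMatchInput

end Mod

end Fermat.Agent.S36G
end
end MergeWrap_S36_Seed_Perm

section MergeWrap_S36_G_CocycleF3Ends -- from S36/G/CocycleF3Ends.lean

set_option autoImplicit false
set_option linter.unusedSectionVars false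

/-!
# Cluster G (S36), Step 3: the relation (F3) for the modular seed of `ModEndsInput`
(helper55, INERT)

`E : ModEndsInput`, `I = E.toMatchInput`, `G = I.seed x ..`, `N = G.graphSetup`.

* `InertVertexData E t σ` : the vertex-wise description of the action of one inertia element
  `t` (trivial on `v_∞`, `v_0`; `mid m ↦ mid (σ m)` with some isomorphism of the residue
  fields; every `w_P` stable with some automorphism of its residue field) and the four
  scaling statements `t • f = (unit of A) • f` for `u1`, `ϖ2 / u2`, `ϖ1 / u1`, `u2`;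
* `ModEndsInput.inert_isPermAut` : such a `t` with `t • x = x` is an automorphism of the seed
  (`GraphSeed.IsPermAut t (inertPerm σ) e`);
* `cocycleF3_of_ends` : **(F3)** for the package of the modular seed, if for every `g` with
  `P₃ g` and every pair `m ≠ m'` of middle vertices there is such a `t` with `σ m = m'` and
  `t • g = a uⁿ g`.
-/

noncomputable section

open AlgebraicCurve Fermat.Agent.RR Fermat.Agent.Deuring

namespace Fermat.Agent.S36G

open Fermat.Agent.BadRed Fermat.Agent.BadRedG Fermat.Agent.BadRed.Gluing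

variable {K F k : Type} [Field K] [Field F] [Algebra K F] [Field k]
  {Mid SS : Type} [Fintype Mid] [Fintype SS]
  {Fk0 : Type} [Field Fk0] [Algebra k Fk0]
  {FkM : Mid → Type} [∀ m, Field (FkM m)] [∀ m, Algebra k (FkM m)]
  {FkP : SS → Type} [∀ P, Field (FkP P)] [∀ P, Algebra k (FkP P)]

/-- the vertex-wise description of the action of an inertia element on the modular graph. -/
structure InertVertexData (E : ModEndsInput K F k Mid SS Fk0 FkM FkP) (t : SemilinearAut K F)
    (σ : Equiv.Perm Mid) : Prop where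
  oo_mem : ∀ f, f ∈ (E.S (Vtx.vert Vrt.oo)).Ov → t • f ∈ (E.S (Vtx.vert Vrt.oo)).Ov
  oo_red : ∀ f, f ∈ (E.S (Vtx.vert Vrt.oo)).Ov →
    (E.S (Vtx.vert Vrt.oo)).red (t • f) = (E.S (Vtx.vert Vrt.oo)).red f
  zero_mem : ∀ f, f ∈ (E.S (Vtx.vert Vrt.zero)).Ov → t • f ∈ (E.S (Vtx.vert Vrt.zero)).Ov
  zero_red : ∀ f, f ∈ (E.S (Vtx.vert Vrt.zero)).Ov →
    (E.S (Vtx.vert Vrt.zero)).red (t • f) = (E.S (Vtx.vert Vrt.zero)).red f
  mid : ∀ m : Mid, ∃ eM : FkM m ≃ₐ[k] FkM (σ m),
    ∀ f, f ∈ (E.S (Vtx.vert (Vrt.mid m))).Ov →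
      t • f ∈ (E.S (Vtx.vert (Vrt.mid (σ m)))).Ov ∧
        (E.S (Vtx.vert (Vrt.mid (σ m)))).red (t • f) =
          eM ((E.S (Vtx.vert (Vrt.mid m))).red f)
  hor : ∀ P : SS, ∃ eP : FkP P ≃ₐ[k] FkP P,
    ∀ f, f ∈ (E.S (Vtx.hor P)).Ov →
      t • f ∈ (E.S (Vtx.hor P)).Ov ∧
        (E.S (Vtx.hor P)).red (t • f) = eP ((E.S (Vtx.hor P)).red f)
  sc_u1 : InertScaled E.S t E.u1
  sc_u2' : InertScaled E.S t (algebraMap K F E.ϖ2 / E.u2)
  sc_u1' : InertScaled E.S t (algebraMap K F E.ϖ1 / E.u1)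
  sc_u2 : InertScaled E.S t E.u2

namespace ModEndsInput

variable (E : ModEndsInput K F k Mid SS Fk0 FkM FkP) [Infinite k] [Nonempty SS]

section Seed

variable (x : F) (hx : ∀ c, x ∈ (E.toMatchInput.S c).Ov)
    (hD₀ : E.toMatchInput.D₀ = poleDiv (E.toMatchInput.S (Vtx.vert Vrt.oo)).hF x)
    (hpos : ∀ c, 0 < Divisor.degree
      (poleDiv (E.toMatchInput.S c).hFk ((E.toMatchInput.S c).red x)))
    (hn₁ : ∀ (P : SS) (v : Vrt Mid),
      0 ≤ (E.toMatchInput.pv P v).ord ((E.toMatchInput.S (Vtx.vert v)).red x))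
    (hn₂ : ∀ p : Σ c, Place k (FkOf Fk0 FkM FkP c),
      p ∈ E.toMatchInput.PJA ∨ p ∈ E.toMatchInput.PJM ∨ p ∈ E.toMatchInput.PJ2 →
      0 ≤ p.2.ord ((E.toMatchInput.S p.1).red x))
    (hdeg : Divisor.degree (poleDiv (E.toMatchInput.S (Vtx.vert Vrt.oo)).hF x) ≤
      ∑ c, Divisor.degree (poleDiv (E.toMatchInput.S c).hFk ((E.toMatchInput.S c).red x)))
    (hgenus : genusFF K F + Fintype.card (Vtx Mid SS) ≤
      (∑ c, genusFF k (FkOf Fk0 FkM FkP c)) + Fintype.card (Nod Mid SS) + 1)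

/-- **an inertia element is an automorphism of the modular seed.** -/
theorem inert_isPermAut {t : SemilinearAut K F} {σ : Equiv.Perm Mid}
    (D : InertVertexData E t σ) (htx : t • x = x) :
    ∃ e : ∀ c, FkOf Fk0 FkM FkP c ≃ₐ[k] FkOf Fk0 FkM FkP (inertPerm σ c),
      (E.toMatchInput.seed x hx hD₀ hpos hn₁ hn₂ hdeg hgenus).IsPermAut t (inertPerm σ) e := by
  choose eM hM using D.mid
  choose eP hP using D.hor
  have mem : ∀ (c : Vtx Mid SS) (f : F), f ∈ (E.S c).Ov → t • f ∈ (E.S (inertPerm σ c)).Ov :=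
    inert_asm_mem E.S t σ D.oo_mem D.zero_mem (fun m f hf => (hM m f hf).1)
      (fun P f hf => (hP P f hf).1)
  have red : ∀ (c : Vtx Mid SS) (f : F), f ∈ (E.S c).Ov →
      (E.S (inertPerm σ c)).red (t • f) = inertFk σ eM eP c ((E.S c).red f) :=
    inert_asm_red E.S t σ eM eP D.oo_red D.zero_red (fun m f hf => (hM m f hf).2)
      (fun P f hf => (hP P f hf).2)
  refine ⟨inertFk σ eM eP, ?_⟩
  exact E.toMatchInput.seed_isPermAut x hx hD₀ hpos hn₁ hn₂ hdeg hgenus t (inertPerm σ)
    (inertFk σ eM eP) mem red htx (fun c Q => seedPerm_exists_placeCorr _ Q)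
    (E.inert_hV σ red D.sc_u1 D.sc_u2') (E.inert_hH σ red D.sc_u1' D.sc_u2)

/-- **(F3) for the package of the modular seed.** -/
theorem cocycleF3_of_ends [IsAlgClosed k] {n : ℕ} (hn : n ≠ 0) (R : Divisor K F)
    (P₃ : F → Prop)
    (hact : ∀ g : F, P₃ g → ∀ m m' : Mid, m ≠ m' →
      ∃ (t : SemilinearAut K F) (σ : Equiv.Perm Mid), InertVertexData E t σ ∧ t • x = x ∧
        σ m = m' ∧ ∃ (u : F) (a : K), a ≠ 0 ∧ t • g = algebraMap K F a * u ^ n * g) :
    CocycleF3 (E.toMatchInput.seed x hx hD₀ hpos hn₁ hn₂ hdeg hgenus).graphSetup n R P₃ := by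
  refine cocycleF3_of_seed _ (fun i => rfl) (fun i => rfl) (graphWD _) hn R P₃ ?_
  intro g hg m m' hmm
  obtain ⟨t, σ, D, htx, hσ, hu⟩ := hact g hg m m' hmm
  obtain ⟨e, he⟩ := E.inert_isPermAut x hx hD₀ hpos hn₁ hn₂ hdeg hgenus D htx
  refine ⟨t, inertPerm σ, e, he, fun P => rfl, rfl, ?_, hu⟩
  rw [inertPerm_mid, hσ]

end Seed

end ModEndsInput

end Fermat.Agent.S36G
end
end MergeWrap_S36_G_CocycleF3Ends
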