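import Mathlib
import Fermat.Agent.MU.Lib.Deuring.Basic

section MergeWrap_S36_G_InertAbs -- from S36/G/InertAbs.lean

set_option autoImplicit false

/-!
# S36 (cluster G), seat INERT, abstract part  (helper55)

Two constant reductions `S`, `S'` of `F / K` with the SAME valuation ring (and the same residue map
on the constants) have canonically isomorphic residue fields:

* `inertResEquiv S S' hOv hA hres : Fk ≃ₐ[k] Fk'` with `S'.red f = inertResEquiv .. (S.red f)` for
  all `f ∈ S.Ov` (`inertResEquiv_red`);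
* `inert_exists_resEquiv` : existence form.

Used for the middle vertices of the modular graph: the valuations `v_z`, `v_{z^c}` (`c` a square
modulo `q`) coincide, but their residue maps differ by the automorphism `θ j̄ ↦ c θ j̄` of
`k(Z)(θ j̄)`.
-/

noncomputable section

namespace Fermat.Agent.S36G

open Fermat.Agent.Deuring

variable {K F k Fk Fk' : Type*} [Field K] [Field F] [Algebra K F] [Field k]
  [Field Fk] [Algebra k Fk] [Field Fk'] [Algebra k Fk']

/-- `red` is onto on `Ov`. -/
theorem inert_red_surj (S : ValSetup K F k Fk) (y : Fk) : ∃ f : F, f ∈ S.Ov ∧ S.red f = y := by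
  obtain ⟨f, hf⟩ := S.ρ_surj y
  exact ⟨f.1, f.2, by rw [S.red_of_mem f.2]; exact hf⟩

/-- two reductions with the same valuation ring have the same fibres. -/
theorem inert_red_eq_of_red_eq (S : ValSetup K F k Fk) (S' : ValSetup K F k Fk')
    (hOv : S.Ov = S'.Ov) {f g : F} (hf : f ∈ S.Ov) (hg : g ∈ S.Ov)
    (h : S.red f = S.red g) : S'.red f = S'.red g := by
  have hf' : f ∈ S'.Ov := by rw [← hOv]; exact hf
  have hg' : g ∈ S'.Ov := by rw [← hOv]; exact hg
  by_cases hfg : f - g = 0
  · rw [sub_eq_zero.mp hfg]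
  · have h1 : S.red (f - g) = 0 := by rw [S.red_sub hf hg, h, sub_self]
    have h2 : (f - g)⁻¹ ∉ S.Ov := (S.red_eq_zero_iff (sub_mem hf hg) hfg).mp h1
    have h3 : (f - g)⁻¹ ∉ S'.Ov := by rw [← hOv]; exact h2
    have h4 : S'.red (f - g) = 0 := (S'.red_eq_zero_iff (sub_mem hf' hg') hfg).mpr h3
    rw [S'.red_sub hf' hg', sub_eq_zero] at h4
    exact h4

/-- the map of residue fields (junk if the valuation rings differ). -/
def inertResFun (S : ValSetup K F k Fk) (S' : ValSetup K F k Fk') (y : Fk) : Fk' :=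
  S'.red (Classical.choose (inert_red_surj S y))

theorem inertResFun_red (S : ValSetup K F k Fk) (S' : ValSetup K F k Fk')
    (hOv : S.Ov = S'.Ov) {f : F} (hf : f ∈ S.Ov) :
    inertResFun S S' (S.red f) = S'.red f := by
  have h := Classical.choose_spec (inert_red_surj S (S.red f))
  exact inert_red_eq_of_red_eq S S' hOv h.1 hf h.2

/-- the ring homomorphism of residue fields. -/
def inertResHom (S : ValSetup K F k Fk) (S' : ValSetup K F k Fk') (hOv : S.Ov = S'.Ov) :
    Fk →+* Fk' where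
  toFun := inertResFun S S'
  map_one' := by
    have h := inertResFun_red S S' hOv (S.Ov.one_mem)
    rw [S.red_one, S'.red_one] at h
    exact h
  map_zero' := by
    have h := inertResFun_red S S' hOv (S.Ov.zero_mem)
    rw [S.red_zero, S'.red_zero] at h
    exact h
  map_mul' x y := by
    obtain ⟨f, hf, rfl⟩ := inert_red_surj S x
    obtain ⟨g, hg, rfl⟩ := inert_red_surj S y
    have hf' : f ∈ S'.Ov := by rw [← hOv]; exact hf
    have hg' : g ∈ S'.Ov := by rw [← hOv]; exact hg
    rw [← S.red_mul hf hg, inertResFun_red S S' hOv (mul_mem hf hg),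
      inertResFun_red S S' hOv hf, inertResFun_red S S' hOv hg, S'.red_mul hf' hg']
  map_add' x y := by
    obtain ⟨f, hf, rfl⟩ := inert_red_surj S x
    obtain ⟨g, hg, rfl⟩ := inert_red_surj S y
    have hf' : f ∈ S'.Ov := by rw [← hOv]; exact hf
    have hg' : g ∈ S'.Ov := by rw [← hOv]; exact hg
    rw [← S.red_add hf hg, inertResFun_red S S' hOv (add_mem hf hg),
      inertResFun_red S S' hOv hf, inertResFun_red S S' hOv hg, S'.red_add hf' hg']

theorem inertResHom_red (S : ValSetup K F k Fk) (S' : ValSetup K F k Fk')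
    (hOv : S.Ov = S'.Ov) {f : F} (hf : f ∈ S.Ov) :
    inertResHom S S' hOv (S.red f) = S'.red f :=
  inertResFun_red S S' hOv hf

theorem inertResHom_comp (S : ValSetup K F k Fk) (S' : ValSetup K F k Fk')
    (hOv : S.Ov = S'.Ov) (y : Fk) :
    inertResHom S' S hOv.symm (inertResHom S S' hOv y) = y := by
  obtain ⟨f, hf, rfl⟩ := inert_red_surj S y
  have hf' : f ∈ S'.Ov := by rw [← hOv]; exact hf
  rw [inertResHom_red S S' hOv hf, inertResHom_red S' S hOv.symm hf']

theorem inertResHom_algebraMap (S : ValSetup K F k Fk) (S' : ValSetup K F k Fk')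
    (hOv : S.Ov = S'.Ov) (hA : S.A = S'.A)
    (hres : ∀ (c : K) (h : c ∈ S.A) (h' : c ∈ S'.A), S.res ⟨c, h⟩ = S'.res ⟨c, h'⟩) (c : k) :
    inertResHom S S' hOv (algebraMap k Fk c) = algebraMap k Fk' c := by
  obtain ⟨a, rfl⟩ := S.res_surj c
  have ha' : (a : K) ∈ S'.A := by rw [← hA]; exact a.2
  have h1 := S.red_algebraMap a.2
  have h2 := S'.red_algebraMap ha'
  have h3 : S.res ⟨(a : K), a.2⟩ = S.res a := rfl
  rw [h3] at h1
  rw [← h1, inertResHom_red S S' hOv (S.algebraMap_mem a.2), h2, ← hres (a : K) a.2 ha']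

/-- **the isomorphism of the residue fields** of two constant reductions with the same valuation
ring. -/
def inertResEquiv (S : ValSetup K F k Fk) (S' : ValSetup K F k Fk')
    (hOv : S.Ov = S'.Ov) (hA : S.A = S'.A)
    (hres : ∀ (c : K) (h : c ∈ S.A) (h' : c ∈ S'.A), S.res ⟨c, h⟩ = S'.res ⟨c, h'⟩) :
    Fk ≃ₐ[k] Fk' :=
  AlgEquiv.ofRingEquiv
    (f := RingEquiv.ofRingHom (inertResHom S S' hOv) (inertResHom S' S hOv.symm)
      (RingHom.ext fun y => inertResHom_comp S' S hOv.symm y)
      (RingHom.ext fun y => inertResHom_comp S S' hOv y))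
    (fun c => inertResHom_algebraMap S S' hOv hA hres c)

theorem inertResEquiv_red (S : ValSetup K F k Fk) (S' : ValSetup K F k Fk')
    (hOv : S.Ov = S'.Ov) (hA : S.A = S'.A)
    (hres : ∀ (c : K) (h : c ∈ S.A) (h' : c ∈ S'.A), S.res ⟨c, h⟩ = S'.res ⟨c, h'⟩)
    {f : F} (hf : f ∈ S.Ov) :
    inertResEquiv S S' hOv hA hres (S.red f) = S'.red f :=
  inertResHom_red S S' hOv hf

/-- existence form. -/
theorem inert_exists_resEquiv (S : ValSetup K F k Fk) (S' : ValSetup K F k Fk')
    (hOv : S.Ov = S'.Ov) (hA : S.A = S'.A)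
    (hres : ∀ (c : K) (h : c ∈ S.A) (h' : c ∈ S'.A), S.res ⟨c, h⟩ = S'.res ⟨c, h'⟩) :
    ∃ φ : Fk ≃ₐ[k] Fk', ∀ f ∈ S.Ov, S'.red f = φ (S.red f) :=
  ⟨inertResEquiv S S' hOv hA hres, fun _ hf => (inertResEquiv_red S S' hOv hA hres hf).symm⟩

end Fermat.Agent.S36G
end
end MergeWrap_S36_G_InertAbs
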