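import Fermat.Agent.S59.DefCond.StrictOrdArith
import Fermat.Agent.MU.Lib.BadRed.PeuD.BrkTame

section MergeWrap_S36_G_InertArith -- from S36/G/InertArith.lean

set_option autoImplicit false
set_option linter.style.haveILetI false
set_option linter.unnecessarySimpa false
set_option linter.unusedSectionVars false

/-!
# S36 (cluster G), seat INERT, part 1: the ARITHMETIC of the inertia group at `q`  (helper55)

`A` a place of `ℚ̄` over the prime `q`, `I = A.inertiaSubgroupIn ℚ`.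

* (AR-1) `inert_exists_modChar`, `inert_exists_pow_on_roots` : `I → (ℤ/q)ˣ` (the mod `q` cyclotomic
  character) is ONTO: for every `a` prime to `q` some `s ∈ I` acts on `μ_q` by `μ ↦ μ ^ a`.
  [`ℚ(ζ_q)` is totally ramified at `q`: every automorphism is `≡ id` modulo `1 - ζ` on `ℤ[ζ]`.]
* (AR-2) `inert_exists_tame` : for `ϖ ^ n = q`, `q ∤ n`, the tame character
  `I → μ_n`, `s ↦ s ϖ / ϖ` is ONTO: for every `η` with `η ^ n = 1` some `s ∈ I` has `s ϖ = η ϖ`.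
  [`Lib/FFL/FB/FieldTame.lean`, `TameSetting.exists_generator`.]
* (AR-2') `inert_tame_pow`, `inert_tame_fixed`, `inert_tame_mul` : `s ϖ / ϖ ∈ μ_n`, fixed by `I`,
  multiplicative in `s ∈ I`.
* (AR-3) `inert_root_fixed` : roots of unity of order prime to `q` are fixed by `I`.
* (AR-4) `inert_exists_fixed_lift` : every `x ∈ A` is congruent modulo the maximal ideal to an
  `I`-fixed element of `A` (Teichmüller; `Lib/FFL/FB/FieldTeich.lean`).
* (AR-5) `inert_val_fixed` : the valuation of an `I`-fixed element is an integral power of that of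
  `q` (`E/Desc/Kp/ValI.lean`) — cited where needed, not re-exported here.
-/

namespace Fermat.Agent.S36G

open Fermat.Agent.Cyclo IntermediateField

variable (q : ℕ) [Fact q.Prime]

/-- every element of `G_ℚ` is congruent to the identity modulo `𝔪_A` on `ℤ[ζ_q]`. -/
theorem inert_sub_mem_nonunits (A : ValuationSubring Qb) (hA : A.LiesOverPrime q) (σ : GQ)
    {ζ : Qb} (hζ : ζ ^ q = 1) {y : Qb} (hy : y ∈ Algebra.adjoin ℤ ({ζ} : Set Qb)) :
    y ∈ A ∧ σ y ∈ A ∧ σ y - y ∈ A.nonunits := by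
  have hq0 : q ≠ 0 := (Fact.out : q.Prime).ne_zero
  induction hy using Algebra.adjoin_induction with
  | mem x hx =>
    rw [Set.mem_singleton_iff] at hx
    subst hx
    have hσ : (σ x) ^ q = 1 := by rw [← map_pow, hζ, map_one]
    refine ⟨pow_eq_one_mem A hq0 hζ, pow_eq_one_mem A hq0 hσ, ?_⟩
    have : σ x - x = (σ x - 1) + -(x - 1) := by ring
    rw [this]
    exact nonunits_add_mem A (S59.SOArith.root_sub_one_mem_nonunits q A hA hσ)
      (nonunits_neg_mem A (S59.SOArith.root_sub_one_mem_nonunits q A hA hζ))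
  | algebraMap r =>
    have h1 : σ (algebraMap ℤ Qb r) = algebraMap ℤ Qb r := by
      simp
    rw [h1, sub_self]
    have hr : algebraMap ℤ Qb r ∈ A := by
      simpa using intCast_mem A r
    exact ⟨hr, hr, zero_mem_nonunits A⟩
  | add x y _ _ hx hy =>
    refine ⟨A.add_mem _ _ hx.1 hy.1, ?_, ?_⟩
    · rw [map_add]; exact A.add_mem _ _ hx.2.1 hy.2.1
    · have : σ (x + y) - (x + y) = (σ x - x) + (σ y - y) := by
        rw [map_add]; ring
      rw [this]
      exact nonunits_add_mem A hx.2.2 hy.2.2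
  | mul x y _ _ hx hy =>
    refine ⟨A.mul_mem _ _ hx.1 hy.1, ?_, ?_⟩
    · rw [map_mul]; exact A.mul_mem _ _ hx.2.1 hy.2.1
    · have : σ (x * y) - (x * y) = (σ x - x) * σ y + (σ y - y) * x := by
        rw [map_mul]; ring
      rw [this]
      exact nonunits_add_mem A (nonunits_mul_mem A hx.2.2 hy.2.1)
        (nonunits_mul_mem A hy.2.2 hx.1)

/-- **(AR-1), lifting form**: every element of `G_ℚ` agrees on `μ_q` with an element of the
inertia group at `A ∣ q`. -/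
theorem inert_exists_same_on_roots (A : ValuationSubring Qb) (hA : A.LiesOverPrime q) (σ : GQ) :
    ∃ σ₀ ∈ A.inertiaSubgroupIn ℚ, ∀ μ : Qb, μ ^ q = 1 → σ₀ μ = σ μ := by
  haveI : NeZero q := ⟨(Fact.out : q.Prime).ne_zero⟩
  obtain ⟨ζ, hζ⟩ := HasEnoughRootsOfUnity.exists_primitiveRoot Qb q
  haveI : Algebra.IsIntegral ℚ Qb := (AlgebraicClosure.isAlgebraic ℚ).isIntegral
  let L : IntermediateField ℚ Qb := ℚ⟮ζ⟯
  haveI hcyc : IsCyclotomicExtension {q} ℚ L := hζ.intermediateField_adjoin_isCyclotomicExtension ℚ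
  haveI : FiniteDimensional ℚ L := IsCyclotomicExtension.finiteDimensional {q} ℚ L
  haveI : IsGalois ℚ L := IsCyclotomicExtension.isGalois {q} ℚ L
  have hζmem : ζ ∈ L := mem_adjoin_simple_self ℚ ζ
  let ζL : L := ⟨ζ, hζmem⟩
  have hζL : IsPrimitiveRoot ζL q := by
    have : IsPrimitiveRoot ((algebraMap L Qb) ζL) q := hζ
    exact IsPrimitiveRoot.of_map_of_injective (f := algebraMap L Qb) this
      (FaithfulSMul.algebraMap_injective L Qb)
  have hic : IsIntegralClosure (Algebra.adjoin ℤ ({ζL} : Set L)) ℤ L :=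
    IsCyclotomicExtension.Rat.isIntegralClosure_adjoin_singleton_of_prime hζL
  let s : L ≃ₐ[ℚ] L := AlgEquiv.restrictNormalHom L σ
  have hs : ∀ x : L, ((s x : L) : Qb) = σ (x : Qb) := fun x =>
    AlgEquiv.restrictNormal_commutes σ L x
  have hcong : ∀ x : L, IsIntegral ℤ x → ((s x : L) : Qb) - (x : Qb) ∈ A.nonunits := by
    intro x hx
    obtain ⟨y, hy⟩ := hic.isIntegral_iff.mp hx
    have hxmem : (x : Qb) ∈ Algebra.adjoin ℤ ({ζ} : Set Qb) := by
      have h1 : (x : L) ∈ Algebra.adjoin ℤ ({ζL} : Set L) := by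
        rw [← hy]; exact y.2
      have h2 : (L.val.restrictScalars ℤ) x ∈
          (Algebra.adjoin ℤ ({ζL} : Set L)).map (L.val.restrictScalars ℤ) :=
        Subalgebra.mem_map.mpr ⟨x, h1, rfl⟩
      rw [AlgHom.map_adjoin, Set.image_singleton] at h2
      exact h2
    rw [hs]
    exact (inert_sub_mem_nonunits q A hA σ hζ.pow_eq_one hxmem).2.2
  obtain ⟨σ₀, hσ₀, hres⟩ := Fermat.Agent.Minkowski.exists_mem_inertiaSubgroupIn_restrict
    A q (Fact.out : q.Prime) hA L s hcong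
  refine ⟨σ₀, hσ₀, fun μ hμ => ?_⟩
  obtain ⟨k, -, rfl⟩ := hζ.eq_pow_of_pow_eq_one hμ
  have h1 : σ₀ ζ = σ ζ := by
    have h2 : ((AlgEquiv.restrictNormalHom L σ₀ ζL : L) : Qb) = σ₀ ζ :=
      AlgEquiv.restrictNormal_commutes σ₀ L ζL
    rw [← h2, hres, hs]
  rw [map_pow, map_pow, h1]

/-- the mod `n` cyclotomic character of `G_ℚ` is surjective (a copy of
`F4Cf.modChar_surjective_GQ`, to keep the closure small). -/
theorem inert_modChar_surjective (n : ℕ) [NeZero n] : Function.Surjective (Cyclo.modChar n) := by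
  intro u
  obtain ⟨ζ, hζ⟩ := HasEnoughRootsOfUnity.exists_primitiveRoot Cyclo.Qb n
  have hn : 0 < n := Nat.pos_of_ne_zero (NeZero.ne n)
  have hcop : Nat.Coprime (u : ZMod n).val n := ZMod.val_coe_unit_coprime u
  have hζu : IsPrimitiveRoot (ζ ^ (u : ZMod n).val) n := hζ.pow_of_coprime _ hcop
  have h1 : minpoly ℚ ζ = minpoly ℚ (ζ ^ (u : ZMod n).val) := by
    rw [← Polynomial.cyclotomic_eq_minpoly_rat hζ hn,
      ← Polynomial.cyclotomic_eq_minpoly_rat hζu hn]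
  have : Algebra.IsAlgebraic ℚ Cyclo.Qb := AlgebraicClosure.isAlgebraic ℚ
  have : IsAlgClosure ℚ Cyclo.Qb := ⟨inferInstance, inferInstance⟩
  have : Normal ℚ Cyclo.Qb := IsAlgClosure.normal ℚ Cyclo.Qb
  have hroot : Polynomial.aeval ζ (minpoly ℚ (ζ ^ (u : ZMod n).val)) = 0 := by
    rw [← h1]; exact minpoly.aeval _ _
  obtain ⟨σ, hσ⟩ := minpoly.exists_algEquiv_of_root
    (Algebra.IsAlgebraic.isAlgebraic (R := ℚ) (ζ ^ (u : ZMod n).val)) hroot
  refine ⟨σ, ?_⟩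
  apply Units.ext
  apply Cyclo.modChar_unique
  intro t ht
  obtain ⟨i, -, rfl⟩ := hζ.eq_pow_of_pow_eq_one ht
  rw [map_pow, hσ, ← pow_mul, ← pow_mul, mul_comm]

/-- **(AR-1)**: the mod `q` cyclotomic character is onto on the inertia group at `A ∣ q`. -/
theorem inert_exists_modChar (A : ValuationSubring Qb) (hA : A.LiesOverPrime q)
    (a : (ZMod q)ˣ) :
    haveI : NeZero q := ⟨(Fact.out : q.Prime).ne_zero⟩
    ∃ σ₀ ∈ A.inertiaSubgroupIn ℚ, modChar q σ₀ = a := by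
  haveI : NeZero q := ⟨(Fact.out : q.Prime).ne_zero⟩
  obtain ⟨σ, hσ⟩ := inert_modChar_surjective q a
  obtain ⟨σ₀, hσ₀, h⟩ := inert_exists_same_on_roots q A hA σ
  refine ⟨σ₀, hσ₀, ?_⟩
  rw [← hσ]
  apply Units.ext
  refine modChar_unique q σ₀ (c := ((modChar q σ : (ZMod q)ˣ) : ZMod q)) fun t ht => ?_
  rw [h t ht]
  exact modChar_spec q σ ht

/-- **(AR-1), exponent form**: for every `a` prime to `q` some element of the inertia group at
`A ∣ q` acts on `μ_q` by `μ ↦ μ ^ a`. -/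
theorem inert_exists_pow_on_roots (A : ValuationSubring Qb) (hA : A.LiesOverPrime q)
    (a : ℕ) (ha : ¬ q ∣ a) :
    ∃ σ₀ ∈ A.inertiaSubgroupIn ℚ, ∀ μ : Qb, μ ^ q = 1 → σ₀ μ = μ ^ a := by
  haveI : NeZero q := ⟨(Fact.out : q.Prime).ne_zero⟩
  have hcop : Nat.Coprime a q :=
    (Nat.Coprime.symm ((Nat.Prime.coprime_iff_not_dvd (Fact.out : q.Prime)).mpr ha))
  obtain ⟨σ₀, hσ₀, h⟩ := inert_exists_modChar q A hA (ZMod.unitOfCoprime a hcop)
  refine ⟨σ₀, hσ₀, fun μ hμ => ?_⟩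
  rw [modChar_spec q σ₀ hμ, h, ZMod.coe_unitOfCoprime]
  refine pow_eq_pow_of_modEq ?_ hμ
  rw [← ZMod.natCast_eq_natCast_iff, ZMod.natCast_zmod_val]

/-! ### the tame character -/

local notation "Kb" => AlgebraicClosure ℚ

/-- the tame setting of `ϖ ^ n = q`. -/
theorem inert_tameSetting (A : ValuationSubring Qb) (hA : A.LiesOverPrime q) {n : ℕ}
    (hn : ¬ q ∣ n) {ϖ : Qb} (hϖ : ϖ ^ n = (q : Qb)) :
    Fermat.Agent.FFL.FB.TameSetting q A n ϖ where
  hp := Fact.out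
  hP := hA
  he := hn
  hπ0 := by
    rintro rfl
    have hn0 : n ≠ 0 := fun h => hn (h ▸ dvd_zero q)
    rw [zero_pow hn0] at hϖ
    exact (Nat.cast_ne_zero.mpr (Fact.out : q.Prime).ne_zero) hϖ.symm
  hfix := fun σ _ => by rw [hϖ, map_natCast]
  hπp := by
    rw [hϖ, div_self (Nat.cast_ne_zero.mpr (Fact.out : q.Prime).ne_zero)]
    exact A.one_mem
  hpπ := by
    rw [hϖ, div_self (Nat.cast_ne_zero.mpr (Fact.out : q.Prime).ne_zero)]
    exact A.one_mem

/-- **(AR-3)** roots of unity of order prime to `q` are fixed by the inertia group. -/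
theorem inert_root_fixed (A : ValuationSubring Qb) (hA : A.LiesOverPrime q) {n : ℕ}
    (hn : ¬ q ∣ n) {η : Qb} (hη : η ^ n = 1) {σ : GQ} (hσ : σ ∈ A.inertiaSubgroupIn ℚ) :
    σ η = η :=
  Fermat.Agent.FFL.FB.root_fixed_of_inertia (Fact.out : q.Prime) hA hn hη hσ

/-- **(AR-2')** `s ϖ / ϖ` is an `n`-th root of unity. -/
theorem inert_tame_pow (A : ValuationSubring Qb) (hA : A.LiesOverPrime q) {n : ℕ}
    (hn : ¬ q ∣ n) {ϖ : Qb} (hϖ : ϖ ^ n = (q : Qb)) (σ : GQ) : (σ ϖ / ϖ) ^ n = 1 := by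
  have h0 : ϖ ≠ 0 := (inert_tameSetting q A hA hn hϖ).hπ0
  rw [div_pow, ← map_pow, hϖ, map_natCast,
    div_self (Nat.cast_ne_zero.mpr (Fact.out : q.Prime).ne_zero)]

/-- **(AR-2')** the tame character is multiplicative on the inertia group. -/
theorem inert_tame_mul (A : ValuationSubring Qb) (hA : A.LiesOverPrime q) {n : ℕ}
    (hn : ¬ q ∣ n) {ϖ : Qb} (hϖ : ϖ ^ n = (q : Qb)) {σ τ : GQ}
    (hσ : σ ∈ A.inertiaSubgroupIn ℚ) :
    (σ * τ) ϖ / ϖ = (σ ϖ / ϖ) * (τ ϖ / ϖ) := by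
  have h0 : ϖ ≠ 0 := (inert_tameSetting q A hA hn hϖ).hπ0
  have h1 : τ ϖ = (τ ϖ / ϖ) * ϖ := by rw [div_mul_cancel₀ _ h0]
  have h2 : σ (τ ϖ / ϖ) = τ ϖ / ϖ :=
    inert_root_fixed q A hA hn (inert_tame_pow q A hA hn hϖ τ) hσ
  show σ (τ ϖ) / ϖ = _
  rw [h1, map_mul, h2]
  field_simp

/-- **(AR-2)**: the tame character `s ↦ s ϖ / ϖ` (`ϖ ^ n = q`, `q ∤ n`) maps the inertia group
at `A ∣ q` ONTO `μ_n`. -/
theorem inert_exists_tame (A : ValuationSubring Qb) (hA : A.LiesOverPrime q) {n : ℕ}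
    (hn : ¬ q ∣ n) {ϖ : Qb} (hϖ : ϖ ^ n = (q : Qb)) {η : Qb} (hη : η ^ n = 1) :
    ∃ σ ∈ A.inertiaSubgroupIn ℚ, σ ϖ = η * ϖ := by
  have hn0 : 0 < n := Nat.pos_of_ne_zero fun h => hn (h ▸ dvd_zero q)
  have S := inert_tameSetting q A hA hn hϖ
  have h0 : ϖ ≠ 0 := S.hπ0
  obtain ⟨σ₀, hσ₀, hprim⟩ := S.exists_generator
  haveI : NeZero n := ⟨hn0.ne'⟩
  obtain ⟨k, -, hk⟩ := hprim.eq_pow_of_pow_eq_one hη
  refine ⟨σ₀ ^ k, (A.inertiaSubgroupIn ℚ).pow_mem hσ₀ k, ?_⟩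
  have key : ∀ j : ℕ, (σ₀ ^ j) ϖ = (σ₀ ϖ / ϖ) ^ j * ϖ := by
    intro j
    induction j with
    | zero => simp
    | succ j ih =>
      have h1 : (σ₀ ^ (j + 1)) ϖ = σ₀ ((σ₀ ^ j) ϖ) := by
        rw [pow_succ']
        rfl
      have h2 : σ₀ (σ₀ ϖ / ϖ) = σ₀ ϖ / ϖ :=
        inert_root_fixed q A hA hn (inert_tame_pow q A hA hn hϖ σ₀) hσ₀
      rw [h1, ih, map_mul, map_pow, h2, pow_succ]
      field_simp
  rw [key k, hk]

/-- **(AR-4)** every element of `A` is congruent modulo the maximal ideal to an inertia-fixed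
element of `A` (the inertia field has the same residue field). -/
theorem inert_exists_fixed_lift (A : ValuationSubring Qb) (hA : A.LiesOverPrime q) {x : Qb}
    (hx : x ∈ A) :
    ∃ t : Qb, t ∈ A ∧ (∀ σ ∈ A.inertiaSubgroupIn ℚ, σ t = t) ∧ x - t ∈ A.nonunits := by
  obtain ⟨t, ht, hxt⟩ :=
    Fermat.Agent.FFL.FB.exists_inertiaRing_sub_mem (Fact.out : q.Prime) hA hx
  exact ⟨t, ht.1, ht.2, hxt⟩

end Fermat.Agent.S36G
end MergeWrap_S36_G_InertArith
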