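import Mathlib
import Fermat.Agent.MU.S36.Norm.VertRed
import Fermat.Agent.MU.S36.G.Defs
import Fermat.Agent.MU.Lib.BadRed.Mod.GaussSetupFinal
import Fermat.Agent.Lib.BadRed.Mod.FrobAut
import Fermat.Agent.MU.S36.Igusa.Gal
import Fermat.Agent.MU.S36.Igusa.Exp
import Fermat.Agent.Lib.GaussInt.Galois
import Fermat.Agent.MU.S17.Pts.Galois
import Fermat.Agent.MU.S36.Norm.MidProd
import Fermat.Agent.MU.S36.G.InertArith
import Fermat.Agent.MU.S36.Igusa.AsmSetup
import Fermat.Agent.MU.Lib.BadRed.Bridge.P1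
import Fermat.Agent.MU.Lib.BadRed.Mod.ValInf
import Fermat.Agent.MU.Lib.Deuring.Basic
import Fermat.Agent.MU.S36.Igusa.ExpExists
import Fermat.Agent.MU.S36.Igusa.Val
import Fermat.Agent.MU.S36.G.InertAbs
import Fermat.Agent.S36.G.Types
import Fermat.Agent.MU.Lib.BadRed.Graph.Setup
import Fermat.Agent.MU.Lib.BadRed.Mod.ValZero
import Fermat.Agent.MU.Lib.BadRed.ALFun
import Fermat.Agent.MU.S36.G.CoreWire
import Fermat.Agent.MU.Lib.BadRed.Bridge.LevelCast

section MergeWrap_S36_Step1_Vert -- from S36/Step1/Vert.lean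

set_option autoImplicit false
set_option linter.style.haveILetI false
set_option linter.unusedSectionVars false
set_option linter.unusedVariables false

/-!
# S36 (Carayol), Step 1 of the proof of (CORE), function form, vertices `∞` and `0`  (helper66)

`q` prime, `N₁ = q R` (`D₁.Q = q`, `D₁.R = R`, `q ∤ R`), `M = N₁ q` (`D₂.Q = D₁.Q * q`), `A ∣ q`,
`k` the residue field of `A`, `F_k(R) = modularFunctionFieldFullC k R`.

* `IsKPow Fk n r` : the series `r` is a nonzero constant times the `n`-th power of a nonzero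
  element of `Fk`  (the class of `r` in `Fk^× / k^× (Fk^×)ⁿ` is trivial);
* `step1_inf`  : if `Norm_α (W₂ g)` is a constant times an `n`-th power (`π₂_* x = 0`) then the
  residue of `g` at `v_∞` is `IsKPow`;
* `step1_zero` : if `Norm_α g` is a constant times an `n`-th power (`π₁_* x = 0`) then the residue
  of `g` at `v_0 = v_∞ ∘ W₂` is `IsKPow`.

No condition on `n`.  Proof: (N1), (N1') of `S36/Norm/VertRed.lean` (the residue of the norm is the
Frobenius twist of the residue) and the stability of `F_k(R)` under the inverse of the coefficientwise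
Frobenius (T, `Lib/BadRed/Mod/FrobAut.lean`).
-/

noncomputable section

namespace Fermat.Agent.S36N

open ModularCurve AlgebraicCurve Fermat.Agent.F3 Fermat.Agent.F3G Fermat.Agent.GaussInt
  Fermat.Agent.AtkinLehner Fermat.Agent.Kronecker Fermat.Agent.BadRed Fermat.Agent.HeckeComm
  Fermat.Agent.S36G

local notation "Qb" => AlgebraicClosure ℚ

attribute [local instance 10000] SubalgebraClass.toAlgebra HahnSeries.powerSeriesAlgebra

set_option synthInstance.maxHeartbeats 400000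

/-- `r` is a nonzero constant times the `n`-th power of a nonzero element of `Fk`. -/
def IsKPow {k : Type*} [Field k] (Fk : IntermediateField k (LaurentSeries k)) (n : ℕ)
    (r : LaurentSeries k) : Prop :=
  ∃ (κ : k) (h : LaurentSeries k), κ ≠ 0 ∧ h ∈ Fk ∧ h ≠ 0 ∧
    r = algebraMap k (LaurentSeries k) κ * h ^ n

section IsKPow

variable {k : Type*} [Field k] {Fk : IntermediateField k (LaurentSeries k)} {n : ℕ}
  {r s : LaurentSeries k}

theorem IsKPow.ne_zero (h : IsKPow Fk n r) : r ≠ 0 := by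
  obtain ⟨κ, h, hκ, -, hh, rfl⟩ := h
  exact mul_ne_zero (by simpa using hκ) (pow_ne_zero _ hh)

theorem IsKPow.mem (h : IsKPow Fk n r) : r ∈ Fk := by
  obtain ⟨κ, h, -, hh, -, rfl⟩ := h
  exact mul_mem (Fk.algebraMap_mem κ) (pow_mem hh n)

theorem IsKPow.one : IsKPow Fk n 1 :=
  ⟨1, 1, one_ne_zero, one_mem _, one_ne_zero, by rw [map_one, one_pow, one_mul]⟩

theorem IsKPow.mul (hr : IsKPow Fk n r) (hs : IsKPow Fk n s) : IsKPow Fk n (r * s) := by
  obtain ⟨κ, h, hκ, hh, hh0, rfl⟩ := hr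
  obtain ⟨κ', h', hκ', hh', hh0', rfl⟩ := hs
  exact ⟨κ * κ', h * h', mul_ne_zero hκ hκ', mul_mem hh hh', mul_ne_zero hh0 hh0', by
    rw [map_mul, mul_pow]; ring⟩

theorem IsKPow.inv (hr : IsKPow Fk n r) : IsKPow Fk n r⁻¹ := by
  obtain ⟨κ, h, hκ, hh, hh0, rfl⟩ := hr
  exact ⟨κ⁻¹, h⁻¹, inv_ne_zero hκ, inv_mem hh, inv_ne_zero hh0, by
    rw [map_inv₀, inv_pow, mul_inv]⟩

theorem IsKPow.div (hr : IsKPow Fk n r) (hs : IsKPow Fk n s) : IsKPow Fk n (r / s) := by
  rw [div_eq_mul_inv]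
  exact hr.mul hs.inv

theorem IsKPow.pow (hr : IsKPow Fk n r) (m : ℕ) : IsKPow Fk n (r ^ m) := by
  induction m with
  | zero => rw [pow_zero]; exact IsKPow.one
  | succ m ih => rw [pow_succ]; exact ih.mul hr

theorem IsKPow.of_pow_self {h : LaurentSeries k} (hh : h ∈ Fk) (hh0 : h ≠ 0) :
    IsKPow Fk n (h ^ n) :=
  ⟨1, h, one_ne_zero, hh, hh0, by rw [map_one, one_mul]⟩

theorem IsKPow.const {κ : k} (hκ : κ ≠ 0) : IsKPow Fk n (algebraMap k (LaurentSeries k) κ) :=
  ⟨κ, 1, hκ, one_mem _, one_ne_zero, by rw [one_pow, mul_one]⟩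

theorem IsKPow.mono {Fk' : IntermediateField k (LaurentSeries k)} (hle : Fk ≤ Fk')
    (hr : IsKPow Fk n r) : IsKPow Fk' n r := by
  obtain ⟨κ, h, hκ, hh, hh0, rfl⟩ := hr
  exact ⟨κ, h, hκ, hle hh, hh0, rfl⟩

end IsKPow

variable {N : ℕ} [NeZero N] {A : ValuationSubring Qb}

/-- a constant in the Gauss ring with nonzero residue: the residue is a nonzero constant. -/
theorem exists_residue_of_const {e : Qb}
    {ρ : LaurentSeries (IsLocalRing.ResidueField A)}
    (hmem : algebraMap Qb (LaurentSeries Qb) e ∈ gaussSub A (modularFunctionFieldBar N))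
    (hres : gaussResFun A (modularFunctionFieldBar N) (algebraMap Qb (LaurentSeries Qb) e) = ρ)
    (hρ : ρ ≠ 0) :
    ∃ κ : IsLocalRing.ResidueField A, κ ≠ 0 ∧
      ρ = algebraMap (IsLocalRing.ResidueField A) (LaurentSeries (IsLocalRing.ResidueField A)) κ := by
  have he : e ∈ A := algebraMap_mem_gaussSub_iff.mp hmem
  rw [gaussResFun_algebraMap he] at hres
  refine ⟨IsLocalRing.residue A ⟨e, he⟩, ?_, hres.symm⟩
  intro h0
  apply hρ
  rw [← hres, h0, map_zero]

/-- **Key lemma.**  If `x = a uⁿ` has residue `ρ ≠ 0` for the valuation `v_∞ ∘ ψ` of `F_N` and the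
residues of `F_N` lie in `Fk`, then `ρ` is a constant times an `n`-th power in `Fk`. -/
theorem isKPow_of_redAt_isCPow {ℓ : ℕ} (hℓ : ℓ.Prime) (hA : A.LiesOverPrime ℓ)
    (Fk : IntermediateField (IsLocalRing.ResidueField A)
      (LaurentSeries (IsLocalRing.ResidueField A)))
    (hFk : ∀ f ∈ gaussSub A (modularFunctionFieldBar N),
      gaussResFun A (modularFunctionFieldBar N) f ∈ Fk)
    (ψ : FBar N ≃ₐ[Qb] FBar N) {n : ℕ} {x : FBar N}
    {ρ : LaurentSeries (IsLocalRing.ResidueField A)}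
    (hx : IsCPow n x) (hred : RedAt A ψ x ρ) (hρ : ρ ≠ 0) : IsKPow Fk n ρ := by
  obtain ⟨u, a, ha, rfl⟩ := hx
  have hx0 : algebraMap Qb (FBar N) a * u ^ n ≠ 0 := hred.ne_zero hρ
  obtain ⟨u', hu0, hxu⟩ : ∃ u' : FBar N, u' ≠ 0 ∧
      algebraMap Qb (FBar N) a * u ^ n = algebraMap Qb (FBar N) a * u' ^ n := by
    by_cases h : u = 0
    · subst h
      rcases Nat.eq_zero_or_pos n with hn | hn
      · subst hn
        exact ⟨1, one_ne_zero, by rw [pow_zero, pow_zero]⟩
      · exact absurd (by rw [zero_pow hn.ne', mul_zero]) hx0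
    · exact ⟨u, h, rfl⟩
  rw [hxu] at hred hx0
  clear hxu u
  obtain ⟨u, hu0⟩ : ∃ u : FBar N, u = u' ∧ u ≠ 0 := ⟨u', rfl, hu0⟩
  obtain ⟨rfl, hu0⟩ := hu0
  obtain ⟨d, hd0, s, hs0, hds⟩ := exists_scale_redAt hℓ hA ψ hu0
  have hpow : RedAt A ψ ((algebraMap Qb (FBar N) d * u) ^ n) (s ^ n) := hds.pow n
  have hsn : s ^ n ≠ 0 := pow_ne_zero _ hs0
  have hdiv := hred.div hpow hsn
  have hquot : algebraMap Qb (FBar N) a * u ^ n / (algebraMap Qb (FBar N) d * u) ^ n =
      algebraMap Qb (FBar N) (a / d ^ n) := by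
    rw [mul_pow, map_div₀, map_pow]
    have h1 : algebraMap Qb (FBar N) d ≠ 0 := by simpa using hd0
    have h2 : u ^ n ≠ 0 := pow_ne_zero _ hu0
    field_simp
  rw [hquot] at hdiv
  have hcoe : ((ψ (algebraMap Qb (FBar N) (a / d ^ n)) : FBar N) : LaurentSeries Qb) =
      algebraMap Qb (LaurentSeries Qb) (a / d ^ n) := by
    rw [AlgEquiv.commutes]
    rfl
  obtain ⟨hm, hr⟩ := hdiv
  rw [hcoe] at hm hr
  obtain ⟨κ, hκ, hκeq⟩ := exists_residue_of_const hm hr (div_ne_zero hρ hsn)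
  have hsFk : s ∈ Fk := by
    have h1 := hFk _ hds.1
    rw [hds.2] at h1
    exact h1
  refine ⟨κ, s, hκ, hsFk, hs0, ?_⟩
  rw [← hκeq, div_mul_cancel₀ _ hsn]

/-! ### the inverse Frobenius -/

section Frob

variable (k : Type*) [Field k] (R : ℕ) (q : ℕ) [Fact q.Prime] [CharP k q] [PerfectRing k q]

/-- `F_k(R)` is stable under the inverse of the coefficientwise Frobenius. -/
theorem exists_frob_preimage {h : LaurentSeries k} (hh : h ∈ modularFunctionFieldFullC k R) :
    ∃ h' ∈ modularFunctionFieldFullC k R, coeffMap (frobenius k q) h' = h := by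
  refine ⟨(((frobAut k R q)⁻¹ • (⟨h, hh⟩ : modularFunctionFieldFullC k R) :
    modularFunctionFieldFullC k R) : LaurentSeries k), SetLike.coe_mem _, ?_⟩
  rw [← coe_frobAut_smul, smul_inv_smul]

/-- `IsKPow` descends along the coefficientwise Frobenius. -/
theorem isKPow_of_frob {n : ℕ} {r : LaurentSeries k}
    (h : IsKPow (modularFunctionFieldFullC k R) n (coeffMap (frobenius k q) r)) :
    IsKPow (modularFunctionFieldFullC k R) n r := by
  obtain ⟨κ, h, hκ, hh, hh0, heq⟩ := h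
  obtain ⟨h', hh', hfrob⟩ := exists_frob_preimage k R q hh
  obtain ⟨κ', hκ'⟩ : ∃ κ' : k, κ' ^ q = κ :=
    ⟨(frobeniusEquiv k q).symm κ, frobeniusEquiv_symm_pow_p k q κ⟩
  have hinj : Function.Injective (coeffMap (frobenius k q)) :=
    coeffMap_injective_of_injective _ (frobenius k q).injective
  refine ⟨κ', h', ?_, hh', ?_, ?_⟩
  · rintro rfl
    apply hκ
    rw [← hκ', zero_pow (Fact.out : q.Prime).ne_zero]
  · rintro rfl
    apply hh0
    rw [← hfrob, map_zero]
  · apply hinj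
    rw [heq, map_mul, map_pow, hfrob]
    congr 1
    rw [algebraMap_laurentSeries_eq_single, algebraMap_laurentSeries_eq_single, coeffMap_single,
      frobenius_def, hκ']

end Frob

/-! ### Step 1 at the vertices `∞` and `0` -/

section Step1

variable {ℓ : ℕ} [NeZero ℓ]

/-- the residues of the Gauss ring of `F_{qR}` lie in `F_k(R)` (T, MA1). -/
theorem gaussResFun_mem_fullC_of_data (D₁ : ALData) [NeZero D₁.R] (hN : N = D₁.Q * D₁.R)
    (hQ : D₁.Q.Prime) (hQR : ¬ D₁.Q ∣ D₁.R) (hA : A.LiesOverPrime D₁.Q) :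
    ∀ f ∈ gaussSub A (modularFunctionFieldBar N),
      gaussResFun A (modularFunctionFieldBar N) f ∈
        modularFunctionFieldFullC (IsLocalRing.ResidueField A) D₁.R := by
  subst hN
  intro f hf
  have hS := isGaussSetup_gaussSetupBad D₁ hQ hQR A hA
  have hfF : f ∈ modularFunctionFieldBar (D₁.Q * D₁.R) := mem_of_mem_gaussSub hf
  have hmem : (⟨f, hfF⟩ : FBar (D₁.Q * D₁.R)) ∈ (gaussSetupBad D₁ hQ hQR A hA).Ov :=
    (hS.mem_iff ⟨f, hfF⟩).mpr hf
  have h := hS.coe_red ⟨f, hfF⟩ hmem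
  rw [← h]
  exact SetLike.coe_mem _

/-- **Step 1 at `∞`**: `π₂_* x = 0` kills the class of the residue of `g` at `v_∞`. -/
theorem step1_inf [Fact ℓ.Prime] [CharP (IsLocalRing.ResidueField A) ℓ]
    [PerfectRing (IsLocalRing.ResidueField A) ℓ]
    (hA : A.LiesOverPrime ℓ) (D₁ D₂ : ALData) [NeZero D₁.R] (hQ₁ : D₁.Q = ℓ)
    (hQR : ¬ ℓ ∣ D₁.R)
    (hQ : D₂.Q = D₁.Q * ℓ) (hR : D₂.R = D₁.R) (hN : N = D₁.Q * D₁.R)
    (hNℓ : N * ℓ = D₂.Q * D₂.R) {n : ℕ} {g : FBar (N * ℓ)}
    {r : LaurentSeries (IsLocalRing.ResidueField A)}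
    (hnorm : IsCPow n (normAlong (heckeAlphaBar Qb N ℓ) (wAt D₂ hNℓ g)))
    (hg : RedAt A (AlgEquiv.refl : FBar (N * ℓ) ≃ₐ[Qb] FBar (N * ℓ)) g r) (hr : r ≠ 0) :
    IsKPow (modularFunctionFieldFullC (IsLocalRing.ResidueField A) D₁.R) n r := by
  have hℓ : ℓ.Prime := Fact.out
  have hℓN : ℓ ∣ N := by rw [hN, hQ₁]; exact dvd_mul_right ℓ D₁.R
  have hred := redAt_norm_alpha_W hA hℓN D₁ D₂ hQ hR hN hNℓ hg hr
  have hinj : Function.Injective (coeffMap (frobenius (IsLocalRing.ResidueField A) ℓ)) :=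
    coeffMap_injective_of_injective _ (frobenius (IsLocalRing.ResidueField A) ℓ).injective
  have hρ : coeffMap (frobenius (IsLocalRing.ResidueField A) ℓ) r ≠ 0 := fun h0 =>
    hr (hinj (by rw [h0, map_zero]))
  have hFk := gaussResFun_mem_fullC_of_data (N := N) (A := A) D₁ hN (hQ₁ ▸ hℓ)
    (by rw [hQ₁]; exact hQR) (by rw [hQ₁]; exact hA)
  exact isKPow_of_frob _ D₁.R ℓ
    (isKPow_of_redAt_isCPow hℓ hA _ hFk (wAt D₁ hN) hnorm hred hρ)

/-- **Step 1 at `0`**: `π₁_* x = 0` kills the class of the residue of `g` at `v_0 = v_∞ ∘ W₂`. -/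
theorem step1_zero [Fact ℓ.Prime] [CharP (IsLocalRing.ResidueField A) ℓ]
    [PerfectRing (IsLocalRing.ResidueField A) ℓ]
    (hA : A.LiesOverPrime ℓ) (D₁ D₂ : ALData) [NeZero D₁.R] (hQ₁ : D₁.Q = ℓ)
    (hQR : ¬ ℓ ∣ D₁.R)
    (hQ : D₂.Q = D₁.Q * ℓ) (hR : D₂.R = D₁.R) (hN : N = D₁.Q * D₁.R)
    (hNℓ : N * ℓ = D₂.Q * D₂.R) {n : ℕ} {g : FBar (N * ℓ)}
    {r : LaurentSeries (IsLocalRing.ResidueField A)}
    (hnorm : IsCPow n (normAlong (heckeAlphaBar Qb N ℓ) g))
    (hg : RedAt A (wAt D₂ hNℓ) g r) (hr : r ≠ 0) :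
    IsKPow (modularFunctionFieldFullC (IsLocalRing.ResidueField A) D₁.R) n r := by
  have hℓ : ℓ.Prime := Fact.out
  have hℓN : ℓ ∣ N := by rw [hN, hQ₁]; exact dvd_mul_right ℓ D₁.R
  have hred := redAt_norm_alpha hA hℓN D₁ D₂ hQ hR hN hNℓ hg hr
  have hinj : Function.Injective (coeffMap (frobenius (IsLocalRing.ResidueField A) ℓ)) :=
    coeffMap_injective_of_injective _ (frobenius (IsLocalRing.ResidueField A) ℓ).injective
  have hρ : coeffMap (frobenius (IsLocalRing.ResidueField A) ℓ) r ≠ 0 := fun h0 =>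
    hr (hinj (by rw [h0, map_zero]))
  have hFk := gaussResFun_mem_fullC_of_data (N := N) (A := A) D₁ hN (hQ₁ ▸ hℓ)
    (by rw [hQ₁]; exact hQR) (by rw [hQ₁]; exact hA)
  exact isKPow_of_frob _ D₁.R ℓ
    (isKPow_of_redAt_isCPow hℓ hA _ hFk (wAt D₁ hN) hnorm hred hρ)

end Step1

end Fermat.Agent.S36N
end
end MergeWrap_S36_Step1_Vert

section MergeWrap_S36_Norm_MidInert -- from S36/Norm/MidInert.lean

set_option autoImplicit false
set_option linter.style.haveILetI false

noncomputable section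

namespace Fermat.Agent.S36N

open ModularCurve AlgebraicCurve Fermat.Agent.GaussInt Fermat.Agent.Kronecker
  Fermat.Agent.S36G Fermat.Agent.S17.Pts

local notation "Qb" => AlgebraicClosure ℚ

variable {M₀ q : ℕ} [NeZero M₀] [NeZero q]

/-- **(2), `galFun` form**: the middle expansion attached to `σ z` of the conjugate function
`f^σ` is the coefficientwise conjugate of the middle expansion attached to `z` of `f`. -/
theorem isMidExp_galFun (hq : q.Prime) (σ : Qb ≃ₐ[ℚ] Qb) {z z' : Qbˣ}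
    (hz : (z' : Qb) = σ (z : Qb))
    {ε ε' : ↥(modularFunctionFieldBar (M₀ * q * q)) →ₐ[Qb] LaurentSeries Qb}
    (hε : IsMidExp M₀ q z ε) (hε' : IsMidExp M₀ q z' ε')
    (f : ↥(modularFunctionFieldBar (M₀ * q * q))) :
    ε' (galFun (M₀ * q * q) σ f) = coeffMap (σ : Qb →+* Qb) (ε f) := by
  have hT : igTwist σ ε' = ε :=
    igMidExpUnique M₀ q hq z _ _ (isMidExp_igTwist σ hz hε') hε
  have h := congrArg (fun e => coeffMap (σ : Qb →+* Qb) (e f)) hT
  simp only [igTwist_apply, igGal_coeffMap_symm'] at h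
  exact h

/-- **(2), `galFun` form**: `f ∈ O_z ↔ f^σ ∈ O_{σ z}` for `σ` preserving `A`. -/
theorem mem_expOv_galFun_iff (hq : q.Prime) (A : ValuationSubring Qb) (σ : Qb ≃ₐ[ℚ] Qb)
    (hσ : ∀ c : Qb, c ∈ A ↔ σ c ∈ A) {z z' : Qbˣ} (hz : (z' : Qb) = σ (z : Qb))
    {ε ε' : ↥(modularFunctionFieldBar (M₀ * q * q)) →ₐ[Qb] LaurentSeries Qb}
    (hε : IsMidExp M₀ q z ε) (hε' : IsMidExp M₀ q z' ε')
    (f : ↥(modularFunctionFieldBar (M₀ * q * q))) :
    f ∈ expOv ε A ↔ galFun (M₀ * q * q) σ f ∈ expOv ε' A := by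
  rw [mem_expOv_iff, mem_expOv_iff, isMidExp_galFun hq σ hz hε hε' f]
  exact igGal_mem_gaussSub_iff A σ hσ (ε f)

/-- **(3) INERTIA**: for `σ` in the inertia group at `A`, `f ∈ O_z ⟹ f^σ ∈ O_{σ z}` and the
residues agree: `res_{σ z} (f^σ) = res_z f`. -/
theorem expRes_galFun_of_inertia (hq : q.Prime) (A : ValuationSubring Qb) (σ : Qb ≃ₐ[ℚ] Qb)
    (hσ : σ ∈ A.inertiaSubgroupIn ℚ) {z z' : Qbˣ} (hz : (z' : Qb) = σ (z : Qb))
    {ε ε' : ↥(modularFunctionFieldBar (M₀ * q * q)) →ₐ[Qb] LaurentSeries Qb}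
    (hε : IsMidExp M₀ q z ε) (hε' : IsMidExp M₀ q z' ε')
    {f : ↥(modularFunctionFieldBar (M₀ * q * q))} (hf : f ∈ expOv ε A) :
    galFun (M₀ * q * q) σ f ∈ expOv ε' A ∧
      expRes ε' A (galFun (M₀ * q * q) σ f) = expRes ε A f := by
  have hF : ∀ y ∈ (⊤ : IntermediateField Qb (LaurentSeries Qb)),
      coeffMap (σ : Qb →+* Qb) y ∈ (⊤ : IntermediateField Qb (LaurentSeries Qb)) :=
    fun _ _ => IntermediateField.mem_top
  have hf' : ε f ∈ gaussSub A (⊤ : IntermediateField Qb (LaurentSeries Qb)) := hf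
  refine ⟨?_, ?_⟩
  · rw [mem_expOv_iff, isMidExp_galFun hq σ hz hε hε' f]
    exact coeffMap_mem_gaussSub_of_inertia σ hσ hF hf'
  · unfold expRes
    rw [isMidExp_galFun hq σ hz hε hε' f]
    exact gaussResFun_inertia σ hσ hF hf'

/-- **(3') DECOMPOSITION GROUP**: for `σ` in the decomposition group at `A`,
`f ∈ O_z ⟹ f^σ ∈ O_{σ z}` and `res_{σ z} (f^σ) = σ̄ (res_z f)` coefficientwise. -/
theorem expRes_galFun_of_decomposition (hq : q.Prime) (A : ValuationSubring Qb)
    (σ : Qb ≃ₐ[ℚ] Qb) (hσ : σ ∈ A.decompositionSubgroup ℚ) {z z' : Qbˣ}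
    (hz : (z' : Qb) = σ (z : Qb))
    {ε ε' : ↥(modularFunctionFieldBar (M₀ * q * q)) →ₐ[Qb] LaurentSeries Qb}
    (hε : IsMidExp M₀ q z ε) (hε' : IsMidExp M₀ q z' ε')
    {f : ↥(modularFunctionFieldBar (M₀ * q * q))} (hf : f ∈ expOv ε A) :
    galFun (M₀ * q * q) σ f ∈ expOv ε' A ∧
      expRes ε' A (galFun (M₀ * q * q) σ f) =
        coeffMap (MulSemiringAction.toRingHom (A.decompositionSubgroup ℚ)
          (IsLocalRing.ResidueField A) ⟨σ, hσ⟩) (expRes ε A f) := by
  have hF : ∀ y ∈ (⊤ : IntermediateField Qb (LaurentSeries Qb)),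
      coeffMap (σ : Qb →+* Qb) y ∈ (⊤ : IntermediateField Qb (LaurentSeries Qb)) :=
    fun _ _ => IntermediateField.mem_top
  have hf' : ε f ∈ gaussSub A (⊤ : IntermediateField Qb (LaurentSeries Qb)) := hf
  have h := gaussResFun_decomposition σ hσ hF hf'
  refine ⟨?_, ?_⟩
  · rw [mem_expOv_iff, isMidExp_galFun hq σ hz hε hε' f]
    exact h.1
  · unfold expRes
    rw [isMidExp_galFun hq σ hz hε hε' f]
    exact h.2

/-- **(3), same root of unity**: if `σ` in the inertia group fixes `z` then `O_z` is stable under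
`f ↦ f^σ` and the residue map is invariant. -/
theorem expRes_galFun_of_inertia_fix (hq : q.Prime) (A : ValuationSubring Qb) (σ : Qb ≃ₐ[ℚ] Qb)
    (hσ : σ ∈ A.inertiaSubgroupIn ℚ) {z : Qbˣ} (hz : σ (z : Qb) = (z : Qb))
    {ε : ↥(modularFunctionFieldBar (M₀ * q * q)) →ₐ[Qb] LaurentSeries Qb}
    (hε : IsMidExp M₀ q z ε)
    {f : ↥(modularFunctionFieldBar (M₀ * q * q))} (hf : f ∈ expOv ε A) :
    galFun (M₀ * q * q) σ f ∈ expOv ε A ∧
      expRes ε A (galFun (M₀ * q * q) σ f) = expRes ε A f :=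
  expRes_galFun_of_inertia hq A σ hσ hz.symm hε hε hf

end Fermat.Agent.S36N
end
end MergeWrap_S36_Norm_MidInert

section MergeWrap_S36_Step1_Mid -- from S36/Step1/Mid.lean

set_option autoImplicit false
set_option linter.style.haveILetI false
set_option linter.unusedSectionVars false
set_option linter.unusedVariables false
set_option synthInstance.maxHeartbeats 400000

noncomputable section

namespace Fermat.Agent.S36N

open ModularCurve AlgebraicCurve Fermat.Agent.F3 Fermat.Agent.F3G Fermat.Agent.GaussInt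
  Fermat.Agent.AtkinLehner Fermat.Agent.Kronecker Fermat.Agent.BadRed Fermat.Agent.HeckeComm
  Fermat.Agent.S36G

local notation "Qb" => AlgebraicClosure ℚ

attribute [local instance 10000] SubalgebraClass.toAlgebra HahnSeries.powerSeriesAlgebra

/-! ### constants times `n`-th powers -/

section KPow

variable {k : Type*} [Field k] {Fk : IntermediateField k (LaurentSeries k)} {n : ℕ}

/-- finite products of constants times `n`-th powers. -/
theorem mid_isKPow_prod {ι : Type*} (t : Finset ι) (f : ι → LaurentSeries k)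
    (h : ∀ i ∈ t, IsKPow Fk n (f i)) : IsKPow Fk n (∏ i ∈ t, f i) := by
  classical
  induction t using Finset.induction_on with
  | empty =>
    rw [Finset.prod_empty]
    exact IsKPow.one
  | insert a t ha ih =>
    rw [Finset.prod_insert ha]
    exact (h a (Finset.mem_insert_self a t)).mul
      (ih fun i hi => h i (Finset.mem_insert_of_mem hi))

end KPow

/-! ### constants relating two units of a Gauss ring -/

section Gauss

variable {K : Type*} [Field K] {A : ValuationSubring K}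
  {F : IntermediateField K (LaurentSeries K)}

theorem mid_gaussResFun_mul {x y : LaurentSeries K}
    (hx : x ∈ gaussSub A F) (hy : y ∈ gaussSub A F) :
    gaussResFun A F (x * y) = gaussResFun A F x * gaussResFun A F y := by
  have h1 : gaussRes A F (⟨x, hx⟩ * ⟨y, hy⟩) = gaussRes A F ⟨x, hx⟩ * gaussRes A F ⟨y, hy⟩ :=
    map_mul _ _ _
  exact h1

theorem mid_gaussResFun_pow {x : LaurentSeries K} (hx : x ∈ gaussSub A F) (n : ℕ) :
    gaussResFun A F (x ^ n) = gaussResFun A F x ^ n := by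
  have h1 : gaussRes A F (⟨x, hx⟩ ^ n) = gaussRes A F ⟨x, hx⟩ ^ n := map_pow _ _ _
  exact h1

theorem mid_gaussResFun_zero : gaussResFun A F (0 : LaurentSeries K) = 0 :=
  map_zero (gaussRes A F)

/-- two units `x`, `y` of the Gauss ring with `y = C x`, `C` a constant: the residues differ by a
nonzero constant. -/
theorem mid_gaussResFun_const_rel {x y : LaurentSeries K} {C : K}
    (hx : x ∈ gaussSub A F) (hy : y ∈ gaussSub A F)
    (hxr : gaussResFun A F x ≠ 0) (hyr : gaussResFun A F y ≠ 0)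
    (h : y = algebraMap K (LaurentSeries K) C * x) :
    ∃ κ : IsLocalRing.ResidueField A, κ ≠ 0 ∧
      gaussResFun A F y =
        algebraMap (IsLocalRing.ResidueField A) (LaurentSeries (IsLocalRing.ResidueField A)) κ *
          gaussResFun A F x := by
  subst h
  have hxi := inv_mem_gaussSub hx hxr
  have hx0 : x ≠ 0 := by
    intro h0
    rw [h0] at hxr
    exact hxr mid_gaussResFun_zero
  have hC : algebraMap K (LaurentSeries K) C ∈ gaussSub A F := by
    have e : algebraMap K (LaurentSeries K) C = algebraMap K (LaurentSeries K) C * x * x⁻¹ := by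
      rw [mul_assoc, mul_inv_cancel₀ hx0, mul_one]
    rw [e]
    exact (gaussSub A F).mul_mem hy hxi
  have hCA : C ∈ A := algebraMap_mem_gaussSub_iff.mp hC
  have hmul := mid_gaussResFun_mul hC hx
  rw [gaussResFun_algebraMap hCA] at hmul
  refine ⟨IsLocalRing.residue A ⟨C, hCA⟩, ?_, hmul⟩
  intro h0
  rw [h0, map_zero, zero_mul] at hmul
  exact hyr hmul

/-- products in the Gauss ring. -/
theorem mid_gaussResFun_prod {ι : Type*} (t : Finset ι) (f : ι → LaurentSeries K)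
    (h : ∀ i ∈ t, f i ∈ gaussSub A F) :
    ∏ i ∈ t, f i ∈ gaussSub A F ∧
      gaussResFun A F (∏ i ∈ t, f i) = ∏ i ∈ t, gaussResFun A F (f i) := by
  classical
  induction t using Finset.induction_on with
  | empty =>
    rw [Finset.prod_empty, Finset.prod_empty]
    exact ⟨(gaussSub A F).one_mem, map_one (gaussRes A F)⟩
  | insert a t ha ih =>
    obtain ⟨h1, h2⟩ := ih fun i hi => h i (Finset.mem_insert_of_mem hi)
    have ha' := h a (Finset.mem_insert_self a t)
    rw [Finset.prod_insert ha, Finset.prod_insert ha]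
    exact ⟨(gaussSub A F).mul_mem ha' h1, by rw [mid_gaussResFun_mul ha' h1, h2]⟩

end Gauss

section Exp

variable {F : Type*} [Field F] [Algebra Qb F]
  (ε : F →ₐ[Qb] LaurentSeries Qb) (A : ValuationSubring Qb)

/-- two units `x`, `y` of `expOv ε A` with `y = C x`: the residues differ by a nonzero
constant. -/
theorem mid_expRes_const_rel {x y : F} {C : Qb}
    (hx : x ∈ expOv ε A) (hy : y ∈ expOv ε A)
    (hxr : expRes ε A x ≠ 0) (hyr : expRes ε A y ≠ 0)
    (h : y = algebraMap Qb F C * x) :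
    ∃ κ : IsLocalRing.ResidueField A, κ ≠ 0 ∧
      expRes ε A y =
        algebraMap (IsLocalRing.ResidueField A) (LaurentSeries (IsLocalRing.ResidueField A)) κ *
          expRes ε A x :=
  mid_gaussResFun_const_rel (F := (⊤ : IntermediateField Qb (LaurentSeries Qb))) hx hy hxr hyr
    (by rw [h, map_mul, AlgHom.commutes])

theorem mid_expRes_pow {x : F} (hx : x ∈ expOv ε A) (n : ℕ) :
    expRes ε A (x ^ n) = expRes ε A x ^ n :=
  map_pow (expResHom ε A) ⟨x, hx⟩ n

/-- a unit of `expOv ε A` has nonzero residue. -/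
theorem mid_expRes_ne_zero_of_inv_mem {x : F} (hx0 : x ≠ 0) (hx : x ∈ expOv ε A)
    (hxi : x⁻¹ ∈ expOv ε A) : expRes ε A x ≠ 0 := by
  intro h0
  have h := expRes_mul ε A hx hxi
  rw [mul_inv_cancel₀ hx0, expRes_one, h0, zero_mul] at h
  exact one_ne_zero h

end Exp

/-- replace the root `u` of a nonzero `n`-th power by a nonzero root. -/
theorem mid_exists_ne_zero_root {F : Type*} [Field F] (u : F) (n : ℕ) (h : u ^ n ≠ 0) :
    ∃ u' : F, u' ≠ 0 ∧ u' ^ n = u ^ n := by
  by_cases hu : u = 0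
  · subst hu
    by_cases hn : n = 0
    · subst hn
      exact ⟨1, one_ne_zero, by rw [pow_zero, pow_zero]⟩
    · exact absurd (zero_pow hn) h
  · exact ⟨u, hu, rfl⟩

/-! ### the middle vertices -/

section Mid

variable {M₀ q : ℕ} [NeZero M₀] [NeZero q]

/-- scaling to a unit of a middle valuation (`IgScale`), with its residue (`IgResUpper`). -/
theorem mid_exists_unit (hq : q.Prime) (hqM : ¬ q ∣ M₀) (A : ValuationSubring Qb)
    (hA : A.LiesOverPrime q) (hscale : IgScale M₀ q) (hupper : IgResUpper M₀ q) {z : Qbˣ}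
    {ε : FBar (M₀ * q * q) →ₐ[Qb] LaurentSeries Qb} (hz : IsPrimitiveRoot z q)
    (hε : IsMidExp M₀ q z ε) {f : FBar (M₀ * q * q)} (hf : f ≠ 0) :
    ∃ c : Qb, c ≠ 0 ∧ algebraMap Qb (FBar (M₀ * q * q)) c * f ∈ expOv ε A ∧
      expRes ε A (algebraMap Qb (FBar (M₀ * q * q)) c * f) ≠ 0 ∧
      expRes ε A (algebraMap Qb (FBar (M₀ * q * q)) c * f) ∈
        igField (IsLocalRing.ResidueField A) M₀ := by
  obtain ⟨c, hc, h1, h2⟩ := hscale hq hqM A hA z ε hz hε f hf
  have hne : f * (algebraMap Qb (FBar (M₀ * q * q)) c)⁻¹ ≠ 0 :=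
    mul_ne_zero hf (inv_ne_zero ((map_ne_zero _).mpr hc))
  have e : algebraMap Qb (FBar (M₀ * q * q)) c⁻¹ * f =
      f * (algebraMap Qb (FBar (M₀ * q * q)) c)⁻¹ := by
    rw [map_inv₀]
    exact mul_comm _ _
  refine ⟨c⁻¹, inv_ne_zero hc, ?_, ?_, ?_⟩
  · rw [e]
    exact h1
  · rw [e]
    exact mid_expRes_ne_zero_of_inv_mem ε A hne h1 h2
  · rw [e]
    exact hupper hq hqM A hA z ε hz hε _ h1

/-- **INERTIA**: the residues of (scalings of) `g` at two middle expansions agree modulo constants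
and `n`-th powers, if the class of `g` is fixed by the inertia group. -/
theorem mid_inertia_rel (hq : q.Prime) (hqM : ¬ q ∣ M₀) (A : ValuationSubring Qb)
    (hA : A.LiesOverPrime q) (hscale : IgScale M₀ q) (hupper : IgResUpper M₀ q)
    {z z' : Qbˣ} (hz : IsPrimitiveRoot z q) (hz' : IsPrimitiveRoot z' q)
    {ε ε' : FBar (M₀ * q * q) →ₐ[Qb] LaurentSeries Qb}
    (hε : IsMidExp M₀ q z ε) (hε' : IsMidExp M₀ q z' ε')
    {n : ℕ} {g : FBar (M₀ * q * q)} (hg : g ≠ 0) (hfix : InertiaFixedFun (M₀ * q * q) A n g)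
    {c c' : Qb} (hc : c ≠ 0) (hc' : c' ≠ 0)
    (hmem : algebraMap Qb (FBar (M₀ * q * q)) c * g ∈ expOv ε A)
    (hres : expRes ε A (algebraMap Qb (FBar (M₀ * q * q)) c * g) ≠ 0)
    (hmem' : algebraMap Qb (FBar (M₀ * q * q)) c' * g ∈ expOv ε' A)
    (hres' : expRes ε' A (algebraMap Qb (FBar (M₀ * q * q)) c' * g) ≠ 0) :
    IsKPow (igField (IsLocalRing.ResidueField A) M₀) n
      (expRes ε A (algebraMap Qb (FBar (M₀ * q * q)) c * g) /
        expRes ε' A (algebraMap Qb (FBar (M₀ * q * q)) c' * g)) := by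
  haveI : Fact q.Prime := ⟨hq⟩
  have hzQ : IsPrimitiveRoot (z : Qb) q := IsPrimitiveRoot.coe_units_iff.mpr hz
  have hz'Q : IsPrimitiveRoot (z' : Qb) q := IsPrimitiveRoot.coe_units_iff.mpr hz'
  obtain ⟨i, hi, hpow⟩ := hzQ.eq_pow_of_pow_eq_one hz'Q.pow_eq_one
  have hqi : ¬ q ∣ i := by
    intro hd
    have hi0 : i = 0 := Nat.eq_zero_of_dvd_of_lt hd hi
    rw [hi0, pow_zero] at hpow
    exact hz'Q.ne_one hq.one_lt hpow.symm
  obtain ⟨τ, hτ, hτpow⟩ := inert_exists_pow_on_roots q A hA i hqi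
  have hzz : (z' : Qb) = τ (z : Qb) := by rw [hτpow _ hzQ.pow_eq_one, hpow]
  obtain ⟨hm0, hr0⟩ := expRes_galFun_of_inertia hq A τ hτ hzz hε hε' hmem
  have hm : galFun (M₀ * q * q) τ (algebraMap Qb (FBar (M₀ * q * q)) c * g) ∈ expOv ε' A := hm0
  have hr : expRes ε' A (galFun (M₀ * q * q) τ (algebraMap Qb (FBar (M₀ * q * q)) c * g)) =
      expRes ε A (algebraMap Qb (FBar (M₀ * q * q)) c * g) := hr0
  obtain ⟨u, a, ha, hu⟩ := hfix τ hτ
  have hun : u ^ n ≠ 0 := by
    intro h0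
    rw [h0, mul_zero, zero_mul] at hu
    exact galFun_ne_zero τ hg hu
  obtain ⟨u', hu'0, hu'⟩ := mid_exists_ne_zero_root u n hun
  obtain ⟨d, hd, hdm, hdr, hdF⟩ := mid_exists_unit hq hqM A hA hscale hupper hz' hε' hu'0
  have hvn : (algebraMap Qb (FBar (M₀ * q * q)) d * u') ^ n ∈ expOv ε' A :=
    (expOv ε' A).pow_mem hdm n
  have hX : (algebraMap Qb (FBar (M₀ * q * q)) d * u') ^ n *
      (algebraMap Qb (FBar (M₀ * q * q)) c' * g) ∈ expOv ε' A :=
    (expOv ε' A).mul_mem hvn hmem'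
  have hXr : expRes ε' A ((algebraMap Qb (FBar (M₀ * q * q)) d * u') ^ n *
      (algebraMap Qb (FBar (M₀ * q * q)) c' * g)) =
      expRes ε' A (algebraMap Qb (FBar (M₀ * q * q)) d * u') ^ n *
        expRes ε' A (algebraMap Qb (FBar (M₀ * q * q)) c' * g) := by
    rw [expRes_mul ε' A hvn hmem', mid_expRes_pow ε' A hdm]
  have hXr0 : expRes ε' A ((algebraMap Qb (FBar (M₀ * q * q)) d * u') ^ n *
      (algebraMap Qb (FBar (M₀ * q * q)) c' * g)) ≠ 0 := by
    rw [hXr]
    exact mul_ne_zero (pow_ne_zero n hdr) hres'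
  have hY : galFun (M₀ * q * q) τ (algebraMap Qb (FBar (M₀ * q * q)) c * g) =
      algebraMap Qb (FBar (M₀ * q * q)) (τ c * a * (d ^ n)⁻¹ * c'⁻¹) *
        ((algebraMap Qb (FBar (M₀ * q * q)) d * u') ^ n *
          (algebraMap Qb (FBar (M₀ * q * q)) c' * g)) := by
    rw [galFun_cst_mul, hu, ← hu']
    have hd' : algebraMap Qb (FBar (M₀ * q * q)) d ≠ 0 := (map_ne_zero _).mpr hd
    have hc'' : algebraMap Qb (FBar (M₀ * q * q)) c' ≠ 0 := (map_ne_zero _).mpr hc'
    simp only [map_mul, map_pow, map_inv₀, mul_pow]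
    field_simp
  have hYr0 : expRes ε' A (galFun (M₀ * q * q) τ
      (algebraMap Qb (FBar (M₀ * q * q)) c * g)) ≠ 0 := by
    rw [hr]
    exact hres
  obtain ⟨κ, hκ, hrel⟩ := mid_expRes_const_rel ε' A hX hm hXr0 hYr0 hY
  rw [hr, hXr] at hrel
  have e : expRes ε A (algebraMap Qb (FBar (M₀ * q * q)) c * g) /
      expRes ε' A (algebraMap Qb (FBar (M₀ * q * q)) c' * g) =
      algebraMap (IsLocalRing.ResidueField A) (LaurentSeries (IsLocalRing.ResidueField A)) κ *
        expRes ε' A (algebraMap Qb (FBar (M₀ * q * q)) d * u') ^ n := by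
    rw [hrel, ← mul_assoc, mul_div_assoc, div_self hres', mul_one]
  rw [e]
  exact (IsKPow.const hκ).mul (IsKPow.of_pow_self hdF hdr)

/-- **NORM**: the product of the residues of (scalings of) `g` at the middle expansions is a
constant times an `n`-th power in `k(Z)`, if `Norm_α g` is a constant times an `n`-th power and the
residue at `v_∞` is. -/
theorem mid_norm_rel (hq : q.Prime) (hqM : ¬ q ∣ M₀) (A : ValuationSubring Qb)
    (hA : A.LiesOverPrime q) (ζ : Qbˣ) (hζ : IsPrimitiveRoot ζ q)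
    (ε : Fin (q - 1) → (FBar (M₀ * q * q) →ₐ[Qb] LaurentSeries Qb))
    (hε : ∀ b : Fin (q - 1), IsMidExp M₀ q (ζ ^ ((b : ℕ) + 1)) (ε b))
    {n : ℕ} {g : FBar (M₀ * q * q)} (hg : g ≠ 0)
    (hnorm : IsCPow n (normAlong (heckeAlphaBar Qb (M₀ * q) q) g))
    (hinf : ∀ c : Qb, c ≠ 0 → ∀ r : LaurentSeries (IsLocalRing.ResidueField A), r ≠ 0 →
      RedAt A (AlgEquiv.refl : FBar (M₀ * q * q) ≃ₐ[Qb] FBar (M₀ * q * q))
        (algebraMap Qb (FBar (M₀ * q * q)) c * g) r →
      IsKPow (modularFunctionFieldFullC (IsLocalRing.ResidueField A) M₀) n r)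
    (c' : Fin (q - 1) → Qb) (hc' : ∀ b, c' b ≠ 0)
    (hmem' : ∀ b, algebraMap Qb (FBar (M₀ * q * q)) (c' b) * g ∈ expOv (ε b) A)
    (hres' : ∀ b, expRes (ε b) A (algebraMap Qb (FBar (M₀ * q * q)) (c' b) * g) ≠ 0) :
    IsKPow (modularFunctionFieldFullC (IsLocalRing.ResidueField A) M₀) n
      (∏ b, expRes (ε b) A (algebraMap Qb (FBar (M₀ * q * q)) (c' b) * g)) := by
  -- the vertex `∞`
  obtain ⟨cI, hcI, rI, hrI, hred⟩ :=
    exists_scale_redAt (N := M₀ * q * q) hq hA
      (AlgEquiv.refl : FBar (M₀ * q * q) ≃ₐ[Qb] FBar (M₀ * q * q)) hg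
  have hKI := hinf cI hcI rI hrI hred
  obtain ⟨hred1, hred2⟩ := hred
  have hred1' : ((algebraMap Qb (FBar (M₀ * q * q)) cI * g : FBar (M₀ * q * q)) :
      LaurentSeries Qb) ∈ gaussSub A (modularFunctionFieldBar (M₀ * q * q)) := hred1
  have hred2' : gaussResFun A (modularFunctionFieldBar (M₀ * q * q))
      ((algebraMap Qb (FBar (M₀ * q * q)) cI * g : FBar (M₀ * q * q)) : LaurentSeries Qb) = rI :=
    hred2
  have hXI : ((algebraMap Qb (FBar (M₀ * q * q)) cI * g : FBar (M₀ * q * q)) :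
      LaurentSeries Qb) ∈ gaussSub A (⊤ : IntermediateField Qb (LaurentSeries Qb)) :=
    gaussSub_mono le_top hred1'
  have hXIr : gaussResFun A (⊤ : IntermediateField Qb (LaurentSeries Qb))
      ((algebraMap Qb (FBar (M₀ * q * q)) cI * g : FBar (M₀ * q * q)) : LaurentSeries Qb) = rI := by
    rw [gaussResFun_mono le_top hred1', hred2']
  -- the norm
  obtain ⟨u, a, ha, hu⟩ := hnorm
  have hfin : FiniteAlong Qb (heckeAlphaBar Qb (M₀ * q) q) :=
    (finrank_alpha (N := M₀ * q) hq (dvd_mul_left q M₀)).1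
  have hN0 : normAlong (heckeAlphaBar Qb (M₀ * q) q) g ≠ 0 := normAlong_ne_zero _ hfin hg
  have hun : u ^ n ≠ 0 := by
    intro h0
    rw [h0, mul_zero] at hu
    exact hN0 hu
  obtain ⟨u', hu'0, hu'⟩ := mid_exists_ne_zero_root u n hun
  obtain ⟨d, hd, s, hs, hredu1, hredu2⟩ :=
    exists_scale_redAt (N := M₀ * q) hq hA
      (AlgEquiv.refl : FBar (M₀ * q) ≃ₐ[Qb] FBar (M₀ * q)) hu'0
  have hredu1' : ((algebraMap Qb (FBar (M₀ * q)) d * u' : FBar (M₀ * q)) :
      LaurentSeries Qb) ∈ gaussSub A (modularFunctionFieldBar (M₀ * q)) := hredu1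
  have hredu2' : gaussResFun A (modularFunctionFieldBar (M₀ * q))
      ((algebraMap Qb (FBar (M₀ * q)) d * u' : FBar (M₀ * q)) : LaurentSeries Qb) = s := hredu2
  have hsF : s ∈ modularFunctionFieldFullC (IsLocalRing.ResidueField A) M₀ := by
    rw [← hredu2']
    exact gaussResFun_mem_fullC_mul hq hqM A hA (modFactsAt M₀ q hq hqM A hA) _ hredu1'
  have hU : ((algebraMap Qb (FBar (M₀ * q)) d * u' : FBar (M₀ * q)) :
      LaurentSeries Qb) ∈ gaussSub A (⊤ : IntermediateField Qb (LaurentSeries Qb)) :=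
    gaussSub_mono le_top hredu1'
  have hUr : gaussResFun A (⊤ : IntermediateField Qb (LaurentSeries Qb))
      ((algebraMap Qb (FBar (M₀ * q)) d * u' : FBar (M₀ * q)) : LaurentSeries Qb) = s := by
    rw [gaussResFun_mono le_top hredu1', hredu2']
  -- the product over the middle expansions
  obtain ⟨hP, hPr⟩ := mid_gaussResFun_prod (A := A)
    (F := (⊤ : IntermediateField Qb (LaurentSeries Qb))) Finset.univ
    (fun b => ε b (algebraMap Qb (FBar (M₀ * q * q)) (c' b) * g)) (fun b _ => hmem' b)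
  -- the identity
  have hprod := norm_alpha_mid_expansion hq ζ hζ ε hε g
  rw [hu, ← hu'] at hprod
  have hprod' : algebraMap Qb (LaurentSeries Qb) a * ((u' : FBar (M₀ * q)) : LaurentSeries Qb) ^ n =
      (g : LaurentSeries Qb) * ∏ b : Fin (q - 1), ε b g := hprod
  have hid : ((algebraMap Qb (FBar (M₀ * q * q)) cI * g : FBar (M₀ * q * q)) : LaurentSeries Qb) *
      ∏ b, ε b (algebraMap Qb (FBar (M₀ * q * q)) (c' b) * g) =
      algebraMap Qb (LaurentSeries Qb) (cI * (∏ b, c' b) * a * (d ^ n)⁻¹) *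
        ((algebraMap Qb (FBar (M₀ * q)) d * u' : FBar (M₀ * q)) : LaurentSeries Qb) ^ n := by
    have e1 : ((algebraMap Qb (FBar (M₀ * q * q)) cI * g : FBar (M₀ * q * q)) :
        LaurentSeries Qb) = algebraMap Qb (LaurentSeries Qb) cI * (g : LaurentSeries Qb) := rfl
    have e2 : ((algebraMap Qb (FBar (M₀ * q)) d * u' : FBar (M₀ * q)) : LaurentSeries Qb) =
        algebraMap Qb (LaurentSeries Qb) d * ((u' : FBar (M₀ * q)) : LaurentSeries Qb) := rfl
    have e3 : ∏ b, ε b (algebraMap Qb (FBar (M₀ * q * q)) (c' b) * g) =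
        algebraMap Qb (LaurentSeries Qb) (∏ b, c' b) * ∏ b, ε b g := by
      rw [map_prod, ← Finset.prod_mul_distrib]
      exact Finset.prod_congr rfl fun b _ => by rw [map_mul, AlgHom.commutes]
    have hd' : algebraMap Qb (LaurentSeries Qb) d ≠ 0 := (map_ne_zero _).mpr hd
    rw [e1, e2, e3]
    calc algebraMap Qb (LaurentSeries Qb) cI * (g : LaurentSeries Qb) *
          (algebraMap Qb (LaurentSeries Qb) (∏ b, c' b) * ∏ b, ε b g)
        = algebraMap Qb (LaurentSeries Qb) cI * algebraMap Qb (LaurentSeries Qb) (∏ b, c' b) *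
            ((g : LaurentSeries Qb) * ∏ b, ε b g) := by ring
      _ = algebraMap Qb (LaurentSeries Qb) cI * algebraMap Qb (LaurentSeries Qb) (∏ b, c' b) *
            (algebraMap Qb (LaurentSeries Qb) a *
              ((u' : FBar (M₀ * q)) : LaurentSeries Qb) ^ n) := by rw [hprod']
      _ = _ := by
        simp only [map_mul, map_inv₀, map_pow, mul_pow]
        field_simp
  have hUn : ((algebraMap Qb (FBar (M₀ * q)) d * u' : FBar (M₀ * q)) : LaurentSeries Qb) ^ n ∈
      gaussSub A (⊤ : IntermediateField Qb (LaurentSeries Qb)) :=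
    (gaussSub A (⊤ : IntermediateField Qb (LaurentSeries Qb))).pow_mem hU n
  have hUnr : gaussResFun A (⊤ : IntermediateField Qb (LaurentSeries Qb))
      (((algebraMap Qb (FBar (M₀ * q)) d * u' : FBar (M₀ * q)) : LaurentSeries Qb) ^ n) = s ^ n := by
    rw [mid_gaussResFun_pow hU, hUr]
  have hL := (gaussSub A (⊤ : IntermediateField Qb (LaurentSeries Qb))).mul_mem hXI hP
  have hLr : gaussResFun A (⊤ : IntermediateField Qb (LaurentSeries Qb))
      (((algebraMap Qb (FBar (M₀ * q * q)) cI * g : FBar (M₀ * q * q)) : LaurentSeries Qb) *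
        ∏ b, ε b (algebraMap Qb (FBar (M₀ * q * q)) (c' b) * g)) =
      rI * ∏ b, expRes (ε b) A (algebraMap Qb (FBar (M₀ * q * q)) (c' b) * g) := by
    rw [mid_gaussResFun_mul hXI hP, hXIr, hPr]
    rfl
  have hρ0 : (∏ b, expRes (ε b) A (algebraMap Qb (FBar (M₀ * q * q)) (c' b) * g)) ≠ 0 :=
    Finset.prod_ne_zero_iff.mpr fun b _ => hres' b
  obtain ⟨κ, hκ, hrel⟩ := mid_gaussResFun_const_rel hUn hL
    (by rw [hUnr]; exact pow_ne_zero n hs) (by rw [hLr]; exact mul_ne_zero hrI hρ0) hid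
  rw [hLr, hUnr] at hrel
  have e : (∏ b, expRes (ε b) A (algebraMap Qb (FBar (M₀ * q * q)) (c' b) * g)) =
      algebraMap (IsLocalRing.ResidueField A) (LaurentSeries (IsLocalRing.ResidueField A)) κ *
        s ^ n * rI⁻¹ := by
    rw [eq_mul_inv_iff_mul_eq₀ hrI, mul_comm]
    exact hrel
  rw [e]
  exact ((IsKPow.const hκ).mul (IsKPow.of_pow_self hsF hs)).mul hKI.inv

/-- **Step 1 at the middle vertices** (function form): the `(q - 1)`-st power of the residue of
`g` at a middle expansion is a constant times an `n`-th power in `igField k M₀`. -/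
theorem step1_mid (hq : q.Prime) (hqM : ¬ q ∣ M₀) (A : ValuationSubring Qb)
    (hA : A.LiesOverPrime q) (ζ : Qbˣ) (hζ : IsPrimitiveRoot ζ q)
    (ε : Fin (q - 1) → (FBar (M₀ * q * q) →ₐ[Qb] LaurentSeries Qb))
    (hε : ∀ b : Fin (q - 1), IsMidExp M₀ q (ζ ^ ((b : ℕ) + 1)) (ε b))
    (hscale : IgScale M₀ q) (hupper : IgResUpper M₀ q)
    {n : ℕ} {g : FBar (M₀ * q * q)} (hg : g ≠ 0)
    (hfix : InertiaFixedFun (M₀ * q * q) A n g)
    (hnorm : IsCPow n (normAlong (heckeAlphaBar Qb (M₀ * q) q) g))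
    (hinf : ∀ c : Qb, c ≠ 0 → ∀ r : LaurentSeries (IsLocalRing.ResidueField A), r ≠ 0 →
      RedAt A (AlgEquiv.refl : FBar (M₀ * q * q) ≃ₐ[Qb] FBar (M₀ * q * q))
        (algebraMap Qb (FBar (M₀ * q * q)) c * g) r →
      IsKPow (modularFunctionFieldFullC (IsLocalRing.ResidueField A) M₀) n r)
    (b : Fin (q - 1)) (c : Qb) (hc : c ≠ 0)
    (hmem : algebraMap Qb (FBar (M₀ * q * q)) c * g ∈ expOv (ε b) A)
    (hres : expRes (ε b) A (algebraMap Qb (FBar (M₀ * q * q)) c * g) ≠ 0) :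
    IsKPow (igField (IsLocalRing.ResidueField A) M₀) n
      (expRes (ε b) A (algebraMap Qb (FBar (M₀ * q * q)) c * g) ^ (q - 1)) := by
  have hprim : ∀ b' : Fin (q - 1), IsPrimitiveRoot (ζ ^ ((b' : ℕ) + 1)) q := by
    intro b'
    apply hζ.pow_of_coprime
    have hlt : (b' : ℕ) + 1 < q := by
      have := b'.2
      omega
    exact ((Nat.Prime.coprime_iff_not_dvd hq).mpr
      (Nat.not_dvd_of_pos_of_lt (Nat.succ_pos _) hlt)).symm
  have hex : ∀ b' : Fin (q - 1), ∃ c' : Qb, c' ≠ 0 ∧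
      algebraMap Qb (FBar (M₀ * q * q)) c' * g ∈ expOv (ε b') A ∧
      expRes (ε b') A (algebraMap Qb (FBar (M₀ * q * q)) c' * g) ≠ 0 := by
    intro b'
    obtain ⟨c', hc', h1, h2, -⟩ :=
      mid_exists_unit hq hqM A hA hscale hupper (hprim b') (hε b') hg
    exact ⟨c', hc', h1, h2⟩
  choose c' hc' hmem' hres' using hex
  have hN := mid_norm_rel hq hqM A hA ζ hζ ε hε hg hnorm hinf c' hc' hmem' hres'
  have hI := mid_isKPow_prod (Fk := igField (IsLocalRing.ResidueField A) M₀) (n := n) Finset.univ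
    (fun b' : Fin (q - 1) => expRes (ε b) A (algebraMap Qb (FBar (M₀ * q * q)) c * g) /
      expRes (ε b') A (algebraMap Qb (FBar (M₀ * q * q)) (c' b') * g))
    (fun b' _ => mid_inertia_rel hq hqM A hA hscale hupper (hprim b) (hprim b') (hε b) (hε b')
      hg hfix hc (hc' b') hmem hres (hmem' b') (hres' b'))
  have key : expRes (ε b) A (algebraMap Qb (FBar (M₀ * q * q)) c * g) ^ (q - 1) =
      (∏ b' : Fin (q - 1), expRes (ε b) A (algebraMap Qb (FBar (M₀ * q * q)) c * g) /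
        expRes (ε b') A (algebraMap Qb (FBar (M₀ * q * q)) (c' b') * g)) *
      ∏ b' : Fin (q - 1), expRes (ε b') A (algebraMap Qb (FBar (M₀ * q * q)) (c' b') * g) := by
    rw [← Finset.prod_mul_distrib,
      Finset.prod_congr rfl (fun b' _ => div_mul_cancel₀ _ (hres' b')),
      Finset.prod_const, Finset.card_univ, Fintype.card_fin]
  rw [key]
  exact hI.mul (hN.mono (fullC_le_igField _ M₀))

end Mid

end Fermat.Agent.S36N
end
end MergeWrap_S36_Step1_Mid

section MergeWrap_S36_G_Step1Abs -- from S36/G/Step1Abs.lean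

set_option autoImplicit false
set_option linter.unusedSectionVars false

/-!
# Cluster G (S36), Step 1 (vertical), ABSTRACT  (helper60)

`F / K` with constant reductions `S : ValSetup K F k Fk`.

* `IsCn n y`          : `y = c · hⁿ`, `c ∈ kˣ`, `h ≠ 0` (the trivial class of `Fkˣ / kˣ (Fkˣ)ⁿ`);
* `IsPowRes S n g`    : `red_S (g / a) = hⁿ` for some constant `a ≠ 0` and `h ≠ 0`
  (`= GraphSetup.IsPowAt`, for one valuation);
* `isPowRes_iff_isCn` : if `red_S (g / a) = y ≠ 0` then `IsPowRes S n g ↔ IsCn n y`;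
* `isPowRes_of_constPow` : `g = a uⁿ ⟹ IsPowRes S n g`;
* `IsPowRes.mul / .pow / .of_same_ring` : closure properties;
* `step1_frob`        : the `v_0` / `v_∞` part of Step 1: from a norm relation
  `red' (N y / c') = Φ (red (y / c))` with `Φ` a ring isomorphism of the residue fields which is
  onto on the constants (coefficientwise Frobenius), `N g = a uⁿ ⟹ IsPowRes S n g`;
* `step1_mid`         : the middle part: from the product formula (N2)
  `ι₁ red₁ (N y / c') = ι₀ red_∞ (y / c) · ∏_b red_b (y / c_b)`, the inertia group acting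
  transitively on the `|B|` middle residue maps, `IsPowRes S_∞ n g` and `N g = a uⁿ`:
  `IsPowRes (S_b) n (g ^ |B|)`.
-/

noncomputable section

namespace Fermat.Agent.S36G

open Fermat.Agent.Deuring

section Cn

variable {k Fk : Type*} [Field k] [Field Fk] [Algebra k Fk]

/-- `y` is a nonzero constant times an `n`-th power of a nonzero element. -/
def IsCn (k : Type*) {Fk : Type*} [Field k] [Field Fk] [Algebra k Fk] (n : ℕ) (y : Fk) : Prop :=
  ∃ c : k, c ≠ 0 ∧ ∃ h : Fk, h ≠ 0 ∧ y = algebraMap k Fk c * h ^ n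

theorem IsCn.ne_zero {n : ℕ} {y : Fk} (h : IsCn k n y) : y ≠ 0 := by
  obtain ⟨c, hc, u, hu, rfl⟩ := h
  exact mul_ne_zero ((map_ne_zero (algebraMap k Fk)).mpr hc) (pow_ne_zero n hu)

theorem isCn_one (n : ℕ) : IsCn k n (1 : Fk) :=
  ⟨1, one_ne_zero, 1, one_ne_zero, by rw [map_one, one_pow, one_mul]⟩

theorem IsCn.mul {n : ℕ} {y z : Fk} (hy : IsCn k n y) (hz : IsCn k n z) : IsCn k n (y * z) := by
  obtain ⟨c, hc, u, hu, rfl⟩ := hy
  obtain ⟨d, hd, v, hv, rfl⟩ := hz
  exact ⟨c * d, mul_ne_zero hc hd, u * v, mul_ne_zero hu hv, by rw [map_mul, mul_pow]; ring⟩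

theorem IsCn.inv {n : ℕ} {y : Fk} (hy : IsCn k n y) : IsCn k n y⁻¹ := by
  obtain ⟨c, hc, u, hu, rfl⟩ := hy
  exact ⟨c⁻¹, inv_ne_zero hc, u⁻¹, inv_ne_zero hu, by rw [map_inv₀, inv_pow, mul_inv]⟩

theorem IsCn.div {n : ℕ} {y z : Fk} (hy : IsCn k n y) (hz : IsCn k n z) : IsCn k n (y / z) := by
  rw [div_eq_mul_inv]
  exact hy.mul hz.inv

theorem IsCn.pow {n : ℕ} {y : Fk} (hy : IsCn k n y) (m : ℕ) : IsCn k n (y ^ m) := by
  obtain ⟨c, hc, u, hu, rfl⟩ := hy
  exact ⟨c ^ m, pow_ne_zero m hc, u ^ m, pow_ne_zero m hu, by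
    rw [map_pow, mul_pow, ← pow_mul, ← pow_mul, mul_comm n m]⟩

theorem IsCn.prod {n : ℕ} {ι : Type*} (s : Finset ι) (y : ι → Fk)
    (hy : ∀ i ∈ s, IsCn k n (y i)) : IsCn k n (∏ i ∈ s, y i) := by
  classical
  induction s using Finset.induction_on with
  | empty => rw [Finset.prod_empty]; exact isCn_one n
  | insert a s ha ih =>
    rw [Finset.prod_insert ha]
    exact (hy a (Finset.mem_insert_self a s)).mul
      (ih fun i hi => hy i (Finset.mem_insert_of_mem hi))

/-- `IsCn` is preserved by `k`-algebra homomorphisms. -/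
theorem IsCn.map {L : Type*} [Field L] [Algebra k L] (φ : Fk →ₐ[k] L) {n : ℕ} {y : Fk}
    (hy : IsCn k n y) : IsCn k n (φ y) := by
  obtain ⟨c, hc, u, hu, rfl⟩ := hy
  exact ⟨c, hc, φ u, (map_ne_zero φ.toRingHom).mpr hu, by
    rw [map_mul, map_pow, AlgHom.commutes]⟩

/-- `IsCn` is reflected by `k`-algebra isomorphisms. -/
theorem IsCn.of_map_equiv {L : Type*} [Field L] [Algebra k L] (φ : Fk ≃ₐ[k] L) {n : ℕ} {y : Fk}
    (hy : IsCn k n (φ y)) : IsCn k n y := by
  have h := hy.map (φ.symm : L →ₐ[k] Fk)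
  simpa using h

/-- `IsCn` is reflected by ring isomorphisms which are onto on the constants. -/
theorem IsCn.of_map_ringEquiv {L : Type*} [Field L] [Algebra k L] (Φ : Fk ≃+* L)
    (hΦ : ∀ c : k, ∃ c' : k, Φ.symm (algebraMap k L c) = algebraMap k Fk c') {n : ℕ} {y : Fk}
    (hy : IsCn k n (Φ y)) : IsCn k n y := by
  obtain ⟨c, hc, u, hu, hcu⟩ := hy
  obtain ⟨c', hc'⟩ := hΦ c
  have hy' : y = algebraMap k Fk c' * (Φ.symm u) ^ n := by
    have := congrArg Φ.symm hcu
    rw [RingEquiv.symm_apply_apply, map_mul, map_pow, hc'] at this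
    exact this
  refine ⟨c', ?_, Φ.symm u, (map_ne_zero Φ.symm.toRingHom).mpr hu, hy'⟩
  rintro rfl
  rw [map_zero] at hc'
  have : algebraMap k L c = 0 := by
    have h0 := congrArg Φ hc'
    rwa [RingEquiv.apply_symm_apply, map_zero] at h0
  exact hc ((map_eq_zero (algebraMap k L)).mp this)

end Cn

section PowRes

variable {K F k Fk : Type*} [Field K] [Field F] [Algebra K F] [Field k] [Field Fk]
  [Algebra k Fk]

/-- the Kummer generator `g` is, up to a constant, an `n`-th power in the residue field of `S`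
(`GraphSetup.IsPowAt` for one valuation). -/
def IsPowRes (S : ValSetup K F k Fk) (n : ℕ) (g : F) : Prop :=
  ∃ a : K, a ≠ 0 ∧ ∃ h : Fk, h ≠ 0 ∧ S.red (g / algebraMap K F a) = h ^ n

variable (S : ValSetup K F k Fk)

theorem sa_algebraMap_ne_zero {a : K} (ha : a ≠ 0) : algebraMap K F a ≠ 0 :=
  (map_ne_zero (algebraMap K F)).mpr ha

/-- scaling in division form. -/
theorem sa_exists_scale {g : F} (hg : g ≠ 0) :
    ∃ a : K, a ≠ 0 ∧ S.red (g / algebraMap K F a) ≠ 0 := by
  obtain ⟨c, hc, h1, h2⟩ := S.scale g hg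
  refine ⟨c, hc, ?_⟩
  rw [div_eq_mul_inv]
  exact S.red_ne_zero h1 h2 (mul_ne_zero hg (inv_ne_zero (sa_algebraMap_ne_zero hc)))

/-- a unit has a unit inverse. -/
theorem sa_red_mul {x y : F} (hx : S.red x ≠ 0) (hy : S.red y ≠ 0) :
    S.red (x * y) = S.red x * S.red y :=
  S.red_mul (S.mem_of_red_ne_zero hx) (S.mem_of_red_ne_zero hy)

theorem sa_red_inv {x : F} (hx : S.red x ≠ 0) : S.red x⁻¹ = (S.red x)⁻¹ :=
  S.red_inv (S.mem_of_red_ne_zero hx) (S.inv_mem_of_red_ne_zero hx)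
    (S.ne_zero_of_red_ne_zero hx)

theorem sa_red_inv_ne_zero {x : F} (hx : S.red x ≠ 0) : S.red x⁻¹ ≠ 0 := by
  rw [sa_red_inv S hx]
  exact inv_ne_zero hx

theorem sa_red_div {x y : F} (hx : S.red x ≠ 0) (hy : S.red y ≠ 0) :
    S.red (x / y) = S.red x / S.red y := by
  rw [div_eq_mul_inv, sa_red_mul S hx (sa_red_inv_ne_zero S hy), sa_red_inv S hy,
    div_eq_mul_inv]

theorem sa_red_pow {x : F} (hx : S.red x ≠ 0) (m : ℕ) : S.red (x ^ m) = S.red x ^ m :=
  S.red_pow (S.mem_of_red_ne_zero hx) m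

/-- the residue of a constant which is a unit of `Ov`. -/
theorem sa_red_const {a : K} (h : S.red (algebraMap K F a) ≠ 0) :
    ∃ c : k, c ≠ 0 ∧ S.red (algebraMap K F a) = algebraMap k Fk c := by
  have hmem : a ∈ S.A := (S.mem_Ov_iff a).mp (S.mem_of_red_ne_zero h)
  refine ⟨S.res ⟨a, hmem⟩, ?_, S.red_algebraMap hmem⟩
  intro h0
  rw [S.red_algebraMap hmem, h0, map_zero] at h
  exact h rfl

/-- every nonzero constant of `k` is the residue of a constant of `K`. -/
theorem sa_exists_lift {c : k} (hc : c ≠ 0) :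
    ∃ a : K, a ≠ 0 ∧ S.red (algebraMap K F a) = algebraMap k Fk c := by
  obtain ⟨a, ha⟩ := S.res_surj c
  refine ⟨a.1, ?_, ?_⟩
  · intro h0
    have h1 : a = 0 := Subtype.ext h0
    rw [h1, map_zero] at ha
    exact hc ha.symm
  · rw [S.red_algebraMap a.2]
    exact congrArg _ ha

/-- **the dictionary**: if `red (g / a) = y ≠ 0` then `IsPowRes S n g ↔ IsCn n y`. -/
theorem isPowRes_iff_isCn {n : ℕ} {g : F} {a : K} (ha : a ≠ 0)
    (hy : S.red (g / algebraMap K F a) ≠ 0) :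
    IsPowRes S n g ↔ IsCn k n (S.red (g / algebraMap K F a)) := by
  have ha' : algebraMap K F a ≠ 0 := sa_algebraMap_ne_zero ha
  have hg : g ≠ 0 := by
    rintro rfl
    rw [zero_div, S.red_zero] at hy
    exact hy rfl
  constructor
  · rintro ⟨b, hb, h, hh, hred⟩
    have hb' : algebraMap K F b ≠ 0 := sa_algebraMap_ne_zero hb
    have hyb : S.red (g / algebraMap K F b) ≠ 0 := by
      rw [hred]
      exact pow_ne_zero n hh
    -- the quotient of the two normalisations is a constant unit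
    have hquot : g / algebraMap K F a / (g / algebraMap K F b) = algebraMap K F (b / a) := by
      rw [map_div₀]
      field_simp
    have hq0 : S.red (algebraMap K F (b / a)) ≠ 0 := by
      rw [← hquot, sa_red_div S hy hyb]
      exact div_ne_zero hy hyb
    obtain ⟨c, hc, hcred⟩ := sa_red_const S hq0
    refine ⟨c, hc, h, hh, ?_⟩
    have : S.red (g / algebraMap K F a) =
        S.red (algebraMap K F (b / a)) * S.red (g / algebraMap K F b) := by
      rw [← sa_red_mul S hq0 hyb]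
      congr 1
      rw [map_div₀]
      field_simp
    rw [this, hcred, hred]
  · rintro ⟨c, hc, h, hh, hred⟩
    obtain ⟨b, hb, hbred⟩ := sa_exists_lift S hc
    have hb' : algebraMap K F b ≠ 0 := sa_algebraMap_ne_zero hb
    have hb0 : S.red (algebraMap K F b) ≠ 0 := by
      rw [hbred]
      exact (map_ne_zero (algebraMap k Fk)).mpr hc
    refine ⟨a * b, mul_ne_zero ha hb, h, hh, ?_⟩
    have : g / algebraMap K F (a * b) = g / algebraMap K F a / algebraMap K F b := by
      rw [map_mul]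
      field_simp
    rw [this, sa_red_div S hy hb0, hred, hbred]
    rw [mul_comm, mul_div_assoc, div_self ((map_ne_zero (algebraMap k Fk)).mpr hc), mul_one]

theorem IsPowRes.ne_zero {n : ℕ} {g : F} (h : IsPowRes S n g) : g ≠ 0 := by
  obtain ⟨a, -, u, hu, hred⟩ := h
  rintro rfl
  rw [zero_div, S.red_zero] at hred
  exact pow_ne_zero n hu hred.symm

/-- `a uⁿ` is `IsPowRes` (`u ≠ 0`, `a ≠ 0`). -/
theorem isPowRes_of_constPow {n : ℕ} {g u : F} {a : K} (ha : a ≠ 0) (hu : u ≠ 0)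
    (hg : g = algebraMap K F a * u ^ n) : IsPowRes S n g := by
  obtain ⟨d, hd, hud⟩ := sa_exists_scale S hu
  refine ⟨a * d ^ n, mul_ne_zero ha (pow_ne_zero n hd), S.red (u / algebraMap K F d), hud, ?_⟩
  rw [← sa_red_pow S hud, hg]
  congr 1
  have ha' : algebraMap K F a ≠ 0 := sa_algebraMap_ne_zero ha
  have hd' : algebraMap K F d ≠ 0 := sa_algebraMap_ne_zero hd
  rw [map_mul, map_pow, div_pow]
  field_simp

/-- the same, without `u ≠ 0` (`n ≠ 0`, `g ≠ 0`). -/
theorem isPowRes_of_constPow' {n : ℕ} (hn : n ≠ 0) {g u : F} {a : K} (ha : a ≠ 0)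
    (hg0 : g ≠ 0) (hg : g = algebraMap K F a * u ^ n) : IsPowRes S n g := by
  refine isPowRes_of_constPow S ha ?_ hg
  rintro rfl
  rw [zero_pow hn, mul_zero] at hg
  exact hg0 hg

theorem IsPowRes.mul {n : ℕ} {g₁ g₂ : F} (h₁ : IsPowRes S n g₁) (h₂ : IsPowRes S n g₂) :
    IsPowRes S n (g₁ * g₂) := by
  obtain ⟨a, ha, u, hu, hred₁⟩ := h₁
  obtain ⟨b, hb, v, hv, hred₂⟩ := h₂
  have h1 : S.red (g₁ / algebraMap K F a) ≠ 0 := by rw [hred₁]; exact pow_ne_zero n hu
  have h2 : S.red (g₂ / algebraMap K F b) ≠ 0 := by rw [hred₂]; exact pow_ne_zero n hv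
  refine ⟨a * b, mul_ne_zero ha hb, u * v, mul_ne_zero hu hv, ?_⟩
  have : g₁ * g₂ / algebraMap K F (a * b) = g₁ / algebraMap K F a * (g₂ / algebraMap K F b) := by
    rw [map_mul]
    have ha' : algebraMap K F a ≠ 0 := sa_algebraMap_ne_zero ha
    have hb' : algebraMap K F b ≠ 0 := sa_algebraMap_ne_zero hb
    field_simp
  rw [this, sa_red_mul S h1 h2, hred₁, hred₂, mul_pow]

theorem IsPowRes.pow {n : ℕ} {g : F} (h : IsPowRes S n g) (m : ℕ) : IsPowRes S n (g ^ m) := by
  obtain ⟨a, ha, u, hu, hred⟩ := h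
  have h1 : S.red (g / algebraMap K F a) ≠ 0 := by rw [hred]; exact pow_ne_zero n hu
  refine ⟨a ^ m, pow_ne_zero m ha, u ^ m, pow_ne_zero m hu, ?_⟩
  have : g ^ m / algebraMap K F (a ^ m) = (g / algebraMap K F a) ^ m := by
    rw [map_pow, div_pow]
  rw [this, sa_red_pow S h1, hred, ← pow_mul, ← pow_mul, mul_comm]

/-- `IsPowRes` only depends on the valuation ring (and the residue map on the constants): two
constant reductions with the same rings have the same `IsPowRes`. -/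
theorem IsPowRes.of_resEquiv {Fk' : Type*} [Field Fk'] [Algebra k Fk'] (S' : ValSetup K F k Fk')
    (φ : Fk →+* Fk') (hφ : ∀ f : F, S.red f ≠ 0 → S'.red f = φ (S.red f))
    {n : ℕ} {g : F} (h : IsPowRes S n g) : IsPowRes S' n g := by
  obtain ⟨a, ha, u, hu, hred⟩ := h
  have h1 : S.red (g / algebraMap K F a) ≠ 0 := by rw [hred]; exact pow_ne_zero n hu
  refine ⟨a, ha, φ u, (map_ne_zero φ).mpr hu, ?_⟩
  rw [hφ _ h1, hred, map_pow]

end PowRes

section Step1

variable {K F F₁ k : Type*} [Field K] [Field F] [Algebra K F] [Field F₁] [Algebra K F₁]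
  [Field k]

/-- **Step 1, the `v_0` / `v_∞` part**: `S` a constant reduction of `F`, `S'` one of `F₁`,
`N : F → F₁` (a norm) with `red' (N y / c') = Φ (red (y / c))`, `Φ` a ring isomorphism of the
residue fields which is onto on the constants.  If `N g = a uⁿ` then `g` is, up to a constant,
an `n`-th power in the residue field of `S`. -/
theorem step1_frob {Fk Fk' : Type*} [Field Fk] [Algebra k Fk] [Field Fk'] [Algebra k Fk']
    (S : ValSetup K F k Fk) (S' : ValSetup K F₁ k Fk') (N : F → F₁) (n : ℕ)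
    (Φ : Fk ≃+* Fk')
    (hΦ : ∀ c : k, ∃ c' : k, Φ.symm (algebraMap k Fk' c) = algebraMap k Fk c')
    (hN : ∀ (y : F) (c : K), c ≠ 0 → S.red (y / algebraMap K F c) ≠ 0 →
      ∃ c' : K, c' ≠ 0 ∧
        S'.red (N y / algebraMap K F₁ c') = Φ (S.red (y / algebraMap K F c)))
    {g : F} (hg : g ≠ 0) (hNg : IsPowRes S' n (N g)) : IsPowRes S n g := by
  obtain ⟨c, hc, hy⟩ := sa_exists_scale S hg
  obtain ⟨c', hc', hred⟩ := hN g c hc hy
  have hy' : S'.red (N g / algebraMap K F₁ c') ≠ 0 := by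
    rw [hred]
    exact (map_ne_zero Φ.toRingHom).mpr hy
  have h1 : IsCn k n (S'.red (N g / algebraMap K F₁ c')) :=
    (isPowRes_iff_isCn S' hc' hy').mp hNg
  rw [hred] at h1
  exact (isPowRes_iff_isCn S hc hy).mpr (h1.of_map_ringEquiv Φ hΦ)

/-- **Step 1, the middle part**.  `S∞` the reduction `v_∞` of `F`, `Sm b` (`b : B`) the middle
residue maps (all with residue field `L`), `S₁` the reduction `v_∞` of `F₁`; product formula
(N2) `hN2`; the inertia group acts transitively on the `Sm b` (`hI`) and fixes the class of `g`.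
Then `g ^ |B|` is, up to a constant, an `n`-th power in the residue field of each `Sm b`. -/
theorem step1_mid {Fk0 Fk1 L : Type*} [Field Fk0] [Algebra k Fk0] [Field Fk1] [Algebra k Fk1]
    [Field L] [Algebra k L] {B : Type*} [Fintype B]
    (Soo : ValSetup K F k Fk0) (Sm : B → ValSetup K F k L) (S₁ : ValSetup K F₁ k Fk1)
    (N : F → F₁) (n : ℕ) (hn : n ≠ 0) (ι₀ : Fk0 →ₐ[k] L) (ι₁ : Fk1 →ₐ[k] L)
    (hN2 : ∀ (y : F) (c : K) (cm : B → K), c ≠ 0 → (∀ b, cm b ≠ 0) →
      Soo.red (y / algebraMap K F c) ≠ 0 → (∀ b, (Sm b).red (y / algebraMap K F (cm b)) ≠ 0) →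
      ∃ c' : K, c' ≠ 0 ∧ ι₁ (S₁.red (N y / algebraMap K F₁ c')) =
        ι₀ (Soo.red (y / algebraMap K F c)) * ∏ b, (Sm b).red (y / algebraMap K F (cm b)))
    {g : F} (hg : g ≠ 0)
    (hI : ∀ b b' : B, ∃ t : F ≃+* F,
      (∀ c : K, ∃ c' : K, t (algebraMap K F c) = algebraMap K F c') ∧
      (∀ f : F, (Sm b).red f ≠ 0 → (Sm b').red (t f) = (Sm b).red f) ∧
      ∃ (u : F) (a : K), a ≠ 0 ∧ t g = algebraMap K F a * u ^ n * g)
    (hoo : IsPowRes Soo n g) (hNg : IsPowRes S₁ n (N g)) (b₀ : B) :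
    IsPowRes (Sm b₀) n (g ^ Fintype.card B) := by
  classical
  -- normalisations
  obtain ⟨c, hc, hy⟩ := sa_exists_scale Soo hg
  have hsc : ∀ b, ∃ a : K, a ≠ 0 ∧ (Sm b).red (g / algebraMap K F a) ≠ 0 :=
    fun b => sa_exists_scale (Sm b) hg
  choose cm hcm hym using hsc
  set y : B → L := fun b => (Sm b).red (g / algebraMap K F (cm b)) with hydef
  obtain ⟨c', hc', hred⟩ := hN2 g c cm hc hcm hy hym
  -- the class of the product of the middle residues is trivial
  have hprod0 : (∏ b, y b) ≠ 0 := Finset.prod_ne_zero_iff.mpr fun b _ => hym b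
  have hι₀ : ι₀ (Soo.red (g / algebraMap K F c)) ≠ 0 := (map_ne_zero ι₀.toRingHom).mpr hy
  have hy₁ : S₁.red (N g / algebraMap K F₁ c') ≠ 0 := by
    intro h0
    rw [h0, map_zero] at hred
    exact mul_ne_zero hι₀ hprod0 hred.symm
  have h1 : IsCn k n (ι₁ (S₁.red (N g / algebraMap K F₁ c'))) :=
    ((isPowRes_iff_isCn S₁ hc' hy₁).mp hNg).map ι₁
  have h2 : IsCn k n (ι₀ (Soo.red (g / algebraMap K F c))) :=
    ((isPowRes_iff_isCn Soo hc hy).mp hoo).map ι₀
  have h3 : IsCn k n (∏ b, y b) := by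
    have : (∏ b, y b) = ι₁ (S₁.red (N g / algebraMap K F₁ c')) /
        ι₀ (Soo.red (g / algebraMap K F c)) := by
      rw [hred, mul_div_cancel_left₀ _ hι₀]
    rw [this]
    exact h1.div h2
  -- inertia: all the classes `y b` coincide
  have h4 : ∀ b b', IsCn k n (y b / y b') := by
    intro b b'
    obtain ⟨t, htK, htred, u, a, ha, htg⟩ := hI b b'
    obtain ⟨c'', hc''⟩ := htK (cm b)
    have hcmb : algebraMap K F (cm b) ≠ 0 := sa_algebraMap_ne_zero (hcm b)
    have hcmb' : algebraMap K F (cm b') ≠ 0 := sa_algebraMap_ne_zero (hcm b')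
    have hc''0 : c'' ≠ 0 := by
      rintro rfl
      rw [map_zero] at hc''
      exact hcmb ((map_eq_zero t.toRingHom).mp hc'')
    have hc''F : algebraMap K F c'' ≠ 0 := sa_algebraMap_ne_zero hc''0
    have htg0 : t g ≠ 0 := (map_ne_zero t.toRingHom).mpr hg
    have hu : u ≠ 0 := by
      rintro rfl
      rw [zero_pow hn, mul_zero, zero_mul] at htg
      exact htg0 htg
    have e1 : (Sm b').red (t (g / algebraMap K F (cm b))) = y b := htred _ (hym b)
    have e2 : t (g / algebraMap K F (cm b)) =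
        algebraMap K F (a * cm b' / c'') * u ^ n * (g / algebraMap K F (cm b')) := by
      rw [map_div₀, hc'', htg, map_div₀, map_mul]
      field_simp
    have hw : (Sm b').red (algebraMap K F (a * cm b' / c'') * u ^ n) = y b / y b' := by
      have hx : (Sm b').red (t (g / algebraMap K F (cm b))) ≠ 0 := by rw [e1]; exact hym b
      have := sa_red_div (Sm b') hx (hym b')
      rw [e1] at this
      rw [← this]
      congr 1
      rw [e2]
      have hgne : g / algebraMap K F (cm b') ≠ 0 := div_ne_zero hg hcmb'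
      exact (mul_div_cancel_right₀ _ hgne).symm
    have hconst : a * cm b' / c'' ≠ 0 := div_ne_zero (mul_ne_zero ha (hcm b')) hc''0
    have hpr : IsPowRes (Sm b') n (algebraMap K F (a * cm b' / c'') * u ^ n) :=
      isPowRes_of_constPow (Sm b') hconst hu rfl
    have hne : (Sm b').red (algebraMap K F (a * cm b' / c'') * u ^ n /
        algebraMap K F (1 : K)) ≠ 0 := by
      rw [map_one, div_one, hw]
      exact div_ne_zero (hym b) (hym b')
    have := (isPowRes_iff_isCn (Sm b') one_ne_zero hne).mp hpr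
    rwa [map_one, div_one, hw] at this
  -- conclusion
  have h5 : IsCn k n (y b₀ ^ Fintype.card B) := by
    have e : y b₀ ^ Fintype.card B = (∏ b, y b) / ∏ b, (y b / y b₀) := by
      rw [Finset.prod_div_distrib, Finset.prod_const, Finset.card_univ]
      rw [div_div_cancel₀ hprod0]
    rw [e]
    exact h3.div (IsCn.prod _ _ fun b _ => h4 b b₀)
  have hpow : (Sm b₀).red (g ^ Fintype.card B / algebraMap K F (cm b₀ ^ Fintype.card B)) =
      y b₀ ^ Fintype.card B := by
    rw [map_pow, ← div_pow, sa_red_pow (Sm b₀) (hym b₀)]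
  have hne : (Sm b₀).red (g ^ Fintype.card B / algebraMap K F (cm b₀ ^ Fintype.card B)) ≠ 0 := by
    rw [hpow]
    exact pow_ne_zero _ (hym b₀)
  refine (isPowRes_iff_isCn (Sm b₀) (pow_ne_zero _ (hcm b₀)) hne).mpr ?_
  rw [hpow]
  exact h5

end Step1

end Fermat.Agent.S36G
end
end MergeWrap_S36_G_Step1Abs

section MergeWrap_S36_Step1_MidPow -- from S36/Step1/MidPow.lean

set_option autoImplicit false
set_option linter.style.haveILetI false
set_option linter.unusedSectionVars false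
set_option linter.unusedVariables false
set_option synthInstance.maxHeartbeats 400000

noncomputable section

namespace Fermat.Agent.S36N

open ModularCurve AlgebraicCurve Fermat.Agent.F3 Fermat.Agent.F3G Fermat.Agent.GaussInt
  Fermat.Agent.AtkinLehner Fermat.Agent.Kronecker Fermat.Agent.BadRed Fermat.Agent.HeckeComm
  Fermat.Agent.S36G Fermat.Agent.Deuring

local notation "Qb" => AlgebraicClosure ℚ

attribute [local instance 10000] SubalgebraClass.toAlgebra HahnSeries.powerSeriesAlgebra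

variable {M₀ q : ℕ} [NeZero M₀] [NeZero q]

/-- `IsKPow` of the underlying series of an element of a subfield `Fk` of `k((q))` is `IsCn`. -/
theorem mid_isCn_of_isKPow {k : Type*} [Field k] {Fk : IntermediateField k (LaurentSeries k)}
    {n : ℕ} {y : ↥Fk} (h : IsKPow Fk n (y : LaurentSeries k)) : IsCn k n y := by
  obtain ⟨κ, x, hκ, hxF, hx, hy⟩ := h
  refine ⟨κ, hκ, ⟨x, hxF⟩, fun h0 => hx (congrArg Subtype.val h0), ?_⟩
  apply Subtype.ext
  rw [hy]
  rfl

/-- a family of middle expansions attached to the powers `z ^ (b + 1)`, `b < q - 1`, with a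
prescribed member at `b = 0`. -/
theorem mid_exists_family (hq : q.Prime) (hqM : ¬ q ∣ M₀) {z : Qbˣ}
    {ε₀ : FBar (M₀ * q * q) →ₐ[Qb] LaurentSeries Qb} (hz : IsPrimitiveRoot z q)
    (hε₀ : IsMidExp M₀ q z ε₀) :
    ∃ ε : Fin (q - 1) → (FBar (M₀ * q * q) →ₐ[Qb] LaurentSeries Qb),
      (∀ b : Fin (q - 1), IsMidExp M₀ q (z ^ ((b : ℕ) + 1)) (ε b)) ∧
      ∀ b : Fin (q - 1), (b : ℕ) = 0 → ε b = ε₀ := by
  classical
  have hprim : ∀ b : Fin (q - 1), IsPrimitiveRoot (z ^ ((b : ℕ) + 1)) q := by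
    intro b
    apply hz.pow_of_coprime
    have hlt : (b : ℕ) + 1 < q := by
      have := b.2
      omega
    exact ((Nat.Prime.coprime_iff_not_dvd hq).mpr
      (Nat.not_dvd_of_pos_of_lt (Nat.succ_pos _) hlt)).symm
  have hex : ∀ b : Fin (q - 1), ∃ ε : FBar (M₀ * q * q) →ₐ[Qb] LaurentSeries Qb,
      IsMidExp M₀ q (z ^ ((b : ℕ) + 1)) ε ∧ ((b : ℕ) = 0 → ε = ε₀) := by
    intro b
    by_cases hb : (b : ℕ) = 0
    · refine ⟨ε₀, ?_, fun _ => rfl⟩
      rw [hb, zero_add, pow_one]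
      exact hε₀
    · obtain ⟨ε, hε⟩ := igMidExpExists M₀ q hq hqM (z ^ ((b : ℕ) + 1)) (hprim b)
      exact ⟨ε, hε, fun h => absurd h hb⟩
  choose ε hε hε0 using hex
  exact ⟨ε, hε, hε0⟩

/-- **Step 1 at a middle vertex, `IsPowRes` form.** -/
theorem isPowRes_mid (hq : q.Prime) (hqM : ¬ q ∣ M₀) (A : ValuationSubring Qb)
    (hA : A.LiesOverPrime q) (hupper : IgResUpper M₀ q)
    {z : Qbˣ} {ε₀ : FBar (M₀ * q * q) →ₐ[Qb] LaurentSeries Qb}
    (hz : IsPrimitiveRoot z q) (hε₀ : IsMidExp M₀ q z ε₀)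
    (S : ValSetup Qb (FBar (M₀ * q * q)) (IsLocalRing.ResidueField A)
      ↥(igField (IsLocalRing.ResidueField A) M₀))
    (hS : IsMidSetup M₀ q A ε₀ S)
    {n : ℕ} {g : FBar (M₀ * q * q)} (hg : g ≠ 0)
    (hfix : InertiaFixedFun (M₀ * q * q) A n g)
    (hnorm : IsCPow n (normAlong (heckeAlphaBar Qb (M₀ * q) q) g))
    (hinf : ∀ c : Qb, c ≠ 0 → ∀ r : LaurentSeries (IsLocalRing.ResidueField A), r ≠ 0 →
      RedAt A (AlgEquiv.refl : FBar (M₀ * q * q) ≃ₐ[Qb] FBar (M₀ * q * q))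
        (algebraMap Qb (FBar (M₀ * q * q)) c * g) r →
      IsKPow (modularFunctionFieldFullC (IsLocalRing.ResidueField A) M₀) n r) :
    IsPowRes S n (g ^ (q - 1)) := by
  obtain ⟨ε, hε, hε0⟩ := mid_exists_family hq hqM hz hε₀
  have hq1 : 0 < q - 1 := by
    have := hq.two_le
    omega
  set b₀ : Fin (q - 1) := ⟨0, hq1⟩ with hb₀
  have hεb₀ : ε b₀ = ε₀ := hε0 b₀ rfl
  -- scaling
  obtain ⟨a, ha, hred⟩ := sa_exists_scale S hg
  have ha' : algebraMap Qb (FBar (M₀ * q * q)) a ≠ 0 := (map_ne_zero _).mpr ha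
  have e : algebraMap Qb (FBar (M₀ * q * q)) a⁻¹ * g =
      g / algebraMap Qb (FBar (M₀ * q * q)) a := by
    rw [map_inv₀, div_eq_mul_inv]
    exact mul_comm _ _
  have hSmem : g / algebraMap Qb (FBar (M₀ * q * q)) a ∈ S.Ov := S.mem_of_red_ne_zero hred
  have hcoe := hS.coe_red _ hSmem
  have hmem : algebraMap Qb (FBar (M₀ * q * q)) a⁻¹ * g ∈ expOv (ε b₀) A := by
    rw [hεb₀, e]
    exact (hS.mem_iff _).mp hSmem
  have hres : expRes (ε b₀) A (algebraMap Qb (FBar (M₀ * q * q)) a⁻¹ * g) ≠ 0 := by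
    rw [hεb₀, e, ← hcoe]
    intro h0
    exact hred (Subtype.ext h0)
  have hK := step1_mid hq hqM A hA z hz ε hε (igScale M₀ q) hupper hg hfix hnorm hinf b₀ a⁻¹
    (inv_ne_zero ha) hmem hres
  rw [hεb₀, e, ← hcoe] at hK
  have hK' : IsKPow (igField (IsLocalRing.ResidueField A) M₀) n
      (((S.red (g / algebraMap Qb (FBar (M₀ * q * q)) a) ^ (q - 1) :
        ↥(igField (IsLocalRing.ResidueField A) M₀)) :
          LaurentSeries (IsLocalRing.ResidueField A))) := hK
  have hCn : IsCn (IsLocalRing.ResidueField A) n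
      (S.red (g / algebraMap Qb (FBar (M₀ * q * q)) a) ^ (q - 1)) := mid_isCn_of_isKPow hK'
  have hpow : S.red (g ^ (q - 1) / algebraMap Qb (FBar (M₀ * q * q)) (a ^ (q - 1))) =
      S.red (g / algebraMap Qb (FBar (M₀ * q * q)) a) ^ (q - 1) := by
    rw [map_pow, ← div_pow, sa_red_pow S hred]
  have hne : S.red (g ^ (q - 1) / algebraMap Qb (FBar (M₀ * q * q)) (a ^ (q - 1))) ≠ 0 := by
    rw [hpow]
    exact pow_ne_zero _ hred
  refine (isPowRes_iff_isCn S (pow_ne_zero _ ha) hne).mpr ?_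
  rw [hpow]
  exact hCn

end Fermat.Agent.S36N
end
end MergeWrap_S36_Step1_MidPow

section MergeWrap_S36_G_Step12 -- from S36/G/Step12.lean

set_option autoImplicit false
set_option linter.unusedSectionVars false

/-!
# Cluster G (S36), Steps 1 + 2: the combination  (helper60)

* `SameRing S S'` : two constant reductions of `F / K` with the same valuation ring, the same ring
  of constants and the same residue map on the constants (their residue fields are then
  canonically isomorphic, helper55's `inertResEquiv`);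
* `IsPowRes.of_sameRing` : `IsPowRes` (`= GraphSetup.IsPowAt`) only depends on the valuation ring;
* `isPowAt_iff_isPowRes` : `N.IsPowAt n c g ↔ IsPowRes (N.S c) n g` (by `Iff.rfl`);
* `step12_combine` : on a graph of shape `K_{|Vert|, s}`, if `g ^ a` is, up to constants, an `n`-th
  power on all the vertical components and `g ^ b` on all the horizontal ones, then `g ^ (a b)`
  is on ALL components: the hypothesis `hStep12` of `coreFunAt_of_graph` (`S36/G/CoreWire.lean`)
  with `c₁ = (q - 1) (q + 1)`.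
-/

noncomputable section

namespace Fermat.Agent.S36G

open Fermat.Agent.Deuring Fermat.Agent.BadRedG

variable {K F k : Type*} [Field K] [Field F] [Algebra K F] [Field k]

/-- two constant reductions with the same valuation ring, the same constants and the same residue
map on the constants. -/
def SameRing {Fk Fk' : Type*} [Field Fk] [Algebra k Fk] [Field Fk'] [Algebra k Fk']
    (S : ValSetup K F k Fk) (S' : ValSetup K F k Fk') : Prop :=
  S.Ov = S'.Ov ∧ S.A = S'.A ∧
    ∀ (c : K) (h : c ∈ S.A) (h' : c ∈ S'.A), S.res ⟨c, h⟩ = S'.res ⟨c, h'⟩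

theorem SameRing.refl {Fk : Type*} [Field Fk] [Algebra k Fk] (S : ValSetup K F k Fk) :
    SameRing S S :=
  ⟨rfl, rfl, fun _ _ _ => rfl⟩

theorem SameRing.symm {Fk Fk' : Type*} [Field Fk] [Algebra k Fk] [Field Fk'] [Algebra k Fk']
    {S : ValSetup K F k Fk} {S' : ValSetup K F k Fk'} (h : SameRing S S') : SameRing S' S :=
  ⟨h.1.symm, h.2.1.symm, fun c hc hc' => (h.2.2 c hc' hc).symm⟩

theorem SameRing.trans {Fk Fk' Fk'' : Type*} [Field Fk] [Algebra k Fk] [Field Fk']
    [Algebra k Fk'] [Field Fk''] [Algebra k Fk''] {S : ValSetup K F k Fk}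
    {S' : ValSetup K F k Fk'} {S'' : ValSetup K F k Fk''} (h : SameRing S S')
    (h' : SameRing S' S'') : SameRing S S'' :=
  ⟨h.1.trans h'.1, h.2.1.trans h'.2.1, fun c hc hc'' =>
    (h.2.2 c hc (h.2.1 ▸ hc)).trans (h'.2.2 c (h.2.1 ▸ hc) hc'')⟩

/-- `IsPowRes` only depends on the valuation ring. -/
theorem IsPowRes.of_sameRing {Fk Fk' : Type*} [Field Fk] [Algebra k Fk] [Field Fk']
    [Algebra k Fk'] {S : ValSetup K F k Fk} {S' : ValSetup K F k Fk'} (h : SameRing S S')
    {n : ℕ} {g : F} (hg : IsPowRes S n g) : IsPowRes S' n g := by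
  obtain ⟨φ, hφ⟩ := inert_exists_resEquiv S S' h.1 h.2.1 h.2.2
  exact IsPowRes.of_resEquiv S S' (φ : Fk →+* Fk')
    (fun f hf => hφ f (S.mem_of_red_ne_zero hf)) hg

theorem isPowRes_iff_of_sameRing {Fk Fk' : Type*} [Field Fk] [Algebra k Fk] [Field Fk']
    [Algebra k Fk'] {S : ValSetup K F k Fk} {S' : ValSetup K F k Fk'} (h : SameRing S S')
    {n : ℕ} {g : F} : IsPowRes S n g ↔ IsPowRes S' n g :=
  ⟨fun hg => hg.of_sameRing h, fun hg => hg.of_sameRing h.symm⟩

section Graph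

variable {κ : Type*} {Fk : κ → Type*} [∀ c, Field (Fk c)] [∀ c, Algebra k (Fk c)] {ι : Type*}

/-- `GraphSetup.IsPowAt` is `IsPowRes` of the component. -/
theorem isPowAt_iff_isPowRes (N : GraphSetup K F k κ Fk ι) (n : ℕ) (c : κ) (g : F) :
    N.IsPowAt n c g ↔ IsPowRes (N.S c) n g := Iff.rfl

theorem isPowAt_pow (N : GraphSetup K F k κ Fk ι) {n : ℕ} {c : κ} {g : F}
    (h : N.IsPowAt n c g) (m : ℕ) : N.IsPowAt n c (g ^ m) :=
  IsPowRes.pow (N.S c) h m

theorem isPowAt_mul (N : GraphSetup K F k κ Fk ι) {n : ℕ} {c : κ} {g₁ g₂ : F}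
    (h₁ : N.IsPowAt n c g₁) (h₂ : N.IsPowAt n c g₂) : N.IsPowAt n c (g₁ * g₂) :=
  IsPowRes.mul (N.S c) h₁ h₂

/-- `IsPowAt` from a reduction with the same valuation ring. -/
theorem isPowAt_of_sameRing (N : GraphSetup K F k κ Fk ι) {n : ℕ} {c : κ} {g : F}
    {Fk' : Type*} [Field Fk'] [Algebra k Fk'] {S : ValSetup K F k Fk'}
    (h : SameRing S (N.S c)) (hg : IsPowRes S n g) : N.IsPowAt n c g :=
  hg.of_sameRing h

end Graph

section Combine

variable {Mid SS : Type} {Fk : Vtx Mid SS → Type*} [∀ c, Field (Fk c)]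
  [∀ c, Algebra k (Fk c)]

/-- **Steps 1 + 2 combined**: vertical exponent `a`, horizontal exponent `b`. -/
theorem step12_combine (N : GraphSetup K F k (Vtx Mid SS) Fk (Nod Mid SS)) (n a b : ℕ)
    {g : F} (hvert : ∀ v : Vrt Mid, N.IsPowAt n (Vtx.vert v) (g ^ a))
    (hhor : ∀ P : SS, N.IsPowAt n (Vtx.hor P) (g ^ b)) :
    ∀ c, N.IsPowAt n c (g ^ (a * b)) := by
  intro c
  cases c with
  | vert v =>
    rw [pow_mul]
    exact isPowAt_pow N (hvert v) b
  | hor P =>
    rw [mul_comm, pow_mul]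
    exact isPowAt_pow N (hhor P) a

end Combine

end Fermat.Agent.S36G
end
end MergeWrap_S36_G_Step12

section MergeWrap_S36_G_Step1Final -- from S36/G/Step1Final.lean

set_option autoImplicit false
set_option linter.style.haveILetI false
set_option linter.unusedSectionVars false
set_option linter.unusedVariables false
set_option synthInstance.maxHeartbeats 400000
set_option maxHeartbeats 1000000

/-!
# Cluster G (S36), Step 1 (vertical): the FINAL modular statement  (helper60)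

Level `M = M₀ q q`, `q ∤ M₀` prime, `A ∣ q`, `k` the residue field of `A`.  For a Kummer generator
`g` as in `CoreFunAt (M₀ * q) q c A n` (class fixed by inertia, `Norm_{π₁} g` and `Norm_{π₁} (w g)`
constants times `n`-th powers):

* `step1_inf_res`  : `IsPowRes S n g` for every Gauss reduction `S` (`IsGaussSetup`) : vertex `∞`;
* `step1_zero_res` : `IsPowRes (comapEquiv S w) n g` (`w = wAt D hM = w_{q²}`)       : vertex `0`;
* `step1_mid_res`  : `IsPowRes S n (g ^ (q - 1))` for every middle reduction (`IsMidSetup`);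
* `step1_vert_all` : the three together, stated with `M₀` (no Atkin-Lehner data for level `M₀ q`
  in the statement).

Inputs: helper66's `S36N.step1_inf`, `S36N.step1_zero` (`S36/Step1/Vert.lean`), helper17's
`S36N.isPowRes_mid` (`S36/Step1/MidPow.lean`); the only hypothesis which is not on main is
`IgResUpper M₀ q` (seat IG).  With `SameRing` / `isPowAt_of_sameRing` (`S36/G/Step12.lean`) these
give `N.IsPowAt n (Vtx.vert v) (g ^ (q - 1))` for the modular graph `N`.
-/

noncomputable section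

namespace Fermat.Agent.S36G

open ModularCurve AlgebraicCurve Fermat.Agent.F3 Fermat.Agent.F3G Fermat.Agent.GaussInt
  Fermat.Agent.AtkinLehner Fermat.Agent.Kronecker Fermat.Agent.BadRed Fermat.Agent.HeckeComm
  Fermat.Agent.S36N Fermat.Agent.Deuring

local notation "Qb" => AlgebraicClosure ℚ

attribute [local instance 10000] SubalgebraClass.toAlgebra HahnSeries.powerSeriesAlgebra

/-! ### constants -/

/-- `IsCPow` is stable under multiplication by nonzero constants. -/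
theorem s1f_isCPow_const_mul {F : Type*} [Field F] [Algebra Qb F] {n : ℕ} {x : F} (c : Qb)
    (hc : c ≠ 0) (h : IsCPow n x) : IsCPow n (algebraMap Qb F c * x) := by
  obtain ⟨u, a, ha, rfl⟩ := h
  exact ⟨u, c * a, mul_ne_zero hc ha, by rw [map_mul, mul_assoc]⟩

/-- the norm of a constant is a constant. -/
theorem s1f_normAlong_const {K F F₁ : Type*} [Field K] [Field F] [Field F₁] [Algebra K F]
    [Algebra K F₁] (ψ : F₁ →ₐ[K] F) (a : K) :
    ∃ m : ℕ, normAlong ψ (algebraMap K F a) = algebraMap K F₁ (a ^ m) := by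
  letI := algebraAlong ψ
  haveI := isScalarTower_along ψ
  refine ⟨Module.finrank F₁ F, ?_⟩
  show Algebra.norm F₁ (algebraMap K F a) = _
  rw [IsScalarTower.algebraMap_apply K F₁ F, Algebra.norm_algebraMap, map_pow]

/-- the norm of a constant multiple. -/
theorem s1f_isCPow_norm_const_mul {N ℓ : ℕ} [NeZero N] [NeZero ℓ] {n : ℕ} {x : FBar (N * ℓ)}
    (c : Qb) (hc : c ≠ 0) (h : IsCPow n (normAlong (heckeAlphaBar Qb N ℓ) x)) :
    IsCPow n (normAlong (heckeAlphaBar Qb N ℓ) (algebraMap Qb (FBar (N * ℓ)) c * x)) := by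
  obtain ⟨m, hm⟩ := s1f_normAlong_const (heckeAlphaBar Qb N ℓ) c
  rw [map_mul, hm]
  exact s1f_isCPow_const_mul (c ^ m) (pow_ne_zero m hc) h

/-! ### from series to `IsPowRes` (Gauss reductions) -/

/-- a Gauss reduction: `IsPowRes` from the series form. -/
theorem s1f_isPowRes_of_series {N N₀ : ℕ} [NeZero N] [NeZero N₀] {A : ValuationSubring Qb}
    (S : ValSetup Qb (FBar N) (IsLocalRing.ResidueField A)
      (modularFunctionFieldFullC (IsLocalRing.ResidueField A) N₀))
    (hS : IsGaussSetup N N₀ A S) (ψ : FBar N ≃ₐ[Qb] FBar N) {n : ℕ} {g : FBar N} (hg : g ≠ 0)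
    (h : ∀ c : Qb, c ≠ 0 → ∀ r : LaurentSeries (IsLocalRing.ResidueField A), r ≠ 0 →
      RedAt A ψ (algebraMap Qb (FBar N) c * g) r →
      IsKPow (modularFunctionFieldFullC (IsLocalRing.ResidueField A) N₀) n r) :
    IsPowRes (comapEquiv S ψ) n g := by
  obtain ⟨a, ha, hred⟩ := sa_exists_scale (comapEquiv S ψ) hg
  have e : g / algebraMap Qb (FBar N) a = algebraMap Qb (FBar N) a⁻¹ * g := by
    rw [map_inv₀, div_eq_inv_mul]
  rw [comapEquiv_red] at hred
  have hmem : ψ (g / algebraMap Qb (FBar N) a) ∈ S.Ov := S.mem_of_red_ne_zero hred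
  have hmem' := (hS.mem_iff _).mp hmem
  have hcoe := hS.coe_red _ hmem
  have hne : ((S.red (ψ (g / algebraMap Qb (FBar N) a)) :
      modularFunctionFieldFullC (IsLocalRing.ResidueField A) N₀) :
        LaurentSeries (IsLocalRing.ResidueField A)) ≠ 0 := fun h0 =>
    hred (Subtype.ext h0)
  have hR : RedAt A ψ (algebraMap Qb (FBar N) a⁻¹ * g)
      ((S.red (ψ (g / algebraMap Qb (FBar N) a)) :
        modularFunctionFieldFullC (IsLocalRing.ResidueField A) N₀) :
          LaurentSeries (IsLocalRing.ResidueField A)) := by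
    rw [← e]
    exact ⟨hmem', hcoe.symm⟩
  have hK := h a⁻¹ (inv_ne_zero ha) _ hne hR
  have hred' : (comapEquiv S ψ).red (g / algebraMap Qb (FBar N) a) ≠ 0 := by
    rw [comapEquiv_red]
    exact hred
  refine (isPowRes_iff_isCn (comapEquiv S ψ) ha hred').mpr ?_
  rw [comapEquiv_red]
  exact mid_isCn_of_isKPow hK

/-- the reduction `comapEquiv S refl` has the same rings as `S`. -/
theorem s1f_sameRing_refl {K F k Fk : Type*} [Field K] [Field F] [Algebra K F] [Field k]
    [Field Fk] [Algebra k Fk] (S : ValSetup K F k Fk) :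
    SameRing (comapEquiv S (AlgEquiv.refl : F ≃ₐ[K] F)) S := by
  refine ⟨?_, rfl, fun _ _ _ => rfl⟩
  ext f
  rw [mem_comapEquiv_Ov]
  rfl

/-! ### Step 1 with Atkin-Lehner data at both levels -/

section Data

variable {q : ℕ} [NeZero q] {A : ValuationSubring Qb}

/-- **Step 1 at `∞`.** -/
theorem step1_inf_res (hq : q.Prime) (hA : A.LiesOverPrime q) (D₁ D₂ : ALData) [NeZero D₁.R]
    (hQ₁ : D₁.Q = q) (hQR : ¬ q ∣ D₁.R) (hQ : D₂.Q = D₁.Q * q) (hR : D₂.R = D₁.R)
    (hN : D₁.R * q = D₁.Q * D₁.R) (hM : D₁.R * q * q = D₂.Q * D₂.R)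
    (S : ValSetup Qb (FBar (D₁.R * q * q)) (IsLocalRing.ResidueField A)
      (modularFunctionFieldFullC (IsLocalRing.ResidueField A) D₁.R))
    (hS : IsGaussSetup (D₁.R * q * q) D₁.R A S) {n : ℕ} {g : FBar (D₁.R * q * q)} (hg : g ≠ 0)
    (h2 : IsCPow n (normAlong (heckeAlphaBar Qb (D₁.R * q) q) (wAt D₂ hM g))) :
    IsPowRes S n g := by
  haveI : Fact q.Prime := ⟨hq⟩
  haveI : CharP (IsLocalRing.ResidueField A) q := Fermat.Agent.FrobTrace.charP_residueField A hA
  haveI : IsAlgClosed (IsLocalRing.ResidueField A) := Fermat.Agent.GaussInt.isAlgClosed_residue A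
  haveI : PerfectRing (IsLocalRing.ResidueField A) q := inferInstance
  refine (s1f_isPowRes_of_series S hS AlgEquiv.refl hg ?_).of_sameRing (s1f_sameRing_refl S)
  intro c hc r hr hred
  refine step1_inf hA D₁ D₂ hQ₁ hQR hQ hR hN hM ?_ hred hr
  rw [map_mul, AlgEquiv.commutes]
  exact s1f_isCPow_norm_const_mul c hc h2

/-- **Step 1 at `0`.** -/
theorem step1_zero_res (hq : q.Prime) (hA : A.LiesOverPrime q) (D₁ D₂ : ALData) [NeZero D₁.R]
    (hQ₁ : D₁.Q = q) (hQR : ¬ q ∣ D₁.R) (hQ : D₂.Q = D₁.Q * q) (hR : D₂.R = D₁.R)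
    (hN : D₁.R * q = D₁.Q * D₁.R) (hM : D₁.R * q * q = D₂.Q * D₂.R)
    (S : ValSetup Qb (FBar (D₁.R * q * q)) (IsLocalRing.ResidueField A)
      (modularFunctionFieldFullC (IsLocalRing.ResidueField A) D₁.R))
    (hS : IsGaussSetup (D₁.R * q * q) D₁.R A S) {n : ℕ} {g : FBar (D₁.R * q * q)} (hg : g ≠ 0)
    (h1 : IsCPow n (normAlong (heckeAlphaBar Qb (D₁.R * q) q) g)) :
    IsPowRes (comapEquiv S (wAt D₂ hM)) n g := by
  haveI : Fact q.Prime := ⟨hq⟩
  haveI : CharP (IsLocalRing.ResidueField A) q := Fermat.Agent.FrobTrace.charP_residueField A hA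
  haveI : IsAlgClosed (IsLocalRing.ResidueField A) := Fermat.Agent.GaussInt.isAlgClosed_residue A
  haveI : PerfectRing (IsLocalRing.ResidueField A) q := inferInstance
  refine s1f_isPowRes_of_series S hS (wAt D₂ hM) hg ?_
  intro c hc r hr hred
  exact step1_zero hA D₁ D₂ hQ₁ hQR hQ hR hN hM (s1f_isCPow_norm_const_mul c hc h1) hred hr

/-- **Step 1 at the middle vertices.** -/
theorem step1_mid_res (hq : q.Prime) (hA : A.LiesOverPrime q) (D₁ D₂ : ALData) [NeZero D₁.R]
    (hQ₁ : D₁.Q = q) (hQR : ¬ q ∣ D₁.R) (hQ : D₂.Q = D₁.Q * q) (hR : D₂.R = D₁.R)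
    (hN : D₁.R * q = D₁.Q * D₁.R) (hM : D₁.R * q * q = D₂.Q * D₂.R)
    (hupper : IgResUpper D₁.R q)
    {z : Qbˣ} {ε : FBar (D₁.R * q * q) →ₐ[Qb] LaurentSeries Qb}
    (hz : IsPrimitiveRoot z q) (hε : IsMidExp D₁.R q z ε)
    (S : ValSetup Qb (FBar (D₁.R * q * q)) (IsLocalRing.ResidueField A)
      ↥(igField (IsLocalRing.ResidueField A) D₁.R))
    (hS : IsMidSetup D₁.R q A ε S)
    {n : ℕ} {g : FBar (D₁.R * q * q)} (hg : g ≠ 0)
    (hfix : InertiaFixedFun (D₁.R * q * q) A n g)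
    (h1 : IsCPow n (normAlong (heckeAlphaBar Qb (D₁.R * q) q) g))
    (h2 : IsCPow n (normAlong (heckeAlphaBar Qb (D₁.R * q) q) (wAt D₂ hM g))) :
    IsPowRes S n (g ^ (q - 1)) := by
  haveI : Fact q.Prime := ⟨hq⟩
  haveI : CharP (IsLocalRing.ResidueField A) q := Fermat.Agent.FrobTrace.charP_residueField A hA
  haveI : IsAlgClosed (IsLocalRing.ResidueField A) := Fermat.Agent.GaussInt.isAlgClosed_residue A
  haveI : PerfectRing (IsLocalRing.ResidueField A) q := inferInstance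
  refine isPowRes_mid hq hQR A hA hupper hz hε S hS hg hfix h1 ?_
  intro c hc r hr hred
  refine step1_inf hA D₁ D₂ hQ₁ hQR hQ hR hN hM ?_ hred hr
  rw [map_mul, AlgEquiv.commutes]
  exact s1f_isCPow_norm_const_mul c hc h2

end Data

/-! ### Step 1, final form -/

section Final

variable {M₀ q : ℕ} [NeZero M₀] [NeZero q]

/-- **Step 1 (vertical), final form**: for a Kummer generator `g` as in
`CoreFunAt (M₀ * q) q c A n`. -/
theorem step1_vert_all (hq : q.Prime) (hqM : ¬ q ∣ M₀) (A : ValuationSubring Qb)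
    (hA : A.LiesOverPrime q) (hupper : IgResUpper M₀ q)
    (D : ALData) (hM : M₀ * q * q = D.Q * D.R) (hDQ : D.Q = q ^ 2)
    {n : ℕ} {g : FBar (M₀ * q * q)} (hg : g ≠ 0)
    (hfix : InertiaFixedFun (M₀ * q * q) A n g)
    (h1 : IsCPow n (normAlong (heckeAlphaBar Qb (M₀ * q) q) g))
    (h2 : IsCPow n (normAlong (heckeAlphaBar Qb (M₀ * q) q) (wAt D hM g))) :
    (∀ S : ValSetup Qb (FBar (M₀ * q * q)) (IsLocalRing.ResidueField A)
        (modularFunctionFieldFullC (IsLocalRing.ResidueField A) M₀),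
      IsGaussSetup (M₀ * q * q) M₀ A S →
        IsPowRes S n g ∧ IsPowRes (comapEquiv S (wAt D hM)) n g) ∧
    ∀ (z : Qbˣ) (ε : FBar (M₀ * q * q) →ₐ[Qb] LaurentSeries Qb)
      (S : ValSetup Qb (FBar (M₀ * q * q)) (IsLocalRing.ResidueField A)
        ↥(igField (IsLocalRing.ResidueField A) M₀)),
      IsPrimitiveRoot z q → IsMidExp M₀ q z ε → IsMidSetup M₀ q A ε S →
        IsPowRes S n (g ^ (q - 1)) := by
  have hM₀pos : 0 < M₀ := Nat.pos_of_ne_zero (NeZero.ne M₀)
  have hcop : Nat.Coprime q M₀ := (Nat.Prime.coprime_iff_not_dvd hq).mpr hqM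
  obtain ⟨D₁, hQ₁, hR₁⟩ := ALData.exists_of_coprime hq.pos hM₀pos hcop
  subst hR₁
  have hN : D₁.R * q = D₁.Q * D₁.R := by rw [hQ₁, mul_comm]
  have hQ : D.Q = D₁.Q * q := by rw [hDQ, hQ₁, sq]
  have hR : D.R = D₁.R := by
    have h3 : q ^ 2 * D.R = q ^ 2 * D₁.R := by
      have h4 : D.Q * D.R = D₁.R * q * q := hM.symm
      rw [hDQ] at h4
      rw [h4]
      ring
    exact Nat.eq_of_mul_eq_mul_left (pow_pos hq.pos 2) h3
  refine ⟨fun S hS => ⟨?_, ?_⟩, fun z ε S hz hε hS => ?_⟩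
  · exact step1_inf_res hq hA D₁ D hQ₁ hqM hQ hR hN hM S hS hg h2
  · exact step1_zero_res hq hA D₁ D hQ₁ hqM hQ hR hN hM S hS hg h1
  · exact step1_mid_res hq hA D₁ D hQ₁ hqM hQ hR hN hM hupper hz hε S hS hg hfix h1 h2

end Final

end Fermat.Agent.S36G
end
end MergeWrap_S36_G_Step1Final

section MergeWrap_S36_G_Step12Mod -- from S36/G/Step12Mod.lean

set_option autoImplicit false
set_option linter.style.haveILetI false
set_option linter.unusedSectionVars false
set_option linter.unusedVariables false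
set_option synthInstance.maxHeartbeats 400000
set_option maxHeartbeats 1000000

/-!
# Cluster G (S36), Steps 1 + 2: the hypothesis `hStep12` of `coreFunAt_of_graph`  (helper60)

`N` a `GraphSetup` on `F = FBar (M₀ q q)` of shape `K_{|Vert|, s}` over `A ∣ q`
(`k = IsLocalRing.ResidueField A`).  The modular bundle has to supply, for the VERTICAL components,
only the VALUATION RINGS (`SameRing`, `S36/G/Step12.lean`):

* `hoo`  : `N.S (vert ∞)` has the ring of a Gauss reduction `S` (`IsGaussSetup`);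
* `h0`   : `N.S (vert 0)` has the ring of `comapEquiv S w`, `w = wAt D hM = w_{q²}`;
* `hmid` : `N.S (vert (mid m))` has the ring of a middle reduction (`IsMidSetup`);

and for the HORIZONTAL components the conclusion of Step 2 (`hhor`, helper48's
`S36/G/Step2Final.lean`).  Then

`step12_modular` : `hStep12` of `coreFunAt_of_graph` (`S36/G/CoreWire.lean`) with
`c₁ = (q - 1) * (q + 1)`.
-/

noncomputable section

namespace Fermat.Agent.S36G

open ModularCurve AlgebraicCurve Fermat.Agent.F3 Fermat.Agent.F3G Fermat.Agent.GaussInt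
  Fermat.Agent.AtkinLehner Fermat.Agent.Kronecker Fermat.Agent.BadRed Fermat.Agent.BadRedG
  Fermat.Agent.Deuring

local notation "Qb" => AlgebraicClosure ℚ

attribute [local instance 10000] SubalgebraClass.toAlgebra HahnSeries.powerSeriesAlgebra

variable {M₀ q : ℕ} [NeZero M₀] [NeZero q] {Mid SS : Type}

/-- **Step 1 on the modular graph**: the vertical components. -/
theorem step1_modular (hq : q.Prime) (hqM : ¬ q ∣ M₀) (A : ValuationSubring Qb)
    (hA : A.LiesOverPrime q) (hupper : IgResUpper M₀ q)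
    {Fk : Vtx Mid SS → Type*} [∀ c, Field (Fk c)]
    [∀ c, Algebra (IsLocalRing.ResidueField A) (Fk c)]
    (N : GraphSetup Qb (FBar (M₀ * q * q)) (IsLocalRing.ResidueField A) (Vtx Mid SS) Fk
      (Nod Mid SS))
    (D : ALData) (hM : M₀ * q * q = D.Q * D.R) (hDQ : D.Q = q ^ 2)
    (hoo : ∃ S : ValSetup Qb (FBar (M₀ * q * q)) (IsLocalRing.ResidueField A)
        (modularFunctionFieldFullC (IsLocalRing.ResidueField A) M₀),
      IsGaussSetup (M₀ * q * q) M₀ A S ∧ SameRing S (N.S (Vtx.vert Vrt.oo)))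
    (h0 : ∃ S : ValSetup Qb (FBar (M₀ * q * q)) (IsLocalRing.ResidueField A)
        (modularFunctionFieldFullC (IsLocalRing.ResidueField A) M₀),
      IsGaussSetup (M₀ * q * q) M₀ A S ∧
        SameRing (comapEquiv S (wAt D hM)) (N.S (Vtx.vert Vrt.zero)))
    (hmid : ∀ m : Mid, ∃ (z : Qbˣ) (ε : FBar (M₀ * q * q) →ₐ[Qb] LaurentSeries Qb)
        (S : ValSetup Qb (FBar (M₀ * q * q)) (IsLocalRing.ResidueField A)
          ↥(igField (IsLocalRing.ResidueField A) M₀)),
      IsPrimitiveRoot z q ∧ IsMidExp M₀ q z ε ∧ IsMidSetup M₀ q A ε S ∧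
        SameRing S (N.S (Vtx.vert (Vrt.mid m))))
    {n : ℕ} {g : FBar (M₀ * q * q)} (hg : g ≠ 0)
    (hfix : InertiaFixedFun (M₀ * q * q) A n g)
    (h1 : IsCPow n (normAlong (heckeAlphaBar Qb (M₀ * q) q) g))
    (h2 : IsCPow n (normAlong (heckeAlphaBar Qb (M₀ * q) q) (wAt D hM g))) :
    ∀ v : Vrt Mid, N.IsPowAt n (Vtx.vert v) (g ^ (q - 1)) := by
  obtain ⟨hG, hMid⟩ := step1_vert_all hq hqM A hA hupper D hM hDQ hg hfix h1 h2
  intro v
  cases v with
  | oo =>
    obtain ⟨S, hS, hSR⟩ := hoo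
    exact isPowAt_pow N (isPowAt_of_sameRing N hSR (hG S hS).1) (q - 1)
  | zero =>
    obtain ⟨S, hS, hSR⟩ := h0
    exact isPowAt_pow N (isPowAt_of_sameRing N hSR (hG S hS).2) (q - 1)
  | mid m =>
    obtain ⟨z, ε, S, hz, hε, hS, hSR⟩ := hmid m
    exact isPowAt_of_sameRing N hSR (hMid z ε S hz hε hS)

/-- **Steps 1 + 2 on the modular graph**: the hypothesis `hStep12` of `coreFunAt_of_graph` with
`c₁ = (q - 1) * (q + 1)`. -/
theorem step12_modular (hq : q.Prime) (hqM : ¬ q ∣ M₀) (A : ValuationSubring Qb)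
    (hA : A.LiesOverPrime q) (hupper : IgResUpper M₀ q)
    {Fk : Vtx Mid SS → Type*} [∀ c, Field (Fk c)]
    [∀ c, Algebra (IsLocalRing.ResidueField A) (Fk c)]
    (N : GraphSetup Qb (FBar (M₀ * q * q)) (IsLocalRing.ResidueField A) (Vtx Mid SS) Fk
      (Nod Mid SS)) (n : ℕ)
    (hoo : ∃ S : ValSetup Qb (FBar (M₀ * q * q)) (IsLocalRing.ResidueField A)
        (modularFunctionFieldFullC (IsLocalRing.ResidueField A) M₀),
      IsGaussSetup (M₀ * q * q) M₀ A S ∧ SameRing S (N.S (Vtx.vert Vrt.oo)))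
    (h0 : ∀ (D : ALData) (hM : M₀ * q * q = D.Q * D.R), D.Q = q ^ 2 →
      ∃ S : ValSetup Qb (FBar (M₀ * q * q)) (IsLocalRing.ResidueField A)
        (modularFunctionFieldFullC (IsLocalRing.ResidueField A) M₀),
      IsGaussSetup (M₀ * q * q) M₀ A S ∧
        SameRing (comapEquiv S (wAt D hM)) (N.S (Vtx.vert Vrt.zero)))
    (hmid : ∀ m : Mid, ∃ (z : Qbˣ) (ε : FBar (M₀ * q * q) →ₐ[Qb] LaurentSeries Qb)
        (S : ValSetup Qb (FBar (M₀ * q * q)) (IsLocalRing.ResidueField A)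
          ↥(igField (IsLocalRing.ResidueField A) M₀)),
      IsPrimitiveRoot z q ∧ IsMidExp M₀ q z ε ∧ IsMidSetup M₀ q A ε S ∧
        SameRing S (N.S (Vtx.vert (Vrt.mid m))))
    (hhor : ∀ (D : ALData) (hM : M₀ * q * q = D.Q * D.R), D.Q = q ^ 2 →
      ∀ g : FBar (M₀ * q * q), g ≠ 0 →
        (∀ v : Place Qb (FBar (M₀ * q * q)), (n : ℤ) ∣ v.ord g) →
        InertiaFixedFun (M₀ * q * q) A n g →
        IsCPow n (normAlong (heckeAlphaBar Qb (M₀ * q) q) g) →
        IsCPow n (normAlong (heckeAlphaBar Qb (M₀ * q) q) (wAt D hM g)) →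
        ∀ P : SS, N.IsPowAt n (Vtx.hor P) (g ^ (q + 1))) :
    ∀ (D : ALData) (hM : M₀ * q * q = D.Q * D.R), D.Q = q ^ 2 →
      ∀ g : FBar (M₀ * q * q), g ≠ 0 →
        (∀ v : Place Qb (FBar (M₀ * q * q)), (n : ℤ) ∣ v.ord g) →
        InertiaFixedFun (M₀ * q * q) A n g →
        IsCPow n (normAlong (heckeAlphaBar Qb (M₀ * q) q) g) →
        IsCPow n (normAlong (heckeAlphaBar Qb (M₀ * q) q) (wAt D hM g)) →
        ∀ c, N.IsPowAt n c (g ^ ((q - 1) * (q + 1))) := by
  intro D hM hDQ g hg hdvd hfix h1 h2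
  exact step12_combine N n (q - 1) (q + 1)
    (step1_modular hq hqM A hA hupper N D hM hDQ hoo (h0 D hM hDQ) hmid hg hfix h1 h2)
    (hhor D hM hDQ g hg hdvd hfix h1 h2)

end Fermat.Agent.S36G
end
end MergeWrap_S36_G_Step12Mod

section MergeWrap_S36_G_ALIndep -- from S36/G/ALIndep.lean

set_option autoImplicit false
set_option linter.style.haveILetI false
set_option linter.unusedSectionVars false
set_option linter.unusedVariables false
set_option synthInstance.maxHeartbeats 400000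
set_option maxHeartbeats 1000000

/-!
# Cluster G (S36): the Atkin–Lehner involution `w_Q` does not depend on the Bezout data
(helper60)

`ALData` carries `Q`, `R` and a Bezout pair `(a, b)`, `Q a - R b = 1`; the involution
`atkinLehner D` of `F_{Q R}` is determined by `w (j(q^{d₁ d₂})) = j(q^{e₁ d₂})`
(`atkinLehner_jF`), so it depends on `(Q, R)` only:

* `alIndep_algHom_ext` : two `ℚ̄`-algebra maps `F_N → L` that agree on all `j(q^d)`, `d ∣ N`,
  are equal;
* `alIndep_atkinLehner` : `atkinLehner ⟨Q, R, a, b, ..⟩ = atkinLehner ⟨Q, R, a', b', ..⟩`;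
* `wAt_indep` : `wAt D hM = wAt D' hM'` if `D.Q = D'.Q` (levels `M = D.Q * D.R = D'.Q * D'.R`);
* `wAt_indep_apply`.

Used to compare the `v_0` of the modular graph (built from ONE `D₀`) with the `D` quantified in
`CoreFunAt` / `hStep12` / `hF2`.
-/

noncomputable section

namespace Fermat.Agent.S36G

open ModularCurve AlgebraicCurve Fermat.Agent.F3 Fermat.Agent.F3G Fermat.Agent.GaussInt
  Fermat.Agent.AtkinLehner Fermat.Agent.Kronecker Fermat.Agent.BadRed

local notation "Qb" => AlgebraicClosure ℚ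

/-- two `ℚ̄`-algebra maps out of `F_N` that agree on all `j(q^d)`, `d ∣ N`, are equal. -/
theorem alIndep_algHom_ext {N : ℕ} {L : Type*} [Field L] [Algebra Qb L]
    (φ ψ : modularFunctionFieldBar N →ₐ[Qb] L)
    (h : ∀ (d : ℕ) (_ : NeZero d) (hd : d ∣ N), φ (jF N d hd) = ψ (jF N d hd))
    (x : modularFunctionFieldBar N) : φ x = ψ x := by
  obtain ⟨x, hx⟩ := x
  have hx' : x ∈ IntermediateField.adjoin Qb (serGens N) := by
    rw [← modularFunctionFieldBar_eq_adjoin]
    exact hx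
  refine IntermediateField.adjoin_induction Qb
    (p := fun y _ => ∀ h : y ∈ modularFunctionFieldBar N,
      φ ⟨y, h⟩ = ψ ⟨y, h⟩)
    ?_ ?_ ?_ ?_ ?_ hx' hx
  · rintro y ⟨d, hdne, hd, rfl⟩ hy
    exact h d hdne hd
  · intro c hc
    have e : (⟨algebraMap Qb (LaurentSeries Qb) c, hc⟩ : modularFunctionFieldBar N) =
        algebraMap Qb (modularFunctionFieldBar N) c := rfl
    rw [e, AlgHom.commutes, AlgHom.commutes]
  · intro y z hy hz ihy ihz hyz
    have hy' : y ∈ modularFunctionFieldBar N := by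
      rw [modularFunctionFieldBar_eq_adjoin]
      exact hy
    have hz' : z ∈ modularFunctionFieldBar N := by
      rw [modularFunctionFieldBar_eq_adjoin]
      exact hz
    have e : (⟨y + z, hyz⟩ : modularFunctionFieldBar N) = ⟨y, hy'⟩ + ⟨z, hz'⟩ := rfl
    rw [e, map_add, map_add, ihy hy', ihz hz']
  · intro y hy ihy hyi
    have hy' : y ∈ modularFunctionFieldBar N := by
      rw [modularFunctionFieldBar_eq_adjoin]
      exact hy
    have e : (⟨y⁻¹, hyi⟩ : modularFunctionFieldBar N) = (⟨y, hy'⟩)⁻¹ := rfl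
    rw [e, map_inv₀, map_inv₀, ihy hy']
  · intro y z hy hz ihy ihz hyz
    have hy' : y ∈ modularFunctionFieldBar N := by
      rw [modularFunctionFieldBar_eq_adjoin]
      exact hy
    have hz' : z ∈ modularFunctionFieldBar N := by
      rw [modularFunctionFieldBar_eq_adjoin]
      exact hz
    have e : (⟨y * z, hyz⟩ : modularFunctionFieldBar N) = ⟨y, hy'⟩ * ⟨z, hz'⟩ := rfl
    rw [e, map_mul, map_mul, ihy hy', ihz hz']

/-- `atkinLehner` depends on `(Q, R)` only. -/
theorem alIndep_atkinLehner (Q R : ℕ) (a b a' b' : ℤ) (hQ : 0 < Q) (hR : 0 < R)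
    (hdet : (Q : ℤ) * a - (R : ℤ) * b = 1) (hdet' : (Q : ℤ) * a' - (R : ℤ) * b' = 1)
    (x : modularFunctionFieldBar (Q * R)) :
    atkinLehner ⟨Q, R, a, b, hQ, hR, hdet⟩ x = atkinLehner ⟨Q, R, a', b', hQ, hR, hdet'⟩ x := by
  refine alIndep_algHom_ext
    (atkinLehner ⟨Q, R, a, b, hQ, hR, hdet⟩ :
      modularFunctionFieldBar (Q * R) ≃ₐ[Qb] modularFunctionFieldBar (Q * R)).toAlgHom
    (atkinLehner ⟨Q, R, a', b', hQ, hR, hdet'⟩ :
      modularFunctionFieldBar (Q * R) ≃ₐ[Qb] modularFunctionFieldBar (Q * R)).toAlgHom ?_ x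
  intro d hdne hd
  obtain ⟨d₁, e₁, d₂, f₂, h1, h2, rfl⟩ :=
    exists_factor (⟨Q, R, a, b, hQ, hR, hdet⟩ : ALData) hd
  obtain ⟨p1, p2, p3, p4⟩ := factor_pos (⟨Q, R, a, b, hQ, hR, hdet⟩ : ALData) h1 h2
  haveI : NeZero (e₁ * d₂) := ⟨(Nat.mul_pos p2 p3).ne'⟩
  have hd' : e₁ * d₂ ∣ Q * R := by
    have h1' : d₁ * e₁ = Q := h1
    have h2' : d₂ * f₂ = R := h2
    rw [← h1', ← h2']
    exact Nat.mul_dvd_mul (Dvd.intro_left d₁ rfl) (Dvd.intro f₂ rfl)
  show atkinLehner ⟨Q, R, a, b, hQ, hR, hdet⟩ (jF (Q * R) (d₁ * d₂) hd) =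
    atkinLehner ⟨Q, R, a', b', hQ, hR, hdet'⟩ (jF (Q * R) (d₁ * d₂) hd)
  rw [atkinLehner_jF (⟨Q, R, a, b, hQ, hR, hdet⟩ : ALData) d₁ e₁ d₂ f₂ h1 h2 hd hd',
    atkinLehner_jF (⟨Q, R, a', b', hQ, hR, hdet'⟩ : ALData) d₁ e₁ d₂ f₂ h1 h2 hd hd']

/-- **`w_Q` at a level `M = Q R` does not depend on the Bezout data.** -/
theorem wAt_indep_apply (D D' : ALData) {M : ℕ} (hM : M = D.Q * D.R) (hM' : M = D'.Q * D'.R)
    (hQ : D.Q = D'.Q) (x : FBar M) : wAt D hM x = wAt D' hM' x := by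
  obtain ⟨Q, R, a, b, hQ0, hR0, hdet⟩ := D
  obtain ⟨Q', R', a', b', hQ0', hR0', hdet'⟩ := D'
  have hQ' : Q = Q' := hQ
  subst hQ'
  have hMM : Q * R = Q * R' := by
    have e1 : M = Q * R := hM
    have e2 : M = Q * R' := hM'
    rw [← e1, ← e2]
  have hR : R = R' := Nat.eq_of_mul_eq_mul_left hQ0 hMM
  subst hR
  have hM₁ : M = Q * R := hM
  subst hM₁
  rw [wAt_rfl, wAt_rfl]
  exact alIndep_atkinLehner Q R a b a' b' hQ0 hR0 hdet hdet' x

theorem wAt_indep (D D' : ALData) {M : ℕ} (hM : M = D.Q * D.R) (hM' : M = D'.Q * D'.R)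
    (hQ : D.Q = D'.Q) : wAt D hM = wAt D' hM' :=
  AlgEquiv.ext (wAt_indep_apply D D' hM hM' hQ)

end Fermat.Agent.S36G
end
end MergeWrap_S36_G_ALIndep

section MergeWrap_S36_G_Step12D0 -- from S36/G/Step12D0.lean

set_option autoImplicit false
set_option linter.style.haveILetI false
set_option linter.unusedSectionVars false
set_option linter.unusedVariables false
set_option synthInstance.maxHeartbeats 400000
set_option maxHeartbeats 1000000

/-!
# Cluster G (S36), Steps 1 + 2 with ONE Atkin–Lehner datum `D₀`  (helper60)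

The modular graph is built from ONE `D₀ : ALData` (`v_0 = valSetupZeroAt D₀ hM₀ S_∞`), while
`CoreFunAt`, `hStep12`, `hF2` quantify over all `D` with `D.Q = q ^ 2`.  Since `wAt` does not
depend on the Bezout data (`wAt_indep`, `S36/G/ALIndep.lean`):

* `forall_wAt_of_one` : a statement about `wAt D₀ hM₀` holds for all `wAt D hM`, `D.Q = D₀.Q`;
* `step12_modular_one` : `hStep12` of `coreFunAt_of_graph` with `h0`, `hhor` for `D₀` only;
* `cocycleF2_all_of_one` : `hF2` of `coreFunAt_of_graph` from `CocycleF2` for `D₀` only.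
-/

noncomputable section

namespace Fermat.Agent.S36G

open ModularCurve AlgebraicCurve Fermat.Agent.F3 Fermat.Agent.F3G Fermat.Agent.GaussInt
  Fermat.Agent.AtkinLehner Fermat.Agent.Kronecker Fermat.Agent.BadRed Fermat.Agent.BadRedG
  Fermat.Agent.Deuring

local notation "Qb" => AlgebraicClosure ℚ

attribute [local instance 10000] SubalgebraClass.toAlgebra HahnSeries.powerSeriesAlgebra

/-- transport of a statement about `w_Q` from one Bezout datum to all. -/
theorem forall_wAt_of_one {M : ℕ} (Pr : (FBar M ≃ₐ[Qb] FBar M) → Prop)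
    (D₀ : ALData) (hM₀ : M = D₀.Q * D₀.R) (h : Pr (wAt D₀ hM₀))
    (D : ALData) (hM : M = D.Q * D.R) (hQ : D.Q = D₀.Q) : Pr (wAt D hM) := by
  rw [wAt_indep D D₀ hM hM₀ hQ]
  exact h

variable {M₀ q : ℕ} [NeZero M₀] [NeZero q] {Mid SS : Type}

/-- **Steps 1 + 2 on the modular graph**, the graph built from one `D₀`: the hypothesis `hStep12`
of `coreFunAt_of_graph` with `c₁ = (q - 1) * (q + 1)`. -/
theorem step12_modular_one (hq : q.Prime) (hqM : ¬ q ∣ M₀) (A : ValuationSubring Qb)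
    (hA : A.LiesOverPrime q) (hupper : IgResUpper M₀ q)
    {Fk : Vtx Mid SS → Type*} [∀ c, Field (Fk c)]
    [∀ c, Algebra (IsLocalRing.ResidueField A) (Fk c)]
    (N : GraphSetup Qb (FBar (M₀ * q * q)) (IsLocalRing.ResidueField A) (Vtx Mid SS) Fk
      (Nod Mid SS)) (n : ℕ)
    (D₀ : ALData) (hM₀ : M₀ * q * q = D₀.Q * D₀.R) (hD₀ : D₀.Q = q ^ 2)
    (hoo : ∃ S : ValSetup Qb (FBar (M₀ * q * q)) (IsLocalRing.ResidueField A)
        (modularFunctionFieldFullC (IsLocalRing.ResidueField A) M₀),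
      IsGaussSetup (M₀ * q * q) M₀ A S ∧ SameRing S (N.S (Vtx.vert Vrt.oo)))
    (h0 : ∃ S : ValSetup Qb (FBar (M₀ * q * q)) (IsLocalRing.ResidueField A)
        (modularFunctionFieldFullC (IsLocalRing.ResidueField A) M₀),
      IsGaussSetup (M₀ * q * q) M₀ A S ∧
        SameRing (comapEquiv S (wAt D₀ hM₀)) (N.S (Vtx.vert Vrt.zero)))
    (hmid : ∀ m : Mid, ∃ (z : Qbˣ) (ε : FBar (M₀ * q * q) →ₐ[Qb] LaurentSeries Qb)
        (S : ValSetup Qb (FBar (M₀ * q * q)) (IsLocalRing.ResidueField A)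
          ↥(igField (IsLocalRing.ResidueField A) M₀)),
      IsPrimitiveRoot z q ∧ IsMidExp M₀ q z ε ∧ IsMidSetup M₀ q A ε S ∧
        SameRing S (N.S (Vtx.vert (Vrt.mid m))))
    (hhor : ∀ g : FBar (M₀ * q * q), g ≠ 0 →
        (∀ v : Place Qb (FBar (M₀ * q * q)), (n : ℤ) ∣ v.ord g) →
        InertiaFixedFun (M₀ * q * q) A n g →
        IsCPow n (normAlong (heckeAlphaBar Qb (M₀ * q) q) g) →
        IsCPow n (normAlong (heckeAlphaBar Qb (M₀ * q) q) (wAt D₀ hM₀ g)) →
        ∀ P : SS, N.IsPowAt n (Vtx.hor P) (g ^ (q + 1))) :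
    ∀ (D : ALData) (hM : M₀ * q * q = D.Q * D.R), D.Q = q ^ 2 →
      ∀ g : FBar (M₀ * q * q), g ≠ 0 →
        (∀ v : Place Qb (FBar (M₀ * q * q)), (n : ℤ) ∣ v.ord g) →
        InertiaFixedFun (M₀ * q * q) A n g →
        IsCPow n (normAlong (heckeAlphaBar Qb (M₀ * q) q) g) →
        IsCPow n (normAlong (heckeAlphaBar Qb (M₀ * q) q) (wAt D hM g)) →
        ∀ c, N.IsPowAt n c (g ^ ((q - 1) * (q + 1))) := by
  refine step12_modular hq hqM A hA hupper N n hoo ?_ hmid ?_
  · intro D hM hDQ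
    rw [wAt_indep D D₀ hM hM₀ (hDQ.trans hD₀.symm)]
    exact h0
  · intro D hM hDQ
    rw [wAt_indep D D₀ hM hM₀ (hDQ.trans hD₀.symm)]
    exact hhor

section F2

variable {k : Type*} [Field k] {Mid' SS' : Type} [Fintype Mid'] [Fintype SS']
  {Fk : Vtx Mid' SS' → Type*} [∀ c, Field (Fk c)] [∀ c, Algebra k (Fk c)]

/-- **(F2) for all `D`** from (F2) for one `D₀`: the hypothesis `hF2` of `coreFunAt_of_graph`. -/
theorem cocycleF2_all_of_one (N₁ q' : ℕ) [NeZero N₁] [NeZero q'] (n e : ℕ)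
    (N : GraphSetup Qb (FBar (N₁ * q')) k (Vtx Mid' SS') Fk (Nod Mid' SS'))
    (R : Divisor Qb (FBar (N₁ * q')))
    (D₀ : ALData) (hM₀ : N₁ * q' = D₀.Q * D₀.R) (hD₀ : D₀.Q = q' ^ 2)
    (h : CocycleF2 N n q' e R
      (fun g => IsCPow n (normAlong (heckeAlphaBar Qb N₁ q') (wAt D₀ hM₀ g)))) :
    ∀ (D : ALData) (hM : N₁ * q' = D.Q * D.R), D.Q = q' ^ 2 →
      CocycleF2 N n q' e R
        (fun g => IsCPow n (normAlong (heckeAlphaBar Qb N₁ q') (wAt D hM g))) := by
  intro D hM hDQ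
  rw [wAt_indep D D₀ hM hM₀ (hDQ.trans hD₀.symm)]
  exact h

end F2

end Fermat.Agent.S36G
end
end MergeWrap_S36_G_Step12D0
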