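import Mathlib
import Fermat.Prelude.Def_AlgebraicCurve_DivisorPushPull
import Fermat.Agent.Lib.FF.Value
import Fermat.Agent.MU.Lib.RR.MultGeneral
import Fermat.Agent.MU.Lib.RR.NonSpecial
import Fermat.Agent.MU.Lib.BadRed.Nodal.Setup
import Fermat.Agent.MU.Lib.GenusEq.Main
import Fermat.Agent.MU.Lib.RR.Hurwitz.FibreDeg
import Fermat.Agent.MU.Lib.HP.Deg

section MergeWrap_S36_Norm_ValNormBasis -- from S36/Norm/ValNormBasis.lean

set_option autoImplicit false
set_option linter.unusedSectionVars false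
set_option linter.style.haveILetI false

noncomputable section

namespace Fermat.Agent.S36

open AlgebraicCurve Fermat.Agent.RR Fermat.Agent.FF WithZero

/-- a strictly dominant term decides the valuation of a finite sum. -/
theorem val_sum_eq_of_dominant {R Γ : Type*} [Ring R] [LinearOrderedCommGroupWithZero Γ]
    (v : Valuation R Γ) {ι : Type*} [DecidableEq ι] (t : Finset ι) (f : ι → R) (j₀ : ι)
    (hj₀ : j₀ ∈ t) (hne : v (f j₀) ≠ 0) (hlt : ∀ j ∈ t, j ≠ j₀ → v (f j) < v (f j₀)) :
    v (∑ j ∈ t, f j) = v (f j₀) := by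
  rw [← Finset.add_sum_erase t f hj₀]
  apply Valuation.map_add_eq_of_lt_left
  apply Valuation.map_sum_lt v hne
  intro j hj
  exact hlt j (Finset.mem_of_mem_erase hj) (Finset.ne_of_mem_erase hj)

section Restrict

variable {k E F : Type*} [Field k] [Field E] [Field F] [Algebra k E] [Algebra k F] [Algebra E F]
  [IsScalarTower k E F] [Algebra.IsIntegral E F]

/-- the valuation at `Q` of an element of `E` with `v_P ≤ 1`. -/
theorem val_algebraMap_le_one {P : Place k E} {Q : Place k F} (hQ : Q.restrict E = P) {c : E}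
    (hc : P.adicValuation c ≤ 1) : Q.adicValuation (algebraMap E F c) ≤ 1 := by
  rw [Place.adicValuation_le_one_iff] at hc ⊢
  rcases hc with rfl | hc
  · left
    exact map_zero _
  · right
    rw [Q.ord_restrict c, hQ]
    exact mul_nonneg (Int.natCast_nonneg _) hc

/-- the valuation at `Q` of an element of `E` with `v_P < 1`. -/
theorem val_algebraMap_le_exp {P : Place k E} {Q : Place k F} (hQ : Q.restrict E = P) {c : E}
    (hc : P.adicValuation c < 1) :
    Q.adicValuation (algebraMap E F c) ≤ exp (-(Q.ramificationIndex E : ℤ)) := by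
  rw [Place.adicValuation_le_exp_iff]
  rcases eq_or_ne c 0 with rfl | hc0
  · left
    exact map_zero _
  · right
    rw [P.adicValuation_eq_exp_neg_ord hc0, ← exp_zero, exp_lt_exp] at hc
    rw [Q.ord_restrict c, hQ, neg_neg]
    have h1 : (1 : ℤ) ≤ P.ord c := by omega
    calc (Q.ramificationIndex E : ℤ) = (Q.ramificationIndex E : ℤ) * 1 := (mul_one _).symm
      _ ≤ (Q.ramificationIndex E : ℤ) * P.ord c :=
        mul_le_mul_of_nonneg_left h1 (Int.natCast_nonneg _)

/-- the valuation at `Q` of an element of `E` with `v_P = 1`. -/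
theorem val_algebraMap_eq_one {P : Place k E} {Q : Place k F} (hQ : Q.restrict E = P) {c : E}
    (hc : P.adicValuation c = 1) : Q.adicValuation (algebraMap E F c) = 1 := by
  have hc0 : c ≠ 0 := by
    rintro rfl
    rw [map_zero] at hc
    exact zero_ne_one hc
  rw [P.adicValuation_eq_exp_neg_ord hc0, ← exp_zero, exp_inj] at hc
  have hc' : algebraMap E F c ≠ 0 := (map_ne_zero _).mpr hc0
  rw [Q.adicValuation_eq_exp_neg_ord hc', Q.ord_restrict c, hQ]
  have : P.ord c = 0 := by omega
  rw [this, mul_zero, neg_zero, exp_zero]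

end Restrict

section Fam

variable {k E F : Type*} [Field k] [Field E] [Field F] [Algebra k E] [Algebra k F] [Algebra E F]
  [IsScalarTower k E F] [Algebra.IsIntegral E F]

/-- the index set of a local basis: pairs `(Q, i)` with `Q ∈ s`, `i < e_Q`. -/
abbrev LocIdx (E : Type*) {k F : Type*} [Field k] [Field E] [Field F] [Algebra k F]
    [Algebra E F] (s : Finset (Place k F)) : Type _ :=
  Σ Q : {Q : Place k F // Q ∈ s}, Fin ((Q : Place k F).ramificationIndex E)

/-- a local family: `ord_Q b_(Q,i) = i`, `ord_Q' b_(Q,i) ≥ e_Q'` for `Q' ≠ Q`. -/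
structure IsLocalFam (s : Finset (Place k F)) (b : LocIdx E s → F) : Prop where
  self : ∀ j : LocIdx E s, (j.1 : Place k F).adicValuation (b j) = exp (-((j.2 : ℕ) : ℤ))
  other : ∀ (j : LocIdx E s) (Q : {Q : Place k F // Q ∈ s}), Q ≠ j.1 →
    (Q : Place k F).adicValuation (b j) ≤ exp (-(((Q : Place k F).ramificationIndex E : ℕ) : ℤ))

/-- approximation: a function with prescribed order at `Q ∈ s` and lower bounds on `s`. -/
theorem exists_ord_eq_on (hF : IsRRField k F) [Infinite k] (s : Finset (Place k F))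
    (m : Place k F → ℕ) (Q : Place k F) (hQ : Q ∈ s) :
    ∃ f : F, f ≠ 0 ∧ Q.ord f = m Q ∧ ∀ Q' ∈ s, (m Q' : ℤ) ≤ Q'.ord f := by
  classical
  haveI : Infinite (Place k F) := infinite_place hF
  obtain ⟨Q₀, hQ₀⟩ := Infinite.exists_notMem_finset s
  set N : ℤ := 2 * (genusFF k F : ℤ) + ∑ Q' ∈ s, (m Q' : ℤ) with hN
  set D : Divisor k F := Finsupp.single Q₀ N - ∑ Q' ∈ s, Finsupp.single Q' (m Q' : ℤ) with hD
  have hDs : ∀ Q' ∈ s, D Q' = -(m Q' : ℤ) := by
    intro Q' hQ'
    have hne : Q₀ ≠ Q' := fun h => hQ₀ (h ▸ hQ')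
    rw [hD, Finsupp.sub_apply, Finsupp.single_apply, if_neg hne, Finsupp.finsetSum_apply,
      zero_sub]
    congr 1
    rw [Finset.sum_eq_single Q']
    · exact Finsupp.single_eq_same
    · intro Q'' _ hne'
      exact Finsupp.single_eq_of_ne (Ne.symm hne')
    · intro h
      exact absurd hQ' h
  have hdeg : Divisor.degree D = 2 * (genusFF k F : ℤ) := by
    rw [hD, map_sub, map_sum, degree_single_one hF]
    have : ∀ Q' ∈ s, Divisor.degree (Finsupp.single Q' (m Q' : ℤ)) = (m Q' : ℤ) :=
      fun Q' _ => degree_single_one hF Q' _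
    rw [Finset.sum_congr rfl this, hN]
    ring
  obtain ⟨f, hf, hf0, hford⟩ := Fermat.Agent.RRMult.exists_ord_eq hF (D := D) (le_of_eq hdeg.symm) Q
  refine ⟨f, hf0, ?_, fun Q' hQ' => ?_⟩
  · rw [hford, hDs Q hQ, neg_neg]
  · have h1 := (mem_riemannRochSpace_iff.mp hf Q').resolve_left hf0
    rw [hDs Q' hQ', neg_neg] at h1
    exact h1

/-- local families exist. -/
theorem exists_isLocalFam (hF : IsRRField k F) [Infinite k] (s : Finset (Place k F)) :
    ∃ b : LocIdx E s → F, IsLocalFam (E := E) s b := by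
  classical
  have key : ∀ j : LocIdx E s, ∃ f : F,
      (j.1 : Place k F).adicValuation f = exp (-((j.2 : ℕ) : ℤ)) ∧
      ∀ Q : {Q : Place k F // Q ∈ s}, Q ≠ j.1 →
        (Q : Place k F).adicValuation f ≤
          exp (-(((Q : Place k F).ramificationIndex E : ℕ) : ℤ)) := by
    intro j
    obtain ⟨f, hf0, hfQ, hfs⟩ := exists_ord_eq_on hF s
      (fun Q' => if Q' = (j.1 : Place k F) then (j.2 : ℕ) else Q'.ramificationIndex E)
      (j.1 : Place k F) j.1.2
    refine ⟨f, ?_, fun Q hQ => ?_⟩
    · rw [Place.adicValuation_eq_exp_neg_ord _ hf0, hfQ, if_pos rfl]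
    · rw [Place.adicValuation_le_exp_iff]
      right
      have h1 := hfs (Q : Place k F) Q.2
      have hne : (Q : Place k F) ≠ (j.1 : Place k F) := fun h => hQ (Subtype.ext h)
      rw [if_neg hne] at h1
      rw [neg_neg]
      exact h1
  choose b hb1 hb2 using key
  exact ⟨b, ⟨hb1, hb2⟩⟩

variable {s : Finset (Place k F)} {b : LocIdx E s → F}

theorem IsLocalFam.le_one (hb : IsLocalFam (E := E) s b) (j : LocIdx E s)
    (Q : {Q : Place k F // Q ∈ s}) : (Q : Place k F).adicValuation (b j) ≤ 1 := by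
  by_cases hQ : Q = j.1
  · rw [hQ, hb.self j, ← exp_zero, exp_le_exp]
    omega
  · refine (hb.other j Q hQ).trans ?_
    rw [← exp_zero, exp_le_exp]
    omega

/-- **the key valuation computation**: the first unit coefficient on the component `Q` decides
the order at `Q`. -/
theorem IsLocalFam.key (hb : IsLocalFam (E := E) s b) {P : Place k E}
    (hs : ∀ Q ∈ s, Q.restrict E = P) (c : LocIdx E s → E)
    (hc : ∀ j, P.adicValuation (c j) ≤ 1) (j₀ : LocIdx E s)
    (hj₀ : P.adicValuation (c j₀) = 1)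
    (hmin : ∀ i : Fin ((j₀.1 : Place k F).ramificationIndex E), i < j₀.2 →
      P.adicValuation (c ⟨j₀.1, i⟩) < 1) :
    (j₀.1 : Place k F).adicValuation (∑ j, algebraMap E F (c j) * b j) =
      exp (-((j₀.2 : ℕ) : ℤ)) := by
  classical
  have h0 : (j₀.1 : Place k F).adicValuation (algebraMap E F (c j₀) * b j₀) =
      exp (-((j₀.2 : ℕ) : ℤ)) := by
    rw [map_mul, val_algebraMap_eq_one (hs _ j₀.1.2) hj₀, one_mul, hb.self j₀]
  rw [val_sum_eq_of_dominant (j₀.1 : Place k F).adicValuation Finset.univ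
    (fun j => algebraMap E F (c j) * b j) j₀ (Finset.mem_univ _) ?_ ?_]
  · exact h0
  · rw [h0]
    exact exp_ne_zero
  · intro j _ hne
    rw [h0]
    obtain ⟨Q₀, i₀⟩ := j₀
    obtain ⟨Q, i⟩ := j
    have hi₀ : ((i₀ : ℕ) : ℤ) < ((Q₀ : Place k F).ramificationIndex E : ℤ) := by
      exact_mod_cast i₀.2
    by_cases hQ : Q = Q₀
    · subst hQ
      have hii : i ≠ i₀ := fun h => hne (by rw [h])
      rcases lt_or_gt_of_ne hii with hlt | hgt
      · -- earlier index: the coefficient is a non-unit
        have h1 := val_algebraMap_le_exp (hs _ Q.2) (hmin i hlt)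
        have h2 := hb.le_one ⟨Q, i⟩ Q
        calc (Q : Place k F).adicValuation (algebraMap E F (c ⟨Q, i⟩) * b ⟨Q, i⟩)
            = (Q : Place k F).adicValuation (algebraMap E F (c ⟨Q, i⟩)) *
                (Q : Place k F).adicValuation (b ⟨Q, i⟩) := map_mul _ _ _
          _ ≤ exp (-((Q : Place k F).ramificationIndex E : ℤ)) * 1 := mul_le_mul' h1 h2
          _ = exp (-((Q : Place k F).ramificationIndex E : ℤ)) := mul_one _
          _ < exp (-((i₀ : ℕ) : ℤ)) := by
            rw [exp_lt_exp]
            omega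
      · -- later index
        have h1 := val_algebraMap_le_one (hs _ Q.2) (hc ⟨Q, i⟩)
        have h2 := hb.self ⟨Q, i⟩
        calc (Q : Place k F).adicValuation (algebraMap E F (c ⟨Q, i⟩) * b ⟨Q, i⟩)
            = (Q : Place k F).adicValuation (algebraMap E F (c ⟨Q, i⟩)) *
                (Q : Place k F).adicValuation (b ⟨Q, i⟩) := map_mul _ _ _
          _ ≤ 1 * exp (-((i : ℕ) : ℤ)) := mul_le_mul' h1 (le_of_eq h2)
          _ = exp (-((i : ℕ) : ℤ)) := one_mul _
          _ < exp (-((i₀ : ℕ) : ℤ)) := by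
            rw [exp_lt_exp]
            have : (i₀ : ℕ) < (i : ℕ) := hgt
            omega
    · -- another component
      have h1 := val_algebraMap_le_one (hs _ Q₀.2) (hc ⟨Q, i⟩)
      have h2 := hb.other ⟨Q, i⟩ Q₀ (fun h => hQ h.symm)
      calc (Q₀ : Place k F).adicValuation (algebraMap E F (c ⟨Q, i⟩) * b ⟨Q, i⟩)
          = (Q₀ : Place k F).adicValuation (algebraMap E F (c ⟨Q, i⟩)) *
              (Q₀ : Place k F).adicValuation (b ⟨Q, i⟩) := map_mul _ _ _
        _ ≤ 1 * exp (-((Q₀ : Place k F).ramificationIndex E : ℤ)) := mul_le_mul' h1 h2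
        _ = exp (-((Q₀ : Place k F).ramificationIndex E : ℤ)) := one_mul _
        _ < exp (-((i₀ : ℕ) : ℤ)) := by
          rw [exp_lt_exp]
          omega

/-- the first unit coefficient on a component. -/
theorem IsLocalFam.key_exists (hb : IsLocalFam (E := E) s b) {P : Place k E}
    (hs : ∀ Q ∈ s, Q.restrict E = P) (c : LocIdx E s → E)
    (hc : ∀ j, P.adicValuation (c j) ≤ 1) (j : LocIdx E s)
    (hj : P.adicValuation (c j) = 1) :
    ∃ i₀ : Fin ((j.1 : Place k F).ramificationIndex E), i₀ ≤ j.2 ∧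
      (j.1 : Place k F).adicValuation (∑ j, algebraMap E F (c j) * b j) =
        exp (-((i₀ : ℕ) : ℤ)) := by
  classical
  obtain ⟨Q, i⟩ := j
  set T : Finset (Fin ((Q : Place k F).ramificationIndex E)) :=
    Finset.univ.filter (fun i' => P.adicValuation (c ⟨Q, i'⟩) = 1) with hT
  have hiT : i ∈ T := by
    rw [hT, Finset.mem_filter]
    exact ⟨Finset.mem_univ _, hj⟩
  obtain ⟨i₀, hi₀T, hi₀min⟩ := Finset.exists_min_image T (fun i' => i') ⟨i, hiT⟩
  refine ⟨i₀, hi₀min i hiT, ?_⟩
  rw [hT, Finset.mem_filter] at hi₀T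
  refine hb.key hs c hc ⟨Q, i₀⟩ hi₀T.2 (fun i' hi' => ?_)
  refine lt_of_le_of_ne (hc _) (fun h1 => ?_)
  have : i' ∈ T := by
    rw [hT, Finset.mem_filter]
    exact ⟨Finset.mem_univ _, h1⟩
  exact absurd (hi₀min i' this) (not_le.mpr hi')

/-- normalisation of a nonzero family of coefficients by its largest coefficient. -/
theorem exists_normalise (P : Place k E) {J : Type*} [Finite J] (g : J → E) (i0 : J)
    (hi0 : g i0 ≠ 0) :
    ∃ jm : J, g jm ≠ 0 ∧ (∀ j, P.adicValuation (g j) ≤ P.adicValuation (g jm)) ∧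
      (∀ j, P.adicValuation (g j / g jm) ≤ 1) ∧ P.adicValuation (g jm / g jm) = 1 := by
  haveI : Nonempty J := ⟨i0⟩
  obtain ⟨jm, hjm⟩ := Finite.exists_max (fun j => P.adicValuation (g j))
  have hgm : g jm ≠ 0 := by
    intro h
    have h1 := hjm i0
    rw [h, map_zero] at h1
    exact hi0 ((map_eq_zero _).mp (le_antisymm h1 zero_le))
  refine ⟨jm, hgm, hjm, fun j => ?_, ?_⟩
  · rw [map_div₀]
    exact div_le_one_of_le₀ (hjm j) zero_le
  · rw [div_self hgm, map_one]

theorem sum_div_eq (g : LocIdx E s → E) (b : LocIdx E s → F) (a : E) :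
    ∑ j, algebraMap E F (g j / a) * b j =
      algebraMap E F a⁻¹ * ∑ j, algebraMap E F (g j) * b j := by
  rw [Finset.mul_sum]
  refine Finset.sum_congr rfl (fun j _ => ?_)
  rw [← mul_assoc, ← map_mul, div_eq_mul_inv, mul_comm (g j)]

/-- a local family is linearly independent over `E`. -/
theorem IsLocalFam.linearIndependent (hb : IsLocalFam (E := E) s b) {P : Place k E}
    (hs : ∀ Q ∈ s, Q.restrict E = P) : LinearIndependent E b := by
  classical
  rw [Fintype.linearIndependent_iff]
  intro g hg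
  by_contra hne
  push Not at hne
  obtain ⟨i0, hi0⟩ := hne
  obtain ⟨jm, hgm, -, hc, hcm⟩ := exists_normalise P g i0 hi0
  obtain ⟨i₀, -, hval⟩ := hb.key_exists hs (fun j => g j / g jm) hc jm hcm
  have hsum : ∑ j, algebraMap E F (g j) * b j = 0 := by
    rw [← hg]
    refine Finset.sum_congr rfl (fun j _ => ?_)
    rw [Algebra.smul_def]
  rw [sum_div_eq, hsum, mul_zero, map_zero] at hval
  exact exp_ne_zero hval.symm

/-- the coefficients of an element which is integral at all `Q ∈ s` are integral at `P`. -/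
theorem IsLocalFam.integral (hb : IsLocalFam (E := E) s b) {P : Place k E}
    (hs : ∀ Q ∈ s, Q.restrict E = P) (g : LocIdx E s → E)
    (hx : ∀ Q : {Q : Place k F // Q ∈ s},
      (Q : Place k F).adicValuation (∑ j, algebraMap E F (g j) * b j) ≤ 1) :
    ∀ j, P.adicValuation (g j) ≤ 1 := by
  classical
  by_contra hne
  push Not at hne
  obtain ⟨i0, hi0⟩ := hne
  have hi0' : g i0 ≠ 0 := by
    rintro h
    rw [h, map_zero] at hi0
    exact absurd hi0 (not_lt.mpr zero_le)
  obtain ⟨jm, hgm, hjm, hc, hcm⟩ := exists_normalise P g i0 hi0'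
  obtain ⟨i₀, -, hval⟩ := hb.key_exists hs (fun j => g j / g jm) hc jm hcm
  have h1 : 1 < P.adicValuation (g jm) := lt_of_lt_of_le hi0 (hjm i0)
  have hinv : P.adicValuation (g jm)⁻¹ < 1 := by
    rw [map_inv₀]
    exact inv_lt_one_of_one_lt₀ h1
  have h2 := val_algebraMap_le_exp (hs _ jm.1.2) hinv
  have h3 : (jm.1 : Place k F).adicValuation (∑ j, algebraMap E F (g j / g jm) * b j) ≤
      exp (-((jm.1 : Place k F).ramificationIndex E : ℤ)) := by
    rw [sum_div_eq, map_mul]
    calc _ ≤ exp (-((jm.1 : Place k F).ramificationIndex E : ℤ)) * 1 :=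
          mul_le_mul' h2 (hx jm.1)
      _ = _ := mul_one _
  rw [hval, exp_le_exp] at h3
  have h4 : ((i₀ : ℕ) : ℤ) < ((jm.1 : Place k F).ramificationIndex E : ℤ) := by
    exact_mod_cast i₀.2
  omega

/-- **triangularity**: if `x = Σ g_l b_l` has `ord_Q x ≥ i + 1` and `ord_Q' x ≥ e_Q'` for the
other `Q' ∈ s`, then the unit coefficients of `x` sit at the indices `(Q, i')` with `i' > i`. -/
theorem IsLocalFam.triangular (hb : IsLocalFam (E := E) s b) {P : Place k E}
    (hs : ∀ Q ∈ s, Q.restrict E = P) (g : LocIdx E s → E) (j : LocIdx E s)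
    (hself : (j.1 : Place k F).adicValuation (∑ l, algebraMap E F (g l) * b l) ≤
      exp (-(((j.2 : ℕ) : ℤ) + 1)))
    (hother : ∀ Q : {Q : Place k F // Q ∈ s}, Q ≠ j.1 →
      (Q : Place k F).adicValuation (∑ l, algebraMap E F (g l) * b l) ≤
        exp (-(((Q : Place k F).ramificationIndex E : ℕ) : ℤ)))
    (l : LocIdx E s) (hl : P.adicValuation (g l) = 1) :
    l.1 = j.1 ∧ (j.2 : ℕ) < (l.2 : ℕ) := by
  classical
  have hint : ∀ l, P.adicValuation (g l) ≤ 1 := by
    refine hb.integral hs g (fun Q => ?_)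
    by_cases hQ : Q = j.1
    · rw [hQ]
      refine hself.trans ?_
      rw [← exp_zero, exp_le_exp]
      omega
    · refine (hother Q hQ).trans ?_
      rw [← exp_zero, exp_le_exp]
      omega
  obtain ⟨Q, i⟩ := j
  obtain ⟨Q', i'⟩ := l
  obtain ⟨i₀, hi₀l, hval⟩ := hb.key_exists hs g hint ⟨Q', i'⟩ hl
  have hi₀ : ((i₀ : ℕ) : ℤ) < ((Q' : Place k F).ramificationIndex E : ℤ) := by
    exact_mod_cast i₀.2
  have h2 : (i₀ : ℕ) ≤ (i' : ℕ) := hi₀l
  dsimp only at hself hother hval ⊢
  by_cases hQ : Q' = Q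
  · subst hQ
    refine ⟨rfl, ?_⟩
    have h1 := hself
    rw [hval, exp_le_exp] at h1
    omega
  · exfalso
    have h1 := hother Q' hQ
    rw [hval, exp_le_exp] at h1
    omega

end Fam

end Fermat.Agent.S36
end
end MergeWrap_S36_Norm_ValNormBasis

section MergeWrap_S36_Norm_ValNormGen -- from S36/Norm/ValNormGen.lean

set_option autoImplicit false
set_option linter.unusedSectionVars false
set_option linter.style.haveILetI false

noncomputable section

namespace Fermat.Agent.S36

open AlgebraicCurve Fermat.Agent.RR Fermat.Agent.FF WithZero Polynomial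

/-! ### triangular matrices indexed by a sigma type -/

section Tri

variable {ι : Type*} [Fintype ι] [DecidableEq ι] {n : ι → ℕ} {R : Type*} [CommRing R]

/-- the rank function of the lexicographic order on `Σ i, Fin (n i)`. -/
def sigmaRk (j : Σ i, Fin (n i)) : ℕ ×ₗ ℕ :=
  toLex (((Fintype.equivFin ι j.1 : Fin (Fintype.card ι)) : ℕ), (j.2 : ℕ))

theorem sigmaRk_injective : Function.Injective (sigmaRk (ι := ι) (n := n)) := by
  rintro ⟨a, i⟩ ⟨a', i'⟩ h
  have h1 : (((Fintype.equivFin ι a : Fin (Fintype.card ι)) : ℕ), (i : ℕ)) =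
      (((Fintype.equivFin ι a' : Fin (Fintype.card ι)) : ℕ), (i' : ℕ)) := toLex.injective h
  have h2 : a = a' := (Fintype.equivFin ι).injective (Fin.ext (congrArg Prod.fst h1))
  subst h2
  have h3 : i = i' := Fin.ext (congrArg Prod.snd h1)
  rw [h3]

/-- a matrix which is triangular for an injective rank function. -/
theorem det_charpoly_of_rank {J : Type*} [Fintype J] [DecidableEq J] {α : Type*}
    [LinearOrder α] (rk : J → α) (hrk : Function.Injective rk) (M : Matrix J J R)
    (hM : ∀ l j : J, rk l < rk j → M l j = 0) :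
    M.det = ∏ j, M j j ∧ M.charpoly = ∏ j, (X - C (M j j)) := by
  classical
  let e : J ≃ Set.range rk := Equiv.ofInjective rk hrk
  letI : Fintype (Set.range rk) := Fintype.ofEquiv J e
  have hup : ((Matrix.reindex e e M).transpose).IsUpperTriangular := by
    intro x y hxy
    have hlt : y < x := hxy
    show M (e.symm y) (e.symm x) = 0
    apply hM
    have hx : rk (e.symm x) = x := by
      have := Equiv.apply_ofInjective_symm hrk x
      exact this
    have hy : rk (e.symm y) = y := by
      have := Equiv.apply_ofInjective_symm hrk y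
      exact this
    rw [hx, hy]
    exact hlt
  have hdet : ((Matrix.reindex e e M).transpose).det =
      ∏ i, ((Matrix.reindex e e M).transpose) i i := Matrix.det_of_isUpperTriangular hup
  have hchar : ((Matrix.reindex e e M).transpose).charpoly =
      ∏ i, (X - C (((Matrix.reindex e e M).transpose) i i)) :=
    Matrix.charpoly_of_isUpperTriangular _ hup
  rw [Matrix.det_transpose, Matrix.det_reindex_self] at hdet
  rw [Matrix.charpoly_transpose, Matrix.charpoly_reindex] at hchar
  constructor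
  · rw [hdet]
    exact Fintype.prod_equiv e.symm _ _ (fun x => rfl)
  · rw [hchar]
    exact Fintype.prod_equiv e.symm _ _ (fun x => rfl)

/-- a matrix which is triangular inside the blocks has the expected determinant and
characteristic polynomial. -/
theorem det_charpoly_of_sigma_triangular
    (M : Matrix (Σ i, Fin (n i)) (Σ i, Fin (n i)) R)
    (hM : ∀ l j : Σ i, Fin (n i), l ≠ j → ¬ (l.1 = j.1 ∧ (j.2 : ℕ) < (l.2 : ℕ)) → M l j = 0) :
    M.det = ∏ j, M j j ∧ M.charpoly = ∏ j, (X - C (M j j)) := by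
  refine det_charpoly_of_rank sigmaRk sigmaRk_injective M (fun l j hlt => ?_)
  apply hM l j
  · intro h
    rw [h] at hlt
    exact lt_irrefl _ hlt
  · rintro ⟨h1, h2⟩
    have : sigmaRk j < sigmaRk l := by
      unfold sigmaRk
      rw [Prod.Lex.toLex_lt_toLex]
      right
      exact ⟨congrArg (fun x => ((Fintype.equivFin ι x : Fin (Fintype.card ι)) : ℕ)) h1.symm,
        h2⟩
    exact lt_asymm hlt this

end Tri

/-! ### the matrix of `h` in a local basis -/

section Main

variable {k E F : Type*} [Field k] [Field E] [Field F] [Algebra k E] [Algebra k F] [Algebra E F]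
  [IsScalarTower k E F] [FiniteDimensional E F]

theorem mem_of_val_le_one (P : Place k E) {c : E} (hc : P.adicValuation c ≤ 1) :
    c ∈ P.toValuationSubring := by
  rw [Place.adicValuation_le_one_iff] at hc
  rcases hc with rfl | hc
  · exact zero_mem _
  · exact Fermat.Agent.S24Res.mem_of_ord_nonneg P hc

theorem valueHom_eq_zero_of_val_lt (hE : IsRRField k E) (P : Place k E)
    (a : P.toValuationSubring) (ha : P.adicValuation (a : E) < 1) : valueHom hE P a = 0 := by
  rw [valueHom_eq_zero_iff]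
  by_contra hnot
  have hu : IsUnit a := by
    by_contra hnu
    exact hnot ((IsLocalRing.mem_maximalIdeal a).mpr hnu)
  rw [(P.adicValuation_coe_eq_one_iff a).mpr hu] at ha
  exact lt_irrefl _ ha

theorem val_sub_value_le (hF : IsRRField k F) (Q : Place k F) {h : F}
    (hh : h ∈ Q.toValuationSubring) :
    Q.adicValuation (h - algebraMap k F (valueAt hF Q h)) ≤ exp (-(1 : ℤ)) := by
  have hmem : h - algebraMap k F (valueAt hF Q h) ∈ Q.toValuationSubring :=
    sub_mem hh (Q.algebraMap_mem' _)
  have h0 : valueAt hF Q (h - algebraMap k F (valueAt hF Q h)) = 0 := by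
    rw [valueAt_sub hF Q hh (Q.algebraMap_mem' _), valueAt_algebraMap, sub_self]
  rw [valueAt_eq_zero_iff hF Q hmem] at h0
  rw [Place.adicValuation_le_exp_iff, neg_neg]
  rcases h0 with h0 | h0
  · exact Or.inl h0
  · exact Or.inr h0

open Classical in
/-- **the matrix of `h`** in a local basis at `P`: it has entries in `O_P`, and it reduces to a
matrix which is triangular inside the blocks, with diagonal entries the values `h(Q)`. -/
theorem exists_local_matrix (hE : IsRRField k E) (hF : IsRRField k F) [Infinite k]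
    (P : Place k E) (s : Finset (Place k F)) (hs : ∀ Q ∈ s, Q.restrict E = P)
    (hsum : ∑ Q ∈ s, Q.ramificationIndex E = Module.finrank E F)
    (h : F) (hh : ∀ Q ∈ s, h ∈ Q.toValuationSubring) :
    ∃ (bas : Module.Basis (LocIdx E s) E F)
      (M₀ : Matrix (LocIdx E s) (LocIdx E s) P.toValuationSubring),
      (∀ l j, ((M₀ l j : P.toValuationSubring) : E) = Algebra.leftMulMatrix bas h l j) ∧
      (∀ j, valueHom hE P (M₀ j j) = valueAt hF (j.1 : Place k F) h) ∧
      (∀ l j, l ≠ j → ¬ (l.1 = j.1 ∧ (j.2 : ℕ) < (l.2 : ℕ)) → valueHom hE P (M₀ l j) = 0) := by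
  classical
  obtain ⟨b, hb⟩ := exists_isLocalFam (E := E) hF s
  have hli := hb.linearIndependent hs
  have hcard : Fintype.card (LocIdx E s) = Module.finrank E F := by
    rw [Fintype.card_sigma, ← hsum]
    simp only [Fintype.card_fin]
    exact Finset.sum_coe_sort s (fun Q => Q.ramificationIndex E)
  rcases isEmpty_or_nonempty (LocIdx E s) with hemp | hne
  · -- degenerate case: impossible, since `[F : E] > 0`
    exfalso
    have h1 : Fintype.card (LocIdx E s) = 0 := Fintype.card_eq_zero
    have h2 : 0 < Module.finrank E F := Module.finrank_pos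
    omega
  let bas : Module.Basis (LocIdx E s) E F := basisOfLinearIndependentOfCardEqFinrank hli hcard
  have hbas : ∀ j, bas j = b j := fun j => by
    show (basisOfLinearIndependentOfCardEqFinrank hli hcard) j = b j
    rw [coe_basisOfLinearIndependentOfCardEqFinrank]
  have hrepr : ∀ x : F, ∑ j, algebraMap E F (bas.repr x j) * b j = x := by
    intro x
    conv_rhs => rw [← bas.sum_repr x]
    refine Finset.sum_congr rfl (fun j _ => ?_)
    rw [Algebra.smul_def, hbas]
  have hv : ∀ Q : {Q : Place k F // Q ∈ s}, (Q : Place k F).adicValuation h ≤ 1 :=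
    fun Q => Place.adicValuation_le_one_of_mem _ (hh Q Q.2)
  have hint : ∀ l j, P.adicValuation (bas.repr (h * b j) l) ≤ 1 := by
    intro l j
    refine hb.integral hs (fun l => bas.repr (h * b j) l) (fun Q => ?_) l
    rw [hrepr, map_mul]
    calc _ ≤ (1 : ℤᵐ⁰) * 1 := mul_le_mul' (hv Q) (hb.le_one j Q)
      _ = 1 := one_mul 1
  refine ⟨bas, fun l j => ⟨bas.repr (h * b j) l, mem_of_val_le_one P (hint l j)⟩,
    fun l j => ?_, ?_⟩
  · rw [Algebra.leftMulMatrix_eq_repr_mul, hbas]
  -- the reduction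
  have key : ∀ l j : LocIdx E s, ¬ (l.1 = j.1 ∧ (j.2 : ℕ) < (l.2 : ℕ)) →
      valueHom hE P ⟨bas.repr (h * b j) l, mem_of_val_le_one P (hint l j)⟩ =
        if l = j then valueAt hF (j.1 : Place k F) h else 0 := by
    intro l j hlj
    set a : k := valueAt hF (j.1 : Place k F) h with ha
    -- the element `y = (h - a) b_j` and its coordinates
    set y : F := (h - algebraMap k F a) * b j with hy
    have hycoord : ∀ l', bas.repr y l' =
        bas.repr (h * b j) l' - algebraMap k E a * (if l' = j then 1 else 0) := by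
      intro l'
      have h1 : y = h * b j - (algebraMap k E a) • bas j := by
        rw [hy, sub_mul, Algebra.smul_def, hbas, ← IsScalarTower.algebraMap_apply]
      rw [h1, map_sub, map_smul, Module.Basis.repr_self, Finsupp.sub_apply, Finsupp.smul_apply,
        Finsupp.single_apply, smul_eq_mul]
      congr 2
      by_cases hl' : j = l'
      · rw [if_pos hl', if_pos hl'.symm]
      · rw [if_neg hl', if_neg (fun h => hl' h.symm)]
    have hyself : (j.1 : Place k F).adicValuation
        (∑ l', algebraMap E F (bas.repr y l') * b l') ≤ exp (-(((j.2 : ℕ) : ℤ) + 1)) := by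
      rw [hrepr, hy, map_mul, hb.self j]
      calc _ ≤ exp (-(1 : ℤ)) * exp (-((j.2 : ℕ) : ℤ)) :=
            mul_le_mul' (val_sub_value_le hF _ (hh _ j.1.2)) le_rfl
        _ = exp (-(((j.2 : ℕ) : ℤ) + 1)) := by
            rw [← exp_add]
            congr 1
            ring
    have hyother : ∀ Q : {Q : Place k F // Q ∈ s}, Q ≠ j.1 →
        (Q : Place k F).adicValuation (∑ l', algebraMap E F (bas.repr y l') * b l') ≤
          exp (-(((Q : Place k F).ramificationIndex E : ℕ) : ℤ)) := by
      intro Q hQ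
      rw [hrepr, hy, map_mul]
      have h1 : (Q : Place k F).adicValuation (h - algebraMap k F a) ≤ 1 :=
        Place.adicValuation_le_one_of_mem _ (sub_mem (hh Q Q.2) ((Q : Place k F).algebraMap_mem' _))
      calc _ ≤ 1 * exp (-(((Q : Place k F).ramificationIndex E : ℕ) : ℤ)) :=
            mul_le_mul' h1 (hb.other j Q hQ)
        _ = _ := one_mul _
    have htri := hb.triangular hs (fun l' => bas.repr y l') j hyself hyother l
    have hyint : ∀ l', P.adicValuation (bas.repr y l') ≤ 1 := by
      refine hb.integral hs (fun l' => bas.repr y l') (fun Q => ?_)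
      by_cases hQ : Q = j.1
      · rw [hQ]
        refine hyself.trans ?_
        rw [← exp_zero, exp_le_exp]
        omega
      · refine (hyother Q hQ).trans ?_
        rw [← exp_zero, exp_le_exp]
        omega
    have hlt : P.adicValuation (bas.repr y l) < 1 :=
      lt_of_le_of_ne (hyint l) (fun h1 => hlj (htri h1))
    have h0 := valueHom_eq_zero_of_val_lt hE P ⟨bas.repr y l, mem_of_val_le_one P (hyint l)⟩ hlt
    have hsplit : (⟨bas.repr y l, mem_of_val_le_one P (hyint l)⟩ : P.toValuationSubring) =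
        ⟨bas.repr (h * b j) l, mem_of_val_le_one P (hint l j)⟩ -
          algebraMap k P.toValuationSubring a * (if l = j then 1 else 0) := by
      apply Subtype.ext
      have hc := hycoord l
      show (bas.repr y l : E) = _
      rw [hc]
      by_cases hl : l = j
      · rw [if_pos hl, if_pos hl]
        rfl
      · rw [if_neg hl, if_neg hl, mul_zero, mul_zero, sub_zero]
        show _ = ((⟨bas.repr (h * b j) l, mem_of_val_le_one P (hint l j)⟩ - 0 :
          P.toValuationSubring) : E)
        rw [sub_zero]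
    have h0' : valueHom hE P (⟨bas.repr (h * b j) l, mem_of_val_le_one P (hint l j)⟩ -
          algebraMap k P.toValuationSubring a * (if l = j then 1 else 0)) = 0 := by
      have := h0
      rw [show (⟨bas.repr y l, mem_of_val_le_one P (hyint l)⟩ : P.toValuationSubring) = _ from
        hsplit] at this
      exact this
    rw [RingHom.map_sub, RingHom.map_mul, valueHom_algebraMap, sub_eq_zero] at h0'
    rw [h0']
    by_cases hl : l = j
    · rw [if_pos hl, if_pos hl, map_one, mul_one]
    · rw [if_neg hl, if_neg hl, map_zero, mul_zero]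
  constructor
  · intro j
    have := key j j (fun h1 => lt_irrefl _ h1.2)
    rw [if_pos rfl] at this
    exact this
  · intro l j hne hlj
    have := key l j hlj
    rw [if_neg hne] at this
    exact this

/-- products over `LocIdx E s` of a function of the place. -/
theorem prod_locIdx {M : Type*} [CommMonoid M] (s : Finset (Place k F)) (f : Place k F → M) :
    ∏ j : LocIdx E s, f (j.1 : Place k F) = ∏ Q ∈ s, f Q ^ Q.ramificationIndex E := by
  classical
  rw [Fintype.prod_sigma]
  simp only [Finset.prod_const, Finset.card_univ, Fintype.card_fin]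
  exact Finset.prod_coe_sort s (fun Q => f Q ^ Q.ramificationIndex E)

/-- **VALUES OF NORMS.**  `F / E` a finite extension of function fields over an infinite field
`k`, `P` a place of `E`, `s` a set of places of `F` over `P` with `Σ e_Q = [F : E]`, and `h`
regular at all `Q ∈ s`.  Then `N_{F/E}(h)` is regular at `P`, with value
`∏_{Q ∈ s} h(Q) ^ e_Q`. -/
theorem valNorm (hE : IsRRField k E) (hF : IsRRField k F) [Infinite k]
    (P : Place k E) (s : Finset (Place k F)) (hs : ∀ Q ∈ s, Q.restrict E = P)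
    (hsum : ∑ Q ∈ s, Q.ramificationIndex E = Module.finrank E F)
    (h : F) (hh : ∀ Q ∈ s, h ∈ Q.toValuationSubring) :
    Algebra.norm E h ∈ P.toValuationSubring ∧
      valueAt hE P (Algebra.norm E h) = ∏ Q ∈ s, valueAt hF Q h ^ Q.ramificationIndex E := by
  classical
  obtain ⟨bas, M₀, hM, hdiag, hoff⟩ := exists_local_matrix hE hF P s hs hsum h hh
  have hmat : Algebra.leftMulMatrix bas h = P.toValuationSubring.subtype.mapMatrix M₀ := by
    ext l j
    rw [RingHom.mapMatrix_apply, Matrix.map_apply, ← hM]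
    rfl
  have hnorm : Algebra.norm E h = ((M₀.det : P.toValuationSubring) : E) := by
    rw [Algebra.norm_eq_matrix_det bas h, hmat, ← RingHom.map_det]
    rfl
  have hmem : Algebra.norm E h ∈ P.toValuationSubring := by
    rw [hnorm]
    exact M₀.det.2
  refine ⟨hmem, ?_⟩
  rw [valueAt_of_mem hE P hmem]
  have h1 : (⟨Algebra.norm E h, hmem⟩ : P.toValuationSubring) = M₀.det := Subtype.ext hnorm
  rw [h1, RingHom.map_det]
  have h2 := (det_charpoly_of_sigma_triangular ((valueHom hE P).mapMatrix M₀) (fun l j hne hlj => by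
    rw [RingHom.mapMatrix_apply, Matrix.map_apply]
    exact hoff l j hne hlj)).1
  rw [h2]
  have h3 : ∀ j : LocIdx E s, ((valueHom hE P).mapMatrix M₀) j j =
      valueAt hF (j.1 : Place k F) h := fun j => by
    rw [RingHom.mapMatrix_apply, Matrix.map_apply]
    exact hdiag j
  rw [Finset.prod_congr rfl (fun j _ => h3 j)]
  exact prod_locIdx s (fun Q => valueAt hF Q h)

/-- **VALUES OF CHARACTERISTIC POLYNOMIALS.**  Same situation: the characteristic polynomial of
(multiplication by) `h` over `E` has coefficients in `O_P`, and it reduces at `P` to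
`∏_{Q ∈ s} (X - h(Q)) ^ e_Q`. -/
theorem valCharpoly (hE : IsRRField k E) (hF : IsRRField k F) [Infinite k]
    (P : Place k E) (s : Finset (Place k F)) (hs : ∀ Q ∈ s, Q.restrict E = P)
    (hsum : ∑ Q ∈ s, Q.ramificationIndex E = Module.finrank E F)
    (h : F) (hh : ∀ Q ∈ s, h ∈ Q.toValuationSubring) :
    ∃ Φ₀ : Polynomial P.toValuationSubring,
      Φ₀.Monic ∧ Φ₀.natDegree = Module.finrank E F ∧
      Φ₀.map P.toValuationSubring.subtype = (Algebra.lmul E F h).charpoly ∧
      Φ₀.map (valueHom hE P) = ∏ Q ∈ s, (X - C (valueAt hF Q h)) ^ Q.ramificationIndex E := by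
  classical
  obtain ⟨bas, M₀, hM, hdiag, hoff⟩ := exists_local_matrix hE hF P s hs hsum h hh
  have hmat : Algebra.leftMulMatrix bas h = P.toValuationSubring.subtype.mapMatrix M₀ := by
    ext l j
    rw [RingHom.mapMatrix_apply, Matrix.map_apply, ← hM]
    rfl
  have hcard : Fintype.card (LocIdx E s) = Module.finrank E F := by
    rw [Module.finrank_eq_card_basis bas]
  refine ⟨M₀.charpoly, Matrix.charpoly_monic M₀, ?_, ?_, ?_⟩
  · rw [Matrix.charpoly_natDegree_eq_dim, hcard]
  · rw [← Matrix.charpoly_map, ← RingHom.mapMatrix_apply, ← hmat]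
    have : Algebra.leftMulMatrix bas h = LinearMap.toMatrix bas bas (Algebra.lmul E F h) := rfl
    rw [this, LinearMap.charpoly_toMatrix]
  · rw [← Matrix.charpoly_map, ← RingHom.mapMatrix_apply]
    have h2 := (det_charpoly_of_sigma_triangular ((valueHom hE P).mapMatrix M₀)
      (fun l j hne hlj => by
        rw [RingHom.mapMatrix_apply, Matrix.map_apply]
        exact hoff l j hne hlj)).2
    rw [h2]
    have h3 : ∀ j : LocIdx E s, ((valueHom hE P).mapMatrix M₀) j j =
        valueAt hF (j.1 : Place k F) h := fun j => by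
      rw [RingHom.mapMatrix_apply, Matrix.map_apply]
      exact hdiag j
    rw [Finset.prod_congr rfl (fun j _ => by rw [h3 j])]
    exact prod_locIdx s (fun Q => X - C (valueAt hF Q h))

end Main

end Fermat.Agent.S36
end
end MergeWrap_S36_Norm_ValNormGen

section MergeWrap_S36_Norm_ValNormX -- from S36/Norm/ValNormX.lean

set_option autoImplicit false
set_option linter.unusedSectionVars false
set_option linter.style.haveILetI false

noncomputable section

namespace Fermat.Agent.S36

open AlgebraicCurve Fermat.Agent.RR Fermat.Agent.FF IntermediateField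
open Fermat.Agent.BadRed (ValAt)

section Basic

variable {K F : Type*} [Field K] [Field F] [Algebra K F]

/-- `ValAt` in terms of `valueAt`. -/
theorem vnx_valAt_iff (hF : IsRRField K F) (Q : Place K F) (f : F) (c : K) :
    ValAt Q f c ↔ f ∈ Q.toValuationSubring ∧ valueAt hF Q f = c := by
  constructor
  · rintro (h | h)
    · rw [h]
      exact ⟨Q.algebraMap_mem' c, valueAt_algebraMap hF Q c⟩
    · have hm : f - algebraMap K F c ∈ Q.toValuationSubring :=
        Fermat.Agent.S24Res.mem_of_ord_nonneg Q h.le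
      have hf : f ∈ Q.toValuationSubring := by
        have := add_mem hm (Q.algebraMap_mem' c)
        rwa [sub_add_cancel] at this
      exact ⟨hf, valueAt_eq_of_ord_pos hF Q h⟩
  · rintro ⟨hf, hv⟩
    exact (valueAt_eq_iff hF Q hf c).mp hv

end Basic

section Tower

variable {K E F : Type*} [Field K] [Field E] [Field F] [Algebra K E] [Algebra K F] [Algebra E F]
  [IsScalarTower K E F] [FiniteDimensional E F]

/-- values of functions coming from the subfield. -/
theorem vnx_valAt_algebraMap_iff (Q : Place K F) (a : E) (c : K) :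
    ValAt Q (algebraMap E F a) c ↔ ValAt (Q.restrict E) a c := by
  have h1 : algebraMap K F c = algebraMap E F (algebraMap K E c) :=
    IsScalarTower.algebraMap_apply K E F c
  have he : 0 < Q.ramificationIndex E := Q.ramificationIndex_pos (F := E)
  unfold ValAt
  rw [h1, ← map_sub, Q.ord_restrict (F := E)]
  constructor
  · rintro (h | h)
    · exact Or.inl ((algebraMap E F).injective h)
    · right
      by_contra hcon
      push Not at hcon
      have : (Q.ramificationIndex E : ℤ) * (Q.restrict E).ord (a - algebraMap K E c) ≤ 0 :=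
        mul_nonpos_of_nonneg_of_nonpos (Int.natCast_nonneg _) hcon
      omega
  · rintro (h | h)
    · exact Or.inl (congrArg _ h)
    · right
      have : (0 : ℤ) < Q.ramificationIndex E := by exact_mod_cast he
      exact mul_pos this h

/-- **VAL-NORM, general case** (no separability, any infinite constant field), `ValAt` form. -/
theorem vnx_valAt_norm (hE : IsRRField K E) (hF : IsRRField K F) [Infinite K]
    (P : Place K E) (s : Finset (Place K F)) (hs : ∀ Q ∈ s, Q.restrict E = P)
    (hsum : ∑ Q ∈ s, Q.ramificationIndex E = Module.finrank E F)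
    (h : F) (c : Place K F → K) (hf : ∀ Q ∈ s, ValAt Q h (c Q)) :
    ValAt P (Algebra.norm E h) (∏ Q ∈ s, c Q ^ Q.ramificationIndex E) := by
  have hmem : ∀ Q ∈ s, h ∈ Q.toValuationSubring :=
    fun Q hQ => ((vnx_valAt_iff hF Q h (c Q)).mp (hf Q hQ)).1
  obtain ⟨h1, h2⟩ := valNorm hE hF P s hs hsum h hmem
  rw [vnx_valAt_iff hE]
  refine ⟨h1, ?_⟩
  rw [h2]
  exact Finset.prod_congr rfl fun Q hQ => by
    rw [((vnx_valAt_iff hF Q h (c Q)).mp (hf Q hQ)).2]

/-- **VAL-NORM over a rational subfield `E = K(t)`, at the pole of `t`** (generic form):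
`s` = the poles of `t` in `F`.  The norm of `h`, seen in `F`, takes the value
`∏_{Q ∈ s} h(Q) ^ (-ord_Q t)` at every pole of `t`. -/
theorem vnx_valAt_norm_poles_gen (hE : IsRRField K E) (hF : IsRRField K F) [Infinite K]
    {t : E} (ht : Transcendental K t) (htop : K⟮t⟯ = ⊤)
    (s : Finset (Place K F)) (hs : ∀ Q, Q ∈ s ↔ Q.ord (algebraMap E F t) < 0)
    (hdeg : ∑ Q ∈ s, (-(Q.ord (algebraMap E F t))).toNat = Module.finrank E F)
    (h : F) (c : Place K F → K) (hf : ∀ Q ∈ s, ValAt Q h (c Q)) :
    ∀ Q₀ ∈ s, ValAt Q₀ (algebraMap E F (Algebra.norm E h))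
      (∏ Q ∈ s, c Q ^ (-(Q.ord (algebraMap E F t))).toNat) := by
  obtain ⟨P, hP⟩ := Fermat.Agent.GenusEq.poleFibres_exists_isCoord hE ht htop
  have hres : ∀ Q ∈ s, Q.restrict E = P ∧
      Q.ramificationIndex E = (-(Q.ord (algebraMap E F t))).toNat := by
    intro Q hQ
    have h1 := (hs Q).mp hQ
    have h2 := Q.ord_restrict (F := E) t
    have he : 0 < Q.ramificationIndex E := Q.ramificationIndex_pos (F := E)
    have h3 : (Q.restrict E).ord t < 0 := by
      by_contra hcon
      push Not at hcon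
      have : (0 : ℤ) ≤ (Q.ramificationIndex E : ℤ) * (Q.restrict E).ord t :=
        mul_nonneg (Int.natCast_nonneg _) hcon
      omega
    have h4 : Q.restrict E = P := by
      by_contra hne
      have := hP.ord_nonneg _ hne
      omega
    refine ⟨h4, ?_⟩
    rw [h2, h4, hP.ord_pole]
    have : -((Q.ramificationIndex E : ℤ) * -1) = (Q.ramificationIndex E : ℤ) := by ring
    rw [this, Int.toNat_natCast]
  have hsum : ∑ Q ∈ s, Q.ramificationIndex E = Module.finrank E F := by
    rw [← hdeg]
    exact Finset.sum_congr rfl fun Q hQ => (hres Q hQ).2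
  have key := vnx_valAt_norm hE hF P s (fun Q hQ => (hres Q hQ).1) hsum h c hf
  intro Q₀ hQ₀
  rw [vnx_valAt_algebraMap_iff, (hres Q₀ hQ₀).1]
  have e : ∏ Q ∈ s, c Q ^ (-(Q.ord (algebraMap E F t))).toNat =
      ∏ Q ∈ s, c Q ^ Q.ramificationIndex E :=
    Finset.prod_congr rfl fun Q hQ => by rw [(hres Q hQ).2]
  rw [e]
  exact key

end Tower

section Rational

variable {K F : Type*} [Field K] [Field F] [Algebra K F]

/-- the generator of `K(x)` generates `K(x)`. -/
theorem vnx_adjoin_gen_eq_top (x : F) :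
    (K⟮AdjoinSimple.gen K x⟯ : IntermediateField K K⟮x⟯) = ⊤ := by
  apply IntermediateField.map_injective (K⟮x⟯.val)
  rw [IntermediateField.adjoin_map, Set.image_singleton, ← AlgHom.fieldRange_eq_map,
    IntermediateField.fieldRange_val]
  rfl

theorem vnx_transcendental_gen {x : F} (hx : Transcendental K x) :
    Transcendental K (AdjoinSimple.gen K x) := by
  intro h
  apply hx
  have := (isAlgebraic_algHom_iff (K⟮x⟯.val) (K⟮x⟯.val).toRingHom.injective).mpr h
  exact this

/-- `K(x)` satisfies the standing hypotheses of the Riemann-Roch library. -/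
theorem vnx_isRRField_adjoin [IsAlgClosed K] {x : F} (hx : Transcendental K x) :
    IsRRField K K⟮x⟯ := by
  have htop := vnx_adjoin_gen_eq_top (K := K) x
  haveI : FiniteDimensional K⟮AdjoinSimple.gen K x⟯ K⟮x⟯ :=
    Fermat.Agent.GenusEq.poleFibres_finiteDimensional_of_top htop
  haveI : Algebra.IsSeparable K⟮AdjoinSimple.gen K x⟯ K⟮x⟯ := by
    rw [Algebra.isSeparable_def]
    intro a
    have ha : a ∈ K⟮AdjoinSimple.gen K x⟯ := by
      rw [htop]
      exact IntermediateField.mem_top
    exact isSeparable_algebraMap (⟨a, ha⟩ : K⟮AdjoinSimple.gen K x⟯)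
  exact isRRField_of_separable (vnx_transcendental_gen hx)

/-- the degree of the pole divisor, as a sum over the poles. -/
theorem vnx_sum_poles (hF : IsRRField K F) {x : F} (hx : Transcendental K x)
    [FiniteDimensional K⟮x⟯ F] (s : Finset (Place K F)) (hs : ∀ Q, Q ∈ s ↔ Q.ord x < 0) :
    ∑ Q ∈ s, (-(Q.ord x)).toNat = Module.finrank K⟮x⟯ F := by
  have h1 := Fermat.Agent.RRHur.degree_poleDiv_eq_finrank hF hx
  have h2 : Divisor.degree (poleDiv hF x) = ∑ Q ∈ s, poleDiv hF x Q := by
    apply Fermat.Agent.RRHur.fibreDeg_degree_eq_sum_of_subset hF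
    intro Q hQ
    rw [Finsupp.mem_support_iff, poleDiv_apply] at hQ
    rw [hs]
    by_contra hcon
    push Not at hcon
    exact hQ (max_eq_right (by omega))
  rw [h2] at h1
  have h3 : ∑ Q ∈ s, poleDiv hF x Q = ((∑ Q ∈ s, (-(Q.ord x)).toNat : ℕ) : ℤ) := by
    rw [Nat.cast_sum]
    refine Finset.sum_congr rfl fun Q hQ => ?_
    have := (hs Q).mp hQ
    rw [poleDiv_apply, max_eq_left (by omega), Int.toNat_of_nonneg (by omega)]
  rw [h3] at h1
  exact_mod_cast h1

/-- **VAL-NORM over `K(x)` at the poles of `x`**: if `h` takes the value `c Q` at every pole `Q`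
of `x`, then `N_{F/K(x)}(h)`, seen in `F`, takes the value `∏_Q c Q ^ (-ord_Q x)` at every pole
of `x`. -/
theorem vnx_valAt_norm_poles [IsAlgClosed K] (hF : IsRRField K F) {x : F}
    (hx : Transcendental K x) [FiniteDimensional K⟮x⟯ F]
    (s : Finset (Place K F)) (hs : ∀ Q, Q ∈ s ↔ Q.ord x < 0)
    (h : F) (c : Place K F → K) (hf : ∀ Q ∈ s, ValAt Q h (c Q)) :
    ∀ Q₀ ∈ s, ValAt Q₀ (algebraMap K⟮x⟯ F (Algebra.norm K⟮x⟯ h))
      (∏ Q ∈ s, c Q ^ (-(Q.ord x)).toNat) := by
  haveI : Infinite K := IsAlgClosed.instInfinite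
  exact vnx_valAt_norm_poles_gen (vnx_isRRField_adjoin hx) hF (vnx_transcendental_gen hx)
    (vnx_adjoin_gen_eq_top x) s hs (vnx_sum_poles hF hx s hs) h c hf

/-- **VAL-NORM over `K(x)` at the zeros of `x`**: if `h` takes the value `c Q` at every zero `Q`
of `x`, then `N_{F/K(x)}(h)`, seen in `F`, takes the value `∏_Q c Q ^ (ord_Q x)` at every zero
of `x`. -/
theorem vnx_valAt_norm_zeros [IsAlgClosed K] (hF : IsRRField K F) {x : F}
    (hx : Transcendental K x) [FiniteDimensional K⟮x⟯ F]
    (s : Finset (Place K F)) (hs : ∀ Q, Q ∈ s ↔ 0 < Q.ord x)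
    (h : F) (c : Place K F → K) (hf : ∀ Q ∈ s, ValAt Q h (c Q)) :
    ∀ Q₀ ∈ s, ValAt Q₀ (algebraMap K⟮x⟯ F (Algebra.norm K⟮x⟯ h))
      (∏ Q ∈ s, c Q ^ (Q.ord x).toNat) := by
  haveI : Infinite K := IsAlgClosed.instInfinite
  have hx' : Transcendental K x⁻¹ := fun halg => hx (by simpa using halg.inv)
  have hadj : K⟮x⁻¹⟯ = K⟮x⟯ := adjoin_simple_inv_eq x
  haveI : FiniteDimensional K⟮x⁻¹⟯ F := by rw [hadj]; infer_instance
  have hs' : ∀ Q, Q ∈ s ↔ Q.ord x⁻¹ < 0 := by
    intro Q
    rw [hs, Place.ord_inv]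
    omega
  have hsum := vnx_sum_poles hF hx' s hs'
  rw [finrank_adjoin_simple_inv_eq] at hsum
  -- the element `t = gen⁻¹` of `K(x)`
  have ht : Transcendental K (AdjoinSimple.gen K x)⁻¹ := fun halg =>
    vnx_transcendental_gen hx (by simpa using halg.inv)
  have htop : (K⟮(AdjoinSimple.gen K x)⁻¹⟯ : IntermediateField K K⟮x⟯) = ⊤ := by
    rw [adjoin_simple_inv_eq]
    exact vnx_adjoin_gen_eq_top x
  have hmap : algebraMap K⟮x⟯ F (AdjoinSimple.gen K x)⁻¹ = x⁻¹ := by
    rw [map_inv₀, AdjoinSimple.algebraMap_gen]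
  have key := vnx_valAt_norm_poles_gen (vnx_isRRField_adjoin hx) hF ht htop s
    (by intro Q; rw [hmap]; exact hs' Q) (by rw [hmap]; exact hsum) h c hf
  intro Q₀ hQ₀
  have := key Q₀ hQ₀
  rw [hmap] at this
  have e : ∏ Q ∈ s, c Q ^ (-(Q.ord x⁻¹)).toNat = ∏ Q ∈ s, c Q ^ (Q.ord x).toNat :=
    Finset.prod_congr rfl fun Q _ => by rw [Place.ord_inv, neg_neg]
  rw [e] at this
  exact this

end Rational

end Fermat.Agent.S36
end
end MergeWrap_S36_Norm_ValNormX

section MergeWrap_Lib_HP_NormVal -- from Lib/HP/NormVal.lean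

set_option autoImplicit false
set_option linter.unusedSectionVars false
set_option linter.unusedVariables false
set_option linter.style.haveILetI false

noncomputable section

open IntermediateField AlgebraicCurve

namespace Fermat.Agent.HP

open Fermat.Agent.RR Fermat.Agent.S36
open Fermat.Agent.BadRed (ValAt)

variable {K F : Type*} [Field K] [Field F] [Algebra K F] {q : ℕ}

namespace HPCurve

variable (H : HPCurve K F q) [IsAlgClosed K] (hq1 : ((q + 1 : ℕ) : K) ≠ 0)

include hq1 in
/-- the end `p_∞` is not a mid end. -/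
theorem pInf_not_mid : ¬ 0 < (H.pInf hq1).ord (H.s - algebraMap K F 1) := by
  intro h
  have h1 := H.ord_s_of_zero_ne (H.pInf hq1) one_ne_zero h
  have h2 := H.pInf_spec hq1
  omega

include hq1 in
/-- the end `p_0` is not a mid end. -/
theorem pZero_not_mid : ¬ 0 < (H.pZero hq1).ord (H.s - algebraMap K F 1) := by
  intro h
  have h1 := H.ord_s_of_zero_ne (H.pZero hq1) one_ne_zero h
  have h2 := H.pZero_spec hq1
  omega

include hq1 in
/-- **the value of `N_{F/K(X₁)}(h)` at `p_0`** (the only zero of `X₁`, of order `q`). -/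
theorem valAt_norm_X1_pZero (h : F) (c : K) (hc : ValAt (H.pZero hq1) h c) :
    ValAt (H.pZero hq1) (algebraMap K⟮H.X1⟯ F (Algebra.norm K⟮H.X1⟯ h)) (c ^ q) := by
  classical
  haveI := H.finiteDimensional_X1
  have key := vnx_valAt_norm_zeros (H.isRRField hq1) H.transc {H.pZero hq1}
    (fun Q => by rw [Finset.mem_singleton, H.ord_X1_pos_iff hq1]) h (fun _ => c)
    (fun Q hQ => by rw [Finset.mem_singleton] at hQ; rw [hQ]; exact hc)
    (H.pZero hq1) (Finset.mem_singleton_self _)
  rw [Finset.prod_singleton, H.ord_X1_pZero hq1, Int.toNat_natCast] at key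
  exact key

include hq1 in
/-- **the value of `N_{F/K(X₁)}(h)` at the poles of `X₁`** (`p_∞`, simple, and the mid ends). -/
theorem valAt_norm_X1_poles (T : Finset (Place K F))
    (hT : ∀ v, v ∈ T ↔ 0 < v.ord (H.s - algebraMap K F 1))
    (h : F) (c : Place K F → K) (hInf : ValAt (H.pInf hq1) h (c (H.pInf hq1)))
    (hmid : ∀ v ∈ T, ValAt v h (c v)) (w : Place K F) (hw : w = H.pInf hq1 ∨ w ∈ T) :
    ValAt w (algebraMap K⟮H.X1⟯ F (Algebra.norm K⟮H.X1⟯ h))
      (c (H.pInf hq1) * ∏ v ∈ T, c v ^ (-(v.ord H.X1)).toNat) := by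
  classical
  haveI := H.finiteDimensional_X1
  have hnot : H.pInf hq1 ∉ T := fun hmem => H.pInf_not_mid hq1 ((hT _).mp hmem)
  have key := vnx_valAt_norm_poles (H.isRRField hq1) H.transc (insert (H.pInf hq1) T)
    (fun Q => by rw [Finset.mem_insert, H.ord_X1_neg_iff hq1, hT]) h c
    (fun Q hQ => by
      rw [Finset.mem_insert] at hQ
      rcases hQ with hQ | hQ
      · rw [hQ]; exact hInf
      · exact hmid Q hQ)
    w (by rw [Finset.mem_insert]; exact hw)
  rw [Finset.prod_insert hnot, H.ord_X1_pInf hq1] at key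
  have e : (-(-1 : ℤ)).toNat = 1 := by decide
  rw [e, pow_one] at key
  exact key

include hq1 in
/-- **the value of `N_{F/K(X₂)}(h)` at `p_∞`** (the only zero of `X₂`, of order `q`). -/
theorem valAt_norm_X2_pInf (h : F) (c : K) (hc : ValAt (H.pInf hq1) h c) :
    ValAt (H.pInf hq1) (algebraMap K⟮H.X2⟯ F (Algebra.norm K⟮H.X2⟯ h)) (c ^ q) := by
  classical
  haveI := H.finiteDimensional_X2 hq1
  have key := vnx_valAt_norm_zeros (H.isRRField hq1) (H.X2_transcendental hq1) {H.pInf hq1}
    (fun Q => by rw [Finset.mem_singleton, H.ord_X2_pos_iff hq1]) h (fun _ => c)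
    (fun Q hQ => by rw [Finset.mem_singleton] at hQ; rw [hQ]; exact hc)
    (H.pInf hq1) (Finset.mem_singleton_self _)
  rw [Finset.prod_singleton, H.ord_X2_pInf hq1, Int.toNat_natCast] at key
  exact key

include hq1 in
/-- **the value of `N_{F/K(X₂)}(h)` at the poles of `X₂`** (`p_0`, simple, and the mid ends). -/
theorem valAt_norm_X2_poles (T : Finset (Place K F))
    (hT : ∀ v, v ∈ T ↔ 0 < v.ord (H.s - algebraMap K F 1))
    (h : F) (c : Place K F → K) (hZero : ValAt (H.pZero hq1) h (c (H.pZero hq1)))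
    (hmid : ∀ v ∈ T, ValAt v h (c v)) (w : Place K F) (hw : w = H.pZero hq1 ∨ w ∈ T) :
    ValAt w (algebraMap K⟮H.X2⟯ F (Algebra.norm K⟮H.X2⟯ h))
      (c (H.pZero hq1) * ∏ v ∈ T, c v ^ (-(v.ord H.X1)).toNat) := by
  classical
  haveI := H.finiteDimensional_X2 hq1
  have hnot : H.pZero hq1 ∉ T := fun hmem => H.pZero_not_mid hq1 ((hT _).mp hmem)
  have key := vnx_valAt_norm_poles (H.isRRField hq1) (H.X2_transcendental hq1)
    (insert (H.pZero hq1) T)
    (fun Q => by rw [Finset.mem_insert, H.ord_X2_neg_iff hq1, hT]) h c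
    (fun Q hQ => by
      rw [Finset.mem_insert] at hQ
      rcases hQ with hQ | hQ
      · rw [hQ]; exact hZero
      · exact hmid Q hQ)
    w (by rw [Finset.mem_insert]; exact hw)
  rw [Finset.prod_insert hnot, H.ord_X2_pZero hq1] at key
  have e : (-(-1 : ℤ)).toNat = 1 := by decide
  rw [e, pow_one] at key
  have e2 : ∏ v ∈ T, c v ^ (-(v.ord H.X2)).toNat = ∏ v ∈ T, c v ^ (-(v.ord H.X1)).toNat :=
    Finset.prod_congr rfl fun v hv => by rw [H.ord_X2_mid v ((hT v).mp hv)]
  rw [e2] at key
  exact key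

include hq1 in
/-- the exponent at the mid end, `q` even. -/
theorem mid_exp_even (hq : Even q) (v : Place K F)
    (hv : 0 < v.ord (H.s - algebraMap K F 1)) : (-(v.ord H.X1)).toNat = q - 1 := by
  rw [H.ord_X1_mid_even hq1 hq v hv, neg_neg]
  have := H.q_two
  omega

include hq1 in
/-- the exponent at the mid ends, `q` odd. -/
theorem mid_exp_odd (hq : Odd q) (h2 : (2 : K) ≠ 0) (v : Place K F)
    (hv : 0 < v.ord (H.s - algebraMap K F 1)) : (-(v.ord H.X1)).toNat = H.m - 1 := by
  rw [H.ord_X1_mid_odd hq1 hq h2 v hv, neg_neg]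
  have := H.m_pos hq
  omega

end HPCurve

end Fermat.Agent.HP
end
end MergeWrap_Lib_HP_NormVal

section MergeWrap_S36_Norm_ValNormE -- from S36/Norm/ValNormE.lean

set_option autoImplicit false
set_option linter.unusedSectionVars false
set_option linter.style.haveILetI false

noncomputable section

namespace Fermat.Agent.S36

open AlgebraicCurve Fermat.Agent.RR Fermat.Agent.FF IntermediateField
open Fermat.Agent.BadRed (ValAt)

variable {K E F : Type*} [Field K] [Field E] [Field F] [Algebra K E] [Algebra K F] [Algebra E F]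
  [IsScalarTower K E F]

/-- a rational function field satisfies the standing hypotheses of the Riemann-Roch library. -/
theorem vne_isRRField_of_top [IsAlgClosed K] {t : E} (ht : Transcendental K t)
    (htop : K⟮t⟯ = ⊤) : IsRRField K E := by
  haveI : FiniteDimensional K⟮t⟯ E :=
    Fermat.Agent.GenusEq.poleFibres_finiteDimensional_of_top htop
  haveI : Algebra.IsSeparable K⟮t⟯ E := by
    rw [Algebra.isSeparable_def]
    intro a
    have ha : a ∈ K⟮t⟯ := by
      rw [htop]
      exact IntermediateField.mem_top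
    exact isSeparable_algebraMap (⟨a, ha⟩ : K⟮t⟯)
  exact isRRField_of_separable ht

/-- the image of `E = K(t)` in `F` is `K(t_F)`. -/
theorem vne_adjoin_eq_fieldRange {t : E} (htop : K⟮t⟯ = ⊤) :
    K⟮algebraMap E F t⟯ = (IsScalarTower.toAlgHom K E F).fieldRange := by
  have h1 : (K⟮t⟯).map (IsScalarTower.toAlgHom K E F) =
      K⟮(IsScalarTower.toAlgHom K E F) t⟯ := by
    rw [adjoin_map, Set.image_singleton]
  rw [htop, ← AlgHom.fieldRange_eq_map] at h1
  rw [h1]
  rfl

theorem vne_transcendental_map {t : E} (ht : Transcendental K t) :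
    Transcendental K (algebraMap E F t) := by
  intro h
  exact ht ((isAlgebraic_algHom_iff (IsScalarTower.toAlgHom K E F)
    (IsScalarTower.toAlgHom K E F).toRingHom.injective).mp h)

/-- `[F : K(t_F)] = [F : E]` for `E = K(t)`. -/
theorem vne_finrank_eq {t : E} (htop : K⟮t⟯ = ⊤) :
    Module.finrank K⟮algebraMap E F t⟯ F = Module.finrank E F := by
  have hmem : ∀ a : E, algebraMap E F a ∈ K⟮algebraMap E F t⟯ := by
    intro a
    rw [vne_adjoin_eq_fieldRange htop]
    exact ⟨a, rfl⟩
  have hsurj : ∀ b : K⟮algebraMap E F t⟯, ∃ a : E, algebraMap E F a = (b : F) := by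
    intro b
    have hb : (b : F) ∈ (IsScalarTower.toAlgHom K E F).fieldRange :=
      vne_adjoin_eq_fieldRange (F := F) htop ▸ b.2
    obtain ⟨a, ha⟩ := hb
    exact ⟨a, ha⟩
  let f : E →+* K⟮algebraMap E F t⟯ :=
    { toFun := fun a => ⟨algebraMap E F a, hmem a⟩
      map_one' := Subtype.ext (map_one _)
      map_mul' := fun a b => Subtype.ext (map_mul _ a b)
      map_zero' := Subtype.ext (map_zero _)
      map_add' := fun a b => Subtype.ext (map_add _ a b) }
  have hf : Function.Bijective f := by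
    constructor
    · intro a b hab
      exact (algebraMap E F).injective (congrArg Subtype.val hab)
    · intro b
      obtain ⟨a, ha⟩ := hsurj b
      exact ⟨a, Subtype.ext ha⟩
  symm
  exact Algebra.finrank_eq_of_equiv_equiv (RingEquiv.ofBijective f hf) (RingEquiv.refl F)
    (by ext a; rfl)

theorem vne_finiteDimensional {t : E} (htop : K⟮t⟯ = ⊤) [FiniteDimensional E F] :
    FiniteDimensional K⟮algebraMap E F t⟯ F := by
  apply Module.finite_of_finrank_pos
  rw [vne_finrank_eq htop]
  exact Module.finrank_pos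

variable [FiniteDimensional E F]

/-- **VAL-NORM over `E = K(t)` at the poles of `t`.** -/
theorem vne_valAt_norm_poles [IsAlgClosed K] (hF : IsRRField K F) {t : E}
    (ht : Transcendental K t) (htop : K⟮t⟯ = ⊤)
    (s : Finset (Place K F)) (hs : ∀ Q, Q ∈ s ↔ Q.ord (algebraMap E F t) < 0)
    (h : F) (c : Place K F → K) (hf : ∀ Q ∈ s, ValAt Q h (c Q)) :
    ∀ Q₀ ∈ s, ValAt Q₀ (algebraMap E F (Algebra.norm E h))
      (∏ Q ∈ s, c Q ^ (-(Q.ord (algebraMap E F t))).toNat) := by
  haveI : Infinite K := IsAlgClosed.instInfinite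
  haveI := vne_finiteDimensional (F := F) htop
  have htF : Transcendental K (algebraMap E F t) := vne_transcendental_map ht
  have hdeg := vnx_sum_poles hF htF s hs
  rw [vne_finrank_eq htop] at hdeg
  exact vnx_valAt_norm_poles_gen (vne_isRRField_of_top ht htop) hF ht htop s hs hdeg h c hf

/-- **VAL-NORM over `E = K(t)` at the zeros of `t`.** -/
theorem vne_valAt_norm_zeros [IsAlgClosed K] (hF : IsRRField K F) {t : E}
    (ht : Transcendental K t) (htop : K⟮t⟯ = ⊤)
    (s : Finset (Place K F)) (hs : ∀ Q, Q ∈ s ↔ 0 < Q.ord (algebraMap E F t))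
    (h : F) (c : Place K F → K) (hf : ∀ Q ∈ s, ValAt Q h (c Q)) :
    ∀ Q₀ ∈ s, ValAt Q₀ (algebraMap E F (Algebra.norm E h))
      (∏ Q ∈ s, c Q ^ (Q.ord (algebraMap E F t)).toNat) := by
  have ht' : Transcendental K t⁻¹ := fun halg => ht (by simpa using halg.inv)
  have htop' : K⟮t⁻¹⟯ = ⊤ := by
    rw [adjoin_simple_inv_eq]
    exact htop
  have hmap : algebraMap E F t⁻¹ = (algebraMap E F t)⁻¹ := map_inv₀ _ t
  have key := vne_valAt_norm_poles hF ht' htop' s
    (by intro Q; rw [hmap, Place.ord_inv, hs]; omega) h c hf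
  intro Q₀ hQ₀
  have := key Q₀ hQ₀
  have e : ∏ Q ∈ s, c Q ^ (-(Q.ord (algebraMap E F t⁻¹))).toNat =
      ∏ Q ∈ s, c Q ^ (Q.ord (algebraMap E F t)).toNat :=
    Finset.prod_congr rfl fun Q _ => by rw [hmap, Place.ord_inv, neg_neg]
  rw [e] at this
  exact this

end Fermat.Agent.S36
end
end MergeWrap_S36_Norm_ValNormE

section MergeWrap_Lib_HP_NormValE -- from Lib/HP/NormValE.lean

set_option autoImplicit false
set_option linter.unusedSectionVars false
set_option linter.unusedVariables false
set_option linter.style.haveILetI false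

noncomputable section

open IntermediateField AlgebraicCurve

namespace Fermat.Agent.HP

open Fermat.Agent.RR Fermat.Agent.S36
open Fermat.Agent.BadRed (ValAt)

variable {K F : Type*} [Field K] [Field F] [Algebra K F] {q : ℕ}

namespace HPCurve

variable (H : HPCurve K F q) [IsAlgClosed K] (hq1 : ((q + 1 : ℕ) : K) ≠ 0)
  {E : Type*} [Field E] [Algebra K E] [Algebra E F] [IsScalarTower K E F] [FiniteDimensional E F]

/-- an element of `E` mapping to a transcendental element is transcendental. -/
theorem transcendental_of_map {x : E} {y : F} (hx : algebraMap E F x = y)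
    (hy : Transcendental K y) : Transcendental K x := by
  intro h
  apply hy
  rw [← hx]
  exact (isAlgebraic_algHom_iff (IsScalarTower.toAlgHom K E F)
    (IsScalarTower.toAlgHom K E F).toRingHom.injective).mpr h

include hq1 in
/-- **the value of `N_{F/E}(h)` at `p_0`**, `E = K(x)`, `x ↦ X₁`. -/
theorem valAt_normE_X1_pZero {x : E} (hgen : K⟮x⟯ = ⊤) (hx : algebraMap E F x = H.X1)
    (h : F) (c : K) (hc : ValAt (H.pZero hq1) h c) :
    ValAt (H.pZero hq1) (algebraMap E F (Algebra.norm E h)) (c ^ q) := by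
  classical
  have key := vne_valAt_norm_zeros (H.isRRField hq1) (transcendental_of_map hx H.transc) hgen
    {H.pZero hq1} (fun Q => by rw [Finset.mem_singleton, hx, H.ord_X1_pos_iff hq1]) h
    (fun _ => c) (fun Q hQ => by rw [Finset.mem_singleton] at hQ; rw [hQ]; exact hc)
    (H.pZero hq1) (Finset.mem_singleton_self _)
  rw [Finset.prod_singleton, hx, H.ord_X1_pZero hq1, Int.toNat_natCast] at key
  exact key

include hq1 in
/-- **the value of `N_{F/E}(h)` at the poles of `X₁`**, `E = K(x)`, `x ↦ X₁`. -/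
theorem valAt_normE_X1_poles {x : E} (hgen : K⟮x⟯ = ⊤) (hx : algebraMap E F x = H.X1)
    (T : Finset (Place K F)) (hT : ∀ v, v ∈ T ↔ 0 < v.ord (H.s - algebraMap K F 1))
    (h : F) (c : Place K F → K) (hInf : ValAt (H.pInf hq1) h (c (H.pInf hq1)))
    (hmid : ∀ v ∈ T, ValAt v h (c v)) (w : Place K F) (hw : w = H.pInf hq1 ∨ w ∈ T) :
    ValAt w (algebraMap E F (Algebra.norm E h))
      (c (H.pInf hq1) * ∏ v ∈ T, c v ^ (-(v.ord H.X1)).toNat) := by
  classical
  have hnot : H.pInf hq1 ∉ T := fun hmem => H.pInf_not_mid hq1 ((hT _).mp hmem)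
  have key := vne_valAt_norm_poles (H.isRRField hq1) (transcendental_of_map hx H.transc) hgen
    (insert (H.pInf hq1) T)
    (fun Q => by rw [Finset.mem_insert, hx, H.ord_X1_neg_iff hq1, hT]) h c
    (fun Q hQ => by
      rw [Finset.mem_insert] at hQ
      rcases hQ with hQ | hQ
      · rw [hQ]; exact hInf
      · exact hmid Q hQ)
    w (by rw [Finset.mem_insert]; exact hw)
  rw [Finset.prod_insert hnot, hx, H.ord_X1_pInf hq1] at key
  have e : (-(-1 : ℤ)).toNat = 1 := by decide
  rw [e, pow_one] at key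
  exact key

include hq1 in
/-- **the value of `N_{F/E}(h)` at `p_∞`**, `E = K(x)`, `x ↦ X₂`. -/
theorem valAt_normE_X2_pInf {x : E} (hgen : K⟮x⟯ = ⊤) (hx : algebraMap E F x = H.X2)
    (h : F) (c : K) (hc : ValAt (H.pInf hq1) h c) :
    ValAt (H.pInf hq1) (algebraMap E F (Algebra.norm E h)) (c ^ q) := by
  classical
  have key := vne_valAt_norm_zeros (H.isRRField hq1)
    (transcendental_of_map hx (H.X2_transcendental hq1)) hgen
    {H.pInf hq1} (fun Q => by rw [Finset.mem_singleton, hx, H.ord_X2_pos_iff hq1]) h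
    (fun _ => c) (fun Q hQ => by rw [Finset.mem_singleton] at hQ; rw [hQ]; exact hc)
    (H.pInf hq1) (Finset.mem_singleton_self _)
  rw [Finset.prod_singleton, hx, H.ord_X2_pInf hq1, Int.toNat_natCast] at key
  exact key

include hq1 in
/-- **the value of `N_{F/E}(h)` at the poles of `X₂`**, `E = K(x)`, `x ↦ X₂`. -/
theorem valAt_normE_X2_poles {x : E} (hgen : K⟮x⟯ = ⊤) (hx : algebraMap E F x = H.X2)
    (T : Finset (Place K F)) (hT : ∀ v, v ∈ T ↔ 0 < v.ord (H.s - algebraMap K F 1))
    (h : F) (c : Place K F → K) (hZero : ValAt (H.pZero hq1) h (c (H.pZero hq1)))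
    (hmid : ∀ v ∈ T, ValAt v h (c v)) (w : Place K F) (hw : w = H.pZero hq1 ∨ w ∈ T) :
    ValAt w (algebraMap E F (Algebra.norm E h))
      (c (H.pZero hq1) * ∏ v ∈ T, c v ^ (-(v.ord H.X1)).toNat) := by
  classical
  have hnot : H.pZero hq1 ∉ T := fun hmem => H.pZero_not_mid hq1 ((hT _).mp hmem)
  have key := vne_valAt_norm_poles (H.isRRField hq1)
    (transcendental_of_map hx (H.X2_transcendental hq1)) hgen
    (insert (H.pZero hq1) T)
    (fun Q => by rw [Finset.mem_insert, hx, H.ord_X2_neg_iff hq1, hT]) h c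
    (fun Q hQ => by
      rw [Finset.mem_insert] at hQ
      rcases hQ with hQ | hQ
      · rw [hQ]; exact hZero
      · exact hmid Q hQ)
    w (by rw [Finset.mem_insert]; exact hw)
  rw [Finset.prod_insert hnot, hx, H.ord_X2_pZero hq1] at key
  have e : (-(-1 : ℤ)).toNat = 1 := by decide
  rw [e, pow_one] at key
  have e2 : ∏ v ∈ T, c v ^ (-(v.ord H.X2)).toNat =
      ∏ v ∈ T, c v ^ (-(v.ord H.X1)).toNat :=
    Finset.prod_congr rfl fun v hv => by rw [H.ord_X2_mid v ((hT v).mp hv)]
  rw [e2] at key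
  exact key

end HPCurve

end Fermat.Agent.HP
end
end MergeWrap_Lib_HP_NormValE

section MergeWrap_S36_Norm_ValNormTot -- from S36/Norm/ValNormTot.lean

set_option autoImplicit false
set_option linter.unusedSectionVars false
set_option linter.style.haveILetI false

noncomputable section

namespace Fermat.Agent.S36

open AlgebraicCurve Fermat.Agent.RR Fermat.Agent.FF IntermediateField
open Fermat.Agent.BadRed (ValAt)

section Alg

variable {K F : Type*} [Field K] [Field F] [Algebra K F]

/-- values of products. -/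
theorem vnt_valAt_mul (hF : IsRRField K F) (Q : Place K F) {f g : F} {a b : K}
    (hf : ValAt Q f a) (hg : ValAt Q g b) : ValAt Q (f * g) (a * b) := by
  rw [vnx_valAt_iff hF] at hf hg ⊢
  refine ⟨mul_mem hf.1 hg.1, ?_⟩
  rw [valueAt_mul hF Q hf.1 hg.1, hf.2, hg.2]

/-- the value of `1`. -/
theorem vnt_valAt_one (Q : Place K F) : ValAt Q (1 : F) (1 : K) :=
  Or.inl (map_one _).symm

/-- values of powers. -/
theorem vnt_valAt_pow (hF : IsRRField K F) (Q : Place K F) {f : F} {a : K}
    (hf : ValAt Q f a) (n : ℕ) : ValAt Q (f ^ n) (a ^ n) := by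
  induction n with
  | zero =>
    rw [pow_zero, pow_zero]
    exact vnt_valAt_one Q
  | succ n ih =>
    rw [pow_succ, pow_succ]
    exact vnt_valAt_mul hF Q ih hf

/-- values of finite products. -/
theorem vnt_valAt_prod (hF : IsRRField K F) (Q : Place K F) {ι : Type*} (s : Finset ι)
    (f : ι → F) (a : ι → K) (hf : ∀ i ∈ s, ValAt Q (f i) (a i)) :
    ValAt Q (∏ i ∈ s, f i) (∏ i ∈ s, a i) := by
  classical
  induction s using Finset.induction_on with
  | empty =>
    rw [Finset.prod_empty, Finset.prod_empty]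
    exact vnt_valAt_one Q
  | insert i s hi ih =>
    rw [Finset.prod_insert hi, Finset.prod_insert hi]
    exact vnt_valAt_mul hF Q (hf i (Finset.mem_insert_self i s))
      (ih fun j hj => hf j (Finset.mem_insert_of_mem hj))

/-- a nonzero value is the value of a unit: the order is `0`. -/
theorem vnt_ord_eq_zero (hF : IsRRField K F) (Q : Place K F) {f : F} {a : K}
    (hf : ValAt Q f a) (ha : a ≠ 0) : Q.ord f = 0 := by
  rcases hf with h | h
  · rw [h]
    exact Fermat.Agent.S24Res.ord_algebraMap Q a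
  · have hmem : f - algebraMap K F a ∈ Q.toValuationSubring :=
      Fermat.Agent.S24Res.mem_of_ord_nonneg Q h.le
    have hf' : f ∈ Q.toValuationSubring := by
      have := add_mem hmem (Q.algebraMap_mem' a)
      rwa [sub_add_cancel] at this
    have hv : valueAt hF Q f = a := valueAt_eq_of_ord_pos hF Q h
    by_contra hne
    have h0 : valueAt hF Q f = 0 := by
      rw [valueAt_eq_zero_iff hF Q hf']
      by_cases hf0 : f = 0
      · exact Or.inl hf0
      · right
        have hnn : 0 ≤ Q.ord f := by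
          have := (Place.adicValuation_le_one_iff Q).mp
            (Place.adicValuation_le_one_of_mem Q hf')
          rcases this with h1 | h1
          · exact absurd h1 hf0
          · exact h1
        omega
    exact ha (hv ▸ h0)

end Alg

section Tower

variable {K E F : Type*} [Field K] [Field E] [Field F] [Algebra K E] [Algebra K F] [Algebra E F]
  [IsScalarTower K E F] [FiniteDimensional E F]

/-- **VAL-NORM at a totally ramified place** (general case). -/
theorem vnt_valAt_norm_totRam (hE : IsRRField K E) (hF : IsRRField K F) [Infinite K]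
    (P : Place K E) (Q : Place K F) (hQ : Q.restrict E = P)
    (he : Q.ramificationIndex E = Module.finrank E F) (h : F) (c : K) (hc : ValAt Q h c) :
    ValAt P (Algebra.norm E h) (c ^ Module.finrank E F) := by
  classical
  have key := vnx_valAt_norm hE hF P {Q}
    (fun Q' hQ' => by rw [Finset.mem_singleton] at hQ'; rw [hQ']; exact hQ)
    (by rw [Finset.sum_singleton]; exact he) h (fun _ => c)
    (fun Q' hQ' => by rw [Finset.mem_singleton] at hQ'; rw [hQ']; exact hc)
  rw [Finset.prod_singleton, he] at key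
  exact key

/-- **VAL-NORM at a totally ramified place**, the norm seen in `F`. -/
theorem vnt_valAt_norm_totRam' (hE : IsRRField K E) (hF : IsRRField K F) [Infinite K]
    (Q : Place K F) (he : Q.ramificationIndex E = Module.finrank E F) (h : F) (c : K)
    (hc : ValAt Q h c) :
    ValAt Q (algebraMap E F (Algebra.norm E h)) (c ^ Module.finrank E F) := by
  rw [vnx_valAt_algebraMap_iff]
  exact vnt_valAt_norm_totRam hE hF (Q.restrict E) Q rfl he h c hc

end Tower

end Fermat.Agent.S36
end
end MergeWrap_S36_Norm_ValNormTot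

section MergeWrap_S36_G_NormValues -- from S36/G/NormValues.lean

set_option autoImplicit false
set_option linter.unusedSectionVars false
set_option linter.unusedVariables false
set_option linter.style.haveILetI false

noncomputable section

open IntermediateField AlgebraicCurve

namespace Fermat.Agent.S36G

open Fermat.Agent.RR Fermat.Agent.S36 Fermat.Agent.HP
open Fermat.Agent.BadRed (ValAt)

/-! ### transport along an equality of vertices -/

section Cast

variable {k : Type*} [Field k] {κ : Type*} {Fk : κ → Type*} [∀ c, Field (Fk c)]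
  [∀ c, Algebra k (Fk c)]

/-- values do not see a cast of the vertex. -/
theorem nv_valAt_cast {c c' : κ} (hc : c = c') (Q : Place k (Fk c)) (H : ∀ c, Fk c) (a : k) :
    ValAt (hc ▸ Q) (H c') a ↔ ValAt Q (H c) a := by
  subst hc
  rfl

/-- orders do not see a cast of the vertex. -/
theorem nv_ord_cast {c c' : κ} (hc : c = c') (Q : Place k (Fk c)) (H : ∀ c, Fk c) :
    (hc ▸ Q : Place k (Fk c')).ord (H c') = Q.ord (H c) := by
  subst hc
  rfl

end Cast

/-! ### the horizontal component `H_P` -/

section Hor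

variable {K F : Type*} [Field K] [Field F] [Algebra K F] {q : ℕ}
  (H : HPCurve K F q) [IsAlgClosed K] (hq1 : ((q + 1 : ℕ) : K) ≠ 0)
  {E : Type*} [Field E] [Algebra K E] [Algebra E F] [IsScalarTower K E F] [FiniteDimensional E F]
  {Mid : Type} [Fintype Mid]

include hq1 in
/-- the finite set of the mid ends and the auxiliary value function. -/
theorem nv_mid_data (pm : Mid → Place K F) (hpm : Function.Injective pm)
    (hmid : ∀ v : Place K F, 0 < v.ord (H.s - algebraMap K F 1) ↔ ∃ m, v = pm m)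
    (bInf : K) (bm : Mid → K) :
    ∃ (T : Finset (Place K F)) (c : Place K F → K),
      (∀ v, v ∈ T ↔ 0 < v.ord (H.s - algebraMap K F 1)) ∧ c (H.pInf hq1) = bInf ∧
      c (H.pZero hq1) = bInf ∧ (∀ m, c (pm m) = bm m) ∧ (∀ m, pm m ∈ T) ∧
      ∀ f : Place K F → K, ∏ v ∈ T, f v = ∏ m, f (pm m) := by
  classical
  refine ⟨Finset.univ.image pm,
    fun v => if h : ∃ m, pm m = v then bm h.choose else bInf, ?_, ?_, ?_, ?_, ?_, ?_⟩
  · intro v
    rw [hmid, Finset.mem_image]
    constructor
    · rintro ⟨m, -, hm⟩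
      exact ⟨m, hm.symm⟩
    · rintro ⟨m, hm⟩
      exact ⟨m, Finset.mem_univ m, hm.symm⟩
  · have hno : ¬ ∃ m, pm m = H.pInf hq1 := by
      rintro ⟨m, hm⟩
      exact H.pInf_not_mid hq1 ((hmid _).mpr ⟨m, hm.symm⟩)
    show (if h : ∃ m, pm m = H.pInf hq1 then bm h.choose else bInf) = bInf
    rw [dif_neg hno]
  · have hno : ¬ ∃ m, pm m = H.pZero hq1 := by
      rintro ⟨m, hm⟩
      exact H.pZero_not_mid hq1 ((hmid _).mpr ⟨m, hm.symm⟩)
    show (if h : ∃ m, pm m = H.pZero hq1 then bm h.choose else bInf) = bInf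
    rw [dif_neg hno]
  · intro m
    have hex : ∃ m', pm m' = pm m := ⟨m, rfl⟩
    show (if h : ∃ m', pm m' = pm m then bm h.choose else bInf) = bm m
    rw [dif_pos hex]
    exact congrArg bm (hpm hex.choose_spec)
  · intro m
    exact Finset.mem_image_of_mem pm (Finset.mem_univ m)
  · intro f
    exact Finset.prod_image fun a _ b _ hab => hpm hab

include hq1 in
/-- **values of `N_{k(H_P)/k(W)}(h)` at the ends** (`x ↦ X₁`), indexed by `Mid`. -/
theorem nv_hor_X1 {x : E} (hgen : K⟮x⟯ = ⊤) (hx : algebraMap E F x = H.X1)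
    (pm : Mid → Place K F) (hpm : Function.Injective pm)
    (hmid : ∀ v : Place K F, 0 < v.ord (H.s - algebraMap K F 1) ↔ ∃ m, v = pm m)
    (e : ℕ) (he : ∀ m, (-((pm m).ord H.X1)).toNat = e)
    (h : F) (bInf bZero : K) (bm : Mid → K)
    (hInf : ValAt (H.pInf hq1) h bInf) (hZero : ValAt (H.pZero hq1) h bZero)
    (hm : ∀ m, ValAt (pm m) h (bm m)) :
    ValAt (H.pInf hq1) (algebraMap E F (Algebra.norm E h)) (bInf * ∏ m, bm m ^ e) ∧
    (∀ m, ValAt (pm m) (algebraMap E F (Algebra.norm E h)) (bInf * ∏ m, bm m ^ e)) ∧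
    ValAt (H.pZero hq1) (algebraMap E F (Algebra.norm E h)) (bZero ^ q) := by
  obtain ⟨T, c, hT, hcInf, -, hcm, hmem, hprod⟩ := nv_mid_data H hq1 pm hpm hmid bInf bm
  have key := H.valAt_normE_X1_poles hq1 hgen hx T hT h c (by rw [hcInf]; exact hInf)
    (fun v hv => by
      obtain ⟨m, rfl⟩ := (hmid v).mp ((hT v).mp hv)
      rw [hcm]
      exact hm m)
  have e1 : c (H.pInf hq1) * ∏ v ∈ T, c v ^ (-(v.ord H.X1)).toNat = bInf * ∏ m, bm m ^ e := by
    rw [hcInf, hprod fun v => c v ^ (-(v.ord H.X1)).toNat]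
    congr 1
    exact Finset.prod_congr rfl fun m _ => by rw [hcm, he]
  rw [e1] at key
  exact ⟨key _ (Or.inl rfl), fun m => key _ (Or.inr (hmem m)),
    H.valAt_normE_X1_pZero hq1 hgen hx h bZero hZero⟩

include hq1 in
/-- **values of `N_{k(H_P)/k(Zc)}(h)` at the ends** (`x ↦ X₂`), indexed by `Mid`. -/
theorem nv_hor_X2 {x : E} (hgen : K⟮x⟯ = ⊤) (hx : algebraMap E F x = H.X2)
    (pm : Mid → Place K F) (hpm : Function.Injective pm)
    (hmid : ∀ v : Place K F, 0 < v.ord (H.s - algebraMap K F 1) ↔ ∃ m, v = pm m)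
    (e : ℕ) (he : ∀ m, (-((pm m).ord H.X1)).toNat = e)
    (h : F) (bInf bZero : K) (bm : Mid → K)
    (hInf : ValAt (H.pInf hq1) h bInf) (hZero : ValAt (H.pZero hq1) h bZero)
    (hm : ∀ m, ValAt (pm m) h (bm m)) :
    ValAt (H.pZero hq1) (algebraMap E F (Algebra.norm E h)) (bZero * ∏ m, bm m ^ e) ∧
    (∀ m, ValAt (pm m) (algebraMap E F (Algebra.norm E h)) (bZero * ∏ m, bm m ^ e)) ∧
    ValAt (H.pInf hq1) (algebraMap E F (Algebra.norm E h)) (bInf ^ q) := by
  obtain ⟨T, c, hT, -, hcZero, hcm, hmem, hprod⟩ := nv_mid_data H hq1 pm hpm hmid bZero bm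
  have key := H.valAt_normE_X2_poles hq1 hgen hx T hT h c (by rw [hcZero]; exact hZero)
    (fun v hv => by
      obtain ⟨m, rfl⟩ := (hmid v).mp ((hT v).mp hv)
      rw [hcm]
      exact hm m)
  have e1 : c (H.pZero hq1) * ∏ v ∈ T, c v ^ (-(v.ord H.X1)).toNat = bZero * ∏ m, bm m ^ e := by
    rw [hcZero, hprod fun v => c v ^ (-(v.ord H.X1)).toNat]
    congr 1
    exact Finset.prod_congr rfl fun m _ => by rw [hcm, he]
  rw [e1] at key
  exact ⟨key _ (Or.inl rfl), fun m => key _ (Or.inr (hmem m)),
    H.valAt_normE_X2_pInf hq1 hgen hx h bInf hInf⟩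

end Hor

/-! ### the vertical components -/

section Vert

variable {k Fk0 : Type*} [Field k] [Field Fk0] [Algebra k Fk0]
  {Mid : Type} [Fintype Mid] {FkM : Mid → Type*} [∀ m, Field (FkM m)] [∀ m, Algebra k (FkM m)]
  [∀ m, Algebra Fk0 (FkM m)] [∀ m, IsScalarTower k Fk0 (FkM m)]
  [∀ m, FiniteDimensional Fk0 (FkM m)]

/-- **values of `y ∏_m N_{FkM m / Fk0}(x_m)`** at a place `P₀` of `Fk0` which is totally ramified
in every `FkM m` (place `P_m` over `P₀`, `e(P_m | P₀) = [FkM m : Fk0] = e`). -/
theorem nv_vert [Infinite k] (h0 : IsRRField k Fk0) (hM : ∀ m, IsRRField k (FkM m))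
    (P₀ : Place k Fk0) (Pm : ∀ m, Place k (FkM m))
    (hres : ∀ m, (Pm m).restrict Fk0 = P₀) (e : ℕ)
    (he : ∀ m, (Pm m).ramificationIndex Fk0 = e) (hdeg : ∀ m, Module.finrank Fk0 (FkM m) = e)
    (y : Fk0) (x : ∀ m, FkM m) (a : k) (am : Mid → k)
    (hy : ValAt P₀ y a) (hx : ∀ m, ValAt (Pm m) (x m) (am m)) :
    ValAt P₀ (y * ∏ m, Algebra.norm Fk0 (x m)) (a * ∏ m, am m ^ e) ∧
    ∀ m, ValAt (Pm m) (algebraMap Fk0 (FkM m) (y * ∏ m, Algebra.norm Fk0 (x m)))
      (a * ∏ m, am m ^ e) := by
  have key : ValAt P₀ (y * ∏ m, Algebra.norm Fk0 (x m)) (a * ∏ m, am m ^ e) := by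
    refine vnt_valAt_mul h0 P₀ hy (vnt_valAt_prod h0 P₀ _ _ _ fun m _ => ?_)
    have := vnt_valAt_norm_totRam h0 (hM m) P₀ (Pm m) (hres m)
      (by rw [he, hdeg]) (x m) (am m) (hx m)
    rwa [hdeg] at this
  refine ⟨key, fun m => ?_⟩
  rw [vnx_valAt_algebraMap_iff, hres m]
  exact key

/-- values of powers (for `H_0 = h_0 ^ q`). -/
theorem nv_pow (h0 : IsRRField k Fk0) (P₀ : Place k Fk0) (y : Fk0) (a : k) (hy : ValAt P₀ y a)
    (q : ℕ) : ValAt P₀ (y ^ q) (a ^ q) :=
  vnt_valAt_pow h0 P₀ hy q

end Vert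

end Fermat.Agent.S36G
end
end MergeWrap_S36_G_NormValues
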