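import Mathlib
import Fermat.Agent.MU.S36.G.EndsDict
import Fermat.Agent.MU.S36.Seed.Ends
import Fermat.Agent.MU.S36.Seed.Main
import Fermat.Agent.MU.Lib.BadRed.Graph.Deuring.Main

section MergeWrap_S36_G_EndsDictMod -- from S36/G/EndsDictMod.lean

set_option autoImplicit false
set_option linter.unusedSectionVars false
set_option linter.unusedVariables false
set_option linter.style.haveILetI false

noncomputable section

open IntermediateField AlgebraicCurve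

namespace Fermat.Agent.S36G

open Fermat.Agent.RR Fermat.Agent.S36 Fermat.Agent.HP Fermat.Agent.Deuring
open Fermat.Agent.BadRed Fermat.Agent.BadRedG

section EndsDictMod

variable {K F k : Type} [Field K] [Field F] [Algebra K F] [Field k] [IsAlgClosed k]
  {Mid SS : Type} [Fintype Mid] [Fintype SS]
  {Fk0 : Type} [Field Fk0] [Algebra k Fk0]
  {FkM : Mid → Type} [∀ m, Field (FkM m)] [∀ m, Algebra k (FkM m)]
  {FkP : SS → Type} [∀ P, Field (FkP P)] [∀ P, Algebra k (FkP P)]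
  (E : ModEndsInput K F k Mid SS Fk0 FkM FkP)
  {q : ℕ} (H : ∀ P : SS, HPCurve k (FkOf Fk0 FkM FkP (Vtx.hor P)) q)

/-! ### the three sets of ends on `H_P` -/

omit [IsAlgClosed k] in
theorem edm_mem_PJA_iff_red (P : SS) (Q : Place k (FkOf Fk0 FkM FkP (Vtx.hor P))) :
    (⟨Vtx.hor P, Q⟩ : Σ c, Place k (FkOf Fk0 FkM FkP c)) ∈ E.PJA ↔
      0 < Q.ord ((E.S (Vtx.hor P)).red (algebraMap K F E.ϖA / E.uA)) := by
  rw [E.mem_PJA]
  exact ⟨fun h => h.2, fun h => ⟨⟨P, rfl⟩, h⟩⟩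

omit [IsAlgClosed k] in
theorem edm_mem_PJ1_iff_red (P : SS) (Q : Place k (FkOf Fk0 FkM FkP (Vtx.hor P))) :
    (⟨Vtx.hor P, Q⟩ : Σ c, Place k (FkOf Fk0 FkM FkP c)) ∈ E.PJ1 ↔
      0 < Q.ord ((E.S (Vtx.hor P)).red (algebraMap K F E.ϖ1 / E.u1)) := by
  rw [E.mem_PJ1]
  exact ⟨fun h => h.2, fun h => ⟨⟨P, rfl⟩, h⟩⟩

omit [IsAlgClosed k] in
theorem edm_mem_PJ2_iff_red (P : SS) (Q : Place k (FkOf Fk0 FkM FkP (Vtx.hor P))) :
    (⟨Vtx.hor P, Q⟩ : Σ c, Place k (FkOf Fk0 FkM FkP c)) ∈ E.PJ2 ↔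
      0 < Q.ord ((E.S (Vtx.hor P)).red E.u2) := by
  rw [E.mem_PJ2]
  exact ⟨fun h => h.2, fun h => ⟨⟨P, rfl⟩, h⟩⟩

variable {E H}
variable (hxA : EndsRedA E.S H (algebraMap K F E.ϖA / E.uA))
  (hx1 : EndsRed1 E.S H (algebraMap K F E.ϖ1 / E.u1))
  (hx2 : EndsRed2 E.S H E.u2)

include hxA in
/-- `p ∈ PJA` on `H_P` : the zeros of `X₂`. -/
theorem edm_mem_PJA_iff (P : SS) (Q : Place k (FkOf Fk0 FkM FkP (Vtx.hor P))) :
    (⟨Vtx.hor P, Q⟩ : Σ c, Place k (FkOf Fk0 FkM FkP c)) ∈ E.PJA ↔ 0 < Q.ord (H P).X2 := by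
  rw [edm_mem_PJA_iff_red, hxA.ord P Q]
  constructor <;> intro h <;> omega

include hx1 in
/-- `p ∈ PJ1` on `H_P` : the poles of `X₁`. -/
theorem edm_mem_PJ1_iff (P : SS) (Q : Place k (FkOf Fk0 FkM FkP (Vtx.hor P))) :
    (⟨Vtx.hor P, Q⟩ : Σ c, Place k (FkOf Fk0 FkM FkP c)) ∈ E.PJ1 ↔ Q.ord (H P).X1 < 0 := by
  rw [edm_mem_PJ1_iff_red, hx1.ord P Q]
  constructor <;> intro h <;> omega

include hx2 in
/-- `p ∈ PJ2` on `H_P` : the zeros of `X₁`. -/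
theorem edm_mem_PJ2_iff (P : SS) (Q : Place k (FkOf Fk0 FkM FkP (Vtx.hor P))) :
    (⟨Vtx.hor P, Q⟩ : Σ c, Place k (FkOf Fk0 FkM FkP c)) ∈ E.PJ2 ↔ 0 < Q.ord (H P).X1 := by
  rw [edm_mem_PJ2_iff_red, hx2.ord P Q]
  constructor <;> intro h <;> omega

include hxA hx1 in
/-- `p ∈ PJM` on `H_P` : the poles of `X₁` which are not zeros of `X₂`. -/
theorem edm_mem_PJM_iff (P : SS) (Q : Place k (FkOf Fk0 FkM FkP (Vtx.hor P))) :
    (⟨Vtx.hor P, Q⟩ : Σ c, Place k (FkOf Fk0 FkM FkP c)) ∈ E.PJM ↔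
      Q.ord (H P).X1 < 0 ∧ ¬ 0 < Q.ord (H P).X2 := by
  rw [E.mem_PJM, edm_mem_PJ1_iff hx1, edm_mem_PJA_iff hxA]

/-! ### the branches of the graph -/

variable {N : GraphSetup K F k (Vtx Mid SS) (FkOf Fk0 FkM FkP) (Nod Mid SS)}
  (htgt : ∀ i, N.tgt i = nodTgt i)
  (hN : ∀ i, (⟨N.tgt i, N.s₂ i⟩ : Σ c, Place k (FkOf Fk0 FkM FkP c)) = E.toMatchInput.ptH i)

include hN in
/-- the plain branch `nlTgt N htgt P v` is the labelled end `s₂ (P, v)` of the seed data. -/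
theorem edm_nlTgt_sigma (P : SS) (v : Vrt Mid) :
    (⟨Vtx.hor P, nlTgt N htgt P v⟩ : Σ c, Place k (FkOf Fk0 FkM FkP c)) =
      E.toMatchInput.ptH (P, v) :=
  (nlTgt_sigma N htgt P v).trans (hN (P, v))

include hN in
theorem edm_nlTgt_memA (P : SS) :
    (⟨Vtx.hor P, nlTgt N htgt P Vrt.oo⟩ : Σ c, Place k (FkOf Fk0 FkM FkP c)) ∈ E.PJA := by
  rw [edm_nlTgt_sigma htgt hN]
  exact E.toMatchInput.ptH_memA P

include hN in
theorem edm_nlTgt_memM (P : SS) (m : Mid) :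
    (⟨Vtx.hor P, nlTgt N htgt P (Vrt.mid m)⟩ : Σ c, Place k (FkOf Fk0 FkM FkP c)) ∈ E.PJM := by
  rw [edm_nlTgt_sigma htgt hN]
  exact E.toMatchInput.ptH_memM P m

include hN in
theorem edm_nlTgt_mem2 (P : SS) :
    (⟨Vtx.hor P, nlTgt N htgt P Vrt.zero⟩ : Σ c, Place k (FkOf Fk0 FkM FkP c)) ∈ E.PJ2 := by
  rw [edm_nlTgt_sigma htgt hN]
  exact E.toMatchInput.ptH_mem2 P

include hN in
/-- a point of `H_P` which is an end is a branch `nlTgt N htgt P w`. -/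
theorem edm_exists_nlTgt (P : SS) (Q : Place k (FkOf Fk0 FkM FkP (Vtx.hor P)))
    (h : (⟨Vtx.hor P, Q⟩ : Σ c, Place k (FkOf Fk0 FkM FkP c)) ∈ E.PJA ∨
      (⟨Vtx.hor P, Q⟩ : Σ c, Place k (FkOf Fk0 FkM FkP c)) ∈ E.PJM ∨
      (⟨Vtx.hor P, Q⟩ : Σ c, Place k (FkOf Fk0 FkM FkP c)) ∈ E.PJ2) :
    ∃ w, Q = nlTgt N htgt P w := by
  obtain ⟨⟨P', w⟩, hi⟩ := (E.toMatchInput.exists_ptH_iff ⟨Vtx.hor P, Q⟩).mpr h
  have h1 : (Vtx.hor P' : Vtx Mid SS) = Vtx.hor P := congrArg Sigma.fst hi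
  have h2 : P' = P := Vtx.hor.inj h1
  subst h2
  refine ⟨w, eq_nlTgt_of_sigma N htgt P' w Q ?_⟩
  rw [hN (P', w)]
  exact hi.symm

/-! ### the hypotheses of `nl_val_NP_X1_div`, `nl_val_NP_X2_div` -/

include hN hxA in
/-- **`hI`**: `X₂` vanishes at `s₂ (P, ∞)`. -/
theorem edm_hI (P : SS) : 0 < (nlTgt N htgt P Vrt.oo).ord (H P).X2 :=
  (edm_mem_PJA_iff hxA P _).mp (edm_nlTgt_memA htgt hN P)

include hN hx2 in
/-- **`hZ`**: `X₁` vanishes at `s₂ (P, 0)`. -/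
theorem edm_hZ (P : SS) : 0 < (nlTgt N htgt P Vrt.zero).ord (H P).X1 :=
  (edm_mem_PJ2_iff hx2 P _).mp (edm_nlTgt_mem2 htgt hN P)

include hN hxA hx1 in
/-- **`hm2`**: `X₂` does not vanish at `s₂ (P, m)`. -/
theorem edm_hm2 (P : SS) (m : Mid) : ¬ 0 < (nlTgt N htgt P (Vrt.mid m)).ord (H P).X2 :=
  ((edm_mem_PJM_iff hxA hx1 P _).mp (edm_nlTgt_memM htgt hN P m)).2

include hN hxA hx1 in
/-- `X₁` has a pole at `s₂ (P, m)`. -/
theorem edm_hm1_neg (P : SS) (m : Mid) : (nlTgt N htgt P (Vrt.mid m)).ord (H P).X1 < 0 :=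
  ((edm_mem_PJM_iff hxA hx1 P _).mp (edm_nlTgt_memM htgt hN P m)).1

include hN hxA hx1 in
/-- **`hcover`**: every pole of `X₁` on `H_P` is a branch. -/
theorem edm_hcover (P : SS) (v : Place k (FkOf Fk0 FkM FkP (Vtx.hor P)))
    (hv : v.ord (H P).X1 < 0) : ∃ w, v = nlTgt N htgt P w := by
  classical
  have h1 : (⟨Vtx.hor P, v⟩ : Σ c, Place k (FkOf Fk0 FkM FkP c)) ∈ E.PJ1 :=
    (edm_mem_PJ1_iff hx1 P v).mpr hv
  rw [E.PJ1_eq, Finset.mem_union] at h1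
  rcases h1 with h1 | h1
  · exact edm_exists_nlTgt htgt hN P v (Or.inl h1)
  · exact edm_exists_nlTgt htgt hN P v (Or.inr (Or.inl h1))

variable (hq : q.Prime) [CharP k q]

include hN hxA hx1 hq in
/-- **`hm1`**: `ord X₁ = - midDeg q` at `s₂ (P, m)`. -/
theorem edm_hm1 (P : SS) (m : Mid) :
    (nlTgt N htgt P (Vrt.mid m)).ord (H P).X1 = -(midDeg q : ℤ) :=
  ends_ord_X1_of_neg (H P) hq _ (edm_hm1_neg hxA hx1 htgt hN P m) (edm_hm2 hxA hx1 htgt hN P m)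

include hN hxA hx1 hx2 hq in
/-- **THE ENDS DICTIONARY**: `s₂ (P, ∞) = pInf`, `s₂ (P, 0) = pZero` and the `s₂ (P, m)` are
exactly the zeros of `s - 1`. -/
theorem edm_dict (P : SS) :
    nlTgt N htgt P Vrt.oo = (H P).pInf (ends_hq1 hq) ∧
      nlTgt N htgt P Vrt.zero = (H P).pZero (ends_hq1 hq) ∧
      ∀ v : Place k (FkOf Fk0 FkM FkP (Vtx.hor P)),
        0 < v.ord ((H P).s - algebraMap k (FkOf Fk0 FkM FkP (Vtx.hor P)) 1) ↔
          ∃ m, v = nlTgt N htgt P (Vrt.mid m) :=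
  nl_dict N htgt (ends_hq1 hq) H (edm_hI hxA htgt hN) (edm_hZ hx2 htgt hN)
    (edm_hm1_neg hxA hx1 htgt hN) (edm_hm2 hxA hx1 htgt hN) (edm_hcover hxA hx1 htgt hN) P

/-! ### (DIV1), (DIV2) with the exact orders -/

include hN hxA hx1 hx2 hq in
/-- **(DIV1)**: `ord X₁ = -1` at `s₂ (P, ∞)`, `= - midDeg q` at the `s₂ (P, m)`, `= q` at
`s₂ (P, 0)`. -/
theorem edm_div1 (P : SS) :
    (nlTgt N htgt P Vrt.oo).ord (H P).X1 = -1 ∧
      (∀ m, (nlTgt N htgt P (Vrt.mid m)).ord (H P).X1 = -(midDeg q : ℤ)) ∧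
      (nlTgt N htgt P Vrt.zero).ord (H P).X1 = (q : ℤ) := by
  obtain ⟨h1, h2, -⟩ := edm_dict hxA hx1 hx2 htgt hN hq P
  refine ⟨?_, edm_hm1 hxA hx1 htgt hN hq P, ?_⟩
  · rw [h1]
    exact (H P).ord_X1_pInf (ends_hq1 hq)
  · rw [h2]
    exact (H P).ord_X1_pZero (ends_hq1 hq)

include hN hxA hx1 hx2 hq in
/-- **(DIV2)**: `ord X₂ = q` at `s₂ (P, ∞)`, `= - midDeg q` at the `s₂ (P, m)`, `= -1` at
`s₂ (P, 0)`. -/
theorem edm_div2 (P : SS) :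
    (nlTgt N htgt P Vrt.oo).ord (H P).X2 = (q : ℤ) ∧
      (∀ m, (nlTgt N htgt P (Vrt.mid m)).ord (H P).X2 = -(midDeg q : ℤ)) ∧
      (nlTgt N htgt P Vrt.zero).ord (H P).X2 = -1 := by
  obtain ⟨h1, h2, h3⟩ := edm_dict hxA hx1 hx2 htgt hN hq P
  refine ⟨?_, fun m => ?_, ?_⟩
  · rw [h1]
    exact (H P).ord_X2_pInf (ends_hq1 hq)
  · rw [(H P).ord_X2_mid _ ((h3 _).mpr ⟨m, rfl⟩)]
    exact edm_hm1 hxA hx1 htgt hN hq P m
  · rw [h2]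
    exact (H P).ord_X2_pZero (ends_hq1 hq)

include hN hxA hx1 hx2 hq in
/-- **(DIV1)**: `X₁` has no other zero or pole. -/
theorem edm_div1_other (P : SS) (v : Place k (FkOf Fk0 FkM FkP (Vtx.hor P)))
    (hv : ∀ w, v ≠ nlTgt N htgt P w) : v.ord (H P).X1 = 0 := by
  obtain ⟨-, h2, -⟩ := edm_dict hxA hx1 hx2 htgt hN hq P
  by_contra hne
  rcases lt_or_gt_of_ne hne with h | h
  · obtain ⟨w, hw⟩ := edm_hcover hxA hx1 htgt hN P v h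
    exact hv w hw
  · exact hv Vrt.zero (((H P).ord_X1_pos_iff (ends_hq1 hq) v).mp h |>.trans h2.symm)

include hN hxA hx1 hx2 hq in
/-- **(DIV2)**: `X₂` has no other zero or pole. -/
theorem edm_div2_other (P : SS) (v : Place k (FkOf Fk0 FkM FkP (Vtx.hor P)))
    (hv : ∀ w, v ≠ nlTgt N htgt P w) : v.ord (H P).X2 = 0 := by
  obtain ⟨h1, h2, h3⟩ := edm_dict hxA hx1 hx2 htgt hN hq P
  by_contra hne
  rcases lt_or_gt_of_ne hne with h | h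
  · rcases ((H P).ord_X2_neg_iff (ends_hq1 hq) v).mp h with h' | h'
    · exact hv Vrt.zero (h'.trans h2.symm)
    · obtain ⟨m, hm⟩ := (h3 v).mp h'
      exact hv (Vrt.mid m) hm
  · exact hv Vrt.oo (((H P).ord_X2_pos_iff (ends_hq1 hq) v).mp h |>.trans h1.symm)

/-! ### the horizontal value fields of the norm layers -/

section Val

variable {E' : SS → Type*} [∀ P, Field (E' P)] [∀ P, Algebra k (E' P)]
  [∀ P, Algebra (E' P) (FkOf Fk0 FkM FkP (Vtx.hor P))]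
  [∀ P, IsScalarTower k (E' P) (FkOf Fk0 FkM FkP (Vtx.hor P))]
  [∀ P, FiniteDimensional (E' P) (FkOf Fk0 FkM FkP (Vtx.hor P))]

include htgt hN hxA hx1 hx2 hq in
/-- **fields `val_NP_oo`, `val_NP_zero` of `NormLayer1`** for the modular graph
(`e = midDeg q`, `NP = N_{k(H_P)/k(X₁)}`). -/
theorem edm_val_NP_X1 {x : ∀ P, E' P} (hgen : ∀ P, k⟮x P⟯ = ⊤)
    (hx : ∀ P, algebraMap (E' P) (FkOf Fk0 FkM FkP (Vtx.hor P)) (x P) = (H P).X1)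
    (NP : ∀ P : SS, FkOf Fk0 FkM FkP (Vtx.hor P) →* FkOf Fk0 FkM FkP (Vtx.hor P))
    (hNP : ∀ P y, NP P y =
      algebraMap (E' P) (FkOf Fk0 FkM FkP (Vtx.hor P)) (Algebra.norm (E' P) y)) :
    (∀ (P : SS) (h H' : ∀ c, FkOf Fk0 FkM FkP c) (ca : k) (cm : Mid → k),
      H' (Vtx.hor P) = NP P (h (Vtx.hor P)) →
      ValAt (N.s₂ (P, Vrt.oo)) (h (N.tgt (P, Vrt.oo))) ca →
      (∀ m, ValAt (N.s₂ (P, Vrt.mid m)) (h (N.tgt (P, Vrt.mid m))) (cm m)) →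
      ValAt (N.s₂ (P, Vrt.oo)) (H' (N.tgt (P, Vrt.oo))) (ca * ∏ m, cm m ^ midDeg q) ∧
        ∀ m, ValAt (N.s₂ (P, Vrt.mid m)) (H' (N.tgt (P, Vrt.mid m)))
          (ca * ∏ m, cm m ^ midDeg q)) ∧
    (∀ (P : SS) (h H' : ∀ c, FkOf Fk0 FkM FkP c) (c : k),
      H' (Vtx.hor P) = NP P (h (Vtx.hor P)) →
      ValAt (N.s₂ (P, Vrt.zero)) (h (N.tgt (P, Vrt.zero))) c →
      ValAt (N.s₂ (P, Vrt.zero)) (H' (N.tgt (P, Vrt.zero))) (c ^ q)) :=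
  nl_val_NP_X1_div N htgt (ends_hq1 hq) H hgen hx (edm_hI hxA htgt hN) (edm_hZ hx2 htgt hN)
    (midDeg q) (edm_hm1 hxA hx1 htgt hN hq) (ends_midDeg_pos hq) (edm_hm2 hxA hx1 htgt hN)
    (edm_hcover hxA hx1 htgt hN) NP hNP

include htgt hN hxA hx1 hx2 hq in
/-- **fields `val_NP_zero`, `val_NP_oo` of `NormLayer2`** for the modular graph
(`e = midDeg q`, `NP = N_{k(H_P)/k(X₂)}`). -/
theorem edm_val_NP_X2 {x : ∀ P, E' P} (hgen : ∀ P, k⟮x P⟯ = ⊤)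
    (hx : ∀ P, algebraMap (E' P) (FkOf Fk0 FkM FkP (Vtx.hor P)) (x P) = (H P).X2)
    (NP : ∀ P : SS, FkOf Fk0 FkM FkP (Vtx.hor P) →* FkOf Fk0 FkM FkP (Vtx.hor P))
    (hNP : ∀ P y, NP P y =
      algebraMap (E' P) (FkOf Fk0 FkM FkP (Vtx.hor P)) (Algebra.norm (E' P) y)) :
    (∀ (P : SS) (h H' : ∀ c, FkOf Fk0 FkM FkP c) (ca : k) (cm : Mid → k),
      H' (Vtx.hor P) = NP P (h (Vtx.hor P)) →
      ValAt (N.s₂ (P, Vrt.zero)) (h (N.tgt (P, Vrt.zero))) ca →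
      (∀ m, ValAt (N.s₂ (P, Vrt.mid m)) (h (N.tgt (P, Vrt.mid m))) (cm m)) →
      ValAt (N.s₂ (P, Vrt.zero)) (H' (N.tgt (P, Vrt.zero))) (ca * ∏ m, cm m ^ midDeg q) ∧
        ∀ m, ValAt (N.s₂ (P, Vrt.mid m)) (H' (N.tgt (P, Vrt.mid m)))
          (ca * ∏ m, cm m ^ midDeg q)) ∧
    (∀ (P : SS) (h H' : ∀ c, FkOf Fk0 FkM FkP c) (c : k),
      H' (Vtx.hor P) = NP P (h (Vtx.hor P)) →
      ValAt (N.s₂ (P, Vrt.oo)) (h (N.tgt (P, Vrt.oo))) c →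
      ValAt (N.s₂ (P, Vrt.oo)) (H' (N.tgt (P, Vrt.oo))) (c ^ q)) :=
  nl_val_NP_X2_div N htgt (ends_hq1 hq) H hgen hx (edm_hI hxA htgt hN) (edm_hZ hx2 htgt hN)
    (midDeg q) (edm_hm1 hxA hx1 htgt hN hq) (ends_midDeg_pos hq) (edm_hm2 hxA hx1 htgt hN)
    (edm_hcover hxA hx1 htgt hN) NP hNP

end Val

end EndsDictMod

end Fermat.Agent.S36G
end
end MergeWrap_S36_G_EndsDictMod

section MergeWrap_S36_G_EndsDictYmod -- from S36/G/EndsDictYmod.lean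

set_option autoImplicit false
set_option linter.unusedSectionVars false
set_option linter.unusedVariables false
set_option linter.style.haveILetI false

noncomputable section

open IntermediateField AlgebraicCurve

namespace Fermat.Agent.S36G

open Fermat.Agent.RR Fermat.Agent.S36 Fermat.Agent.HP Fermat.Agent.Deuring
open Fermat.Agent.BadRed Fermat.Agent.BadRedG

section EndsDictYmod

variable {K F k : Type} [Field K] [Field F] [Algebra K F] [Field k] [IsAlgClosed k]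
  {Mid SS : Type} [Fintype Mid] [Fintype SS] [Nonempty SS]
  {Fk0 : Type} [Field Fk0] [Algebra k Fk0]
  {FkM : Mid → Type} [∀ m, Field (FkM m)] [∀ m, Algebra k (FkM m)]
  {FkP : SS → Type} [∀ P, Field (FkP P)] [∀ P, Algebra k (FkP P)]
  {E : ModEndsInput K F k Mid SS Fk0 FkM FkP}
  {q : ℕ} {H : ∀ P : SS, HPCurve k (FkOf Fk0 FkM FkP (Vtx.hor P)) q}

/-- `EndsRed1` for `ϖ1 / u1` from `EndsRed2` for `u2 = u1 / ϖ1`. -/
theorem edy_hx1 (hu2 : E.u2 = E.u1 / algebraMap K F E.ϖ1) (hx2 : EndsRed2 E.S H E.u2) :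
    EndsRed1 E.S H (algebraMap K F E.ϖ1 / E.u1) := by
  have h := hx2.inv
  rwa [hu2, inv_div] at h

variable {b : K} {n : ℕ}
  (hn : 2 ≤ n) (hb : E.ϖ1 ^ n = b) (h12 : E.ϖ1 * E.ϖ2 = b)
  (hu2 : E.u2 = E.u1 / algebraMap K F E.ϖ1)
  (hD₀ : E.D₀ = poleDiv (E.S (Vtx.vert Vrt.oo)).hF (E.ymodX b n))
  (hdeg : Divisor.degree (poleDiv (E.S (Vtx.vert Vrt.oo)).hF (E.ymodX b n)) ≤
    ∑ c, Divisor.degree (poleDiv (E.S c).hFk ((E.S c).red (E.ymodX b n))))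
  (hgenus : genusFF K F + Fintype.card (Vtx Mid SS) ≤
    (∑ c, genusFF k (FkOf Fk0 FkM FkP c)) + Fintype.card (Nod Mid SS) + 1)

/-! ### the `rfl` lemmas -/

theorem edy_hsrc (i : Nod Mid SS) :
    (E.ymodSeed hn hb h12 hu2 hD₀ hdeg hgenus).graphSetup.src i = nodSrc i := rfl

theorem edy_htgt (i : Nod Mid SS) :
    (E.ymodSeed hn hb h12 hu2 hD₀ hdeg hgenus).graphSetup.tgt i = nodTgt i := rfl

theorem edy_hN (i : Nod Mid SS) :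
    (⟨(E.ymodSeed hn hb h12 hu2 hD₀ hdeg hgenus).graphSetup.tgt i,
      (E.ymodSeed hn hb h12 hu2 hD₀ hdeg hgenus).graphSetup.s₂ i⟩ :
        Σ c, Place k (FkOf Fk0 FkM FkP c)) = E.toMatchInput.ptH i := rfl

theorem edy_nlSrc (P : SS) (v : Vrt Mid) :
    nlSrc (E.ymodSeed hn hb h12 hu2 hD₀ hdeg hgenus).graphSetup
      (edy_hsrc hn hb h12 hu2 hD₀ hdeg hgenus) P v = E.pv P v := rfl

theorem edy_nlTgt (P : SS) (v : Vrt Mid) :
    nlTgt (E.ymodSeed hn hb h12 hu2 hD₀ hdeg hgenus).graphSetup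
      (edy_htgt hn hb h12 hu2 hD₀ hdeg hgenus) P v = E.toMatchInput.s₂ (P, v) := rfl

/-! ### the dictionary for the graph of the modular seed -/

variable (hxA : EndsRedA E.S H (algebraMap K F E.ϖA / E.uA)) (hx2 : EndsRed2 E.S H E.u2)

include hxA in
/-- **`hI`** for the graph of the modular seed. -/
theorem edy_hI (P : SS) :
    0 < (nlTgt (E.ymodSeed hn hb h12 hu2 hD₀ hdeg hgenus).graphSetup
      (edy_htgt hn hb h12 hu2 hD₀ hdeg hgenus) P Vrt.oo).ord (H P).X2 :=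
  edm_hI hxA (edy_htgt hn hb h12 hu2 hD₀ hdeg hgenus) (edy_hN hn hb h12 hu2 hD₀ hdeg hgenus) P

include hx2 in
/-- **`hZ`** for the graph of the modular seed. -/
theorem edy_hZ (P : SS) :
    0 < (nlTgt (E.ymodSeed hn hb h12 hu2 hD₀ hdeg hgenus).graphSetup
      (edy_htgt hn hb h12 hu2 hD₀ hdeg hgenus) P Vrt.zero).ord (H P).X1 :=
  edm_hZ hx2 (edy_htgt hn hb h12 hu2 hD₀ hdeg hgenus) (edy_hN hn hb h12 hu2 hD₀ hdeg hgenus) P

include hxA hx2 in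
/-- **`hm2`** for the graph of the modular seed. -/
theorem edy_hm2 (P : SS) (m : Mid) :
    ¬ 0 < (nlTgt (E.ymodSeed hn hb h12 hu2 hD₀ hdeg hgenus).graphSetup
      (edy_htgt hn hb h12 hu2 hD₀ hdeg hgenus) P (Vrt.mid m)).ord (H P).X2 :=
  edm_hm2 hxA (edy_hx1 hu2 hx2) (edy_htgt hn hb h12 hu2 hD₀ hdeg hgenus)
    (edy_hN hn hb h12 hu2 hD₀ hdeg hgenus) P m

include hxA hx2 in
/-- **`hcover`** for the graph of the modular seed. -/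
theorem edy_hcover (P : SS) (v : Place k (FkOf Fk0 FkM FkP (Vtx.hor P)))
    (hv : v.ord (H P).X1 < 0) :
    ∃ w, v = nlTgt (E.ymodSeed hn hb h12 hu2 hD₀ hdeg hgenus).graphSetup
      (edy_htgt hn hb h12 hu2 hD₀ hdeg hgenus) P w :=
  edm_hcover hxA (edy_hx1 hu2 hx2) (edy_htgt hn hb h12 hu2 hD₀ hdeg hgenus)
    (edy_hN hn hb h12 hu2 hD₀ hdeg hgenus) P v hv

variable (hq : q.Prime) [CharP k q]

include hxA hx2 hq in
/-- **`hm1`** (`e = midDeg q`) for the graph of the modular seed. -/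
theorem edy_hm1 (P : SS) (m : Mid) :
    (nlTgt (E.ymodSeed hn hb h12 hu2 hD₀ hdeg hgenus).graphSetup
      (edy_htgt hn hb h12 hu2 hD₀ hdeg hgenus) P (Vrt.mid m)).ord (H P).X1 =
        -(midDeg q : ℤ) :=
  edm_hm1 hxA (edy_hx1 hu2 hx2) (edy_htgt hn hb h12 hu2 hD₀ hdeg hgenus)
    (edy_hN hn hb h12 hu2 hD₀ hdeg hgenus) hq P m

include hxA hx2 hq in
/-- **THE ENDS DICTIONARY** for the graph of the modular seed. -/
theorem edy_dict (P : SS) :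
    nlTgt (E.ymodSeed hn hb h12 hu2 hD₀ hdeg hgenus).graphSetup
        (edy_htgt hn hb h12 hu2 hD₀ hdeg hgenus) P Vrt.oo = (H P).pInf (ends_hq1 hq) ∧
      nlTgt (E.ymodSeed hn hb h12 hu2 hD₀ hdeg hgenus).graphSetup
        (edy_htgt hn hb h12 hu2 hD₀ hdeg hgenus) P Vrt.zero = (H P).pZero (ends_hq1 hq) ∧
      ∀ v : Place k (FkOf Fk0 FkM FkP (Vtx.hor P)),
        0 < v.ord ((H P).s - algebraMap k (FkOf Fk0 FkM FkP (Vtx.hor P)) 1) ↔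
          ∃ m, v = nlTgt (E.ymodSeed hn hb h12 hu2 hD₀ hdeg hgenus).graphSetup
            (edy_htgt hn hb h12 hu2 hD₀ hdeg hgenus) P (Vrt.mid m) :=
  edm_dict hxA (edy_hx1 hu2 hx2) hx2 (edy_htgt hn hb h12 hu2 hD₀ hdeg hgenus)
    (edy_hN hn hb h12 hu2 hD₀ hdeg hgenus) hq P

include hn hb h12 hu2 hD₀ hdeg hgenus hxA hx2 hq in
/-- **the labelled ends of the modular seed**: `s₂ (P, ∞) = pInf`, `s₂ (P, 0) = pZero`, the
`s₂ (P, m)` are exactly the zeros of `s - 1`. -/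
theorem edy_s₂ (P : SS) :
    E.toMatchInput.s₂ (P, Vrt.oo) = (H P).pInf (ends_hq1 hq) ∧
      E.toMatchInput.s₂ (P, Vrt.zero) = (H P).pZero (ends_hq1 hq) ∧
      ∀ v : Place k (FkOf Fk0 FkM FkP (Vtx.hor P)),
        0 < v.ord ((H P).s - algebraMap k (FkOf Fk0 FkM FkP (Vtx.hor P)) 1) ↔
          ∃ m, v = E.toMatchInput.s₂ (P, Vrt.mid m) :=
  edy_dict hn hb h12 hu2 hD₀ hdeg hgenus hxA hx2 hq P

include hn hb h12 hu2 hD₀ hdeg hgenus hxA hx2 hq in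
/-- **(DIV1)** for the graph of the modular seed. -/
theorem edy_div1 (P : SS) :
    (E.toMatchInput.s₂ (P, Vrt.oo)).ord (H P).X1 = -1 ∧
      (∀ m, (E.toMatchInput.s₂ (P, Vrt.mid m)).ord (H P).X1 = -(midDeg q : ℤ)) ∧
      (E.toMatchInput.s₂ (P, Vrt.zero)).ord (H P).X1 = (q : ℤ) :=
  edm_div1 hxA (edy_hx1 hu2 hx2) hx2 (edy_htgt hn hb h12 hu2 hD₀ hdeg hgenus)
    (edy_hN hn hb h12 hu2 hD₀ hdeg hgenus) hq P

include hn hb h12 hu2 hD₀ hdeg hgenus hxA hx2 hq in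
/-- **(DIV2)** for the graph of the modular seed. -/
theorem edy_div2 (P : SS) :
    (E.toMatchInput.s₂ (P, Vrt.oo)).ord (H P).X2 = (q : ℤ) ∧
      (∀ m, (E.toMatchInput.s₂ (P, Vrt.mid m)).ord (H P).X2 = -(midDeg q : ℤ)) ∧
      (E.toMatchInput.s₂ (P, Vrt.zero)).ord (H P).X2 = -1 :=
  edm_div2 hxA (edy_hx1 hu2 hx2) hx2 (edy_htgt hn hb h12 hu2 hD₀ hdeg hgenus)
    (edy_hN hn hb h12 hu2 hD₀ hdeg hgenus) hq P

/-! ### the horizontal value fields of the norm layers -/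

section Val

variable {E' : SS → Type*} [∀ P, Field (E' P)] [∀ P, Algebra k (E' P)]
  [∀ P, Algebra (E' P) (FkOf Fk0 FkM FkP (Vtx.hor P))]
  [∀ P, IsScalarTower k (E' P) (FkOf Fk0 FkM FkP (Vtx.hor P))]
  [∀ P, FiniteDimensional (E' P) (FkOf Fk0 FkM FkP (Vtx.hor P))]

include hxA hx2 hq in
/-- **fields `val_NP_oo`, `val_NP_zero` of `NormLayer1`** for the graph of the modular seed. -/
theorem edy_val_NP_X1 {x : ∀ P, E' P} (hgen : ∀ P, k⟮x P⟯ = ⊤)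
    (hx : ∀ P, algebraMap (E' P) (FkOf Fk0 FkM FkP (Vtx.hor P)) (x P) = (H P).X1)
    (NP : ∀ P : SS, FkOf Fk0 FkM FkP (Vtx.hor P) →* FkOf Fk0 FkM FkP (Vtx.hor P))
    (hNP : ∀ P y, NP P y =
      algebraMap (E' P) (FkOf Fk0 FkM FkP (Vtx.hor P)) (Algebra.norm (E' P) y)) :
    (∀ (P : SS) (h H' : ∀ c, FkOf Fk0 FkM FkP c) (ca : k) (cm : Mid → k),
      H' (Vtx.hor P) = NP P (h (Vtx.hor P)) →
      ValAt ((E.ymodSeed hn hb h12 hu2 hD₀ hdeg hgenus).graphSetup.s₂ (P, Vrt.oo))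
        (h ((E.ymodSeed hn hb h12 hu2 hD₀ hdeg hgenus).graphSetup.tgt (P, Vrt.oo))) ca →
      (∀ m, ValAt ((E.ymodSeed hn hb h12 hu2 hD₀ hdeg hgenus).graphSetup.s₂ (P, Vrt.mid m))
        (h ((E.ymodSeed hn hb h12 hu2 hD₀ hdeg hgenus).graphSetup.tgt (P, Vrt.mid m)))
          (cm m)) →
      ValAt ((E.ymodSeed hn hb h12 hu2 hD₀ hdeg hgenus).graphSetup.s₂ (P, Vrt.oo))
        (H' ((E.ymodSeed hn hb h12 hu2 hD₀ hdeg hgenus).graphSetup.tgt (P, Vrt.oo)))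
          (ca * ∏ m, cm m ^ midDeg q) ∧
        ∀ m, ValAt ((E.ymodSeed hn hb h12 hu2 hD₀ hdeg hgenus).graphSetup.s₂ (P, Vrt.mid m))
          (H' ((E.ymodSeed hn hb h12 hu2 hD₀ hdeg hgenus).graphSetup.tgt (P, Vrt.mid m)))
            (ca * ∏ m, cm m ^ midDeg q)) ∧
    (∀ (P : SS) (h H' : ∀ c, FkOf Fk0 FkM FkP c) (c : k),
      H' (Vtx.hor P) = NP P (h (Vtx.hor P)) →
      ValAt ((E.ymodSeed hn hb h12 hu2 hD₀ hdeg hgenus).graphSetup.s₂ (P, Vrt.zero))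
        (h ((E.ymodSeed hn hb h12 hu2 hD₀ hdeg hgenus).graphSetup.tgt (P, Vrt.zero))) c →
      ValAt ((E.ymodSeed hn hb h12 hu2 hD₀ hdeg hgenus).graphSetup.s₂ (P, Vrt.zero))
        (H' ((E.ymodSeed hn hb h12 hu2 hD₀ hdeg hgenus).graphSetup.tgt (P, Vrt.zero)))
          (c ^ q)) :=
  edm_val_NP_X1 hxA (edy_hx1 hu2 hx2) hx2 (edy_htgt hn hb h12 hu2 hD₀ hdeg hgenus)
    (edy_hN hn hb h12 hu2 hD₀ hdeg hgenus) hq hgen hx NP hNP

include hxA hx2 hq in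
/-- **fields `val_NP_zero`, `val_NP_oo` of `NormLayer2`** for the graph of the modular seed. -/
theorem edy_val_NP_X2 {x : ∀ P, E' P} (hgen : ∀ P, k⟮x P⟯ = ⊤)
    (hx : ∀ P, algebraMap (E' P) (FkOf Fk0 FkM FkP (Vtx.hor P)) (x P) = (H P).X2)
    (NP : ∀ P : SS, FkOf Fk0 FkM FkP (Vtx.hor P) →* FkOf Fk0 FkM FkP (Vtx.hor P))
    (hNP : ∀ P y, NP P y =
      algebraMap (E' P) (FkOf Fk0 FkM FkP (Vtx.hor P)) (Algebra.norm (E' P) y)) :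
    (∀ (P : SS) (h H' : ∀ c, FkOf Fk0 FkM FkP c) (ca : k) (cm : Mid → k),
      H' (Vtx.hor P) = NP P (h (Vtx.hor P)) →
      ValAt ((E.ymodSeed hn hb h12 hu2 hD₀ hdeg hgenus).graphSetup.s₂ (P, Vrt.zero))
        (h ((E.ymodSeed hn hb h12 hu2 hD₀ hdeg hgenus).graphSetup.tgt (P, Vrt.zero))) ca →
      (∀ m, ValAt ((E.ymodSeed hn hb h12 hu2 hD₀ hdeg hgenus).graphSetup.s₂ (P, Vrt.mid m))
        (h ((E.ymodSeed hn hb h12 hu2 hD₀ hdeg hgenus).graphSetup.tgt (P, Vrt.mid m)))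
          (cm m)) →
      ValAt ((E.ymodSeed hn hb h12 hu2 hD₀ hdeg hgenus).graphSetup.s₂ (P, Vrt.zero))
        (H' ((E.ymodSeed hn hb h12 hu2 hD₀ hdeg hgenus).graphSetup.tgt (P, Vrt.zero)))
          (ca * ∏ m, cm m ^ midDeg q) ∧
        ∀ m, ValAt ((E.ymodSeed hn hb h12 hu2 hD₀ hdeg hgenus).graphSetup.s₂ (P, Vrt.mid m))
          (H' ((E.ymodSeed hn hb h12 hu2 hD₀ hdeg hgenus).graphSetup.tgt (P, Vrt.mid m)))
            (ca * ∏ m, cm m ^ midDeg q)) ∧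
    (∀ (P : SS) (h H' : ∀ c, FkOf Fk0 FkM FkP c) (c : k),
      H' (Vtx.hor P) = NP P (h (Vtx.hor P)) →
      ValAt ((E.ymodSeed hn hb h12 hu2 hD₀ hdeg hgenus).graphSetup.s₂ (P, Vrt.oo))
        (h ((E.ymodSeed hn hb h12 hu2 hD₀ hdeg hgenus).graphSetup.tgt (P, Vrt.oo))) c →
      ValAt ((E.ymodSeed hn hb h12 hu2 hD₀ hdeg hgenus).graphSetup.s₂ (P, Vrt.oo))
        (H' ((E.ymodSeed hn hb h12 hu2 hD₀ hdeg hgenus).graphSetup.tgt (P, Vrt.oo)))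
          (c ^ q)) :=
  edm_val_NP_X2 hxA (edy_hx1 hu2 hx2) hx2 (edy_htgt hn hb h12 hu2 hD₀ hdeg hgenus)
    (edy_hN hn hb h12 hu2 hD₀ hdeg hgenus) hq hgen hx NP hNP

end Val

end EndsDictYmod

end Fermat.Agent.S36G
end
end MergeWrap_S36_G_EndsDictYmod
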