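import Mathlib
import Fermat.Agent.MU.Lib.BadRed.Graph.NSDef
import Fermat.Agent.MU.Lib.Deuring.Basic
import Fermat.Agent.MU.Lib.RR.Hurwitz.Fibres
import Fermat.Agent.MU.Lib.RedTr.FundIdK
import Fermat.Agent.MU.Lib.BadRed.Mod.SeedOfU
import Fermat.Agent.MU.Lib.BadRed.Nodal.Gluing.Data
import Fermat.Agent.MU.S36.G.CocycleF12
import Fermat.Agent.F3.Galois.NormDesc
import Fermat.Agent.MU.S36.G.CocycleF12Mod
import Fermat.Agent.MU.S36.Seed.Cusp
import Fermat.Agent.S36.Seed.YDefs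
import Fermat.Agent.MU.E.Desc.Comm.Levels
import Fermat.Agent.MU.S36.Seed.U2
import Fermat.Agent.MU.S36.G.EndsDict
import Fermat.Agent.MU.S36.Seed.Ends
import Fermat.Agent.MU.S36.Seed.MN1
import Fermat.Agent.MU.S36.G.SeedInput
import Fermat.Agent.MU.Lib.BadRed.Graph.Deuring.Main
import Fermat.Agent.MU.S36.G.EndsDictYmod
import Fermat.Agent.MU.S36.G.CoreBundleOf
import Fermat.Agent.Lib.FrobTrace.Residue

section MergeWrap_Lib_BadRed_Graph_ToricKeyOrd -- from Lib/BadRed/Graph/ToricKeyOrd.lean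

set_option autoImplicit false

/-!
# Cluster G (S36), abstract graph package: the toric key WITH ordinarity  (helper3, tester)

`GraphToricKeyStatement` of `Setup.lean` is FALSE as stated (no ordinarity hypothesis: by weak
approximation every `W₀`-class has a Kummer generator all of whose reductions are `1`).
The correct statement has the hypothesis that the divisor of `g` is ORDINARY; it is then a direct
corollary of the graph KEY LEMMA (`GraphKeyConcl`) and of `push`: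

* `graphToricKeyOrd_of_key` : `n ∣ div g`, `div g` ordinary, all reductions of `g` equal to `1`
  ⟹ `g = a * u ^ n`;
* `graphToricKeyOrd_of_const` : the same with reductions which are nonzero CONSTANTS.
-/

noncomputable section

open AlgebraicCurve Fermat.Agent.RR Fermat.Agent.Deuring

namespace Fermat.Agent.BadRedG

open Fermat.Agent.BadRed

variable {K F k : Type*} [Field K] [Field F] [Algebra K F] [Field k]
  {κ : Type*} {Fk : κ → Type*} [∀ c, Field (Fk c)] [∀ c, Algebra k (Fk c)] {ι : Type*}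

/-- no place reduces to a non-smooth point, so `r_* D` vanishes there. -/
theorem tko_mapDomain_eq_zero_of_not_smooth (N : GraphSetup K F k κ Fk ι) (D : Divisor K F)
    (X : Σ c, Place k (Fk c)) (hX : ¬ N.IsSmooth X) :
    Finsupp.mapDomain N.r D (some X) = 0 := by
  classical
  rw [Finsupp.mapDomain, Finsupp.sum, Finsupp.finsetSum_apply]
  refine Finset.sum_eq_zero fun P _ => ?_
  rw [Finsupp.single_apply, if_neg]
  intro h
  apply hX
  refine ⟨fun i hi => ?_, fun i hi => ?_⟩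
  · exact N.r_ne_node₁ P i (by rw [h, hi])
  · exact N.r_ne_node₂ P i (by rw [h, hi])

/-- `push` for a function whose reduction on the component is a nonzero constant: `r_* (div g)`
vanishes at every point of the component. -/
theorem tko_mapDomain_divOf_eq_zero (N : GraphSetup K F k κ Fk ι) (c₀ c : κ) {g : F}
    {b : k} (hb : b ≠ 0) (hred : (N.S c).red g = algebraMap k (Fk c) b) (Q : Place k (Fk c)) :
    Finsupp.mapDomain N.r (divOf (N.S c₀).hF g) (some ⟨c, Q⟩) = 0 := by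
  by_cases hQ : N.IsSmooth ⟨c, Q⟩
  · have hne : (N.S c).red g ≠ 0 := by
      rw [hred]
      exact fun h => hb ((algebraMap k (Fk c)).injective (by rw [h, map_zero]))
    have h := N.push c g ((N.S c).mem_of_red_ne_zero hne) ((N.S c).inv_mem_of_red_ne_zero hne)
      ((N.S c).ne_zero_of_red_ne_zero hne) Q hQ.1 hQ.2
    rw [hred] at h
    have hconst : Q.ord (algebraMap k (Fk c) b) = 0 := Fermat.Agent.S24Res.ord_algebraMap Q b
    rw [hconst] at h
    exact h
  · exact tko_mapDomain_eq_zero_of_not_smooth N _ _ hQ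

/-- **the toric key with ordinarity, constant reductions**: if `n ∣ div g`, the divisor of `g` is
ordinary and every reduction of `g` is a nonzero constant, then `g = a * u ^ n`. -/
theorem graphToricKeyOrd_of_const (N : GraphSetup K F k κ Fk ι) (hKey : GraphKeyConcl N)
    (n : ℕ) (hn0 : (n : K) ≠ 0) (c₀ : κ) (hnA : ((n : K))⁻¹ ∈ (N.S c₀).A)
    (g : F) (hg : g ≠ 0) (hdvd : ∀ P : Place K F, (n : ℤ) ∣ P.ord g)
    (hord : ∀ P : Place K F, P.ord g ≠ 0 → N.IsOrd P)
    (hred : ∀ c, ∃ b : k, b ≠ 0 ∧ (N.S c).red g = algebraMap k (Fk c) b) :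
    ∃ (u : F) (a : K), a ≠ 0 ∧ g = algebraMap K F a * u ^ n := by
  classical
  have hn : n ≠ 0 := by
    rintro rfl
    exact hn0 Nat.cast_zero
  have hnZ : (n : ℤ) ≠ 0 := by exact_mod_cast hn
  set hF := (N.S c₀).hF with hFdef
  -- the divisor `D = div g / n`
  set D : Divisor K F := (divOf hF g).mapRange (fun z => z / (n : ℤ)) (by simp) with hD
  have hDapp : ∀ P : Place K F, D P = P.ord g / (n : ℤ) := by
    intro P
    rw [hD, Finsupp.mapRange_apply, divOf_apply]
  have hnD : ∀ P : Place K F, (n : ℤ) * D P = P.ord g := by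
    intro P
    rw [hDapp]
    exact Int.mul_ediv_cancel' (hdvd P)
  have hnsmul : n • D = divOf hF g := by
    ext P
    rw [Finsupp.smul_apply, divOf_apply, nsmul_eq_mul, hnD]
  have hdeg : Divisor.degree D = 0 := by
    have h1 : Divisor.degree (n • D) = 0 := by rw [hnsmul]; exact degree_divOf hF g
    rw [map_nsmul, nsmul_eq_mul] at h1
    rcases mul_eq_zero.mp h1 with h | h
    · exact absurd h hnZ
    · exact h
  have hOrd : N.IsOrdDiv D := by
    intro P hP
    apply hord P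
    intro h0
    apply hP
    rw [hDapp, h0, Int.zero_ediv]
  have hRed : ∀ Q, Finsupp.mapDomain N.r D (some Q) = 0 := by
    rintro ⟨c, Q⟩
    obtain ⟨b, hb, hbred⟩ := hred c
    have h1 := tko_mapDomain_divOf_eq_zero N c₀ c hb hbred Q
    rw [← hFdef, ← hnsmul, Finsupp.mapDomain_smul, Finsupp.smul_apply, nsmul_eq_mul] at h1
    rcases mul_eq_zero.mp h1 with h | h
    · exact absurd h hnZ
    · exact h
  have hprin : (n • D) ∈ Divisor.principal (K := K) (F := F) := by
    rw [hnsmul]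
    exact ⟨g, hg, fun v => divOf_apply hF g v⟩
  obtain ⟨u, hu0, hu⟩ := hKey n hn0 c₀ hnA D hdeg ⟨hOrd, hRed⟩ hprin
  have hun : u ^ n ≠ 0 := pow_ne_zero n hu0
  set w : F := g / u ^ n with hw
  have hw0 : w ≠ 0 := div_ne_zero hg hun
  have hordw : ∀ P : Place K F, P.ord w = 0 := by
    intro P
    have hpow : ∀ j : ℕ, P.ord (u ^ j) = j * P.ord u := by
      intro j
      induction j with
      | zero => simp
      | succ i ih => rw [pow_succ, P.ord_mul (pow_ne_zero _ hu0) hu0, ih]; push_cast; ring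
    rw [hw, div_eq_mul_inv, P.ord_mul hg (inv_ne_zero hun), P.ord_inv, hpow, ← hu P, hnD]
    ring
  have hmem : w ∈ riemannRochSpace (0 : Divisor K F) := by
    rw [mem_riemannRochSpace_iff]
    intro P
    right
    rw [hordw P]
    simp
  obtain ⟨a, ha⟩ := (mem_riemannRochSpace_zero_iff hF w).mp hmem
  have ha0 : a ≠ 0 := by
    rintro rfl
    rw [map_zero] at ha
    exact hw0 ha.symm
  refine ⟨u, a, ha0, ?_⟩
  rw [ha, hw, div_mul_cancel₀ _ hun]

/-- **the toric key with ordinarity**: the corrected form of `GraphToricKeyStatement`. -/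
theorem graphToricKeyOrd_of_key (N : GraphSetup K F k κ Fk ι) (hKey : GraphKeyConcl N)
    (n : ℕ) (hn0 : (n : K) ≠ 0) (c₀ : κ) (hnA : ((n : K))⁻¹ ∈ (N.S c₀).A)
    (g : F) (hg : g ≠ 0) (hdvd : ∀ P : Place K F, (n : ℤ) ∣ P.ord g)
    (hord : ∀ P : Place K F, P.ord g ≠ 0 → N.IsOrd P)
    (hred : ∀ c, g ∈ (N.S c).Ov ∧ (N.S c).red g = 1) :
    ∃ (u : F) (a : K), a ≠ 0 ∧ g = algebraMap K F a * u ^ n :=
  graphToricKeyOrd_of_const N hKey n hn0 c₀ hnA g hg hdvd hord
    (fun c => ⟨1, one_ne_zero, by rw [(hred c).2, map_one]⟩)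

end Fermat.Agent.BadRedG
end
end MergeWrap_Lib_BadRed_Graph_ToricKeyOrd

section MergeWrap_Lib_BadRed_Graph_OrdCrit -- from Lib/BadRed/Graph/OrdCrit.lean

set_option autoImplicit false

/-!
# Cluster G (S36), abstract graph package: a criterion for ORDINARY places  (helper3, tester)

From the `GraphSetup` interface (`push`) only.

* `isOrd_of_pole_count` **(ORD-CRIT)**: `f ≠ 0`, `T` a finite set of SMOOTH points of the special
  fibre such that `f` is a unit of the valuation ring of the component of every point of `T`.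
  If the poles of the reductions of `f` at the points of `T` have total order at least the degree
  of the polar divisor of `f`, then every pole of `f` is ordinary and reduces to a point of `T`.

Use (modular graph, Step 3): the fibres of `π₁`, `π₂` through ordinary places are ordinary
(`f = 1 / (u₁ - a)`, `u₁ / (1 - u₁ / a)`, ...), hence `π^* π_* D` is ordinary for ordinary `D` with
saturated support, and the node axiom applies to the norms `N_π (g)`.
-/

noncomputable section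

open AlgebraicCurve Fermat.Agent.RR Fermat.Agent.Deuring

namespace Fermat.Agent.BadRedG

open Fermat.Agent.BadRed

variable {K F k : Type*} [Field K] [Field F] [Algebra K F] [Field k]
  {κ : Type*} {Fk : κ → Type*} [∀ c, Field (Fk c)] [∀ c, Algebra k (Fk c)] {ι : Type*}

/-- the finite set of poles of `f`. -/
def polesOf (hF : IsRRField K F) (f : F) : Finset (Place K F) := by
  classical
  exact (divOf hF f).support.filter (fun P => P.ord f < 0)

theorem mem_polesOf (hF : IsRRField K F) (f : F) (P : Place K F) :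
    P ∈ polesOf hF f ↔ P.ord f < 0 := by
  classical
  rw [polesOf, Finset.mem_filter, Finsupp.mem_support_iff, divOf_apply]
  constructor
  · exact fun h => h.2
  · exact fun h => ⟨ne_of_lt h, h⟩

open Classical in
theorem oc_mapDomain_apply_eq_sum {α β : Type*} (r : α → β) (D : α →₀ ℤ) (Q : β) :
    Finsupp.mapDomain r D Q = ∑ P ∈ D.support, if r P = Q then D P else 0 := by
  rw [Finsupp.mapDomain, Finsupp.sum, Finsupp.finsetSum_apply]
  refine Finset.sum_congr rfl fun P _ => ?_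
  rw [Finsupp.single_apply]

open Classical in
/-- `push` as an inequality: the order of the pole of the reduction at a smooth point `X` is at
most the total order of the poles of `f` reducing to `X`. -/
theorem oc_pole_le (N : GraphSetup K F k κ Fk ι) (c₀ : κ) {f : F} (hf : f ≠ 0)
    (X : Σ c, Place k (Fk c)) (hX : N.IsSmooth X) (hmem : f ∈ (N.S X.1).Ov)
    (hinv : f⁻¹ ∈ (N.S X.1).Ov) :
    - X.2.ord ((N.S X.1).red f) ≤
      ∑ P ∈ (polesOf (N.S c₀).hF f).filter (fun P => N.r P = some X), (- P.ord f) := by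
  classical
  obtain ⟨c, Q⟩ := X
  have hpush := N.push c f hmem hinv hf Q hX.1 hX.2
  have hsum := oc_mapDomain_apply_eq_sum N.r (divOf (N.S c).hF f)
    (some (⟨c, Q⟩ : Σ c, Place k (Fk c)))
  rw [hpush] at hsum
  show - Q.ord ((N.S c).red f) ≤ _
  rw [hsum, ← Finset.sum_neg_distrib]
  -- compare the two sums termwise on the support
  have h1 : ∑ P ∈ (polesOf (N.S c₀).hF f).filter (fun P => N.r P = some ⟨c, Q⟩), (- P.ord f) =
      ∑ P ∈ (divOf (N.S c).hF f).support,
        (if P.ord f < 0 ∧ N.r P = some ⟨c, Q⟩ then - P.ord f else 0) := by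
    rw [polesOf, Finset.filter_filter, Finset.sum_filter]
  rw [h1]
  refine Finset.sum_le_sum fun P _ => ?_
  by_cases hr : N.r P = some ⟨c, Q⟩
  · rw [if_pos hr, divOf_apply]
    by_cases hneg : P.ord f < 0
    · rw [if_pos ⟨hneg, hr⟩]
    · rw [if_neg (fun h => hneg h.1)]
      omega
  · rw [if_neg hr, if_neg (fun h => hr h.2)]
    simp

/-- **(ORD-CRIT)**: if the poles of the reductions of `f` at the smooth points of `T` account for
the whole polar divisor of `f`, then every pole of `f` is ordinary and reduces into `T`. -/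
theorem isOrd_of_pole_count (N : GraphSetup K F k κ Fk ι) (c₀ : κ) {f : F} (hf : f ≠ 0)
    (T : Finset (Σ c, Place k (Fk c)))
    (hT : ∀ X ∈ T, N.IsSmooth X ∧ f ∈ (N.S X.1).Ov ∧ f⁻¹ ∈ (N.S X.1).Ov)
    (hcount : ∑ P ∈ polesOf (N.S c₀).hF f, (- P.ord f) ≤
      ∑ X ∈ T, (- X.2.ord ((N.S X.1).red f)))
    (P : Place K F) (hP : P.ord f < 0) : ∃ X ∈ T, N.r P = some X := by
  classical
  by_contra hcon
  have hcon' : ∀ X ∈ T, N.r P ≠ some X := fun X hX h => hcon ⟨X, hX, h⟩
  set poles := polesOf (N.S c₀).hF f with hpoles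
  have hPmem : P ∈ poles := (mem_polesOf _ f P).mpr hP
  -- the fibres over the points of `T` are disjoint subsets of `poles.erase P`
  have h1 : ∑ X ∈ T, (- X.2.ord ((N.S X.1).red f)) ≤
      ∑ X ∈ T, ∑ P' ∈ poles.filter (fun P' => N.r P' = some X), (- P'.ord f) :=
    Finset.sum_le_sum fun X hX =>
      oc_pole_le N c₀ hf X (hT X hX).1 (hT X hX).2.1 (hT X hX).2.2
  have h2 : ∑ X ∈ T, ∑ P' ∈ poles.filter (fun P' => N.r P' = some X), (- P'.ord f) =
      ∑ P' ∈ poles.filter (fun P' => ∃ X ∈ T, N.r P' = some X), (- P'.ord f) := by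
    rw [← Finset.sum_biUnion]
    · refine Finset.sum_congr ?_ fun _ _ => rfl
      ext P'
      simp only [Finset.mem_biUnion, Finset.mem_filter]
      constructor
      · rintro ⟨X, hX, hP', hr⟩
        exact ⟨hP', X, hX, hr⟩
      · rintro ⟨hP', X, hX, hr⟩
        exact ⟨X, hX, hP', hr⟩
    · intro X _ Y _ hXY
      rw [Function.onFun, Finset.disjoint_left]
      intro P' h1 h2
      rw [Finset.mem_filter] at h1 h2
      apply hXY
      have := h1.2.symm.trans h2.2
      exact Option.some_injective _ this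
  have h3 : ∑ P' ∈ poles.filter (fun P' => ∃ X ∈ T, N.r P' = some X), (- P'.ord f) ≤
      ∑ P' ∈ poles.erase P, (- P'.ord f) := by
    apply Finset.sum_le_sum_of_subset_of_nonneg
    · intro P' hP'
      rw [Finset.mem_filter] at hP'
      rw [Finset.mem_erase]
      refine ⟨?_, hP'.1⟩
      rintro rfl
      obtain ⟨X, hX, hr⟩ := hP'.2
      exact hcon' X hX hr
    · intro P' hP' _
      have := (mem_polesOf _ f P').mp (Finset.mem_of_mem_erase hP')
      omega
  have h4 : ∑ P' ∈ poles.erase P, (- P'.ord f) + (- P.ord f) = ∑ P' ∈ poles, (- P'.ord f) :=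
    Finset.sum_erase_add _ _ hPmem
  rw [h2] at h1
  omega

/-- (ORD-CRIT), consequence: every pole of `f` is ordinary. -/
theorem isOrd_of_pole_count' (N : GraphSetup K F k κ Fk ι) (c₀ : κ) {f : F} (hf : f ≠ 0)
    (T : Finset (Σ c, Place k (Fk c)))
    (hT : ∀ X ∈ T, N.IsSmooth X ∧ f ∈ (N.S X.1).Ov ∧ f⁻¹ ∈ (N.S X.1).Ov)
    (hcount : ∑ P ∈ polesOf (N.S c₀).hF f, (- P.ord f) ≤
      ∑ X ∈ T, (- X.2.ord ((N.S X.1).red f)))
    (P : Place K F) (hP : P.ord f < 0) : N.IsOrd P := by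
  obtain ⟨X, _, hr⟩ := isOrd_of_pole_count N c₀ hf T hT hcount P hP
  exact ⟨X, hr⟩

end Fermat.Agent.BadRedG
end
end MergeWrap_Lib_BadRed_Graph_OrdCrit

section MergeWrap_Lib_RR_Kummer_Split -- from Lib/RR/Kummer/Split.lean

set_option autoImplicit false
set_option linter.style.haveILetI false
set_option linter.unusedSectionVars false

noncomputable section

open AlgebraicCurve IntermediateField Polynomial IsDedekindDomain

namespace Fermat.Agent.RRKum

open Fermat.Agent.RR Fermat.Agent.RRHur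

variable {K F : Type*} [Field K] [Field F] [Algebra K F]

/-! ### the two evaluation maps on `K[X][Y]` -/

section Eval

variable (x y : F)

/-- evaluation `K[X][Y] → F` at `(x, y)`. -/
def evalF : K[X][X] →+* F :=
  Polynomial.eval₂RingHom (Polynomial.aeval (R := K) x).toRingHom y

/-- evaluation `K[X][Y] → K` at `(c, r)`. -/
def evalK (c r : K) : K[X][X] →+* K :=
  Polynomial.eval₂RingHom (Polynomial.evalRingHom c) r

theorem evalF_C (p : K[X]) : evalF x y (C p) = aeval x p := by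
  simp [evalF]

theorem evalF_X : evalF (K := K) x y X = y := by
  simp [evalF]

theorem evalK_C (c r : K) (p : K[X]) : evalK c r (C p) = p.eval c := by
  simp [evalK]

theorem evalK_X (c r : K) : evalK c r X = r := by
  simp [evalK]

theorem evalF_eq_sum (R : K[X][X]) {g : ℕ} (hR : R.natDegree < g) :
    evalF x y R = ∑ j ∈ Finset.range g, aeval x (R.coeff j) * y ^ j := by
  unfold evalF
  rw [Polynomial.coe_eval₂RingHom, Polynomial.eval₂_eq_sum_range' _ hR]
  rfl

end Eval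

/-- the kernel computation: if `1, y, …, y^(g-1)` are linearly independent over `K(x)` and
`y ^ g = P(x)`, then every relation `G(x, y) = 0` is a multiple of `Y ^ g - P`, hence vanishes at
every `(c, r)` with `r ^ g = P(c)`. -/
theorem ker_evalF_le {x y : F} (hx : Transcendental K x) {g : ℕ} (hg : 0 < g) (P : K[X])
    (hy : y ^ g = aeval x P)
    (hli : LinearIndependent K⟮x⟯ (fun i : Fin g => y ^ (i : ℕ)))
    {c r : K} (hr : r ^ g = P.eval c) :
    RingHom.ker (evalF (K := K) x y) ≤ RingHom.ker (evalK c r) := by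
  intro G hG
  rw [RingHom.mem_ker] at hG ⊢
  set M : K[X][X] := X ^ g - C P with hM
  have hMm : M.Monic := Polynomial.monic_X_pow_sub_C P hg.ne'
  have hMF : evalF x y M = 0 := by
    rw [hM, map_sub, map_pow, evalF_X, evalF_C, hy, sub_self]
  have hMK : evalK c r M = 0 := by
    rw [hM, map_sub, map_pow, evalK_X, evalK_C, hr, sub_self]
  have hdiv := Polynomial.modByMonic_add_div G M
  set R := G %ₘ M with hRdef
  have hRF : evalF x y R = 0 := by
    have h1 : evalF x y (R + M * (G /ₘ M)) = 0 := by rw [hdiv]; exact hG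
    rwa [map_add, map_mul, hMF, zero_mul, add_zero] at h1
  have hMdeg : M.natDegree = g := by
    rw [hM]
    exact Polynomial.natDegree_X_pow_sub_C
  have hRdeg : R.natDegree < g := by
    by_cases hR0 : R = 0
    · rw [hR0]; simpa using hg
    · have hM1 : M ≠ 1 := by
        intro h
        rw [h] at hMdeg
        simp at hMdeg
        omega
      have := Polynomial.natDegree_modByMonic_lt G hMm hM1
      rwa [hMdeg] at this
  have hR0 : R = 0 := by
    rw [evalF_eq_sum x y R hRdeg, Finset.sum_range] at hRF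
    have hsum : ∑ j : Fin g, (⟨aeval x (R.coeff j), aeval_mem_adjoin_simple x _⟩ : K⟮x⟯) •
        (fun i : Fin g => y ^ (i : ℕ)) j = 0 := by
      rw [← hRF]
      apply Finset.sum_congr rfl
      intro j _
      rfl
    have hcoef := Fintype.linearIndependent_iff.mp hli _ hsum
    refine Polynomial.ext fun j => ?_
    rw [Polynomial.coeff_zero]
    by_cases hj : j < g
    · have h1 := hcoef ⟨j, hj⟩
      have h2 : aeval x (R.coeff j) = 0 := congrArg Subtype.val h1
      by_contra hne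
      exact aeval_ne_zero_of_transcendental hx hne h2
    · exact Polynomial.coeff_eq_zero_of_natDegree_lt (by omega)
  rw [← hdiv, hR0, zero_add, map_mul, hMK, zero_mul]

/-! ### the integral closure `B` of `K[x]` and the lift of `evalF` to `B` -/

section Lift

variable (K) in
/-- `K[X] → K[x] = Algebra.adjoin K {x}`. -/
def toAdj (x : F) : K[X] →+* Algebra.adjoin K {x} :=
  (Polynomial.aeval (R := K) (Fermat.Agent.S24Fib.tA K x)).toRingHom

theorem coe_toAdj (x : F) (p : K[X]) : ((toAdj K x p : Algebra.adjoin K {x}) : F) = aeval x p := by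
  unfold toAdj
  show ((aeval (Fermat.Agent.S24Fib.tA K x) p : Algebra.adjoin K {x}) : F) = _
  rw [Polynomial.aeval_subalgebra_coe]
  rfl

theorem toAdj_surjective (x : F) : Function.Surjective (toAdj K x) := by
  rintro ⟨a, ha⟩
  rw [Algebra.adjoin_singleton_eq_range_aeval] at ha
  obtain ⟨p, hp⟩ := ha
  refine ⟨p, Subtype.ext ?_⟩
  rw [coe_toAdj]
  exact hp

variable (K) in
/-- `K[X] → B`. -/
def toB (x : F) : K[X] →+* integralClosure (Algebra.adjoin K {x}) F :=
  (algebraMap (Algebra.adjoin K {x}) (integralClosure (Algebra.adjoin K {x}) F)).comp (toAdj K x)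

theorem coe_toB (x : F) (p : K[X]) :
    ((toB K x p : integralClosure (Algebra.adjoin K {x}) F) : F) = aeval x p :=
  coe_toAdj x p

theorem toB_isIntegral (x : F) : (toB K x).IsIntegral := by
  unfold toB
  apply RingHom.IsIntegral.trans
  · exact RingHom.isIntegral_of_surjective _ (toAdj_surjective x)
  · exact algebraMap_isIntegral_iff.mpr inferInstance

/-- `y` as an element of `B`, if `y ^ g = P(x)`. -/
theorem mem_integralClosure_of_pow_eq {x y : F} {g : ℕ} (hg : 0 < g) (P : K[X])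
    (hy : y ^ g = aeval x P) : y ∈ integralClosure (Algebra.adjoin K {x}) F := by
  refine ⟨X ^ g - C (toAdj K x P), Polynomial.monic_X_pow_sub_C _ hg.ne', ?_⟩
  rw [Polynomial.eval₂_sub, Polynomial.eval₂_pow, Polynomial.eval₂_X, Polynomial.eval₂_C, hy]
  show aeval x P - ((toAdj K x P : Algebra.adjoin K {x}) : F) = 0
  rw [coe_toAdj, sub_self]

variable (K) in
/-- evaluation `K[X][Y] → B` at `(x, y)`. -/
def evalB (x : F) (yB : integralClosure (Algebra.adjoin K {x}) F) :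
    K[X][X] →+* integralClosure (Algebra.adjoin K {x}) F :=
  Polynomial.eval₂RingHom (toB K x) yB

theorem coe_evalB (x : F) (yB : integralClosure (Algebra.adjoin K {x}) F) (G : K[X][X]) :
    ((evalB K x yB G : integralClosure (Algebra.adjoin K {x}) F) : F) = evalF x (yB : F) G := by
  unfold evalB evalF
  rw [Polynomial.coe_eval₂RingHom, Polynomial.coe_eval₂RingHom]
  have h := Polynomial.hom_eval₂ G (toB K x)
    (algebraMap (integralClosure (Algebra.adjoin K {x}) F) F) yB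
  have h2 : (algebraMap (integralClosure (Algebra.adjoin K {x}) F) F).comp (toB K x) =
      (Polynomial.aeval (R := K) x).toRingHom := by
    ext p
    · simp [coe_toB]
    · simp [coe_toB]
  rw [h2] at h
  exact h

theorem evalB_isIntegral (x : F) (yB : integralClosure (Algebra.adjoin K {x}) F) :
    (evalB K x yB).IsIntegral := by
  apply RingHom.IsIntegral.tower_top (Polynomial.C : K[X] →+* K[X][X])
  have h : (evalB K x yB).comp (Polynomial.C : K[X] →+* K[X][X]) = toB K x := by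
    ext p
    · simp [evalB]
    · simp [evalB]
  rw [h]
  exact toB_isIntegral x

theorem ker_evalB (x : F) (yB : integralClosure (Algebra.adjoin K {x}) F) :
    RingHom.ker (evalB K x yB) = RingHom.ker (evalF (K := K) x (yB : F)) := by
  ext G
  rw [RingHom.mem_ker, RingHom.mem_ker, ← coe_evalB]
  constructor
  · intro h
    rw [h]
    rfl
  · intro h
    exact Subtype.ext h

end Lift

/-! ### places from roots -/

section Places

variable [IsAlgClosed K]

theorem adicValuation_lt_one_iff_ord_pos (v : Place K F) {f : F} (hf : f ≠ 0) :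
    v.adicValuation f < 1 ↔ 0 < v.ord f := by
  rw [v.adicValuation_eq_exp_neg_ord hf, ← WithZero.exp_zero, WithZero.exp_lt_exp]
  omega

/-- **places from roots.** -/
theorem exists_place_of_root {x y : F} (hx : Transcendental K x)
    [FiniteDimensional K⟮x⟯ F] [Algebra.IsSeparable K⟮x⟯ F] {g : ℕ} (hg : 0 < g) (P : K[X])
    (hy : y ^ g = aeval x P)
    (hli : LinearIndependent K⟮x⟯ (fun i : Fin g => y ^ (i : ℕ)))
    {c r : K} (hr : r ^ g = P.eval c) :
    ∃ v : Place K F, v.adicValuation (x - algebraMap K F c) < 1 ∧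
      v.adicValuation (y - algebraMap K F r) < 1 := by
  haveI := isDedekindDomain_integralClosure (F := F) hx
  haveI := isFractionRing_integralClosure (K := K) x
  set B := integralClosure (Algebra.adjoin K {x}) F with hB
  let yB : B := ⟨y, mem_integralClosure_of_pow_eq hg P hy⟩
  have hker : RingHom.ker (evalB K x yB) ≤ RingHom.ker (evalK c r) := by
    rw [ker_evalB]
    exact ker_evalF_le hx hg P hy hli hr
  have hne : RingHom.ker (evalK (K := K) c r) ≠ ⊤ := RingHom.ker_ne_top _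
  have hmap : (RingHom.ker (evalK (K := K) c r)).map (evalB K x yB) ≠ ⊤ := by
    intro h
    exact hne ((Ideal.map_eq_top_iff_of_ker_le _ hker (evalB_isIntegral x yB)).mp h)
  obtain ⟨Q, hQmax, hQ⟩ := Ideal.exists_le_maximal _ hmap
  -- the two generators
  have hxc : evalB K x yB (C (X - C c)) ∈ Q := by
    apply hQ
    apply Ideal.mem_map_of_mem
    rw [RingHom.mem_ker, evalK_C]
    simp
  have hyr : evalB K x yB (X - C (C r)) ∈ Q := by
    apply hQ
    apply Ideal.mem_map_of_mem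
    rw [RingHom.mem_ker, map_sub, evalK_X, evalK_C]
    simp
  have hxcF : ((evalB K x yB (C (X - C c)) : B) : F) = x - algebraMap K F c := by
    rw [coe_evalB, evalF_C]
    simp
  have hyrF : ((evalB K x yB (X - C (C r)) : B) : F) = y - algebraMap K F r := by
    rw [coe_evalB, map_sub, evalF_X, evalF_C]
    simp [yB]
  have hxc0 : x - algebraMap K F c ≠ 0 := by
    intro h
    apply hx
    have h2 : x = algebraMap K F c := sub_eq_zero.mp h
    rw [h2]
    exact isAlgebraic_algebraMap c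
  have hQbot : Q ≠ ⊥ := by
    intro h
    rw [h, Ideal.mem_bot] at hxc
    apply hxc0
    rw [← hxcF, hxc]
    rfl
  let P' : HeightOneSpectrum B := ⟨Q, hQmax.isPrime, hQbot⟩
  refine ⟨Place.ofHeightOneSpectrum (K := K) (F := F) P', ?_, ?_⟩
  · have hb0 : evalB K x yB (C (X - C c)) ≠ 0 := by
      intro h
      apply hxc0
      rw [← hxcF, h]
      rfl
    have := (Fermat.Agent.S24Bridge.mem_asIdeal_iff_ord_pos (K := K) (F := F) P' _ hb0).mp hxc
    rw [adicValuation_lt_one_iff_ord_pos _ hxc0, ← hxcF]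
    exact this
  · by_cases hy0 : y - algebraMap K F r = 0
    · rw [hy0, map_zero]
      exact zero_lt_one
    · have hb0 : evalB K x yB (X - C (C r)) ≠ 0 := by
        intro h
        apply hy0
        rw [← hyrF, h]
        rfl
      have := (Fermat.Agent.S24Bridge.mem_asIdeal_iff_ord_pos (K := K) (F := F) P' _ hb0).mp hyr
      rw [adicValuation_lt_one_iff_ord_pos _ hy0, ← hyrF]
      exact this

/-- the number of `g`-th roots of `a ≠ 0` in an algebraically closed field in which `g ≠ 0`. -/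
theorem card_roots_pow_eq {g : ℕ} (hg : (g : K) ≠ 0) {a : K} (ha : a ≠ 0) :
    Nat.card {r : K // r ^ g = a} = g := by
  classical
  have hsep : (X ^ g - C a : K[X]).Separable := Polynomial.separable_X_pow_sub_C a hg ha
  have hg0 : g ≠ 0 := by
    rintro rfl
    simp at hg
  have hne : (X ^ g - C a : K[X]) ≠ 0 := (Polynomial.monic_X_pow_sub_C a hg0).ne_zero
  have h1 := Polynomial.card_rootSet_eq_natDegree (K := K) hsep (IsAlgClosed.splits _)
  rw [Polynomial.natDegree_X_pow_sub_C] at h1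
  have h2 : Nat.card ((X ^ g - C a : K[X]).rootSet K) = g := by
    rw [Nat.card_eq_fintype_card]
    exact h1
  refine (Nat.card_congr ?_).trans h2
  refine Equiv.subtypeEquivRight fun r => ?_
  rw [Polynomial.mem_rootSet_of_ne hne]
  simp [sub_eq_zero]

/-- **lower bound for a fibre** from a `g`-th root of a unit. -/
theorem le_card_fibre (h : IsRRField K F) {x y : F} (hx : Transcendental K x)
    [FiniteDimensional K⟮x⟯ F] [Algebra.IsSeparable K⟮x⟯ F] {g : ℕ} (hg : (g : K) ≠ 0) (P : K[X])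
    (hy : y ^ g = aeval x P)
    (hli : LinearIndependent K⟮x⟯ (fun i : Fin g => y ^ (i : ℕ)))
    {c : K} (hPc : P.eval c ≠ 0) :
    g ≤ Nat.card {v : Place K F // 0 < v.ord (x - algebraMap K F c)} := by
  classical
  have hg0 : 0 < g := by
    rcases Nat.eq_zero_or_pos g with h0 | h0
    · rw [h0] at hg
      simp at hg
    · exact h0
  have hxc0 : x - algebraMap K F c ≠ 0 := by
    intro h'
    apply hx
    have h2 : x = algebraMap K F c := sub_eq_zero.mp h'
    rw [h2]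
    exact isAlgebraic_algebraMap c
  haveI := finite_zeroFibre h hx c
  have hex : ∀ r : {r : K // r ^ g = P.eval c}, ∃ v : Place K F,
      v.adicValuation (x - algebraMap K F c) < 1 ∧
        v.adicValuation (y - algebraMap K F r.1) < 1 :=
    fun r => exists_place_of_root hx hg0 P hy hli r.2
  choose f hf1 hf2 using hex
  let φ : {r : K // r ^ g = P.eval c} → {v : Place K F // 0 < v.ord (x - algebraMap K F c)} :=
    fun r => ⟨f r, (adicValuation_lt_one_iff_ord_pos _ hxc0).mp (hf1 r)⟩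
  have hinj : Function.Injective φ := by
    intro r r' hrr
    have hv : f r = f r' := congrArg Subtype.val hrr
    by_contra hne
    have hne' : r.1 - r'.1 ≠ 0 := fun h0 => hne (Subtype.ext (sub_eq_zero.mp h0))
    have h1 := hf2 r
    have h2 := hf2 r'
    rw [← hv] at h2
    have h3 : (f r).adicValuation (algebraMap K F (r.1 - r'.1)) < 1 := by
      have heq : algebraMap K F (r.1 - r'.1) =
          (y - algebraMap K F r'.1) - (y - algebraMap K F r.1) := by
        rw [map_sub]; ring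
      rw [heq]
      exact lt_of_le_of_lt (Valuation.map_sub _ _ _) (max_lt h2 h1)
    rw [adicValuation_algebraMap_eq_one (f r) hne'] at h3
    exact lt_irrefl _ h3
  have := Nat.card_le_card_of_injective φ hinj
  rwa [card_roots_pow_eq hg hPc] at this

end Places

end Fermat.Agent.RRKum
end
end MergeWrap_Lib_RR_Kummer_Split

section MergeWrap_Lib_RR_Kummer_Count -- from Lib/RR/Kummer/Count.lean

set_option autoImplicit false
set_option linter.style.haveILetI false
set_option linter.unusedSectionVars false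

noncomputable section

open AlgebraicCurve IntermediateField Polynomial

namespace Fermat.Agent.RRKum

open Fermat.Agent.RR Fermat.Agent.RRHur

variable {K F : Type*} [Field K] [Field F] [Algebra K F]

/-! ### zeros and poles with multiplicities bounded below -/

section Count

theorem sum_ord_eq_zero (h : IsRRField K F) (f : F) :
    ∑ v ∈ (divOf h f).support, v.ord f = 0 := by
  have h1 := degree_divOf h f
  rw [degree_eq_sum h] at h1
  rw [← h1]
  exact Finset.sum_congr rfl fun v _ => (divOf_apply h f v).symm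

theorem degree_poleDiv_eq_sum (h : IsRRField K F) (f : F) :
    Divisor.degree (poleDiv h f) = ∑ v ∈ (divOf h f).support, max (-(v.ord f)) 0 := by
  rw [fibreDeg_degree_eq_sum_of_subset h (poleDiv h f) (divOf h f).support
    (fibreDeg_support_subset h f _ fun v hv => by rw [poleDiv_apply, hv]; simp)]
  rfl

theorem card_zeros_eq_sum (h : IsRRField K F) (f : F) :
    (Nat.card {v : Place K F // 0 < v.ord f} : ℤ) =
      ∑ v ∈ (divOf h f).support, (if 0 < v.ord f then (1 : ℤ) else 0) := by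
  rw [fibreDeg_card_eq_sum (divOf h f).support (fun v => 0 < v.ord f) fun v hv => by
    rw [Finsupp.mem_support_iff, divOf_apply]
    exact ne_of_gt hv]
  refine Finset.sum_congr rfl fun v _ => ?_
  congr

theorem card_poles_eq_sum (h : IsRRField K F) (f : F) :
    (Nat.card {v : Place K F // v.ord f < 0} : ℤ) =
      ∑ v ∈ (divOf h f).support, (if v.ord f < 0 then (1 : ℤ) else 0) := by
  rw [fibreDeg_card_eq_sum (divOf h f).support (fun v => v.ord f < 0) fun v hv => by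
    rw [Finsupp.mem_support_iff, divOf_apply]
    exact ne_of_lt hv]
  refine Finset.sum_congr rfl fun v _ => ?_
  congr

/-- `deg (f)_∞ - k * #zeros` as a sum of nonnegative terms. -/
theorem degree_poleDiv_sub_eq_sum (h : IsRRField K F) (f : F) (k : ℤ) :
    Divisor.degree (poleDiv h f) - k * (Nat.card {v : Place K F // 0 < v.ord f} : ℤ) =
      ∑ v ∈ (divOf h f).support,
        (if 0 < v.ord f then v.ord f - k else 0) := by
  classical
  have h0 := sum_ord_eq_zero h f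
  rw [degree_poleDiv_eq_sum, card_zeros_eq_sum h, Finset.mul_sum, ← Finset.sum_sub_distrib]
  have h1 : ∑ v ∈ (divOf h f).support, (max (-(v.ord f)) 0 - k * (if 0 < v.ord f then (1 : ℤ) else 0))
      = ∑ v ∈ (divOf h f).support,
        ((max (-(v.ord f)) 0 - k * (if 0 < v.ord f then (1 : ℤ) else 0)) + v.ord f) := by
    rw [Finset.sum_add_distrib, h0, add_zero]
  rw [h1]
  refine Finset.sum_congr rfl fun v _ => ?_
  split_ifs with hv
  · rw [max_eq_right (by omega)]
    ring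
  · rw [max_eq_left (by omega)]
    ring

theorem mul_card_zeros_le (h : IsRRField K F) (f : F) (k : ℤ)
    (hk : ∀ v : Place K F, 0 < v.ord f → k ≤ v.ord f) :
    k * (Nat.card {v : Place K F // 0 < v.ord f} : ℤ) ≤ Divisor.degree (poleDiv h f) := by
  classical
  have h1 := degree_poleDiv_sub_eq_sum h f k
  have h2 : 0 ≤ ∑ v ∈ (divOf h f).support, (if 0 < v.ord f then v.ord f - k else 0) := by
    apply Finset.sum_nonneg
    intro v _
    split_ifs with hv
    · have := hk v hv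
      omega
    · exact le_rfl
  omega

/-- equality case: all zeros have multiplicity exactly `k`. -/
theorem ord_eq_of_mul_card_zeros_eq (h : IsRRField K F) (f : F) (k : ℤ)
    (hk : ∀ v : Place K F, 0 < v.ord f → k ≤ v.ord f)
    (heq : k * (Nat.card {v : Place K F // 0 < v.ord f} : ℤ) = Divisor.degree (poleDiv h f))
    (v : Place K F) (hv : 0 < v.ord f) : v.ord f = k := by
  classical
  have h1 := degree_poleDiv_sub_eq_sum h f k
  rw [heq, sub_self] at h1
  have h2 := (Finset.sum_eq_zero_iff_of_nonneg (fun w _ => by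
    split_ifs with hw
    · have := hk w hw
      omega
    · exact le_rfl)).mp h1.symm v (by
      rw [Finsupp.mem_support_iff, divOf_apply]
      exact ne_of_gt hv)
  rw [if_pos hv] at h2
  omega

/-- `deg (f)_∞ - k * #poles` as a sum of nonnegative terms. -/
theorem degree_poleDiv_sub_eq_sum' (h : IsRRField K F) (f : F) (k : ℤ) :
    Divisor.degree (poleDiv h f) - k * (Nat.card {v : Place K F // v.ord f < 0} : ℤ) =
      ∑ v ∈ (divOf h f).support,
        (if v.ord f < 0 then -v.ord f - k else 0) := by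
  classical
  rw [degree_poleDiv_eq_sum, card_poles_eq_sum h, Finset.mul_sum, ← Finset.sum_sub_distrib]
  refine Finset.sum_congr rfl fun v _ => ?_
  split_ifs with hv
  · rw [max_eq_left (by omega)]
    ring
  · rw [max_eq_right (by omega)]
    ring

theorem mul_card_poles_le (h : IsRRField K F) (f : F) (k : ℤ)
    (hk : ∀ v : Place K F, v.ord f < 0 → k ≤ -v.ord f) :
    k * (Nat.card {v : Place K F // v.ord f < 0} : ℤ) ≤ Divisor.degree (poleDiv h f) := by
  classical
  have h1 := degree_poleDiv_sub_eq_sum' h f k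
  have h2 : 0 ≤ ∑ v ∈ (divOf h f).support, (if v.ord f < 0 then -v.ord f - k else 0) := by
    apply Finset.sum_nonneg
    intro v _
    split_ifs with hv
    · have := hk v hv
      omega
    · exact le_rfl
  omega

/-- equality case: all poles have multiplicity exactly `k`. -/
theorem ord_eq_of_mul_card_poles_eq (h : IsRRField K F) (f : F) (k : ℤ)
    (hk : ∀ v : Place K F, v.ord f < 0 → k ≤ -v.ord f)
    (heq : k * (Nat.card {v : Place K F // v.ord f < 0} : ℤ) = Divisor.degree (poleDiv h f))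
    (v : Place K F) (hv : v.ord f < 0) : -v.ord f = k := by
  classical
  have h1 := degree_poleDiv_sub_eq_sum' h f k
  rw [heq, sub_self] at h1
  have h2 := (Finset.sum_eq_zero_iff_of_nonneg (fun w _ => by
    split_ifs with hw
    · have := hk w hw
      omega
    · exact le_rfl)).mp h1.symm v (by
      rw [Finsupp.mem_support_iff, divOf_apply]
      exact ne_of_lt hv)
  rw [if_pos hv] at h2
  omega

end Count

end Fermat.Agent.RRKum
end
end MergeWrap_Lib_RR_Kummer_Count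

section MergeWrap_Lib_BadRed_Graph_OrdLevel -- from Lib/BadRed/Graph/OrdLevel.lean

set_option autoImplicit false
set_option linter.unusedSectionVars false
set_option linter.style.haveILetI false

/-!
# Cluster G (S36), abstract graph package: LEVEL SETS of a parameter are ordinary  (helper20)

From the `GraphSetup` interface (`push`) and helper3's (ORD-CRIT) (`Graph/OrdCrit.lean`) only.

`OLParam N V v` : `v` is a PARAMETER on the family `V` of components: integral with transcendental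
reduction on every `c ∈ V`, `V` is the set of ALL the extensions of the Gauss valuation of `K(v)`
(`[F : K(v)] ≤ ∑_{c ∈ V} [Fk c : k(red_c v)]`, the shape of `MNData.deg₁`), and the points of the
components of `V` at which `red_c v` is a unit are smooth points of the special fibre.

* `OLParam.level` **(LEVEL)**: for a unit `a` of `A` every zero `P` of `v - a` is ORDINARY and
  reduces to a zero of `red_c v - ā` on a component `c ∈ V`
  ((ORD-CRIT) for `f = (v - a)⁻¹`: `deg (f)_∞ = [F : K(v)] ≤ ∑_V [Fk c : k(red v)]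
  = ∑_V deg ((red v - ā)⁻¹)_∞`, and the zeros of `red v - ā` are smooth);
* `ol_ord_eq_zero_of_push` : push, pointwise: if no pole of the unit `g` reduces to the smooth
  point `Q` and `red g` is a unit at `Q`, then `g` is a unit at every place reducing to `Q`;
* `OLParam.eval` **(EVAL)**: if `P` reduces to a point `Q` of `c ∈ V` at which `red_c v` is a
  unit, then `v (P)` is a unit of `A`: `0 < ord_P (v - a)` for some unit `a` of `A`
  (push for `(v - a')⁻¹` and `λ (v - a) (v - a')⁻¹`, `a'` a generic unit of `A`).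

Use: the modular saturation `HorSat2` (`S36/G/SatMod.lean`).
-/

noncomputable section

open AlgebraicCurve IntermediateField Fermat.Agent.RR Fermat.Agent.Deuring

namespace Fermat.Agent.BadRedG

open Fermat.Agent.BadRed Fermat.Agent.BadRed.Gluing Fermat.Agent.BadRed.SeedNode

section Field

variable {K F : Type*} [Field K] [Field F] [Algebra K F]

/-- `K((x - c)⁻¹) = K(x)`. -/
theorem ol_adjoin_inv_sub (x : F) (c : K) : K⟮(x - algebraMap K F c)⁻¹⟯ = K⟮x⟯ := by
  apply le_antisymm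
  · rw [IntermediateField.adjoin_simple_le_iff]
    exact inv_mem (sub_mem (IntermediateField.mem_adjoin_simple_self K x)
      (IntermediateField.algebraMap_mem _ c))
  · rw [IntermediateField.adjoin_simple_le_iff]
    have h1 : ((x - algebraMap K F c)⁻¹)⁻¹ + algebraMap K F c ∈ K⟮(x - algebraMap K F c)⁻¹⟯ :=
      add_mem (inv_mem (IntermediateField.mem_adjoin_simple_self K _))
        (IntermediateField.algebraMap_mem _ c)
    rwa [inv_inv, sub_add_cancel] at h1

/-- `[F : K((x - c)⁻¹)] = [F : K(x)]`. -/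
theorem ol_finrank_inv_sub (x : F) (c : K) :
    Module.finrank K⟮(x - algebraMap K F c)⁻¹⟯ F = Module.finrank K⟮x⟯ F := by
  rw [ol_adjoin_inv_sub x c]

/-- `(x - c)⁻¹` is transcendental if `x` is. -/
theorem ol_transcendental_inv_sub {x : F} (hx : Transcendental K x) (c : K) :
    Transcendental K (x - algebraMap K F c)⁻¹ := by
  intro halg
  apply hx
  have h1 : IsAlgebraic K ((x - algebraMap K F c)⁻¹)⁻¹ := halg.inv
  have h2 : IsAlgebraic K (((x - algebraMap K F c)⁻¹)⁻¹ + algebraMap K F c) :=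
    h1.add (isAlgebraic_algebraMap c)
  rwa [inv_inv, sub_add_cancel] at h2

/-- the total order of the poles of `f` is the degree of the polar divisor. -/
theorem ol_sum_polesOf (h : IsRRField K F) (f : F) :
    ∑ P ∈ polesOf h f, (- P.ord f) = Divisor.degree (poleDiv h f) := by
  classical
  rw [Fermat.Agent.RRKum.degree_poleDiv_eq_sum h f, polesOf, Finset.sum_filter]
  refine Finset.sum_congr rfl fun P _ => ?_
  split_ifs with hP
  · rw [max_eq_left (by omega)]
  · rw [max_eq_right (by omega)]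

/-- the total order of the poles of `(x - c)⁻¹` is `[F : K(x)]`. -/
theorem ol_sum_polesOf_inv_sub (h : IsRRField K F) {x : F} (hx : Transcendental K x) (c : K) :
    ∑ P ∈ polesOf h (x - algebraMap K F c)⁻¹, (- P.ord (x - algebraMap K F c)⁻¹) =
      (Module.finrank K⟮x⟯ F : ℤ) := by
  have ht := ol_transcendental_inv_sub hx c
  haveI : FiniteDimensional K⟮(x - algebraMap K F c)⁻¹⟯ F :=
    Fermat.Agent.RedTr.fundIdK_finiteDimensional h ht
  rw [ol_sum_polesOf, Fermat.Agent.RRHur.degree_poleDiv_eq_finrank h ht, ol_finrank_inv_sub]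

end Field

variable {K F k : Type*} [Field K] [Field F] [Algebra K F] [Field k]
  {κ : Type*} {Fk : κ → Type*} [∀ c, Field (Fk c)] [∀ c, Algebra k (Fk c)] {ι : Type*}

/-- `v` is a parameter on the family `V` of components of the graph. -/
structure OLParam (N : GraphSetup K F k κ Fk ι) (V : Finset κ) (v : F) : Prop where
  ne : V.Nonempty
  mem : ∀ c ∈ V, v ∈ (N.S c).Ov
  tr : ∀ c ∈ V, Transcendental k ((N.S c).red v)
  /-- `V` is the set of ALL the extensions of the Gauss valuation of `K(v)` -/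
  deg : Module.finrank K⟮v⟯ F ≤ ∑ c ∈ V, Module.finrank k⟮(N.S c).red v⟯ (Fk c)
  /-- the points of the components of `V` where the reduction of `v` is a unit are smooth -/
  sm : ∀ c ∈ V, ∀ Q : Place k (Fk c), Q.ord ((N.S c).red v) = 0 → N.IsSmooth ⟨c, Q⟩

variable {N : GraphSetup K F k κ Fk ι} {V : Finset κ} {v : F}

theorem OLParam.transcendental (H : OLParam N V v) : Transcendental K v := by
  obtain ⟨c, hc⟩ := H.ne
  exact sn_transcendental_of_red (N.S c) (H.mem c hc) (H.tr c hc)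

/-- the constants of `A` are integral for all the valuations, with the same residue. -/
theorem ol_const (N : GraphSetup K F k κ Fk ι) (c₀ c : κ) {a : K} (ha : a ∈ (N.S c₀).A) :
    algebraMap K F a ∈ (N.S c).Ov ∧
      (N.S c).red (algebraMap K F a) = algebraMap k (Fk c) ((N.S c₀).res ⟨a, ha⟩) := by
  have ha' : a ∈ (N.S c).A := N.A_eq c₀ c ▸ ha
  refine ⟨(N.S c).algebraMap_mem ha', ?_⟩
  rw [(N.S c).red_algebraMap ha', N.res_eq c c₀ a ha' ha]

/-- the reduction of `v - a` on a component of `V`. -/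
theorem OLParam.red_sub (H : OLParam N V v) (c₀ : κ) {c : κ} (hc : c ∈ V) {a : K}
    (ha : a ∈ (N.S c₀).A) :
    (N.S c).red (v - algebraMap K F a) =
      (N.S c).red v - algebraMap k (Fk c) ((N.S c₀).res ⟨a, ha⟩) := by
  rw [(N.S c).red_sub (H.mem c hc) (ol_const N c₀ c ha).1, (ol_const N c₀ c ha).2]

theorem OLParam.red_sub_ne_zero (H : OLParam N V v) {c : κ} (hc : c ∈ V) (b : k) :
    (N.S c).red v - algebraMap k (Fk c) b ≠ 0 := by
  intro h
  apply H.tr c hc
  rw [sub_eq_zero.mp h]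
  exact isAlgebraic_algebraMap b

/-- `(v - a)⁻¹` is a unit of the valuation ring of every component of `V`. -/
theorem OLParam.inv_sub_unit (H : OLParam N V v) (c₀ : κ) {c : κ} (hc : c ∈ V) {a : K}
    (ha : a ∈ (N.S c₀).A) :
    (v - algebraMap K F a)⁻¹ ∈ (N.S c).Ov ∧ ((v - algebraMap K F a)⁻¹)⁻¹ ∈ (N.S c).Ov ∧
      (N.S c).red (v - algebraMap K F a)⁻¹ =
        ((N.S c).red v - algebraMap k (Fk c) ((N.S c₀).res ⟨a, ha⟩))⁻¹ := by
  have hmem : v - algebraMap K F a ∈ (N.S c).Ov := sub_mem (H.mem c hc) (ol_const N c₀ c ha).1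
  have hred : (N.S c).red (v - algebraMap K F a) ≠ 0 := by
    rw [H.red_sub c₀ hc ha]
    exact H.red_sub_ne_zero hc _
  have hinv := (N.S c).inv_mem_of_red_ne_zero hred
  have h0 := (N.S c).ne_zero_of_red_ne_zero hred
  refine ⟨hinv, by rwa [inv_inv], ?_⟩
  rw [(N.S c).red_inv hmem hinv h0, H.red_sub c₀ hc ha]

/-- **(LEVEL)**: the zeros of `v - a`, `a` a unit of `A`, are ordinary and reduce to the zeros of
`red_c v - ā`, `c ∈ V`. -/
theorem OLParam.level (H : OLParam N V v) (c₀ : κ) {a : K} (ha : a ∈ (N.S c₀).A)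
    (hres : (N.S c₀).res ⟨a, ha⟩ ≠ 0) (P : Place K F)
    (hP : 0 < P.ord (v - algebraMap K F a)) :
    ∃ c ∈ V, ∃ Q : Place k (Fk c), N.r P = some ⟨c, Q⟩ ∧
      0 < Q.ord ((N.S c).red v - algebraMap k (Fk c) ((N.S c₀).res ⟨a, ha⟩)) := by
  classical
  set f : F := (v - algebraMap K F a)⁻¹ with hf
  have hva : v - algebraMap K F a ≠ 0 := by
    intro h
    rw [h, Place.ord_zero] at hP
    exact lt_irrefl _ hP
  have hf0 : f ≠ 0 := inv_ne_zero hva
  -- the set of the zeros of the `red_c v - b`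
  set T : Finset (Σ c, Place k (Fk c)) :=
    V.sigma (fun c => polesOf (N.S c).hFk ((N.S c).red f)) with hT
  have hmemT : ∀ X : Σ c, Place k (Fk c), X ∈ T →
      X.1 ∈ V ∧ 0 < X.2.ord ((N.S X.1).red v -
        algebraMap k (Fk X.1) ((N.S c₀).res ⟨a, ha⟩)) := by
    intro X hX
    rw [hT, Finset.mem_sigma, mem_polesOf] at hX
    refine ⟨hX.1, ?_⟩
    have h1 := hX.2
    rw [hf, (H.inv_sub_unit c₀ hX.1 ha).2.2, Place.ord_inv] at h1
    omega
  have hTs : ∀ X ∈ T, N.IsSmooth X ∧ f ∈ (N.S X.1).Ov ∧ f⁻¹ ∈ (N.S X.1).Ov := by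
    intro X hX
    obtain ⟨hXV, hXz⟩ := hmemT X hX
    refine ⟨?_, (H.inv_sub_unit c₀ hXV ha).1, (H.inv_sub_unit c₀ hXV ha).2.1⟩
    have h1 : X.2.ord ((N.S X.1).red v) = 0 :=
      ord_eq_zero_of_valAt (Or.inr hXz) hres
    exact H.sm X.1 hXV X.2 h1
  have hcount : ∑ P ∈ polesOf (N.S c₀).hF f, (- P.ord f) ≤
      ∑ X ∈ T, (- X.2.ord ((N.S X.1).red f)) := by
    rw [hf, ol_sum_polesOf_inv_sub (N.S c₀).hF H.transcendental a, hT, Finset.sum_sigma]
    have h1 : ∀ c ∈ V, ∑ Q ∈ polesOf (N.S c).hFk ((N.S c).red f), (- Q.ord ((N.S c).red f)) =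
        (Module.finrank k⟮(N.S c).red v⟯ (Fk c) : ℤ) := by
      intro c hc
      rw [hf, (H.inv_sub_unit c₀ hc ha).2.2]
      exact ol_sum_polesOf_inv_sub (N.S c).hFk (H.tr c hc) _
    rw [Finset.sum_congr rfl h1, ← Nat.cast_sum]
    exact_mod_cast H.deg
  have hPf : P.ord f < 0 := by
    rw [hf, Place.ord_inv]
    omega
  obtain ⟨X, hX, hr⟩ := isOrd_of_pole_count N c₀ hf0 T hTs hcount P hPf
  obtain ⟨hXV, hXz⟩ := hmemT X hX
  exact ⟨X.1, hXV, X.2, hr, hXz⟩

open Classical in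
/-- **push, pointwise**: if no pole of the unit `g` reduces to the smooth point `Q` and
`red_c g` is a unit at `Q`, then `g` is a unit at every place which reduces to `Q`. -/
theorem ol_ord_eq_zero_of_push (N : GraphSetup K F k κ Fk ι) (c : κ) (Q : Place k (Fk c))
    (hQ : N.IsSmooth ⟨c, Q⟩) {g : F} (hg0 : g ≠ 0) (hg : g ∈ (N.S c).Ov)
    (hginv : g⁻¹ ∈ (N.S c).Ov) (hord : Q.ord ((N.S c).red g) = 0)
    (hpole : ∀ P' : Place K F, P'.ord g < 0 → N.r P' ≠ some ⟨c, Q⟩)
    {P : Place K F} (hr : N.r P = some ⟨c, Q⟩) : P.ord g = 0 := by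
  have hpush := N.push c g hg hginv hg0 Q hQ.1 hQ.2
  rw [oc_mapDomain_apply_eq_sum, hord] at hpush
  have hnn : ∀ P' ∈ (divOf (N.S c).hF g).support,
      (0 : ℤ) ≤ @ite ℤ (N.r P' = some ⟨c, Q⟩) (Classical.propDecidable _)
        ((divOf (N.S c).hF g) P') 0 := by
    intro P' _
    split_ifs with h
    · rw [divOf_apply]
      by_contra hneg
      exact hpole P' (not_le.mp hneg) h
    · exact le_rfl
  have hz := (Finset.sum_eq_zero_iff_of_nonneg hnn).mp hpush
  by_cases hP : P ∈ (divOf (N.S c).hF g).support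
  · have := hz P hP
    rwa [if_pos hr, divOf_apply] at this
  · rw [Finsupp.mem_support_iff, not_not, divOf_apply] at hP
    exact hP

/-- no zero of `v - a'` reduces to a point at which `red v` takes another value. -/
theorem OLParam.level_ne (H : OLParam N V v) (c₀ : κ) {a' : K} (ha' : a' ∈ (N.S c₀).A)
    (hres' : (N.S c₀).res ⟨a', ha'⟩ ≠ 0) {c : κ} {Q : Place k (Fk c)} {β : k}
    (hβ : 0 < Q.ord ((N.S c).red v - algebraMap k (Fk c) β))
    (hne : β ≠ (N.S c₀).res ⟨a', ha'⟩)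
    (P' : Place K F) (hP' : 0 < P'.ord (v - algebraMap K F a')) : N.r P' ≠ some ⟨c, Q⟩ := by
  intro hr
  obtain ⟨c', hc', Q', hr', hQ'⟩ := H.level c₀ ha' hres' P' hP'
  rw [hr] at hr'
  obtain ⟨rfl, hQQ⟩ := Sigma.mk.inj_iff.mp (Option.some_injective _ hr')
  rw [← eq_of_heq hQQ] at hQ'
  have := Fermat.Agent.RRHur.ord_sub_const_eq_zero Q hne hβ
  omega

/-- a constant with nonzero residue is a unit of `A`. -/
theorem ol_inv_mem_of_res_ne_zero {Fk₀ : Type*} [Field Fk₀] [Algebra k Fk₀]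
    (S : ValSetup K F k Fk₀) {a : K} (ha : a ∈ S.A) (hres : S.res ⟨a, ha⟩ ≠ 0) : a⁻¹ ∈ S.A := by
  have h1 : S.red (algebraMap K F a) ≠ 0 := by
    rw [S.red_algebraMap ha]
    exact (map_ne_zero (algebraMap k Fk₀)).mpr hres
  have h2 := S.inv_mem_of_red_ne_zero h1
  rw [← map_inv₀] at h2
  exact (S.mem_Ov_iff _).mp h2

/-- **(EVAL)**: the value of `v` at a place which reduces to a point where `red_c v` is a unit is
a unit of `A`. -/
theorem OLParam.eval [Infinite k] (H : OLParam N V v) (c₀ : κ) {P : Place K F} {c : κ}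
    (hc : c ∈ V) {Q : Place k (Fk c)} (hr : N.r P = some ⟨c, Q⟩)
    (hQ : Q.ord ((N.S c).red v) = 0) :
    ∃ (a : K) (ha : a ∈ (N.S c₀).A), (N.S c₀).res ⟨a, ha⟩ ≠ 0 ∧
      0 < P.ord (v - algebraMap K F a) := by
  classical
  have hsm : N.IsSmooth ⟨c, Q⟩ :=
    ⟨fun i h => N.r_ne_node₁ P i (h ▸ hr), fun i h => N.r_ne_node₂ P i (h ▸ hr)⟩
  have hvne : ∀ a : K, v - algebraMap K F a ≠ 0 := by
    intro a h
    apply H.transcendental
    rw [sub_eq_zero.mp h]
    exact isAlgebraic_algebraMap a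
  -- the value `β` of `red v` at `Q`
  obtain ⟨β, hβ⟩ := exists_valAt (N.S c).hFk Q hQ.ge
  have hβ' : 0 < Q.ord ((N.S c).red v - algebraMap k (Fk c) β) := by
    rcases hβ with h | h
    · exact absurd (sub_eq_zero.mpr h) (H.red_sub_ne_zero hc β)
    · exact h
  have hβ0 : β ≠ 0 := by
    rintro rfl
    rw [map_zero, sub_zero] at hβ'
    omega
  -- a generic constant `a'`
  obtain ⟨b', hb'⟩ := Infinite.exists_notMem_finset ({0, β} : Finset k)
  rw [Finset.mem_insert, Finset.mem_singleton, not_or] at hb'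
  obtain ⟨⟨a', ha'⟩, hres'⟩ := (N.S c₀).res_surj b'
  have hres'0 : (N.S c₀).res ⟨a', ha'⟩ ≠ 0 := by rw [hres']; exact hb'.1
  have hres'β : β ≠ (N.S c₀).res ⟨a', ha'⟩ := by rw [hres']; exact fun h => hb'.2 h.symm
  have hu₁ := H.inv_sub_unit c₀ hc ha'
  have hQ₁ : Q.ord ((N.S c).red v - algebraMap k (Fk c) ((N.S c₀).res ⟨a', ha'⟩)) = 0 :=
    Fermat.Agent.RRHur.ord_sub_const_eq_zero Q hres'β hβ'
  have hQ₁' : Q.ord ((N.S c).red (v - algebraMap K F a')⁻¹) = 0 := by
    rw [hu₁.2.2, Place.ord_inv, hQ₁, neg_zero]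
  have hzero : ∀ P' : Place K F, 0 < P'.ord (v - algebraMap K F a') → N.r P' ≠ some ⟨c, Q⟩ :=
    H.level_ne c₀ ha' hres'0 hβ' hres'β
  -- `v - a'` is a unit at `P`
  have hP₁ : P.ord (v - algebraMap K F a') = 0 := by
    have h1 := ol_ord_eq_zero_of_push N c Q hsm (inv_ne_zero (hvne a')) hu₁.1 hu₁.2.1 hQ₁'
      (fun P' hP' => hzero P' (by rw [Place.ord_inv] at hP'; omega)) hr
    rw [Place.ord_inv] at h1
    omega
  have hPv : 0 ≤ P.ord v := by
    by_contra hneg
    have := Fermat.Agent.RRHur.ord_sub_const_of_pole P a' (not_le.mp hneg)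
    omega
  obtain ⟨a, hva⟩ := exists_valAt (N.S c₀).hF P hPv
  have hPa : 0 < P.ord (v - algebraMap K F a) := by
    rcases hva with h | h
    · exact absurd (sub_eq_zero.mpr h) (hvne a)
    · exact h
  -- the key: no multiple `h` of `v - a` is a unit at `Q`
  have key : ∀ h : F, h ∈ (N.S c).Ov → (N.S c).red h ≠ 0 → Q.ord ((N.S c).red h) = 0 →
      (∀ P' : Place K F, P'.ord h = P'.ord (v - algebraMap K F a)) → False := by
    intro h hmem hred hQh hord
    have hh0 := (N.S c).ne_zero_of_red_ne_zero hred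
    have hhinv := (N.S c).inv_mem_of_red_ne_zero hred
    have hg0 : h * (v - algebraMap K F a')⁻¹ ≠ 0 := mul_ne_zero hh0 (inv_ne_zero (hvne a'))
    have hgmem : h * (v - algebraMap K F a')⁻¹ ∈ (N.S c).Ov := mul_mem hmem hu₁.1
    have hginv : (h * (v - algebraMap K F a')⁻¹)⁻¹ ∈ (N.S c).Ov := by
      rw [mul_inv]
      exact mul_mem hhinv hu₁.2.1
    have hgred : Q.ord ((N.S c).red (h * (v - algebraMap K F a')⁻¹)) = 0 := by
      rw [(N.S c).red_mul hmem hu₁.1, Place.ord_mul Q hred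
        ((N.S c).red_ne_zero hu₁.1 hu₁.2.1 (inv_ne_zero (hvne a'))), hQh, hQ₁', add_zero]
    have hgord : ∀ P' : Place K F, P'.ord (h * (v - algebraMap K F a')⁻¹) =
        P'.ord (v - algebraMap K F a) - P'.ord (v - algebraMap K F a') := by
      intro P'
      rw [Place.ord_mul P' hh0 (inv_ne_zero (hvne a')), Place.ord_inv, hord P']
      ring
    have h1 := ol_ord_eq_zero_of_push N c Q hsm hg0 hgmem hginv hgred (fun P' hP' => by
      rw [hgord P'] at hP'
      by_cases hv : P'.ord v < 0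
      · have e1 := Fermat.Agent.RRHur.ord_sub_const_of_pole P' a hv
        have e2 := Fermat.Agent.RRHur.ord_sub_const_of_pole P' a' hv
        omega
      · have e1 : 0 ≤ P'.ord (v - algebraMap K F a) :=
          Fermat.Agent.S18Key.ord_nonneg_sub P' (not_lt.mp hv)
            (Fermat.Agent.S24Res.ord_algebraMap P' a).ge
        exact hzero P' (by omega)) hr
    rw [hgord P] at h1
    omega
  by_cases ha : a ∈ (N.S c₀).A
  · refine ⟨a, ha, ?_, hPa⟩
    by_cases hres : (N.S c₀).res ⟨a, ha⟩ = β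
    · rw [hres]
      exact hβ0
    · exfalso
      refine key (v - algebraMap K F a) (sub_mem (H.mem c hc) (ol_const N c₀ c ha).1) ?_ ?_
        (fun _ => rfl)
      · rw [H.red_sub c₀ hc ha]
        exact H.red_sub_ne_zero hc _
      · rw [H.red_sub c₀ hc ha]
        exact Fermat.Agent.RRHur.ord_sub_const_eq_zero Q (fun h => hres h.symm) hβ'
  · exfalso
    have ha0 : a ≠ 0 := by
      rintro rfl
      exact ha (zero_mem _)
    have hainv : a⁻¹ ∈ (N.S c₀).A := ((N.S c₀).A.mem_or_inv_mem a).resolve_left ha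
    have hres0 : (N.S c₀).res ⟨a⁻¹, hainv⟩ = 0 := by
      by_contra hne
      have := ol_inv_mem_of_res_ne_zero (N.S c₀) hainv hne
      rw [inv_inv] at this
      exact ha this
    have hc1 := ol_const N c₀ c hainv
    have hmul : algebraMap K F a⁻¹ * v ∈ (N.S c).Ov := mul_mem hc1.1 (H.mem c hc)
    have hredmul : (N.S c).red (algebraMap K F a⁻¹ * v) = 0 := by
      rw [(N.S c).red_mul hc1.1 (H.mem c hc), hc1.2, hres0, map_zero, zero_mul]
    have hredh : (N.S c).red (1 - algebraMap K F a⁻¹ * v) = 1 := by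
      rw [(N.S c).red_sub (one_mem _) hmul, hredmul, (N.S c).red_one, sub_zero]
    refine key (1 - algebraMap K F a⁻¹ * v) (sub_mem (one_mem _) hmul) ?_ ?_ ?_
    · rw [hredh]
      exact one_ne_zero
    · rw [hredh, Place.ord_one]
    · intro P'
      have e : 1 - algebraMap K F a⁻¹ * v =
          algebraMap K F (-a⁻¹) * (v - algebraMap K F a) := by
        have haF : algebraMap K F a ≠ 0 := (map_ne_zero _).mpr ha0
        rw [map_neg, map_inv₀]
        field_simp
        ring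
      rw [e, Place.ord_mul P' ((map_ne_zero _).mpr (neg_ne_zero.mpr (inv_ne_zero ha0)))
        (hvne a), Fermat.Agent.S24Res.ord_algebraMap, zero_add]

end Fermat.Agent.BadRedG
end
end MergeWrap_Lib_BadRed_Graph_OrdLevel

section MergeWrap_S36_G_NormSatAbs -- from S36/G/NormSatAbs.lean

set_option autoImplicit false
set_option linter.unusedSectionVars false
set_option linter.style.haveILetI false

/-!
# Cluster G (S36), seat NR-SAT, abstract part: `NormSat` from the norm formula  (helper49)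

`NormSat N n R Nm` (`S36/G/CocycleF12.lean`) asks that the poles of `Nm g` be ordinary places as
soon as `div g ≥ - n R`.  For the norms seen in `F`

* `π₁` : `Nm g = α (normAlong α g)`,
* `π₂` : `Nm g = W (α (normAlong α (W g)))`  (`W` a `K`-automorphism of `F`, e.g. `wAt D hM`),

this follows from the NORM FORMULA for `α` (`NormFormulaAlong K α hfin`: the divisor of the norm is
the push-forward of the divisor) and from the SATURATION of the support of `R`:

* `PoleCtrl Nm rel`    : a pole `P` of `Nm g` is `rel`-related to a pole `w` of `g`;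
* `poleCtrl_alpha`     : `PoleCtrl (α ∘ normAlong α) (same restriction along α)`;
* `PoleCtrl.conj`      : `PoleCtrl Nm rel → PoleCtrl (W ∘ Nm ∘ W) (rel (t⁻¹ • ·) (t • ·))`,
                         `t = SemilinearAut.ofAlgAut W`;
* `normSat_of_poleCtrl`: `PoleCtrl Nm rel → (∀ P w, R w ≠ 0 → rel P w → N.IsOrd P) → NormSat N n R Nm`;
* `normSat_alpha`, `normSat_alpha_conj` : the two cases above.
-/

noncomputable section

open AlgebraicCurve Fermat.Agent.RR Fermat.Agent.Deuring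

namespace Fermat.Agent.S36G

open Fermat.Agent.BadRed Fermat.Agent.BadRedG Fermat.Agent.F3G

variable {K F₁ F k : Type*} [Field K] [Field F₁] [Field F] [Algebra K F₁] [Algebra K F] [Field k]

/-! ### poles of a norm -/

/-- **pole control**: every pole `P` of `Nm g` is `rel`-related to a pole `w` of `g`. -/
def PoleCtrl (Nm : F → F) (rel : Place K F → Place K F → Prop) : Prop :=
  ∀ g : F, g ≠ 0 → ∀ P : Place K F, P.ord (Nm g) < 0 → ∃ w : Place K F, rel P w ∧ w.ord g < 0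

/-- a pole of the norm lies under a pole of the function (norm formula). -/
theorem nsa_exists_pole_of_norm (α : F₁ →ₐ[K] F) (hα : α.toRingHom.IsIntegral)
    (hfin : FiniteAlong K α) (hN : NormFormulaAlong K α hfin) (hF : IsRRField K F) {g : F}
    (hg : g ≠ 0) {v : Place K F₁} (hv : v.ord (normAlong α g) < 0) :
    ∃ w : Place K F, w.restrictAlong α hα = v ∧ w.ord g < 0 := by
  classical
  letI := algebraAlong α
  haveI := isScalarTower_along α
  haveI := isIntegral_along α hα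
  haveI : Module.Finite F₁ F := hfin
  have h1 : Divisor.pushforward F₁ (divOf hF g) v = v.ord (Algebra.norm F₁ g) :=
    hN g hg (divOf hF g) (fun w => divOf_apply hF g w) v
  rw [Divisor.pushforward_apply] at h1
  by_contra hcon
  push Not at hcon
  have h2 : (0 : ℤ) ≤ ∑ w ∈ (divOf hF g).support,
      if w.restrict F₁ = v then (divOf hF g) w * (w.inertiaDeg F₁ : ℤ) else 0 := by
    refine Finset.sum_nonneg fun w _ => ?_
    split_ifs with h
    · refine mul_nonneg ?_ (Int.natCast_nonneg _)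
      rw [divOf_apply]
      exact hcon w h
    · exact le_rfl
  rw [h1] at h2
  exact absurd hv (not_lt.mpr h2)

/-- **pole control for `π₁`**: a pole of `α (N_α g)` has the same restriction as a pole of `g`. -/
theorem poleCtrl_alpha (α : F₁ →ₐ[K] F) (hα : α.toRingHom.IsIntegral)
    (hfin : FiniteAlong K α) (hN : NormFormulaAlong K α hfin) (hF : IsRRField K F) :
    PoleCtrl (fun g : F => α (normAlong α g))
      (fun P w : Place K F => P.restrictAlong α hα = w.restrictAlong α hα) := by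
  intro g hg P hP
  have hP' : P.ord (α (normAlong α g)) < 0 := hP
  rw [Place.ord_restrictAlong α hα] at hP'
  have hv : (P.restrictAlong α hα).ord (normAlong α g) < 0 := by
    by_contra hcon
    push Not at hcon
    have : (0 : ℤ) ≤ (Place.ramificationIndexAlong α P : ℤ) *
        (P.restrictAlong α hα).ord (normAlong α g) :=
      mul_nonneg (Int.natCast_nonneg _) hcon
    exact absurd hP' (not_lt.mpr this)
  obtain ⟨w, hw, hwg⟩ := nsa_exists_pole_of_norm α hα hfin hN hF hg hv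
  exact ⟨w, hw.symm, hwg⟩

/-- `ord_P (W f) = ord_{t⁻¹ P} f`, `t = ofAlgAut W`. -/
theorem nsa_ord_algAut (W : F ≃ₐ[K] F) (P : Place K F) (f : F) :
    P.ord (W f) = ((SemilinearAut.ofAlgAut W)⁻¹ • P).ord f := by
  have h := SemilinearAut.ord_smul (SemilinearAut.ofAlgAut W)
    ((SemilinearAut.ofAlgAut W)⁻¹ • P) f
  rw [smul_inv_smul, SemilinearAut.ofAlgAut_smul] at h
  exact h

/-- **conjugation of a pole control** by an automorphism `W` of `F`. -/
theorem PoleCtrl.conj {Nm : F → F} {rel : Place K F → Place K F → Prop} (h : PoleCtrl Nm rel)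
    (W : F ≃ₐ[K] F) :
    PoleCtrl (fun g : F => W (Nm (W g)))
      (fun P w : Place K F => rel ((SemilinearAut.ofAlgAut W)⁻¹ • P)
        ((SemilinearAut.ofAlgAut W) • w)) := by
  intro g hg P hP
  have hP' : P.ord (W (Nm (W g))) < 0 := hP
  rw [nsa_ord_algAut] at hP'
  have hWg : W g ≠ 0 := (map_ne_zero W).mpr hg
  obtain ⟨w, hrel, hw⟩ := h (W g) hWg _ hP'
  rw [nsa_ord_algAut] at hw
  refine ⟨(SemilinearAut.ofAlgAut W)⁻¹ • w, ?_, hw⟩
  show rel _ ((SemilinearAut.ofAlgAut W) • ((SemilinearAut.ofAlgAut W)⁻¹ • w))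
  rw [smul_inv_smul]
  exact hrel

/-! ### saturation -/

variable {Mid SS : Type} [Fintype Mid] {Fk : Vtx Mid SS → Type*} [∀ c, Field (Fk c)]
  [∀ c, Algebra k (Fk c)]

/-- **`NormSat` from a pole control and the saturation of the support of `R`.** -/
theorem normSat_of_poleCtrl (N : GraphSetup K F k (Vtx Mid SS) Fk (Nod Mid SS)) {n : ℕ}
    {R : Divisor K F} {Nm : F → F} {rel : Place K F → Place K F → Prop}
    (h : PoleCtrl Nm rel)
    (hsat : ∀ P w : Place K F, R w ≠ 0 → rel P w → N.IsOrd P) :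
    NormSat N n R Nm := by
  intro g hg hdiv P hP
  obtain ⟨w, hrel, hw⟩ := h g hg P hP
  refine hsat P w ?_ hrel
  intro hR
  have := hdiv w
  rw [hR, mul_zero, neg_zero] at this
  exact absurd hw (not_lt.mpr this)

/-- **(NR-SAT, `π₁`)**: `NormSat` for `Nm g = α (N_α g)` if the support of `R` is saturated for
`α` and ordinary: every place with the same restriction as a place of the support is ordinary. -/
theorem normSat_alpha (N : GraphSetup K F k (Vtx Mid SS) Fk (Nod Mid SS)) (n : ℕ)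
    (R : Divisor K F) (α : F₁ →ₐ[K] F) (hα : α.toRingHom.IsIntegral)
    (hfin : FiniteAlong K α) (hN : NormFormulaAlong K α hfin) (hF : IsRRField K F)
    (hsat : ∀ P w : Place K F, R w ≠ 0 → P.restrictAlong α hα = w.restrictAlong α hα →
      N.IsOrd P) :
    NormSat N n R (fun g : F => α (normAlong α g)) :=
  normSat_of_poleCtrl N (poleCtrl_alpha α hα hfin hN hF) hsat

/-- **(NR-SAT, `π₂`)**: `NormSat` for `Nm g = W (α (N_α (W g)))`. -/
theorem normSat_alpha_conj (N : GraphSetup K F k (Vtx Mid SS) Fk (Nod Mid SS)) (n : ℕ)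
    (R : Divisor K F) (α : F₁ →ₐ[K] F) (hα : α.toRingHom.IsIntegral)
    (hfin : FiniteAlong K α) (hN : NormFormulaAlong K α hfin) (hF : IsRRField K F)
    (W : F ≃ₐ[K] F)
    (hsat : ∀ P w : Place K F, R w ≠ 0 →
      ((SemilinearAut.ofAlgAut W)⁻¹ • P).restrictAlong α hα =
        ((SemilinearAut.ofAlgAut W) • w).restrictAlong α hα → N.IsOrd P) :
    NormSat N n R (fun g : F => W (α (normAlong α (W g)))) :=
  normSat_of_poleCtrl N ((poleCtrl_alpha α hα hfin hN hF).conj W) hsat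

end Fermat.Agent.S36G
end
end MergeWrap_S36_G_NormSatAbs

section MergeWrap_S36_G_NormSatFun -- from S36/G/NormSatFun.lean

set_option autoImplicit false
set_option linter.unusedSectionVars false
set_option linter.style.haveILetI false

/-!
# Cluster G (S36), seat NR-SAT: saturation from a POLE FUNCTION  (helper49)

The hypothesis `hsat` of `normSat_alpha` / `normSat_alpha_conj` (`S36/G/NormSatAbs.lean`) holds as
soon as the support of `R` lies in the set of poles of a function which comes from the lower level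
and whose poles are ordinary:

* `nsa_pole_of_restrict_eq` : the set of poles of `α x₁` is saturated for `α`;
* `normSat_alpha_of_poleFun` : `π₁`: `supp R ⊆ poles (α x₁)`, `poles (α x₁)` ordinary
  `⟹ NormSat N n R (α ∘ N_α)`;
* `normSat_alpha_conj_of_poleFun` : `π₂`: `supp R ⊆ poles (W⁻¹ (α x₁))`, `poles (W (α x₁))` ordinary
  `⟹ NormSat N n R (W ∘ α ∘ N_α ∘ W)`;
* `normSat_alpha_conj_of_poleFun_invol` : the same for an involution `W`;
* `normSat_alpha_of_poleDiv`, `normSat_alpha_conj_of_poleDiv` : the case `R = m • (x)_∞`,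
  `x = α x₁` resp. `x = W (α x₁)` with ordinary poles (the seed divisor of the modular graph).
-/

noncomputable section

open AlgebraicCurve Fermat.Agent.RR Fermat.Agent.Deuring

namespace Fermat.Agent.S36G

open Fermat.Agent.BadRed Fermat.Agent.BadRedG Fermat.Agent.F3G

variable {K F₁ F k : Type*} [Field K] [Field F₁] [Field F] [Algebra K F₁] [Algebra K F] [Field k]

/-- the ramification index along `α` is positive. -/
theorem nsa_ramificationIndexAlong_pos (α : F₁ →ₐ[K] F) (hα : α.toRingHom.IsIntegral)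
    (w : Place K F) : 0 < w.ramificationIndexAlong α := by
  letI := algebraAlong α
  haveI := isScalarTower_along α
  haveI := isIntegral_along α hα
  exact w.ramificationIndex_pos (F := F₁)

/-- `α x₁` has a pole at `w` iff `x₁` has a pole at the restriction of `w`. -/
theorem nsa_ord_alpha_neg_iff (α : F₁ →ₐ[K] F) (hα : α.toRingHom.IsIntegral) (x₁ : F₁)
    (w : Place K F) : w.ord (α x₁) < 0 ↔ (w.restrictAlong α hα).ord x₁ < 0 := by
  rw [Place.ord_restrictAlong α hα]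
  have he : (0 : ℤ) < (w.ramificationIndexAlong α : ℤ) := by
    exact_mod_cast nsa_ramificationIndexAlong_pos α hα w
  constructor
  · intro h
    by_contra hcon
    push Not at hcon
    exact absurd h (not_lt.mpr (mul_nonneg he.le hcon))
  · intro h
    exact mul_neg_of_pos_of_neg he h

/-- **the set of poles of `α x₁` is saturated for `α`.** -/
theorem nsa_pole_of_restrict_eq (α : F₁ →ₐ[K] F) (hα : α.toRingHom.IsIntegral) (x₁ : F₁)
    {P w : Place K F} (h : P.restrictAlong α hα = w.restrictAlong α hα)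
    (hw : w.ord (α x₁) < 0) : P.ord (α x₁) < 0 := by
  rw [nsa_ord_alpha_neg_iff α hα] at hw ⊢
  rw [h]
  exact hw

/-- `ord_{t w} f = ord_w (W⁻¹ f)`, `t = ofAlgAut W`. -/
theorem nsa_ord_smul_algAut (W : F ≃ₐ[K] F) (w : Place K F) (f : F) :
    ((SemilinearAut.ofAlgAut W) • w).ord f = w.ord (W.symm f) := by
  have h := SemilinearAut.ord_smul (SemilinearAut.ofAlgAut W) w (W.symm f)
  rw [SemilinearAut.ofAlgAut_smul, AlgEquiv.apply_symm_apply] at h
  exact h

variable {Mid SS : Type} [Fintype Mid] {Fk : Vtx Mid SS → Type*} [∀ c, Field (Fk c)]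
  [∀ c, Algebra k (Fk c)]

/-- **(NR-SAT, `π₁`) from a pole function.** -/
theorem normSat_alpha_of_poleFun (N : GraphSetup K F k (Vtx Mid SS) Fk (Nod Mid SS)) (n : ℕ)
    (R : Divisor K F) (α : F₁ →ₐ[K] F) (hα : α.toRingHom.IsIntegral)
    (hfin : FiniteAlong K α) (hN : NormFormulaAlong K α hfin) (hF : IsRRField K F) (x₁ : F₁)
    (hR : ∀ w : Place K F, R w ≠ 0 → w.ord (α x₁) < 0)
    (hord : ∀ P : Place K F, P.ord (α x₁) < 0 → N.IsOrd P) :
    NormSat N n R (fun g : F => α (normAlong α g)) :=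
  normSat_alpha N n R α hα hfin hN hF fun P w hw h =>
    hord P (nsa_pole_of_restrict_eq α hα x₁ h (hR w hw))

/-- **(NR-SAT, `π₂`) from a pole function.** -/
theorem normSat_alpha_conj_of_poleFun (N : GraphSetup K F k (Vtx Mid SS) Fk (Nod Mid SS))
    (n : ℕ) (R : Divisor K F) (α : F₁ →ₐ[K] F) (hα : α.toRingHom.IsIntegral)
    (hfin : FiniteAlong K α) (hN : NormFormulaAlong K α hfin) (hF : IsRRField K F)
    (W : F ≃ₐ[K] F) (x₁ : F₁)
    (hR : ∀ w : Place K F, R w ≠ 0 → w.ord (W.symm (α x₁)) < 0)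
    (hord : ∀ P : Place K F, P.ord (W (α x₁)) < 0 → N.IsOrd P) :
    NormSat N n R (fun g : F => W (α (normAlong α (W g)))) :=
  normSat_alpha_conj N n R α hα hfin hN hF W fun P w hw h => by
    refine hord P ?_
    rw [nsa_ord_algAut]
    refine nsa_pole_of_restrict_eq α hα x₁ h ?_
    rw [nsa_ord_smul_algAut]
    exact hR w hw

/-- **(NR-SAT, `π₂`) from a pole function, `W` an involution.** -/
theorem normSat_alpha_conj_of_poleFun_invol
    (N : GraphSetup K F k (Vtx Mid SS) Fk (Nod Mid SS))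
    (n : ℕ) (R : Divisor K F) (α : F₁ →ₐ[K] F) (hα : α.toRingHom.IsIntegral)
    (hfin : FiniteAlong K α) (hN : NormFormulaAlong K α hfin) (hF : IsRRField K F)
    (W : F ≃ₐ[K] F) (hW : ∀ x : F, W (W x) = x) (x₁ : F₁)
    (hR : ∀ w : Place K F, R w ≠ 0 → w.ord (W (α x₁)) < 0)
    (hord : ∀ P : Place K F, P.ord (W (α x₁)) < 0 → N.IsOrd P) :
    NormSat N n R (fun g : F => W (α (normAlong α (W g)))) := by
  have hsymm : ∀ x : F, W.symm x = W x := fun x => by
    rw [AlgEquiv.symm_apply_eq, hW]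
  exact normSat_alpha_conj_of_poleFun N n R α hα hfin hN hF W x₁
    (fun w hw => by rw [hsymm]; exact hR w hw) hord

/-! ### the seed divisor `R = m • (x)_∞` -/

/-- the support of `m • (x)_∞` consists of poles of `x`. -/
theorem nsa_pole_of_smul_poleDiv (hF : IsRRField K F) (m : ℕ) (x : F) {w : Place K F}
    (hw : (m • poleDiv hF x) w ≠ 0) : w.ord x < 0 := by
  by_contra hcon
  push Not at hcon
  apply hw
  rw [Finsupp.smul_apply, poleDiv_apply, max_eq_right (by omega), smul_zero]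

/-- **(NR-SAT, `π₁`) for `R = m • (α x₁)_∞`.** -/
theorem normSat_alpha_of_poleDiv (N : GraphSetup K F k (Vtx Mid SS) Fk (Nod Mid SS)) (n m : ℕ)
    (α : F₁ →ₐ[K] F) (hα : α.toRingHom.IsIntegral)
    (hfin : FiniteAlong K α) (hN : NormFormulaAlong K α hfin) (hF : IsRRField K F) (x₁ : F₁)
    (hord : N.IsOrdDiv (poleDiv hF (α x₁))) :
    NormSat N n (m • poleDiv hF (α x₁)) (fun g : F => α (normAlong α g)) :=
  normSat_alpha_of_poleFun N n _ α hα hfin hN hF x₁
    (fun w hw => nsa_pole_of_smul_poleDiv hF m _ hw)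
    (fun P hP => hord P (by
      rw [poleDiv_apply]
      have : max (-P.ord (α x₁)) 0 = -P.ord (α x₁) := max_eq_left (by omega)
      rw [this]
      omega))

/-- **(NR-SAT, `π₂`) for `R = m • (W (α x₁))_∞`, `W` an involution.** -/
theorem normSat_alpha_conj_of_poleDiv (N : GraphSetup K F k (Vtx Mid SS) Fk (Nod Mid SS))
    (n m : ℕ) (α : F₁ →ₐ[K] F) (hα : α.toRingHom.IsIntegral)
    (hfin : FiniteAlong K α) (hN : NormFormulaAlong K α hfin) (hF : IsRRField K F)
    (W : F ≃ₐ[K] F) (hW : ∀ x : F, W (W x) = x) (x₁ : F₁)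
    (hord : N.IsOrdDiv (poleDiv hF (W (α x₁)))) :
    NormSat N n (m • poleDiv hF (W (α x₁))) (fun g : F => W (α (normAlong α (W g)))) :=
  normSat_alpha_conj_of_poleFun_invol N n _ α hα hfin hN hF W hW x₁
    (fun w hw => nsa_pole_of_smul_poleDiv hF m _ hw)
    (fun P hP => hord P (by
      rw [poleDiv_apply]
      have : max (-P.ord (W (α x₁))) 0 = -P.ord (W (α x₁)) := max_eq_left (by omega)
      rw [this]
      omega))

end Fermat.Agent.S36G
end
end MergeWrap_S36_G_NormSatFun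

section MergeWrap_S36_G_SatMod -- from S36/G/SatMod.lean

set_option autoImplicit false
set_option linter.unusedSectionVars false
set_option linter.style.haveILetI false

/-!
# Cluster G (S36), seat SAT: the horizontal saturation `HorSat2` for `π₂`  (helper20)

Seed v3: `x = u₁ + b / u₁ + y`, `y = b u₁ ^ n / (u₁ ^ n - b) ^ 2`, `b = ϖ₁ ^ n`.  The poles of `y`
(the level sets `u₁ ^ n = b` on the horizontal components `H_P`) are saturated for `π₁`
(`y ∈ α F₁`) but NOT for `π₂`.  `HorSat2` (helper49, `S36/G/NormSatMod.lean`): the `π₂`-mates of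
the poles of `y` are ORDINARY.

Abstract form, for any `GraphSetup` (only `push`, via `Graph/OrdLevel.lean`):
`v₁ = u₁ / ϖ₁` and `v₂ = ϖ_A / u₂` are PARAMETERS on the family `V` of the horizontal components
(`OLParam`), `v₂ = W (α g₂)` is a function of the second projection, and the poles of `y` are
zeros of `v₁ ^ n - 1`.  Then

* `w` pole of `y` `⟹` `a₁ := v₁ (w)`, `a₁ ^ n = 1`, is a unit of `A` `⟹` (LEVEL `v₁`) `w` reduces
  to a point `Q` of a component of `V` where `red v₁` is a unit `⟹` (`h12`) `red v₂` is a unit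
  at `Q` `⟹` (EVAL `v₂`) `a₂ := v₂ (w)` is a unit of `A`;
* `P` a `π₂`-mate of `w` `⟹` `v₂ (P) = a₂` (`v₂ ∈ W (α F₁)`) `⟹` (LEVEL `v₂`) `P` is ordinary.

* `horSat2_unit_of_pow` : a root of unity is a unit of `A`;
* `horSat2_mate_zero`   : the zeros of `v₂ - a`, `v₂ = W (α g₂)`, are saturated for `π₂`;
* `horSat2_of_params`   : **(SAT, `HorSat2`)**, abstract form.
-/

noncomputable section

open AlgebraicCurve IntermediateField Fermat.Agent.RR Fermat.Agent.Deuring

namespace Fermat.Agent.S36G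

open Fermat.Agent.BadRed Fermat.Agent.BadRedG Fermat.Agent.BadRed.Gluing Fermat.Agent.F3G

variable {K F₁ F k : Type*} [Field K] [Field F₁] [Field F] [Algebra K F₁] [Algebra K F] [Field k]
  {κ : Type*} {Fk : κ → Type*} [∀ c, Field (Fk c)] [∀ c, Algebra k (Fk c)] {ι : Type*}

/-- a root of unity is a unit of the valuation ring `A`, with nonzero residue. -/
theorem horSat2_unit_of_pow {Fk₀ : Type*} [Field Fk₀] [Algebra k Fk₀] (S : ValSetup K F k Fk₀)
    {a : K} {n : ℕ} (hn : n ≠ 0) (ha : a ^ n = 1) :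
    ∃ h : a ∈ S.A, S.res ⟨a, h⟩ ≠ 0 := by
  have ha0 : a ≠ 0 := by
    rintro rfl
    rw [zero_pow hn] at ha
    exact zero_ne_one ha
  have hmem : a ∈ S.A := by
    rcases S.A.mem_or_inv_mem a with h | h
    · exact h
    · obtain ⟨m, rfl⟩ := Nat.exists_eq_succ_of_ne_zero hn
      have e : a = a⁻¹ ^ m :=
        calc a = a * (a * a⁻¹) ^ m := by rw [mul_inv_cancel₀ ha0, one_pow, mul_one]
          _ = a ^ (m + 1) * a⁻¹ ^ m := by ring
          _ = a⁻¹ ^ m := by rw [ha, one_mul]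
      rw [e]
      exact pow_mem h m
  refine ⟨hmem, fun h0 => ?_⟩
  have e : (⟨a, hmem⟩ : S.A) ^ n = 1 := Subtype.ext (by simpa using ha)
  have h1 : S.res ⟨a, hmem⟩ ^ n = 1 := by rw [← map_pow, e, map_one]
  rw [h0, zero_pow hn] at h1
  exact zero_ne_one h1

/-- the zeros of `v₂ - a`, `v₂ = W (α g₂)`, are saturated for `π₂`. -/
theorem horSat2_mate_zero (α : F₁ →ₐ[K] F) (hα : α.toRingHom.IsIntegral) (W : F ≃ₐ[K] F)
    {v₂ : F} (g₂ : F₁) (hv₂ : W (α g₂) = v₂) (hv₂' : W v₂ = α g₂) (a : K) {P w : Place K F}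
    (hrel : ((SemilinearAut.ofAlgAut W)⁻¹ • P).restrictAlong α hα =
      ((SemilinearAut.ofAlgAut W) • w).restrictAlong α hα)
    (hw : 0 < w.ord (v₂ - algebraMap K F a)) : 0 < P.ord (v₂ - algebraMap K F a) := by
  have hsymm : W.symm (α g₂) = v₂ := by rw [← hv₂', W.symm_apply_apply]
  have e1 : W.symm (α (g₂ - algebraMap K F₁ a)⁻¹) = (v₂ - algebraMap K F a)⁻¹ := by
    rw [map_inv₀, map_sub, AlgHom.commutes, map_inv₀, map_sub, hsymm, AlgEquiv.commutes]
  have e2 : W (α (g₂ - algebraMap K F₁ a)⁻¹) = (v₂ - algebraMap K F a)⁻¹ := by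
    rw [map_inv₀, map_sub, AlgHom.commutes, map_inv₀, map_sub, hv₂, AlgEquiv.commutes]
  have h1 : ((SemilinearAut.ofAlgAut W) • w).ord (α (g₂ - algebraMap K F₁ a)⁻¹) < 0 := by
    rw [nsa_ord_smul_algAut, e1, Place.ord_inv]
    omega
  have h2 := nsa_pole_of_restrict_eq α hα _ hrel h1
  rw [← nsa_ord_algAut, e2, Place.ord_inv] at h2
  omega

/-- **(SAT, `HorSat2`)**, abstract form: the `π₂`-mates of the poles of `y` are ordinary. -/
theorem horSat2_of_params [Infinite k] (N : GraphSetup K F k κ Fk ι) (V : Finset κ)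
    {v₁ v₂ : F} (H₁ : OLParam N V v₁) (H₂ : OLParam N V v₂)
    (h12 : ∀ c ∈ V, ∀ Q : Place k (Fk c), Q.ord ((N.S c).red v₁) = 0 →
      Q.ord ((N.S c).red v₂) = 0)
    (α : F₁ →ₐ[K] F) (hα : α.toRingHom.IsIntegral) (W : F ≃ₐ[K] F)
    (g₂ : F₁) (hv₂ : W (α g₂) = v₂) (hv₂' : W v₂ = α g₂)
    (n : ℕ) (y : F) (hy : ∀ w : Place K F, w.ord y < 0 → 0 < w.ord (v₁ ^ n - 1)) :
    ∀ P w : Place K F, w.ord y < 0 →
      ((SemilinearAut.ofAlgAut W)⁻¹ • P).restrictAlong α hα =
        ((SemilinearAut.ofAlgAut W) • w).restrictAlong α hα → N.IsOrd P := by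
  intro P w hw hrel
  obtain ⟨c₀, hc₀⟩ := H₁.ne
  -- the value `a₁` of `v₁` at `w` is a root of unity
  have h1 := hy w hw
  have hn : n ≠ 0 := by
    rintro rfl
    rw [pow_zero, sub_self, Place.ord_zero] at h1
    exact lt_irrefl _ h1
  have h1' : 0 < w.ord (v₁ ^ n - algebraMap K F 1) := by rwa [map_one]
  have hw1 : 0 ≤ w.ord v₁ :=
    ord_nonneg_of_pow hn (Fermat.Agent.RRHur.ord_nonneg_of_ord_sub_const_pos w h1')
  obtain ⟨a₁, ha₁⟩ := exists_valAt (N.S c₀).hF w hw1
  have hpow : a₁ ^ n = 1 := (valAt_pow ha₁ n).unique (Or.inr h1')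
  obtain ⟨ha₁A, hres₁⟩ := horSat2_unit_of_pow (N.S c₀) hn hpow
  have hw₁ : 0 < w.ord (v₁ - algebraMap K F a₁) := by
    rcases ha₁ with h | h
    · exfalso
      apply H₁.transcendental
      rw [h]
      exact isAlgebraic_algebraMap a₁
    · exact h
  -- (LEVEL) for `v₁`: `w` reduces to a point where `red v₁` is a unit
  obtain ⟨c, hc, Q, hr, hQ⟩ := H₁.level c₀ ha₁A hres₁ w hw₁
  have hQ1 : Q.ord ((N.S c).red v₁) = 0 := ord_eq_zero_of_valAt (Or.inr hQ) hres₁
  -- (EVAL) for `v₂`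
  obtain ⟨a₂, ha₂, hres₂, hw₂⟩ := H₂.eval c₀ hc hr (h12 c hc Q hQ1)
  -- the mate `P` is a zero of `v₂ - a₂`, (LEVEL) for `v₂`
  have hP₂ := horSat2_mate_zero α hα W g₂ hv₂ hv₂' a₂ hrel hw₂
  obtain ⟨c', _, Q', hr', _⟩ := H₂.level c₀ ha₂ hres₂ P hP₂
  exact ⟨_, hr'⟩

end Fermat.Agent.S36G
end
end MergeWrap_S36_G_SatMod

section MergeWrap_S36_G_NormSatMod -- from S36/G/NormSatMod.lean

set_option autoImplicit false
set_option linter.unusedSectionVars false
set_option linter.unusedVariables false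
set_option linter.style.haveILetI false

/-!
# Cluster G (S36), seat SAT (NR-SAT), modular glue  (helper49; `(H)` for `π₂`: helper20)

`NormSat N n R (nm1 N₁ q)` and `NormSat N n R (nm2 N₁ q D hM)` for the base divisors `R` supported
on the poles of the SEED FUNCTION (seed v3, `S36/Seed/YDefs.lean`)

    `x = u + b / u + y`,   `u = u₁ = uF (N₁ q) q`,   `y = ymodY u b n = b uⁿ / (uⁿ - b)²`.

## Abstract part
* `nsm_seed_pole_of_ord_ne`  : `ord_P u ≠ 0 ⟹ ord_P x < 0`           (the cusps are poles of `x`);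
* `nsm_seed_pole_cases`      : `ord_P x < 0 ⟹ ord_P u ≠ 0 ∨ ord_P y < 0`;
* `normSat_of_cusp_hor`      : `NormSat` from a pole control, the saturation of the cusps and the
  horizontal saturation `(H)`.

## Modular part (`F = FBar (N₁ q)`, `α = heckeAlphaBar Qb N₁ q`, `q ∣ N₁`, `W = wAt D hM`, `D.Q = q²`)
* `nsm_alpha_uF`, `nsm_alpha_jF`, `nsm_alpha_seed` : `u₁`, `j₁ = j(qz)`, `x` come from level `N₁`;
* `nsm_wAt_jF` : `W j₁ = j₁`;
* `nsm_normSat_nm1` : **`NormSat N n R (nm1 N₁ q)`** (complete: `x ∈ α F₁`);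
* `HorSat2` : the horizontal saturation for `π₂` (seat `(H)`, helper20, `S36/G/SatMod.lean`);
* `nsm_normSat_nm2` : **`NormSat N n R (nm2 N₁ q D hM)`** from `HorSat2`.
-/

noncomputable section

open AlgebraicCurve Fermat.Agent.RR Fermat.Agent.Deuring

namespace Fermat.Agent.S36G

open Fermat.Agent.BadRed Fermat.Agent.BadRedG Fermat.Agent.F3G Fermat.Agent.F3
  Fermat.Agent.AtkinLehner ModularCurve Fermat.Agent.S24Res

/-! ### the poles of the seed function -/

section Abs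

variable {K F : Type*} [Field K] [Field F] [Algebra K F]

/-- `ord_P (f ^ n) = n ord_P f`. -/
theorem nsm_ord_pow (P : Place K F) (f : F) (n : ℕ) : P.ord (f ^ n) = n * P.ord f := by
  have h := P.ord_zpow f (n : ℤ)
  rwa [zpow_natCast] at h

/-- `ord_P f < 0 ↔ f ∉ O_P`. -/
theorem nsm_ord_neg_iff (P : Place K F) (f : F) : P.ord f < 0 ↔ f ∉ P.toValuationSubring := by
  rw [mem_iff_ord_nonneg, not_le]

/-- the seed term `y` is regular where `u` has a zero or a pole. -/
theorem nsm_ymodY_mem_of_ord_ne (P : Place K F) {u : F} {b : K} (hb : b ≠ 0) {n : ℕ}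
    (hn : n ≠ 0) (hP : P.ord u ≠ 0) : ymodY u b n ∈ P.toValuationSubring := by
  have hbF : algebraMap K F b ≠ 0 := (_root_.map_ne_zero _).mpr hb
  have hu : u ≠ 0 := by
    rintro rfl
    exact hP P.ord_zero
  have hun : u ^ n ≠ 0 := pow_ne_zero n hu
  have hordn : P.ord (u ^ n) = n * P.ord u := nsm_ord_pow P u n
  have hnpos : (0 : ℤ) < n := by exact_mod_cast Nat.pos_of_ne_zero hn
  rcases lt_or_gt_of_ne hP with hneg | hpos
  · -- a pole of `u`: `y = (b / uⁿ) / (1 - b / uⁿ)²`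
    have h1 : algebraMap K F b / u ^ n ∈ P.toValuationSubring := by
      rw [mem_iff_ord_nonneg, div_eq_mul_inv, P.ord_mul hbF (inv_ne_zero hun), P.ord_inv,
        ord_algebraMap, hordn]
      nlinarith
    have h1' : 0 < P.ord (algebraMap K F b / u ^ n) := by
      rw [div_eq_mul_inv, P.ord_mul hbF (inv_ne_zero hun), P.ord_inv, ord_algebraMap, hordn]
      nlinarith
    have h2 : (1 - algebraMap K F b / u ^ n) ∈ P.toValuationSubring :=
      sub_mem (one_mem _) h1
    have h3 : (1 - algebraMap K F b / u ^ n) ≠ 0 := by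
      intro h0
      have : algebraMap K F b / u ^ n = 1 := (sub_eq_zero.mp h0).symm
      rw [this, P.ord_one] at h1'
      exact lt_irrefl _ h1'
    have h4 : P.ord (1 - algebraMap K F b / u ^ n) = 0 := by
      by_contra hne
      have hge : 0 ≤ P.ord (1 - algebraMap K F b / u ^ n) := (Fermat.Agent.S24Res.mem_iff_ord_nonneg P).mp h2
      have hgt : 0 < P.ord (1 - algebraMap K F b / u ^ n) := lt_of_le_of_ne hge (Ne.symm hne)
      -- then `1 = (1 - t) + t` has positive order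
      have hb0 : algebraMap K F b / u ^ n ≠ 0 := div_ne_zero hbF hun
      have hsum : (1 - algebraMap K F b / u ^ n) + algebraMap K F b / u ^ n ≠ 0 := by
        rw [sub_add_cancel]
        exact one_ne_zero
      have := ord_add_ge P h3 hb0 hsum
      rw [sub_add_cancel, P.ord_one] at this
      have hmin : 0 < min (P.ord (1 - algebraMap K F b / u ^ n))
          (P.ord (algebraMap K F b / u ^ n)) := lt_min hgt h1'
      omega
    have e : ymodY u b n =
        (algebraMap K F b / u ^ n) * ((1 - algebraMap K F b / u ^ n) ^ 2)⁻¹ := by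
      unfold ymodY
      have hd : u ^ n - algebraMap K F b ≠ 0 := by
        intro h0
        apply h3
        rw [sub_eq_zero] at h0 ⊢
        rw [h0, div_self hbF]
      field_simp
    have h5 : P.ord ((1 - algebraMap K F b / u ^ n) ^ 2) = 0 := by
      rw [nsm_ord_pow, h4, mul_zero]
    rw [e, Fermat.Agent.S24Res.mem_iff_ord_nonneg,
      P.ord_mul (div_ne_zero hbF hun) (inv_ne_zero (pow_ne_zero 2 h3)), P.ord_inv, h5, neg_zero,
      add_zero]
    exact h1'.le
  · -- a zero of `u`: `y = b uⁿ / (uⁿ - b)²`, `uⁿ - b` a unit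
    have h1 : u ^ n ∈ P.toValuationSubring := by
      rw [mem_iff_ord_nonneg, hordn]
      nlinarith
    have h1' : 0 < P.ord (u ^ n) := by
      rw [hordn]
      nlinarith
    have h3 : u ^ n - algebraMap K F b ≠ 0 := by
      intro h0
      rw [sub_eq_zero.mp h0, ord_algebraMap] at h1'
      exact lt_irrefl _ h1'
    have h2 : u ^ n - algebraMap K F b ∈ P.toValuationSubring :=
      sub_mem h1 ((Fermat.Agent.S24Res.mem_iff_ord_nonneg P).mpr (by rw [ord_algebraMap]))
    have h4 : P.ord (u ^ n - algebraMap K F b) = 0 := by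
      by_contra hne
      have hge : 0 ≤ P.ord (u ^ n - algebraMap K F b) := (Fermat.Agent.S24Res.mem_iff_ord_nonneg P).mp h2
      have hgt : 0 < P.ord (u ^ n - algebraMap K F b) := lt_of_le_of_ne hge (Ne.symm hne)
      have e1 : (u ^ n - algebraMap K F b) + -(u ^ n) = -algebraMap K F b := by ring
      have hsum : (u ^ n - algebraMap K F b) + -(u ^ n) ≠ 0 := by
        rw [e1]
        exact neg_ne_zero.mpr hbF
      have hneg : -(u ^ n) ≠ 0 := neg_ne_zero.mpr hun
      have := ord_add_ge P h3 hneg hsum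
      have e2 : P.ord (-(u ^ n)) = P.ord (u ^ n) := by
        rw [neg_eq_neg_one_mul, P.ord_mul (neg_ne_zero.mpr one_ne_zero) hun]
        have : P.ord (-1 : F) = 0 := by
          have h := ord_algebraMap P (-1 : K)
          rwa [map_neg, map_one] at h
        rw [this, zero_add]
      have e3 : P.ord (-algebraMap K F b) = 0 := by
        have h := ord_algebraMap P (-b)
        rwa [map_neg] at h
      rw [e1, e2, e3] at this
      have hmin : 0 < min (P.ord (u ^ n - algebraMap K F b)) (P.ord (u ^ n)) := lt_min hgt h1'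
      omega
    have h5 : P.ord ((u ^ n - algebraMap K F b) ^ 2) = 0 := by
      rw [nsm_ord_pow, h4, mul_zero]
    unfold ymodY
    rw [Fermat.Agent.S24Res.mem_iff_ord_nonneg, div_eq_mul_inv,
      P.ord_mul (mul_ne_zero hbF hun) (inv_ne_zero (pow_ne_zero 2 h3)),
      P.ord_mul hbF hun, P.ord_inv, h5, ord_algebraMap, neg_zero, add_zero, zero_add]
    exact h1'.le

/-- **the zeros and poles of `u` are poles of the seed function `x = u + b / u + y`.** -/
theorem nsm_seed_pole_of_ord_ne (P : Place K F) {u : F} {b : K} (hb : b ≠ 0) {n : ℕ}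
    (hn : n ≠ 0) (hP : P.ord u ≠ 0) :
    P.ord (u + algebraMap K F b / u + ymodY u b n) < 0 := by
  have hbF : algebraMap K F b ≠ 0 := (_root_.map_ne_zero _).mpr hb
  have hu : u ≠ 0 := by
    rintro rfl
    exact hP P.ord_zero
  have hy := nsm_ymodY_mem_of_ord_ne P hb hn hP
  have hbu : P.ord (algebraMap K F b / u) = -P.ord u := by
    rw [div_eq_mul_inv, P.ord_mul hbF (inv_ne_zero hu), P.ord_inv, ord_algebraMap, zero_add]
  rw [nsm_ord_neg_iff]
  intro hx
  rcases lt_or_gt_of_ne hP with hneg | hpos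
  · -- `u` has a pole, `b / u` is integral
    have h1 : algebraMap K F b / u ∈ P.toValuationSubring := by
      rw [mem_iff_ord_nonneg, hbu]
      omega
    have h2 : u ∈ P.toValuationSubring := by
      have := sub_mem (sub_mem hx hy) h1
      have e : u + algebraMap K F b / u + ymodY u b n - ymodY u b n - algebraMap K F b / u = u := by
        ring
      rwa [e] at this
    rw [mem_iff_ord_nonneg] at h2
    omega
  · -- `u` has a zero, `b / u` has a pole
    have h1 : u ∈ P.toValuationSubring := by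
      rw [mem_iff_ord_nonneg]
      omega
    have h2 : algebraMap K F b / u ∈ P.toValuationSubring := by
      have := sub_mem (sub_mem hx hy) h1
      have e : u + algebraMap K F b / u + ymodY u b n - ymodY u b n - u = algebraMap K F b / u := by
        ring
      rwa [e] at this
    rw [mem_iff_ord_nonneg, hbu] at h2
    omega

/-- **a pole of the seed function is a zero or a pole of `u`, or a pole of `y`.** -/
theorem nsm_seed_pole_cases (P : Place K F) {u : F} {b : K} {n : ℕ}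
    (hP : P.ord (u + algebraMap K F b / u + ymodY u b n) < 0) :
    P.ord u ≠ 0 ∨ P.ord (ymodY u b n) < 0 := by
  by_contra hcon
  push Not at hcon
  obtain ⟨h0, hy⟩ := hcon
  rw [nsm_ord_neg_iff] at hP
  apply hP
  have hu : u ∈ P.toValuationSubring := by
    rw [mem_iff_ord_nonneg, h0]
  have hbu : algebraMap K F b / u ∈ P.toValuationSubring := by
    rcases eq_or_ne b 0 with rfl | hb
    · rw [map_zero, zero_div]
      exact zero_mem _
    rcases eq_or_ne u 0 with rfl | hu0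
    · rw [div_zero]
      exact zero_mem _
    rw [mem_iff_ord_nonneg, div_eq_mul_inv,
      P.ord_mul ((_root_.map_ne_zero _).mpr hb) (inv_ne_zero hu0), P.ord_inv, ord_algebraMap, h0]
    simp
  exact add_mem (add_mem hu hbu)
    ((Fermat.Agent.S24Res.mem_iff_ord_nonneg P).mpr hy)

variable {k : Type*} [Field k] {Mid SS : Type} [Fintype Mid] {Fk : Vtx Mid SS → Type*}
  [∀ c, Field (Fk c)] [∀ c, Algebra k (Fk c)]

/-- **`NormSat` from a pole control, the saturation of the cusps and the horizontal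
saturation.**  `x` the seed function (its poles are ordinary and contain the support of `R`),
`jc` a function whose poles are the cusps, `y` the horizontal term. -/
theorem normSat_of_cusp_hor (N : GraphSetup K F k (Vtx Mid SS) Fk (Nod Mid SS)) (n : ℕ)
    {R : Divisor K F} {Nm : F → F} {rel : Place K F → Place K F → Prop}
    (h : PoleCtrl Nm rel) (x jc y : F)
    (hR : ∀ w : Place K F, R w ≠ 0 → w.ord x < 0)
    (hx : ∀ w : Place K F, w.ord x < 0 → w.ord jc < 0 ∨ w.ord y < 0)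
    (hcs : ∀ P w : Place K F, w.ord jc < 0 → rel P w → P.ord jc < 0)
    (hco : ∀ P : Place K F, P.ord jc < 0 → N.IsOrd P)
    (hH : ∀ P w : Place K F, w.ord y < 0 → rel P w → N.IsOrd P) :
    NormSat N n R Nm :=
  normSat_of_poleCtrl N h fun P w hw hrel => by
    rcases hx w (hR w hw) with hc | hy
    · exact hco P (hcs P w hc hrel)
    · exact hH P w hy hrel

end Abs

/-! ### the modular case -/

section Mod

local notation "Qb" => AlgebraicClosure ℚ

variable (N₁ q : ℕ) [NeZero N₁] [NeZero q]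

/-- `q ∣ N₁ q`. -/
theorem nsm_dvd : q ∣ N₁ * q := Dvd.intro_left N₁ rfl

/-- `u₁` comes from the level `N₁`. -/
theorem nsm_alpha_uF (hq : q ∣ N₁) :
    heckeAlphaBar Qb N₁ q (uF N₁ q hq) = uF (N₁ * q) q (nsm_dvd N₁ q) := by
  apply Subtype.ext
  rw [coe_heckeAlphaBar, coe_uF, coe_uF]

/-- `j₁ = j(qz)` comes from the level `N₁`. -/
theorem nsm_alpha_jF (hq : q ∣ N₁) :
    heckeAlphaBar Qb N₁ q (jF N₁ q hq) = jF (N₁ * q) q (nsm_dvd N₁ q) := by
  apply Subtype.ext
  rw [coe_heckeAlphaBar, coe_jF, coe_jF]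

/-- the seed term comes from the level `N₁`. -/
theorem nsm_alpha_ymodY (u : FBar N₁) (b : Qb) (n : ℕ) :
    heckeAlphaBar Qb N₁ q (ymodY u b n) = ymodY (heckeAlphaBar Qb N₁ q u) b n := by
  unfold ymodY
  rw [map_div₀, map_mul, map_pow, map_pow, map_sub, map_pow, AlgHom.commutes]

/-- **the seed function comes from the level `N₁`.** -/
theorem nsm_alpha_seed (hq : q ∣ N₁) (b : Qb) (n : ℕ) :
    heckeAlphaBar Qb N₁ q
        (uF N₁ q hq + algebraMap Qb (FBar N₁) b / uF N₁ q hq + ymodY (uF N₁ q hq) b n) =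
      uF (N₁ * q) q (nsm_dvd N₁ q) +
        algebraMap Qb (FBar (N₁ * q)) b / uF (N₁ * q) q (nsm_dvd N₁ q) +
        ymodY (uF (N₁ * q) q (nsm_dvd N₁ q)) b n := by
  rw [map_add, map_add, map_div₀, AlgHom.commutes, nsm_alpha_ymodY, nsm_alpha_uF]

/-- **`W j₁ = j₁`** for the Atkin–Lehner involution `W = w_{q²}` (`D.Q = q²`). -/
theorem nsm_wAt_jF (D : ALData) (hM : N₁ * q = D.Q * D.R) (hDQ : D.Q = q ^ 2) :
    wAt D hM (jF (N₁ * q) q (nsm_dvd N₁ q)) = jF (N₁ * q) q (nsm_dvd N₁ q) := by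
  haveI : NeZero (q * 1) := ⟨by rw [mul_one]; exact NeZero.ne q⟩
  apply Subtype.ext
  have h := coe_wAt_of_coe_gen D hM q q 1 D.R (by rw [hDQ, sq]) (one_mul _)
    (jF (N₁ * q) q (nsm_dvd N₁ q)) (by rw [coe_jF]; exact qExpand_congr (mul_one q).symm _)
  rw [h, coe_jF]
  exact qExpand_congr (mul_one q) _

variable {k : Type*} [Field k] {Mid SS : Type} [Fintype Mid] {Fk : Vtx Mid SS → Type*}
  [∀ c, Field (Fk c)] [∀ c, Algebra k (Fk c)]

/-- **(SAT, `π₁`)**: `NormSat N n R (nm1 N₁ q)` for every `R` supported on the poles of the seed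
function `x = u₁ + b / u₁ + y`, as soon as the poles of `x` are ordinary. -/
theorem nsm_normSat_nm1 (hq : q ∣ N₁)
    (N : GraphSetup Qb (FBar (N₁ * q)) k (Vtx Mid SS) Fk (Nod Mid SS)) (n : ℕ)
    (R : Divisor Qb (FBar (N₁ * q))) (b : Qb) (m : ℕ)
    (hR : ∀ w : Place Qb (FBar (N₁ * q)), R w ≠ 0 →
      w.ord (uF (N₁ * q) q (nsm_dvd N₁ q) +
        algebraMap Qb (FBar (N₁ * q)) b / uF (N₁ * q) q (nsm_dvd N₁ q) +
        ymodY (uF (N₁ * q) q (nsm_dvd N₁ q)) b m) < 0)
    (hord : ∀ P : Place Qb (FBar (N₁ * q)),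
      P.ord (uF (N₁ * q) q (nsm_dvd N₁ q) +
        algebraMap Qb (FBar (N₁ * q)) b / uF (N₁ * q) q (nsm_dvd N₁ q) +
        ymodY (uF (N₁ * q) q (nsm_dvd N₁ q)) b m) < 0 → N.IsOrd P) :
    NormSat N n R (nm1 N₁ q) := by
  have hfin := Fermat.Agent.EDescComm.finiteAlong_bar (heckeAlphaBar Qb N₁ q)
  have hα := Fermat.Agent.EDescComm.isIntegral_bar (heckeAlphaBar Qb N₁ q)
  have hN := Fermat.Agent.EDescComm.normFormulaAlong_bar (heckeAlphaBar Qb N₁ q) hfin
  have hF := Fermat.Agent.RRMod.isRRField_bar (N₁ * q)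
  exact normSat_alpha_of_poleFun N n R (heckeAlphaBar Qb N₁ q) hα hfin hN hF
    (uF N₁ q hq + algebraMap Qb (FBar N₁) b / uF N₁ q hq + ymodY (uF N₁ q hq) b m)
    (fun w hw => by rw [nsm_alpha_seed]; exact hR w hw)
    (fun P hP => hord P (by rw [nsm_alpha_seed] at hP; exact hP))

/-- **the horizontal saturation for `π₂`** (seat `(H)`): the `π₂`-mates of the poles of the seed
term `y` are ordinary. -/
def HorSat2 (D : ALData) (hM : N₁ * q = D.Q * D.R)
    (N : GraphSetup Qb (FBar (N₁ * q)) k (Vtx Mid SS) Fk (Nod Mid SS)) (b : Qb) (m : ℕ) : Prop :=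
  ∀ P w : Place Qb (FBar (N₁ * q)),
    w.ord (ymodY (uF (N₁ * q) q (nsm_dvd N₁ q)) b m) < 0 →
    ((SemilinearAut.ofAlgAut (wAt D hM))⁻¹ • P).restrictAlong (heckeAlphaBar Qb N₁ q)
        (Fermat.Agent.EDescComm.isIntegral_bar (heckeAlphaBar Qb N₁ q)) =
      ((SemilinearAut.ofAlgAut (wAt D hM)) • w).restrictAlong (heckeAlphaBar Qb N₁ q)
        (Fermat.Agent.EDescComm.isIntegral_bar (heckeAlphaBar Qb N₁ q)) →
    N.IsOrd P

/-- **(SAT, `π₂`)**: `NormSat N n R (nm2 N₁ q D hM)` for every `R` supported on the poles of the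
seed function, from the horizontal saturation `HorSat2`. -/
theorem nsm_normSat_nm2 (hq : q ∣ N₁) (hqp : q.Prime) (D : ALData) (hM : N₁ * q = D.Q * D.R)
    (hDQ : D.Q = q ^ 2)
    (N : GraphSetup Qb (FBar (N₁ * q)) k (Vtx Mid SS) Fk (Nod Mid SS)) (n : ℕ)
    (R : Divisor Qb (FBar (N₁ * q))) {b : Qb} (hb : b ≠ 0) {m : ℕ} (hm : m ≠ 0)
    (hR : ∀ w : Place Qb (FBar (N₁ * q)), R w ≠ 0 →
      w.ord (uF (N₁ * q) q (nsm_dvd N₁ q) +
        algebraMap Qb (FBar (N₁ * q)) b / uF (N₁ * q) q (nsm_dvd N₁ q) +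
        ymodY (uF (N₁ * q) q (nsm_dvd N₁ q)) b m) < 0)
    (hord : ∀ P : Place Qb (FBar (N₁ * q)),
      P.ord (uF (N₁ * q) q (nsm_dvd N₁ q) +
        algebraMap Qb (FBar (N₁ * q)) b / uF (N₁ * q) q (nsm_dvd N₁ q) +
        ymodY (uF (N₁ * q) q (nsm_dvd N₁ q)) b m) < 0 → N.IsOrd P)
    (hH : HorSat2 N₁ q D hM N b m) :
    NormSat N n R (nm2 N₁ q D hM) := by
  have hfin := Fermat.Agent.EDescComm.finiteAlong_bar (heckeAlphaBar Qb N₁ q)
  have hα := Fermat.Agent.EDescComm.isIntegral_bar (heckeAlphaBar Qb N₁ q)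
  have hN := Fermat.Agent.EDescComm.normFormulaAlong_bar (heckeAlphaBar Qb N₁ q) hfin
  have hF := Fermat.Agent.RRMod.isRRField_bar (N₁ * q)
  have hctrl := (poleCtrl_alpha (heckeAlphaBar Qb N₁ q) hα hfin hN hF).conj (wAt D hM)
  have hWj := nsm_wAt_jF N₁ q D hM hDQ
  have hWj' : (wAt D hM).symm (jF (N₁ * q) q (nsm_dvd N₁ q)) = jF (N₁ * q) q (nsm_dvd N₁ q) := by
    rw [AlgEquiv.symm_apply_eq, hWj]
  exact normSat_of_cusp_hor N n hctrl _ (jF (N₁ * q) q (nsm_dvd N₁ q))
    (ymodY (uF (N₁ * q) q (nsm_dvd N₁ q)) b m) hR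
    (fun w hw => by
      rcases nsm_seed_pole_cases w hw with h1 | h1
      · exact Or.inl ((ord_jq_neg_iff_uF (N₁ * q) q hqp (nsm_dvd N₁ q) w).mpr h1)
      · exact Or.inr h1)
    (fun P w hw hrel => by
      rw [← hWj, nsa_ord_algAut, ← nsm_alpha_jF N₁ q hq]
      refine nsa_pole_of_restrict_eq _ hα _ hrel ?_
      rw [nsa_ord_smul_algAut, nsm_alpha_jF N₁ q hq, hWj']
      exact hw)
    (fun P hP => hord P (nsm_seed_pole_of_ord_ne P hb hm
      ((ord_jq_neg_iff_uF (N₁ * q) q hqp (nsm_dvd N₁ q) P).mp hP)))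
    (fun P w hy hrel => hH P w hy hrel)

end Mod

end Fermat.Agent.S36G
end
end MergeWrap_S36_G_NormSatMod

section MergeWrap_S36_G_SatC -- from S36/G/SatC.lean

set_option autoImplicit false
set_option linter.unusedSectionVars false
set_option linter.unusedVariables false
set_option linter.style.haveILetI false

/-!
# Cluster G (S36), seat SAT-INST, part (c): the parameter `v₂ = ϖ / u₂` is a function of `π₂`
(helper49; SAT-INST: helper21, route B of helper20)

`F = FBar (N₁ q)`, `α = heckeAlphaBar Qb N₁ q` (`π₁^*`), `W = wAt D hM` (`w_{q²}`, `D.Q = q²`),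
`u₁ = uF (N₁ q) q`, `u₂ = uF2 (N₁ q) q`.  For every constant `ϖ`:

* `satc_wAt_uF`   : `W u₁ = q¹² / u₂`;       `satc_wAt_uF2` : `W u₂ = q¹² / u₁`;
* `satcG2 N₁ q ϖ := (ϖ / q¹²) · U ∈ FBar N₁`  (`U = uF N₁ q`);
* `satc_hv₂`      : `W (α g₂) = ϖ / u₂`;      `satc_hv₂'`    : `W (ϖ / u₂) = α g₂`
  (the hypotheses `hv₂`, `hv₂'` of `horSat2_of_params`, `v₂ = ϖ / u₂`);
* `satc_alpha_v₁` : `u₁ / ϖ₁ = α (U / ϖ₁)`   (`v₁` is a function of `π₁`).
-/

noncomputable section

namespace Fermat.Agent.S36G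

open ModularCurve AlgebraicCurve Fermat.Agent.AtkinLehner Fermat.Agent.BadRed Fermat.Agent.F3G
  Fermat.Agent.F3

local notation "Qb" => AlgebraicClosure ℚ

/-! ### casts -/

theorem satc_castF_uF {M M' : ℕ} [NeZero M] [NeZero M'] (q : ℕ) [NeZero q] (h : M = M')
    (hq : q ∣ M) (hq' : q ∣ M') : castF h (uF M q hq) = uF M' q hq' := by
  apply Subtype.ext
  rw [coe_castF, coe_uF, coe_uF]

theorem satc_castF_uF2 {M M' : ℕ} [NeZero M] [NeZero M'] (q : ℕ) [NeZero q] (h : M = M')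
    (hq : q * q ∣ M) (hq' : q * q ∣ M') : castF h (uF2 M q hq) = uF2 M' q hq' := by
  apply Subtype.ext
  rw [coe_castF, coe_uF2, coe_uF2]

/-- `wAt D hM x = y` from `atkinLehner D (castF hM x) = castF hM y`. -/
theorem satc_wAt_eq_of (D : ALData) {M : ℕ} (hM : M = D.Q * D.R) {x y : FBar M}
    (h : atkinLehner D (castF hM x) = castF hM y) : wAt D hM x = y := by
  rw [wAt_apply, h, castF_castF]

variable (N₁ q : ℕ) [NeZero N₁] [NeZero q]

/-- `q * q ∣ N₁ * q` for `q ∣ N₁`. -/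
theorem satc_sq_dvd (hq : q ∣ N₁) : q * q ∣ N₁ * q := Nat.mul_dvd_mul hq dvd_rfl

/-- **`W u₁ = q¹² / u₂`** at the level `N₁ q`. -/
theorem satc_wAt_uF (hq : q ∣ N₁) (D : ALData) (hM : N₁ * q = D.Q * D.R) (hDQ : D.Q = q ^ 2) :
    wAt D hM (uF (N₁ * q) q (nsm_dvd N₁ q)) =
      algebraMap Qb (FBar (N₁ * q)) ((q : Qb) ^ 12) / uF2 (N₁ * q) q (satc_sq_dvd N₁ q hq) := by
  haveI : NeZero (D.Q * D.R) := ⟨by rw [← hM]; exact NeZero.ne _⟩
  have hQ : q * q = D.Q := by rw [hDQ, sq]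
  apply satc_wAt_eq_of
  rw [satc_castF_uF q hM (nsm_dvd N₁ q) (seedU_dvd (seedU_dvd_level D q hQ)),
    atkinLehner_uF_sq D q hQ, map_div₀, AlgEquiv.commutes,
    satc_castF_uF2 q hM (satc_sq_dvd N₁ q hq) (seedU_dvd_level D q hQ)]

/-- **`W u₂ = q¹² / u₁`** at the level `N₁ q`. -/
theorem satc_wAt_uF2 (hq : q ∣ N₁) (D : ALData) (hM : N₁ * q = D.Q * D.R) (hDQ : D.Q = q ^ 2) :
    wAt D hM (uF2 (N₁ * q) q (satc_sq_dvd N₁ q hq)) =
      algebraMap Qb (FBar (N₁ * q)) ((q : Qb) ^ 12) / uF (N₁ * q) q (nsm_dvd N₁ q) := by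
  haveI : NeZero (D.Q * D.R) := ⟨by rw [← hM]; exact NeZero.ne _⟩
  have hQ : q * q = D.Q := by rw [hDQ, sq]
  apply satc_wAt_eq_of
  rw [satc_castF_uF2 q hM (satc_sq_dvd N₁ q hq) (seedU_dvd_level D q hQ),
    atkinLehner_uF2 D q hQ, map_div₀, AlgEquiv.commutes,
    satc_castF_uF q hM (nsm_dvd N₁ q) (seedU_dvd (seedU_dvd_level D q hQ))]

/-- the function `g₂ = (ϖ / q¹²) · U` of level `N₁`. -/
def satcG2 (hq : q ∣ N₁) (ϖ : Qb) : FBar N₁ :=
  algebraMap Qb (FBar N₁) (ϖ / (q : Qb) ^ 12) * uF N₁ q hq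

theorem satc_alpha_G2 (hq : q ∣ N₁) (ϖ : Qb) :
    heckeAlphaBar Qb N₁ q (satcG2 N₁ q hq ϖ) =
      algebraMap Qb (FBar (N₁ * q)) (ϖ / (q : Qb) ^ 12) * uF (N₁ * q) q (nsm_dvd N₁ q) := by
  rw [satcG2, map_mul, AlgHom.commutes, nsm_alpha_uF]

/-- `q¹² ≠ 0`. -/
theorem satc_const_ne : ((q : Qb) ^ 12) ≠ 0 :=
  pow_ne_zero 12 (Nat.cast_ne_zero.mpr (NeZero.ne q))

/-- **`hv₂`: `W (α g₂) = ϖ / u₂`.** -/
theorem satc_hv₂ (hq : q ∣ N₁) (D : ALData) (hM : N₁ * q = D.Q * D.R) (hDQ : D.Q = q ^ 2)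
    (ϖ : Qb) :
    wAt D hM (heckeAlphaBar Qb N₁ q (satcG2 N₁ q hq ϖ)) =
      algebraMap Qb (FBar (N₁ * q)) ϖ / uF2 (N₁ * q) q (satc_sq_dvd N₁ q hq) := by
  have hc := satc_const_ne q
  have hcF : algebraMap Qb (FBar (N₁ * q)) ((q : Qb) ^ 12) ≠ 0 := (_root_.map_ne_zero _).mpr hc
  have h2 := uF2_ne_zero (N₁ * q) q (satc_sq_dvd N₁ q hq)
  rw [satc_alpha_G2, map_mul, AlgEquiv.commutes, satc_wAt_uF N₁ q hq D hM hDQ, map_div₀]
  field_simp

/-- **`hv₂'`: `W (ϖ / u₂) = α g₂`.** -/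
theorem satc_hv₂' (hq : q ∣ N₁) (D : ALData) (hM : N₁ * q = D.Q * D.R) (hDQ : D.Q = q ^ 2)
    (ϖ : Qb) :
    wAt D hM (algebraMap Qb (FBar (N₁ * q)) ϖ / uF2 (N₁ * q) q (satc_sq_dvd N₁ q hq)) =
      heckeAlphaBar Qb N₁ q (satcG2 N₁ q hq ϖ) := by
  rw [← satc_hv₂ N₁ q hq D hM hDQ ϖ, wAt_wAt]

/-- **`v₁ = u₁ / ϖ₁` is a function of `π₁`.** -/
theorem satc_alpha_v₁ (hq : q ∣ N₁) (ϖ₁ : Qb) :
    heckeAlphaBar Qb N₁ q (uF N₁ q hq / algebraMap Qb (FBar N₁) ϖ₁) =
      uF (N₁ * q) q (nsm_dvd N₁ q) / algebraMap Qb (FBar (N₁ * q)) ϖ₁ := by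
  rw [map_div₀, AlgHom.commutes, nsm_alpha_uF]

end Fermat.Agent.S36G
end
end MergeWrap_S36_G_SatC

section MergeWrap_S36_G_SatD -- from S36/G/SatD.lean

set_option autoImplicit false
set_option linter.unusedSectionVars false
set_option linter.unusedVariables false
set_option linter.style.haveILetI false

/-!
# Cluster G (S36), seat SAT-INST, part (d): the poles of the seed term are level sets of `v₁`
(helper49; SAT-INST: helper21, route B of helper20)

Seed v3: `y = ymodY u b m = b uᵐ / (uᵐ - b)²`, `b = ϖ₁ᵐ`, `v₁ = u / ϖ₁`.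

* `satd_hy` : (general field) a pole of `y` is a zero of `v₁ᵐ - 1`
  (the hypothesis `hy` of `horSat2_of_params`);
* `satd_horSat2` : **`HorSat2 N₁ q D hM N (ϖ₁ᵐ) m`** from the two parameters
  `H₁ : OLParam N V (u₁ / ϖ₁)`, `H₂ : OLParam N V (ϖ_A / u₂)` and `h12` alone
  (`hv₂`, `hv₂'` = `S36/G/SatC.lean`, `hy` = `satd_hy`, abstract = `horSat2_of_params`);
* `satd_normSat_nm2` : **`NormSat N n R (nm2 N₁ q D hM)`** from the same data
  (`nsm_normSat_nm2`).
-/

noncomputable section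

open AlgebraicCurve Fermat.Agent.RR Fermat.Agent.Deuring

namespace Fermat.Agent.S36G

open Fermat.Agent.BadRed Fermat.Agent.BadRedG Fermat.Agent.F3G Fermat.Agent.F3
  Fermat.Agent.AtkinLehner ModularCurve Fermat.Agent.S24Res

section Abs

variable {K F : Type*} [Field K] [Field F] [Algebra K F]

/-- **(d) `hy`**: a pole of the seed term `y = b uᵐ / (uᵐ - b)²`, `b = ϖᵐ`, is a zero of
`(u / ϖ)ᵐ - 1`. -/
theorem satd_hy (w : Place K F) {u : F} {ϖ : K} (hϖ : ϖ ≠ 0) {m : ℕ} (hm : m ≠ 0)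
    (hw : w.ord (ymodY u (ϖ ^ m) m) < 0) :
    0 < w.ord ((u / algebraMap K F ϖ) ^ m - 1) := by
  have hb : ϖ ^ m ≠ 0 := pow_ne_zero m hϖ
  have hbF : algebraMap K F (ϖ ^ m) ≠ 0 := (_root_.map_ne_zero _).mpr hb
  have hϖF : algebraMap K F ϖ ≠ 0 := (_root_.map_ne_zero _).mpr hϖ
  -- `u` is a unit at `w`
  have hu0 : w.ord u = 0 := by
    by_contra h
    have := nsm_ymodY_mem_of_ord_ne w hb hm h
    rw [mem_iff_ord_nonneg] at this
    omega
  have hu : u ≠ 0 := by
    rintro rfl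
    rw [ymodY, zero_pow hm, mul_zero, zero_div, Place.ord_zero] at hw
    exact lt_irrefl _ hw
  have hun : u ^ m ≠ 0 := pow_ne_zero m hu
  -- the denominator is nonzero
  have hd : u ^ m - algebraMap K F (ϖ ^ m) ≠ 0 := by
    intro h
    rw [ymodY, h, zero_pow two_ne_zero, div_zero, Place.ord_zero] at hw
    exact lt_irrefl _ hw
  have hd2 : (u ^ m - algebraMap K F (ϖ ^ m)) ^ 2 ≠ 0 := pow_ne_zero 2 hd
  have hy : w.ord (ymodY u (ϖ ^ m) m) = -(2 * w.ord (u ^ m - algebraMap K F (ϖ ^ m))) := by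
    rw [ymodY, div_eq_mul_inv, w.ord_mul (mul_ne_zero hbF hun) (inv_ne_zero hd2), w.ord_inv,
      w.ord_mul hbF hun, ord_algebraMap, nsm_ord_pow, nsm_ord_pow, hu0]
    push_cast
    ring
  have hpos : 0 < w.ord (u ^ m - algebraMap K F (ϖ ^ m)) := by
    rw [hy] at hw
    omega
  have e : (u / algebraMap K F ϖ) ^ m - 1 =
      (u ^ m - algebraMap K F (ϖ ^ m)) * (algebraMap K F (ϖ ^ m))⁻¹ := by
    rw [map_pow, div_pow]
    field_simp
  rw [e, w.ord_mul hd (inv_ne_zero hbF), w.ord_inv, ord_algebraMap]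
  omega

end Abs

section Mod

local notation "Qb" => AlgebraicClosure ℚ

variable (N₁ q : ℕ) [NeZero N₁] [NeZero q]

variable {k : Type*} [Field k] {Mid SS : Type} [Fintype Mid] {Fk : Vtx Mid SS → Type*}
  [∀ c, Field (Fk c)] [∀ c, Algebra k (Fk c)]

/-- **(SAT, `HorSat2`)**, modular form: from the two parameters `v₁ = u₁ / ϖ₁`, `v₂ = ϖ_A / u₂`
on the family `V` and the comparison `h12` of their unit loci. -/
theorem satd_horSat2 [Infinite k] (hq : q ∣ N₁) (D : ALData) (hM : N₁ * q = D.Q * D.R)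
    (hDQ : D.Q = q ^ 2)
    (N : GraphSetup Qb (FBar (N₁ * q)) k (Vtx Mid SS) Fk (Nod Mid SS))
    (V : Finset (Vtx Mid SS)) {ϖ₁ : Qb} (hϖ₁ : ϖ₁ ≠ 0) (ϖA : Qb) {m : ℕ} (hm : m ≠ 0)
    (H₁ : OLParam N V
      (uF (N₁ * q) q (nsm_dvd N₁ q) / algebraMap Qb (FBar (N₁ * q)) ϖ₁))
    (H₂ : OLParam N V
      (algebraMap Qb (FBar (N₁ * q)) ϖA / uF2 (N₁ * q) q (satc_sq_dvd N₁ q hq)))
    (h12 : ∀ c ∈ V, ∀ Q : Place k (Fk c),
      Q.ord ((N.S c).red
        (uF (N₁ * q) q (nsm_dvd N₁ q) / algebraMap Qb (FBar (N₁ * q)) ϖ₁)) = 0 →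
      Q.ord ((N.S c).red
        (algebraMap Qb (FBar (N₁ * q)) ϖA / uF2 (N₁ * q) q (satc_sq_dvd N₁ q hq))) = 0) :
    HorSat2 N₁ q D hM N (ϖ₁ ^ m) m :=
  horSat2_of_params N V H₁ H₂ h12 (heckeAlphaBar Qb N₁ q)
    (Fermat.Agent.EDescComm.isIntegral_bar (heckeAlphaBar Qb N₁ q)) (wAt D hM)
    (satcG2 N₁ q hq ϖA) (satc_hv₂ N₁ q hq D hM hDQ ϖA) (satc_hv₂' N₁ q hq D hM hDQ ϖA) m
    (ymodY (uF (N₁ * q) q (nsm_dvd N₁ q)) (ϖ₁ ^ m) m) (fun w hw => satd_hy w hϖ₁ hm hw)

/-- **(SAT, `π₂`)**: `NormSat N n R (nm2 N₁ q D hM)` from the two parameters and `h12`. -/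
theorem satd_normSat_nm2 [Infinite k] (hq : q ∣ N₁) (hqp : q.Prime) (D : ALData)
    (hM : N₁ * q = D.Q * D.R) (hDQ : D.Q = q ^ 2)
    (N : GraphSetup Qb (FBar (N₁ * q)) k (Vtx Mid SS) Fk (Nod Mid SS)) (n : ℕ)
    (R : Divisor Qb (FBar (N₁ * q)))
    (V : Finset (Vtx Mid SS)) {ϖ₁ : Qb} (hϖ₁ : ϖ₁ ≠ 0) (ϖA : Qb) {m : ℕ} (hm : m ≠ 0)
    (hR : ∀ w : Place Qb (FBar (N₁ * q)), R w ≠ 0 →
      w.ord (uF (N₁ * q) q (nsm_dvd N₁ q) +
        algebraMap Qb (FBar (N₁ * q)) (ϖ₁ ^ m) / uF (N₁ * q) q (nsm_dvd N₁ q) +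
        ymodY (uF (N₁ * q) q (nsm_dvd N₁ q)) (ϖ₁ ^ m) m) < 0)
    (hord : ∀ P : Place Qb (FBar (N₁ * q)),
      P.ord (uF (N₁ * q) q (nsm_dvd N₁ q) +
        algebraMap Qb (FBar (N₁ * q)) (ϖ₁ ^ m) / uF (N₁ * q) q (nsm_dvd N₁ q) +
        ymodY (uF (N₁ * q) q (nsm_dvd N₁ q)) (ϖ₁ ^ m) m) < 0 → N.IsOrd P)
    (H₁ : OLParam N V
      (uF (N₁ * q) q (nsm_dvd N₁ q) / algebraMap Qb (FBar (N₁ * q)) ϖ₁))
    (H₂ : OLParam N V
      (algebraMap Qb (FBar (N₁ * q)) ϖA / uF2 (N₁ * q) q (satc_sq_dvd N₁ q hq)))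
    (h12 : ∀ c ∈ V, ∀ Q : Place k (Fk c),
      Q.ord ((N.S c).red
        (uF (N₁ * q) q (nsm_dvd N₁ q) / algebraMap Qb (FBar (N₁ * q)) ϖ₁)) = 0 →
      Q.ord ((N.S c).red
        (algebraMap Qb (FBar (N₁ * q)) ϖA / uF2 (N₁ * q) q (satc_sq_dvd N₁ q hq))) = 0) :
    NormSat N n R (nm2 N₁ q D hM) :=
  nsm_normSat_nm2 N₁ q hq hqp D hM hDQ N n R (pow_ne_zero m hϖ₁) hm hR hord
    (satd_horSat2 N₁ q hq D hM hDQ N V hϖ₁ ϖA hm H₁ H₂ h12)

end Mod

end Fermat.Agent.S36G
end
end MergeWrap_S36_G_SatD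

section MergeWrap_S36_G_SatEnds -- from S36/G/SatEnds.lean

set_option autoImplicit false
set_option linter.unusedSectionVars false
set_option linter.unusedVariables false
set_option linter.style.haveILetI false

/-!
# Cluster G (S36), seat SAT-INST (b): the level parameters on `H_P` are units exactly off the ends
(helper83; for helper20's `OLParam` / `horSat2_of_params` and helper21's `SatModInst.lean`)

`N` a graph package over `Vtx Mid SS`, `HP P : HPCurve k (Fk (hor P)) q` the coordinates of the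
horizontal component `H_P`, `nlTgt N htgt P w` the branch of the node `(P, w)` on `H_P`.

## One curve
* `satEnds_ord_X2_eq_zero_iff` : `ord_Q X₂ = 0 ↔ ord_Q X₁ = 0`;
* `satEnds_not_isEnd_iff_X2`   : `¬ IsEnd Q ↔ ord_Q X₂ = 0`.

## The graph
* `satEnds_isEnd_nlTgt`  : the branch points of `H_P` are ends, from the signs (DIV1) of `X₁`, `X₂`
  at the branches (the hypotheses `hI`, `hZ`, `hm1` of `nl_dict`, `S36/G/EndsDict.lean`);
* `satEnds_isSmooth_of_not_isEnd` : a place of `H_P` which is not an end is a smooth point of the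
  special fibre;
* `satEnds_sm_X1`, `satEnds_sm_X2` : **the field `sm` of `OLParam N (mn1V₂ Mid SS) v`** for a
  parameter `v` with `ord_Q (red_P v) = n · ord_Q X₁` resp. `n · ord_Q X₂`, `n ≠ 0`;
* `satEnds_h12`, `satEnds_h21`     : **the hypothesis `h12` of `horSat2_of_params`**: where
  `red_P v₁` is a unit, `red_P v₂` is a unit (and conversely).

## The modular shape (`Fk = FkOf Fk0 FkM FkP`, SEED-UP in the form `EndsRed2`, `EndsRedA`)
* `satEnds_sm_of_endsRed2` : `sm` for `v₁ = u₁ / ϖ₁` (`red_P v₁ = c · X₁ ^ 12`);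
* `satEnds_sm_of_endsRedA` : `sm` for `v₂ = ϖ_A / u₂` (`red_P v₂ = c · X₂ ^ 12`);
* `satEnds_sm_of_endsRed1` : `sm` for `ϖ₁ / u₁` (`red_P = c / X₁ ^ 12`);
* `satEnds_h12_of_endsRed` : `h12` for `v₁`, `v₂`.
-/

noncomputable section

open IntermediateField AlgebraicCurve

namespace Fermat.Agent.S36G

open Fermat.Agent.RR Fermat.Agent.HP Fermat.Agent.Deuring
open Fermat.Agent.BadRed Fermat.Agent.BadRedG

/-! ### one curve -/

section One

variable {k E : Type*} [Field k] [Field E] [Algebra k E] {q : ℕ} [IsAlgClosed k]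
  (H : HPCurve k E q) (hq1 : ((q + 1 : ℕ) : k) ≠ 0)

include hq1 in
/-- `X₂` is a unit exactly where `X₁` is a unit (off the ends). -/
theorem satEnds_ord_X2_eq_zero_iff (Q : Place k E) : Q.ord H.X2 = 0 ↔ Q.ord H.X1 = 0 := by
  constructor
  · intro h
    by_contra hne
    have hend : H.IsEnd Q := hne
    rcases (H.isEnd_iff hq1 Q).mp hend with h1 | h1 | h1
    · have := (H.ord_X2_pos_iff hq1 Q).mpr h1
      omega
    · have := (H.ord_X2_neg_iff hq1 Q).mpr (Or.inl h1)
      omega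
    · have := (H.ord_X2_neg_iff hq1 Q).mpr (Or.inr h1)
      omega
  · intro h
    by_contra hne
    rcases lt_or_gt_of_ne hne with hneg | hpos
    · rcases (H.ord_X2_neg_iff hq1 Q).mp hneg with h1 | h1
      · have := (H.ord_X1_pos_iff hq1 Q).mpr h1
        omega
      · have := (H.ord_X1_neg_iff hq1 Q).mpr (Or.inr h1)
        omega
    · have h1 := (H.ord_X2_pos_iff hq1 Q).mp hpos
      have := (H.ord_X1_neg_iff hq1 Q).mpr (Or.inl h1)
      omega

omit [IsAlgClosed k] in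
/-- a place is not an end iff `X₁` is a unit there. -/
theorem satEnds_not_isEnd_iff (Q : Place k E) : ¬ H.IsEnd Q ↔ Q.ord H.X1 = 0 := by
  unfold HPCurve.IsEnd
  exact not_not

include hq1 in
/-- a place is not an end iff `X₂` is a unit there. -/
theorem satEnds_not_isEnd_iff_X2 (Q : Place k E) : ¬ H.IsEnd Q ↔ Q.ord H.X2 = 0 := by
  rw [satEnds_not_isEnd_iff, satEnds_ord_X2_eq_zero_iff H hq1]

end One

/-! ### the graph -/

section Graph

variable {K F k : Type*} [Field K] [Field F] [Algebra K F] [Field k] [IsAlgClosed k]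

variable {Mid SS : Type} [Fintype Mid] [Fintype SS] {Fk : Vtx Mid SS → Type*}
  [∀ c, Field (Fk c)] [∀ c, Algebra k (Fk c)]

variable (N : GraphSetup K F k (Vtx Mid SS) Fk (Nod Mid SS))
  (hsrc : ∀ i, N.src i = nodSrc i) (htgt : ∀ i, N.tgt i = nodTgt i)
  {q : ℕ} (hq1 : ((q + 1 : ℕ) : k) ≠ 0) (HP : ∀ P : SS, HPCurve k (Fk (Vtx.hor P)) q)

include hq1 in
/-- **the branch points of `H_P` are ends**, from the signs of `X₁`, `X₂` at the branches. -/
theorem satEnds_isEnd_nlTgt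
    (hI : ∀ P, 0 < (nlTgt N htgt P Vrt.oo).ord (HP P).X2)
    (hZ : ∀ P, 0 < (nlTgt N htgt P Vrt.zero).ord (HP P).X1)
    (hm1 : ∀ P m, (nlTgt N htgt P (Vrt.mid m)).ord (HP P).X1 < 0) (P : SS) (w : Vrt Mid) :
    (HP P).IsEnd (nlTgt N htgt P w) := by
  cases w with
  | oo =>
    rw [(HP P).isEnd_iff hq1]
    exact Or.inl (((HP P).ord_X2_pos_iff hq1 _).mp (hI P))
  | zero => exact ne_of_gt (hZ P)
  | mid m => exact ne_of_lt (hm1 P m)

include hsrc in
/-- **a place of `H_P` which is not an end is a smooth point of the special fibre.** -/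
theorem satEnds_isSmooth_of_not_isEnd
    (hends : ∀ P w, (HP P).IsEnd (nlTgt N htgt P w))
    (P : SS) (Q : Place k (Fk (Vtx.hor P))) (hQ : ¬ (HP P).IsEnd Q) :
    N.IsSmooth ⟨Vtx.hor P, Q⟩ := by
  refine ⟨fun i h => ?_, fun i h => ?_⟩
  · have h1 : Vtx.hor P = N.src i := congrArg Sigma.fst h
    rw [hsrc i] at h1
    unfold nodSrc at h1
    cases h1
  · obtain ⟨P', w⟩ := i
    have h1 : Vtx.hor P = N.tgt (P', w) := congrArg Sigma.fst h
    rw [htgt (P', w)] at h1
    unfold nodTgt at h1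
    have hP : P = P' := Vtx.hor.inj h1
    subst hP
    have h2 := eq_nlTgt_of_sigma N htgt P w Q h
    rw [h2] at hQ
    exact hQ (hends P w)

include hsrc in
/-- **the field `sm` of `OLParam`** for a parameter whose reduction on `H_P` has the divisor of a
power of `X₁`. -/
theorem satEnds_sm_X1 (hends : ∀ P w, (HP P).IsEnd (nlTgt N htgt P w)) {v : F} {n : ℤ}
    (hn : n ≠ 0)
    (hord : ∀ (P : SS) (Q : Place k (Fk (Vtx.hor P))),
      Q.ord ((N.S (Vtx.hor P)).red v) = n * Q.ord (HP P).X1) :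
    ∀ c ∈ mn1V₂ Mid SS, ∀ Q : Place k (Fk c), Q.ord ((N.S c).red v) = 0 →
      N.IsSmooth ⟨c, Q⟩ := by
  intro c hc Q hQ
  obtain ⟨P, rfl⟩ := mem_mn1V₂.mp hc
  refine satEnds_isSmooth_of_not_isEnd N hsrc htgt HP hends P Q fun hend => ?_
  rw [hord P Q] at hQ
  rcases mul_eq_zero.mp hQ with h | h
  · exact hn h
  · exact hend h

include hsrc hq1 in
/-- **the field `sm` of `OLParam`** for a parameter whose reduction on `H_P` has the divisor of a
power of `X₂`. -/
theorem satEnds_sm_X2 (hends : ∀ P w, (HP P).IsEnd (nlTgt N htgt P w)) {v : F} {n : ℤ}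
    (hn : n ≠ 0)
    (hord : ∀ (P : SS) (Q : Place k (Fk (Vtx.hor P))),
      Q.ord ((N.S (Vtx.hor P)).red v) = n * Q.ord (HP P).X2) :
    ∀ c ∈ mn1V₂ Mid SS, ∀ Q : Place k (Fk c), Q.ord ((N.S c).red v) = 0 →
      N.IsSmooth ⟨c, Q⟩ := by
  intro c hc Q hQ
  obtain ⟨P, rfl⟩ := mem_mn1V₂.mp hc
  refine satEnds_isSmooth_of_not_isEnd N hsrc htgt HP hends P Q fun hend => ?_
  rw [hord P Q] at hQ
  rcases mul_eq_zero.mp hQ with h | h
  · exact hn h
  · exact hend ((satEnds_ord_X2_eq_zero_iff (HP P) hq1 Q).mp h)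

include hq1 in
/-- **the hypothesis `h12` of `horSat2_of_params`**: where the reduction of `v₁` (a power of `X₁`)
is a unit, the reduction of `v₂` (a power of `X₂`) is a unit. -/
theorem satEnds_h12 {v₁ v₂ : F} {n₁ n₂ : ℤ} (hn₁ : n₁ ≠ 0)
    (hord₁ : ∀ (P : SS) (Q : Place k (Fk (Vtx.hor P))),
      Q.ord ((N.S (Vtx.hor P)).red v₁) = n₁ * Q.ord (HP P).X1)
    (hord₂ : ∀ (P : SS) (Q : Place k (Fk (Vtx.hor P))),
      Q.ord ((N.S (Vtx.hor P)).red v₂) = n₂ * Q.ord (HP P).X2) :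
    ∀ c ∈ mn1V₂ Mid SS, ∀ Q : Place k (Fk c), Q.ord ((N.S c).red v₁) = 0 →
      Q.ord ((N.S c).red v₂) = 0 := by
  intro c hc Q hQ
  obtain ⟨P, rfl⟩ := mem_mn1V₂.mp hc
  rw [hord₁ P Q] at hQ
  rw [hord₂ P Q]
  rcases mul_eq_zero.mp hQ with h | h
  · exact absurd h hn₁
  · rw [(satEnds_ord_X2_eq_zero_iff (HP P) hq1 Q).mpr h, mul_zero]

include hq1 in
/-- the converse of `satEnds_h12`. -/
theorem satEnds_h21 {v₁ v₂ : F} {n₁ n₂ : ℤ} (hn₂ : n₂ ≠ 0)
    (hord₁ : ∀ (P : SS) (Q : Place k (Fk (Vtx.hor P))),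
      Q.ord ((N.S (Vtx.hor P)).red v₁) = n₁ * Q.ord (HP P).X1)
    (hord₂ : ∀ (P : SS) (Q : Place k (Fk (Vtx.hor P))),
      Q.ord ((N.S (Vtx.hor P)).red v₂) = n₂ * Q.ord (HP P).X2) :
    ∀ c ∈ mn1V₂ Mid SS, ∀ Q : Place k (Fk c), Q.ord ((N.S c).red v₂) = 0 →
      Q.ord ((N.S c).red v₁) = 0 := by
  intro c hc Q hQ
  obtain ⟨P, rfl⟩ := mem_mn1V₂.mp hc
  rw [hord₂ P Q] at hQ
  rw [hord₁ P Q]
  rcases mul_eq_zero.mp hQ with h | h
  · exact absurd h hn₂
  · rw [(satEnds_ord_X2_eq_zero_iff (HP P) hq1 Q).mp h, mul_zero]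

end Graph

/-! ### the modular shape -/

section Mod

variable {K F k : Type} [Field K] [Field F] [Algebra K F] [Field k] [IsAlgClosed k]
  {Mid SS : Type} [Fintype Mid] [Fintype SS]
  {Fk0 : Type} [Field Fk0] [Algebra k Fk0]
  {FkM : Mid → Type} [∀ m, Field (FkM m)] [∀ m, Algebra k (FkM m)]
  {FkP : SS → Type} [∀ P, Field (FkP P)] [∀ P, Algebra k (FkP P)]
  (N : GraphSetup K F k (Vtx Mid SS) (FkOf Fk0 FkM FkP) (Nod Mid SS))
  (hsrc : ∀ i, N.src i = nodSrc i) (htgt : ∀ i, N.tgt i = nodTgt i)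
  {q : ℕ} (hq1 : ((q + 1 : ℕ) : k) ≠ 0)
  (HP : ∀ P : SS, HPCurve k (FkOf Fk0 FkM FkP (Vtx.hor P)) q)

include hsrc in
/-- **`sm` for `v₁ = u₁ / ϖ₁`** (`red_P v₁ = c · X₁ ^ 12`). -/
theorem satEnds_sm_of_endsRed2 (hends : ∀ P w, (HP P).IsEnd (nlTgt N htgt P w)) {v : F}
    (hv : EndsRed2 N.S HP v) :
    ∀ c ∈ mn1V₂ Mid SS, ∀ Q : Place k (FkOf Fk0 FkM FkP c), Q.ord ((N.S c).red v) = 0 →
      N.IsSmooth ⟨c, Q⟩ :=
  satEnds_sm_X1 N hsrc htgt HP hends (n := 12) (by norm_num) fun P Q => hv.ord P Q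

include hsrc in
/-- **`sm` for `ϖ₁ / u₁`** (`red_P = c / X₁ ^ 12`). -/
theorem satEnds_sm_of_endsRed1 (hends : ∀ P w, (HP P).IsEnd (nlTgt N htgt P w)) {v : F}
    (hv : EndsRed1 N.S HP v) :
    ∀ c ∈ mn1V₂ Mid SS, ∀ Q : Place k (FkOf Fk0 FkM FkP c), Q.ord ((N.S c).red v) = 0 →
      N.IsSmooth ⟨c, Q⟩ :=
  satEnds_sm_X1 N hsrc htgt HP hends (n := -12) (by norm_num) fun P Q => by
    rw [hv.ord P Q]
    ring

include hsrc hq1 in
/-- **`sm` for `v₂ = ϖ_A / u₂`** (`red_P v₂ = c · X₂ ^ 12`). -/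
theorem satEnds_sm_of_endsRedA (hends : ∀ P w, (HP P).IsEnd (nlTgt N htgt P w)) {v : F}
    (hv : EndsRedA N.S HP v) :
    ∀ c ∈ mn1V₂ Mid SS, ∀ Q : Place k (FkOf Fk0 FkM FkP c), Q.ord ((N.S c).red v) = 0 →
      N.IsSmooth ⟨c, Q⟩ :=
  satEnds_sm_X2 N hsrc htgt hq1 HP hends (n := 12) (by norm_num) fun P Q => hv.ord P Q

include hq1 in
/-- **`h12` for `v₁ = u₁ / ϖ₁`, `v₂ = ϖ_A / u₂`.** -/
theorem satEnds_h12_of_endsRed {v₁ v₂ : F} (hv₁ : EndsRed2 N.S HP v₁)
    (hv₂ : EndsRedA N.S HP v₂) :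
    ∀ c ∈ mn1V₂ Mid SS, ∀ Q : Place k (FkOf Fk0 FkM FkP c), Q.ord ((N.S c).red v₁) = 0 →
      Q.ord ((N.S c).red v₂) = 0 :=
  satEnds_h12 N hq1 HP (n₁ := 12) (n₂ := 12) (by norm_num) (fun P Q => hv₁.ord P Q)
    fun P Q => hv₂.ord P Q

include hq1 in
/-- `h21` for `v₁ = u₁ / ϖ₁`, `v₂ = ϖ_A / u₂`. -/
theorem satEnds_h21_of_endsRed {v₁ v₂ : F} (hv₁ : EndsRed2 N.S HP v₁)
    (hv₂ : EndsRedA N.S HP v₂) :
    ∀ c ∈ mn1V₂ Mid SS, ∀ Q : Place k (FkOf Fk0 FkM FkP c), Q.ord ((N.S c).red v₂) = 0 →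
      Q.ord ((N.S c).red v₁) = 0 :=
  satEnds_h21 N hq1 HP (n₁ := 12) (n₂ := 12) (by norm_num) (fun P Q => hv₁.ord P Q)
    fun P Q => hv₂.ord P Q

end Mod

end Fermat.Agent.S36G
end
end MergeWrap_S36_G_SatEnds

section MergeWrap_S36_G_SatModInst -- from S36/G/SatModInst.lean

set_option autoImplicit false
set_option linter.unusedSectionVars false
set_option linter.unusedVariables false
set_option linter.style.haveILetI false

/-!
# Cluster G (S36), seat SAT-INST: the horizontal saturation `HorSat2` of the modular graph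
(helper21; abstract theorem `horSat2_of_params`: helper20; (b) `SatEnds.lean`: helper83;
(c), (d) and the glue `SatC.lean`, `SatD.lean`: helper49)

Wiring of helper20's `horSat2_of_params` (`S36/G/SatMod.lean`) to helper49's `HorSat2`
(`S36/G/NormSatMod.lean`), seed v3: `y = b u₁ ^ m / (u₁ ^ m - b) ^ 2`, `b = ϖ₁ ^ m`.

## (a) the parameters
* `satInst_adjoin_const_div`, `satInst_finrank_const_div` : `K(c / y) = K(y)` for `c ≠ 0`;
* `olParam_of_mnData_left`  : `MNData N.S V₁ V₂ u ϖ` `⟹` `OLParam N V₁ u`           (+ `sm`);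
* `olParam_of_mnData_right` : `MNData N.S V₁ V₂ u ϖ` `⟹` `OLParam N V₂ (ϖ / u)`     (+ `sm`);
* `ModEndsInput.VA₂_eq_V2₁`, `ModEndsInput.V2₁_eq_mn1V₂`, `ModEndsInput.VA₂_eq_mn1V₂` : the
  families of horizontal components agree;
* `ModEndsInput.olParam₁`   : `OLParam N E.V2₁ E.u2`            (node family (2), `u2 = u₁ / ϖ₁`);
* `ModEndsInput.olParam₂`   : `OLParam N E.V2₁ (E.ϖA / E.uA)`   (node family (A), `uA = u₂`).

## the assembly
* `satInst_horSat2_of_mnData` : **`HorSat2 N₁ q D hM N (ϖ₁ ^ m) m`** from the two multi-node data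
  (families (2) and (A)) and the three statements `sm₁`, `sm₂`, `h12` on the horizontal
  components;
* `satInst_horSat2_of_endsRed` : **the modular form**: `sm₁`, `sm₂`, `h12` are discharged by
  helper83's `SatEnds.lean` from the SEED-UP shapes `EndsRed2 (u₁ / ϖ₁)`, `EndsRedA (ϖA / u₂)`
  and `hends` (the branch points of the `H_P` are ends);
* `satInst_horSat2_of_modEnds` : the same for `E : ModEndsInput` with `N.S = E.S`,
  `E.u2 = u₁ / ϖ₁`, `E.uA = u₂`;
* `satInst_normSat_nm2_of_endsRed`, `satInst_normSat_nm2_of_modEnds` : **(SAT, `π₂`)**,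
  `NormSat N n R (nm2 N₁ q D hM)`, from the same inputs.
-/

noncomputable section

open AlgebraicCurve IntermediateField Fermat.Agent.RR Fermat.Agent.Deuring

namespace Fermat.Agent.S36G

/- build time (helper70's recipe): the instance terms are unchanged, only the search order -/
attribute [local instance 10000] SubalgebraClass.toAlgebra HahnSeries.powerSeriesAlgebra

open Fermat.Agent.BadRed Fermat.Agent.BadRedG Fermat.Agent.F3G Fermat.Agent.F3
  Fermat.Agent.AtkinLehner ModularCurve Fermat.Agent.S24Res Fermat.Agent.HP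

/-! ### (a) parameters from multi-node data -/

section Abs

variable {K F k : Type*} [Field K] [Field F] [Algebra K F] [Field k]
  {κ : Type*} {Fk : κ → Type*} [∀ c, Field (Fk c)] [∀ c, Algebra k (Fk c)] {ι : Type*}

/-- `K(c / y) = K(y)` for a constant `c ≠ 0`. -/
theorem satInst_adjoin_const_div {c : K} (hc : c ≠ 0) (y : F) :
    K⟮algebraMap K F c / y⟯ = K⟮y⟯ := by
  have hcF : algebraMap K F c ≠ 0 := (_root_.map_ne_zero _).mpr hc
  apply le_antisymm
  · rw [IntermediateField.adjoin_simple_le_iff]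
    exact div_mem (IntermediateField.algebraMap_mem _ c)
      (IntermediateField.mem_adjoin_simple_self K y)
  · rw [IntermediateField.adjoin_simple_le_iff]
    rcases eq_or_ne y 0 with rfl | hy
    · exact zero_mem _
    have h2 : algebraMap K F c / (algebraMap K F c / y) ∈ K⟮algebraMap K F c / y⟯ :=
      div_mem (IntermediateField.algebraMap_mem _ c)
        (IntermediateField.mem_adjoin_simple_self K _)
    have e : algebraMap K F c / (algebraMap K F c / y) = y := by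
      field_simp
    rwa [e] at h2

/-- `[F : K(c / y)] = [F : K(y)]`. -/
theorem satInst_finrank_const_div {c : K} (hc : c ≠ 0) (y : F) :
    Module.finrank K⟮algebraMap K F c / y⟯ F = Module.finrank K⟮y⟯ F := by
  rw [satInst_adjoin_const_div hc y]

/-- the parameter `u` of a multi-node datum is a parameter on `V₁`. -/
theorem olParam_of_mnData_left (N : GraphSetup K F k κ Fk ι) {V₁ V₂ : Finset κ} {u : F} {ϖ : K}
    (D : MNData N.S V₁ V₂ u ϖ)
    (sm : ∀ c ∈ V₁, ∀ Q : Place k (Fk c), Q.ord ((N.S c).red u) = 0 → N.IsSmooth ⟨c, Q⟩) :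
    OLParam N V₁ u where
  ne := D.ne₁
  mem := D.u_mem
  tr := D.u_tr
  deg := D.deg₁
  sm := sm

/-- the parameter `ϖ / u` of a multi-node datum is a parameter on `V₂`. -/
theorem olParam_of_mnData_right (N : GraphSetup K F k κ Fk ι) {V₁ V₂ : Finset κ} {u : F} {ϖ : K}
    (D : MNData N.S V₁ V₂ u ϖ)
    (sm : ∀ c ∈ V₂, ∀ Q : Place k (Fk c), Q.ord ((N.S c).red (algebraMap K F ϖ / u)) = 0 →
      N.IsSmooth ⟨c, Q⟩) :
    OLParam N V₂ (algebraMap K F ϖ / u) where
  ne := D.ne₂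
  mem := D.u'_mem
  tr := D.u'_tr
  deg := by
    rw [satInst_finrank_const_div D.ϖ_ne]
    exact D.deg₂
  sm := sm

end Abs

/-! ### the families of the three node theorems -/

section Ends

variable {K F k : Type} [Field K] [Field F] [Algebra K F] [Field k]
  {Mid SS : Type} [Fintype Mid] [Fintype SS]
  {Fk0 : Type} [Field Fk0] [Algebra k Fk0]
  {FkM : Mid → Type} [∀ m, Field (FkM m)] [∀ m, Algebra k (FkM m)]
  {FkP : SS → Type} [∀ P, Field (FkP P)] [∀ P, Algebra k (FkP P)]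

namespace ModEndsInput

variable (E : ModEndsInput K F k Mid SS Fk0 FkM FkP)

/-- the families of horizontal components of the node theorems (A) and (2) agree. -/
theorem VA₂_eq_V2₁ : E.VA₂ = E.V2₁ := by
  ext c
  rw [E.mem_VA₂, E.mem_V2₁]

/-- the families of horizontal components of the node theorems (1) and (2) agree. -/
theorem V1₂_eq_V2₁ : E.V1₂ = E.V2₁ := by
  ext c
  rw [E.mem_V1₂, E.mem_V2₁]

/-- the family of horizontal components of `E` is `mn1V₂`. -/
theorem V2₁_eq_mn1V₂ : E.V2₁ = mn1V₂ Mid SS := by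
  ext c
  rw [E.mem_V2₁, mem_mn1V₂]

/-- the family of horizontal components of `E` is `mn1V₂`. -/
theorem VA₂_eq_mn1V₂ : E.VA₂ = mn1V₂ Mid SS := by
  ext c
  rw [E.mem_VA₂, mem_mn1V₂]

/-- `u2 = u₁ / ϖ₁` is a parameter on the horizontal components. -/
theorem olParam₁ (N : GraphSetup K F k (Vtx Mid SS) (FkOf Fk0 FkM FkP) (Nod Mid SS))
    (hS : N.S = E.S)
    (sm : ∀ (P : SS) (Q : Place k (FkOf Fk0 FkM FkP (Vtx.hor P))),
      Q.ord ((N.S (Vtx.hor P)).red E.u2) = 0 → N.IsSmooth ⟨Vtx.hor P, Q⟩) :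
    OLParam N E.V2₁ E.u2 := by
  have D2 := E.D2
  rw [← hS] at D2
  refine olParam_of_mnData_left N D2 ?_
  intro c hc Q hQ
  obtain ⟨P, rfl⟩ := (E.mem_V2₁ c).mp hc
  exact sm P Q hQ

/-- `ϖA / uA = ϖA / u₂` is a parameter on the horizontal components. -/
theorem olParam₂ (N : GraphSetup K F k (Vtx Mid SS) (FkOf Fk0 FkM FkP) (Nod Mid SS))
    (hS : N.S = E.S)
    (sm : ∀ (P : SS) (Q : Place k (FkOf Fk0 FkM FkP (Vtx.hor P))),
      Q.ord ((N.S (Vtx.hor P)).red (algebraMap K F E.ϖA / E.uA)) = 0 →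
        N.IsSmooth ⟨Vtx.hor P, Q⟩) :
    OLParam N E.V2₁ (algebraMap K F E.ϖA / E.uA) := by
  have DA := E.DA
  rw [← hS, E.VA₂_eq_V2₁] at DA
  refine olParam_of_mnData_right N DA ?_
  intro c hc Q hQ
  obtain ⟨P, rfl⟩ := (E.mem_V2₁ c).mp hc
  exact sm P Q hQ

end ModEndsInput

end Ends

/-! ### the assembly -/

section Mod

local notation "Qb" => AlgebraicClosure ℚ

variable (N₁ q : ℕ) [NeZero N₁] [NeZero q]

variable {k : Type*} [Field k] {Mid SS : Type} [Fintype Mid] {Fk : Vtx Mid SS → Type*}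
  [∀ c, Field (Fk c)] [∀ c, Algebra k (Fk c)]

/-- **(SAT, `HorSat2`)** from the multi-node data of the families (2) (`u₁ / ϖ₁`, `V₁ = {H_P}`)
and (A) (`u₂`, `V₂ = {H_P}`) and the statements on the horizontal components: the units of the
reductions of `u₁ / ϖ₁` and of `ϖA / u₂` are smooth points (`sm₁`, `sm₂`) and the units of
`red (u₁ / ϖ₁)` are units of `red (ϖA / u₂)` (`h12`). -/
theorem satInst_horSat2_of_mnData [Infinite k] (hq : q ∣ N₁) (D : ALData)
    (hM : N₁ * q = D.Q * D.R) (hDQ : D.Q = q ^ 2)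
    (N : GraphSetup Qb (FBar (N₁ * q)) k (Vtx Mid SS) Fk (Nod Mid SS))
    {V V₀ Voo : Finset (Vtx Mid SS)} {ϖ₁ ϖ₂ ϖA : Qb} (hϖ₁ : ϖ₁ ≠ 0) {m : ℕ} (hm : m ≠ 0)
    (D2 : MNData N.S V V₀
      (uF (N₁ * q) q (nsm_dvd N₁ q) / algebraMap Qb (FBar (N₁ * q)) ϖ₁) ϖ₂)
    (DA : MNData N.S Voo V (uF2 (N₁ * q) q (satc_sq_dvd N₁ q hq)) ϖA)
    (sm₁ : ∀ c ∈ V, ∀ Q : Place k (Fk c),
      Q.ord ((N.S c).red
        (uF (N₁ * q) q (nsm_dvd N₁ q) / algebraMap Qb (FBar (N₁ * q)) ϖ₁)) = 0 →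
      N.IsSmooth ⟨c, Q⟩)
    (sm₂ : ∀ c ∈ V, ∀ Q : Place k (Fk c),
      Q.ord ((N.S c).red
        (algebraMap Qb (FBar (N₁ * q)) ϖA / uF2 (N₁ * q) q (satc_sq_dvd N₁ q hq))) = 0 →
      N.IsSmooth ⟨c, Q⟩)
    (h12 : ∀ c ∈ V, ∀ Q : Place k (Fk c),
      Q.ord ((N.S c).red
        (uF (N₁ * q) q (nsm_dvd N₁ q) / algebraMap Qb (FBar (N₁ * q)) ϖ₁)) = 0 →
      Q.ord ((N.S c).red
        (algebraMap Qb (FBar (N₁ * q)) ϖA / uF2 (N₁ * q) q (satc_sq_dvd N₁ q hq))) = 0) :
    HorSat2 N₁ q D hM N (ϖ₁ ^ m) m :=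
  satd_horSat2 N₁ q hq D hM hDQ N V hϖ₁ ϖA hm (olParam_of_mnData_left N D2 sm₁)
    (olParam_of_mnData_right N DA sm₂) h12

end Mod

/-! ### the modular form -/

section ModEnds

local notation "Qb" => AlgebraicClosure ℚ

variable (N₁ q : ℕ) [NeZero N₁] [NeZero q]

variable {k : Type} [Field k] [IsAlgClosed k] {Mid SS : Type} [Fintype Mid] [Fintype SS]
  {Fk0 : Type} [Field Fk0] [Algebra k Fk0]
  {FkM : Mid → Type} [∀ m, Field (FkM m)] [∀ m, Algebra k (FkM m)]
  {FkP : SS → Type} [∀ P, Field (FkP P)] [∀ P, Algebra k (FkP P)]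

/-- **(SAT, `HorSat2`), modular form**: from the multi-node data of the families (2) and (A), the
SEED-UP shapes `red_P (u₁ / ϖ₁) = c X₁ ^ 12`, `red_P (ϖA / u₂) = c' X₂ ^ 12` and `hends` (the
branch points of the horizontal components are ends). -/
theorem satInst_horSat2_of_endsRed (hq : q ∣ N₁) (D : ALData) (hM : N₁ * q = D.Q * D.R)
    (hDQ : D.Q = q ^ 2)
    (N : GraphSetup Qb (FBar (N₁ * q)) k (Vtx Mid SS) (FkOf Fk0 FkM FkP) (Nod Mid SS))
    (hsrc : ∀ i, N.src i = nodSrc i) (htgt : ∀ i, N.tgt i = nodTgt i)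
    (hq1 : ((q + 1 : ℕ) : k) ≠ 0)
    (HP : ∀ P : SS, HPCurve k (FkOf Fk0 FkM FkP (Vtx.hor P)) q)
    (hends : ∀ P w, (HP P).IsEnd (nlTgt N htgt P w))
    {V₀ Voo : Finset (Vtx Mid SS)} {ϖ₁ ϖ₂ ϖA : Qb} (hϖ₁ : ϖ₁ ≠ 0) {m : ℕ} (hm : m ≠ 0)
    (D2 : MNData N.S (mn1V₂ Mid SS) V₀
      (uF (N₁ * q) q (nsm_dvd N₁ q) / algebraMap Qb (FBar (N₁ * q)) ϖ₁) ϖ₂)
    (DA : MNData N.S Voo (mn1V₂ Mid SS) (uF2 (N₁ * q) q (satc_sq_dvd N₁ q hq)) ϖA)
    (hv₁ : EndsRed2 N.S HP
      (uF (N₁ * q) q (nsm_dvd N₁ q) / algebraMap Qb (FBar (N₁ * q)) ϖ₁))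
    (hv₂ : EndsRedA N.S HP
      (algebraMap Qb (FBar (N₁ * q)) ϖA / uF2 (N₁ * q) q (satc_sq_dvd N₁ q hq))) :
    HorSat2 N₁ q D hM N (ϖ₁ ^ m) m :=
  satInst_horSat2_of_mnData N₁ q hq D hM hDQ N hϖ₁ hm D2 DA
    (satEnds_sm_of_endsRed2 N hsrc htgt HP hends hv₁)
    (satEnds_sm_of_endsRedA N hsrc htgt hq1 HP hends hv₂)
    (satEnds_h12_of_endsRed N hq1 HP hv₁ hv₂)

/-- **(SAT, `HorSat2`), modular form, for the input `E` of the three node theorems**:
`N.S = E.S`, `E.u2 = u₁ / ϖ₁`, `E.uA = u₂`. -/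
theorem satInst_horSat2_of_modEnds (hq : q ∣ N₁) (D : ALData) (hM : N₁ * q = D.Q * D.R)
    (hDQ : D.Q = q ^ 2)
    (E : ModEndsInput Qb (FBar (N₁ * q)) k Mid SS Fk0 FkM FkP)
    (N : GraphSetup Qb (FBar (N₁ * q)) k (Vtx Mid SS) (FkOf Fk0 FkM FkP) (Nod Mid SS))
    (hS : N.S = E.S)
    (hsrc : ∀ i, N.src i = nodSrc i) (htgt : ∀ i, N.tgt i = nodTgt i)
    (hq1 : ((q + 1 : ℕ) : k) ≠ 0)
    (HP : ∀ P : SS, HPCurve k (FkOf Fk0 FkM FkP (Vtx.hor P)) q)
    (hends : ∀ P w, (HP P).IsEnd (nlTgt N htgt P w))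
    {ϖ₁ : Qb} (hϖ₁ : ϖ₁ ≠ 0) {m : ℕ} (hm : m ≠ 0)
    (hu2 : E.u2 = uF (N₁ * q) q (nsm_dvd N₁ q) / algebraMap Qb (FBar (N₁ * q)) ϖ₁)
    (huA : E.uA = uF2 (N₁ * q) q (satc_sq_dvd N₁ q hq))
    (hv₁ : EndsRed2 E.S HP E.u2)
    (hv₂ : EndsRedA E.S HP (algebraMap Qb (FBar (N₁ * q)) E.ϖA / E.uA)) :
    HorSat2 N₁ q D hM N (ϖ₁ ^ m) m := by
  have D2 := E.D2
  have DA := E.DA
  rw [E.V2₁_eq_mn1V₂, hu2, ← hS] at D2
  rw [E.VA₂_eq_mn1V₂, huA, ← hS] at DA
  rw [hu2, ← hS] at hv₁
  rw [huA, ← hS] at hv₂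
  exact satInst_horSat2_of_endsRed N₁ q hq D hM hDQ N hsrc htgt hq1 HP hends hϖ₁ hm D2 DA
    hv₁ hv₂

/-- **(SAT, `π₂`), modular form**: `NormSat N n R (nm2 N₁ q D hM)` for every `R` supported on the
poles of the seed function `x = u₁ + b / u₁ + y`, `b = ϖ₁ ^ m`, as soon as the poles of `x` are
ordinary. -/
theorem satInst_normSat_nm2_of_endsRed (hq : q ∣ N₁) (hqp : q.Prime) (D : ALData)
    (hM : N₁ * q = D.Q * D.R) (hDQ : D.Q = q ^ 2)
    (N : GraphSetup Qb (FBar (N₁ * q)) k (Vtx Mid SS) (FkOf Fk0 FkM FkP) (Nod Mid SS))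
    (hsrc : ∀ i, N.src i = nodSrc i) (htgt : ∀ i, N.tgt i = nodTgt i)
    (hq1 : ((q + 1 : ℕ) : k) ≠ 0)
    (HP : ∀ P : SS, HPCurve k (FkOf Fk0 FkM FkP (Vtx.hor P)) q)
    (hends : ∀ P w, (HP P).IsEnd (nlTgt N htgt P w))
    (n : ℕ) (R : Divisor Qb (FBar (N₁ * q)))
    {V₀ Voo : Finset (Vtx Mid SS)} {ϖ₁ ϖ₂ ϖA : Qb} (hϖ₁ : ϖ₁ ≠ 0) {m : ℕ} (hm : m ≠ 0)
    (hR : ∀ w : Place Qb (FBar (N₁ * q)), R w ≠ 0 →
      w.ord (uF (N₁ * q) q (nsm_dvd N₁ q) +
        algebraMap Qb (FBar (N₁ * q)) (ϖ₁ ^ m) / uF (N₁ * q) q (nsm_dvd N₁ q) +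
        ymodY (uF (N₁ * q) q (nsm_dvd N₁ q)) (ϖ₁ ^ m) m) < 0)
    (hord : ∀ P : Place Qb (FBar (N₁ * q)),
      P.ord (uF (N₁ * q) q (nsm_dvd N₁ q) +
        algebraMap Qb (FBar (N₁ * q)) (ϖ₁ ^ m) / uF (N₁ * q) q (nsm_dvd N₁ q) +
        ymodY (uF (N₁ * q) q (nsm_dvd N₁ q)) (ϖ₁ ^ m) m) < 0 → N.IsOrd P)
    (D2 : MNData N.S (mn1V₂ Mid SS) V₀
      (uF (N₁ * q) q (nsm_dvd N₁ q) / algebraMap Qb (FBar (N₁ * q)) ϖ₁) ϖ₂)
    (DA : MNData N.S Voo (mn1V₂ Mid SS) (uF2 (N₁ * q) q (satc_sq_dvd N₁ q hq)) ϖA)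
    (hv₁ : EndsRed2 N.S HP
      (uF (N₁ * q) q (nsm_dvd N₁ q) / algebraMap Qb (FBar (N₁ * q)) ϖ₁))
    (hv₂ : EndsRedA N.S HP
      (algebraMap Qb (FBar (N₁ * q)) ϖA / uF2 (N₁ * q) q (satc_sq_dvd N₁ q hq))) :
    NormSat N n R (nm2 N₁ q D hM) :=
  nsm_normSat_nm2 N₁ q hq hqp D hM hDQ N n R (pow_ne_zero m hϖ₁) hm hR hord
    (satInst_horSat2_of_endsRed N₁ q hq D hM hDQ N hsrc htgt hq1 HP hends hϖ₁ hm D2 DA hv₁ hv₂)

/-- **(SAT, `π₂`), modular form, for the input `E` of the three node theorems.** -/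
theorem satInst_normSat_nm2_of_modEnds (hq : q ∣ N₁) (hqp : q.Prime) (D : ALData)
    (hM : N₁ * q = D.Q * D.R) (hDQ : D.Q = q ^ 2)
    (E : ModEndsInput Qb (FBar (N₁ * q)) k Mid SS Fk0 FkM FkP)
    (N : GraphSetup Qb (FBar (N₁ * q)) k (Vtx Mid SS) (FkOf Fk0 FkM FkP) (Nod Mid SS))
    (hS : N.S = E.S)
    (hsrc : ∀ i, N.src i = nodSrc i) (htgt : ∀ i, N.tgt i = nodTgt i)
    (hq1 : ((q + 1 : ℕ) : k) ≠ 0)
    (HP : ∀ P : SS, HPCurve k (FkOf Fk0 FkM FkP (Vtx.hor P)) q)
    (hends : ∀ P w, (HP P).IsEnd (nlTgt N htgt P w))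
    (n : ℕ) (R : Divisor Qb (FBar (N₁ * q)))
    {ϖ₁ : Qb} (hϖ₁ : ϖ₁ ≠ 0) {m : ℕ} (hm : m ≠ 0)
    (hR : ∀ w : Place Qb (FBar (N₁ * q)), R w ≠ 0 →
      w.ord (uF (N₁ * q) q (nsm_dvd N₁ q) +
        algebraMap Qb (FBar (N₁ * q)) (ϖ₁ ^ m) / uF (N₁ * q) q (nsm_dvd N₁ q) +
        ymodY (uF (N₁ * q) q (nsm_dvd N₁ q)) (ϖ₁ ^ m) m) < 0)
    (hord : ∀ P : Place Qb (FBar (N₁ * q)),
      P.ord (uF (N₁ * q) q (nsm_dvd N₁ q) +
        algebraMap Qb (FBar (N₁ * q)) (ϖ₁ ^ m) / uF (N₁ * q) q (nsm_dvd N₁ q) +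
        ymodY (uF (N₁ * q) q (nsm_dvd N₁ q)) (ϖ₁ ^ m) m) < 0 → N.IsOrd P)
    (hu2 : E.u2 = uF (N₁ * q) q (nsm_dvd N₁ q) / algebraMap Qb (FBar (N₁ * q)) ϖ₁)
    (huA : E.uA = uF2 (N₁ * q) q (satc_sq_dvd N₁ q hq))
    (hv₁ : EndsRed2 E.S HP E.u2)
    (hv₂ : EndsRedA E.S HP (algebraMap Qb (FBar (N₁ * q)) E.ϖA / E.uA)) :
    NormSat N n R (nm2 N₁ q D hM) :=
  nsm_normSat_nm2 N₁ q hq hqp D hM hDQ N n R (pow_ne_zero m hϖ₁) hm hR hord
    (satInst_horSat2_of_modEnds N₁ q hq D hM hDQ E N hS hsrc htgt hq1 HP hends hϖ₁ hm hu2 huA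
      hv₁ hv₂)

end ModEnds

end Fermat.Agent.S36G
end
end MergeWrap_S36_G_SatModInst

section MergeWrap_S36_G_SatSeed -- from S36/G/SatSeed.lean

set_option autoImplicit false
set_option linter.unusedSectionVars false
set_option linter.unusedVariables false
set_option linter.style.haveILetI false

/-!
# Cluster G (S36), seat SAT: `NormSat` for the base divisor `m • G.D₀` of a `GraphSeed`
(helper49; consumer: COC-ASM, helper36)

`G : GraphSeed Qb (FBar (N₁ q)) ..` with `G.D₀ = poleDiv h x`, `x = u₁ + b / u₁ + ymodY u₁ b m₀`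
the seed function of SEED v3 (`u₁ = uF (N₁ q) q`).

* `sats_hR`, `sats_hord` : the two support hypotheses of `nsm_normSat_nm1` / `nsm_normSat_nm2`
  for `R = m • G.D₀`, `N = G.graphSetup`;
* `sats_normSat_nm1` : **`NormSat G.graphSetup n (m • G.D₀) (nm1 N₁ q)`**, complete;
* `sats_normSat_nm2` : **`NormSat G.graphSetup n (m • G.D₀) (nm2 N₁ q D hM)`** from the two
  parameters `H₁`, `H₂` and `h12` (`b = ϖ₁ ^ m₀`);
* `sats_normSat_nm2_of_horSat2` : the same from `HorSat2`.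
-/

noncomputable section

open AlgebraicCurve Fermat.Agent.RR Fermat.Agent.Deuring

namespace Fermat.Agent.S36G

open Fermat.Agent.BadRed Fermat.Agent.BadRedG Fermat.Agent.F3G Fermat.Agent.F3
  Fermat.Agent.AtkinLehner ModularCurve Fermat.Agent.S24Res

section Abs

variable {K F k : Type*} [Field K] [Field F] [Algebra K F] [Field k]
  {κ : Type*} {Fk : κ → Type*} [∀ c, Field (Fk c)] [∀ c, Algebra k (Fk c)] {ι : Type*}
  [Fintype κ] [Fintype ι] [Infinite k] [Nonempty κ]

/-- the support of `m • G.D₀` consists of poles of the seed function. -/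
theorem sats_hR (G : GraphSeed K F k κ Fk ι) (h : IsRRField K F) {x : F}
    (hD₀ : G.D₀ = poleDiv h x) (m : ℕ) (w : Place K F) (hw : (m • G.D₀) w ≠ 0) :
    w.ord x < 0 := by
  have h1 : G.D₀ w ≠ 0 := by
    intro h0
    apply hw
    rw [Finsupp.smul_apply, h0, smul_zero]
  rw [hD₀, poleDiv_apply] at h1
  by_contra hcon
  apply h1
  rw [max_eq_right (by omega)]

/-- the poles of the seed function are ordinary. -/
theorem sats_hord (G : GraphSeed K F k κ Fk ι) (h : IsRRField K F) {x : F}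
    (hD₀ : G.D₀ = poleDiv h x) (P : Place K F) (hP : P.ord x < 0) :
    G.graphSetup.IsOrd P := by
  apply G.graphSetup_isOrdDiv_D₀ P
  rw [hD₀, poleDiv_apply, max_eq_left (by omega)]
  omega

end Abs

section Mod

local notation "Qb" => AlgebraicClosure ℚ

variable (N₁ q : ℕ) [NeZero N₁] [NeZero q]

variable {k : Type*} [Field k] [Infinite k] {Mid SS : Type} [Fintype Mid] [Fintype SS]
  {Fk : Vtx Mid SS → Type*} [∀ c, Field (Fk c)] [∀ c, Algebra k (Fk c)]

/-- **(SAT, `π₁`)** for the seed: `NormSat G.graphSetup n (m • G.D₀) (nm1 N₁ q)`. -/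
theorem sats_normSat_nm1 (hq : q ∣ N₁)
    (G : GraphSeed Qb (FBar (N₁ * q)) k (Vtx Mid SS) Fk (Nod Mid SS)) (n m : ℕ)
    (h : IsRRField Qb (FBar (N₁ * q))) (b : Qb) (m₀ : ℕ)
    (hD₀ : G.D₀ = poleDiv h (uF (N₁ * q) q (nsm_dvd N₁ q) +
        algebraMap Qb (FBar (N₁ * q)) b / uF (N₁ * q) q (nsm_dvd N₁ q) +
        ymodY (uF (N₁ * q) q (nsm_dvd N₁ q)) b m₀)) :
    NormSat G.graphSetup n (m • G.D₀) (nm1 N₁ q) :=
  nsm_normSat_nm1 N₁ q hq G.graphSetup n (m • G.D₀) b m₀
    (fun w hw => sats_hR G h hD₀ m w hw) (fun P hP => sats_hord G h hD₀ P hP)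

/-- **(SAT, `π₂`)** for the seed, from `HorSat2`. -/
theorem sats_normSat_nm2_of_horSat2 (hq : q ∣ N₁) (hqp : q.Prime) (D : ALData)
    (hM : N₁ * q = D.Q * D.R) (hDQ : D.Q = q ^ 2)
    (G : GraphSeed Qb (FBar (N₁ * q)) k (Vtx Mid SS) Fk (Nod Mid SS)) (n m : ℕ)
    (h : IsRRField Qb (FBar (N₁ * q))) {b : Qb} (hb : b ≠ 0) {m₀ : ℕ} (hm₀ : m₀ ≠ 0)
    (hD₀ : G.D₀ = poleDiv h (uF (N₁ * q) q (nsm_dvd N₁ q) +
        algebraMap Qb (FBar (N₁ * q)) b / uF (N₁ * q) q (nsm_dvd N₁ q) +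
        ymodY (uF (N₁ * q) q (nsm_dvd N₁ q)) b m₀))
    (hH : HorSat2 N₁ q D hM G.graphSetup b m₀) :
    NormSat G.graphSetup n (m • G.D₀) (nm2 N₁ q D hM) :=
  nsm_normSat_nm2 N₁ q hq hqp D hM hDQ G.graphSetup n (m • G.D₀) hb hm₀
    (fun w hw => sats_hR G h hD₀ m w hw) (fun P hP => sats_hord G h hD₀ P hP) hH

/-- **(SAT, `π₂`)** for the seed, from the two parameters `v₁ = u₁ / ϖ₁`, `v₂ = ϖ_A / u₂` and
the comparison `h12` of their unit loci (`b = ϖ₁ ^ m₀`). -/
theorem sats_normSat_nm2 (hq : q ∣ N₁) (hqp : q.Prime) (D : ALData)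
    (hM : N₁ * q = D.Q * D.R) (hDQ : D.Q = q ^ 2)
    (G : GraphSeed Qb (FBar (N₁ * q)) k (Vtx Mid SS) Fk (Nod Mid SS)) (n m : ℕ)
    (h : IsRRField Qb (FBar (N₁ * q)))
    (V : Finset (Vtx Mid SS)) {ϖ₁ : Qb} (hϖ₁ : ϖ₁ ≠ 0) (ϖA : Qb) {m₀ : ℕ} (hm₀ : m₀ ≠ 0)
    (hD₀ : G.D₀ = poleDiv h (uF (N₁ * q) q (nsm_dvd N₁ q) +
        algebraMap Qb (FBar (N₁ * q)) (ϖ₁ ^ m₀) / uF (N₁ * q) q (nsm_dvd N₁ q) +
        ymodY (uF (N₁ * q) q (nsm_dvd N₁ q)) (ϖ₁ ^ m₀) m₀))
    (H₁ : OLParam G.graphSetup V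
      (uF (N₁ * q) q (nsm_dvd N₁ q) / algebraMap Qb (FBar (N₁ * q)) ϖ₁))
    (H₂ : OLParam G.graphSetup V
      (algebraMap Qb (FBar (N₁ * q)) ϖA / uF2 (N₁ * q) q (satc_sq_dvd N₁ q hq)))
    (h12 : ∀ c ∈ V, ∀ Q : Place k (Fk c),
      Q.ord ((G.graphSetup.S c).red
        (uF (N₁ * q) q (nsm_dvd N₁ q) / algebraMap Qb (FBar (N₁ * q)) ϖ₁)) = 0 →
      Q.ord ((G.graphSetup.S c).red
        (algebraMap Qb (FBar (N₁ * q)) ϖA / uF2 (N₁ * q) q (satc_sq_dvd N₁ q hq))) = 0) :
    NormSat G.graphSetup n (m • G.D₀) (nm2 N₁ q D hM) :=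
  sats_normSat_nm2_of_horSat2 N₁ q hq hqp D hM hDQ G n m h (pow_ne_zero m₀ hϖ₁) hm₀ hD₀
    (satd_horSat2 N₁ q hq D hM hDQ G.graphSetup V hϖ₁ ϖA hm₀ H₁ H₂ h12)

end Mod

end Fermat.Agent.S36G
end
end MergeWrap_S36_G_SatSeed

section MergeWrap_S36_G_SatYmod -- from S36/G/SatYmod.lean

set_option autoImplicit false
set_option linter.unusedSectionVars false
set_option linter.unusedVariables false
set_option linter.style.haveILetI false

/-!
# Cluster G (S36), seat SAT, FINAL PLUG for the modular seed  (helper21)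

`G := E.ymodSeed hn hb h12 hu2 hD₀ hdeg hgenus` (SEED-MAIN, `S36/Seed/Main.lean`),
`E : ModEndsInput Qb (FBar (N₁ * q)) k ..`, `N := G.graphSetup`.  With

  `hu1 : E.u1 = uF (N₁ * q) q _`   (`u₁ = Δ(z) / Δ(qz)`),
  `huA : E.uA = uF2 (N₁ * q) q _`  (`u₂ = Δ(qz) / Δ(q²z)`),
  `hxA : EndsRedA E.S H (ϖA / uA)`, `hx2 : EndsRed2 E.S H E.u2`   (SEED-UP)

the two saturation hypotheses `hsat` of `cocycleF1_modular`, `cocycleF2_modular` hold:

* `satY_hends`       : the branch points of the `H_P` are ends (from helper15's `edy_hI`,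
  `edy_hZ`, `edy_hm1`);
* `satY_horSat2`     : `HorSat2 N₁ q D hM G.graphSetup b n`;
* `satY_normSat_nm1` : `NormSat G.graphSetup n' (m • G.D₀) (nm1 N₁ q)`;
* `satY_normSat_nm2` : `NormSat G.graphSetup n' (m • G.D₀) (nm2 N₁ q D hM)`.

Everything else is plugged in: helper20 (`horSat2_of_params`), helper49 (`SatC`, `SatD`,
`SatSeed`), helper83 (`SatEnds`), helper15 (`EndsDictYmod`), `SatModInst`.
-/

noncomputable section

open AlgebraicCurve IntermediateField Fermat.Agent.RR Fermat.Agent.Deuring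

namespace Fermat.Agent.S36G

/- build time (helper70's recipe): the instance terms are unchanged, only the search order -/
attribute [local instance 10000] SubalgebraClass.toAlgebra HahnSeries.powerSeriesAlgebra

open Fermat.Agent.BadRed Fermat.Agent.BadRedG Fermat.Agent.F3G Fermat.Agent.F3
  Fermat.Agent.AtkinLehner ModularCurve Fermat.Agent.S24Res Fermat.Agent.HP

section SatYmod

local notation "Qb" => AlgebraicClosure ℚ

variable (N₁ q : ℕ) [NeZero N₁] [NeZero q]

variable {k : Type} [Field k] [IsAlgClosed k] {Mid SS : Type} [Fintype Mid] [Fintype SS]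
  [Nonempty SS]
  {Fk0 : Type} [Field Fk0] [Algebra k Fk0]
  {FkM : Mid → Type} [∀ m, Field (FkM m)] [∀ m, Algebra k (FkM m)]
  {FkP : SS → Type} [∀ P, Field (FkP P)] [∀ P, Algebra k (FkP P)]
  {E : ModEndsInput Qb (FBar (N₁ * q)) k Mid SS Fk0 FkM FkP}
  {H : ∀ P : SS, HPCurve k (FkOf Fk0 FkM FkP (Vtx.hor P)) q}
  {b : Qb} {n : ℕ}
  (hn : 2 ≤ n) (hb : E.ϖ1 ^ n = b) (h12 : E.ϖ1 * E.ϖ2 = b)
  (hu2 : E.u2 = E.u1 / algebraMap Qb (FBar (N₁ * q)) E.ϖ1)
  (hD₀ : E.D₀ = poleDiv (E.S (Vtx.vert Vrt.oo)).hF (E.ymodX b n))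
  (hdeg : Divisor.degree (poleDiv (E.S (Vtx.vert Vrt.oo)).hF (E.ymodX b n)) ≤
    ∑ c, Divisor.degree (poleDiv (E.S c).hFk ((E.S c).red (E.ymodX b n))))
  (hgenus : genusFF Qb (FBar (N₁ * q)) + Fintype.card (Vtx Mid SS) ≤
    (∑ c, genusFF k (FkOf Fk0 FkM FkP c)) + Fintype.card (Nod Mid SS) + 1)
  (hxA : EndsRedA E.S H (algebraMap Qb (FBar (N₁ * q)) E.ϖA / E.uA))
  (hx2 : EndsRed2 E.S H E.u2)
  (hqp : q.Prime) [CharP k q]

include hxA hx2 hqp in
/-- **the branch points of the horizontal components of the modular seed are ends.** -/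
theorem satY_hends (P : SS) (w : Vrt Mid) :
    (H P).IsEnd (nlTgt (E.ymodSeed hn hb h12 hu2 hD₀ hdeg hgenus).graphSetup
      (edy_htgt hn hb h12 hu2 hD₀ hdeg hgenus) P w) :=
  satEnds_isEnd_nlTgt (E.ymodSeed hn hb h12 hu2 hD₀ hdeg hgenus).graphSetup
    (edy_htgt hn hb h12 hu2 hD₀ hdeg hgenus) (ends_hq1 hqp) H
    (edy_hI hn hb h12 hu2 hD₀ hdeg hgenus hxA)
    (edy_hZ hn hb h12 hu2 hD₀ hdeg hgenus hx2)
    (fun P m => by
      rw [edy_hm1 hn hb h12 hu2 hD₀ hdeg hgenus hxA hx2 hqp P m]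
      have := ends_midDeg_pos hqp
      omega) P w

include hxA hx2 hqp in
/-- **(SAT, `HorSat2`)** for the modular seed. -/
theorem satY_horSat2 (hq : q ∣ N₁) (D : ALData) (hM : N₁ * q = D.Q * D.R) (hDQ : D.Q = q ^ 2)
    (hu1 : E.u1 = uF (N₁ * q) q (nsm_dvd N₁ q))
    (huA : E.uA = uF2 (N₁ * q) q (satc_sq_dvd N₁ q hq)) :
    HorSat2 N₁ q D hM (E.ymodSeed hn hb h12 hu2 hD₀ hdeg hgenus).graphSetup b n := by
  have hn0 : n ≠ 0 := by omega
  have hu2' : E.u2 =
      uF (N₁ * q) q (nsm_dvd N₁ q) / algebraMap Qb (FBar (N₁ * q)) E.ϖ1 := by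
    rw [hu2, hu1]
  have h := satInst_horSat2_of_modEnds N₁ q hq D hM hDQ E
    (E.ymodSeed hn hb h12 hu2 hD₀ hdeg hgenus).graphSetup rfl
    (edy_hsrc hn hb h12 hu2 hD₀ hdeg hgenus) (edy_htgt hn hb h12 hu2 hD₀ hdeg hgenus)
    (ends_hq1 hqp) H (satY_hends N₁ q hn hb h12 hu2 hD₀ hdeg hgenus hxA hx2 hqp)
    E.D1.ϖ_ne hn0 hu2' huA hx2 hxA
  rwa [hb] at h

/-- the divisor of the modular seed is the polar divisor of `u₁ + b / u₁ + y`. -/
theorem satY_hD₀ (hu1 : E.u1 = uF (N₁ * q) q (nsm_dvd N₁ q)) :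
    (E.ymodSeed hn hb h12 hu2 hD₀ hdeg hgenus).D₀ =
      poleDiv (E.S (Vtx.vert Vrt.oo)).hF (uF (N₁ * q) q (nsm_dvd N₁ q) +
        algebraMap Qb (FBar (N₁ * q)) b / uF (N₁ * q) q (nsm_dvd N₁ q) +
        ymodY (uF (N₁ * q) q (nsm_dvd N₁ q)) b n) := by
  rw [ModEndsInput.ymodSeed_D₀, ModEndsInput.ymodX_eq, hu1]

/-- **(SAT, `π₁`)** for the modular seed. -/
theorem satY_normSat_nm1 (hq : q ∣ N₁) (hu1 : E.u1 = uF (N₁ * q) q (nsm_dvd N₁ q))
    (n' m : ℕ) :
    NormSat (E.ymodSeed hn hb h12 hu2 hD₀ hdeg hgenus).graphSetup n'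
      (m • (E.ymodSeed hn hb h12 hu2 hD₀ hdeg hgenus).D₀) (nm1 N₁ q) :=
  sats_normSat_nm1 N₁ q hq (E.ymodSeed hn hb h12 hu2 hD₀ hdeg hgenus) n' m
    (E.S (Vtx.vert Vrt.oo)).hF b n (satY_hD₀ N₁ q hn hb h12 hu2 hD₀ hdeg hgenus hu1)

include hxA hx2 hqp in
/-- **(SAT, `π₂`)** for the modular seed. -/
theorem satY_normSat_nm2 (hq : q ∣ N₁) (D : ALData) (hM : N₁ * q = D.Q * D.R)
    (hDQ : D.Q = q ^ 2)
    (hu1 : E.u1 = uF (N₁ * q) q (nsm_dvd N₁ q))
    (huA : E.uA = uF2 (N₁ * q) q (satc_sq_dvd N₁ q hq)) (n' m : ℕ) :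
    NormSat (E.ymodSeed hn hb h12 hu2 hD₀ hdeg hgenus).graphSetup n'
      (m • (E.ymodSeed hn hb h12 hu2 hD₀ hdeg hgenus).D₀) (nm2 N₁ q D hM) := by
  have hn0 : n ≠ 0 := by omega
  have hb0 : b ≠ 0 := by
    rw [← hb]
    exact pow_ne_zero n E.D1.ϖ_ne
  exact sats_normSat_nm2_of_horSat2 N₁ q hq hqp D hM hDQ
    (E.ymodSeed hn hb h12 hu2 hD₀ hdeg hgenus) n' m (E.S (Vtx.vert Vrt.oo)).hF hb0 hn0
    (satY_hD₀ N₁ q hn hb h12 hu2 hD₀ hdeg hgenus hu1)
    (satY_horSat2 N₁ q hn hb h12 hu2 hD₀ hdeg hgenus hxA hx2 hqp hq D hM hDQ hu1 huA)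

end SatYmod

end Fermat.Agent.S36G
end
end MergeWrap_S36_G_SatYmod

section MergeWrap_S36_G_CocFinal -- from S36/G/CocFinal.lean

set_option autoImplicit false
set_option linter.unusedSectionVars false
set_option linter.unusedVariables false
set_option linter.style.haveILetI false
set_option synthInstance.maxHeartbeats 400000
set_option maxHeartbeats 1000000

/-!
# Cluster G (S36), block COC: the junction output `CboNorm` for the modular seed  (helper36)

`E : ModEndsInput ℚ̄ (FBar (M₀ q q)) k Mid SS Fk0 FkM FkP`, `k` the residue field of `A ∣ q`,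
`G := E.ymodSeed ..` (SEED v3, `S36/Seed/Main.lean`), `N := G.graphSetup`, `R := m • G.D₀`.

* `cboNorm_of_layers` : **the junction output `CboNorm`** of `S36/G/CoreBundleOf.lean` for the
  modular seed, from the two norm layers `NormLayer1`, `NormLayer2` (seats COC-ASM) and
  `E.u1 = uF`, `E.uA = uF2`, `EndsRedA`, `EndsRed2` (the saturation is helper21's
  `satY_normSat_nm1`, `satY_normSat_nm2`).
-/

noncomputable section

open AlgebraicCurve Fermat.Agent.RR Fermat.Agent.Deuring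

namespace Fermat.Agent.S36G

open ModularCurve Fermat.Agent.F3 Fermat.Agent.F3G Fermat.Agent.GaussInt
  Fermat.Agent.AtkinLehner Fermat.Agent.Kronecker Fermat.Agent.BadRed Fermat.Agent.BadRedG
  Fermat.Agent.BadRed.Gluing Fermat.Agent.S24Res Fermat.Agent.HP

local notation "Qb" => AlgebraicClosure ℚ

attribute [local instance] Fermat.Agent.GaussInt.isAlgClosed_residue
  Fermat.Agent.GaussInt.infinite_residue

section Ends

variable {M₀ q : ℕ} [NeZero M₀] [NeZero q] [hN₁ : NeZero (M₀ * q)]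
  {A : ValuationSubring Qb}
  {Mid SS : Type} [Fintype Mid] [Fintype SS] [Nonempty SS]
  {Fk0 : Type} [Field Fk0] [Algebra (IsLocalRing.ResidueField A) Fk0]
  {FkM : Mid → Type} [∀ m, Field (FkM m)] [∀ m, Algebra (IsLocalRing.ResidueField A) (FkM m)]
  {FkP : SS → Type} [∀ P, Field (FkP P)] [∀ P, Algebra (IsLocalRing.ResidueField A) (FkP P)]
  (E : ModEndsInput Qb (FBar (M₀ * q * q)) (IsLocalRing.ResidueField A) Mid SS Fk0 FkM FkP)
  {b : Qb} {nn : ℕ}
  (hn : 2 ≤ nn) (hb : E.ϖ1 ^ nn = b) (h12 : E.ϖ1 * E.ϖ2 = b)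
  (hu2 : E.u2 = E.u1 / algebraMap Qb (FBar (M₀ * q * q)) E.ϖ1)
  (hD₀ : E.D₀ = poleDiv (E.S (Vtx.vert Vrt.oo)).hF (E.ymodX b nn))
  (hdeg : Divisor.degree (poleDiv (E.S (Vtx.vert Vrt.oo)).hF (E.ymodX b nn)) ≤
    ∑ c, Divisor.degree (poleDiv (E.S c).hFk ((E.S c).red (E.ymodX b nn))))
  (hgenus : genusFF Qb (FBar (M₀ * q * q)) + Fintype.card (Vtx Mid SS) ≤
    (∑ c, genusFF (IsLocalRing.ResidueField A) (FkOf Fk0 FkM FkP c)) +
      Fintype.card (Nod Mid SS) + 1)

/-- **the junction output `CboNorm` for the modular seed** from the two norm layers. -/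
theorem cboNorm_of_layers (hqp : q.Prime) (hA : A.LiesOverPrime q)
    (D₀ : ALData) (hM₀ : M₀ * q * q = D₀.Q * D₀.R) (hDQ : D₀.Q = q ^ 2)
    (hu1 : E.u1 = uF (M₀ * q * q) q (nsm_dvd (M₀ * q) q))
    (huA : E.uA = uF2 (M₀ * q * q) q (satc_sq_dvd (M₀ * q) q (Dvd.intro_left M₀ rfl)))
    (HP : ∀ P : SS, HPCurve (IsLocalRing.ResidueField A) (FkOf Fk0 FkM FkP (Vtx.hor P)) q)
    (hxA : EndsRedA E.S HP (algebraMap Qb (FBar (M₀ * q * q)) E.ϖA / E.uA))
    (hx2 : EndsRed2 E.S HP E.u2)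
    (e n m : ℕ)
    (L1 : NormLayer1 (E.ymodSeed hn hb h12 hu2 hD₀ hdeg hgenus).graphSetup n q e
      (nm1 (M₀ * q) q))
    (L2 : NormLayer2 (E.ymodSeed hn hb h12 hu2 hD₀ hdeg hgenus).graphSetup n q e
      (nm2 (M₀ * q) q D₀ hM₀)) :
    CboNorm M₀ q A (E.ymodSeed hn hb h12 hu2 hD₀ hdeg hgenus).graphSetup D₀ hM₀ e n
      (m • (E.ymodSeed hn hb h12 hu2 hD₀ hdeg hgenus).D₀) := by
  haveI : Fact q.Prime := ⟨hqp⟩
  haveI : CharP (IsLocalRing.ResidueField A) q := Fermat.Agent.FrobTrace.charP_residueField A hA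
  exact
    { layer1 := ⟨L1⟩
      sat1 := satY_normSat_nm1 (M₀ * q) q hn hb h12 hu2 hD₀ hdeg hgenus (Dvd.intro_left M₀ rfl)
        hu1 n m
      layer2 := ⟨L2⟩
      sat2 := satY_normSat_nm2 (M₀ * q) q hn hb h12 hu2 hD₀ hdeg hgenus hxA hx2 hqp
        (Dvd.intro_left M₀ rfl) D₀ hM₀ hDQ hu1 huA n m }

end Ends

end Fermat.Agent.S36G
end
end MergeWrap_S36_G_CocFinal
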