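import Mathlib
import Fermat.Agent.MU.S36.G.NormLayerOf
import Fermat.Agent.MU.S36.G.CocycleF12Mod
import Fermat.Agent.MU.S36.Igusa.Defs
import Fermat.Agent.MU.S36.Seed.Ends
import Fermat.Agent.MU.Lib.BadRed.Graph.GlueWD
import Fermat.Agent.MU.Lib.GaussInt.ModularInst
import Fermat.Agent.Lib.FrobTrace.Residue
import Fermat.Agent.MU.S36.G.EndsDictYmod
import Fermat.Agent.MU.S36.Norm.MidSetup
import Fermat.Agent.MU.S36.Norm.MidW
import Fermat.Agent.MU.S36.Norm.VertSetup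
import Fermat.Agent.MU.S36.Igusa.Asm
import Fermat.Agent.MU.Lib.BadRed.Mod.GaussSetupFinal
import Fermat.Agent.MU.S36.G.EndsDictVert
import Fermat.Agent.MU.S36.G.NormLayerHor
import Fermat.Agent.MU.S36.Igusa.Pack
import Fermat.Agent.MU.S36.G.VtxFamily
import Fermat.Agent.MU.S36.Igusa.Lies
import Fermat.Agent.MU.S36.Igusa.Theta
import Fermat.Agent.MU.S36.Val.Restr
import Fermat.Agent.MU.S36.Seed.EndsVert
import Fermat.Agent.MU.S36.G.Step12D0
import Fermat.Agent.MU.S36.HPVal.Defs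
import Fermat.Agent.MU.S36.Norm.HorSqueeze
import Fermat.Agent.MU.S36.G.CocFinal

section MergeWrap_S36_G_CocAsm -- from S36/G/CocAsm.lean

set_option autoImplicit false
set_option linter.style.haveILetI false
set_option linter.unusedSectionVars false
set_option linter.unusedVariables false
set_option synthInstance.maxHeartbeats 400000
set_option maxHeartbeats 1000000

noncomputable section

open IntermediateField AlgebraicCurve

namespace Fermat.Agent.S36G

open ModularCurve Fermat.Agent.F3 Fermat.Agent.F3G Fermat.Agent.GaussInt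
  Fermat.Agent.AtkinLehner Fermat.Agent.Kronecker Fermat.Agent.BadRed Fermat.Agent.BadRedG
  Fermat.Agent.BadRed.Gluing Fermat.Agent.Deuring Fermat.Agent.RR Fermat.Agent.S36
  Fermat.Agent.HP

local notation "Qb" => AlgebraicClosure ℚ

/-! ### the generic glue -/

section Gen

variable {K F k : Type*} [Field K] [Field F] [Algebra K F] [Field k]
  {Mid SS : Type} [Fintype Mid] {Fk : Vtx Mid SS → Type*} [∀ c, Field (Fk c)]
  [∀ c, Algebra k (Fk c)]
  (N : GraphSetup K F k (Vtx Mid SS) Fk (Nod Mid SS))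
  (hsrc : ∀ i, N.src i = nodSrc i) (htgt : ∀ i, N.tgt i = nodTgt i)
  {q : ℕ} [IsAlgClosed k] (hq1 : ((q + 1 : ℕ) : k) ≠ 0)
  (HP : ∀ P : SS, HPCurve k (Fk (Vtx.hor P)) q)
  [∀ m, Algebra (Fk (Vtx.vert Vrt.oo)) (Fk (Vtx.vert (Vrt.mid m)))]
  [∀ m, IsScalarTower k (Fk (Vtx.vert Vrt.oo)) (Fk (Vtx.vert (Vrt.mid m)))]
  [∀ m, FiniteDimensional (Fk (Vtx.vert Vrt.oo)) (Fk (Vtx.vert (Vrt.mid m)))]

/-- **the norm layer for `π₁`** from (RES) + (VERT) + (DIV); `h0`, `hM` discharged. -/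
def cocAsm_layer1 (n e : ℕ) (Nm : F → F)
    -- (VERT)
    (hres : ∀ P m, (nlSrc N hsrc P (Vrt.mid m)).restrict (Fk (Vtx.vert Vrt.oo)) =
      nlSrc N hsrc P Vrt.oo)
    (he : ∀ P m, (nlSrc N hsrc P (Vrt.mid m)).ramificationIndex (Fk (Vtx.vert Vrt.oo)) = e)
    (hdeg : ∀ m, Module.finrank (Fk (Vtx.vert Vrt.oo)) (Fk (Vtx.vert (Vrt.mid m))) = e)
    -- (DIV)
    (hI : ∀ P, 0 < (nlTgt N htgt P Vrt.oo).ord (HP P).X2)
    (hZ : ∀ P, 0 < (nlTgt N htgt P Vrt.zero).ord (HP P).X1)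
    (hm1 : ∀ P m, (nlTgt N htgt P (Vrt.mid m)).ord (HP P).X1 = -(e : ℤ)) (he0 : 0 < e)
    (hm2 : ∀ P m, ¬ 0 < (nlTgt N htgt P (Vrt.mid m)).ord (HP P).X2)
    (hcover : ∀ P (v : Place k (Fk (Vtx.hor P))), v.ord (HP P).X1 < 0 →
      ∃ w, v = nlTgt N htgt P w)
    -- (RES)
    (red_oo : ∀ g : F, (∀ c, g ∈ (N.S c).Ov) → (∀ c, (N.S c).red g ≠ 0) →
      (N.S (Vtx.vert Vrt.oo)).red (Nm g) =
        (N.S (Vtx.vert Vrt.oo)).red g *
          ∏ m, Algebra.norm (Fk (Vtx.vert Vrt.oo)) ((N.S (Vtx.vert (Vrt.mid m))).red g))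
    (red_mid : ∀ g : F, (∀ c, g ∈ (N.S c).Ov) → (∀ c, (N.S c).red g ≠ 0) → ∀ m,
      (N.S (Vtx.vert (Vrt.mid m))).red (Nm g) =
        algebraMap (Fk (Vtx.vert Vrt.oo)) (Fk (Vtx.vert (Vrt.mid m)))
          ((N.S (Vtx.vert Vrt.oo)).red (Nm g)))
    (red_zero : ∀ g : F, (∀ c, g ∈ (N.S c).Ov) → (∀ c, (N.S c).red g ≠ 0) →
      (N.S (Vtx.vert Vrt.zero)).red (Nm g) = (N.S (Vtx.vert Vrt.zero)).red g ^ q)
    (red_hor : ∀ g : F, (∀ c, g ∈ (N.S c).Ov) → (∀ c, (N.S c).red g ≠ 0) → ∀ P,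
      (N.S (Vtx.hor P)).red (Nm g) =
        algebraMap k⟮(HP P).X1⟯ (Fk (Vtx.hor P))
          (Algebra.norm k⟮(HP P).X1⟯ ((N.S (Vtx.hor P)).red g))) :
    NormLayer1 N n q e Nm :=
  normLayer1_of N hsrc htgt hq1 HP n e Nm (N.S (Vtx.vert Vrt.oo)).hFk
    (fun m => (N.S (Vtx.vert (Vrt.mid m))).hFk) hres he hdeg hI hZ hm1 he0 hm2 hcover
    red_oo red_mid red_zero red_hor

end Gen

/-! ### (F1) for `α = heckeAlphaBar Qb N₁ q`, any residue fields -/

section F1Gen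

variable {k : Type*} [Field k] {Mid SS : Type} [Fintype Mid] [Fintype SS]
  {Fk : Vtx Mid SS → Type*} [∀ c, Field (Fk c)] [∀ c, Algebra k (Fk c)]

/-- **(F1)** from (RES) + (VERT) + (DIV) + saturation, ANY `Fk`, `e`, `R`. -/
theorem cocAsm_F1_gen (N₁ q : ℕ) [NeZero N₁] [NeZero q] (hq : q.Prime) (hqN : q ∣ N₁)
    [IsAlgClosed k]
    (N : GraphSetup Qb (FBar (N₁ * q)) k (Vtx Mid SS) Fk (Nod Mid SS))
    (hsrc : ∀ i, N.src i = nodSrc i) (htgt : ∀ i, N.tgt i = nodTgt i)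
    (hq1 : ((q + 1 : ℕ) : k) ≠ 0)
    (HP : ∀ P : SS, HPCurve k (Fk (Vtx.hor P)) q)
    [∀ m, Algebra (Fk (Vtx.vert Vrt.oo)) (Fk (Vtx.vert (Vrt.mid m)))]
    [∀ m, IsScalarTower k (Fk (Vtx.vert Vrt.oo)) (Fk (Vtx.vert (Vrt.mid m)))]
    [∀ m, FiniteDimensional (Fk (Vtx.vert Vrt.oo)) (Fk (Vtx.vert (Vrt.mid m)))]
    {n : ℕ} (hn : n ≠ 0) (e : ℕ) {R : Divisor Qb (FBar (N₁ * q))}
    -- (VERT)
    (hres : ∀ P m, (nlSrc N hsrc P (Vrt.mid m)).restrict (Fk (Vtx.vert Vrt.oo)) =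
      nlSrc N hsrc P Vrt.oo)
    (he : ∀ P m, (nlSrc N hsrc P (Vrt.mid m)).ramificationIndex (Fk (Vtx.vert Vrt.oo)) = e)
    (hdeg : ∀ m, Module.finrank (Fk (Vtx.vert Vrt.oo)) (Fk (Vtx.vert (Vrt.mid m))) = e)
    -- (DIV)
    (hI : ∀ P, 0 < (nlTgt N htgt P Vrt.oo).ord (HP P).X2)
    (hZ : ∀ P, 0 < (nlTgt N htgt P Vrt.zero).ord (HP P).X1)
    (hm1 : ∀ P m, (nlTgt N htgt P (Vrt.mid m)).ord (HP P).X1 = -(e : ℤ)) (he0 : 0 < e)
    (hm2 : ∀ P m, ¬ 0 < (nlTgt N htgt P (Vrt.mid m)).ord (HP P).X2)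
    (hcover : ∀ P (v : Place k (Fk (Vtx.hor P))), v.ord (HP P).X1 < 0 →
      ∃ w, v = nlTgt N htgt P w)
    -- (RES)
    (red_oo : ∀ g : FBar (N₁ * q), (∀ c, g ∈ (N.S c).Ov) → (∀ c, (N.S c).red g ≠ 0) →
      (N.S (Vtx.vert Vrt.oo)).red (nm1 N₁ q g) =
        (N.S (Vtx.vert Vrt.oo)).red g *
          ∏ m, Algebra.norm (Fk (Vtx.vert Vrt.oo)) ((N.S (Vtx.vert (Vrt.mid m))).red g))
    (red_mid : ∀ g : FBar (N₁ * q), (∀ c, g ∈ (N.S c).Ov) → (∀ c, (N.S c).red g ≠ 0) → ∀ m,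
      (N.S (Vtx.vert (Vrt.mid m))).red (nm1 N₁ q g) =
        algebraMap (Fk (Vtx.vert Vrt.oo)) (Fk (Vtx.vert (Vrt.mid m)))
          ((N.S (Vtx.vert Vrt.oo)).red (nm1 N₁ q g)))
    (red_zero : ∀ g : FBar (N₁ * q), (∀ c, g ∈ (N.S c).Ov) → (∀ c, (N.S c).red g ≠ 0) →
      (N.S (Vtx.vert Vrt.zero)).red (nm1 N₁ q g) = (N.S (Vtx.vert Vrt.zero)).red g ^ q)
    (red_hor : ∀ g : FBar (N₁ * q), (∀ c, g ∈ (N.S c).Ov) → (∀ c, (N.S c).red g ≠ 0) → ∀ P,
      (N.S (Vtx.hor P)).red (nm1 N₁ q g) =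
        algebraMap k⟮(HP P).X1⟯ (Fk (Vtx.hor P))
          (Algebra.norm k⟮(HP P).X1⟯ ((N.S (Vtx.hor P)).red g)))
    -- (SAT)
    (hsat : NormSat N n R (nm1 N₁ q)) :
    CocycleF1 N n q e R (fun g => IsCPow n (normAlong (heckeAlphaBar Qb N₁ q) g)) :=
  cocycleF1_modular N₁ q (finiteAlong_alpha_dvd N₁ q hq hqN) N hsrc htgt (graphWD N) hn e
    (cocAsm_layer1 N hsrc htgt hq1 HP n e (nm1 N₁ q) hres he hdeg hI hZ hm1 he0 hm2 hcover
      red_oo red_mid red_zero red_hor) hsat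

end F1Gen

/-! ### (F1) for the modular graph -/

section F1Mod

attribute [local instance] Fermat.Agent.GaussInt.isAlgClosed_residue

variable {M₀ q : ℕ} [NeZero M₀] [NeZero q] {Mid SS : Type} [Fintype Mid] [Fintype SS]

/-- `q + 1 ≠ 0` in the residue field of `A ∣ q`. -/
theorem cocAsm_hq1 (hq : q.Prime) (A : ValuationSubring Qb) (hA : A.LiesOverPrime q) :
    ((q + 1 : ℕ) : IsLocalRing.ResidueField A) ≠ 0 := by
  haveI : Fact q.Prime := ⟨hq⟩
  haveI : CharP (IsLocalRing.ResidueField A) q :=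
    Fermat.Agent.FrobTrace.charP_residueField A hA
  exact ends_hq1 hq

/-- **the norm layer for `π₁` of the modular graph** (level `M₀ q q`, `k` the residue field of
`A ∣ q`, `e = midDeg q`; ANY `Mid`, `Fk`: plug `Fin (midCard q)`, `FkOf ..` by application), from
the arguments (VERT), (DIV), (RES) of `normLayer1_of`. -/
def cocAsm_layer1_modular (hq : q.Prime) (A : ValuationSubring Qb) (hA : A.LiesOverPrime q)
    {Fk : Vtx Mid SS → Type} [∀ c, Field (Fk c)]
    [∀ c, Algebra (IsLocalRing.ResidueField A) (Fk c)]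
    (N : GraphSetup Qb (FBar (M₀ * q * q)) (IsLocalRing.ResidueField A) (Vtx Mid SS) Fk
      (Nod Mid SS))
    (hsrc : ∀ i, N.src i = nodSrc i) (htgt : ∀ i, N.tgt i = nodTgt i)
    (HP : ∀ P : SS, HPCurve (IsLocalRing.ResidueField A) (Fk (Vtx.hor P)) q)
    [∀ m, Algebra (Fk (Vtx.vert Vrt.oo)) (Fk (Vtx.vert (Vrt.mid m)))]
    [∀ m, IsScalarTower (IsLocalRing.ResidueField A) (Fk (Vtx.vert Vrt.oo))
      (Fk (Vtx.vert (Vrt.mid m)))]
    [∀ m, FiniteDimensional (Fk (Vtx.vert Vrt.oo)) (Fk (Vtx.vert (Vrt.mid m)))]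
    (n : ℕ)
    -- (VERT)
    (hres : ∀ P m, (nlSrc N hsrc P (Vrt.mid m)).restrict (Fk (Vtx.vert Vrt.oo)) =
      nlSrc N hsrc P Vrt.oo)
    (he : ∀ P m,
      (nlSrc N hsrc P (Vrt.mid m)).ramificationIndex (Fk (Vtx.vert Vrt.oo)) = midDeg q)
    (hdeg : ∀ m, Module.finrank (Fk (Vtx.vert Vrt.oo)) (Fk (Vtx.vert (Vrt.mid m))) = midDeg q)
    -- (DIV)
    (hI : ∀ P, 0 < (nlTgt N htgt P Vrt.oo).ord (HP P).X2)
    (hZ : ∀ P, 0 < (nlTgt N htgt P Vrt.zero).ord (HP P).X1)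
    (hm1 : ∀ P m, (nlTgt N htgt P (Vrt.mid m)).ord (HP P).X1 = -(midDeg q : ℤ))
    (hm2 : ∀ P m, ¬ 0 < (nlTgt N htgt P (Vrt.mid m)).ord (HP P).X2)
    (hcover : ∀ P (v : Place (IsLocalRing.ResidueField A) (Fk (Vtx.hor P))),
      v.ord (HP P).X1 < 0 → ∃ w, v = nlTgt N htgt P w)
    -- (RES)
    (red_oo : ∀ g : FBar (M₀ * q * q), (∀ c, g ∈ (N.S c).Ov) → (∀ c, (N.S c).red g ≠ 0) →
      (N.S (Vtx.vert Vrt.oo)).red (nm1 (M₀ * q) q g) =
        (N.S (Vtx.vert Vrt.oo)).red g *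
          ∏ m, Algebra.norm (Fk (Vtx.vert Vrt.oo)) ((N.S (Vtx.vert (Vrt.mid m))).red g))
    (red_mid : ∀ g : FBar (M₀ * q * q), (∀ c, g ∈ (N.S c).Ov) → (∀ c, (N.S c).red g ≠ 0) →
      ∀ m, (N.S (Vtx.vert (Vrt.mid m))).red (nm1 (M₀ * q) q g) =
        algebraMap (Fk (Vtx.vert Vrt.oo)) (Fk (Vtx.vert (Vrt.mid m)))
          ((N.S (Vtx.vert Vrt.oo)).red (nm1 (M₀ * q) q g)))
    (red_zero : ∀ g : FBar (M₀ * q * q), (∀ c, g ∈ (N.S c).Ov) → (∀ c, (N.S c).red g ≠ 0) →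
      (N.S (Vtx.vert Vrt.zero)).red (nm1 (M₀ * q) q g) = (N.S (Vtx.vert Vrt.zero)).red g ^ q)
    (red_hor : ∀ g : FBar (M₀ * q * q), (∀ c, g ∈ (N.S c).Ov) → (∀ c, (N.S c).red g ≠ 0) →
      ∀ P, (N.S (Vtx.hor P)).red (nm1 (M₀ * q) q g) =
        algebraMap (IsLocalRing.ResidueField A)⟮(HP P).X1⟯ (Fk (Vtx.hor P))
          (Algebra.norm (IsLocalRing.ResidueField A)⟮(HP P).X1⟯ ((N.S (Vtx.hor P)).red g))) :
    NormLayer1 N n q (midDeg q) (nm1 (M₀ * q) q) :=
  cocAsm_layer1 N hsrc htgt (cocAsm_hq1 hq A hA) HP n (midDeg q) (nm1 (M₀ * q) q) hres he hdeg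
    hI hZ hm1 (ends_midDeg_pos hq) hm2 hcover red_oo red_mid red_zero red_hor

/-- **(F1) for the modular graph** = the field `hF1` of `CoreBundle` (for ANY `R`), from a norm
layer and the saturation (`hWD`, `hfin` discharged). -/
theorem cocAsm_F1_of_layer (hq : q.Prime) (A : ValuationSubring Qb)
    {Fk : Vtx Mid SS → Type} [∀ c, Field (Fk c)]
    [∀ c, Algebra (IsLocalRing.ResidueField A) (Fk c)]
    (N : GraphSetup Qb (FBar (M₀ * q * q)) (IsLocalRing.ResidueField A) (Vtx Mid SS) Fk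
      (Nod Mid SS))
    (hsrc : ∀ i, N.src i = nodSrc i) (htgt : ∀ i, N.tgt i = nodTgt i)
    {n : ℕ} (hn : n ≠ 0) (e : ℕ) {R : Divisor Qb (FBar (M₀ * q * q))}
    (L : NormLayer1 N n q e (nm1 (M₀ * q) q))
    (hsat : NormSat N n R (nm1 (M₀ * q) q)) :
    CocycleF1 N n q e R (fun g => IsCPow n (normAlong (heckeAlphaBar Qb (M₀ * q) q) g)) :=
  cocycleF1_modular (M₀ * q) q (finiteAlong_alpha_dvd (M₀ * q) q hq (Dvd.intro_left M₀ rfl))
    N hsrc htgt (graphWD N) hn e L hsat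

/-- **(F1) for the modular graph** = the field `hF1` of `CoreBundle` (for ANY `R`), from the
arguments (VERT), (DIV), (RES) of `normLayer1_of` and the saturation. -/
theorem cocAsm_F1 (hq : q.Prime) (A : ValuationSubring Qb) (hA : A.LiesOverPrime q)
    {Fk : Vtx Mid SS → Type} [∀ c, Field (Fk c)]
    [∀ c, Algebra (IsLocalRing.ResidueField A) (Fk c)]
    (N : GraphSetup Qb (FBar (M₀ * q * q)) (IsLocalRing.ResidueField A) (Vtx Mid SS) Fk
      (Nod Mid SS))
    (hsrc : ∀ i, N.src i = nodSrc i) (htgt : ∀ i, N.tgt i = nodTgt i)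
    (HP : ∀ P : SS, HPCurve (IsLocalRing.ResidueField A) (Fk (Vtx.hor P)) q)
    [∀ m, Algebra (Fk (Vtx.vert Vrt.oo)) (Fk (Vtx.vert (Vrt.mid m)))]
    [∀ m, IsScalarTower (IsLocalRing.ResidueField A) (Fk (Vtx.vert Vrt.oo))
      (Fk (Vtx.vert (Vrt.mid m)))]
    [∀ m, FiniteDimensional (Fk (Vtx.vert Vrt.oo)) (Fk (Vtx.vert (Vrt.mid m)))]
    {n : ℕ} (hn : n ≠ 0) {R : Divisor Qb (FBar (M₀ * q * q))}
    -- (VERT)
    (hres : ∀ P m, (nlSrc N hsrc P (Vrt.mid m)).restrict (Fk (Vtx.vert Vrt.oo)) =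
      nlSrc N hsrc P Vrt.oo)
    (he : ∀ P m,
      (nlSrc N hsrc P (Vrt.mid m)).ramificationIndex (Fk (Vtx.vert Vrt.oo)) = midDeg q)
    (hdeg : ∀ m, Module.finrank (Fk (Vtx.vert Vrt.oo)) (Fk (Vtx.vert (Vrt.mid m))) = midDeg q)
    -- (DIV)
    (hI : ∀ P, 0 < (nlTgt N htgt P Vrt.oo).ord (HP P).X2)
    (hZ : ∀ P, 0 < (nlTgt N htgt P Vrt.zero).ord (HP P).X1)
    (hm1 : ∀ P m, (nlTgt N htgt P (Vrt.mid m)).ord (HP P).X1 = -(midDeg q : ℤ))
    (hm2 : ∀ P m, ¬ 0 < (nlTgt N htgt P (Vrt.mid m)).ord (HP P).X2)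
    (hcover : ∀ P (v : Place (IsLocalRing.ResidueField A) (Fk (Vtx.hor P))),
      v.ord (HP P).X1 < 0 → ∃ w, v = nlTgt N htgt P w)
    -- (RES)
    (red_oo : ∀ g : FBar (M₀ * q * q), (∀ c, g ∈ (N.S c).Ov) → (∀ c, (N.S c).red g ≠ 0) →
      (N.S (Vtx.vert Vrt.oo)).red (nm1 (M₀ * q) q g) =
        (N.S (Vtx.vert Vrt.oo)).red g *
          ∏ m, Algebra.norm (Fk (Vtx.vert Vrt.oo)) ((N.S (Vtx.vert (Vrt.mid m))).red g))
    (red_mid : ∀ g : FBar (M₀ * q * q), (∀ c, g ∈ (N.S c).Ov) → (∀ c, (N.S c).red g ≠ 0) →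
      ∀ m, (N.S (Vtx.vert (Vrt.mid m))).red (nm1 (M₀ * q) q g) =
        algebraMap (Fk (Vtx.vert Vrt.oo)) (Fk (Vtx.vert (Vrt.mid m)))
          ((N.S (Vtx.vert Vrt.oo)).red (nm1 (M₀ * q) q g)))
    (red_zero : ∀ g : FBar (M₀ * q * q), (∀ c, g ∈ (N.S c).Ov) → (∀ c, (N.S c).red g ≠ 0) →
      (N.S (Vtx.vert Vrt.zero)).red (nm1 (M₀ * q) q g) = (N.S (Vtx.vert Vrt.zero)).red g ^ q)
    (red_hor : ∀ g : FBar (M₀ * q * q), (∀ c, g ∈ (N.S c).Ov) → (∀ c, (N.S c).red g ≠ 0) →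
      ∀ P, (N.S (Vtx.hor P)).red (nm1 (M₀ * q) q g) =
        algebraMap (IsLocalRing.ResidueField A)⟮(HP P).X1⟯ (Fk (Vtx.hor P))
          (Algebra.norm (IsLocalRing.ResidueField A)⟮(HP P).X1⟯ ((N.S (Vtx.hor P)).red g)))
    -- (SAT)
    (hsat : NormSat N n R (nm1 (M₀ * q) q)) :
    CocycleF1 N n q (midDeg q) R
      (fun g => IsCPow n (normAlong (heckeAlphaBar Qb (M₀ * q) q) g)) :=
  cocAsm_F1_of_layer hq A N hsrc htgt hn (midDeg q)
    (cocAsm_layer1_modular hq A hA N hsrc htgt HP n hres he hdeg hI hZ hm1 hm2 hcover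
      red_oo red_mid red_zero red_hor) hsat

end F1Mod

end Fermat.Agent.S36G
end
end MergeWrap_S36_G_CocAsm

section MergeWrap_S36_G_CocAsmYmod -- from S36/G/CocAsmYmod.lean

set_option autoImplicit false
set_option linter.unusedSectionVars false
set_option linter.unusedVariables false
set_option linter.style.haveILetI false
set_option synthInstance.maxHeartbeats 400000
set_option maxHeartbeats 1000000

noncomputable section

open IntermediateField AlgebraicCurve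

namespace Fermat.Agent.S36G

open ModularCurve Fermat.Agent.F3 Fermat.Agent.F3G Fermat.Agent.GaussInt
  Fermat.Agent.AtkinLehner Fermat.Agent.Kronecker Fermat.Agent.BadRed Fermat.Agent.BadRedG
  Fermat.Agent.BadRed.Gluing Fermat.Agent.RR Fermat.Agent.S36 Fermat.Agent.HP
  Fermat.Agent.Deuring

local notation "Qb" => AlgebraicClosure ℚ

section Ymod

variable (N₁ q : ℕ) [NeZero N₁] [NeZero q]

variable {k : Type} [Field k] [IsAlgClosed k] {Mid SS : Type} [Fintype Mid] [Fintype SS]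
  [Nonempty SS]
  {Fk0 : Type} [Field Fk0] [Algebra k Fk0]
  {FkM : Mid → Type} [∀ m, Field (FkM m)] [∀ m, Algebra k (FkM m)]
  {FkP : SS → Type} [∀ P, Field (FkP P)] [∀ P, Algebra k (FkP P)]
  [∀ m, Algebra (FkOf Fk0 FkM FkP (Vtx.vert Vrt.oo)) (FkOf Fk0 FkM FkP (Vtx.vert (Vrt.mid m)))]
  [∀ m, IsScalarTower k (FkOf Fk0 FkM FkP (Vtx.vert Vrt.oo))
    (FkOf Fk0 FkM FkP (Vtx.vert (Vrt.mid m)))]
  [∀ m, FiniteDimensional (FkOf Fk0 FkM FkP (Vtx.vert Vrt.oo))
    (FkOf Fk0 FkM FkP (Vtx.vert (Vrt.mid m)))]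
  {E : ModEndsInput Qb (FBar (N₁ * q)) k Mid SS Fk0 FkM FkP}
  {H : ∀ P : SS, HPCurve k (FkOf Fk0 FkM FkP (Vtx.hor P)) q}
  {b : Qb} {n : ℕ}
  (hn : 2 ≤ n) (hb : E.ϖ1 ^ n = b) (h12 : E.ϖ1 * E.ϖ2 = b)
  (hu2 : E.u2 = E.u1 / algebraMap Qb (FBar (N₁ * q)) E.ϖ1)
  (hD₀ : E.D₀ = poleDiv (E.S (Vtx.vert Vrt.oo)).hF (E.ymodX b n))
  (hdeg : Divisor.degree (poleDiv (E.S (Vtx.vert Vrt.oo)).hF (E.ymodX b n)) ≤
    ∑ c, Divisor.degree (poleDiv (E.S c).hFk ((E.S c).red (E.ymodX b n))))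
  (hgenus : genusFF Qb (FBar (N₁ * q)) + Fintype.card (Vtx Mid SS) ≤
    (∑ c, genusFF k (FkOf Fk0 FkM FkP c)) + Fintype.card (Nod Mid SS) + 1)
  (hxA : EndsRedA E.S H (algebraMap Qb (FBar (N₁ * q)) E.ϖA / E.uA))
  (hx2 : EndsRed2 E.S H E.u2)
  (hqp : q.Prime) [CharP k q]

include hxA hx2 hqp in
/-- **the norm layer for `π₁` of the modular seed** (`L1` of `cboNorm_of_layers`), from
(VERT) + (RES); (DIV) is plugged. -/
def cocAsm_ymod_layer1 (n' : ℕ)
    (hres : ∀ P m,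
      (nlSrc (E.ymodSeed hn hb h12 hu2 hD₀ hdeg hgenus).graphSetup
        (edy_hsrc hn hb h12 hu2 hD₀ hdeg hgenus) P (Vrt.mid m)).restrict
          (FkOf Fk0 FkM FkP (Vtx.vert Vrt.oo)) =
        nlSrc (E.ymodSeed hn hb h12 hu2 hD₀ hdeg hgenus).graphSetup
          (edy_hsrc hn hb h12 hu2 hD₀ hdeg hgenus) P Vrt.oo)
    (he : ∀ P m,
      (nlSrc (E.ymodSeed hn hb h12 hu2 hD₀ hdeg hgenus).graphSetup
        (edy_hsrc hn hb h12 hu2 hD₀ hdeg hgenus) P (Vrt.mid m)).ramificationIndex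
          (FkOf Fk0 FkM FkP (Vtx.vert Vrt.oo)) = midDeg q)
    (hdegV : ∀ m, Module.finrank (FkOf Fk0 FkM FkP (Vtx.vert Vrt.oo))
      (FkOf Fk0 FkM FkP (Vtx.vert (Vrt.mid m))) = midDeg q)
    (red_oo : ∀ g : FBar (N₁ * q),
      (∀ c, g ∈ ((E.ymodSeed hn hb h12 hu2 hD₀ hdeg hgenus).graphSetup.S c).Ov) →
      (∀ c, ((E.ymodSeed hn hb h12 hu2 hD₀ hdeg hgenus).graphSetup.S c).red g ≠ 0) →
      ((E.ymodSeed hn hb h12 hu2 hD₀ hdeg hgenus).graphSetup.S (Vtx.vert Vrt.oo)).red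
          (nm1 N₁ q g) =
        ((E.ymodSeed hn hb h12 hu2 hD₀ hdeg hgenus).graphSetup.S (Vtx.vert Vrt.oo)).red g *
          ∏ m, Algebra.norm (FkOf Fk0 FkM FkP (Vtx.vert Vrt.oo))
            (((E.ymodSeed hn hb h12 hu2 hD₀ hdeg hgenus).graphSetup.S
              (Vtx.vert (Vrt.mid m))).red g))
    (red_mid : ∀ g : FBar (N₁ * q),
      (∀ c, g ∈ ((E.ymodSeed hn hb h12 hu2 hD₀ hdeg hgenus).graphSetup.S c).Ov) →
      (∀ c, ((E.ymodSeed hn hb h12 hu2 hD₀ hdeg hgenus).graphSetup.S c).red g ≠ 0) → ∀ m,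
      ((E.ymodSeed hn hb h12 hu2 hD₀ hdeg hgenus).graphSetup.S (Vtx.vert (Vrt.mid m))).red
          (nm1 N₁ q g) =
        algebraMap (FkOf Fk0 FkM FkP (Vtx.vert Vrt.oo))
          (FkOf Fk0 FkM FkP (Vtx.vert (Vrt.mid m)))
          (((E.ymodSeed hn hb h12 hu2 hD₀ hdeg hgenus).graphSetup.S (Vtx.vert Vrt.oo)).red
            (nm1 N₁ q g)))
    (red_zero : ∀ g : FBar (N₁ * q),
      (∀ c, g ∈ ((E.ymodSeed hn hb h12 hu2 hD₀ hdeg hgenus).graphSetup.S c).Ov) →
      (∀ c, ((E.ymodSeed hn hb h12 hu2 hD₀ hdeg hgenus).graphSetup.S c).red g ≠ 0) →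
      ((E.ymodSeed hn hb h12 hu2 hD₀ hdeg hgenus).graphSetup.S (Vtx.vert Vrt.zero)).red
          (nm1 N₁ q g) =
        ((E.ymodSeed hn hb h12 hu2 hD₀ hdeg hgenus).graphSetup.S (Vtx.vert Vrt.zero)).red g ^ q)
    (red_hor : ∀ g : FBar (N₁ * q),
      (∀ c, g ∈ ((E.ymodSeed hn hb h12 hu2 hD₀ hdeg hgenus).graphSetup.S c).Ov) →
      (∀ c, ((E.ymodSeed hn hb h12 hu2 hD₀ hdeg hgenus).graphSetup.S c).red g ≠ 0) → ∀ P,
      ((E.ymodSeed hn hb h12 hu2 hD₀ hdeg hgenus).graphSetup.S (Vtx.hor P)).red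
          (nm1 N₁ q g) =
        algebraMap k⟮(H P).X1⟯ (FkOf Fk0 FkM FkP (Vtx.hor P))
          (Algebra.norm k⟮(H P).X1⟯
            (((E.ymodSeed hn hb h12 hu2 hD₀ hdeg hgenus).graphSetup.S (Vtx.hor P)).red g))) :
    NormLayer1 (E.ymodSeed hn hb h12 hu2 hD₀ hdeg hgenus).graphSetup n' q (midDeg q)
      (nm1 N₁ q) :=
  cocAsm_layer1 (E.ymodSeed hn hb h12 hu2 hD₀ hdeg hgenus).graphSetup
    (edy_hsrc hn hb h12 hu2 hD₀ hdeg hgenus) (edy_htgt hn hb h12 hu2 hD₀ hdeg hgenus)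
    (ends_hq1 hqp) H n' (midDeg q) (nm1 N₁ q) hres he hdegV
    (edy_hI hn hb h12 hu2 hD₀ hdeg hgenus hxA)
    (edy_hZ hn hb h12 hu2 hD₀ hdeg hgenus hx2)
    (edy_hm1 hn hb h12 hu2 hD₀ hdeg hgenus hxA hx2 hqp)
    (ends_midDeg_pos hqp)
    (edy_hm2 hn hb h12 hu2 hD₀ hdeg hgenus hxA hx2)
    (edy_hcover hn hb h12 hu2 hD₀ hdeg hgenus hxA hx2)
    red_oo red_mid red_zero red_hor

include hxA hx2 hqp in
/-- **the field `layer1` of `CboNorm`** for the modular seed. -/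
theorem cocAsm_ymod_layer (n' : ℕ)
    (hres : ∀ P m,
      (nlSrc (E.ymodSeed hn hb h12 hu2 hD₀ hdeg hgenus).graphSetup
        (edy_hsrc hn hb h12 hu2 hD₀ hdeg hgenus) P (Vrt.mid m)).restrict
          (FkOf Fk0 FkM FkP (Vtx.vert Vrt.oo)) =
        nlSrc (E.ymodSeed hn hb h12 hu2 hD₀ hdeg hgenus).graphSetup
          (edy_hsrc hn hb h12 hu2 hD₀ hdeg hgenus) P Vrt.oo)
    (he : ∀ P m,
      (nlSrc (E.ymodSeed hn hb h12 hu2 hD₀ hdeg hgenus).graphSetup
        (edy_hsrc hn hb h12 hu2 hD₀ hdeg hgenus) P (Vrt.mid m)).ramificationIndex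
          (FkOf Fk0 FkM FkP (Vtx.vert Vrt.oo)) = midDeg q)
    (hdegV : ∀ m, Module.finrank (FkOf Fk0 FkM FkP (Vtx.vert Vrt.oo))
      (FkOf Fk0 FkM FkP (Vtx.vert (Vrt.mid m))) = midDeg q)
    (red_oo : ∀ g : FBar (N₁ * q),
      (∀ c, g ∈ ((E.ymodSeed hn hb h12 hu2 hD₀ hdeg hgenus).graphSetup.S c).Ov) →
      (∀ c, ((E.ymodSeed hn hb h12 hu2 hD₀ hdeg hgenus).graphSetup.S c).red g ≠ 0) →
      ((E.ymodSeed hn hb h12 hu2 hD₀ hdeg hgenus).graphSetup.S (Vtx.vert Vrt.oo)).red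
          (nm1 N₁ q g) =
        ((E.ymodSeed hn hb h12 hu2 hD₀ hdeg hgenus).graphSetup.S (Vtx.vert Vrt.oo)).red g *
          ∏ m, Algebra.norm (FkOf Fk0 FkM FkP (Vtx.vert Vrt.oo))
            (((E.ymodSeed hn hb h12 hu2 hD₀ hdeg hgenus).graphSetup.S
              (Vtx.vert (Vrt.mid m))).red g))
    (red_mid : ∀ g : FBar (N₁ * q),
      (∀ c, g ∈ ((E.ymodSeed hn hb h12 hu2 hD₀ hdeg hgenus).graphSetup.S c).Ov) →
      (∀ c, ((E.ymodSeed hn hb h12 hu2 hD₀ hdeg hgenus).graphSetup.S c).red g ≠ 0) → ∀ m,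
      ((E.ymodSeed hn hb h12 hu2 hD₀ hdeg hgenus).graphSetup.S (Vtx.vert (Vrt.mid m))).red
          (nm1 N₁ q g) =
        algebraMap (FkOf Fk0 FkM FkP (Vtx.vert Vrt.oo))
          (FkOf Fk0 FkM FkP (Vtx.vert (Vrt.mid m)))
          (((E.ymodSeed hn hb h12 hu2 hD₀ hdeg hgenus).graphSetup.S (Vtx.vert Vrt.oo)).red
            (nm1 N₁ q g)))
    (red_zero : ∀ g : FBar (N₁ * q),
      (∀ c, g ∈ ((E.ymodSeed hn hb h12 hu2 hD₀ hdeg hgenus).graphSetup.S c).Ov) →
      (∀ c, ((E.ymodSeed hn hb h12 hu2 hD₀ hdeg hgenus).graphSetup.S c).red g ≠ 0) →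
      ((E.ymodSeed hn hb h12 hu2 hD₀ hdeg hgenus).graphSetup.S (Vtx.vert Vrt.zero)).red
          (nm1 N₁ q g) =
        ((E.ymodSeed hn hb h12 hu2 hD₀ hdeg hgenus).graphSetup.S (Vtx.vert Vrt.zero)).red g ^ q)
    (red_hor : ∀ g : FBar (N₁ * q),
      (∀ c, g ∈ ((E.ymodSeed hn hb h12 hu2 hD₀ hdeg hgenus).graphSetup.S c).Ov) →
      (∀ c, ((E.ymodSeed hn hb h12 hu2 hD₀ hdeg hgenus).graphSetup.S c).red g ≠ 0) → ∀ P,
      ((E.ymodSeed hn hb h12 hu2 hD₀ hdeg hgenus).graphSetup.S (Vtx.hor P)).red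
          (nm1 N₁ q g) =
        algebraMap k⟮(H P).X1⟯ (FkOf Fk0 FkM FkP (Vtx.hor P))
          (Algebra.norm k⟮(H P).X1⟯
            (((E.ymodSeed hn hb h12 hu2 hD₀ hdeg hgenus).graphSetup.S (Vtx.hor P)).red g))) :
    Nonempty (NormLayer1 (E.ymodSeed hn hb h12 hu2 hD₀ hdeg hgenus).graphSetup n' q (midDeg q)
      (nm1 N₁ q)) :=
  ⟨cocAsm_ymod_layer1 N₁ q hn hb h12 hu2 hD₀ hdeg hgenus hxA hx2 hqp n' hres he hdegV
    red_oo red_mid red_zero red_hor⟩

end Ymod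

end Fermat.Agent.S36G
end
end MergeWrap_S36_G_CocAsmYmod

section MergeWrap_S36_Norm_VertSeen -- from S36/Norm/VertSeen.lean

set_option autoImplicit false
set_option linter.style.haveILetI false
set_option linter.unusedSectionVars false
set_option linter.unusedVariables false
set_option synthInstance.maxHeartbeats 400000

noncomputable section

namespace Fermat.Agent.S36N

open ModularCurve AlgebraicCurve Fermat.Agent.F3 Fermat.Agent.F3G Fermat.Agent.GaussInt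
  Fermat.Agent.AtkinLehner Fermat.Agent.Kronecker Fermat.Agent.BadRed Fermat.Agent.HeckeComm
  Fermat.Agent.S36G Fermat.Agent.Deuring

local notation "Qb" => AlgebraicClosure ℚ

attribute [local instance 10000] SubalgebraClass.toAlgebra HahnSeries.powerSeriesAlgebra

/-- shortcut (the instance found by unification is the same term, after a slow search). -/
local instance (priority := 10000) vertSeenAlgFullC (A : ValuationSubring Qb) (N : ℕ) :
    Algebra (IsLocalRing.ResidueField A)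
      (modularFunctionFieldFullC (IsLocalRing.ResidueField A) N) :=
  SubalgebraClass.toAlgebra (modularFunctionFieldFullC (IsLocalRing.ResidueField A) N)

/-- shortcut. -/
local instance (priority := 10000) vertSeenAlgIg (A : ValuationSubring Qb) (N : ℕ) :
    Algebra (IsLocalRing.ResidueField A) (igField (IsLocalRing.ResidueField A) N) :=
  SubalgebraClass.toAlgebra (igField (IsLocalRing.ResidueField A) N)

section Seen

variable {M₀ q : ℕ} [NeZero M₀] [NeZero q] {A : ValuationSubring Qb}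
  (hq : q.Prime) (hA : A.LiesOverPrime q) (ζ : Qbˣ) (hζ : IsPrimitiveRoot ζ q)
  (ε : Fin (q - 1) → (FBar (M₀ * q * q) →ₐ[Qb] LaurentSeries Qb))
  (hε : ∀ b : Fin (q - 1), IsMidExp M₀ q (ζ ^ ((b : ℕ) + 1)) (ε b))
  (Soo : ValSetup Qb (FBar (M₀ * q * q)) (IsLocalRing.ResidueField A)
    (modularFunctionFieldFullC (IsLocalRing.ResidueField A) M₀))
  (hSoo : IsGaussSetup (M₀ * q * q) M₀ A Soo)
  (Sm : Fin (q - 1) → ValSetup Qb (FBar (M₀ * q * q)) (IsLocalRing.ResidueField A)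
    (igField (IsLocalRing.ResidueField A) M₀))
  (hSm : ∀ b, IsMidSetup M₀ q A (ε b) (Sm b))
  (S₁ : ValSetup Qb (FBar (M₀ * q)) (IsLocalRing.ResidueField A)
    (modularFunctionFieldFullC (IsLocalRing.ResidueField A) M₀))
  (hS₁ : IsGaussSetup (M₀ * q) M₀ A S₁)
  (D : ALData) (hM : M₀ * q * q = D.Q * D.R) (hQ : D.Q = q ^ 2)

/-! ### the residues of `α x` -/

include hSoo hS₁ in
/-- **`v_∞ ∘ α`**: `Soo.red (α x) = S₁.red x` for `x ∈ O_{S₁}`. -/
theorem seen_alpha_inf {x : FBar (M₀ * q)} (hx : x ∈ S₁.Ov) :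
    heckeAlphaBar Qb (M₀ * q) q x ∈ Soo.Ov ∧
      Soo.red (heckeAlphaBar Qb (M₀ * q) q x) = S₁.red x :=
  ⟨alpha_mem_Ov A S₁ Soo hS₁ hSoo hx, Subtype.ext (coe_red_alpha A S₁ Soo hS₁ hSoo hx)⟩

include hq hA hS₁ in
/-- **`v_m ∘ α`**: `(Sm b).red (α x) = ι (S₁.red x)` for `x ∈ O_{S₁}`, for a middle constant
reduction attached to a middle expansion `ε`. -/
theorem seen_alpha_mid_one {z : Qbˣ} {ε₀ : FBar (M₀ * q * q) →ₐ[Qb] LaurentSeries Qb}
    (hε₀ : IsMidExp M₀ q z ε₀)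
    {S : ValSetup Qb (FBar (M₀ * q * q)) (IsLocalRing.ResidueField A)
      (igField (IsLocalRing.ResidueField A) M₀)} (hS : IsMidSetup M₀ q A ε₀ S)
    {x : FBar (M₀ * q)} (hx : x ∈ S₁.Ov) :
    heckeAlphaBar Qb (M₀ * q) q x ∈ S.Ov ∧
      S.red (heckeAlphaBar Qb (M₀ * q) q x) =
        IntermediateField.inclusion (fullC_le_igField (IsLocalRing.ResidueField A) M₀)
          (S₁.red x) := by
  have h1 : (x : LaurentSeries Qb) ∈ gaussSub A (modularFunctionFieldBar (M₀ * q)) :=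
    (hS₁.mem_iff x).mp hx
  have h2 : x ∈ gaussOv (M₀ * q) hq A hA := (mem_gaussValSub_iff _ x).mpr h1
  have h3 : heckeAlphaBar Qb (M₀ * q) q x ∈ S.Ov :=
    (hS.mem_iff _).mpr ((ig_alpha_mem_expOv_iff M₀ q hq A hA hε₀ x).mpr h2)
  refine ⟨h3, Subtype.ext ?_⟩
  rw [hS.coe_red _ h3, ig_expRes_alpha M₀ q hq A hA hε₀ h2, IntermediateField.coe_inclusion,
    hS₁.coe_red x hx]

include hq hA hε hSm hS₁ in
/-- **`v_m ∘ α`** for the family. -/
theorem seen_alpha_mid (b : Fin (q - 1)) {x : FBar (M₀ * q)} (hx : x ∈ S₁.Ov) :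
    heckeAlphaBar Qb (M₀ * q) q x ∈ (Sm b).Ov ∧
      (Sm b).red (heckeAlphaBar Qb (M₀ * q) q x) =
        IntermediateField.inclusion (fullC_le_igField (IsLocalRing.ResidueField A) M₀)
          (S₁.red x) :=
  seen_alpha_mid_one hq hA S₁ hS₁ (hε b) (hSm b) hx

/-! ### (N2), unscaled -/

set_option maxHeartbeats 1000000 in
include hq hA hζ hε hSoo hSm hS₁ in
/-- **(N2), `ValSetup` form, unscaled**:
`ι (S₁.red (Norm_α g)) = ι (Soo.red g) * ∏ b, (Sm b).red g` for `g` integral at `v_∞` and at all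
the middle valuations. -/
theorem seen_norm_alpha {g : FBar (M₀ * q * q)} (hg : g ∈ Soo.Ov) (hgm : ∀ b, g ∈ (Sm b).Ov) :
    normAlong (heckeAlphaBar Qb (M₀ * q) q) g ∈ S₁.Ov ∧
      IntermediateField.inclusion (fullC_le_igField (IsLocalRing.ResidueField A) M₀)
          (S₁.red (normAlong (heckeAlphaBar Qb (M₀ * q) q) g)) =
        IntermediateField.inclusion (fullC_le_igField (IsLocalRing.ResidueField A) M₀)
            (Soo.red g) * ∏ b, (Sm b).red g := by
  classical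
  have hg_g : (g : LaurentSeries Qb) ∈ gaussSub A (modularFunctionFieldBar (M₀ * q * q)) :=
    (hSoo.mem_iff _).mp hg
  have hg_top : (g : LaurentSeries Qb) ∈
      gaussSub A (⊤ : IntermediateField Qb (LaurentSeries Qb)) := gaussSub_mono le_top hg_g
  have hg_exp : ∀ b, g ∈ expOv (ε b) A := fun b => ((hSm b).mem_iff _).mp (hgm b)
  obtain ⟨hx_top, hx_res⟩ := gaussRes_norm_alpha_mid (A := A) hq ζ hζ ε hε hg_top hg_exp
  obtain ⟨hx_mem, hx_red⟩ := mem_S₁_of_top hq hA S₁ hS₁ hx_top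
  refine ⟨hx_mem, Subtype.ext ?_⟩
  rw [IntermediateField.coe_inclusion, hx_red, hx_res, MulMemClass.coe_mul,
    IntermediateField.coe_inclusion, hSoo.coe_red _ hg, gaussResFun_mono le_top hg_g,
    IntermediateField.coe_prod]
  congr 1
  refine Finset.prod_congr rfl fun b _ => ?_
  rw [(hSm b).coe_red _ (hgm b)]

/-! ### `Nm₁ = α ∘ Norm_α` -/

include hq hA hζ hε hSoo hSm hS₁ in
/-- **(1∞)** `ι (Soo.red (Nm₁ g)) = ι (Soo.red g) * ∏ b, (Sm b).red g`. -/
theorem seen_nm1_inf {g : FBar (M₀ * q * q)} (hg : g ∈ Soo.Ov) (hgm : ∀ b, g ∈ (Sm b).Ov) :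
    heckeAlphaBar Qb (M₀ * q) q (normAlong (heckeAlphaBar Qb (M₀ * q) q) g) ∈ Soo.Ov ∧
      IntermediateField.inclusion (fullC_le_igField (IsLocalRing.ResidueField A) M₀)
          (Soo.red (heckeAlphaBar Qb (M₀ * q) q (normAlong (heckeAlphaBar Qb (M₀ * q) q) g))) =
        IntermediateField.inclusion (fullC_le_igField (IsLocalRing.ResidueField A) M₀)
            (Soo.red g) * ∏ b, (Sm b).red g := by
  obtain ⟨h1, h2⟩ := seen_norm_alpha hq hA ζ hζ ε hε Soo hSoo Sm hSm S₁ hS₁ hg hgm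
  obtain ⟨h3, h4⟩ := seen_alpha_inf Soo hSoo S₁ hS₁ h1
  exact ⟨h3, by rw [h4, h2]⟩

include hq hA hζ hε hSoo hSm hS₁ in
/-- **(1m)** `(Sm b).red (Nm₁ g) = ι (Soo.red (Nm₁ g))`. -/
theorem seen_nm1_mid {g : FBar (M₀ * q * q)} (hg : g ∈ Soo.Ov) (hgm : ∀ b, g ∈ (Sm b).Ov)
    (b : Fin (q - 1)) :
    heckeAlphaBar Qb (M₀ * q) q (normAlong (heckeAlphaBar Qb (M₀ * q) q) g) ∈ (Sm b).Ov ∧
      (Sm b).red (heckeAlphaBar Qb (M₀ * q) q (normAlong (heckeAlphaBar Qb (M₀ * q) q) g)) =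
        IntermediateField.inclusion (fullC_le_igField (IsLocalRing.ResidueField A) M₀)
          (Soo.red (heckeAlphaBar Qb (M₀ * q) q
            (normAlong (heckeAlphaBar Qb (M₀ * q) q) g))) := by
  obtain ⟨h1, -⟩ := seen_norm_alpha hq hA ζ hζ ε hε Soo hSoo Sm hSm S₁ hS₁ hg hgm
  obtain ⟨-, h4⟩ := seen_alpha_inf Soo hSoo S₁ hS₁ h1
  obtain ⟨h5, h6⟩ := seen_alpha_mid hq hA ζ ε hε Sm hSm S₁ hS₁ b h1
  exact ⟨h5, by rw [h6, h4]⟩

/-- **(1m), product form**: `(Sm b).red (Nm₁ g) = ι (Soo.red g) * ∏ b, (Sm b).red g`. -/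
theorem seen_nm1_mid_prod (hq : q.Prime) (hA : A.LiesOverPrime q) (ζ : Qbˣ)
    (hζ : IsPrimitiveRoot ζ q)
    (ε : Fin (q - 1) → (FBar (M₀ * q * q) →ₐ[Qb] LaurentSeries Qb))
    (hε : ∀ b : Fin (q - 1), IsMidExp M₀ q (ζ ^ ((b : ℕ) + 1)) (ε b))
    (Soo : ValSetup Qb (FBar (M₀ * q * q)) (IsLocalRing.ResidueField A)
      (modularFunctionFieldFullC (IsLocalRing.ResidueField A) M₀))
    (hSoo : IsGaussSetup (M₀ * q * q) M₀ A Soo)
    (Sm : Fin (q - 1) → ValSetup Qb (FBar (M₀ * q * q)) (IsLocalRing.ResidueField A)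
      (igField (IsLocalRing.ResidueField A) M₀))
    (hSm : ∀ b, IsMidSetup M₀ q A (ε b) (Sm b))
    (S₁ : ValSetup Qb (FBar (M₀ * q)) (IsLocalRing.ResidueField A)
      (modularFunctionFieldFullC (IsLocalRing.ResidueField A) M₀))
    (hS₁ : IsGaussSetup (M₀ * q) M₀ A S₁)
    {g : FBar (M₀ * q * q)} (hg : g ∈ Soo.Ov) (hgm : ∀ b, g ∈ (Sm b).Ov) (b : Fin (q - 1)) :
    (Sm b).red (heckeAlphaBar Qb (M₀ * q) q (normAlong (heckeAlphaBar Qb (M₀ * q) q) g)) =
      IntermediateField.inclusion (fullC_le_igField (IsLocalRing.ResidueField A) M₀)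
          (Soo.red g) * ∏ b, (Sm b).red g := by
  rw [(seen_nm1_mid hq hA ζ hζ ε hε Soo hSoo Sm hSm S₁ hS₁ hg hgm b).2,
    (seen_nm1_inf hq hA ζ hζ ε hε Soo hSoo Sm hSm S₁ hS₁ hg hgm).2]

/-! ### `Nm₂ = W ∘ α ∘ Norm_α ∘ W` -/

include hq hA hζ hε hSoo hSm hS₁ hQ in
/-- **(20)** `ι (v_0.red (Nm₂ g)) = ι (v_0.red g) * ∏ b, (Sm b).red g`. -/
theorem seen_nm2_zero {g : FBar (M₀ * q * q)} (hg : g ∈ (valSetupZeroAt D hM Soo).Ov)
    (hgm : ∀ b, g ∈ (Sm b).Ov) :
    wAt D hM (heckeAlphaBar Qb (M₀ * q) q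
        (normAlong (heckeAlphaBar Qb (M₀ * q) q) (wAt D hM g))) ∈
        (valSetupZeroAt D hM Soo).Ov ∧
      IntermediateField.inclusion (fullC_le_igField (IsLocalRing.ResidueField A) M₀)
          ((valSetupZeroAt D hM Soo).red (wAt D hM (heckeAlphaBar Qb (M₀ * q) q
            (normAlong (heckeAlphaBar Qb (M₀ * q) q) (wAt D hM g))))) =
        IntermediateField.inclusion (fullC_le_igField (IsLocalRing.ResidueField A) M₀)
            ((valSetupZeroAt D hM Soo).red g) * ∏ b, (Sm b).red g := by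
  have hg' : wAt D hM g ∈ Soo.Ov := (mem_valSetupZeroAt_Ov D hM Soo g).mp hg
  have hgm' : ∀ b, wAt D hM g ∈ (Sm b).Ov := fun b =>
    (mid_wAt_mem_rev hq A hA D hM hQ ζ hζ.pow_eq_one ε hε Sm hSm g b).mpr (hgm (Fin.rev b))
  obtain ⟨h1, h2⟩ := seen_nm1_inf hq hA ζ hζ ε hε Soo hSoo Sm hSm S₁ hS₁ hg' hgm'
  rw [mem_valSetupZeroAt_Ov_wAt, valSetupZeroAt_red_wAt, valSetupZeroAt_red]
  refine ⟨h1, ?_⟩
  rw [h2, mid_prod_red_wAt hq A hA D hM hQ ζ hζ.pow_eq_one ε hε Sm hSm g]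

include hq hA hζ hε hSoo hSm hS₁ hQ in
/-- **(2m)** `(Sm b).red (Nm₂ g) = ι (v_0.red (Nm₂ g))`. -/
theorem seen_nm2_mid {g : FBar (M₀ * q * q)} (hg : g ∈ (valSetupZeroAt D hM Soo).Ov)
    (hgm : ∀ b, g ∈ (Sm b).Ov) (b : Fin (q - 1)) :
    wAt D hM (heckeAlphaBar Qb (M₀ * q) q
        (normAlong (heckeAlphaBar Qb (M₀ * q) q) (wAt D hM g))) ∈ (Sm b).Ov ∧
      (Sm b).red (wAt D hM (heckeAlphaBar Qb (M₀ * q) q
          (normAlong (heckeAlphaBar Qb (M₀ * q) q) (wAt D hM g)))) =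
        IntermediateField.inclusion (fullC_le_igField (IsLocalRing.ResidueField A) M₀)
          ((valSetupZeroAt D hM Soo).red (wAt D hM (heckeAlphaBar Qb (M₀ * q) q
            (normAlong (heckeAlphaBar Qb (M₀ * q) q) (wAt D hM g))))) := by
  have hg' : wAt D hM g ∈ Soo.Ov := (mem_valSetupZeroAt_Ov D hM Soo g).mp hg
  have hgm' : ∀ b, wAt D hM g ∈ (Sm b).Ov := fun b =>
    (mid_wAt_mem_rev hq A hA D hM hQ ζ hζ.pow_eq_one ε hε Sm hSm g b).mpr (hgm (Fin.rev b))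
  obtain ⟨h1, h2⟩ := seen_nm1_mid hq hA ζ hζ ε hε Soo hSoo Sm hSm S₁ hS₁ hg' hgm' (Fin.rev b)
  rw [mid_wAt_mem_rev hq A hA D hM hQ ζ hζ.pow_eq_one ε hε Sm hSm _ b,
    mid_red_wAt_rev hq A hA D hM hQ ζ hζ.pow_eq_one ε hε Sm hSm _ b, valSetupZeroAt_red_wAt]
  exact ⟨h1, h2⟩

include hq hA hζ hε hSoo hSm hS₁ hQ in
/-- **(2m), product form**: `(Sm b).red (Nm₂ g) = ι (v_0.red g) * ∏ b, (Sm b).red g`. -/
theorem seen_nm2_mid_prod {g : FBar (M₀ * q * q)} (hg : g ∈ (valSetupZeroAt D hM Soo).Ov)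
    (hgm : ∀ b, g ∈ (Sm b).Ov) (b : Fin (q - 1)) :
    (Sm b).red (wAt D hM (heckeAlphaBar Qb (M₀ * q) q
        (normAlong (heckeAlphaBar Qb (M₀ * q) q) (wAt D hM g)))) =
      IntermediateField.inclusion (fullC_le_igField (IsLocalRing.ResidueField A) M₀)
          ((valSetupZeroAt D hM Soo).red g) * ∏ b, (Sm b).red g := by
  rw [(seen_nm2_mid hq hA ζ hζ ε hε Soo hSoo Sm hSm S₁ hS₁ D hM hQ hg hgm b).2,
    (seen_nm2_zero hq hA ζ hζ ε hε Soo hSoo Sm hSm S₁ hS₁ D hM hQ hg hgm).2]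

end Seen

end Fermat.Agent.S36N
end
end MergeWrap_S36_Norm_VertSeen

section MergeWrap_S36_G_NrOO -- from S36/G/NrOO.lean

set_option autoImplicit false
set_option linter.unusedSectionVars false
set_option linter.style.haveILetI false
set_option linter.unusedVariables false

/-!
# Cluster G (S36), seat NR-OO: the fields `red_oo` of `NormLayer1`, `red_zero` of `NormLayer2`
in NORM form  (helper94)

`q` prime, `q ∤ M₀`, `A ∣ q`, `k` the residue field of `A`, `F = F_{M₀ q q}`, `F₁ = F_{M₀ q}`,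
`α = heckeAlphaBar` (`π₁^*`), `W = wAt D hM` (`w_{q²}`).  `Soo` a Gauss setup of `F`,
`S0 = valSetupZeroAt D hM Soo`, `Sm m` (`m : Mid`, `|Mid| = midCard q`) pairwise different
constant reductions of middle expansions (`IsMidSetup M₀ q A (ε m) (Sm m)`).

* `nrooNm k M₀`     : `nm`, the norm `igField k M₀ →* F_k(M₀)` (algebra structure = inclusion);
* `nroo_satExt`     : `v_∞, (v_m)_m` is a SATURATED system of extensions of the Gauss valuation of
                      `F₁` along `α` (helper90's `SatExt`, index `Option Mid`);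
* `nroo_norm_alpha` : `S₁.red (Norm_α g) = Soo.red g * ∏ m, nm ((Sm m).red g)`;
* `nroo_red_oo`     : `Soo.red (nm1 g) = Soo.red g * ∏ m, nm ((Sm m).red g)`  (`NormLayer1.red_oo`);
* `nroo_red_zero`   : `S0.red (nm2 g) = S0.red g * ∏ m, nm ((Sm m).red g)`   (`NormLayer2.red_zero`);
* `nrooNm_ne_zero`  : `nm_ne_zero`;
* `nroo_finrank`    : `igField k M₀` is finite of degree `midDeg q` over `F_k(M₀)` (for `nrooAlg`);
* `nroo_isScalarTower`, `nroo_algebraMap` : the tower `k → F_k(M₀) → igField k M₀`.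

Only INTEGRALITY of `g` is needed.  Input: `IgPowIndepRes M₀ q` (from `IgDegreeRes`).
-/

noncomputable section

namespace Fermat.Agent.S36G

open ModularCurve AlgebraicCurve Fermat.Agent.F3 Fermat.Agent.F3G Fermat.Agent.GaussInt
  Fermat.Agent.AtkinLehner Fermat.Agent.Kronecker Fermat.Agent.BadRed Fermat.Agent.Deuring
  Fermat.Agent.S36N

local notation "Qb" => AlgebraicClosure ℚ

set_option synthInstance.maxHeartbeats 400000

/-- shortcut (the instance found by unification is the same term, after a slow search). -/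
local instance (priority := 10000) nrooAlgFullC (A : ValuationSubring Qb) (N : ℕ) :
    Algebra (IsLocalRing.ResidueField A)
      (modularFunctionFieldFullC (IsLocalRing.ResidueField A) N) :=
  SubalgebraClass.toAlgebra (modularFunctionFieldFullC (IsLocalRing.ResidueField A) N)

/-- shortcut. -/
local instance (priority := 10000) nrooAlgIg (A : ValuationSubring Qb) (N : ℕ) :
    Algebra (IsLocalRing.ResidueField A) (igField (IsLocalRing.ResidueField A) N) :=
  SubalgebraClass.toAlgebra (igField (IsLocalRing.ResidueField A) N)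

/-! ### the norm `nm` -/

/-- the algebra structure of `igField k M₀` over `F_k(M₀)` given by the inclusion. -/
@[reducible] def nrooAlg (k : Type*) [Field k] (M₀ : ℕ) :
    Algebra ↥(modularFunctionFieldFullC k M₀) ↥(igField k M₀) :=
  (IntermediateField.inclusion (fullC_le_igField k M₀)).toRingHom.toAlgebra

/-- **`nm`**: the norm of the residue field `igField k M₀` of a middle valuation over the residue
field `F_k(M₀)` of `v_∞` (and of `v_0`). -/
def nrooNm (k : Type*) [Field k] (M₀ : ℕ) :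
    ↥(igField k M₀) →* ↥(modularFunctionFieldFullC k M₀) :=
  letI := nrooAlg k M₀
  Algebra.norm ↥(modularFunctionFieldFullC k M₀)

theorem nrooNm_apply (k : Type*) [Field k] (M₀ : ℕ) (x : ↥(igField k M₀)) :
    nrooNm k M₀ x =
      @Algebra.norm ↥(modularFunctionFieldFullC k M₀) ↥(igField k M₀) _ _ (nrooAlg k M₀) x :=
  rfl

/-- **`nm_ne_zero`**. -/
theorem nrooNm_ne_zero (k : Type*) [Field k] (M₀ : ℕ) (x : ↥(igField k M₀)) (hx : x ≠ 0) :
    nrooNm k M₀ x ≠ 0 := by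
  letI := nrooAlg k M₀
  show Algebra.norm ↥(modularFunctionFieldFullC k M₀) x ≠ 0
  by_cases hfin : Module.Finite ↥(modularFunctionFieldFullC k M₀) ↥(igField k M₀)
  · exact Algebra.norm_ne_zero_iff.mpr hx
  · rw [Algebra.norm_eq_one_of_not_module_finite hfin]
    exact one_ne_zero

/-! ### the system `v_∞, (v_m)_m` -/

/-- the residue fields of the system `v_∞, (v_m)_m`. -/
def NrooFk (k : Type) [Field k] (M₀ : ℕ) (Mid : Type) : Option Mid → Type
  | none => ↥(modularFunctionFieldFullC k M₀)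
  | some _ => ↥(igField k M₀)

/-- the residue fields are fields. -/
instance nrooFkField (k : Type) [Field k] (M₀ : ℕ) (Mid : Type) :
    (i : Option Mid) → Field (NrooFk k M₀ Mid i)
  | none => inferInstanceAs (Field ↥(modularFunctionFieldFullC k M₀))
  | some _ => inferInstanceAs (Field ↥(igField k M₀))

/-- the residue fields are algebras over `F_k(M₀)`. -/
instance nrooFkAlg (k : Type) [Field k] (M₀ : ℕ) (Mid : Type) :
    (i : Option Mid) → Algebra ↥(modularFunctionFieldFullC k M₀) (NrooFk k M₀ Mid i)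
  | none => Algebra.id ↥(modularFunctionFieldFullC k M₀)
  | some _ => nrooAlg k M₀

section System

variable {M₀ q : ℕ} [NeZero M₀] [NeZero q] {A : ValuationSubring Qb} {Mid : Type}

/-- the valuation rings of the system. -/
def nrooO
    (Soo : ValSetup Qb (FBar (M₀ * q * q)) (IsLocalRing.ResidueField A)
      (modularFunctionFieldFullC (IsLocalRing.ResidueField A) M₀))
    (Sm : Mid → ValSetup Qb (FBar (M₀ * q * q)) (IsLocalRing.ResidueField A)
      (igField (IsLocalRing.ResidueField A) M₀)) :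
    Option Mid → ValuationSubring (FBar (M₀ * q * q))
  | none => Soo.Ov
  | some m => (Sm m).Ov

/-- the residue maps of the system. -/
def nrooRho
    (Soo : ValSetup Qb (FBar (M₀ * q * q)) (IsLocalRing.ResidueField A)
      (modularFunctionFieldFullC (IsLocalRing.ResidueField A) M₀))
    (Sm : Mid → ValSetup Qb (FBar (M₀ * q * q)) (IsLocalRing.ResidueField A)
      (igField (IsLocalRing.ResidueField A) M₀)) :
    (i : Option Mid) → ↥(nrooO Soo Sm i) →+* NrooFk (IsLocalRing.ResidueField A) M₀ Mid i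
  | none => Soo.ρ
  | some m => (Sm m).ρ

/-- the residue degrees. -/
def nrooD (q : ℕ) (Mid : Type) : Option Mid → ℕ
  | none => 1
  | some _ => midDeg q

/-- the residually independent families. -/
def nrooX (M₀ q : ℕ) [NeZero M₀] [NeZero q] (z : Mid → Qbˣ) :
    (i : Option Mid) → Fin (nrooD q Mid i) → FBar (M₀ * q * q)
  | none => fun _ => 1
  | some m => fun l => distGen M₀ q ((z m : Qbˣ) : Qb) ^ (l : ℕ)

end System

/-! ### valuation rings -/

section Rings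

variable {M₀ q : ℕ} [NeZero M₀] [NeZero q] {A : ValuationSubring Qb}
  (hq : q.Prime) (hA : A.LiesOverPrime q)

include hq hA in
/-- the valuation ring of a Gauss setup is the Gauss valuation ring. -/
theorem nroo_Ov_eq_gaussOv {M N₀ : ℕ} [NeZero M] [NeZero N₀]
    (S : ValSetup Qb (FBar M) (IsLocalRing.ResidueField A)
      (modularFunctionFieldFullC (IsLocalRing.ResidueField A) N₀))
    (hS : IsGaussSetup M N₀ A S) : S.Ov = gaussOv M hq A hA := by
  apply SetLike.ext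
  intro f
  rw [hS.mem_iff]
  exact (mem_gaussValSub_iff _ f).symm

/-- the valuation ring of a middle setup is the valuation ring of the expansion. -/
theorem nroo_Ov_eq_expVal
    {ε : FBar (M₀ * q * q) →ₐ[Qb] LaurentSeries Qb}
    (S : ValSetup Qb (FBar (M₀ * q * q)) (IsLocalRing.ResidueField A)
      (igField (IsLocalRing.ResidueField A) M₀))
    (hS : IsMidSetup M₀ q A ε S)
    (hV : ∀ f : FBar (M₀ * q * q), f ∈ expOv ε A ∨ f⁻¹ ∈ expOv ε A) : S.Ov = expVal hV := by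
  apply SetLike.ext
  intro f
  rw [hS.mem_iff]
  exact (mem_expVal_iff hV f).symm

end Rings

/-! ### the saturated system -/

section Sat

variable {M₀ q : ℕ} [NeZero M₀] [NeZero q] {A : ValuationSubring Qb}
  (hq : q.Prime) (hqM : ¬ q ∣ M₀) (hA : A.LiesOverPrime q)
  {Mid : Type} [Fintype Mid]
  (z : Mid → Qbˣ) (hz : ∀ m, IsPrimitiveRoot (z m) q)
  (ε : Mid → (FBar (M₀ * q * q) →ₐ[Qb] LaurentSeries Qb))
  (hε : ∀ m, IsMidExp M₀ q (z m) (ε m))
  (Soo : ValSetup Qb (FBar (M₀ * q * q)) (IsLocalRing.ResidueField A)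
    (modularFunctionFieldFullC (IsLocalRing.ResidueField A) M₀))
  (hSoo : IsGaussSetup (M₀ * q * q) M₀ A Soo)
  (Sm : Mid → ValSetup Qb (FBar (M₀ * q * q)) (IsLocalRing.ResidueField A)
    (igField (IsLocalRing.ResidueField A) M₀))
  (hSm : ∀ m, IsMidSetup M₀ q A (ε m) (Sm m))
  (S₁ : ValSetup Qb (FBar (M₀ * q)) (IsLocalRing.ResidueField A)
    (modularFunctionFieldFullC (IsLocalRing.ResidueField A) M₀))
  (hS₁ : IsGaussSetup (M₀ * q) M₀ A S₁)

omit [NeZero M₀] [NeZero q] [Fintype Mid] in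
/-- `1 + |Mid| · midDeg q = q`. -/
theorem nroo_count [Fintype Mid] (hq : q.Prime) (hcard : Fintype.card Mid = midCard q) :
    1 + Fintype.card Mid * midDeg q = q := by
  rw [hcard]
  by_cases hq2 : q = 2
  · subst hq2
    simp [midCard, midDeg]
  · rw [dist_midDeg_eq_of_ne_two hq hq2]
    unfold midCard
    rw [if_neg hq2]
    rcases hq.eq_two_or_odd with h | h
    · exact absurd h hq2
    · omega

include hq hqM hA hz hε hSoo hSm hS₁ in
/-- **the saturated system** `v_∞, (v_m)_m` over the Gauss valuation of `F₁`. -/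
theorem nroo_satExt (hPow : IgPowIndepRes M₀ q) (hcard : Fintype.card Mid = midCard q)
    (hne : ∀ m m', m ≠ m' → ¬ (Sm m).Ov ≤ (Sm m').Ov) :
    @SatExt _ _ _ _ (algebraAlong (heckeAlphaBar Qb (M₀ * q) q)) (Option Mid) _
      S₁.Ov (nrooO Soo Sm) (nrooD q Mid) (nrooX M₀ q z) := by
  letI := algebraAlong (heckeAlphaBar Qb (M₀ * q) q)
  have hV := fun m => igValRing M₀ q hq hqM A hA (z m) (ε m) (hz m) (hε m)
  have e1 : S₁.Ov = gaussOv (M₀ * q) hq A hA := nroo_Ov_eq_gaussOv hq hA S₁ hS₁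
  have eoo : Soo.Ov = gaussOv (M₀ * q * q) hq A hA := nroo_Ov_eq_gaussOv hq hA Soo hSoo
  have em : ∀ m, (Sm m).Ov = expVal (hV m) := fun m => nroo_Ov_eq_expVal (Sm m) (hSm m) (hV m)
  have h1 : LiesOverV S₁.Ov Soo.Ov := by
    rw [e1, eoo]
    exact liesOverV_gaussOv (N := M₀ * q) (ℓ := q) hq A hA
  have h2 : ∀ m, LiesOverV S₁.Ov (Sm m).Ov := fun m => by
    rw [e1, em m]
    exact igLiesMid M₀ q hq A hA (z m) (ε m) (hε m) (hV m)
  have h12 : ∀ m, Soo.Ov ≠ (Sm m).Ov := fun m => by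
    rw [eoo, em m]
    exact ig_gaussOv_ne_expVal hq A hA hqM (hz m) (hε m) (hV m)
  refine
    { finite := (igDegF M₀ q hq hqM).1
      liesOver := ?_
      inj := ?_
      infinite := ?_
      indep := ?_
      sum_eq := ?_ }
  · rintro (_ | m)
    · exact h1
    · exact h2 m
  · rintro (_ | m) (_ | m') h
    · rfl
    · exact absurd h (h12 m')
    · exact absurd h.symm (h12 m)
    · by_contra hmm
      exact hne m m' (fun e => hmm (congrArg some e)) (le_of_eq h)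
  · obtain ⟨c, hc, hcu⟩ := exists_constants (N := M₀ * q) hq A hA
    rw [e1]
    exact ⟨c, hc, hcu⟩
  · rintro (_ | m)
    · exact resIndep_one h1
    · have h := ig_resIndep_pow hq A hA hqM hPow (hz m) (hε m) (hV m)
      show ResIndep S₁.Ov (Sm m).Ov (fun l : Fin (midDeg q) => distGen M₀ q (z m : Qb) ^ (l : ℕ))
      rw [e1, em m]
      exact h
  · rw [(igDegF M₀ q hq hqM).2, Fintype.sum_option]
    show 1 + ∑ _m : Mid, midDeg q = q
    rw [Finset.sum_const, Finset.card_univ, smul_eq_mul]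
    exact nroo_count hq hcard

include hq hA hε hSoo hSm hS₁ in
/-- **the residue maps** of the system. -/
theorem nroo_satRes :
    @SatRes _ _ _ _ (algebraAlong (heckeAlphaBar Qb (M₀ * q) q)) (Option Mid)
      ↥(modularFunctionFieldFullC (IsLocalRing.ResidueField A) M₀) _
      (NrooFk (IsLocalRing.ResidueField A) M₀ Mid) _ _
      S₁.Ov (nrooO Soo Sm) S₁.ρ (nrooRho Soo Sm) := by
  letI := algebraAlong (heckeAlphaBar Qb (M₀ * q) q)
  refine
    { surjE := S₁.ρ_surj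
      surjF := ?_
      kerE := fun y hy => (S₁.ρ_eq_zero_iff y).mpr hy
      kerF := ?_
      red_map := ?_ }
  · rintro (_ | m)
    · exact Soo.ρ_surj
    · exact (Sm m).ρ_surj
  · rintro (_ | m) y hy
    · exact (Soo.ρ_eq_zero_iff y).mpr hy
    · exact ((Sm m).ρ_eq_zero_iff y).mpr hy
  · rintro (_ | m) y hy hy'
    · have h := (seen_alpha_inf Soo hSoo S₁ hS₁ hy).2
      rw [S₁.red_of_mem hy] at h
      have hy'' : heckeAlphaBar Qb (M₀ * q) q y ∈ Soo.Ov := hy'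
      rw [Soo.red_of_mem hy''] at h
      exact h
    · have h := (seen_alpha_mid_one hq hA S₁ hS₁ (hε m) (hSm m) hy).2
      rw [S₁.red_of_mem hy] at h
      have hy'' : heckeAlphaBar Qb (M₀ * q) q y ∈ (Sm m).Ov := hy'
      rw [(Sm m).red_of_mem hy''] at h
      exact h

include hq hqM hA hz hε hSoo hSm hS₁ in
/-- **(N2), norm form**: `S₁.red (Norm_α g) = Soo.red g * ∏ m, nm ((Sm m).red g)`. -/
theorem nroo_norm_alpha (hPow : IgPowIndepRes M₀ q) (hcard : Fintype.card Mid = midCard q)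
    (hne : ∀ m m', m ≠ m' → ¬ (Sm m).Ov ≤ (Sm m').Ov)
    {g : FBar (M₀ * q * q)} (hg : g ∈ Soo.Ov) (hgm : ∀ m, g ∈ (Sm m).Ov) :
    normAlong (heckeAlphaBar Qb (M₀ * q) q) g ∈ S₁.Ov ∧
      S₁.red (normAlong (heckeAlphaBar Qb (M₀ * q) q) g) =
        Soo.red g * ∏ m, nrooNm (IsLocalRing.ResidueField A) M₀ ((Sm m).red g) := by
  letI := algebraAlong (heckeAlphaBar Qb (M₀ * q) q)
  have T := nroo_satExt hq hqM hA z hz ε hε Soo hSoo Sm hSm S₁ hS₁ hPow hcard hne
  have R := nroo_satRes hq hA z ε hε Soo hSoo Sm hSm S₁ hS₁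
  have ht : ∀ i : Option Mid, g ∈ nrooO Soo Sm i := by
    rintro (_ | m)
    · exact hg
    · exact hgm m
  obtain ⟨h, hr⟩ := T.normRed R g ht
  have h' : normAlong (heckeAlphaBar Qb (M₀ * q) q) g ∈ S₁.Ov := h
  refine ⟨h', ?_⟩
  rw [S₁.red_of_mem h']
  refine hr.trans ?_
  rw [Fintype.prod_option]
  congr 1
  · rw [Soo.red_of_mem hg]
    show Algebra.norm ↥(modularFunctionFieldFullC (IsLocalRing.ResidueField A) M₀)
      (Soo.ρ ⟨g, hg⟩) = Soo.ρ ⟨g, hg⟩
    rw [Algebra.norm_self]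
    rfl
  · refine Finset.prod_congr rfl fun m _ => ?_
    rw [(Sm m).red_of_mem (hgm m)]
    rfl

include hq hqM hA hz hε hSoo hSm in
/-- **`NormLayer1.red_oo`**: `Soo.red (nm1 g) = Soo.red g * ∏ m, nm ((Sm m).red g)`. -/
theorem nroo_red_oo (hPow : IgPowIndepRes M₀ q) (hcard : Fintype.card Mid = midCard q)
    (hne : ∀ m m', m ≠ m' → ¬ (Sm m).Ov ≤ (Sm m').Ov)
    {g : FBar (M₀ * q * q)} (hg : g ∈ Soo.Ov) (hgm : ∀ m, g ∈ (Sm m).Ov) :
    nm1 (M₀ * q) q g ∈ Soo.Ov ∧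
      Soo.red (nm1 (M₀ * q) q g) =
        Soo.red g * ∏ m, nrooNm (IsLocalRing.ResidueField A) M₀ ((Sm m).red g) := by
  obtain ⟨S₁, hS₁, -⟩ := exists_isGaussSetup_bad hq hqM A hA (M₀ * q) rfl
    (modFactsAt M₀ q hq hqM A hA)
  obtain ⟨h1, h2⟩ := nroo_norm_alpha hq hqM hA z hz ε hε Soo hSoo Sm hSm S₁ hS₁ hPow hcard hne
    hg hgm
  obtain ⟨h3, h4⟩ := seen_alpha_inf Soo hSoo S₁ hS₁ h1
  exact ⟨h3, h4.trans h2⟩

include hq hqM hA hz hε hSoo hSm in
/-- the residue degree of a middle valuation: `[igField k M₀ : F_k(M₀)] = midDeg q` (for the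
algebra structure `nrooAlg`), and the extension is finite. -/
theorem nroo_finrank (hPow : IgPowIndepRes M₀ q) (hcard : Fintype.card Mid = midCard q)
    (hne : ∀ m m', m ≠ m' → ¬ (Sm m).Ov ≤ (Sm m').Ov) (m : Mid) :
    @Module.Finite ↥(modularFunctionFieldFullC (IsLocalRing.ResidueField A) M₀)
        ↥(igField (IsLocalRing.ResidueField A) M₀) _ _
        (nrooAlg (IsLocalRing.ResidueField A) M₀).toModule ∧
      @Module.finrank ↥(modularFunctionFieldFullC (IsLocalRing.ResidueField A) M₀)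
        ↥(igField (IsLocalRing.ResidueField A) M₀) _ _
        (nrooAlg (IsLocalRing.ResidueField A) M₀).toModule = midDeg q := by
  obtain ⟨S₁, hS₁, -⟩ := exists_isGaussSetup_bad hq hqM A hA (M₀ * q) rfl
    (modFactsAt M₀ q hq hqM A hA)
  letI := algebraAlong (heckeAlphaBar Qb (M₀ * q) q)
  have T := nroo_satExt hq hqM hA z hz ε hε Soo hSoo Sm hSm S₁ hS₁ hPow hcard hne
  have R := nroo_satRes hq hA z ε hε Soo hSoo Sm hSm S₁ hS₁
  exact ⟨T.finite_res R (some m), T.finrank_res R (some m)⟩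

end Sat

/-- `k → F_k(M₀) → igField k M₀` is a tower (for the algebra structure `nrooAlg`). -/
theorem nroo_isScalarTower (A : ValuationSubring Qb) (M₀ : ℕ) :
    @IsScalarTower (IsLocalRing.ResidueField A)
      ↥(modularFunctionFieldFullC (IsLocalRing.ResidueField A) M₀)
      ↥(igField (IsLocalRing.ResidueField A) M₀) _
      (nrooAlg (IsLocalRing.ResidueField A) M₀).toSMul _ := by
  letI := nrooAlg (IsLocalRing.ResidueField A) M₀
  exact IsScalarTower.of_algebraMap_eq fun x => rfl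

/-- `algebraMap` of `nrooAlg` is the inclusion. -/
theorem nroo_algebraMap (k : Type*) [Field k] (M₀ : ℕ) (y : ↥(modularFunctionFieldFullC k M₀)) :
    @algebraMap ↥(modularFunctionFieldFullC k M₀) ↥(igField k M₀) _ _ (nrooAlg k M₀) y =
      IntermediateField.inclusion (fullC_le_igField k M₀) y :=
  rfl

/-! ### `π₂` -/

section Zero

variable {M₀ q : ℕ} [NeZero M₀] [NeZero q] {A : ValuationSubring Qb}
  (hq : q.Prime) (hqM : ¬ q ∣ M₀) (hA : A.LiesOverPrime q)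
  (D : ALData) (hM : M₀ * q * q = D.Q * D.R) (hQ : D.Q = q ^ 2)

omit [NeZero M₀] [NeZero q] in
/-- the residue map of the constants of a transported constant reduction (abstract `w`: the
kernel must never unfold `wAt`). -/
theorem nroo_comapEquiv_res_eq {K F k Fk : Type*} [Field K] [Field F] [Algebra K F] [Field k]
    [Field Fk] [Algebra k Fk] (S : ValSetup K F k Fk) (w : F ≃ₐ[K] F) (B : ValuationSubring K)
    (r : B →+* k) (hres : ∀ (c : K) (h : c ∈ S.A) (h' : c ∈ B), S.res ⟨c, h⟩ = r ⟨c, h'⟩)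
    (c : K) (h : c ∈ (comapEquiv S w).A) (h' : c ∈ B) :
    (comapEquiv S w).res ⟨c, h⟩ = r ⟨c, h'⟩ :=
  hres c h h'

include hq hA hQ in
/-- the constant reduction `S ∘ w` of a middle setup at `z` is a middle setup at `z⁻¹`. -/
theorem nroo_isMidSetup_zeroAt {z : Qbˣ} (hz : z ^ q = 1)
    {ε ε' : FBar (M₀ * q * q) →ₐ[Qb] LaurentSeries Qb}
    (hε : IsMidExp M₀ q z ε) (hε' : IsMidExp M₀ q z⁻¹ ε')
    {S : ValSetup Qb (FBar (M₀ * q * q)) (IsLocalRing.ResidueField A)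
      (igField (IsLocalRing.ResidueField A) M₀)}
    (hS : IsMidSetup M₀ q A ε S) : IsMidSetup M₀ q A ε' (valSetupZeroAt D hM S) where
  A_eq := by
    rw [valSetupZeroAt_A]
    exact hS.A_eq
  res_eq := nroo_comapEquiv_res_eq S (wAt D hM) A (IsLocalRing.residue A) hS.res_eq
  mem_iff := fun f => by
    rw [mem_valSetupZeroAt_Ov, hS.mem_iff]
    exact expOv_wAt_iff hq A hA D hM hQ hz hε hε' f
  coe_red := fun f hf => by
    rw [valSetupZeroAt_red, hS.coe_red _ ((mem_valSetupZeroAt_Ov D hM S f).mp hf)]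
    exact expRes_wAt hq A hA D hM hQ hz hε hε' f

variable {Mid : Type} [Fintype Mid]
  (z : Mid → Qbˣ) (hz : ∀ m, IsPrimitiveRoot (z m) q)
  (ε : Mid → (FBar (M₀ * q * q) →ₐ[Qb] LaurentSeries Qb))
  (hε : ∀ m, IsMidExp M₀ q (z m) (ε m))
  (Soo : ValSetup Qb (FBar (M₀ * q * q)) (IsLocalRing.ResidueField A)
    (modularFunctionFieldFullC (IsLocalRing.ResidueField A) M₀))
  (hSoo : IsGaussSetup (M₀ * q * q) M₀ A Soo)
  (Sm : Mid → ValSetup Qb (FBar (M₀ * q * q)) (IsLocalRing.ResidueField A)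
    (igField (IsLocalRing.ResidueField A) M₀))
  (hSm : ∀ m, IsMidSetup M₀ q A (ε m) (Sm m))

include hq hqM hA hQ hz hε hSoo hSm in
/-- **`NormLayer2.red_zero`**: `S0.red (nm2 g) = S0.red g * ∏ m, nm ((Sm m).red g)`. -/
theorem nroo_red_zero (hPow : IgPowIndepRes M₀ q) (hcard : Fintype.card Mid = midCard q)
    (hne : ∀ m m', m ≠ m' → ¬ (Sm m).Ov ≤ (Sm m').Ov)
    {g : FBar (M₀ * q * q)} (hg : g ∈ (valSetupZeroAt D hM Soo).Ov)
    (hgm : ∀ m, g ∈ (Sm m).Ov) :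
    nm2 (M₀ * q) q D hM g ∈ (valSetupZeroAt D hM Soo).Ov ∧
      (valSetupZeroAt D hM Soo).red (nm2 (M₀ * q) q D hM g) =
        (valSetupZeroAt D hM Soo).red g *
          ∏ m, nrooNm (IsLocalRing.ResidueField A) M₀ ((Sm m).red g) := by
  have hex := igMidExpExists M₀ q hq hqM
  choose ε' hε' using fun m => hex (z m)⁻¹ (hz m).inv
  have hSm' : ∀ m, IsMidSetup M₀ q A (ε' m) (valSetupZeroAt D hM (Sm m)) := fun m =>
    nroo_isMidSetup_zeroAt hq hA D hM hQ (hz m).pow_eq_one (hε m) (hε' m) (hSm m)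
  have hne' : ∀ m m', m ≠ m' →
      ¬ (valSetupZeroAt D hM (Sm m)).Ov ≤ (valSetupZeroAt D hM (Sm m')).Ov := by
    intro m m' hmm hle
    apply hne m m' hmm
    intro f hf
    have h1 : wAt D hM f ∈ (valSetupZeroAt D hM (Sm m)).Ov := by
      rw [mem_valSetupZeroAt_Ov, wAt_wAt]
      exact hf
    have h2 := hle h1
    rw [mem_valSetupZeroAt_Ov, wAt_wAt] at h2
    exact h2
  have hwg : wAt D hM g ∈ Soo.Ov := (mem_valSetupZeroAt_Ov D hM Soo g).mp hg
  have hwgm : ∀ m, wAt D hM g ∈ (valSetupZeroAt D hM (Sm m)).Ov := fun m => by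
    rw [mem_valSetupZeroAt_Ov, wAt_wAt]
    exact hgm m
  obtain ⟨k1, k2⟩ := nroo_red_oo hq hqM hA (fun m => (z m)⁻¹) (fun m => (hz m).inv) ε' hε'
    Soo hSoo (fun m => valSetupZeroAt D hM (Sm m)) hSm' hPow hcard hne' hwg hwgm
  refine ⟨?_, ?_⟩
  · rw [nm2_eq_nm1, mem_valSetupZeroAt_Ov, wAt_wAt]
    exact k1
  · rw [nm2_eq_nm1, valSetupZeroAt_red_wAt, k2, valSetupZeroAt_red]
    congr 1
    refine Finset.prod_congr rfl fun m _ => ?_
    rw [valSetupZeroAt_red, wAt_wAt]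

end Zero

end Fermat.Agent.S36G
end
end MergeWrap_S36_G_NrOO

section MergeWrap_S36_G_NormLayerInst -- from S36/G/NormLayerInst.lean

set_option autoImplicit false
set_option linter.style.haveILetI false
set_option linter.unusedSectionVars false
set_option linter.unusedVariables false
set_option synthInstance.maxHeartbeats 400000
set_option maxHeartbeats 1000000

noncomputable section

open IntermediateField AlgebraicCurve ModularCurve

namespace Fermat.Agent.S36G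

attribute [local instance 10000] SubalgebraClass.toAlgebra HahnSeries.powerSeriesAlgebra

open Fermat.Agent.RR Fermat.Agent.S36 Fermat.Agent.HP Fermat.Agent.Deuring
open Fermat.Agent.BadRed Fermat.Agent.BadRedG

section Inst

variable (k : Type) [Field k] (M₀ : ℕ) {Mid SS : Type}
  (FkP : SS → Type) [∀ P, Field (FkP P)] [∀ P, Algebra k (FkP P)]

/-! ### the algebra structures -/

/-- the algebra structure of the middle residue fields over the residue field of `v_∞`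
(the inclusion `F_k(M₀) ⊆ igField k M₀`). -/
@[reducible] def nliAlgOo (m : Mid) :
    Algebra (FkOf ↥(modularFunctionFieldFullC k M₀) (fun _ : Mid => ↥(igField k M₀)) FkP
        (Vtx.vert Vrt.oo))
      (FkOf ↥(modularFunctionFieldFullC k M₀) (fun _ : Mid => ↥(igField k M₀)) FkP
        (Vtx.vert (Vrt.mid m))) :=
  nrooAlg k M₀

/-- the algebra structure of the middle residue fields over the residue field of `v_0`
(the same inclusion). -/
@[reducible] def nliAlgZero (m : Mid) :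
    Algebra (FkOf ↥(modularFunctionFieldFullC k M₀) (fun _ : Mid => ↥(igField k M₀)) FkP
        (Vtx.vert Vrt.zero))
      (FkOf ↥(modularFunctionFieldFullC k M₀) (fun _ : Mid => ↥(igField k M₀)) FkP
        (Vtx.vert (Vrt.mid m))) :=
  nrooAlg k M₀

/-- `algebraMap` of `nliAlgOo` is the inclusion. -/
theorem nli_algebraMap_oo (m : Mid) (x : ↥(modularFunctionFieldFullC k M₀)) :
    @algebraMap _ _ _ _ (nliAlgOo k M₀ FkP m) x =
      IntermediateField.inclusion (fullC_le_igField k M₀) x :=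
  rfl

/-- `algebraMap` of `nliAlgZero` is the inclusion. -/
theorem nli_algebraMap_zero (m : Mid) (x : ↥(modularFunctionFieldFullC k M₀)) :
    @algebraMap _ _ _ _ (nliAlgZero k M₀ FkP m) x =
      IntermediateField.inclusion (fullC_le_igField k M₀) x :=
  rfl

/-! ### the towers -/

/-- `k → Fk (vert ∞) → Fk (vert (mid m))` is a tower. -/
theorem nli_isScalarTower_oo (m : Mid) :
    letI := nliAlgOo k M₀ FkP m
    IsScalarTower k
      (FkOf ↥(modularFunctionFieldFullC k M₀) (fun _ : Mid => ↥(igField k M₀)) FkP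
        (Vtx.vert Vrt.oo))
      (FkOf ↥(modularFunctionFieldFullC k M₀) (fun _ : Mid => ↥(igField k M₀)) FkP
        (Vtx.vert (Vrt.mid m))) :=
  @edv_isScalarTower M₀ k _ (nrooAlg k M₀) (fun _ => rfl)

/-- `k → Fk (vert 0) → Fk (vert (mid m))` is a tower. -/
theorem nli_isScalarTower_zero (m : Mid) :
    letI := nliAlgZero k M₀ FkP m
    IsScalarTower k
      (FkOf ↥(modularFunctionFieldFullC k M₀) (fun _ : Mid => ↥(igField k M₀)) FkP
        (Vtx.vert Vrt.zero))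
      (FkOf ↥(modularFunctionFieldFullC k M₀) (fun _ : Mid => ↥(igField k M₀)) FkP
        (Vtx.vert (Vrt.mid m))) :=
  @edv_isScalarTower M₀ k _ (nrooAlg k M₀) (fun _ => rfl)

/-! ### finiteness -/

/-- `Fk (vert (mid m))` is finite over `Fk (vert ∞)`. -/
theorem nli_finiteDimensional_oo {q : ℕ} (hq : q.Prime) [CharP k q] (m : Mid) :
    letI := nliAlgOo k M₀ FkP m
    FiniteDimensional
      (FkOf ↥(modularFunctionFieldFullC k M₀) (fun _ : Mid => ↥(igField k M₀)) FkP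
        (Vtx.vert Vrt.oo))
      (FkOf ↥(modularFunctionFieldFullC k M₀) (fun _ : Mid => ↥(igField k M₀)) FkP
        (Vtx.vert (Vrt.mid m))) :=
  @edv_finiteDimensional M₀ q hq k _ _ (nrooAlg k M₀) (fun _ => rfl)

/-- `Fk (vert (mid m))` is finite over `Fk (vert 0)`. -/
theorem nli_finiteDimensional_zero {q : ℕ} (hq : q.Prime) [CharP k q] (m : Mid) :
    letI := nliAlgZero k M₀ FkP m
    FiniteDimensional
      (FkOf ↥(modularFunctionFieldFullC k M₀) (fun _ : Mid => ↥(igField k M₀)) FkP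
        (Vtx.vert Vrt.zero))
      (FkOf ↥(modularFunctionFieldFullC k M₀) (fun _ : Mid => ↥(igField k M₀)) FkP
        (Vtx.vert (Vrt.mid m))) :=
  @edv_finiteDimensional M₀ q hq k _ _ (nrooAlg k M₀) (fun _ => rfl)

end Inst

/-! ### the norm layers with the instances plugged in -/

section Layer

variable {K F : Type} [Field K] [Field F] [Algebra K F] (k : Type) [Field k] (M₀ : ℕ)
  {Mid SS : Type} [Fintype Mid]
  (FkP : SS → Type) [∀ P, Field (FkP P)] [∀ P, Algebra k (FkP P)]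
  {q : ℕ} [IsAlgClosed k] [CharP k q]

/-- **`normLayer1_of` for the residue fields of the modular graph**, with the instance families
`nliAlgOo`, `nli_isScalarTower_oo`, `nli_finiteDimensional_oo`; all other arguments verbatim. -/
def nliLayer1 (hq : q.Prime)
    (N : GraphSetup K F k (Vtx Mid SS) (FkOf ↥(modularFunctionFieldFullC k M₀) (fun _ : Mid => ↥(igField k M₀)) FkP) (Nod Mid SS))
    (hsrc : ∀ i, N.src i = nodSrc i) (htgt : ∀ i, N.tgt i = nodTgt i)
    (hq1 : ((q + 1 : ℕ) : k) ≠ 0) (HP : ∀ P : SS, HPCurve k ((FkOf ↥(modularFunctionFieldFullC k M₀) (fun _ : Mid => ↥(igField k M₀)) FkP) (Vtx.hor P)) q)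
    (n e : ℕ) (Nm : F → F)
    -- (VERT)
    (h0 : IsRRField k ((FkOf ↥(modularFunctionFieldFullC k M₀) (fun _ : Mid => ↥(igField k M₀)) FkP) (Vtx.vert Vrt.oo)))
    (hM : ∀ m, IsRRField k ((FkOf ↥(modularFunctionFieldFullC k M₀) (fun _ : Mid => ↥(igField k M₀)) FkP) (Vtx.vert (Vrt.mid m))))
    (hres : letI := nliAlgOo k M₀ FkP (Mid := Mid)
      haveI := nli_isScalarTower_oo k M₀ FkP (Mid := Mid)
      haveI := nli_finiteDimensional_oo k M₀ FkP hq (Mid := Mid)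
      ∀ P m, (nlSrc N hsrc P (Vrt.mid m)).restrict ((FkOf ↥(modularFunctionFieldFullC k M₀) (fun _ : Mid => ↥(igField k M₀)) FkP) (Vtx.vert Vrt.oo)) =
        nlSrc N hsrc P Vrt.oo)
    (he : letI := nliAlgOo k M₀ FkP (Mid := Mid)
      ∀ P m, (nlSrc N hsrc P (Vrt.mid m)).ramificationIndex ((FkOf ↥(modularFunctionFieldFullC k M₀) (fun _ : Mid => ↥(igField k M₀)) FkP) (Vtx.vert Vrt.oo)) = e)
    (hdeg : letI := nliAlgOo k M₀ FkP (Mid := Mid)
      ∀ m : Mid, Module.finrank ((FkOf ↥(modularFunctionFieldFullC k M₀) (fun _ : Mid => ↥(igField k M₀)) FkP) (Vtx.vert Vrt.oo)) ((FkOf ↥(modularFunctionFieldFullC k M₀) (fun _ : Mid => ↥(igField k M₀)) FkP) (Vtx.vert (Vrt.mid m))) = e)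
    -- (DIV)
    (hI : ∀ P, 0 < (nlTgt N htgt P Vrt.oo).ord (HP P).X2)
    (hZ : ∀ P, 0 < (nlTgt N htgt P Vrt.zero).ord (HP P).X1)
    (hm1 : ∀ P m, (nlTgt N htgt P (Vrt.mid m)).ord (HP P).X1 = -(e : ℤ)) (he0 : 0 < e)
    (hm2 : ∀ P m, ¬ 0 < (nlTgt N htgt P (Vrt.mid m)).ord (HP P).X2)
    (hcover : ∀ P (v : Place k ((FkOf ↥(modularFunctionFieldFullC k M₀) (fun _ : Mid => ↥(igField k M₀)) FkP) (Vtx.hor P))), v.ord (HP P).X1 < 0 →
      ∃ w, v = nlTgt N htgt P w)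
    -- (RES)
    (red_oo : letI := nliAlgOo k M₀ FkP (Mid := Mid)
      ∀ g : F, (∀ c, g ∈ (N.S c).Ov) → (∀ c, (N.S c).red g ≠ 0) →
      (N.S (Vtx.vert Vrt.oo)).red (Nm g) =
        (N.S (Vtx.vert Vrt.oo)).red g *
          ∏ m, Algebra.norm ((FkOf ↥(modularFunctionFieldFullC k M₀) (fun _ : Mid => ↥(igField k M₀)) FkP) (Vtx.vert Vrt.oo)) ((N.S (Vtx.vert (Vrt.mid m))).red g))
    (red_mid : letI := nliAlgOo k M₀ FkP (Mid := Mid)
      ∀ g : F, (∀ c, g ∈ (N.S c).Ov) → (∀ c, (N.S c).red g ≠ 0) → ∀ m,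
      (N.S (Vtx.vert (Vrt.mid m))).red (Nm g) =
        algebraMap ((FkOf ↥(modularFunctionFieldFullC k M₀) (fun _ : Mid => ↥(igField k M₀)) FkP) (Vtx.vert Vrt.oo)) ((FkOf ↥(modularFunctionFieldFullC k M₀) (fun _ : Mid => ↥(igField k M₀)) FkP) (Vtx.vert (Vrt.mid m)))
          ((N.S (Vtx.vert Vrt.oo)).red (Nm g)))
    (red_zero : ∀ g : F, (∀ c, g ∈ (N.S c).Ov) → (∀ c, (N.S c).red g ≠ 0) →
      (N.S (Vtx.vert Vrt.zero)).red (Nm g) = (N.S (Vtx.vert Vrt.zero)).red g ^ q)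
    (red_hor : ∀ g : F, (∀ c, g ∈ (N.S c).Ov) → (∀ c, (N.S c).red g ≠ 0) → ∀ P,
      (N.S (Vtx.hor P)).red (Nm g) =
        algebraMap k⟮(HP P).X1⟯ ((FkOf ↥(modularFunctionFieldFullC k M₀) (fun _ : Mid => ↥(igField k M₀)) FkP) (Vtx.hor P))
          (Algebra.norm k⟮(HP P).X1⟯ ((N.S (Vtx.hor P)).red g))) :
    NormLayer1 N n q e Nm :=
  @normLayer1_of K F k _ _ _ _ Mid SS _ (FkOf ↥(modularFunctionFieldFullC k M₀) (fun _ : Mid => ↥(igField k M₀)) FkP) _ _ N hsrc htgt q _ hq1 HP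
    (nliAlgOo k M₀ FkP) (nli_isScalarTower_oo k M₀ FkP) (nli_finiteDimensional_oo k M₀ FkP hq)
    n e Nm h0 hM hres he hdeg hI hZ hm1 he0 hm2 hcover red_oo red_mid red_zero red_hor

/-- **`normLayer2_of` for the residue fields of the modular graph**, with the instance families
`nliAlgZero`, `nli_isScalarTower_zero`, `nli_finiteDimensional_zero`; all other arguments
verbatim. -/
def nliLayer2 (hq : q.Prime)
    (N : GraphSetup K F k (Vtx Mid SS) (FkOf ↥(modularFunctionFieldFullC k M₀) (fun _ : Mid => ↥(igField k M₀)) FkP) (Nod Mid SS))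
    (hsrc : ∀ i, N.src i = nodSrc i) (htgt : ∀ i, N.tgt i = nodTgt i)
    (hq1 : ((q + 1 : ℕ) : k) ≠ 0) (HP : ∀ P : SS, HPCurve k ((FkOf ↥(modularFunctionFieldFullC k M₀) (fun _ : Mid => ↥(igField k M₀)) FkP) (Vtx.hor P)) q)
    (n e : ℕ) (Nm : F → F)
    -- (VERT)
    (h0 : IsRRField k ((FkOf ↥(modularFunctionFieldFullC k M₀) (fun _ : Mid => ↥(igField k M₀)) FkP) (Vtx.vert Vrt.zero)))
    (hM : ∀ m, IsRRField k ((FkOf ↥(modularFunctionFieldFullC k M₀) (fun _ : Mid => ↥(igField k M₀)) FkP) (Vtx.vert (Vrt.mid m))))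
    (hres : letI := nliAlgZero k M₀ FkP (Mid := Mid)
      haveI := nli_isScalarTower_zero k M₀ FkP (Mid := Mid)
      haveI := nli_finiteDimensional_zero k M₀ FkP hq (Mid := Mid)
      ∀ P m, (nlSrc N hsrc P (Vrt.mid m)).restrict ((FkOf ↥(modularFunctionFieldFullC k M₀) (fun _ : Mid => ↥(igField k M₀)) FkP) (Vtx.vert Vrt.zero)) =
        nlSrc N hsrc P Vrt.zero)
    (he : letI := nliAlgZero k M₀ FkP (Mid := Mid)
      ∀ P m, (nlSrc N hsrc P (Vrt.mid m)).ramificationIndex ((FkOf ↥(modularFunctionFieldFullC k M₀) (fun _ : Mid => ↥(igField k M₀)) FkP) (Vtx.vert Vrt.zero)) = e)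
    (hdeg : letI := nliAlgZero k M₀ FkP (Mid := Mid)
      ∀ m : Mid, Module.finrank ((FkOf ↥(modularFunctionFieldFullC k M₀) (fun _ : Mid => ↥(igField k M₀)) FkP) (Vtx.vert Vrt.zero)) ((FkOf ↥(modularFunctionFieldFullC k M₀) (fun _ : Mid => ↥(igField k M₀)) FkP) (Vtx.vert (Vrt.mid m))) = e)
    -- (DIV)
    (hI : ∀ P, 0 < (nlTgt N htgt P Vrt.oo).ord (HP P).X2)
    (hZ : ∀ P, 0 < (nlTgt N htgt P Vrt.zero).ord (HP P).X1)
    (hm1 : ∀ P m, (nlTgt N htgt P (Vrt.mid m)).ord (HP P).X1 = -(e : ℤ)) (he0 : 0 < e)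
    (hm2 : ∀ P m, ¬ 0 < (nlTgt N htgt P (Vrt.mid m)).ord (HP P).X2)
    (hcover : ∀ P (v : Place k ((FkOf ↥(modularFunctionFieldFullC k M₀) (fun _ : Mid => ↥(igField k M₀)) FkP) (Vtx.hor P))), v.ord (HP P).X1 < 0 →
      ∃ w, v = nlTgt N htgt P w)
    -- (RES)
    (red_zero : letI := nliAlgZero k M₀ FkP (Mid := Mid)
      ∀ g : F, (∀ c, g ∈ (N.S c).Ov) → (∀ c, (N.S c).red g ≠ 0) →
      (N.S (Vtx.vert Vrt.zero)).red (Nm g) =
        (N.S (Vtx.vert Vrt.zero)).red g *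
          ∏ m, Algebra.norm ((FkOf ↥(modularFunctionFieldFullC k M₀) (fun _ : Mid => ↥(igField k M₀)) FkP) (Vtx.vert Vrt.zero)) ((N.S (Vtx.vert (Vrt.mid m))).red g))
    (red_mid : letI := nliAlgZero k M₀ FkP (Mid := Mid)
      ∀ g : F, (∀ c, g ∈ (N.S c).Ov) → (∀ c, (N.S c).red g ≠ 0) → ∀ m,
      (N.S (Vtx.vert (Vrt.mid m))).red (Nm g) =
        algebraMap ((FkOf ↥(modularFunctionFieldFullC k M₀) (fun _ : Mid => ↥(igField k M₀)) FkP) (Vtx.vert Vrt.zero)) ((FkOf ↥(modularFunctionFieldFullC k M₀) (fun _ : Mid => ↥(igField k M₀)) FkP) (Vtx.vert (Vrt.mid m)))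
          ((N.S (Vtx.vert Vrt.zero)).red (Nm g)))
    (red_oo : ∀ g : F, (∀ c, g ∈ (N.S c).Ov) → (∀ c, (N.S c).red g ≠ 0) →
      (N.S (Vtx.vert Vrt.oo)).red (Nm g) = (N.S (Vtx.vert Vrt.oo)).red g ^ q)
    (red_hor : ∀ g : F, (∀ c, g ∈ (N.S c).Ov) → (∀ c, (N.S c).red g ≠ 0) → ∀ P,
      (N.S (Vtx.hor P)).red (Nm g) =
        algebraMap k⟮(HP P).X2⟯ ((FkOf ↥(modularFunctionFieldFullC k M₀) (fun _ : Mid => ↥(igField k M₀)) FkP) (Vtx.hor P))
          (Algebra.norm k⟮(HP P).X2⟯ ((N.S (Vtx.hor P)).red g))) :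
    NormLayer2 N n q e Nm :=
  @normLayer2_of K F k _ _ _ _ Mid SS _ (FkOf ↥(modularFunctionFieldFullC k M₀) (fun _ : Mid => ↥(igField k M₀)) FkP) _ _ N hsrc htgt q _ hq1 HP
    (nliAlgZero k M₀ FkP) (nli_isScalarTower_zero k M₀ FkP)
    (nli_finiteDimensional_zero k M₀ FkP hq)
    n e Nm h0 hM hres he hdeg hI hZ hm1 he0 hm2 hcover red_zero red_mid red_oo red_hor

end Layer

end Fermat.Agent.S36G
end
end MergeWrap_S36_G_NormLayerInst

section MergeWrap_S36_G_NormLayerVert -- from S36/G/NormLayerVert.lean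

set_option autoImplicit false
set_option linter.style.haveILetI false
set_option linter.unusedSectionVars false
set_option linter.unusedVariables false
set_option synthInstance.maxHeartbeats 400000
set_option maxHeartbeats 1000000

noncomputable section

open AlgebraicCurve ModularCurve

namespace Fermat.Agent.S36G

open Fermat.Agent.RR Fermat.Agent.BadRed Fermat.Agent.BadRedG Fermat.Agent.Deuring

attribute [local instance 10000] SubalgebraClass.toAlgebra HahnSeries.powerSeriesAlgebra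

variable {K F : Type*} [Field K] [Field F] [Algebra K F]

variable {M₀ q : ℕ} {Mid SS : Type} [Fintype Mid] {k : Type} [Field k]
  {FkP : SS → Type} [∀ P, Field (FkP P)] [∀ P, Algebra k (FkP P)]

/-- the residue fields of the modular graph: `F_k(M₀)` at `∞` and `0`, the Igusa field
`igField k M₀` at the middle vertices, `FkP P` at the horizontal vertices. -/
abbrev NlvFk (k : Type) [Field k] (M₀ : ℕ) (Mid : Type) {SS : Type} (FkP : SS → Type) :
    Vtx Mid SS → Type :=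
  FkOf ↥(modularFunctionFieldFullC k M₀) (fun _ : Mid => ↥(igField k M₀)) FkP

/-! ### `h0`, `hM` -/

/-- **`h0` of `normLayer1_of`.** -/
theorem nlv_h0_oo [NeZero M₀] [IsAlgClosed k] :
    IsRRField k (NlvFk k M₀ Mid FkP (Vtx.vert Vrt.oo)) :=
  Fermat.Agent.RRMod.isRRField_fullC' k M₀

/-- **`h0` of `normLayer2_of`.** -/
theorem nlv_h0_zero [NeZero M₀] [IsAlgClosed k] :
    IsRRField k (NlvFk k M₀ Mid FkP (Vtx.vert Vrt.zero)) :=
  Fermat.Agent.RRMod.isRRField_fullC' k M₀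

/-- **`hM`** (of both layers). -/
theorem nlv_hM (hRR : IsRRField k ↥(igField k M₀)) (m : Mid) :
    IsRRField k (NlvFk k M₀ Mid FkP (Vtx.vert (Vrt.mid m))) :=
  hRR

/-! ### the layer over `∞` (`normLayer1_of`) -/

section OO

variable [inst : ∀ m : Mid, Algebra (NlvFk k M₀ Mid FkP (Vtx.vert Vrt.oo))
    (NlvFk k M₀ Mid FkP (Vtx.vert (Vrt.mid m)))]

/-- the scalar tower `k → Fk ∞ → Fk (mid m)`. -/
theorem nlv_isScalarTower_oo
    (hinc : ∀ (m : Mid) (x : ↥(modularFunctionFieldFullC k M₀)),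
      algebraMap (NlvFk k M₀ Mid FkP (Vtx.vert Vrt.oo))
        (NlvFk k M₀ Mid FkP (Vtx.vert (Vrt.mid m))) x =
        IntermediateField.inclusion (fullC_le_igField k M₀) x) (m : Mid) :
    IsScalarTower k (NlvFk k M₀ Mid FkP (Vtx.vert Vrt.oo))
      (NlvFk k M₀ Mid FkP (Vtx.vert (Vrt.mid m))) :=
  letI : Algebra ↥(modularFunctionFieldFullC k M₀) ↥(igField k M₀) := inst m
  edv_isScalarTower M₀ k (hinc m)

/-- `Fk (mid m)` is finite over `Fk ∞`. -/
theorem nlv_finiteDimensional_oo [CharP k q] (hq : q.Prime)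
    (hinc : ∀ (m : Mid) (x : ↥(modularFunctionFieldFullC k M₀)),
      algebraMap (NlvFk k M₀ Mid FkP (Vtx.vert Vrt.oo))
        (NlvFk k M₀ Mid FkP (Vtx.vert (Vrt.mid m))) x =
        IntermediateField.inclusion (fullC_le_igField k M₀) x) (m : Mid) :
    FiniteDimensional (NlvFk k M₀ Mid FkP (Vtx.vert Vrt.oo))
      (NlvFk k M₀ Mid FkP (Vtx.vert (Vrt.mid m))) :=
  letI : Algebra ↥(modularFunctionFieldFullC k M₀) ↥(igField k M₀) := inst m
  edv_finiteDimensional M₀ q hq k (hinc m)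

/-- **`hdeg` of `normLayer1_of`**: `[Fk (mid m) : Fk ∞] = midDeg q`. -/
theorem nlv_hdeg_oo
    (hinc : ∀ (m : Mid) (x : ↥(modularFunctionFieldFullC k M₀)),
      algebraMap (NlvFk k M₀ Mid FkP (Vtx.vert Vrt.oo))
        (NlvFk k M₀ Mid FkP (Vtx.vert (Vrt.mid m))) x =
        IntermediateField.inclusion (fullC_le_igField k M₀) x)
    (hd : IntermediateField.relfinrank (modularFunctionFieldFullC k M₀) (igField k M₀) =
      midDeg q) (m : Mid) :
    Module.finrank (NlvFk k M₀ Mid FkP (Vtx.vert Vrt.oo))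
      (NlvFk k M₀ Mid FkP (Vtx.vert (Vrt.mid m))) = midDeg q :=
  letI : Algebra ↥(modularFunctionFieldFullC k M₀) ↥(igField k M₀) := inst m
  edv_finrank k (hinc m) hd

variable [IsAlgClosed k] [CharP k q]
  [instT : ∀ m : Mid, IsScalarTower k (NlvFk k M₀ Mid FkP (Vtx.vert Vrt.oo))
    (NlvFk k M₀ Mid FkP (Vtx.vert (Vrt.mid m)))]
  [instF : ∀ m : Mid, FiniteDimensional (NlvFk k M₀ Mid FkP (Vtx.vert Vrt.oo))
    (NlvFk k M₀ Mid FkP (Vtx.vert (Vrt.mid m)))]
  (N : GraphSetup K F k (Vtx Mid SS) (NlvFk k M₀ Mid FkP) (Nod Mid SS))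
  (hsrc : ∀ i, N.src i = nodSrc i)

/-- **`hdeg` of `normLayer1_of`** from one supersingular place with `ord ssFun = 12`. -/
theorem nlv_hdeg_oo_of_place (hq : q.Prime) (hqM : ¬ q ∣ M₀)
    (hinc : ∀ (m : Mid) (x : ↥(modularFunctionFieldFullC k M₀)),
      algebraMap (NlvFk k M₀ Mid FkP (Vtx.vert Vrt.oo))
        (NlvFk k M₀ Mid FkP (Vtx.vert (Vrt.mid m))) x =
        IntermediateField.inclusion (fullC_le_igField k M₀) x)
    (hRR : IsRRField k ↥(igField k M₀))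
    (P₀ : Place k ↥(modularFunctionFieldFullC k M₀)) (hSS : IsSSPlace k M₀ q P₀)
    (hno : ∀ u : ↥(modularFunctionFieldFullC k M₀), (u : LaurentSeries k) = ssFun k q →
      P₀.ord u = 12) (m : Mid) :
    Module.finrank (NlvFk k M₀ Mid FkP (Vtx.vert Vrt.oo))
      (NlvFk k M₀ Mid FkP (Vtx.vert (Vrt.mid m))) = midDeg q :=
  letI : Algebra ↥(modularFunctionFieldFullC k M₀) ↥(igField k M₀) := inst m
  edv_finrank_of_place hq hqM k (hinc m) hRR P₀ hSS hno

/-- **`hres` of `normLayer1_of`**: the branch on the middle component lies over the branch on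
the component `∞`. -/
theorem nlv_hres_oo (hq : q.Prime) (hqM : ¬ q ∣ M₀)
    (hinc : ∀ (m : Mid) (x : ↥(modularFunctionFieldFullC k M₀)),
      algebraMap (NlvFk k M₀ Mid FkP (Vtx.vert Vrt.oo))
        (NlvFk k M₀ Mid FkP (Vtx.vert (Vrt.mid m))) x =
        IntermediateField.inclusion (fullC_le_igField k M₀) x)
    (hRR : IsRRField k ↥(igField k M₀))
    (pl : SS → Place k ↥(modularFunctionFieldFullC k M₀))
    (hoo : ∀ P, nlSrc N hsrc P Vrt.oo = pl P)
    (hmid : ∀ P m, nlSrc N hsrc P (Vrt.mid m) = igPv M₀ q hq hqM k hRR (pl P)) (P : SS)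
    (m : Mid) :
    (nlSrc N hsrc P (Vrt.mid m)).restrict (NlvFk k M₀ Mid FkP (Vtx.vert Vrt.oo)) =
      nlSrc N hsrc P Vrt.oo := by
  letI : Algebra ↥(modularFunctionFieldFullC k M₀) ↥(igField k M₀) := inst m
  haveI : IsScalarTower k ↥(modularFunctionFieldFullC k M₀) ↥(igField k M₀) := instT m
  haveI hfd : FiniteDimensional ↥(modularFunctionFieldFullC k M₀) ↥(igField k M₀) := instF m
  haveI : Algebra.IsIntegral ↥(modularFunctionFieldFullC k M₀) ↥(igField k M₀) :=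
    @Algebra.IsIntegral.of_finite _ _ _ _ _ hfd
  rw [hmid P m, hoo P]
  exact edv_igPv_restrict hq hqM k (hinc m) hRR (pl P)

/-- **`he` of `normLayer1_of`**: the ramification index of the branch on the middle component
over the component `∞` is `midDeg q`. -/
theorem nlv_he_oo (hq : q.Prime) (hqM : ¬ q ∣ M₀)
    (hinc : ∀ (m : Mid) (x : ↥(modularFunctionFieldFullC k M₀)),
      algebraMap (NlvFk k M₀ Mid FkP (Vtx.vert Vrt.oo))
        (NlvFk k M₀ Mid FkP (Vtx.vert (Vrt.mid m))) x =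
        IntermediateField.inclusion (fullC_le_igField k M₀) x)
    (hRR : IsRRField k ↥(igField k M₀))
    (pl : SS → Place k ↥(modularFunctionFieldFullC k M₀))
    (hSS : ∀ P, IsSSPlace k M₀ q (pl P))
    (hno : ∀ P, ∀ u : ↥(modularFunctionFieldFullC k M₀), (u : LaurentSeries k) = ssFun k q →
      (pl P).ord u = 12)
    (hmid : ∀ P m, nlSrc N hsrc P (Vrt.mid m) = igPv M₀ q hq hqM k hRR (pl P)) (P : SS)
    (m : Mid) :
    (nlSrc N hsrc P (Vrt.mid m)).ramificationIndex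
      (NlvFk k M₀ Mid FkP (Vtx.vert Vrt.oo)) = midDeg q := by
  letI : Algebra ↥(modularFunctionFieldFullC k M₀) ↥(igField k M₀) := inst m
  rw [hmid P m]
  exact edv_igPv_ramificationIndex hq hqM k (hinc m) hRR (pl P) (hSS P) (hno P)

end OO

/-! ### the layer over `0` (`normLayer2_of`) -/

section Zero

variable [inst : ∀ m : Mid, Algebra (NlvFk k M₀ Mid FkP (Vtx.vert Vrt.zero))
    (NlvFk k M₀ Mid FkP (Vtx.vert (Vrt.mid m)))]

/-- the scalar tower `k → Fk 0 → Fk (mid m)`. -/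
theorem nlv_isScalarTower_zero
    (hinc : ∀ (m : Mid) (x : ↥(modularFunctionFieldFullC k M₀)),
      algebraMap (NlvFk k M₀ Mid FkP (Vtx.vert Vrt.zero))
        (NlvFk k M₀ Mid FkP (Vtx.vert (Vrt.mid m))) x =
        IntermediateField.inclusion (fullC_le_igField k M₀) x) (m : Mid) :
    IsScalarTower k (NlvFk k M₀ Mid FkP (Vtx.vert Vrt.zero))
      (NlvFk k M₀ Mid FkP (Vtx.vert (Vrt.mid m))) :=
  letI : Algebra ↥(modularFunctionFieldFullC k M₀) ↥(igField k M₀) := inst m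
  edv_isScalarTower M₀ k (hinc m)

/-- `Fk (mid m)` is finite over `Fk 0`. -/
theorem nlv_finiteDimensional_zero [CharP k q] (hq : q.Prime)
    (hinc : ∀ (m : Mid) (x : ↥(modularFunctionFieldFullC k M₀)),
      algebraMap (NlvFk k M₀ Mid FkP (Vtx.vert Vrt.zero))
        (NlvFk k M₀ Mid FkP (Vtx.vert (Vrt.mid m))) x =
        IntermediateField.inclusion (fullC_le_igField k M₀) x) (m : Mid) :
    FiniteDimensional (NlvFk k M₀ Mid FkP (Vtx.vert Vrt.zero))
      (NlvFk k M₀ Mid FkP (Vtx.vert (Vrt.mid m))) :=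
  letI : Algebra ↥(modularFunctionFieldFullC k M₀) ↥(igField k M₀) := inst m
  edv_finiteDimensional M₀ q hq k (hinc m)

/-- **`hdeg` of `normLayer2_of`**: `[Fk (mid m) : Fk 0] = midDeg q`. -/
theorem nlv_hdeg_zero
    (hinc : ∀ (m : Mid) (x : ↥(modularFunctionFieldFullC k M₀)),
      algebraMap (NlvFk k M₀ Mid FkP (Vtx.vert Vrt.zero))
        (NlvFk k M₀ Mid FkP (Vtx.vert (Vrt.mid m))) x =
        IntermediateField.inclusion (fullC_le_igField k M₀) x)
    (hd : IntermediateField.relfinrank (modularFunctionFieldFullC k M₀) (igField k M₀) =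
      midDeg q) (m : Mid) :
    Module.finrank (NlvFk k M₀ Mid FkP (Vtx.vert Vrt.zero))
      (NlvFk k M₀ Mid FkP (Vtx.vert (Vrt.mid m))) = midDeg q :=
  letI : Algebra ↥(modularFunctionFieldFullC k M₀) ↥(igField k M₀) := inst m
  edv_finrank k (hinc m) hd

variable [IsAlgClosed k] [CharP k q]
  [instT : ∀ m : Mid, IsScalarTower k (NlvFk k M₀ Mid FkP (Vtx.vert Vrt.zero))
    (NlvFk k M₀ Mid FkP (Vtx.vert (Vrt.mid m)))]
  [instF : ∀ m : Mid, FiniteDimensional (NlvFk k M₀ Mid FkP (Vtx.vert Vrt.zero))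
    (NlvFk k M₀ Mid FkP (Vtx.vert (Vrt.mid m)))]
  (N : GraphSetup K F k (Vtx Mid SS) (NlvFk k M₀ Mid FkP) (Nod Mid SS))
  (hsrc : ∀ i, N.src i = nodSrc i)

/-- **`hdeg` of `normLayer2_of`** from one supersingular place with `ord ssFun = 12`. -/
theorem nlv_hdeg_zero_of_place (hq : q.Prime) (hqM : ¬ q ∣ M₀)
    (hinc : ∀ (m : Mid) (x : ↥(modularFunctionFieldFullC k M₀)),
      algebraMap (NlvFk k M₀ Mid FkP (Vtx.vert Vrt.zero))
        (NlvFk k M₀ Mid FkP (Vtx.vert (Vrt.mid m))) x =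
        IntermediateField.inclusion (fullC_le_igField k M₀) x)
    (hRR : IsRRField k ↥(igField k M₀))
    (P₀ : Place k ↥(modularFunctionFieldFullC k M₀)) (hSS : IsSSPlace k M₀ q P₀)
    (hno : ∀ u : ↥(modularFunctionFieldFullC k M₀), (u : LaurentSeries k) = ssFun k q →
      P₀.ord u = 12) (m : Mid) :
    Module.finrank (NlvFk k M₀ Mid FkP (Vtx.vert Vrt.zero))
      (NlvFk k M₀ Mid FkP (Vtx.vert (Vrt.mid m))) = midDeg q :=
  letI : Algebra ↥(modularFunctionFieldFullC k M₀) ↥(igField k M₀) := inst m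
  edv_finrank_of_place hq hqM k (hinc m) hRR P₀ hSS hno

/-- **`hres` of `normLayer2_of`**: the branch on the middle component lies over the branch on
the component `0`. -/
theorem nlv_hres_zero (hq : q.Prime) (hqM : ¬ q ∣ M₀)
    (hinc : ∀ (m : Mid) (x : ↥(modularFunctionFieldFullC k M₀)),
      algebraMap (NlvFk k M₀ Mid FkP (Vtx.vert Vrt.zero))
        (NlvFk k M₀ Mid FkP (Vtx.vert (Vrt.mid m))) x =
        IntermediateField.inclusion (fullC_le_igField k M₀) x)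
    (hRR : IsRRField k ↥(igField k M₀))
    (pl : SS → Place k ↥(modularFunctionFieldFullC k M₀))
    (hzero : ∀ P, nlSrc N hsrc P Vrt.zero = pl P)
    (hmid : ∀ P m, nlSrc N hsrc P (Vrt.mid m) = igPv M₀ q hq hqM k hRR (pl P)) (P : SS)
    (m : Mid) :
    (nlSrc N hsrc P (Vrt.mid m)).restrict (NlvFk k M₀ Mid FkP (Vtx.vert Vrt.zero)) =
      nlSrc N hsrc P Vrt.zero := by
  letI : Algebra ↥(modularFunctionFieldFullC k M₀) ↥(igField k M₀) := inst m
  haveI : IsScalarTower k ↥(modularFunctionFieldFullC k M₀) ↥(igField k M₀) := instT m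
  haveI hfd : FiniteDimensional ↥(modularFunctionFieldFullC k M₀) ↥(igField k M₀) := instF m
  haveI : Algebra.IsIntegral ↥(modularFunctionFieldFullC k M₀) ↥(igField k M₀) :=
    @Algebra.IsIntegral.of_finite _ _ _ _ _ hfd
  rw [hmid P m, hzero P]
  exact edv_igPv_restrict hq hqM k (hinc m) hRR (pl P)

/-- **`he` of `normLayer2_of`**: the ramification index of the branch on the middle component
over the component `0` is `midDeg q`. -/
theorem nlv_he_zero (hq : q.Prime) (hqM : ¬ q ∣ M₀)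
    (hinc : ∀ (m : Mid) (x : ↥(modularFunctionFieldFullC k M₀)),
      algebraMap (NlvFk k M₀ Mid FkP (Vtx.vert Vrt.zero))
        (NlvFk k M₀ Mid FkP (Vtx.vert (Vrt.mid m))) x =
        IntermediateField.inclusion (fullC_le_igField k M₀) x)
    (hRR : IsRRField k ↥(igField k M₀))
    (pl : SS → Place k ↥(modularFunctionFieldFullC k M₀))
    (hSS : ∀ P, IsSSPlace k M₀ q (pl P))
    (hno : ∀ P, ∀ u : ↥(modularFunctionFieldFullC k M₀), (u : LaurentSeries k) = ssFun k q →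
      (pl P).ord u = 12)
    (hmid : ∀ P m, nlSrc N hsrc P (Vrt.mid m) = igPv M₀ q hq hqM k hRR (pl P)) (P : SS)
    (m : Mid) :
    (nlSrc N hsrc P (Vrt.mid m)).ramificationIndex
      (NlvFk k M₀ Mid FkP (Vtx.vert Vrt.zero)) = midDeg q := by
  letI : Algebra ↥(modularFunctionFieldFullC k M₀) ↥(igField k M₀) := inst m
  rw [hmid P m]
  exact edv_igPv_ramificationIndex hq hqM k (hinc m) hRR (pl P) (hSS P) (hno P)

end Zero

end Fermat.Agent.S36G
end
end MergeWrap_S36_G_NormLayerVert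

section MergeWrap_S36_G_CocPlug1 -- from S36/G/CocPlug1.lean

set_option autoImplicit false
set_option linter.unusedSectionVars false
set_option linter.unusedVariables false
set_option linter.style.haveILetI false
set_option synthInstance.maxHeartbeats 400000
set_option maxHeartbeats 1000000

noncomputable section

open IntermediateField AlgebraicCurve

namespace Fermat.Agent.S36G

open ModularCurve Fermat.Agent.F3 Fermat.Agent.F3G Fermat.Agent.GaussInt
  Fermat.Agent.AtkinLehner Fermat.Agent.Kronecker Fermat.Agent.BadRed Fermat.Agent.BadRedG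
  Fermat.Agent.BadRed.Gluing Fermat.Agent.RR Fermat.Agent.S36 Fermat.Agent.HP
  Fermat.Agent.Deuring

local notation "Qb" => AlgebraicClosure ℚ

/-- shortcut (the instance found by unification is the same term, after a slow search). -/
local instance (priority := 10000) cocPlug1AlgFullC (A : ValuationSubring Qb) (N : ℕ) :
    Algebra (IsLocalRing.ResidueField A)
      (modularFunctionFieldFullC (IsLocalRing.ResidueField A) N) :=
  SubalgebraClass.toAlgebra (modularFunctionFieldFullC (IsLocalRing.ResidueField A) N)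

/-- shortcut. -/
local instance (priority := 10000) cocPlug1AlgIg (A : ValuationSubring Qb) (N : ℕ) :
    Algebra (IsLocalRing.ResidueField A) (igField (IsLocalRing.ResidueField A) N) :=
  SubalgebraClass.toAlgebra (igField (IsLocalRing.ResidueField A) N)

attribute [local instance] Fermat.Agent.GaussInt.isAlgClosed_residue

section Plug

variable {M₀ q : ℕ} [NeZero M₀] [NeZero q] {A : ValuationSubring Qb}
  {SS : Type} [Fintype SS] [Nonempty SS]
  {FkP : SS → Type} [∀ P, Field (FkP P)] [∀ P, Algebra (IsLocalRing.ResidueField A) (FkP P)]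
  (E : ModEndsInput Qb (FBar (M₀ * q * q)) (IsLocalRing.ResidueField A) (Fin (midCard q)) SS
    ↥(modularFunctionFieldFullC (IsLocalRing.ResidueField A) M₀)
    (fun _ : Fin (midCard q) => ↥(igField (IsLocalRing.ResidueField A) M₀)) FkP)
  {b : Qb} {nn : ℕ}
  (hn : 2 ≤ nn) (hb : E.ϖ1 ^ nn = b) (h12 : E.ϖ1 * E.ϖ2 = b)
  (hu2 : E.u2 = E.u1 / algebraMap Qb (FBar (M₀ * q * q)) E.ϖ1)
  (hD₀ : E.D₀ = poleDiv (E.S (Vtx.vert Vrt.oo)).hF (E.ymodX b nn))
  (hdeg : Divisor.degree (poleDiv (E.S (Vtx.vert Vrt.oo)).hF (E.ymodX b nn)) ≤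
    ∑ c, Divisor.degree (poleDiv (E.S c).hFk ((E.S c).red (E.ymodX b nn))))
  (hgenus : genusFF Qb (FBar (M₀ * q * q)) + Fintype.card (Vtx (Fin (midCard q)) SS) ≤
    (∑ c, genusFF (IsLocalRing.ResidueField A)
      (FkOf ↥(modularFunctionFieldFullC (IsLocalRing.ResidueField A) M₀)
        (fun _ : Fin (midCard q) => ↥(igField (IsLocalRing.ResidueField A) M₀)) FkP c)) +
      Fintype.card (Nod (Fin (midCard q)) SS) + 1)

/-- **the norm layer for `π₁` of the modular seed**, from the three vertical residue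
statements; instances, (VERT), (DIV), (HOR) are plugged. -/
theorem cocPlug_layer1_of_res [CharP (IsLocalRing.ResidueField A) q]
    (hqp : q.Prime) (hqM : ¬ q ∣ M₀) (hA : A.LiesOverPrime q)
    {R0 : Fermat.Agent.S18Key.RedSetup Qb (FBar M₀) (IsLocalRing.ResidueField A)
      ↥(modularFunctionFieldFullC (IsLocalRing.ResidueField A) M₀)}
    {pt : SS → Place (IsLocalRing.ResidueField A)
      ↥(modularFunctionFieldFullC (IsLocalRing.ResidueField A) M₀)}
    (O : ∀ P : SS, WPOut M₀ q A R0 (pt P) (FkP P))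
    {Soo S0 : ValSetup Qb (FBar (M₀ * q * q)) (IsLocalRing.ResidueField A)
      ↥(modularFunctionFieldFullC (IsLocalRing.ResidueField A) M₀)}
    {Sm : Fin (midCard q) → ValSetup Qb (FBar (M₀ * q * q)) (IsLocalRing.ResidueField A)
      ↥(igField (IsLocalRing.ResidueField A) M₀)}
    (hES : E.S = vtxFamily Soo S0 Sm fun P => (O P).S)
    (hxA : EndsRedA E.S (nlhHP O) (algebraMap Qb (FBar (M₀ * q * q)) E.ϖA / E.uA))
    (hx2 : EndsRed2 E.S (nlhHP O) E.u2)
    (hRR : IsRRField (IsLocalRing.ResidueField A) ↥(igField (IsLocalRing.ResidueField A) M₀))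
    (pl : SS → Place (IsLocalRing.ResidueField A)
      ↥(modularFunctionFieldFullC (IsLocalRing.ResidueField A) M₀))
    (hoo : ∀ P, E.pv P Vrt.oo = pl P)
    (hmid : ∀ P m, E.pv P (Vrt.mid m) =
      igPv M₀ q hqp hqM (IsLocalRing.ResidueField A) hRR (pl P))
    (hSS : ∀ P, IsSSPlace (IsLocalRing.ResidueField A) M₀ q (pl P))
    (hno : ∀ P, ∀ u : ↥(modularFunctionFieldFullC (IsLocalRing.ResidueField A) M₀),
      (u : LaurentSeries (IsLocalRing.ResidueField A)) = ssFun (IsLocalRing.ResidueField A) q →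
        (pl P).ord u = 12)
    (n : ℕ)
    (red_oo : letI := nliAlgOo (IsLocalRing.ResidueField A) M₀ FkP (Mid := Fin (midCard q))
      ∀ g : FBar (M₀ * q * q),
      (∀ c, g ∈ ((E.ymodSeed hn hb h12 hu2 hD₀ hdeg hgenus).graphSetup.S c).Ov) →
      (∀ c, ((E.ymodSeed hn hb h12 hu2 hD₀ hdeg hgenus).graphSetup.S c).red g ≠ 0) →
      ((E.ymodSeed hn hb h12 hu2 hD₀ hdeg hgenus).graphSetup.S (Vtx.vert Vrt.oo)).red
          (nm1 (M₀ * q) q g) =
        ((E.ymodSeed hn hb h12 hu2 hD₀ hdeg hgenus).graphSetup.S (Vtx.vert Vrt.oo)).red g *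
          ∏ m, Algebra.norm
            (FkOf ↥(modularFunctionFieldFullC (IsLocalRing.ResidueField A) M₀)
              (fun _ : Fin (midCard q) => ↥(igField (IsLocalRing.ResidueField A) M₀)) FkP
              (Vtx.vert Vrt.oo))
            (((E.ymodSeed hn hb h12 hu2 hD₀ hdeg hgenus).graphSetup.S
              (Vtx.vert (Vrt.mid m))).red g))
    (red_mid : letI := nliAlgOo (IsLocalRing.ResidueField A) M₀ FkP (Mid := Fin (midCard q))
      ∀ g : FBar (M₀ * q * q),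
      (∀ c, g ∈ ((E.ymodSeed hn hb h12 hu2 hD₀ hdeg hgenus).graphSetup.S c).Ov) →
      (∀ c, ((E.ymodSeed hn hb h12 hu2 hD₀ hdeg hgenus).graphSetup.S c).red g ≠ 0) → ∀ m,
      ((E.ymodSeed hn hb h12 hu2 hD₀ hdeg hgenus).graphSetup.S (Vtx.vert (Vrt.mid m))).red
          (nm1 (M₀ * q) q g) =
        algebraMap
          (FkOf ↥(modularFunctionFieldFullC (IsLocalRing.ResidueField A) M₀)
            (fun _ : Fin (midCard q) => ↥(igField (IsLocalRing.ResidueField A) M₀)) FkP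
            (Vtx.vert Vrt.oo))
          (FkOf ↥(modularFunctionFieldFullC (IsLocalRing.ResidueField A) M₀)
            (fun _ : Fin (midCard q) => ↥(igField (IsLocalRing.ResidueField A) M₀)) FkP
            (Vtx.vert (Vrt.mid m)))
          (((E.ymodSeed hn hb h12 hu2 hD₀ hdeg hgenus).graphSetup.S (Vtx.vert Vrt.oo)).red
            (nm1 (M₀ * q) q g)))
    (red_zero : ∀ g : FBar (M₀ * q * q),
      (∀ c, g ∈ ((E.ymodSeed hn hb h12 hu2 hD₀ hdeg hgenus).graphSetup.S c).Ov) →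
      (∀ c, ((E.ymodSeed hn hb h12 hu2 hD₀ hdeg hgenus).graphSetup.S c).red g ≠ 0) →
      ((E.ymodSeed hn hb h12 hu2 hD₀ hdeg hgenus).graphSetup.S (Vtx.vert Vrt.zero)).red
          (nm1 (M₀ * q) q g) =
        ((E.ymodSeed hn hb h12 hu2 hD₀ hdeg hgenus).graphSetup.S (Vtx.vert Vrt.zero)).red g ^ q) :
    Nonempty (NormLayer1 (E.ymodSeed hn hb h12 hu2 hD₀ hdeg hgenus).graphSetup n q (midDeg q)
      (nm1 (M₀ * q) q)) := by
  haveI : Fact q.Prime := ⟨hqp⟩
  letI iA : ∀ m : Fin (midCard q), Algebra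
      (FkOf ↥(modularFunctionFieldFullC (IsLocalRing.ResidueField A) M₀)
        (fun _ : Fin (midCard q) => ↥(igField (IsLocalRing.ResidueField A) M₀)) FkP
        (Vtx.vert Vrt.oo))
      (FkOf ↥(modularFunctionFieldFullC (IsLocalRing.ResidueField A) M₀)
        (fun _ : Fin (midCard q) => ↥(igField (IsLocalRing.ResidueField A) M₀)) FkP
        (Vtx.vert (Vrt.mid m))) :=
    nliAlgOo (IsLocalRing.ResidueField A) M₀ FkP
  haveI iT : ∀ m : Fin (midCard q), IsScalarTower (IsLocalRing.ResidueField A)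
      (FkOf ↥(modularFunctionFieldFullC (IsLocalRing.ResidueField A) M₀)
        (fun _ : Fin (midCard q) => ↥(igField (IsLocalRing.ResidueField A) M₀)) FkP
        (Vtx.vert Vrt.oo))
      (FkOf ↥(modularFunctionFieldFullC (IsLocalRing.ResidueField A) M₀)
        (fun _ : Fin (midCard q) => ↥(igField (IsLocalRing.ResidueField A) M₀)) FkP
        (Vtx.vert (Vrt.mid m))) :=
    nli_isScalarTower_oo (IsLocalRing.ResidueField A) M₀ FkP
  haveI iF : ∀ m : Fin (midCard q), FiniteDimensional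
      (FkOf ↥(modularFunctionFieldFullC (IsLocalRing.ResidueField A) M₀)
        (fun _ : Fin (midCard q) => ↥(igField (IsLocalRing.ResidueField A) M₀)) FkP
        (Vtx.vert Vrt.oo))
      (FkOf ↥(modularFunctionFieldFullC (IsLocalRing.ResidueField A) M₀)
        (fun _ : Fin (midCard q) => ↥(igField (IsLocalRing.ResidueField A) M₀)) FkP
        (Vtx.vert (Vrt.mid m))) :=
    nli_finiteDimensional_oo (IsLocalRing.ResidueField A) M₀ FkP hqp
  have hinc : ∀ (m : Fin (midCard q))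
      (x : ↥(modularFunctionFieldFullC (IsLocalRing.ResidueField A) M₀)),
      algebraMap
        (NlvFk (IsLocalRing.ResidueField A) M₀ (Fin (midCard q)) FkP (Vtx.vert Vrt.oo))
        (NlvFk (IsLocalRing.ResidueField A) M₀ (Fin (midCard q)) FkP (Vtx.vert (Vrt.mid m))) x =
        IntermediateField.inclusion (fullC_le_igField (IsLocalRing.ResidueField A) M₀) x :=
    fun _ _ => rfl
  have hres := nlv_hres_oo (E.ymodSeed hn hb h12 hu2 hD₀ hdeg hgenus).graphSetup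
    (edy_hsrc hn hb h12 hu2 hD₀ hdeg hgenus) hqp hqM hinc hRR pl hoo hmid
  have he := nlv_he_oo (E.ymodSeed hn hb h12 hu2 hD₀ hdeg hgenus).graphSetup
    (edy_hsrc hn hb h12 hu2 hD₀ hdeg hgenus) hqp hqM hinc hRR pl hSS hno hmid
  have hdegV := nlv_hdeg_oo_of_place (Mid := Fin (midCard q)) (FkP := FkP) hqp hqM hinc hRR
    (pl (Classical.arbitrary SS)) (hSS _) (hno _)
  have hhor := nlh_red_hor1 O (E.ymodSeed hn hb h12 hu2 hD₀ hdeg hgenus).graphSetup hES
    (fun _ => rfl) (nlhHP O) (fun _ => rfl) hqp hqM hA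
  exact cocAsm_ymod_layer (M₀ * q) q hn hb h12 hu2 hD₀ hdeg hgenus hxA hx2 hqp n
    hres he hdegV red_oo red_mid red_zero hhor

end Plug

end Fermat.Agent.S36G
end
end MergeWrap_S36_G_CocPlug1

section MergeWrap_S36_G_NrOOPack -- from S36/G/NrOOPack.lean

set_option autoImplicit false
set_option linter.unusedSectionVars false
set_option linter.style.haveILetI false
set_option linter.unusedVariables false

/-!
# Cluster G (S36), seat NR-OO, PACK form  (helper94)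

The residue fields `red_oo` of `NormLayer1` and `red_zero` of `NormLayer2` for the middle
constant reductions of an Igusa pair `I : IgPack M₀ q A` (`Mid = Fin (midCard q)`), at an
auxiliary level (`nuTwo M₀ = 0`, `nuThree M₀ = 0`): NO hypothesis is left except the integrality
of `g`.

* `igPack_red_oo`   : `Soo.red (nm1 g) = Soo.red g * ∏ m, nm ((I.S m).red g)`;
* `igPack_red_zero` : `S0.red (nm2 g) = S0.red g * ∏ m, nm ((I.S m).red g)`;
* `igPack_finrank`  : `igField k M₀` is finite of degree `midDeg q` over `F_k(M₀)` (`nrooAlg`);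
* `igPack_count`    : `midDeg q * |Mid| + 1 = q`  (the field `hq` of `CoreBundle`, `e = midDeg q`).
-/

noncomputable section

namespace Fermat.Agent.S36G

open ModularCurve AlgebraicCurve Fermat.Agent.F3 Fermat.Agent.F3G Fermat.Agent.GaussInt
  Fermat.Agent.AtkinLehner Fermat.Agent.Kronecker Fermat.Agent.BadRed Fermat.Agent.Deuring
  Fermat.Agent.S36N

local notation "Qb" => AlgebraicClosure ℚ

set_option synthInstance.maxHeartbeats 400000

/-- shortcut (the instance found by unification is the same term, after a slow search). -/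
local instance (priority := 10000) nrooPackAlgFullC (A : ValuationSubring Qb) (N : ℕ) :
    Algebra (IsLocalRing.ResidueField A)
      (modularFunctionFieldFullC (IsLocalRing.ResidueField A) N) :=
  SubalgebraClass.toAlgebra (modularFunctionFieldFullC (IsLocalRing.ResidueField A) N)

/-- shortcut. -/
local instance (priority := 10000) nrooPackAlgIg (A : ValuationSubring Qb) (N : ℕ) :
    Algebra (IsLocalRing.ResidueField A) (igField (IsLocalRing.ResidueField A) N) :=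
  SubalgebraClass.toAlgebra (igField (IsLocalRing.ResidueField A) N)

variable {M₀ q : ℕ} [NeZero M₀] [NeZero q] {A : ValuationSubring Qb}

/-- `midDeg q * |Mid| + 1 = q` for `Mid = Fin (midCard q)`. -/
theorem igPack_count (hq : q.Prime) :
    midDeg q * Fintype.card (Fin (midCard q)) + 1 = q := by
  have h := nroo_count (Mid := Fin (midCard q)) hq (Fintype.card_fin _)
  rw [mul_comm, add_comm]
  exact h

variable (I : IgPack M₀ q A) (hq : q.Prime) (hqM : ¬ q ∣ M₀) (hA : A.LiesOverPrime q)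
  (hν2 : nuTwo M₀ = 0) (hν3 : nuThree M₀ = 0)
  (Soo : ValSetup Qb (FBar (M₀ * q * q)) (IsLocalRing.ResidueField A)
    (modularFunctionFieldFullC (IsLocalRing.ResidueField A) M₀))
  (hSoo : IsGaussSetup (M₀ * q * q) M₀ A Soo)

include hq hqM hA hν2 hν3 hSoo in
/-- **`NormLayer1.red_oo`** for the Igusa pair. -/
theorem igPack_red_oo {g : FBar (M₀ * q * q)} (hg : g ∈ Soo.Ov) (hgm : ∀ m, g ∈ (I.S m).Ov) :
    nm1 (M₀ * q) q g ∈ Soo.Ov ∧
      Soo.red (nm1 (M₀ * q) q g) =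
        Soo.red g * ∏ m, nrooNm (IsLocalRing.ResidueField A) M₀ ((I.S m).red g) :=
  nroo_red_oo hq hqM hA I.z I.prim I.ε I.isMidExp Soo hSoo I.S I.isMidSetup
    (igPowIndepRes_of_degreeRes M₀ q (igDegreeRes_aux M₀ q hν2 hν3)) (Fintype.card_fin _)
    I.indep hg hgm

include hq hqM hA hν2 hν3 hSoo in
/-- **`NormLayer2.red_zero`** for the Igusa pair. -/
theorem igPack_red_zero (D : ALData) (hM : M₀ * q * q = D.Q * D.R) (hQ : D.Q = q ^ 2)
    {g : FBar (M₀ * q * q)} (hg : g ∈ (valSetupZeroAt D hM Soo).Ov)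
    (hgm : ∀ m, g ∈ (I.S m).Ov) :
    nm2 (M₀ * q) q D hM g ∈ (valSetupZeroAt D hM Soo).Ov ∧
      (valSetupZeroAt D hM Soo).red (nm2 (M₀ * q) q D hM g) =
        (valSetupZeroAt D hM Soo).red g *
          ∏ m, nrooNm (IsLocalRing.ResidueField A) M₀ ((I.S m).red g) :=
  nroo_red_zero hq hqM hA D hM hQ I.z I.prim I.ε I.isMidExp Soo hSoo I.S I.isMidSetup
    (igPowIndepRes_of_degreeRes M₀ q (igDegreeRes_aux M₀ q hν2 hν3)) (Fintype.card_fin _)
    I.indep hg hgm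

include I hq hqM hA hν2 hν3 in
/-- the residue degree of the middle valuations (for the algebra structure `nrooAlg`). -/
theorem igPack_finrank :
    @Module.Finite ↥(modularFunctionFieldFullC (IsLocalRing.ResidueField A) M₀)
        ↥(igField (IsLocalRing.ResidueField A) M₀) _ _
        (nrooAlg (IsLocalRing.ResidueField A) M₀).toModule ∧
      @Module.finrank ↥(modularFunctionFieldFullC (IsLocalRing.ResidueField A) M₀)
        ↥(igField (IsLocalRing.ResidueField A) M₀) _ _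
        (nrooAlg (IsLocalRing.ResidueField A) M₀).toModule = midDeg q := by
  obtain ⟨Soo, hSoo, -⟩ := exists_isGaussSetup_sq hq hqM A hA (M₀ * q * q) (by ring)
  have hpos : 0 < midCard q := by
    unfold midCard
    split_ifs <;> norm_num
  exact nroo_finrank hq hqM hA I.z I.prim I.ε I.isMidExp Soo hSoo I.S I.isMidSetup
    (igPowIndepRes_of_degreeRes M₀ q (igDegreeRes_aux M₀ q hν2 hν3)) (Fintype.card_fin _)
    I.indep ⟨0, hpos⟩

end Fermat.Agent.S36G
end
end MergeWrap_S36_G_NrOOPack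

section MergeWrap_S36_G_NormLayerAbs -- from S36/G/NormLayerAbs.lean

set_option autoImplicit false
set_option linter.unusedSectionVars false
set_option linter.unusedVariables false
set_option linter.style.haveILetI false

/-!
# Cluster G (S36), block COC: the vertical (RES) arguments of the norm layers, ABSTRACT transfer
(helper36)

For ABSTRACT residue fields `Fk0`, `FkM m`, `FkP P` (no concrete field appears, so nothing is slow)
and a graph `N` over `FkOf Fk0 FkM FkP` with `N.S = vtxFamily Soo S0 Sm SP`, the three vertical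
(RES) arguments of `normLayer1_of` / `normLayer2_of` follow from the same statements for the plain
setups `Soo`, `S0`, `Sm m`.  The algebra structure of `FkM m` over `Fk0` is any family
`inst : ∀ m, Algebra Fk0 (FkM m)` (passed explicitly).

* `nla_S_oo`, `nla_S_zero`, `nla_S_mid`, `nla_S_hor` : the components of `N.S`;
* `nla_red_norm_oo`, `nla_red_mid_oo`, `nla_red_pow_zero` : `red_oo`, `red_mid`, `red_zero` of
  `normLayer1_of`;
* `nla_red_norm_zero`, `nla_red_mid_zero`, `nla_red_pow_oo` : `red_zero`, `red_mid`, `red_oo` of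
  `normLayer2_of`.

USE: instantiate `Fk0 := F_k(M₀)`, `FkM := fun _ => igField k M₀`, `inst := fun _ => nrooAlg k M₀`
by plain application (`exact nla_red_norm_oo N hN (fun _ => nrooAlg k M₀) _ h`).
-/

noncomputable section

open AlgebraicCurve Fermat.Agent.RR Fermat.Agent.Deuring

namespace Fermat.Agent.S36G

open Fermat.Agent.BadRed Fermat.Agent.BadRedG

variable {K F k : Type} [Field K] [Field F] [Algebra K F] [Field k]
  {Mid SS : Type} [Fintype Mid]
  {Fk0 : Type} [Field Fk0] [Algebra k Fk0]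
  {FkM : Mid → Type} [∀ m, Field (FkM m)] [∀ m, Algebra k (FkM m)]
  {FkP : SS → Type} [∀ P, Field (FkP P)] [∀ P, Algebra k (FkP P)]

variable (N : GraphSetup K F k (Vtx Mid SS) (FkOf Fk0 FkM FkP) (Nod Mid SS))
  {Soo S0 : ValSetup K F k Fk0} {Sm : ∀ m, ValSetup K F k (FkM m)}
  {SP : ∀ P, ValSetup K F k (FkP P)}
  (hN : N.S = vtxFamily Soo S0 Sm SP)

include hN in
theorem nla_S_oo : N.S (Vtx.vert Vrt.oo) = Soo := by
  rw [hN]
  rfl

include hN in
theorem nla_S_zero : N.S (Vtx.vert Vrt.zero) = S0 := by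
  rw [hN]
  rfl

include hN in
theorem nla_S_mid (m : Mid) : N.S (Vtx.vert (Vrt.mid m)) = Sm m := by
  rw [hN]
  rfl

include hN in
theorem nla_S_hor (P : SS) : N.S (Vtx.hor P) = SP P := by
  rw [hN]
  rfl

/-! ### the layer over `∞` -/

include hN in
/-- **`red_oo` of `normLayer1_of`** from the norm formula for the plain setups. -/
theorem nla_red_norm_oo (inst : ∀ m, Algebra Fk0 (FkM m)) (Nm : F → F)
    (h : ∀ g : F, g ∈ Soo.Ov → (∀ m, g ∈ (Sm m).Ov) →
      Soo.red (Nm g) = Soo.red g *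
        ∏ m, @Algebra.norm Fk0 (FkM m) _ _ (inst m) ((Sm m).red g)) :
    ∀ g : F, (∀ c, g ∈ (N.S c).Ov) → (∀ c, (N.S c).red g ≠ 0) →
      (N.S (Vtx.vert Vrt.oo)).red (Nm g) =
        (N.S (Vtx.vert Vrt.oo)).red g *
          ∏ m, @Algebra.norm (FkOf Fk0 FkM FkP (Vtx.vert Vrt.oo))
            (FkOf Fk0 FkM FkP (Vtx.vert (Vrt.mid m))) _ _ (inst m)
            ((N.S (Vtx.vert (Vrt.mid m))).red g) := by
  generalize N.S = S at hN
  subst hN
  intro g hg _
  exact h g (hg (Vtx.vert Vrt.oo)) (fun m => hg (Vtx.vert (Vrt.mid m)))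

include hN in
/-- **`red_mid` of `normLayer1_of`** from the statement for the plain setups. -/
theorem nla_red_mid_oo (inst : ∀ m, Algebra Fk0 (FkM m)) (Nm : F → F)
    (h : ∀ g : F, g ∈ Soo.Ov → (∀ m, g ∈ (Sm m).Ov) → ∀ m,
      (Sm m).red (Nm g) = @algebraMap Fk0 (FkM m) _ _ (inst m) (Soo.red (Nm g))) :
    ∀ g : F, (∀ c, g ∈ (N.S c).Ov) → (∀ c, (N.S c).red g ≠ 0) → ∀ m,
      (N.S (Vtx.vert (Vrt.mid m))).red (Nm g) =
        @algebraMap (FkOf Fk0 FkM FkP (Vtx.vert Vrt.oo))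
          (FkOf Fk0 FkM FkP (Vtx.vert (Vrt.mid m))) _ _ (inst m)
          ((N.S (Vtx.vert Vrt.oo)).red (Nm g)) := by
  generalize N.S = S at hN
  subst hN
  intro g hg _ m
  exact h g (hg (Vtx.vert Vrt.oo)) (fun m => hg (Vtx.vert (Vrt.mid m))) m

include hN in
/-- **`red_zero` of `normLayer1_of`** from the statement for the plain setup `S0`. -/
theorem nla_red_pow_zero (q : ℕ) (Nm : F → F)
    (h : ∀ g : F, g ∈ S0.Ov → S0.red (Nm g) = S0.red g ^ q) :
    ∀ g : F, (∀ c, g ∈ (N.S c).Ov) → (∀ c, (N.S c).red g ≠ 0) →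
      (N.S (Vtx.vert Vrt.zero)).red (Nm g) = (N.S (Vtx.vert Vrt.zero)).red g ^ q := by
  generalize N.S = S at hN
  subst hN
  intro g hg _
  exact h g (hg (Vtx.vert Vrt.zero))

/-! ### the layer over `0` -/

include hN in
/-- **`red_zero` of `normLayer2_of`** from the norm formula for the plain setups. -/
theorem nla_red_norm_zero (inst : ∀ m, Algebra Fk0 (FkM m)) (Nm : F → F)
    (h : ∀ g : F, g ∈ S0.Ov → (∀ m, g ∈ (Sm m).Ov) →
      S0.red (Nm g) = S0.red g *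
        ∏ m, @Algebra.norm Fk0 (FkM m) _ _ (inst m) ((Sm m).red g)) :
    ∀ g : F, (∀ c, g ∈ (N.S c).Ov) → (∀ c, (N.S c).red g ≠ 0) →
      (N.S (Vtx.vert Vrt.zero)).red (Nm g) =
        (N.S (Vtx.vert Vrt.zero)).red g *
          ∏ m, @Algebra.norm (FkOf Fk0 FkM FkP (Vtx.vert Vrt.zero))
            (FkOf Fk0 FkM FkP (Vtx.vert (Vrt.mid m))) _ _ (inst m)
            ((N.S (Vtx.vert (Vrt.mid m))).red g) := by
  generalize N.S = S at hN
  subst hN
  intro g hg _
  exact h g (hg (Vtx.vert Vrt.zero)) (fun m => hg (Vtx.vert (Vrt.mid m)))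

include hN in
/-- **`red_mid` of `normLayer2_of`** from the statement for the plain setups. -/
theorem nla_red_mid_zero (inst : ∀ m, Algebra Fk0 (FkM m)) (Nm : F → F)
    (h : ∀ g : F, g ∈ S0.Ov → (∀ m, g ∈ (Sm m).Ov) → ∀ m,
      (Sm m).red (Nm g) = @algebraMap Fk0 (FkM m) _ _ (inst m) (S0.red (Nm g))) :
    ∀ g : F, (∀ c, g ∈ (N.S c).Ov) → (∀ c, (N.S c).red g ≠ 0) → ∀ m,
      (N.S (Vtx.vert (Vrt.mid m))).red (Nm g) =
        @algebraMap (FkOf Fk0 FkM FkP (Vtx.vert Vrt.zero))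
          (FkOf Fk0 FkM FkP (Vtx.vert (Vrt.mid m))) _ _ (inst m)
          ((N.S (Vtx.vert Vrt.zero)).red (Nm g)) := by
  generalize N.S = S at hN
  subst hN
  intro g hg _ m
  exact h g (hg (Vtx.vert Vrt.zero)) (fun m => hg (Vtx.vert (Vrt.mid m))) m

include hN in
/-- **`red_oo` of `normLayer2_of`** from the statement for the plain setup `Soo`. -/
theorem nla_red_pow_oo (q : ℕ) (Nm : F → F)
    (h : ∀ g : F, g ∈ Soo.Ov → Soo.red (Nm g) = Soo.red g ^ q) :
    ∀ g : F, (∀ c, g ∈ (N.S c).Ov) → (∀ c, (N.S c).red g ≠ 0) →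
      (N.S (Vtx.vert Vrt.oo)).red (Nm g) = (N.S (Vtx.vert Vrt.oo)).red g ^ q := by
  generalize N.S = S at hN
  subst hN
  intro g hg _
  exact h g (hg (Vtx.vert Vrt.oo))

/-! ### variants with the non-vanishing of the reduction -/

include hN in
/-- **`red_zero` of `normLayer1_of`** from the statement for the plain setup `S0` (with the
non-vanishing of the reduction). -/
theorem nla_red_pow_zero_ne (q : ℕ) (Nm : F → F)
    (h : ∀ g : F, g ∈ S0.Ov → S0.red g ≠ 0 → S0.red (Nm g) = S0.red g ^ q) :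
    ∀ g : F, (∀ c, g ∈ (N.S c).Ov) → (∀ c, (N.S c).red g ≠ 0) →
      (N.S (Vtx.vert Vrt.zero)).red (Nm g) = (N.S (Vtx.vert Vrt.zero)).red g ^ q := by
  generalize N.S = S at hN
  subst hN
  intro g hg hne
  exact h g (hg (Vtx.vert Vrt.zero)) (hne (Vtx.vert Vrt.zero))

include hN in
/-- **`red_oo` of `normLayer2_of`** from the statement for the plain setup `Soo` (with the
non-vanishing of the reduction). -/
theorem nla_red_pow_oo_ne (q : ℕ) (Nm : F → F)
    (h : ∀ g : F, g ∈ Soo.Ov → Soo.red g ≠ 0 → Soo.red (Nm g) = Soo.red g ^ q) :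
    ∀ g : F, (∀ c, g ∈ (N.S c).Ov) → (∀ c, (N.S c).red g ≠ 0) →
      (N.S (Vtx.vert Vrt.oo)).red (Nm g) = (N.S (Vtx.vert Vrt.oo)).red g ^ q := by
  generalize N.S = S at hN
  subst hN
  intro g hg hne
  exact h g (hg (Vtx.vert Vrt.oo)) (hne (Vtx.vert Vrt.oo))

end Fermat.Agent.S36G
end
end MergeWrap_S36_G_NormLayerAbs

section MergeWrap_S36_G_NormLayerRes -- from S36/G/NormLayerRes.lean

set_option autoImplicit false
set_option linter.unusedSectionVars false
set_option linter.style.haveILetI false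
set_option linter.unusedVariables false

/-!
# Cluster G (S36), block COC: the NORM arguments (RES) of the norm layers  (helper94)

`F = F_{M₀ q q}`, `k` the residue field of `A ∣ q`, `Soo` a Gauss setup, `S0 = valSetupZeroAt D hM Soo`
(`D.Q = q ^ 2`), `Sm m` the middle setups (pairwise incomparable, `|Mid| = midCard q`), the
algebra structure of `igField k M₀` over `F_k(M₀)` is `nrooAlg k M₀` (the inclusion).

PLAIN form (the hypothesis `h` of `nla_red_norm_oo`, `nla_red_norm_zero`, `S36/G/NormLayerAbs.lean`,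
VERBATIM; only the integrality of `g` is used):

* `nlr_norm_oo`, `nlr_norm_zero`           : for any system `z, ε, Sm`;
* `nlr_pack_norm_oo`, `nlr_pack_norm_zero` : for an Igusa pair `I : IgPack M₀ q A`
  (`Mid = Fin (midCard q)`, auxiliary level `nuTwo M₀ = 0`, `nuThree M₀ = 0`).

USE (the arguments `red_oo` of `normLayer1_of` and `red_zero` of `normLayer2_of`, for
`N.S = vtxFamily Soo (valSetupZeroAt D hM Soo) Sm SP`):
`nla_red_norm_oo N hN (fun _ => nrooAlg k M₀) _ (nlr_pack_norm_oo I hq hqM hA hν2 hν3 Soo hSoo)`,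
`nla_red_norm_zero N hN (fun _ => nrooAlg k M₀) _ (nlr_pack_norm_zero I .. Soo hSoo D hM hQ)`.

The degree (the argument `hdeg`, `e = midDeg q`):

* `nlr_finrank`, `nlr_pack_finrank` : `[igField k M₀ : F_k(M₀)] = midDeg q` for `nrooAlg`.
-/

noncomputable section

namespace Fermat.Agent.S36G

open ModularCurve AlgebraicCurve Fermat.Agent.F3 Fermat.Agent.F3G Fermat.Agent.GaussInt
  Fermat.Agent.AtkinLehner Fermat.Agent.Kronecker Fermat.Agent.BadRed Fermat.Agent.Deuring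
  Fermat.Agent.S36N Fermat.Agent.BadRedG

local notation "Qb" => AlgebraicClosure ℚ

set_option synthInstance.maxHeartbeats 400000

/-- shortcut (the instance found by unification is the same term, after a slow search). -/
local instance (priority := 10000) nlrAlgFullC (A : ValuationSubring Qb) (N : ℕ) :
    Algebra (IsLocalRing.ResidueField A)
      (modularFunctionFieldFullC (IsLocalRing.ResidueField A) N) :=
  SubalgebraClass.toAlgebra (modularFunctionFieldFullC (IsLocalRing.ResidueField A) N)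

/-- shortcut. -/
local instance (priority := 10000) nlrAlgIg (A : ValuationSubring Qb) (N : ℕ) :
    Algebra (IsLocalRing.ResidueField A) (igField (IsLocalRing.ResidueField A) N) :=
  SubalgebraClass.toAlgebra (igField (IsLocalRing.ResidueField A) N)

/-! ### the plain form -/

section Plain

variable {M₀ q : ℕ} [NeZero M₀] [NeZero q] {A : ValuationSubring Qb}
  (hq : q.Prime) (hqM : ¬ q ∣ M₀) (hA : A.LiesOverPrime q)
  {Mid : Type} [Fintype Mid]
  (z : Mid → Qbˣ) (hz : ∀ m, IsPrimitiveRoot (z m) q)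
  (ε : Mid → (FBar (M₀ * q * q) →ₐ[Qb] LaurentSeries Qb))
  (hε : ∀ m, IsMidExp M₀ q (z m) (ε m))
  (Soo : ValSetup Qb (FBar (M₀ * q * q)) (IsLocalRing.ResidueField A)
    (modularFunctionFieldFullC (IsLocalRing.ResidueField A) M₀))
  (hSoo : IsGaussSetup (M₀ * q * q) M₀ A Soo)
  (Sm : Mid → ValSetup Qb (FBar (M₀ * q * q)) (IsLocalRing.ResidueField A)
    (igField (IsLocalRing.ResidueField A) M₀))
  (hSm : ∀ m, IsMidSetup M₀ q A (ε m) (Sm m))

include hq hqM hA hz hε hSoo hSm in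
/-- **the norm formula over `∞`**, in the shape of the hypothesis `h` of `nla_red_norm_oo`. -/
theorem nlr_norm_oo (hPow : IgPowIndepRes M₀ q) (hcard : Fintype.card Mid = midCard q)
    (hne : ∀ m m', m ≠ m' → ¬ (Sm m).Ov ≤ (Sm m').Ov) :
    ∀ g : FBar (M₀ * q * q), g ∈ Soo.Ov → (∀ m, g ∈ (Sm m).Ov) →
      Soo.red (nm1 (M₀ * q) q g) = Soo.red g *
        ∏ m, @Algebra.norm ↥(modularFunctionFieldFullC (IsLocalRing.ResidueField A) M₀)
          ↥(igField (IsLocalRing.ResidueField A) M₀) _ _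
          (nrooAlg (IsLocalRing.ResidueField A) M₀) ((Sm m).red g) := by
  intro g hg hgm
  have h := (nroo_red_oo hq hqM hA z hz ε hε Soo hSoo Sm hSm hPow hcard hne hg hgm).2
  simp only [nrooNm_apply] at h
  exact h

include hq hqM hA hz hε hSoo hSm in
/-- **the norm formula over `0`**, in the shape of the hypothesis `h` of `nla_red_norm_zero`. -/
theorem nlr_norm_zero (D : ALData) (hM : M₀ * q * q = D.Q * D.R) (hQ : D.Q = q ^ 2)
    (hPow : IgPowIndepRes M₀ q) (hcard : Fintype.card Mid = midCard q)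
    (hne : ∀ m m', m ≠ m' → ¬ (Sm m).Ov ≤ (Sm m').Ov) :
    ∀ g : FBar (M₀ * q * q), g ∈ (valSetupZeroAt D hM Soo).Ov → (∀ m, g ∈ (Sm m).Ov) →
      (valSetupZeroAt D hM Soo).red (nm2 (M₀ * q) q D hM g) =
        (valSetupZeroAt D hM Soo).red g *
          ∏ m, @Algebra.norm ↥(modularFunctionFieldFullC (IsLocalRing.ResidueField A) M₀)
            ↥(igField (IsLocalRing.ResidueField A) M₀) _ _
            (nrooAlg (IsLocalRing.ResidueField A) M₀) ((Sm m).red g) := by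
  intro g hg hgm
  have h := (nroo_red_zero hq hqM hA D hM hQ z hz ε hε Soo hSoo Sm hSm hPow hcard hne hg hgm).2
  simp only [nrooNm_apply] at h
  exact h

include hq hqM hA hz hε hSoo hSm in
/-- **the argument `hdeg`** (`e = midDeg q`) for the algebra structure `nrooAlg`. -/
theorem nlr_finrank (hPow : IgPowIndepRes M₀ q) (hcard : Fintype.card Mid = midCard q)
    (hne : ∀ m m', m ≠ m' → ¬ (Sm m).Ov ≤ (Sm m').Ov) (m : Mid) :
    @Module.finrank ↥(modularFunctionFieldFullC (IsLocalRing.ResidueField A) M₀)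
      ↥(igField (IsLocalRing.ResidueField A) M₀) _ _
      (nrooAlg (IsLocalRing.ResidueField A) M₀).toModule = midDeg q :=
  (nroo_finrank hq hqM hA z hz ε hε Soo hSoo Sm hSm hPow hcard hne m).2

end Plain

/-! ### the plain form for an Igusa pair -/

section Pack

variable {M₀ q : ℕ} [NeZero M₀] [NeZero q] {A : ValuationSubring Qb}
  (I : IgPack M₀ q A) (hq : q.Prime) (hqM : ¬ q ∣ M₀) (hA : A.LiesOverPrime q)
  (hν2 : nuTwo M₀ = 0) (hν3 : nuThree M₀ = 0)
  (Soo : ValSetup Qb (FBar (M₀ * q * q)) (IsLocalRing.ResidueField A)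
    (modularFunctionFieldFullC (IsLocalRing.ResidueField A) M₀))
  (hSoo : IsGaussSetup (M₀ * q * q) M₀ A Soo)

include hq hqM hA hν2 hν3 hSoo in
/-- **the norm formula over `∞` for an Igusa pair** (the hypothesis `h` of `nla_red_norm_oo`). -/
theorem nlr_pack_norm_oo :
    ∀ g : FBar (M₀ * q * q), g ∈ Soo.Ov → (∀ m, g ∈ (I.S m).Ov) →
      Soo.red (nm1 (M₀ * q) q g) = Soo.red g *
        ∏ m, @Algebra.norm ↥(modularFunctionFieldFullC (IsLocalRing.ResidueField A) M₀)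
          ↥(igField (IsLocalRing.ResidueField A) M₀) _ _
          (nrooAlg (IsLocalRing.ResidueField A) M₀) ((I.S m).red g) :=
  nlr_norm_oo hq hqM hA I.z I.prim I.ε I.isMidExp Soo hSoo I.S I.isMidSetup
    (igPowIndepRes_of_degreeRes M₀ q (igDegreeRes_aux M₀ q hν2 hν3)) (Fintype.card_fin _)
    I.indep

include hq hqM hA hν2 hν3 hSoo in
/-- **the norm formula over `0` for an Igusa pair** (the hypothesis `h` of
`nla_red_norm_zero`). -/
theorem nlr_pack_norm_zero (D : ALData) (hM : M₀ * q * q = D.Q * D.R) (hQ : D.Q = q ^ 2) :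
    ∀ g : FBar (M₀ * q * q), g ∈ (valSetupZeroAt D hM Soo).Ov → (∀ m, g ∈ (I.S m).Ov) →
      (valSetupZeroAt D hM Soo).red (nm2 (M₀ * q) q D hM g) =
        (valSetupZeroAt D hM Soo).red g *
          ∏ m, @Algebra.norm ↥(modularFunctionFieldFullC (IsLocalRing.ResidueField A) M₀)
            ↥(igField (IsLocalRing.ResidueField A) M₀) _ _
            (nrooAlg (IsLocalRing.ResidueField A) M₀) ((I.S m).red g) :=
  nlr_norm_zero hq hqM hA I.z I.prim I.ε I.isMidExp Soo hSoo I.S I.isMidSetup D hM hQ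
    (igPowIndepRes_of_degreeRes M₀ q (igDegreeRes_aux M₀ q hν2 hν3)) (Fintype.card_fin _)
    I.indep

include I hq hqM hA hν2 hν3 in
/-- **the argument `hdeg`** (`e = midDeg q`) for an Igusa pair. -/
theorem nlr_pack_finrank :
    @Module.finrank ↥(modularFunctionFieldFullC (IsLocalRing.ResidueField A) M₀)
      ↥(igField (IsLocalRing.ResidueField A) M₀) _ _
      (nrooAlg (IsLocalRing.ResidueField A) M₀).toModule = midDeg q :=
  (igPack_finrank I hq hqM hA hν2 hν3).2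

end Pack

end Fermat.Agent.S36G
end
end MergeWrap_S36_G_NormLayerRes

section MergeWrap_S36_G_NormLayerPI -- from S36/G/NormLayerPI.lean

set_option autoImplicit false
set_option linter.unusedSectionVars false
set_option linter.unusedVariables false
set_option linter.style.haveILetI false
set_option synthInstance.maxHeartbeats 400000
set_option maxHeartbeats 1000000

noncomputable section

namespace Fermat.Agent.S36G

open ModularCurve AlgebraicCurve Fermat.Agent.F3 Fermat.Agent.F3G Fermat.Agent.GaussInt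
  Fermat.Agent.AtkinLehner Fermat.Agent.Kronecker Fermat.Agent.BadRed Fermat.Agent.BadRedG
  Fermat.Agent.Deuring Fermat.Agent.S36N

local notation "Qb" => AlgebraicClosure ℚ

attribute [local instance 10000] SubalgebraClass.toAlgebra HahnSeries.powerSeriesAlgebra

variable {M₀ q : ℕ} [NeZero M₀] [NeZero q] {A : ValuationSubring Qb}

/-! ### the auxiliary data at the level `M₀ q` -/

omit [NeZero q] in
/-- the auxiliary datum `D₁` (`Q = q`, `R = M₀`) of a datum `D` with `D.Q = q ^ 2` at the level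
`M₀ q q`. -/
theorem nlpi_exists_aux (hq : q.Prime) (hqM : ¬ q ∣ M₀) (D : ALData)
    (hM : M₀ * q * q = D.Q * D.R) (hDQ : D.Q = q ^ 2) :
    ∃ D₁ : ALData, D.Q = D₁.Q * q ∧ D.R = D₁.R ∧ M₀ * q = D₁.Q * D₁.R := by
  have hM₀pos : 0 < M₀ := Nat.pos_of_ne_zero (NeZero.ne M₀)
  have hcop : Nat.Coprime q M₀ := (Nat.Prime.coprime_iff_not_dvd hq).mpr hqM
  obtain ⟨D₁, hQ₁, hR₁⟩ := ALData.exists_of_coprime hq.pos hM₀pos hcop
  have hR : D.R = M₀ := by
    have h3 : q ^ 2 * D.R = q ^ 2 * M₀ := by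
      have h4 : D.Q * D.R = M₀ * q * q := hM.symm
      rw [hDQ] at h4
      rw [h4]
      ring
    exact Nat.eq_of_mul_eq_mul_left (pow_pos hq.pos 2) h3
  refine ⟨D₁, ?_, ?_, ?_⟩
  · rw [hDQ, hQ₁, sq]
  · rw [hR, hR₁]
  · rw [hQ₁, hR₁, mul_comm]

/-- a Gauss setup of `F₁ = F_{M₀ q}` with residue field `F_k(M₀)`. -/
theorem nlpi_exists_gauss (hq : q.Prime) (hqM : ¬ q ∣ M₀) (hA : A.LiesOverPrime q) :
    ∃ S₁ : ValSetup Qb (FBar (M₀ * q)) (IsLocalRing.ResidueField A)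
        (modularFunctionFieldFullC (IsLocalRing.ResidueField A) M₀),
      IsGaussSetup (M₀ * q) M₀ A S₁ := by
  obtain ⟨S₁, hS₁, -⟩ := exists_isGaussSetup_bad hq hqM A hA (M₀ * q) rfl
    (modFactsAt M₀ q hq hqM A hA)
  exact ⟨S₁, hS₁⟩

/-! ### the formulas for the setups -/

section Setups

variable (Soo : ValSetup Qb (FBar (M₀ * q * q)) (IsLocalRing.ResidueField A)
    (modularFunctionFieldFullC (IsLocalRing.ResidueField A) M₀))
  (hSoo : IsGaussSetup (M₀ * q * q) M₀ A Soo)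
  (D₀ : ALData) (hM₀ : M₀ * q * q = D₀.Q * D₀.R) (hDQ : D₀.Q = q ^ 2)

include hSoo hDQ in
/-- **`π₁` at `v_0`**: `nm1 g` is integral and `red_0 (nm1 g) = (red_0 g) ^ q`. -/
theorem nlpi_red_zero1_of (hq : q.Prime) (hqM : ¬ q ∣ M₀) (hA : A.LiesOverPrime q)
    {g : FBar (M₀ * q * q)} (hg : (valSetupZeroAt D₀ hM₀ Soo).red g ≠ 0) :
    nm1 (M₀ * q) q g ∈ (valSetupZeroAt D₀ hM₀ Soo).Ov ∧
      (valSetupZeroAt D₀ hM₀ Soo).red (nm1 (M₀ * q) q g) =
        (valSetupZeroAt D₀ hM₀ Soo).red g ^ q := by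
  haveI : Fact q.Prime := ⟨hq⟩
  haveI : CharP (IsLocalRing.ResidueField A) q := Fermat.Agent.FrobTrace.charP_residueField A hA
  haveI : IsAlgClosed (IsLocalRing.ResidueField A) := Fermat.Agent.GaussInt.isAlgClosed_residue A
  haveI : PerfectRing (IsLocalRing.ResidueField A) q := inferInstance
  obtain ⟨D₁, hQ, hR, hN₁⟩ := nlpi_exists_aux hq hqM D₀ hM₀ hDQ
  obtain ⟨S₁, hS₁⟩ := nlpi_exists_gauss (A := A) hq hqM hA
  exact red_zero_alpha_norm S₁ Soo hS₁ hSoo hA (Dvd.intro_left M₀ rfl) D₁ D₀ hQ hR hN₁ hM₀ hg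

include hSoo hDQ in
/-- **`π₂` at `v_∞`**: `nm2 g` is integral and `red_∞ (nm2 g) = (red_∞ g) ^ q`. -/
theorem nlpi_red_oo2_of (hq : q.Prime) (hqM : ¬ q ∣ M₀) (hA : A.LiesOverPrime q)
    {g : FBar (M₀ * q * q)} (hg : Soo.red g ≠ 0) :
    nm2 (M₀ * q) q D₀ hM₀ g ∈ Soo.Ov ∧
      Soo.red (nm2 (M₀ * q) q D₀ hM₀ g) = Soo.red g ^ q := by
  haveI : Fact q.Prime := ⟨hq⟩
  haveI : CharP (IsLocalRing.ResidueField A) q := Fermat.Agent.FrobTrace.charP_residueField A hA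
  haveI : IsAlgClosed (IsLocalRing.ResidueField A) := Fermat.Agent.GaussInt.isAlgClosed_residue A
  haveI : PerfectRing (IsLocalRing.ResidueField A) q := inferInstance
  obtain ⟨D₁, hQ, hR, hN₁⟩ := nlpi_exists_aux hq hqM D₀ hM₀ hDQ
  obtain ⟨S₁, hS₁⟩ := nlpi_exists_gauss (A := A) hq hqM hA
  exact red_inf_W_alpha_norm S₁ Soo hS₁ hSoo hA (Dvd.intro_left M₀ rfl) D₁ D₀ hQ hR hN₁ hM₀ hg

end Setups

/-! ### the family form -/

section Family

variable {Mid SS : Type}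
  {FkM : Mid → Type} [∀ m, Field (FkM m)] [∀ m, Algebra (IsLocalRing.ResidueField A) (FkM m)]
  {FkP : SS → Type} [∀ P, Field (FkP P)] [∀ P, Algebra (IsLocalRing.ResidueField A) (FkP P)]
  (N : GraphSetup Qb (FBar (M₀ * q * q)) (IsLocalRing.ResidueField A) (Vtx Mid SS)
    (FkOf ↥(modularFunctionFieldFullC (IsLocalRing.ResidueField A) M₀) FkM FkP) (Nod Mid SS))
  {Soo : ValSetup Qb (FBar (M₀ * q * q)) (IsLocalRing.ResidueField A)
    ↥(modularFunctionFieldFullC (IsLocalRing.ResidueField A) M₀)}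
  {Sm : ∀ m, ValSetup Qb (FBar (M₀ * q * q)) (IsLocalRing.ResidueField A) (FkM m)}
  {SP : ∀ P, ValSetup Qb (FBar (M₀ * q * q)) (IsLocalRing.ResidueField A) (FkP P)}
  (hSoo : IsGaussSetup (M₀ * q * q) M₀ A Soo)
  (D₀ : ALData) (hM₀ : M₀ * q * q = D₀.Q * D₀.R) (hDQ : D₀.Q = q ^ 2)
  (hN : N.S = vtxFamily Soo (valSetupZeroAt D₀ hM₀ Soo) Sm SP)

include hN in
/-- the constant reduction of `N` at the vertex `0` is `v_0 = v_∞ ∘ w`. -/
theorem nlpi_S_zero : N.S (Vtx.vert Vrt.zero) = valSetupZeroAt D₀ hM₀ Soo := by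
  rw [hN]
  rfl

include hN in
/-- the constant reduction of `N` at the vertex `∞` is `v_∞`. -/
theorem nlpi_S_oo : N.S (Vtx.vert Vrt.oo) = Soo := by
  rw [hN]
  rfl

include hSoo hDQ hN in
/-- `nm1 g` is integral at `v_0`. -/
theorem nlpi_mem_zero1 (hq : q.Prime) (hqM : ¬ q ∣ M₀) (hA : A.LiesOverPrime q)
    {g : FBar (M₀ * q * q)} (hg : (N.S (Vtx.vert Vrt.zero)).red g ≠ 0) :
    nm1 (M₀ * q) q g ∈ (N.S (Vtx.vert Vrt.zero)).Ov := by
  rw [nlpi_S_zero N D₀ hM₀ hN] at hg ⊢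
  exact (nlpi_red_zero1_of Soo hSoo D₀ hM₀ hDQ hq hqM hA hg).1

include hSoo hDQ hN in
/-- **the argument `red_zero` of `normLayer1_of`** (`Nm = nm1 (M₀ q) q`), verbatim. -/
theorem nlpi_red_zero1 (hq : q.Prime) (hqM : ¬ q ∣ M₀) (hA : A.LiesOverPrime q) :
    ∀ g : FBar (M₀ * q * q), (∀ c, g ∈ (N.S c).Ov) → (∀ c, (N.S c).red g ≠ 0) →
      (N.S (Vtx.vert Vrt.zero)).red (nm1 (M₀ * q) q g) =
        (N.S (Vtx.vert Vrt.zero)).red g ^ q := by
  intro g _ hg
  have h := hg (Vtx.vert Vrt.zero)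
  rw [nlpi_S_zero N D₀ hM₀ hN] at h ⊢
  exact (nlpi_red_zero1_of Soo hSoo D₀ hM₀ hDQ hq hqM hA h).2

include hSoo hDQ hN in
/-- `nm2 g` is integral at `v_∞`. -/
theorem nlpi_mem_oo2 (hq : q.Prime) (hqM : ¬ q ∣ M₀) (hA : A.LiesOverPrime q)
    {g : FBar (M₀ * q * q)} (hg : (N.S (Vtx.vert Vrt.oo)).red g ≠ 0) :
    nm2 (M₀ * q) q D₀ hM₀ g ∈ (N.S (Vtx.vert Vrt.oo)).Ov := by
  rw [nlpi_S_oo N D₀ hM₀ hN] at hg ⊢
  exact (nlpi_red_oo2_of Soo hSoo D₀ hM₀ hDQ hq hqM hA hg).1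

include hSoo hDQ hN in
/-- **the argument `red_oo` of `normLayer2_of`** (`Nm = nm2 (M₀ q) q D₀ hM₀`), verbatim. -/
theorem nlpi_red_oo2 (hq : q.Prime) (hqM : ¬ q ∣ M₀) (hA : A.LiesOverPrime q) :
    ∀ g : FBar (M₀ * q * q), (∀ c, g ∈ (N.S c).Ov) → (∀ c, (N.S c).red g ≠ 0) →
      (N.S (Vtx.vert Vrt.oo)).red (nm2 (M₀ * q) q D₀ hM₀ g) =
        (N.S (Vtx.vert Vrt.oo)).red g ^ q := by
  intro g _ hg
  have h := hg (Vtx.vert Vrt.oo)
  rw [nlpi_S_oo N D₀ hM₀ hN] at h ⊢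
  exact (nlpi_red_oo2_of Soo hSoo D₀ hM₀ hDQ hq hqM hA h).2

end Family

end Fermat.Agent.S36G
end
end MergeWrap_S36_G_NormLayerPI

section MergeWrap_S36_G_NrMid -- from S36/G/NrMid.lean

set_option autoImplicit false
set_option linter.unusedSectionVars false
set_option linter.style.haveILetI false
set_option linter.unusedVariables false

/-!
# Cluster G (S36), seat NR-MID: the fields `red_mid` of `NormLayer1`, `NormLayer2`  (helper83)

`q` prime, `A ∣ q`, `k` the residue field of `A`, `F = F_{M₀ q q}`, `F₁ = F_{M₀ q}`,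
`α = heckeAlphaBar` (`π₁^*`), `W = wAt D hM` (`w_{q²}`, `D.Q = q * q`, `D.R = M₀`).
`Soo` a Gauss setup of `F` (`IsGaussSetup`), `S0 = valSetupZeroAt D hM Soo`, `Sm` the constant
reduction of a middle expansion `ε` (`IsMidExp M₀ q z ε`, `IsMidSetup M₀ q A ε Sm`).

* `nrMidJm k M₀`          : `jm`, the inclusion `F_k(M₀) → igField k M₀` as a ring homomorphism;
* `nrMid_scaleL_res`      : `q ↦ z q` (`z ^ q = 1`) is the identity on the residues of the Gauss
                            ring of `ℚ̄((q))`;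
* `nrMid_eps_wAt_alpha`   : `ε (W (α x)) = x (z q)` for all `x ∈ F₁`;
* `nrMid_red_alpha`       : `Sm.red (α x) = jm (Soo.red (α x))` for ALL `x ∈ F₁`;
* `nrMid_red_wAt_alpha`   : `Sm.red (W (α x)) = jm (S0.red (W (α x)))` for ALL `x ∈ F₁`;
* `nrMid_red_mid1`        : `Sm.red (nm1 g) = jm (Soo.red (nm1 g))`  (`NormLayer1.red_mid`);
* `nrMid_red_mid2`        : `Sm.red (nm2 g) = jm (S0.red (nm2 g))`   (`NormLayer2.red_mid`).

No hypothesis on `g` is needed (both sides vanish outside the valuation rings).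
-/

noncomputable section

namespace Fermat.Agent.S36G

open ModularCurve AlgebraicCurve Fermat.Agent.F3 Fermat.Agent.F3G Fermat.Agent.GaussInt
  Fermat.Agent.AtkinLehner Fermat.Agent.Kronecker Fermat.Agent.BadRed Fermat.Agent.Deuring
  Fermat.Agent.S36N

local notation "Qb" => AlgebraicClosure ℚ

attribute [local instance 10000] SubalgebraClass.toAlgebra HahnSeries.powerSeriesAlgebra

set_option synthInstance.maxHeartbeats 400000

/-- shortcut (the instance found by unification is the same term, after a slow search). -/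
local instance (priority := 10000) nrMidAlgFullC (A : ValuationSubring Qb) (N : ℕ) :
    Algebra (IsLocalRing.ResidueField A)
      (modularFunctionFieldFullC (IsLocalRing.ResidueField A) N) :=
  SubalgebraClass.toAlgebra (modularFunctionFieldFullC (IsLocalRing.ResidueField A) N)

/-- shortcut. -/
local instance (priority := 10000) nrMidAlgIg (A : ValuationSubring Qb) (N : ℕ) :
    Algebra (IsLocalRing.ResidueField A) (igField (IsLocalRing.ResidueField A) N) :=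
  SubalgebraClass.toAlgebra (igField (IsLocalRing.ResidueField A) N)

/-! ### the inclusion `jm` -/

/-- **`jm`**: the inclusion of the residue field `F_k(M₀)` of `v_∞` (and of `v_0`) in the
residue field `igField k M₀` of a middle valuation. -/
def nrMidJm (k : Type*) [Field k] (M₀ : ℕ) :
    ↥(modularFunctionFieldFullC k M₀) →+* ↥(igField k M₀) :=
  (IntermediateField.inclusion (fullC_le_igField k M₀)).toRingHom

theorem coe_nrMidJm (k : Type*) [Field k] (M₀ : ℕ) (y : ↥(modularFunctionFieldFullC k M₀)) :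
    ((nrMidJm k M₀ y : ↥(igField k M₀)) : LaurentSeries k) = (y : LaurentSeries k) :=
  IntermediateField.coe_inclusion _ y

theorem nrMidJm_eq_inclusion (k : Type*) [Field k] (M₀ : ℕ)
    (y : ↥(modularFunctionFieldFullC k M₀)) :
    nrMidJm k M₀ y = IntermediateField.inclusion (fullC_le_igField k M₀) y := rfl

/-! ### `q ↦ z q` on the Gauss ring of `ℚ̄((q))` -/

section Scale

variable {K : Type*} [Field K] (A : ValuationSubring K)

/-- `q ↦ u q`, `u ∈ Aˣ`, preserves the presentations. -/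
theorem nrMid_isPres_scaleL (u : (↥A)ˣ) {f : LaurentSeries K} {Y₁ Y₂ : LaurentSeries ↥A}
    (h : IsPres A (⊤ : IntermediateField K (LaurentSeries K)) f Y₁ Y₂) :
    IsPres A (⊤ : IntermediateField K (LaurentSeries K))
      (scaleL (Units.map (A.subtype : ↥A →* K) u) f) (scaleL u Y₁) (scaleL u Y₂) where
  mem₁ := IntermediateField.mem_top
  mem₂ := IntermediateField.mem_top
  prim := by
    have e : red A (scaleL u Y₂) =
        scaleL (Units.map ((IsLocalRing.residue ↥A : ↥A →+* IsLocalRing.ResidueField ↥A) :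
          ↥A →* IsLocalRing.ResidueField ↥A) u) (red A Y₂) :=
      coeffMap_scaleL (IsLocalRing.residue ↥A) u Y₂
    rw [e]
    exact (map_ne_zero _).mpr h.prim
  eq := by
    have e₁ : emb A (scaleL u Y₁) = scaleL (Units.map (A.subtype : ↥A →* K) u) (emb A Y₁) :=
      coeffMap_scaleL A.subtype u Y₁
    have e₂ : emb A (scaleL u Y₂) = scaleL (Units.map (A.subtype : ↥A →* K) u) (emb A Y₂) :=
      coeffMap_scaleL A.subtype u Y₂
    rw [e₁, e₂, ← map_mul, h.eq]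

/-- the residue of `f (u q)` is `f̄ (ū q)`. -/
theorem nrMid_gaussResFun_scaleL (u : (↥A)ˣ) {f : LaurentSeries K}
    (hf : f ∈ gaussSub A (⊤ : IntermediateField K (LaurentSeries K))) :
    gaussResFun A (⊤ : IntermediateField K (LaurentSeries K))
        (scaleL (Units.map (A.subtype : ↥A →* K) u) f) =
      scaleL (Units.map ((IsLocalRing.residue ↥A : ↥A →+* IsLocalRing.ResidueField ↥A) :
          ↥A →* IsLocalRing.ResidueField ↥A) u)
        (gaussResFun A (⊤ : IntermediateField K (LaurentSeries K)) f) := by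
  obtain ⟨Y₁, Y₂, h⟩ := hf
  rw [gaussResFun_eq (nrMid_isPres_scaleL A u h), gaussResFun_eq h, map_div₀]
  congr 1
  · exact coeffMap_scaleL (IsLocalRing.residue ↥A) u Y₁
  · exact coeffMap_scaleL (IsLocalRing.residue ↥A) u Y₂

/-- the residue function vanishes outside the Gauss ring. -/
theorem nrMid_gaussResFun_of_not_mem (F : IntermediateField K (LaurentSeries K))
    {f : LaurentSeries K} (hf : f ∉ gaussSub A F) : gaussResFun A F f = 0 := by
  unfold gaussResFun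
  rw [dif_neg]
  exact hf

/-- `f (u q)` is in the Gauss ring iff `f` is. -/
theorem nrMid_scaleL_mem_iff (u : (↥A)ˣ) (f : LaurentSeries K) :
    scaleL (Units.map (A.subtype : ↥A →* K) u) f ∈
        gaussSub A (⊤ : IntermediateField K (LaurentSeries K)) ↔
      f ∈ gaussSub A (⊤ : IntermediateField K (LaurentSeries K)) := by
  constructor
  · rintro ⟨Y₁, Y₂, h⟩
    have h' := nrMid_isPres_scaleL A u⁻¹ h
    have e : scaleL (Units.map (A.subtype : ↥A →* K) u⁻¹)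
        (scaleL (Units.map (A.subtype : ↥A →* K) u) f) = f := by
      rw [← scaleL_mul, ← map_mul, inv_mul_cancel, map_one, scaleL_one]
    rw [e] at h'
    exact ⟨_, _, h'⟩
  · rintro ⟨Y₁, Y₂, h⟩
    exact ⟨_, _, nrMid_isPres_scaleL A u h⟩

end Scale

section ScaleQ

variable {q : ℕ} (hq : q.Prime) (A : ValuationSubring Qb) (hA : A.LiesOverPrime q)

include hq hA in
/-- **`q ↦ z q`, `z ^ q = 1`, is the identity on the residues.** -/
theorem nrMid_scaleL_res (z : Qbˣ) (hz : z ^ q = 1) (f : LaurentSeries Qb) :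
    gaussResFun A (⊤ : IntermediateField Qb (LaurentSeries Qb)) (scaleL z f) =
      gaussResFun A (⊤ : IntermediateField Qb (LaurentSeries Qb)) f := by
  have hzu : Units.map (A.subtype : ↥A →* Qb) (igRootUnit A hq.pos z hz) = z :=
    igRootUnit_map A hq.pos z hz
  by_cases hf : f ∈ gaussSub A (⊤ : IntermediateField Qb (LaurentSeries Qb))
  · have h := nrMid_gaussResFun_scaleL A (igRootUnit A hq.pos z hz) hf
    rw [hzu, igRootUnit_res A hq hA z hz, scaleL_one] at h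
    exact h
  · have hf' : scaleL z f ∉ gaussSub A (⊤ : IntermediateField Qb (LaurentSeries Qb)) := by
      intro h
      apply hf
      rw [← hzu] at h
      exact (nrMid_scaleL_mem_iff A (igRootUnit A hq.pos z hz) f).mp h
    rw [nrMid_gaussResFun_of_not_mem A _ hf, nrMid_gaussResFun_of_not_mem A _ hf']

end ScaleQ

/-! ### the residues of the constant reductions, for ALL functions -/

section Coe

variable {q : ℕ} (hq : q.Prime) (A : ValuationSubring Qb) (hA : A.LiesOverPrime q)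

include hq hA in
/-- the residue of a Gauss setup is the residue in the Gauss ring of `ℚ̄((q))`, for ALL `f`. -/
theorem nrMid_coe_red_gauss {M N₀ : ℕ} [NeZero M] [NeZero N₀]
    (S : ValSetup Qb (FBar M) (IsLocalRing.ResidueField A)
      (modularFunctionFieldFullC (IsLocalRing.ResidueField A) N₀))
    (hS : IsGaussSetup M N₀ A S) (f : FBar M) :
    ((S.red f : modularFunctionFieldFullC (IsLocalRing.ResidueField A) N₀) :
        LaurentSeries (IsLocalRing.ResidueField A)) =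
      gaussResFun A (⊤ : IntermediateField Qb (LaurentSeries Qb)) (f : LaurentSeries Qb) := by
  by_cases hf : f ∈ S.Ov
  · have h1 : (f : LaurentSeries Qb) ∈ gaussSub A (modularFunctionFieldBar M) :=
      (hS.mem_iff f).mp hf
    rw [hS.coe_red f hf, gaussResFun_mono le_top h1]
  · have h1 : (f : LaurentSeries Qb) ∉
        gaussSub A (⊤ : IntermediateField Qb (LaurentSeries Qb)) := by
      intro h
      apply hf
      have h2 : f ∈ gaussOv M hq A hA := (ig_mem_gaussSub_top_iff M hq A hA f).mp h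
      have h3 : (f : LaurentSeries Qb) ∈ gaussSub A (modularFunctionFieldBar M) :=
        (mem_gaussValSub_iff _ f).mp h2
      exact (hS.mem_iff f).mpr h3
    rw [S.red_of_not_mem hf, nrMid_gaussResFun_of_not_mem A _ h1]
    rfl

/-- the residue of a middle setup is the residue of the expansion, for ALL `f`. -/
theorem nrMid_coe_red_mid {M₀ : ℕ} [NeZero M₀] [NeZero q]
    {ε : ↥(modularFunctionFieldBar (M₀ * q * q)) →ₐ[Qb] LaurentSeries Qb}
    (Sm : ValSetup Qb ↥(modularFunctionFieldBar (M₀ * q * q)) (IsLocalRing.ResidueField A)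
      ↥(igField (IsLocalRing.ResidueField A) M₀))
    (hSm : IsMidSetup M₀ q A ε Sm) (f : ↥(modularFunctionFieldBar (M₀ * q * q))) :
    ((Sm.red f : ↥(igField (IsLocalRing.ResidueField A) M₀)) :
        LaurentSeries (IsLocalRing.ResidueField A)) =
      gaussResFun A (⊤ : IntermediateField Qb (LaurentSeries Qb)) (ε f) := by
  by_cases hf : f ∈ Sm.Ov
  · rw [hSm.coe_red f hf]
    rfl
  · have h1 : ε f ∉ gaussSub A (⊤ : IntermediateField Qb (LaurentSeries Qb)) := by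
      intro h
      exact hf ((hSm.mem_iff f).mpr ((mem_expOv_iff ε A f).mpr h))
    rw [Sm.red_of_not_mem hf, nrMid_gaussResFun_of_not_mem A _ h1]
    rfl

end Coe

/-! ### the middle expansion of `W (α x)` -/

section Exp

variable {M₀ q : ℕ} [NeZero M₀] [NeZero q]

/-- `q ∤ M₀` from the Atkin–Lehner data. -/
theorem nrMid_not_dvd (hq : q.Prime) (D : ALData) (hDQ : D.Q = q * q) (hDR : D.R = M₀) :
    ¬ q ∣ M₀ := by
  intro h
  have h1 : (q : ℤ) ∣ (D.Q : ℤ) * D.a - (D.R : ℤ) * D.b := by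
    apply dvd_sub
    · apply Dvd.dvd.mul_right
      rw [hDQ]
      push_cast
      exact Dvd.intro _ rfl
    · apply Dvd.dvd.mul_right
      rw [hDR]
      exact_mod_cast h
  rw [D.hdet] at h1
  have h2 : q ∣ 1 := by exact_mod_cast h1
  exact hq.one_lt.ne' (Nat.dvd_one.mp h2)

/-- **the middle expansion of `W (α x)` is `x (z q)`.** -/
theorem nrMid_eps_wAt_alpha (hq : q.Prime) {z : Qbˣ} (hz : z ^ q = 1)
    {ε : ↥(modularFunctionFieldBar (M₀ * q * q)) →ₐ[Qb] LaurentSeries Qb}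
    (hε : IsMidExp M₀ q z ε) (D : ALData) (hDQ : D.Q = q * q) (hDR : D.R = M₀)
    (hM : M₀ * q * q = D.Q * D.R) (x : FBar (M₀ * q)) :
    ε (wAt D hM (heckeAlphaBar Qb (M₀ * q) q x)) = scaleL z (x : LaurentSeries Qb) := by
  have hqM : ¬ q ∣ M₀ := nrMid_not_dvd hq D hDQ hDR
  let Φ₁ : FBar (M₀ * q) →+* LaurentSeries Qb :=
    (ε : FBar (M₀ * q * q) →+* LaurentSeries Qb).comp
      (((wAt D hM : FBar (M₀ * q * q) ≃ₐ[Qb] FBar (M₀ * q * q)) :
          FBar (M₀ * q * q) →+* FBar (M₀ * q * q)).comp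
        (heckeAlphaBar Qb (M₀ * q) q).toRingHom)
  let Φ₂ : FBar (M₀ * q) →+* LaurentSeries Qb :=
    (scaleL z).comp (algebraMap (FBar (M₀ * q)) (LaurentSeries Qb))
  have key : Φ₁ = Φ₂ := by
    apply ringHom_ext_FBar
    · intro c
      show ε (wAt D hM (heckeAlphaBar Qb (M₀ * q) q (algebraMap Qb _ c))) =
        scaleL z ((algebraMap Qb (FBar (M₀ * q)) c : FBar (M₀ * q)) : LaurentSeries Qb)
      rw [AlgHom.commutes, AlgEquiv.commutes, AlgHom.commutes]
      exact (scaleL_algebraMap z c).symm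
    · intro d hdne hd
      show ε (wAt D hM (heckeAlphaBar Qb (M₀ * q) q (jdBar (M₀ * q) d hd))) =
        scaleL z ((jdBar (M₀ * q) d hd : FBar (M₀ * q)) : LaurentSeries Qb)
      have hd' : d ∣ D.Q * D.R := by
        rw [← hM]
        exact Dvd.dvd.mul_right hd q
      obtain ⟨d₁, e₁, d₂, f₂, h1, h2, hdd⟩ := exists_factor D hd'
      obtain ⟨p1, p2, p3, p4⟩ := factor_pos D h1 h2
      haveI : NeZero d₂ := ⟨p3.ne'⟩
      haveI : NeZero (d₁ * d₂) := ⟨(Nat.mul_pos p1 p3).ne'⟩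
      haveI : NeZero (e₁ * d₂) := ⟨(Nat.mul_pos p2 p3).ne'⟩
      have hd₂ : d₂ ∣ M₀ := by
        rw [← hDR, ← h2]
        exact Dvd.intro _ rfl
      have hL := coe_wAt_of_coe_gen D hM d₁ e₁ d₂ f₂ h1 h2
        (heckeAlphaBar Qb (M₀ * q) q (jdBar (M₀ * q) d hd))
        (by rw [coe_heckeAlphaBar, coe_jdBar]; exact qExpand_congr hdd _)
      rw [coe_jdBar]
      -- `d₁ ∈ {1, q}`
      have hd₁ : d₁ ∣ q ^ 2 := by
        rw [pow_two, ← hDQ, ← h1]
        exact Dvd.intro _ rfl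
      obtain ⟨i, hi, hd₁i⟩ := (Nat.dvd_prime_pow hq).mp hd₁
      have hi1 : i ≤ 1 := by
        by_contra hcon
        have hi2 : i = 2 := by omega
        subst hi2
        -- `q² ∣ d ∣ M₀ q`
        have h3 : q ^ 2 ∣ M₀ * q := by
          refine Dvd.dvd.trans ?_ hd
          rw [hdd, hd₁i]
          exact Dvd.intro _ rfl
        have h4 : q * q ∣ M₀ * q := by rwa [pow_two] at h3
        exact hqM ((Nat.mul_dvd_mul_iff_right hq.pos).mp h4)
      rcases Nat.le_one_iff_eq_zero_or_eq_one.mp hi1 with hi0 | hi1'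
      · -- `d₁ = 1`, `e₁ = q²`: `W (α j_d) = β (β j_{d₂})`
        subst hi0
        rw [pow_zero] at hd₁i
        subst hd₁i
        rw [one_mul] at h1 hdd
        have hW : wAt D hM (heckeAlphaBar Qb (M₀ * q) q (jdBar (M₀ * q) d hd)) =
            heckeBetaBar Qb (M₀ * q) q (heckeBetaBar Qb M₀ q (jdBar M₀ d₂ hd₂)) := by
          apply Subtype.ext
          rw [hL, coe_heckeBetaBar, coe_heckeBetaBar, coe_jdBar, qExpand_qExpand,
            qExpand_qExpand]
          exact qExpand_congr (by rw [h1, hDQ]) _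
        rw [hW, hε.beta2, coe_jdBar]
        congr 1
        exact qExpand_congr hdd.symm _
      · -- `d₁ = q`, `e₁ = q`: `W (α j_d) = α j_{q d₂}`
        subst hi1'
        rw [pow_one] at hd₁i
        subst hd₁i
        have he₁ : e₁ = d₁ := by
          have h5 : d₁ * e₁ = d₁ * d₁ := by rw [h1, hDQ]
          exact Nat.eq_of_mul_eq_mul_left hq.pos h5
        subst he₁
        have hW : wAt D hM (heckeAlphaBar Qb (M₀ * e₁) e₁ (jdBar (M₀ * e₁) d hd)) =
            heckeAlphaBar Qb (M₀ * e₁) e₁ (jdBar (M₀ * e₁) d hd) := by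
          apply Subtype.ext
          rw [hL, coe_heckeAlphaBar, coe_jdBar]
          exact qExpand_congr hdd.symm _
        rw [hW, hε.alpha, coe_jdBar, scaleL_qExpand]
        congr 1
        have hzd : z ^ d = 1 := by
          rw [hdd, pow_mul, hz, one_pow]
        rw [hzd, scaleL_one]
  exact congrArg (fun Φ : FBar (M₀ * q) →+* LaurentSeries Qb => Φ x) key

end Exp

/-! ### the fields `red_mid` -/

section Main

variable {M₀ q : ℕ} [NeZero M₀] [NeZero q] (hq : q.Prime) (A : ValuationSubring Qb)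
  (hA : A.LiesOverPrime q)
  (Soo : ValSetup Qb (FBar (M₀ * q * q)) (IsLocalRing.ResidueField A)
    (modularFunctionFieldFullC (IsLocalRing.ResidueField A) M₀))
  (hSoo : IsGaussSetup (M₀ * q * q) M₀ A Soo)
  {z : Qbˣ} {ε : ↥(modularFunctionFieldBar (M₀ * q * q)) →ₐ[Qb] LaurentSeries Qb}
  (hε : IsMidExp M₀ q z ε)
  (Sm : ValSetup Qb (FBar (M₀ * q * q)) (IsLocalRing.ResidueField A)
    (igField (IsLocalRing.ResidueField A) M₀))
  (hSm : IsMidSetup M₀ q A ε Sm)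

include hq hA hSoo hε hSm in
/-- **(NR-MID, `π₁`)** the residues of `α x` at `v_m` and at `v_∞` agree, for ALL `x ∈ F₁`. -/
theorem nrMid_red_alpha (x : FBar (M₀ * q)) :
    Sm.red (heckeAlphaBar Qb (M₀ * q) q x) =
      nrMidJm (IsLocalRing.ResidueField A) M₀ (Soo.red (heckeAlphaBar Qb (M₀ * q) q x)) := by
  apply Subtype.ext
  rw [coe_nrMidJm, nrMid_coe_red_mid A Sm hSm, nrMid_coe_red_gauss hq A hA Soo hSoo,
    hε.alpha, coe_heckeAlphaBar]

include hq hA hSoo hε hSm in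
/-- **(NR-MID, `π₂`)** the residues of `W (α x)` at `v_m` and at `v_0` agree, for ALL
`x ∈ F₁`. -/
theorem nrMid_red_wAt_alpha (hz : z ^ q = 1) (D : ALData) (hDQ : D.Q = q * q) (hDR : D.R = M₀)
    (hM : M₀ * q * q = D.Q * D.R) (x : FBar (M₀ * q)) :
    Sm.red (wAt D hM (heckeAlphaBar Qb (M₀ * q) q x)) =
      nrMidJm (IsLocalRing.ResidueField A) M₀
        ((valSetupZeroAt D hM Soo).red (wAt D hM (heckeAlphaBar Qb (M₀ * q) q x))) := by
  apply Subtype.ext
  rw [coe_nrMidJm, nrMid_coe_red_mid A Sm hSm, valSetupZeroAt_red_wAt,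
    nrMid_coe_red_gauss hq A hA Soo hSoo, nrMid_eps_wAt_alpha hq hz hε D hDQ hDR hM,
    nrMid_scaleL_res hq A hA z hz, coe_heckeAlphaBar]

include hq hA hSoo hε hSm in
/-- **the field `red_mid` of `NormLayer1`** (for the middle vertex of `ε`). -/
theorem nrMid_red_mid1 (g : FBar (M₀ * q * q)) :
    Sm.red (nm1 (M₀ * q) q g) =
      nrMidJm (IsLocalRing.ResidueField A) M₀ (Soo.red (nm1 (M₀ * q) q g)) :=
  nrMid_red_alpha hq A hA Soo hSoo hε Sm hSm _

include hq hA hSoo hε hSm in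
/-- **the field `red_mid` of `NormLayer2`** (for the middle vertex of `ε`). -/
theorem nrMid_red_mid2 (hz : z ^ q = 1) (D : ALData) (hDQ : D.Q = q * q) (hDR : D.R = M₀)
    (hM : M₀ * q * q = D.Q * D.R) (g : FBar (M₀ * q * q)) :
    Sm.red (nm2 (M₀ * q) q D hM g) =
      nrMidJm (IsLocalRing.ResidueField A) M₀
        ((valSetupZeroAt D hM Soo).red (nm2 (M₀ * q) q D hM g)) :=
  nrMid_red_wAt_alpha hq A hA Soo hSoo hε Sm hSm hz D hDQ hDR hM _

end Main

end Fermat.Agent.S36G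
end
end MergeWrap_S36_G_NrMid

section MergeWrap_S36_G_CocPv -- from S36/G/CocPv.lean

set_option autoImplicit false
set_option linter.style.haveILetI false
set_option linter.unusedSectionVars false
set_option linter.unusedVariables false
set_option synthInstance.maxHeartbeats 400000
set_option maxHeartbeats 1000000

/-!
# Cluster G (S36), block COC: the branch dictionary on the vertical components  (helper36)

The (VERT) leaves (`S36/G/NormLayerVert.lean`, helper24) are stated for the place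
`igPv (pl P)` of the Igusa field over the supersingular place `pl P`; the seed leaves
(`S36/Seed/EndsVert.lean`, helper9) use `sevMidPt (ι P)` (`sevPv`).  Over a supersingular place
with `ord ssFun = 12` there is only ONE place of the Igusa field, so the two agree:

* `cocPv_eq_igPv_of_restrict` : a place `Q` of `igField k M₀` with `Q|_{k(Z)} = P` is `igPv P`;
* `cocPv_sevMidPt_eq_igPv`    : `sevMidPt P = igPv P`;
* `cocPv_hoo`, `cocPv_hzero`, `cocPv_hmid` : the hypotheses `hoo`, `hzero`, `hmid` of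
  `nlv_hres_*`, `nlv_he_*` for a graph whose first branches are `sevPv ι P v`.
-/

noncomputable section

open AlgebraicCurve ModularCurve

namespace Fermat.Agent.S36G

open Fermat.Agent.RR Fermat.Agent.BadRed Fermat.Agent.BadRedG Fermat.Agent.Deuring

section Pv

variable (M₀ q : ℕ) (hq : q.Prime) (hqM : ¬ q ∣ M₀) (k : Type) [Field k] [IsAlgClosed k]
  [CharP k q]

/-- over a supersingular place `P` with `ord_P ssFun = 12`, a place of the Igusa field which
restricts to `P` is `igPv P`. -/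
theorem cocPv_eq_igPv_of_restrict (hRR : IsRRField k ↥(igField k M₀))
    (P : Place k ↥(modularFunctionFieldFullC k M₀)) (hSS : IsSSPlace k M₀ q P)
    (hno : ∀ u : ↥(modularFunctionFieldFullC k M₀), (u : LaurentSeries k) = ssFun k q →
      P.ord u = 12)
    (Q : Place k ↥(igField k M₀))
    (hQ : Q.restrictAlong (igIncl k M₀) (sev_isIntegral M₀ q hq k) = P) :
    Q = igPv M₀ q hq hqM k hRR P := by
  refine igPv_unique hq hqM k hRR P hSS hno Q (fun x hx => ?_)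
  have h := (Fermat.Agent.RRRel.ord_map_pos_iff (igIncl k M₀) (sev_isIntegral M₀ q hq k) Q x).mpr
    (by rw [hQ]; exact hx)
  exact h

/-- `sevMidPt P = igPv P` over a supersingular place. -/
theorem cocPv_sevMidPt_eq_igPv (hRR : IsRRField k ↥(igField k M₀))
    (P : Place k ↥(modularFunctionFieldFullC k M₀)) (hSS : IsSSPlace k M₀ q P)
    (hno : ∀ u : ↥(modularFunctionFieldFullC k M₀), (u : LaurentSeries k) = ssFun k q →
      P.ord u = 12) :
    sevMidPt M₀ q hq hqM k P = igPv M₀ q hq hqM k hRR P :=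
  cocPv_eq_igPv_of_restrict M₀ q hq hqM k hRR P hSS hno _ (sev_restrict_midPt M₀ q hq hqM k P)

variable {K F : Type*} [Field K] [Field F] [Algebra K F]
  {Mid SS : Type} [Fintype Mid]
  {FkP : SS → Type} [∀ P, Field (FkP P)] [∀ P, Algebra k (FkP P)]
  (N : GraphSetup K F k (Vtx Mid SS) (NlvFk k M₀ Mid FkP) (Nod Mid SS))
  (hsrc : ∀ i, N.src i = nodSrc i)
  (ι : SS → Place k ↥(modularFunctionFieldFullC k M₀))
  (hnl : ∀ P v, nlSrc N hsrc P v = sevPv M₀ q hq hqM k FkP ι P v)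

include hnl in
/-- **`hoo`** of `nlv_hres_oo`. -/
theorem cocPv_hoo (P : SS) : nlSrc N hsrc P Vrt.oo = ι P := hnl P Vrt.oo

include hnl in
/-- **`hzero`** of `nlv_hres_zero`. -/
theorem cocPv_hzero (P : SS) : nlSrc N hsrc P Vrt.zero = ι P := hnl P Vrt.zero

include hnl in
/-- **`hmid`** of `nlv_hres_*`, `nlv_he_*`. -/
theorem cocPv_hmid (hRR : IsRRField k ↥(igField k M₀))
    (hSS : ∀ P, IsSSPlace k M₀ q (ι P))
    (hno : ∀ P, ∀ u : ↥(modularFunctionFieldFullC k M₀), (u : LaurentSeries k) = ssFun k q →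
      (ι P).ord u = 12) (P : SS) (m : Mid) :
    nlSrc N hsrc P (Vrt.mid m) = igPv M₀ q hq hqM k hRR (ι P) := by
  rw [hnl P (Vrt.mid m)]
  exact cocPv_sevMidPt_eq_igPv M₀ q hq hqM k hRR (ι P) (hSS P) (hno P)

end Pv

end Fermat.Agent.S36G
end
end MergeWrap_S36_G_CocPv

section MergeWrap_S36_G_CocPlug1Full -- from S36/G/CocPlug1Full.lean

set_option autoImplicit false
set_option linter.unusedSectionVars false
set_option linter.unusedVariables false
set_option linter.style.haveILetI false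
set_option synthInstance.maxHeartbeats 400000
set_option maxHeartbeats 1000000

noncomputable section

open IntermediateField AlgebraicCurve

namespace Fermat.Agent.S36G

open ModularCurve Fermat.Agent.F3 Fermat.Agent.F3G Fermat.Agent.GaussInt
  Fermat.Agent.AtkinLehner Fermat.Agent.Kronecker Fermat.Agent.BadRed Fermat.Agent.BadRedG
  Fermat.Agent.BadRed.Gluing Fermat.Agent.RR Fermat.Agent.S36 Fermat.Agent.HP
  Fermat.Agent.Deuring

local notation "Qb" => AlgebraicClosure ℚ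

/-- shortcut (the instance found by unification is the same term, after a slow search). -/
local instance (priority := 10000) cocPlug1FAlgFullC (A : ValuationSubring Qb) (N : ℕ) :
    Algebra (IsLocalRing.ResidueField A)
      (modularFunctionFieldFullC (IsLocalRing.ResidueField A) N) :=
  SubalgebraClass.toAlgebra (modularFunctionFieldFullC (IsLocalRing.ResidueField A) N)

/-- shortcut. -/
local instance (priority := 10000) cocPlug1FAlgIg (A : ValuationSubring Qb) (N : ℕ) :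
    Algebra (IsLocalRing.ResidueField A) (igField (IsLocalRing.ResidueField A) N) :=
  SubalgebraClass.toAlgebra (igField (IsLocalRing.ResidueField A) N)

attribute [local instance] Fermat.Agent.GaussInt.isAlgClosed_residue

section Plug

variable {M₀ q : ℕ} [NeZero M₀] [NeZero q] {A : ValuationSubring Qb}
  {SS : Type} [Fintype SS] [Nonempty SS]
  {FkP : SS → Type} [∀ P, Field (FkP P)] [∀ P, Algebra (IsLocalRing.ResidueField A) (FkP P)]
  (E : ModEndsInput Qb (FBar (M₀ * q * q)) (IsLocalRing.ResidueField A) (Fin (midCard q)) SS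
    ↥(modularFunctionFieldFullC (IsLocalRing.ResidueField A) M₀)
    (fun _ : Fin (midCard q) => ↥(igField (IsLocalRing.ResidueField A) M₀)) FkP)
  {b : Qb} {nn : ℕ}
  (hn : 2 ≤ nn) (hb : E.ϖ1 ^ nn = b) (h12 : E.ϖ1 * E.ϖ2 = b)
  (hu2 : E.u2 = E.u1 / algebraMap Qb (FBar (M₀ * q * q)) E.ϖ1)
  (hD₀ : E.D₀ = poleDiv (E.S (Vtx.vert Vrt.oo)).hF (E.ymodX b nn))
  (hdeg : Divisor.degree (poleDiv (E.S (Vtx.vert Vrt.oo)).hF (E.ymodX b nn)) ≤
    ∑ c, Divisor.degree (poleDiv (E.S c).hFk ((E.S c).red (E.ymodX b nn))))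
  (hgenus : genusFF Qb (FBar (M₀ * q * q)) + Fintype.card (Vtx (Fin (midCard q)) SS) ≤
    (∑ c, genusFF (IsLocalRing.ResidueField A)
      (FkOf ↥(modularFunctionFieldFullC (IsLocalRing.ResidueField A) M₀)
        (fun _ : Fin (midCard q) => ↥(igField (IsLocalRing.ResidueField A) M₀)) FkP c)) +
      Fintype.card (Nod (Fin (midCard q)) SS) + 1)

/-- **the norm layer for `π₁` of the modular seed**, ALL the residue statements plugged:
`red_oo` (`nlr_pack_norm_oo`, helper94), `red_mid` (`nrMid_red_mid1`, helper83), `red_zero`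
(`nlpi_red_zero1`, helper24). -/
theorem cocPlug_layer1 [CharP (IsLocalRing.ResidueField A) q]
    (hqp : q.Prime) (hqM : ¬ q ∣ M₀) (hA : A.LiesOverPrime q)
    (hν2 : nuTwo M₀ = 0) (hν3 : nuThree M₀ = 0)
    (D₀ : ALData) (hM₀ : M₀ * q * q = D₀.Q * D₀.R) (hDQ : D₀.Q = q ^ 2)
    {R0 : Fermat.Agent.S18Key.RedSetup Qb (FBar M₀) (IsLocalRing.ResidueField A)
      ↥(modularFunctionFieldFullC (IsLocalRing.ResidueField A) M₀)}
    {pt : SS → Place (IsLocalRing.ResidueField A)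
      ↥(modularFunctionFieldFullC (IsLocalRing.ResidueField A) M₀)}
    (O : ∀ P : SS, WPOut M₀ q A R0 (pt P) (FkP P))
    (I : IgPack M₀ q A)
    {Soo : ValSetup Qb (FBar (M₀ * q * q)) (IsLocalRing.ResidueField A)
      ↥(modularFunctionFieldFullC (IsLocalRing.ResidueField A) M₀)}
    (hSoo : IsGaussSetup (M₀ * q * q) M₀ A Soo)
    (hES : E.S = vtxFamily Soo (valSetupZeroAt D₀ hM₀ Soo) I.S fun P => (O P).S)
    (hxA : EndsRedA E.S (nlhHP O) (algebraMap Qb (FBar (M₀ * q * q)) E.ϖA / E.uA))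
    (hx2 : EndsRed2 E.S (nlhHP O) E.u2)
    (hRR : IsRRField (IsLocalRing.ResidueField A) ↥(igField (IsLocalRing.ResidueField A) M₀))
    (pl : SS → Place (IsLocalRing.ResidueField A)
      ↥(modularFunctionFieldFullC (IsLocalRing.ResidueField A) M₀))
    (hoo : ∀ P, E.pv P Vrt.oo = pl P)
    (hmid : ∀ P m, E.pv P (Vrt.mid m) =
      igPv M₀ q hqp hqM (IsLocalRing.ResidueField A) hRR (pl P))
    (hSS : ∀ P, IsSSPlace (IsLocalRing.ResidueField A) M₀ q (pl P))
    (hno : ∀ P, ∀ u : ↥(modularFunctionFieldFullC (IsLocalRing.ResidueField A) M₀),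
      (u : LaurentSeries (IsLocalRing.ResidueField A)) = ssFun (IsLocalRing.ResidueField A) q →
        (pl P).ord u = 12)
    (n : ℕ) :
    Nonempty (NormLayer1 (E.ymodSeed hn hb h12 hu2 hD₀ hdeg hgenus).graphSetup n q (midDeg q)
      (nm1 (M₀ * q) q)) :=
  cocPlug_layer1_of_res E hn hb h12 hu2 hD₀ hdeg hgenus hqp hqM hA O hES hxA hx2 hRR pl hoo hmid
    hSS hno n
    (nla_red_norm_oo (E.ymodSeed hn hb h12 hu2 hD₀ hdeg hgenus).graphSetup hES
      (fun _ => nrooAlg (IsLocalRing.ResidueField A) M₀) (nm1 (M₀ * q) q)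
      (nlr_pack_norm_oo I hqp hqM hA hν2 hν3 Soo hSoo))
    (nla_red_mid_oo (E.ymodSeed hn hb h12 hu2 hD₀ hdeg hgenus).graphSetup hES
      (fun _ => nrooAlg (IsLocalRing.ResidueField A) M₀) (nm1 (M₀ * q) q)
      (fun g _ _ m => nrMid_red_mid1 hqp A hA Soo hSoo (I.isMidExp m) (I.S m) (I.isMidSetup m) g))
    (nlpi_red_zero1 (E.ymodSeed hn hb h12 hu2 hD₀ hdeg hgenus).graphSetup hSoo D₀ hM₀ hDQ hES
      hqp hqM hA)

/-- **the norm layer for `π₁` of the modular seed**, with the vertical branches in the shape of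
the seed leaves: `E.pv P v = sevPv ι P v` (`S36/Seed/EndsVert.lean`), bridge = helper36's
`cocPv_sevMidPt_eq_igPv`. -/
theorem cocPlug_layer1_sev [CharP (IsLocalRing.ResidueField A) q]
    (hqp : q.Prime) (hqM : ¬ q ∣ M₀) (hA : A.LiesOverPrime q)
    (hν2 : nuTwo M₀ = 0) (hν3 : nuThree M₀ = 0)
    (D₀ : ALData) (hM₀ : M₀ * q * q = D₀.Q * D₀.R) (hDQ : D₀.Q = q ^ 2)
    {R0 : Fermat.Agent.S18Key.RedSetup Qb (FBar M₀) (IsLocalRing.ResidueField A)
      ↥(modularFunctionFieldFullC (IsLocalRing.ResidueField A) M₀)}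
    {pt : SS → Place (IsLocalRing.ResidueField A)
      ↥(modularFunctionFieldFullC (IsLocalRing.ResidueField A) M₀)}
    (O : ∀ P : SS, WPOut M₀ q A R0 (pt P) (FkP P))
    (I : IgPack M₀ q A)
    {Soo : ValSetup Qb (FBar (M₀ * q * q)) (IsLocalRing.ResidueField A)
      ↥(modularFunctionFieldFullC (IsLocalRing.ResidueField A) M₀)}
    (hSoo : IsGaussSetup (M₀ * q * q) M₀ A Soo)
    (hES : E.S = vtxFamily Soo (valSetupZeroAt D₀ hM₀ Soo) I.S fun P => (O P).S)
    (hxA : EndsRedA E.S (nlhHP O) (algebraMap Qb (FBar (M₀ * q * q)) E.ϖA / E.uA))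
    (hx2 : EndsRed2 E.S (nlhHP O) E.u2)
    (hRR : IsRRField (IsLocalRing.ResidueField A) ↥(igField (IsLocalRing.ResidueField A) M₀))
    (ι : SS → Place (IsLocalRing.ResidueField A)
      ↥(modularFunctionFieldFullC (IsLocalRing.ResidueField A) M₀))
    (hpv : ∀ P v, E.pv P v = sevPv M₀ q hqp hqM (IsLocalRing.ResidueField A) FkP ι P v)
    (hSS : ∀ P, IsSSPlace (IsLocalRing.ResidueField A) M₀ q (ι P))
    (hno : ∀ P, ∀ u : ↥(modularFunctionFieldFullC (IsLocalRing.ResidueField A) M₀),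
      (u : LaurentSeries (IsLocalRing.ResidueField A)) = ssFun (IsLocalRing.ResidueField A) q →
        (ι P).ord u = 12)
    (n : ℕ) :
    Nonempty (NormLayer1 (E.ymodSeed hn hb h12 hu2 hD₀ hdeg hgenus).graphSetup n q (midDeg q)
      (nm1 (M₀ * q) q)) :=
  cocPlug_layer1 E hn hb h12 hu2 hD₀ hdeg hgenus hqp hqM hA hν2 hν3 D₀ hM₀ hDQ O I hSoo hES hxA
    hx2 hRR ι (fun P => hpv P Vrt.oo)
    (fun P m => (hpv P (Vrt.mid m)).trans
      (cocPv_sevMidPt_eq_igPv M₀ q hqp hqM (IsLocalRing.ResidueField A) hRR (ι P) (hSS P)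
        (hno P)))
    hSS hno n

end Plug

end Fermat.Agent.S36G
end
end MergeWrap_S36_G_CocPlug1Full

section MergeWrap_S36_G_CocAsm2 -- from S36/G/CocAsm2.lean

set_option autoImplicit false
set_option linter.unusedSectionVars false
set_option linter.unusedVariables false
set_option linter.style.haveILetI false
set_option synthInstance.maxHeartbeats 400000
set_option maxHeartbeats 1000000

noncomputable section

open IntermediateField AlgebraicCurve

namespace Fermat.Agent.S36G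

open ModularCurve Fermat.Agent.F3 Fermat.Agent.F3G Fermat.Agent.GaussInt
  Fermat.Agent.AtkinLehner Fermat.Agent.Kronecker Fermat.Agent.BadRed Fermat.Agent.BadRedG
  Fermat.Agent.BadRed.Gluing Fermat.Agent.RR Fermat.Agent.S36 Fermat.Agent.HP
  Fermat.Agent.Deuring

local notation "Qb" => AlgebraicClosure ℚ

/-! ### the glue, for any graph over `F_{N₁ q}` -/

section Glue

variable {k : Type*} [Field k] [IsAlgClosed k] {Mid SS : Type} [Fintype Mid] [Fintype SS]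
  {Fk : Vtx Mid SS → Type*} [∀ c, Field (Fk c)] [∀ c, Algebra k (Fk c)]
  [∀ m, Algebra (Fk (Vtx.vert Vrt.zero)) (Fk (Vtx.vert (Vrt.mid m)))]
  [∀ m, IsScalarTower k (Fk (Vtx.vert Vrt.zero)) (Fk (Vtx.vert (Vrt.mid m)))]
  [∀ m, FiniteDimensional (Fk (Vtx.vert Vrt.zero)) (Fk (Vtx.vert (Vrt.mid m)))]
  (N₁ q : ℕ) [NeZero N₁] [NeZero q]
  (N : GraphSetup Qb (FBar (N₁ * q)) k (Vtx Mid SS) Fk (Nod Mid SS))
  (hsrc : ∀ i, N.src i = nodSrc i) (htgt : ∀ i, N.tgt i = nodTgt i)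
  (hq1 : ((q + 1 : ℕ) : k) ≠ 0) (HP : ∀ P : SS, HPCurve k (Fk (Vtx.hor P)) q)
  (n e : ℕ) (D₀ : ALData) (hM₀ : N₁ * q = D₀.Q * D₀.R)

/-- **the norm layer for `π₂`** of the graph `N`, from (VERT) + (DIV) + (RES). -/
def cocAsm2_layer
    (hres : ∀ P m, (nlSrc N hsrc P (Vrt.mid m)).restrict (Fk (Vtx.vert Vrt.zero)) =
      nlSrc N hsrc P Vrt.zero)
    (he : ∀ P m, (nlSrc N hsrc P (Vrt.mid m)).ramificationIndex (Fk (Vtx.vert Vrt.zero)) = e)
    (hdeg : ∀ m, Module.finrank (Fk (Vtx.vert Vrt.zero)) (Fk (Vtx.vert (Vrt.mid m))) = e)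
    (hI : ∀ P, 0 < (nlTgt N htgt P Vrt.oo).ord (HP P).X2)
    (hZ : ∀ P, 0 < (nlTgt N htgt P Vrt.zero).ord (HP P).X1)
    (hm1 : ∀ P m, (nlTgt N htgt P (Vrt.mid m)).ord (HP P).X1 = -(e : ℤ)) (he0 : 0 < e)
    (hm2 : ∀ P m, ¬ 0 < (nlTgt N htgt P (Vrt.mid m)).ord (HP P).X2)
    (hcover : ∀ P (v : Place k (Fk (Vtx.hor P))), v.ord (HP P).X1 < 0 →
      ∃ w, v = nlTgt N htgt P w)
    (red_zero : ∀ g : FBar (N₁ * q), (∀ c, g ∈ (N.S c).Ov) → (∀ c, (N.S c).red g ≠ 0) →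
      (N.S (Vtx.vert Vrt.zero)).red (nm2 N₁ q D₀ hM₀ g) =
        (N.S (Vtx.vert Vrt.zero)).red g *
          ∏ m, Algebra.norm (Fk (Vtx.vert Vrt.zero)) ((N.S (Vtx.vert (Vrt.mid m))).red g))
    (red_mid : ∀ g : FBar (N₁ * q), (∀ c, g ∈ (N.S c).Ov) → (∀ c, (N.S c).red g ≠ 0) → ∀ m,
      (N.S (Vtx.vert (Vrt.mid m))).red (nm2 N₁ q D₀ hM₀ g) =
        algebraMap (Fk (Vtx.vert Vrt.zero)) (Fk (Vtx.vert (Vrt.mid m)))
          ((N.S (Vtx.vert Vrt.zero)).red (nm2 N₁ q D₀ hM₀ g)))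
    (red_oo : ∀ g : FBar (N₁ * q), (∀ c, g ∈ (N.S c).Ov) → (∀ c, (N.S c).red g ≠ 0) →
      (N.S (Vtx.vert Vrt.oo)).red (nm2 N₁ q D₀ hM₀ g) = (N.S (Vtx.vert Vrt.oo)).red g ^ q)
    (red_hor : ∀ g : FBar (N₁ * q), (∀ c, g ∈ (N.S c).Ov) → (∀ c, (N.S c).red g ≠ 0) → ∀ P,
      (N.S (Vtx.hor P)).red (nm2 N₁ q D₀ hM₀ g) =
        algebraMap k⟮(HP P).X2⟯ (Fk (Vtx.hor P))
          (Algebra.norm k⟮(HP P).X2⟯ ((N.S (Vtx.hor P)).red g))) :
    NormLayer2 N n q e (nm2 N₁ q D₀ hM₀) :=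
  normLayer2_of N hsrc htgt hq1 HP n e (nm2 N₁ q D₀ hM₀)
    (N.S (Vtx.vert Vrt.zero)).hFk (fun m => (N.S (Vtx.vert (Vrt.mid m))).hFk)
    hres he hdeg hI hZ hm1 he0 hm2 hcover red_zero red_mid red_oo red_hor

include hq1 in
/-- **(F2) for the datum `D₀` of the graph**, from (VERT) + (DIV) + (RES) + saturation. -/
theorem cocAsm2_one (hfin : FiniteAlong Qb (heckeAlphaBar Qb N₁ q))
    (hWD : GraphWDStatement N) (hn : n ≠ 0)
    (hres : ∀ P m, (nlSrc N hsrc P (Vrt.mid m)).restrict (Fk (Vtx.vert Vrt.zero)) =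
      nlSrc N hsrc P Vrt.zero)
    (he : ∀ P m, (nlSrc N hsrc P (Vrt.mid m)).ramificationIndex (Fk (Vtx.vert Vrt.zero)) = e)
    (hdeg : ∀ m, Module.finrank (Fk (Vtx.vert Vrt.zero)) (Fk (Vtx.vert (Vrt.mid m))) = e)
    (hI : ∀ P, 0 < (nlTgt N htgt P Vrt.oo).ord (HP P).X2)
    (hZ : ∀ P, 0 < (nlTgt N htgt P Vrt.zero).ord (HP P).X1)
    (hm1 : ∀ P m, (nlTgt N htgt P (Vrt.mid m)).ord (HP P).X1 = -(e : ℤ)) (he0 : 0 < e)
    (hm2 : ∀ P m, ¬ 0 < (nlTgt N htgt P (Vrt.mid m)).ord (HP P).X2)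
    (hcover : ∀ P (v : Place k (Fk (Vtx.hor P))), v.ord (HP P).X1 < 0 →
      ∃ w, v = nlTgt N htgt P w)
    (red_zero : ∀ g : FBar (N₁ * q), (∀ c, g ∈ (N.S c).Ov) → (∀ c, (N.S c).red g ≠ 0) →
      (N.S (Vtx.vert Vrt.zero)).red (nm2 N₁ q D₀ hM₀ g) =
        (N.S (Vtx.vert Vrt.zero)).red g *
          ∏ m, Algebra.norm (Fk (Vtx.vert Vrt.zero)) ((N.S (Vtx.vert (Vrt.mid m))).red g))
    (red_mid : ∀ g : FBar (N₁ * q), (∀ c, g ∈ (N.S c).Ov) → (∀ c, (N.S c).red g ≠ 0) → ∀ m,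
      (N.S (Vtx.vert (Vrt.mid m))).red (nm2 N₁ q D₀ hM₀ g) =
        algebraMap (Fk (Vtx.vert Vrt.zero)) (Fk (Vtx.vert (Vrt.mid m)))
          ((N.S (Vtx.vert Vrt.zero)).red (nm2 N₁ q D₀ hM₀ g)))
    (red_oo : ∀ g : FBar (N₁ * q), (∀ c, g ∈ (N.S c).Ov) → (∀ c, (N.S c).red g ≠ 0) →
      (N.S (Vtx.vert Vrt.oo)).red (nm2 N₁ q D₀ hM₀ g) = (N.S (Vtx.vert Vrt.oo)).red g ^ q)
    (red_hor : ∀ g : FBar (N₁ * q), (∀ c, g ∈ (N.S c).Ov) → (∀ c, (N.S c).red g ≠ 0) → ∀ P,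
      (N.S (Vtx.hor P)).red (nm2 N₁ q D₀ hM₀ g) =
        algebraMap k⟮(HP P).X2⟯ (Fk (Vtx.hor P))
          (Algebra.norm k⟮(HP P).X2⟯ ((N.S (Vtx.hor P)).red g)))
    {R : Divisor Qb (FBar (N₁ * q))} (hsat : NormSat N n R (nm2 N₁ q D₀ hM₀)) :
    CocycleF2 N n q e R
      (fun g => IsCPow n (normAlong (heckeAlphaBar Qb N₁ q) (wAt D₀ hM₀ g))) :=
  cocycleF2_modular N₁ q hfin N hsrc htgt hWD hn e D₀ hM₀
    (cocAsm2_layer N₁ q N hsrc htgt hq1 HP n e D₀ hM₀ hres he hdeg hI hZ hm1 he0 hm2 hcover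
      red_zero red_mid red_oo red_hor) hsat

include hq1 in
/-- **(F2) for ALL `D` with `D.Q = q ^ 2`** (= `hF2` of `coreFunAt_of_graph`), from
(VERT) + (DIV) + (RES) + saturation for the one datum `D₀` of the graph. -/
theorem cocAsm2_all (hfin : FiniteAlong Qb (heckeAlphaBar Qb N₁ q))
    (hWD : GraphWDStatement N) (hn : n ≠ 0) (hD₀ : D₀.Q = q ^ 2)
    (hres : ∀ P m, (nlSrc N hsrc P (Vrt.mid m)).restrict (Fk (Vtx.vert Vrt.zero)) =
      nlSrc N hsrc P Vrt.zero)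
    (he : ∀ P m, (nlSrc N hsrc P (Vrt.mid m)).ramificationIndex (Fk (Vtx.vert Vrt.zero)) = e)
    (hdeg : ∀ m, Module.finrank (Fk (Vtx.vert Vrt.zero)) (Fk (Vtx.vert (Vrt.mid m))) = e)
    (hI : ∀ P, 0 < (nlTgt N htgt P Vrt.oo).ord (HP P).X2)
    (hZ : ∀ P, 0 < (nlTgt N htgt P Vrt.zero).ord (HP P).X1)
    (hm1 : ∀ P m, (nlTgt N htgt P (Vrt.mid m)).ord (HP P).X1 = -(e : ℤ)) (he0 : 0 < e)
    (hm2 : ∀ P m, ¬ 0 < (nlTgt N htgt P (Vrt.mid m)).ord (HP P).X2)
    (hcover : ∀ P (v : Place k (Fk (Vtx.hor P))), v.ord (HP P).X1 < 0 →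
      ∃ w, v = nlTgt N htgt P w)
    (red_zero : ∀ g : FBar (N₁ * q), (∀ c, g ∈ (N.S c).Ov) → (∀ c, (N.S c).red g ≠ 0) →
      (N.S (Vtx.vert Vrt.zero)).red (nm2 N₁ q D₀ hM₀ g) =
        (N.S (Vtx.vert Vrt.zero)).red g *
          ∏ m, Algebra.norm (Fk (Vtx.vert Vrt.zero)) ((N.S (Vtx.vert (Vrt.mid m))).red g))
    (red_mid : ∀ g : FBar (N₁ * q), (∀ c, g ∈ (N.S c).Ov) → (∀ c, (N.S c).red g ≠ 0) → ∀ m,
      (N.S (Vtx.vert (Vrt.mid m))).red (nm2 N₁ q D₀ hM₀ g) =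
        algebraMap (Fk (Vtx.vert Vrt.zero)) (Fk (Vtx.vert (Vrt.mid m)))
          ((N.S (Vtx.vert Vrt.zero)).red (nm2 N₁ q D₀ hM₀ g)))
    (red_oo : ∀ g : FBar (N₁ * q), (∀ c, g ∈ (N.S c).Ov) → (∀ c, (N.S c).red g ≠ 0) →
      (N.S (Vtx.vert Vrt.oo)).red (nm2 N₁ q D₀ hM₀ g) = (N.S (Vtx.vert Vrt.oo)).red g ^ q)
    (red_hor : ∀ g : FBar (N₁ * q), (∀ c, g ∈ (N.S c).Ov) → (∀ c, (N.S c).red g ≠ 0) → ∀ P,
      (N.S (Vtx.hor P)).red (nm2 N₁ q D₀ hM₀ g) =
        algebraMap k⟮(HP P).X2⟯ (Fk (Vtx.hor P))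
          (Algebra.norm k⟮(HP P).X2⟯ ((N.S (Vtx.hor P)).red g)))
    {R : Divisor Qb (FBar (N₁ * q))} (hsat : NormSat N n R (nm2 N₁ q D₀ hM₀)) :
    ∀ (D : ALData) (hM : N₁ * q = D.Q * D.R), D.Q = q ^ 2 →
      CocycleF2 N n q e R
        (fun g => IsCPow n (normAlong (heckeAlphaBar Qb N₁ q) (wAt D hM g))) :=
  cocycleF2_all_of_one N₁ q n e N R D₀ hM₀ hD₀
    (cocAsm2_one N₁ q N hsrc htgt hq1 HP n e D₀ hM₀ hfin hWD hn hres he hdeg hI hZ hm1 he0
      hm2 hcover red_zero red_mid red_oo red_hor hsat)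

end Glue

/-! ### the modular graph: level `M₀ q q`, residue field of `A ∣ q`, `e = midDeg q` -/

/-- `midDeg q` is positive for a prime `q`. -/
theorem cocAsm2_midDeg_pos {q : ℕ} (hq : q.Prime) : 0 < midDeg q := by
  unfold midDeg midCard
  split_ifs with h
  · subst h
    norm_num
  · have h2 := hq.two_le
    have h3 : 3 ≤ q := by omega
    exact Nat.div_pos (by omega) (by norm_num)

section Modular

variable {M₀ q : ℕ} [NeZero M₀] [NeZero q] {Mid SS : Type} [Fintype Mid] [Fintype SS]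

/-- **(F2) for the modular graph, all `D` with `D.Q = q ^ 2`**: `hF2` of `coreFunAt_of_graph` /
`CoreBundle` at the level `M₀ q q`, with `e = midDeg q`, from (VERT) + (DIV) + (RES) +
saturation for the datum `D₀` of the graph.  `FiniteAlong α`, `q + 1 ≠ 0` in `k`,
`0 < midDeg q` and `IsAlgClosed k` are discharged. -/
theorem cocAsm2_modular (hq : q.Prime) (A : ValuationSubring Qb) (hA : A.LiesOverPrime q)
    {Fk : Vtx Mid SS → Type*} [∀ c, Field (Fk c)]
    [∀ c, Algebra (IsLocalRing.ResidueField A) (Fk c)]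
    [∀ m, Algebra (Fk (Vtx.vert Vrt.zero)) (Fk (Vtx.vert (Vrt.mid m)))]
    [∀ m, IsScalarTower (IsLocalRing.ResidueField A) (Fk (Vtx.vert Vrt.zero))
      (Fk (Vtx.vert (Vrt.mid m)))]
    [∀ m, FiniteDimensional (Fk (Vtx.vert Vrt.zero)) (Fk (Vtx.vert (Vrt.mid m)))]
    (N : GraphSetup Qb (FBar (M₀ * q * q)) (IsLocalRing.ResidueField A) (Vtx Mid SS) Fk
      (Nod Mid SS))
    (hsrc : ∀ i, N.src i = nodSrc i) (htgt : ∀ i, N.tgt i = nodTgt i)
    (hWD : GraphWDStatement N) (n : ℕ) (hn : n ≠ 0)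
    (HP : ∀ P : SS, HPCurve (IsLocalRing.ResidueField A) (Fk (Vtx.hor P)) q)
    (D₀ : ALData) (hM₀ : M₀ * q * q = D₀.Q * D₀.R) (hD₀ : D₀.Q = q ^ 2)
    (hres : ∀ P m, (nlSrc N hsrc P (Vrt.mid m)).restrict (Fk (Vtx.vert Vrt.zero)) =
      nlSrc N hsrc P Vrt.zero)
    (he : ∀ P m, (nlSrc N hsrc P (Vrt.mid m)).ramificationIndex (Fk (Vtx.vert Vrt.zero)) =
      midDeg q)
    (hdeg : ∀ m, Module.finrank (Fk (Vtx.vert Vrt.zero)) (Fk (Vtx.vert (Vrt.mid m))) =
      midDeg q)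
    (hI : ∀ P, 0 < (nlTgt N htgt P Vrt.oo).ord (HP P).X2)
    (hZ : ∀ P, 0 < (nlTgt N htgt P Vrt.zero).ord (HP P).X1)
    (hm1 : ∀ P m, (nlTgt N htgt P (Vrt.mid m)).ord (HP P).X1 = -(midDeg q : ℤ))
    (hm2 : ∀ P m, ¬ 0 < (nlTgt N htgt P (Vrt.mid m)).ord (HP P).X2)
    (hcover : ∀ P (v : Place (IsLocalRing.ResidueField A) (Fk (Vtx.hor P))),
      v.ord (HP P).X1 < 0 → ∃ w, v = nlTgt N htgt P w)
    (red_zero : ∀ g : FBar (M₀ * q * q), (∀ c, g ∈ (N.S c).Ov) → (∀ c, (N.S c).red g ≠ 0) →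
      (N.S (Vtx.vert Vrt.zero)).red (nm2 (M₀ * q) q D₀ hM₀ g) =
        (N.S (Vtx.vert Vrt.zero)).red g *
          ∏ m, Algebra.norm (Fk (Vtx.vert Vrt.zero)) ((N.S (Vtx.vert (Vrt.mid m))).red g))
    (red_mid : ∀ g : FBar (M₀ * q * q), (∀ c, g ∈ (N.S c).Ov) → (∀ c, (N.S c).red g ≠ 0) →
      ∀ m, (N.S (Vtx.vert (Vrt.mid m))).red (nm2 (M₀ * q) q D₀ hM₀ g) =
        algebraMap (Fk (Vtx.vert Vrt.zero)) (Fk (Vtx.vert (Vrt.mid m)))
          ((N.S (Vtx.vert Vrt.zero)).red (nm2 (M₀ * q) q D₀ hM₀ g)))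
    (red_oo : ∀ g : FBar (M₀ * q * q), (∀ c, g ∈ (N.S c).Ov) → (∀ c, (N.S c).red g ≠ 0) →
      (N.S (Vtx.vert Vrt.oo)).red (nm2 (M₀ * q) q D₀ hM₀ g) =
        (N.S (Vtx.vert Vrt.oo)).red g ^ q)
    (red_hor : ∀ g : FBar (M₀ * q * q), (∀ c, g ∈ (N.S c).Ov) → (∀ c, (N.S c).red g ≠ 0) →
      ∀ P, (N.S (Vtx.hor P)).red (nm2 (M₀ * q) q D₀ hM₀ g) =
        algebraMap (IsLocalRing.ResidueField A)⟮(HP P).X2⟯ (Fk (Vtx.hor P))
          (Algebra.norm (IsLocalRing.ResidueField A)⟮(HP P).X2⟯ ((N.S (Vtx.hor P)).red g)))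
    {R : Divisor Qb (FBar (M₀ * q * q))} (hsat : NormSat N n R (nm2 (M₀ * q) q D₀ hM₀)) :
    ∀ (D : ALData) (hM : M₀ * q * q = D.Q * D.R), D.Q = q ^ 2 →
      CocycleF2 N n q (midDeg q) R
        (fun g => IsCPow n (normAlong (heckeAlphaBar Qb (M₀ * q) q) (wAt D hM g))) := by
  haveI := Fermat.Agent.FrobTrace.isAlgClosed_residueField A
  exact cocAsm2_all (M₀ * q) q N hsrc htgt (wpsq_succ_ne_zero (A := A) hq hA) HP n (midDeg q)
    D₀ hM₀ (finiteAlong_alpha_dvd (M₀ * q) q hq (dvd_mul_left q M₀)) hWD hn hD₀ hres he hdeg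
    hI hZ hm1 (cocAsm2_midDeg_pos hq) hm2 hcover red_zero red_mid red_oo red_hor hsat

end Modular

end Fermat.Agent.S36G
end
end MergeWrap_S36_G_CocAsm2

section MergeWrap_S36_G_CocAsm2Ymod -- from S36/G/CocAsm2Ymod.lean

set_option autoImplicit false
set_option linter.unusedSectionVars false
set_option linter.unusedVariables false
set_option linter.style.haveILetI false
set_option synthInstance.maxHeartbeats 400000
set_option maxHeartbeats 1000000

noncomputable section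

open IntermediateField AlgebraicCurve

namespace Fermat.Agent.S36G

open ModularCurve Fermat.Agent.F3 Fermat.Agent.F3G Fermat.Agent.GaussInt
  Fermat.Agent.AtkinLehner Fermat.Agent.Kronecker Fermat.Agent.BadRed Fermat.Agent.BadRedG
  Fermat.Agent.BadRed.Gluing Fermat.Agent.RR Fermat.Agent.S36 Fermat.Agent.HP
  Fermat.Agent.Deuring

local notation "Qb" => AlgebraicClosure ℚ

section Ymod

variable (N₁ q : ℕ) [NeZero N₁] [NeZero q]

variable {k : Type} [Field k] [IsAlgClosed k] {Mid SS : Type} [Fintype Mid] [Fintype SS]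
  [Nonempty SS]
  {Fk0 : Type} [Field Fk0] [Algebra k Fk0]
  {FkM : Mid → Type} [∀ m, Field (FkM m)] [∀ m, Algebra k (FkM m)]
  {FkP : SS → Type} [∀ P, Field (FkP P)] [∀ P, Algebra k (FkP P)]
  [∀ m, Algebra (FkOf Fk0 FkM FkP (Vtx.vert Vrt.zero)) (FkOf Fk0 FkM FkP (Vtx.vert (Vrt.mid m)))]
  [∀ m, IsScalarTower k (FkOf Fk0 FkM FkP (Vtx.vert Vrt.zero))
    (FkOf Fk0 FkM FkP (Vtx.vert (Vrt.mid m)))]
  [∀ m, FiniteDimensional (FkOf Fk0 FkM FkP (Vtx.vert Vrt.zero))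
    (FkOf Fk0 FkM FkP (Vtx.vert (Vrt.mid m)))]
  {E : ModEndsInput Qb (FBar (N₁ * q)) k Mid SS Fk0 FkM FkP}
  {H : ∀ P : SS, HPCurve k (FkOf Fk0 FkM FkP (Vtx.hor P)) q}
  {b : Qb} {n : ℕ}
  (hn : 2 ≤ n) (hb : E.ϖ1 ^ n = b) (h12 : E.ϖ1 * E.ϖ2 = b)
  (hu2 : E.u2 = E.u1 / algebraMap Qb (FBar (N₁ * q)) E.ϖ1)
  (hD₀ : E.D₀ = poleDiv (E.S (Vtx.vert Vrt.oo)).hF (E.ymodX b n))
  (hdeg : Divisor.degree (poleDiv (E.S (Vtx.vert Vrt.oo)).hF (E.ymodX b n)) ≤
    ∑ c, Divisor.degree (poleDiv (E.S c).hFk ((E.S c).red (E.ymodX b n))))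
  (hgenus : genusFF Qb (FBar (N₁ * q)) + Fintype.card (Vtx Mid SS) ≤
    (∑ c, genusFF k (FkOf Fk0 FkM FkP c)) + Fintype.card (Nod Mid SS) + 1)
  (hxA : EndsRedA E.S H (algebraMap Qb (FBar (N₁ * q)) E.ϖA / E.uA))
  (hx2 : EndsRed2 E.S H E.u2)
  (hqp : q.Prime) [CharP k q]
  (D₀ : ALData) (hM₀ : N₁ * q = D₀.Q * D₀.R)

include hxA hx2 hqp in
/-- **the norm layer for `π₂` of the modular seed** (the field `layer2` of `CboNorm`), from
(VERT) + (RES); (DIV) is plugged. -/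
theorem cocAsm2_ymod_layer (n' : ℕ)
    (hres : ∀ P m,
      (nlSrc (E.ymodSeed hn hb h12 hu2 hD₀ hdeg hgenus).graphSetup
        (edy_hsrc hn hb h12 hu2 hD₀ hdeg hgenus) P (Vrt.mid m)).restrict
          (FkOf Fk0 FkM FkP (Vtx.vert Vrt.zero)) =
        nlSrc (E.ymodSeed hn hb h12 hu2 hD₀ hdeg hgenus).graphSetup
          (edy_hsrc hn hb h12 hu2 hD₀ hdeg hgenus) P Vrt.zero)
    (he : ∀ P m,
      (nlSrc (E.ymodSeed hn hb h12 hu2 hD₀ hdeg hgenus).graphSetup
        (edy_hsrc hn hb h12 hu2 hD₀ hdeg hgenus) P (Vrt.mid m)).ramificationIndex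
          (FkOf Fk0 FkM FkP (Vtx.vert Vrt.zero)) = midDeg q)
    (hdegV : ∀ m, Module.finrank (FkOf Fk0 FkM FkP (Vtx.vert Vrt.zero))
      (FkOf Fk0 FkM FkP (Vtx.vert (Vrt.mid m))) = midDeg q)
    (red_zero : ∀ g : FBar (N₁ * q),
      (∀ c, g ∈ ((E.ymodSeed hn hb h12 hu2 hD₀ hdeg hgenus).graphSetup.S c).Ov) →
      (∀ c, ((E.ymodSeed hn hb h12 hu2 hD₀ hdeg hgenus).graphSetup.S c).red g ≠ 0) →
      ((E.ymodSeed hn hb h12 hu2 hD₀ hdeg hgenus).graphSetup.S (Vtx.vert Vrt.zero)).red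
          (nm2 N₁ q D₀ hM₀ g) =
        ((E.ymodSeed hn hb h12 hu2 hD₀ hdeg hgenus).graphSetup.S (Vtx.vert Vrt.zero)).red g *
          ∏ m, Algebra.norm (FkOf Fk0 FkM FkP (Vtx.vert Vrt.zero))
            (((E.ymodSeed hn hb h12 hu2 hD₀ hdeg hgenus).graphSetup.S
              (Vtx.vert (Vrt.mid m))).red g))
    (red_mid : ∀ g : FBar (N₁ * q),
      (∀ c, g ∈ ((E.ymodSeed hn hb h12 hu2 hD₀ hdeg hgenus).graphSetup.S c).Ov) →
      (∀ c, ((E.ymodSeed hn hb h12 hu2 hD₀ hdeg hgenus).graphSetup.S c).red g ≠ 0) → ∀ m,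
      ((E.ymodSeed hn hb h12 hu2 hD₀ hdeg hgenus).graphSetup.S (Vtx.vert (Vrt.mid m))).red
          (nm2 N₁ q D₀ hM₀ g) =
        algebraMap (FkOf Fk0 FkM FkP (Vtx.vert Vrt.zero))
          (FkOf Fk0 FkM FkP (Vtx.vert (Vrt.mid m)))
          (((E.ymodSeed hn hb h12 hu2 hD₀ hdeg hgenus).graphSetup.S (Vtx.vert Vrt.zero)).red
            (nm2 N₁ q D₀ hM₀ g)))
    (red_oo : ∀ g : FBar (N₁ * q),
      (∀ c, g ∈ ((E.ymodSeed hn hb h12 hu2 hD₀ hdeg hgenus).graphSetup.S c).Ov) →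
      (∀ c, ((E.ymodSeed hn hb h12 hu2 hD₀ hdeg hgenus).graphSetup.S c).red g ≠ 0) →
      ((E.ymodSeed hn hb h12 hu2 hD₀ hdeg hgenus).graphSetup.S (Vtx.vert Vrt.oo)).red
          (nm2 N₁ q D₀ hM₀ g) =
        ((E.ymodSeed hn hb h12 hu2 hD₀ hdeg hgenus).graphSetup.S (Vtx.vert Vrt.oo)).red g ^ q)
    (red_hor : ∀ g : FBar (N₁ * q),
      (∀ c, g ∈ ((E.ymodSeed hn hb h12 hu2 hD₀ hdeg hgenus).graphSetup.S c).Ov) →
      (∀ c, ((E.ymodSeed hn hb h12 hu2 hD₀ hdeg hgenus).graphSetup.S c).red g ≠ 0) → ∀ P,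
      ((E.ymodSeed hn hb h12 hu2 hD₀ hdeg hgenus).graphSetup.S (Vtx.hor P)).red
          (nm2 N₁ q D₀ hM₀ g) =
        algebraMap k⟮(H P).X2⟯ (FkOf Fk0 FkM FkP (Vtx.hor P))
          (Algebra.norm k⟮(H P).X2⟯
            (((E.ymodSeed hn hb h12 hu2 hD₀ hdeg hgenus).graphSetup.S (Vtx.hor P)).red g))) :
    Nonempty (NormLayer2 (E.ymodSeed hn hb h12 hu2 hD₀ hdeg hgenus).graphSetup n' q (midDeg q)
      (nm2 N₁ q D₀ hM₀)) :=
  ⟨cocAsm2_layer N₁ q (E.ymodSeed hn hb h12 hu2 hD₀ hdeg hgenus).graphSetup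
    (edy_hsrc hn hb h12 hu2 hD₀ hdeg hgenus) (edy_htgt hn hb h12 hu2 hD₀ hdeg hgenus)
    (ends_hq1 hqp) H n' (midDeg q) D₀ hM₀ hres he hdegV
    (edy_hI hn hb h12 hu2 hD₀ hdeg hgenus hxA)
    (edy_hZ hn hb h12 hu2 hD₀ hdeg hgenus hx2)
    (edy_hm1 hn hb h12 hu2 hD₀ hdeg hgenus hxA hx2 hqp)
    (cocAsm2_midDeg_pos hqp)
    (edy_hm2 hn hb h12 hu2 hD₀ hdeg hgenus hxA hx2)
    (edy_hcover hn hb h12 hu2 hD₀ hdeg hgenus hxA hx2)
    red_zero red_mid red_oo red_hor⟩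

end Ymod

end Fermat.Agent.S36G
end
end MergeWrap_S36_G_CocAsm2Ymod

section MergeWrap_S36_G_CocPlug2 -- from S36/G/CocPlug2.lean

set_option autoImplicit false
set_option linter.unusedSectionVars false
set_option linter.unusedVariables false
set_option linter.style.haveILetI false
set_option synthInstance.maxHeartbeats 400000
set_option maxHeartbeats 1000000

noncomputable section

open IntermediateField AlgebraicCurve

namespace Fermat.Agent.S36G

open ModularCurve Fermat.Agent.F3 Fermat.Agent.F3G Fermat.Agent.GaussInt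
  Fermat.Agent.AtkinLehner Fermat.Agent.Kronecker Fermat.Agent.BadRed Fermat.Agent.BadRedG
  Fermat.Agent.BadRed.Gluing Fermat.Agent.RR Fermat.Agent.S36 Fermat.Agent.HP
  Fermat.Agent.Deuring

local notation "Qb" => AlgebraicClosure ℚ

/-- shortcut (the instance found by unification is the same term, after a slow search). -/
local instance (priority := 10000) cocPlug2AlgFullC (A : ValuationSubring Qb) (N : ℕ) :
    Algebra (IsLocalRing.ResidueField A)
      (modularFunctionFieldFullC (IsLocalRing.ResidueField A) N) :=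
  SubalgebraClass.toAlgebra (modularFunctionFieldFullC (IsLocalRing.ResidueField A) N)

/-- shortcut. -/
local instance (priority := 10000) cocPlug2AlgIg (A : ValuationSubring Qb) (N : ℕ) :
    Algebra (IsLocalRing.ResidueField A) (igField (IsLocalRing.ResidueField A) N) :=
  SubalgebraClass.toAlgebra (igField (IsLocalRing.ResidueField A) N)

attribute [local instance] Fermat.Agent.GaussInt.isAlgClosed_residue

section Plug

variable {M₀ q : ℕ} [NeZero M₀] [NeZero q] {A : ValuationSubring Qb}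
  {SS : Type} [Fintype SS] [Nonempty SS]
  {FkP : SS → Type} [∀ P, Field (FkP P)] [∀ P, Algebra (IsLocalRing.ResidueField A) (FkP P)]
  (E : ModEndsInput Qb (FBar (M₀ * q * q)) (IsLocalRing.ResidueField A) (Fin (midCard q)) SS
    ↥(modularFunctionFieldFullC (IsLocalRing.ResidueField A) M₀)
    (fun _ : Fin (midCard q) => ↥(igField (IsLocalRing.ResidueField A) M₀)) FkP)
  {b : Qb} {nn : ℕ}
  (hn : 2 ≤ nn) (hb : E.ϖ1 ^ nn = b) (h12 : E.ϖ1 * E.ϖ2 = b)
  (hu2 : E.u2 = E.u1 / algebraMap Qb (FBar (M₀ * q * q)) E.ϖ1)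
  (hD₀ : E.D₀ = poleDiv (E.S (Vtx.vert Vrt.oo)).hF (E.ymodX b nn))
  (hdeg : Divisor.degree (poleDiv (E.S (Vtx.vert Vrt.oo)).hF (E.ymodX b nn)) ≤
    ∑ c, Divisor.degree (poleDiv (E.S c).hFk ((E.S c).red (E.ymodX b nn))))
  (hgenus : genusFF Qb (FBar (M₀ * q * q)) + Fintype.card (Vtx (Fin (midCard q)) SS) ≤
    (∑ c, genusFF (IsLocalRing.ResidueField A)
      (FkOf ↥(modularFunctionFieldFullC (IsLocalRing.ResidueField A) M₀)
        (fun _ : Fin (midCard q) => ↥(igField (IsLocalRing.ResidueField A) M₀)) FkP c)) +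
      Fintype.card (Nod (Fin (midCard q)) SS) + 1)

/-- **the norm layer for `π₂` of the modular seed**, from the three vertical residue
statements; instances, (VERT), (DIV), (HOR) are plugged. -/
theorem cocPlug_layer2_of_res [CharP (IsLocalRing.ResidueField A) q]
    (hqp : q.Prime) (hqM : ¬ q ∣ M₀) (hA : A.LiesOverPrime q)
    (D₀ : ALData) (hM₀ : M₀ * q * q = D₀.Q * D₀.R) (hDQ : D₀.Q = q ^ 2)
    {R0 : Fermat.Agent.S18Key.RedSetup Qb (FBar M₀) (IsLocalRing.ResidueField A)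
      ↥(modularFunctionFieldFullC (IsLocalRing.ResidueField A) M₀)}
    {pt : SS → Place (IsLocalRing.ResidueField A)
      ↥(modularFunctionFieldFullC (IsLocalRing.ResidueField A) M₀)}
    (O : ∀ P : SS, WPOut M₀ q A R0 (pt P) (FkP P))
    {Soo S0 : ValSetup Qb (FBar (M₀ * q * q)) (IsLocalRing.ResidueField A)
      ↥(modularFunctionFieldFullC (IsLocalRing.ResidueField A) M₀)}
    {Sm : Fin (midCard q) → ValSetup Qb (FBar (M₀ * q * q)) (IsLocalRing.ResidueField A)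
      ↥(igField (IsLocalRing.ResidueField A) M₀)}
    (hES : E.S = vtxFamily Soo S0 Sm fun P => (O P).S)
    (hxA : EndsRedA E.S (nlhHP O) (algebraMap Qb (FBar (M₀ * q * q)) E.ϖA / E.uA))
    (hx2 : EndsRed2 E.S (nlhHP O) E.u2)
    (hRR : IsRRField (IsLocalRing.ResidueField A) ↥(igField (IsLocalRing.ResidueField A) M₀))
    (pl : SS → Place (IsLocalRing.ResidueField A)
      ↥(modularFunctionFieldFullC (IsLocalRing.ResidueField A) M₀))
    (hzero : ∀ P, E.pv P Vrt.zero = pl P)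
    (hmid : ∀ P m, E.pv P (Vrt.mid m) =
      igPv M₀ q hqp hqM (IsLocalRing.ResidueField A) hRR (pl P))
    (hSS : ∀ P, IsSSPlace (IsLocalRing.ResidueField A) M₀ q (pl P))
    (hno : ∀ P, ∀ u : ↥(modularFunctionFieldFullC (IsLocalRing.ResidueField A) M₀),
      (u : LaurentSeries (IsLocalRing.ResidueField A)) = ssFun (IsLocalRing.ResidueField A) q →
        (pl P).ord u = 12)
    (n : ℕ)
    (red_zero : letI := nliAlgZero (IsLocalRing.ResidueField A) M₀ FkP (Mid := Fin (midCard q))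
      ∀ g : FBar (M₀ * q * q),
      (∀ c, g ∈ ((E.ymodSeed hn hb h12 hu2 hD₀ hdeg hgenus).graphSetup.S c).Ov) →
      (∀ c, ((E.ymodSeed hn hb h12 hu2 hD₀ hdeg hgenus).graphSetup.S c).red g ≠ 0) →
      ((E.ymodSeed hn hb h12 hu2 hD₀ hdeg hgenus).graphSetup.S (Vtx.vert Vrt.zero)).red
          (nm2 (M₀ * q) q D₀ hM₀ g) =
        ((E.ymodSeed hn hb h12 hu2 hD₀ hdeg hgenus).graphSetup.S (Vtx.vert Vrt.zero)).red g *
          ∏ m, Algebra.norm
            (FkOf ↥(modularFunctionFieldFullC (IsLocalRing.ResidueField A) M₀)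
              (fun _ : Fin (midCard q) => ↥(igField (IsLocalRing.ResidueField A) M₀)) FkP
              (Vtx.vert Vrt.zero))
            (((E.ymodSeed hn hb h12 hu2 hD₀ hdeg hgenus).graphSetup.S
              (Vtx.vert (Vrt.mid m))).red g))
    (red_mid : letI := nliAlgZero (IsLocalRing.ResidueField A) M₀ FkP (Mid := Fin (midCard q))
      ∀ g : FBar (M₀ * q * q),
      (∀ c, g ∈ ((E.ymodSeed hn hb h12 hu2 hD₀ hdeg hgenus).graphSetup.S c).Ov) →
      (∀ c, ((E.ymodSeed hn hb h12 hu2 hD₀ hdeg hgenus).graphSetup.S c).red g ≠ 0) → ∀ m,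
      ((E.ymodSeed hn hb h12 hu2 hD₀ hdeg hgenus).graphSetup.S (Vtx.vert (Vrt.mid m))).red
          (nm2 (M₀ * q) q D₀ hM₀ g) =
        algebraMap
          (FkOf ↥(modularFunctionFieldFullC (IsLocalRing.ResidueField A) M₀)
            (fun _ : Fin (midCard q) => ↥(igField (IsLocalRing.ResidueField A) M₀)) FkP
            (Vtx.vert Vrt.zero))
          (FkOf ↥(modularFunctionFieldFullC (IsLocalRing.ResidueField A) M₀)
            (fun _ : Fin (midCard q) => ↥(igField (IsLocalRing.ResidueField A) M₀)) FkP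
            (Vtx.vert (Vrt.mid m)))
          (((E.ymodSeed hn hb h12 hu2 hD₀ hdeg hgenus).graphSetup.S (Vtx.vert Vrt.zero)).red
            (nm2 (M₀ * q) q D₀ hM₀ g)))
    (red_oo : ∀ g : FBar (M₀ * q * q),
      (∀ c, g ∈ ((E.ymodSeed hn hb h12 hu2 hD₀ hdeg hgenus).graphSetup.S c).Ov) →
      (∀ c, ((E.ymodSeed hn hb h12 hu2 hD₀ hdeg hgenus).graphSetup.S c).red g ≠ 0) →
      ((E.ymodSeed hn hb h12 hu2 hD₀ hdeg hgenus).graphSetup.S (Vtx.vert Vrt.oo)).red
          (nm2 (M₀ * q) q D₀ hM₀ g) =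
        ((E.ymodSeed hn hb h12 hu2 hD₀ hdeg hgenus).graphSetup.S (Vtx.vert Vrt.oo)).red g ^ q) :
    Nonempty (NormLayer2 (E.ymodSeed hn hb h12 hu2 hD₀ hdeg hgenus).graphSetup n q (midDeg q)
      (nm2 (M₀ * q) q D₀ hM₀)) := by
  haveI : Fact q.Prime := ⟨hqp⟩
  letI iA : ∀ m : Fin (midCard q), Algebra
      (FkOf ↥(modularFunctionFieldFullC (IsLocalRing.ResidueField A) M₀)
        (fun _ : Fin (midCard q) => ↥(igField (IsLocalRing.ResidueField A) M₀)) FkP
        (Vtx.vert Vrt.zero))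
      (FkOf ↥(modularFunctionFieldFullC (IsLocalRing.ResidueField A) M₀)
        (fun _ : Fin (midCard q) => ↥(igField (IsLocalRing.ResidueField A) M₀)) FkP
        (Vtx.vert (Vrt.mid m))) :=
    nliAlgZero (IsLocalRing.ResidueField A) M₀ FkP
  haveI iT : ∀ m : Fin (midCard q), IsScalarTower (IsLocalRing.ResidueField A)
      (FkOf ↥(modularFunctionFieldFullC (IsLocalRing.ResidueField A) M₀)
        (fun _ : Fin (midCard q) => ↥(igField (IsLocalRing.ResidueField A) M₀)) FkP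
        (Vtx.vert Vrt.zero))
      (FkOf ↥(modularFunctionFieldFullC (IsLocalRing.ResidueField A) M₀)
        (fun _ : Fin (midCard q) => ↥(igField (IsLocalRing.ResidueField A) M₀)) FkP
        (Vtx.vert (Vrt.mid m))) :=
    nli_isScalarTower_zero (IsLocalRing.ResidueField A) M₀ FkP
  haveI iF : ∀ m : Fin (midCard q), FiniteDimensional
      (FkOf ↥(modularFunctionFieldFullC (IsLocalRing.ResidueField A) M₀)
        (fun _ : Fin (midCard q) => ↥(igField (IsLocalRing.ResidueField A) M₀)) FkP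
        (Vtx.vert Vrt.zero))
      (FkOf ↥(modularFunctionFieldFullC (IsLocalRing.ResidueField A) M₀)
        (fun _ : Fin (midCard q) => ↥(igField (IsLocalRing.ResidueField A) M₀)) FkP
        (Vtx.vert (Vrt.mid m))) :=
    nli_finiteDimensional_zero (IsLocalRing.ResidueField A) M₀ FkP hqp
  have hinc : ∀ (m : Fin (midCard q))
      (x : ↥(modularFunctionFieldFullC (IsLocalRing.ResidueField A) M₀)),
      algebraMap
        (NlvFk (IsLocalRing.ResidueField A) M₀ (Fin (midCard q)) FkP (Vtx.vert Vrt.zero))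
        (NlvFk (IsLocalRing.ResidueField A) M₀ (Fin (midCard q)) FkP (Vtx.vert (Vrt.mid m))) x =
        IntermediateField.inclusion (fullC_le_igField (IsLocalRing.ResidueField A) M₀) x :=
    fun _ _ => rfl
  have hres := nlv_hres_zero (E.ymodSeed hn hb h12 hu2 hD₀ hdeg hgenus).graphSetup
    (edy_hsrc hn hb h12 hu2 hD₀ hdeg hgenus) hqp hqM hinc hRR pl hzero hmid
  have he := nlv_he_zero (E.ymodSeed hn hb h12 hu2 hD₀ hdeg hgenus).graphSetup
    (edy_hsrc hn hb h12 hu2 hD₀ hdeg hgenus) hqp hqM hinc hRR pl hSS hno hmid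
  have hdegV := nlv_hdeg_zero_of_place (Mid := Fin (midCard q)) (FkP := FkP) hqp hqM hinc hRR
    (pl (Classical.arbitrary SS)) (hSS _) (hno _)
  have hhor := nlh_red_hor2 O (E.ymodSeed hn hb h12 hu2 hD₀ hdeg hgenus).graphSetup hES
    (fun _ => rfl) (nlhHP O) (fun _ => rfl) hqp hqM hA D₀ hM₀ hDQ
  exact cocAsm2_ymod_layer (M₀ * q) q hn hb h12 hu2 hD₀ hdeg hgenus hxA hx2 hqp D₀ hM₀ n
    hres he hdegV red_zero red_mid red_oo hhor

/-- **the plain form of `red_mid` of `normLayer2_of` for an Igusa pair** (the hypothesis `h` of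
`nla_red_mid_zero`). -/
theorem cocPlug_red_mid2_plain (I : IgPack M₀ q A) (hqp : q.Prime) (hA : A.LiesOverPrime q)
    (Soo : ValSetup Qb (FBar (M₀ * q * q)) (IsLocalRing.ResidueField A)
      ↥(modularFunctionFieldFullC (IsLocalRing.ResidueField A) M₀))
    (hSoo : IsGaussSetup (M₀ * q * q) M₀ A Soo)
    (D₀ : ALData) (hM₀ : M₀ * q * q = D₀.Q * D₀.R) (hDQ : D₀.Q = q ^ 2) :
    ∀ g : FBar (M₀ * q * q), g ∈ (valSetupZeroAt D₀ hM₀ Soo).Ov → (∀ m, g ∈ (I.S m).Ov) → ∀ m,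
      (I.S m).red (nm2 (M₀ * q) q D₀ hM₀ g) =
        @algebraMap ↥(modularFunctionFieldFullC (IsLocalRing.ResidueField A) M₀)
          ↥(igField (IsLocalRing.ResidueField A) M₀) _ _
          (nrooAlg (IsLocalRing.ResidueField A) M₀)
          ((valSetupZeroAt D₀ hM₀ Soo).red (nm2 (M₀ * q) q D₀ hM₀ g)) := by
  intro g _ _ m
  have hDQ' : D₀.Q = q * q := by rw [hDQ, sq]
  have hDR : D₀.R = M₀ := by
    have h1 : D₀.Q * D₀.R = D₀.Q * M₀ := by rw [← hM₀, hDQ']; ring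
    exact Nat.eq_of_mul_eq_mul_left (by rw [hDQ']; exact Nat.mul_pos hqp.pos hqp.pos) h1
  exact nrMid_red_mid2 hqp A hA Soo hSoo (I.isMidExp m) (I.S m) (I.isMidSetup m)
    ((I.prim m).pow_eq_one) D₀ hDQ' hDR hM₀ g

/-- **the norm layer for `π₂` of the modular seed** (the field `layer2` of `CboNorm`), with
instances, (VERT), (DIV), (HOR), (RES) plugged. -/
theorem cocPlug_layer2 [CharP (IsLocalRing.ResidueField A) q]
    (hqp : q.Prime) (hqM : ¬ q ∣ M₀) (hA : A.LiesOverPrime q)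
    (hν2 : nuTwo M₀ = 0) (hν3 : nuThree M₀ = 0)
    (D₀ : ALData) (hM₀ : M₀ * q * q = D₀.Q * D₀.R) (hDQ : D₀.Q = q ^ 2)
    (I : IgPack M₀ q A)
    {R0 : Fermat.Agent.S18Key.RedSetup Qb (FBar M₀) (IsLocalRing.ResidueField A)
      ↥(modularFunctionFieldFullC (IsLocalRing.ResidueField A) M₀)}
    {pt : SS → Place (IsLocalRing.ResidueField A)
      ↥(modularFunctionFieldFullC (IsLocalRing.ResidueField A) M₀)}
    (O : ∀ P : SS, WPOut M₀ q A R0 (pt P) (FkP P))
    {Soo : ValSetup Qb (FBar (M₀ * q * q)) (IsLocalRing.ResidueField A)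
      ↥(modularFunctionFieldFullC (IsLocalRing.ResidueField A) M₀)}
    (hSoo : IsGaussSetup (M₀ * q * q) M₀ A Soo)
    (hES : E.S = vtxFamily Soo (valSetupZeroAt D₀ hM₀ Soo) I.S fun P => (O P).S)
    (hxA : EndsRedA E.S (nlhHP O) (algebraMap Qb (FBar (M₀ * q * q)) E.ϖA / E.uA))
    (hx2 : EndsRed2 E.S (nlhHP O) E.u2)
    (hRR : IsRRField (IsLocalRing.ResidueField A) ↥(igField (IsLocalRing.ResidueField A) M₀))
    (pl : SS → Place (IsLocalRing.ResidueField A)
      ↥(modularFunctionFieldFullC (IsLocalRing.ResidueField A) M₀))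
    (hzero : ∀ P, E.pv P Vrt.zero = pl P)
    (hmid : ∀ P m, E.pv P (Vrt.mid m) =
      igPv M₀ q hqp hqM (IsLocalRing.ResidueField A) hRR (pl P))
    (hSS : ∀ P, IsSSPlace (IsLocalRing.ResidueField A) M₀ q (pl P))
    (hno : ∀ P, ∀ u : ↥(modularFunctionFieldFullC (IsLocalRing.ResidueField A) M₀),
      (u : LaurentSeries (IsLocalRing.ResidueField A)) = ssFun (IsLocalRing.ResidueField A) q →
        (pl P).ord u = 12)
    (n : ℕ) :
    Nonempty (NormLayer2 (E.ymodSeed hn hb h12 hu2 hD₀ hdeg hgenus).graphSetup n q (midDeg q)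
      (nm2 (M₀ * q) q D₀ hM₀)) :=
  cocPlug_layer2_of_res E hn hb h12 hu2 hD₀ hdeg hgenus hqp hqM hA D₀ hM₀ hDQ O hES hxA hx2 hRR
    pl hzero hmid hSS hno n
    (nla_red_norm_zero (E.ymodSeed hn hb h12 hu2 hD₀ hdeg hgenus).graphSetup hES
      (fun _ => nrooAlg (IsLocalRing.ResidueField A) M₀) _
      (nlr_pack_norm_zero I hqp hqM hA hν2 hν3 Soo hSoo D₀ hM₀ hDQ))
    (nla_red_mid_zero (E.ymodSeed hn hb h12 hu2 hD₀ hdeg hgenus).graphSetup hES
      (fun _ => nrooAlg (IsLocalRing.ResidueField A) M₀) _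
      (cocPlug_red_mid2_plain I hqp hA Soo hSoo D₀ hM₀ hDQ))
    (nlpi_red_oo2 (E.ymodSeed hn hb h12 hu2 hD₀ hdeg hgenus).graphSetup hSoo D₀ hM₀ hDQ hES
      hqp hqM hA)

end Plug

end Fermat.Agent.S36G
end
end MergeWrap_S36_G_CocPlug2

section MergeWrap_S36_G_CocEnds -- from S36/G/CocEnds.lean

set_option autoImplicit false
set_option linter.unusedSectionVars false
set_option linter.unusedVariables false
set_option linter.style.haveILetI false
set_option synthInstance.maxHeartbeats 400000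
set_option maxHeartbeats 1000000

/-!
# Cluster G (S36), block COC: THE JUNCTION OUTPUT `CboNorm` FOR THE MODULAR SEED  (helper36)

`E : ModEndsInput ℚ̄ (FBar (M₀ q q)) k (Fin (midCard q)) SS F_k(M₀) (igField k M₀) FkP`,
`k` the residue field of `A ∣ q`, `G := E.ymodSeed ..`, `N := G.graphSetup`.

* `cboNorm_of_ends` : **`CboNorm M₀ q A N D₀ hM₀ (midDeg q) n (m • G.D₀)`** — the hypothesis
  `hnorm` of `coreBundleOfEnds` (`S36/G/CoreBundleOf.lean`, take `m := G.bigBound`) — with NO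
  residue, valuation or saturation hypothesis left.  Inputs (all from MG-INST / SEED-UP):
  `hES : E.S = vtxFamily Soo (valSetupZeroAt D₀ hM₀ Soo) I.S (fun P => (O P).S)` (`I : IgPack`,
  `Soo` Gauss, `O P : WPOut`), `hxA`, `hx2` (the reductions of `ϖA / uA`, `u2` on the `H_P`),
  `hpv : E.pv = sevPv ι`, `hSS`, `hno` (the `ι P` are supersingular, `ord ssFun = 12`),
  `hu1 : E.u1 = uF`, `huA : E.uA = uF2`.
* `cboNorm_of_ends_aux` : the same with `hno` discharged at the auxiliary levels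
  (`igHnoAll`).

Plugged: helper75 `cocPlug_layer1_sev`, helper4 `cocPlug_layer2`, helper21 `satY_normSat_nm1/2`
(through `cboNorm_of_layers`), helper36 `cocPv_sevMidPt_eq_igPv`.
-/

noncomputable section

open AlgebraicCurve Fermat.Agent.RR Fermat.Agent.Deuring IntermediateField

namespace Fermat.Agent.S36G

open ModularCurve Fermat.Agent.F3 Fermat.Agent.F3G Fermat.Agent.GaussInt
  Fermat.Agent.AtkinLehner Fermat.Agent.Kronecker Fermat.Agent.BadRed Fermat.Agent.BadRedG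
  Fermat.Agent.BadRed.Gluing Fermat.Agent.S24Res Fermat.Agent.HP Fermat.Agent.S36

local notation "Qb" => AlgebraicClosure ℚ

attribute [local instance] Fermat.Agent.GaussInt.isAlgClosed_residue
  Fermat.Agent.GaussInt.infinite_residue

section Ends

variable {M₀ q : ℕ} [NeZero M₀] [NeZero q] [hN₁ : NeZero (M₀ * q)]
  {A : ValuationSubring Qb}
  {SS : Type} [Fintype SS] [Nonempty SS]
  {FkP : SS → Type} [∀ P, Field (FkP P)] [∀ P, Algebra (IsLocalRing.ResidueField A) (FkP P)]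
  (E : ModEndsInput Qb (FBar (M₀ * q * q)) (IsLocalRing.ResidueField A) (Fin (midCard q)) SS
    ↥(modularFunctionFieldFullC (IsLocalRing.ResidueField A) M₀)
    (fun _ : Fin (midCard q) => ↥(igField (IsLocalRing.ResidueField A) M₀)) FkP)
  {b : Qb} {nn : ℕ}
  (hn : 2 ≤ nn) (hb : E.ϖ1 ^ nn = b) (h12 : E.ϖ1 * E.ϖ2 = b)
  (hu2 : E.u2 = E.u1 / algebraMap Qb (FBar (M₀ * q * q)) E.ϖ1)
  (hD₀ : E.D₀ = poleDiv (E.S (Vtx.vert Vrt.oo)).hF (E.ymodX b nn))
  (hdeg : Divisor.degree (poleDiv (E.S (Vtx.vert Vrt.oo)).hF (E.ymodX b nn)) ≤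
    ∑ c, Divisor.degree (poleDiv (E.S c).hFk ((E.S c).red (E.ymodX b nn))))
  (hgenus : genusFF Qb (FBar (M₀ * q * q)) + Fintype.card (Vtx (Fin (midCard q)) SS) ≤
    (∑ c, genusFF (IsLocalRing.ResidueField A)
      (FkOf ↥(modularFunctionFieldFullC (IsLocalRing.ResidueField A) M₀)
        (fun _ : Fin (midCard q) => ↥(igField (IsLocalRing.ResidueField A) M₀)) FkP c)) +
      Fintype.card (Nod (Fin (midCard q)) SS) + 1)

/-- **THE JUNCTION OUTPUT `CboNorm` FOR THE MODULAR SEED.** -/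
theorem cboNorm_of_ends
    (hqp : q.Prime) (hqM : ¬ q ∣ M₀) (hA : A.LiesOverPrime q)
    (hν2 : nuTwo M₀ = 0) (hν3 : nuThree M₀ = 0)
    (D₀ : ALData) (hM₀ : M₀ * q * q = D₀.Q * D₀.R) (hDQ : D₀.Q = q ^ 2)
    {R0 : Fermat.Agent.S18Key.RedSetup Qb (FBar M₀) (IsLocalRing.ResidueField A)
      ↥(modularFunctionFieldFullC (IsLocalRing.ResidueField A) M₀)}
    {pt : SS → Place (IsLocalRing.ResidueField A)
      ↥(modularFunctionFieldFullC (IsLocalRing.ResidueField A) M₀)}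
    (O : ∀ P : SS, WPOut M₀ q A R0 (pt P) (FkP P))
    (I : IgPack M₀ q A)
    {Soo : ValSetup Qb (FBar (M₀ * q * q)) (IsLocalRing.ResidueField A)
      ↥(modularFunctionFieldFullC (IsLocalRing.ResidueField A) M₀)}
    (hSoo : IsGaussSetup (M₀ * q * q) M₀ A Soo)
    (hES : E.S = vtxFamily Soo (valSetupZeroAt D₀ hM₀ Soo) I.S fun P => (O P).S)
    (hxA : EndsRedA E.S (nlhHP O) (algebraMap Qb (FBar (M₀ * q * q)) E.ϖA / E.uA))
    (hx2 : EndsRed2 E.S (nlhHP O) E.u2)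
    (ι : SS → Place (IsLocalRing.ResidueField A)
      ↥(modularFunctionFieldFullC (IsLocalRing.ResidueField A) M₀))
    (hpv : haveI : Fact q.Prime := ⟨hqp⟩
      haveI : CharP (IsLocalRing.ResidueField A) q :=
        Fermat.Agent.FrobTrace.charP_residueField A hA
      ∀ P v, E.pv P v = sevPv M₀ q hqp hqM (IsLocalRing.ResidueField A) FkP ι P v)
    (hSS : ∀ P, IsSSPlace (IsLocalRing.ResidueField A) M₀ q (ι P))
    (hno : ∀ P, ∀ u : ↥(modularFunctionFieldFullC (IsLocalRing.ResidueField A) M₀),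
      (u : LaurentSeries (IsLocalRing.ResidueField A)) = ssFun (IsLocalRing.ResidueField A) q →
        (ι P).ord u = 12)
    (hu1 : E.u1 = uF (M₀ * q * q) q (nsm_dvd (M₀ * q) q))
    (huA : E.uA = uF2 (M₀ * q * q) q (satc_sq_dvd (M₀ * q) q (Dvd.intro_left M₀ rfl)))
    (n m : ℕ) :
    CboNorm M₀ q A (E.ymodSeed hn hb h12 hu2 hD₀ hdeg hgenus).graphSetup D₀ hM₀ (midDeg q) n
      (m • (E.ymodSeed hn hb h12 hu2 hD₀ hdeg hgenus).D₀) := by
  haveI : Fact q.Prime := ⟨hqp⟩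
  haveI : CharP (IsLocalRing.ResidueField A) q := Fermat.Agent.FrobTrace.charP_residueField A hA
  have hRR : IsRRField (IsLocalRing.ResidueField A)
      ↥(igField (IsLocalRing.ResidueField A) M₀) :=
    igRR M₀ q hqp hqM (IsLocalRing.ResidueField A)
  obtain ⟨L1⟩ := cocPlug_layer1_sev E hn hb h12 hu2 hD₀ hdeg hgenus hqp hqM hA hν2 hν3 D₀ hM₀
    hDQ O I hSoo hES hxA hx2 hRR ι hpv hSS hno n
  obtain ⟨L2⟩ := cocPlug_layer2 E hn hb h12 hu2 hD₀ hdeg hgenus hqp hqM hA hν2 hν3 D₀ hM₀ hDQ I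
    O hSoo hES hxA hx2 hRR ι (fun P => hpv P Vrt.zero)
    (fun P m => (hpv P (Vrt.mid m)).trans
      (cocPv_sevMidPt_eq_igPv M₀ q hqp hqM (IsLocalRing.ResidueField A) hRR (ι P) (hSS P)
        (hno P)))
    hSS hno n
  exact cboNorm_of_layers E hn hb h12 hu2 hD₀ hdeg hgenus hqp hA D₀ hM₀ hDQ hu1 huA (nlhHP O)
    hxA hx2 (midDeg q) n m L1 L2

/-- **the junction output `CboNorm` at the auxiliary levels** (`hno` from `igHnoAll`). -/
theorem cboNorm_of_ends_aux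
    (hqp : q.Prime) (hqM : ¬ q ∣ M₀) (hA : A.LiesOverPrime q)
    (hν2 : nuTwo M₀ = 0) (hν3 : nuThree M₀ = 0)
    (h2 : q = 2 → 3 ∣ M₀) (h3 : q = 3 → 2 ∣ M₀)
    (D₀ : ALData) (hM₀ : M₀ * q * q = D₀.Q * D₀.R) (hDQ : D₀.Q = q ^ 2)
    {R0 : Fermat.Agent.S18Key.RedSetup Qb (FBar M₀) (IsLocalRing.ResidueField A)
      ↥(modularFunctionFieldFullC (IsLocalRing.ResidueField A) M₀)}
    {pt : SS → Place (IsLocalRing.ResidueField A)
      ↥(modularFunctionFieldFullC (IsLocalRing.ResidueField A) M₀)}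
    (O : ∀ P : SS, WPOut M₀ q A R0 (pt P) (FkP P))
    (I : IgPack M₀ q A)
    {Soo : ValSetup Qb (FBar (M₀ * q * q)) (IsLocalRing.ResidueField A)
      ↥(modularFunctionFieldFullC (IsLocalRing.ResidueField A) M₀)}
    (hSoo : IsGaussSetup (M₀ * q * q) M₀ A Soo)
    (hES : E.S = vtxFamily Soo (valSetupZeroAt D₀ hM₀ Soo) I.S fun P => (O P).S)
    (hxA : EndsRedA E.S (nlhHP O) (algebraMap Qb (FBar (M₀ * q * q)) E.ϖA / E.uA))
    (hx2 : EndsRed2 E.S (nlhHP O) E.u2)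
    (ι : SS → Place (IsLocalRing.ResidueField A)
      ↥(modularFunctionFieldFullC (IsLocalRing.ResidueField A) M₀))
    (hpv : haveI : Fact q.Prime := ⟨hqp⟩
      haveI : CharP (IsLocalRing.ResidueField A) q :=
        Fermat.Agent.FrobTrace.charP_residueField A hA
      ∀ P v, E.pv P v = sevPv M₀ q hqp hqM (IsLocalRing.ResidueField A) FkP ι P v)
    (hSS : ∀ P, IsSSPlace (IsLocalRing.ResidueField A) M₀ q (ι P))
    (hu1 : E.u1 = uF (M₀ * q * q) q (nsm_dvd (M₀ * q) q))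
    (huA : E.uA = uF2 (M₀ * q * q) q (satc_sq_dvd (M₀ * q) q (Dvd.intro_left M₀ rfl)))
    (n m : ℕ) :
    CboNorm M₀ q A (E.ymodSeed hn hb h12 hu2 hD₀ hdeg hgenus).graphSetup D₀ hM₀ (midDeg q) n
      (m • (E.ymodSeed hn hb h12 hu2 hD₀ hdeg hgenus).D₀) :=
  cboNorm_of_ends E hn hb h12 hu2 hD₀ hdeg hgenus hqp hqM hA hν2 hν3 D₀ hM₀ hDQ O I hSoo hES
    hxA hx2 ι hpv hSS
    (fun P => igHnoAll M₀ hqp hqM hν2 hν3 h2 h3 hA (ι P) (hSS P)) hu1 huA n m

end Ends

end Fermat.Agent.S36G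
end
end MergeWrap_S36_G_CocEnds
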