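import Mathlib
import Fermat.Agent.MU.S36.G.VtxFamily
import Fermat.Agent.MU.S36.Val.Restr
import Fermat.Agent.MU.S36.Igusa.Defs
import Fermat.Agent.MU.S36.HPVal.Defs
import Fermat.Agent.MU.Lib.BadRed.Mod.GaussSetup
import Fermat.Agent.Lib.BadRed.Mod.Arch

section MergeWrap_S36_G_ModCore -- from S36/G/ModCore.lean

/-!
# Cluster G (S36), MG-INST, leaf MG-CORE-MOD: the fields `A_eq`, `res_eq`, `lat`, `arch` of the
modular family of constant reductions  (helper25; row 2 of helper40's field table)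

The modular family is `S := vtxFamily S∞ S₀ S_m S_P` (`S36/G/VtxFamily.lean`) on
`F = F_{M₀ q q}` over `ℚ̄`, with

* `S∞`  a Gauss reduction: `IsGaussSetup (M₀ * q * q) M₀ A S∞` (+ `HasLattice S∞`);
* `S₀ := valSetupZeroAt D hM S∞` (`S36/Val/Restr.lean`), the conjugate by the Atkin–Lehner
  involution of the level `M₀ q q = D.Q * D.R`;
* `S_m` the middle reductions: `IsMidSetup M₀ q A (ε m) (S_m m)` (+ `HasLattice (S_m m)`);
* `S_P := (O P).S`, `O P : WPOut M₀ q A R0 (pl P) (FkP P)` the output of block W-P.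

Results (`modFam .. := vtxFamily Soo (valSetupZeroAt D hM Soo) Sm (fun P => (O P).S)`, an
abbreviation):

* `modCore_A`       : `(S c).A = A` for all `c`;
* `modCore_res`     : `(S c).res = residue A` for all `c`;
* `modCore_A_eq`, `modCore_res_eq` : the fields `A_eq`, `res_eq` of `GraphCore`;
* `modCore_lat`     : the field `lat` of `GraphCore` / `ModEndsInput`;
* `modCore_arch`    : the field `arch` of `GraphCore` / `ModEndsInput` (`A ∣ q`, rank one);
* `modCore_mem_A_iff`, `modCore_const_mem_iff` : constants of the family;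
* `modCore_valSetupZeroAt_res_apply` : the residue map of the constants of `v_0` (abstract; in the
  modular setting the kernel cannot unfold `valSetupZeroAt` in reasonable time, so never use
  `rfl` / `exact` up to this unfolding there).
-/

set_option autoImplicit false
set_option linter.unusedSectionVars false
set_option linter.style.haveILetI false
set_option synthInstance.maxHeartbeats 400000
set_option maxHeartbeats 400000

noncomputable section

open ModularCurve AlgebraicCurve Fermat.Agent.RR Fermat.Agent.Deuring Fermat.Agent.BadRed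
  Fermat.Agent.AtkinLehner Fermat.Agent.F3 Fermat.Agent.F3G Fermat.Agent.GaussInt
  Fermat.Agent.HPVal Fermat.Agent.HP

attribute [local instance 10000] SubalgebraClass.toAlgebra HahnSeries.powerSeriesAlgebra

namespace Fermat.Agent.S36G

local notation "Qb" => AlgebraicClosure ℚ

/-! ### the constants of `v_0 = v_∞ ∘ w` (stated abstractly: no unfolding in the modular
setting) -/

section Abs

variable {K F k Fk : Type*} [Field K] [Field F] [Algebra K F] [Field k] [Field Fk] [Algebra k Fk]

/-- the residue map of the constants of a transported reduction. -/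
theorem modCore_comapEquiv_res_apply (S : ValSetup K F k Fk) (w : F ≃ₐ[K] F) (x : K)
    (h : x ∈ (comapEquiv S w).A) (h' : x ∈ S.A) :
    (comapEquiv S w).res ⟨x, h⟩ = S.res ⟨x, h'⟩ := rfl

end Abs

section AbsZero

variable {k Fk : Type*} [Field k] [Field Fk] [Algebra k Fk]
  (D : ALData) {M : ℕ} (hM : M = D.Q * D.R) (S : ValSetup Qb (FBar M) k Fk)

/-- the residue map of the constants of `v_0 = v_∞ ∘ w`. -/
theorem modCore_valSetupZeroAt_res_apply (x : Qb) (h : x ∈ (valSetupZeroAt D hM S).A)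
    (h' : x ∈ S.A) : (valSetupZeroAt D hM S).res ⟨x, h⟩ = S.res ⟨x, h'⟩ :=
  modCore_comapEquiv_res_apply S (wAt D hM) x h h'

theorem modCore_mem_valSetupZeroAt_A (x : Qb) : x ∈ (valSetupZeroAt D hM S).A ↔ x ∈ S.A := by
  rw [valSetupZeroAt_A]

end AbsZero

/-- shortcut (the instance found by unification is the same term, after a slow search). -/
local instance (priority := 10000) modCoreAlgFullC (A : ValuationSubring Qb) (N : ℕ) :
    Algebra (IsLocalRing.ResidueField A)
      (modularFunctionFieldFullC (IsLocalRing.ResidueField A) N) :=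
  SubalgebraClass.toAlgebra (modularFunctionFieldFullC (IsLocalRing.ResidueField A) N)

/-- shortcut. -/
local instance (priority := 10000) modCoreAlgIg (A : ValuationSubring Qb) (N : ℕ) :
    Algebra (IsLocalRing.ResidueField A) (igField (IsLocalRing.ResidueField A) N) :=
  SubalgebraClass.toAlgebra (igField (IsLocalRing.ResidueField A) N)

section ModCore

variable {M₀ q : ℕ} [NeZero M₀] [NeZero q] {A : ValuationSubring Qb}
  {Mid SS : Type}
  {R0 : Fermat.Agent.S18Key.RedSetup Qb (FBar M₀) (IsLocalRing.ResidueField A)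
    ↥(modularFunctionFieldFullC (IsLocalRing.ResidueField A) M₀)}
  {pl : SS → Place (IsLocalRing.ResidueField A)
    ↥(modularFunctionFieldFullC (IsLocalRing.ResidueField A) M₀)}
  {FkP : SS → Type} [∀ P, Field (FkP P)] [∀ P, Algebra (IsLocalRing.ResidueField A) (FkP P)]
  (Soo : ValSetup Qb (FBar (M₀ * q * q)) (IsLocalRing.ResidueField A)
    ↥(modularFunctionFieldFullC (IsLocalRing.ResidueField A) M₀))
  (D : ALData) (hM : M₀ * q * q = D.Q * D.R)
  (Sm : Mid → ValSetup Qb (FBar (M₀ * q * q)) (IsLocalRing.ResidueField A)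
    ↥(igField (IsLocalRing.ResidueField A) M₀))
  (O : ∀ P : SS, WPOut M₀ q A R0 (pl P) (FkP P))

/-- **the modular family of constant reductions** of `F_{M₀ q q}`: `S∞`, `S₀ = S∞ ∘ w`, the
middle reductions and the `w_P`. -/
abbrev modFam : ∀ c : Vtx Mid SS, ValSetup Qb (FBar (M₀ * q * q)) (IsLocalRing.ResidueField A)
    (FkOf ↥(modularFunctionFieldFullC (IsLocalRing.ResidueField A) M₀)
      (fun _ : Mid => ↥(igField (IsLocalRing.ResidueField A) M₀)) FkP c) :=
  vtxFamily Soo (valSetupZeroAt D hM Soo) Sm (fun P => (O P).S)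

variable (ε : Mid → ↥(modularFunctionFieldBar (M₀ * q * q)) →ₐ[Qb] LaurentSeries Qb)

/-- the valuation ring of the constants of every member of the family is `A`. -/
theorem modCore_A (hoo : IsGaussSetup (M₀ * q * q) M₀ A Soo)
    (hm : ∀ m, IsMidSetup M₀ q A (ε m) (Sm m)) (c : Vtx Mid SS) :
    (modFam Soo D hM Sm O c).A = A :=
  vtxFamily_A Soo (valSetupZeroAt D hM Soo) Sm (fun P => (O P).S) A hoo.A_eq
    ((valSetupZeroAt_A D hM Soo).trans hoo.A_eq) (fun m => (hm m).A_eq) (fun P => (O P).A_eq) c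

/-- **`A_eq`** of `GraphCore`. -/
theorem modCore_A_eq (hoo : IsGaussSetup (M₀ * q * q) M₀ A Soo)
    (hm : ∀ m, IsMidSetup M₀ q A (ε m) (Sm m)) (c c' : Vtx Mid SS) :
    (modFam Soo D hM Sm O c).A = (modFam Soo D hM Sm O c').A := by
  rw [modCore_A Soo D hM Sm O ε hoo hm c, modCore_A Soo D hM Sm O ε hoo hm c']

/-- the residue map of the constants of every member of the family is the residue map of
`A`. -/
theorem modCore_res (hoo : IsGaussSetup (M₀ * q * q) M₀ A Soo)
    (hm : ∀ m, IsMidSetup M₀ q A (ε m) (Sm m)) (c : Vtx Mid SS) (x : Qb)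
    (h : x ∈ (modFam Soo D hM Sm O c).A) (h' : x ∈ A) :
    (modFam Soo D hM Sm O c).res ⟨x, h⟩ = IsLocalRing.residue A ⟨x, h'⟩ :=
  vtxFamily_res Soo (valSetupZeroAt D hM Soo) Sm (fun P => (O P).S) A (IsLocalRing.residue A)
    (fun x h h' => hoo.res_eq x h h')
    (fun x h h' =>
      (modCore_valSetupZeroAt_res_apply D hM Soo x h
        ((modCore_mem_valSetupZeroAt_A D hM Soo x).mp h)).trans
        (hoo.res_eq x ((modCore_mem_valSetupZeroAt_A D hM Soo x).mp h) h'))
    (fun m x h h' => (hm m).res_eq x h h')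
    (fun P x h h' => (O P).res_eq x h h') c x h h'

/-- **`res_eq`** of `GraphCore`. -/
theorem modCore_res_eq (hoo : IsGaussSetup (M₀ * q * q) M₀ A Soo)
    (hm : ∀ m, IsMidSetup M₀ q A (ε m) (Sm m)) (c c' : Vtx Mid SS) (x : Qb)
    (h : x ∈ (modFam Soo D hM Sm O c).A) (h' : x ∈ (modFam Soo D hM Sm O c').A) :
    (modFam Soo D hM Sm O c).res ⟨x, h⟩ = (modFam Soo D hM Sm O c').res ⟨x, h'⟩ := by
  have hx : x ∈ A := by
    rw [← modCore_A Soo D hM Sm O ε hoo hm c]
    exact h
  rw [modCore_res Soo D hM Sm O ε hoo hm c x h hx, modCore_res Soo D hM Sm O ε hoo hm c' x h' hx]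

/-- **`lat`** of `GraphCore` / `ModEndsInput`. -/
theorem modCore_lat (hLoo : HasLattice Soo) (hLm : ∀ m, HasLattice (Sm m)) (c : Vtx Mid SS) :
    HasLattice (modFam Soo D hM Sm O c) :=
  vtxFamily_lat Soo (valSetupZeroAt D hM Soo) Sm (fun P => (O P).S) hLoo
    (hasLattice_valSetupZeroAt D hM Soo hLoo) hLm (fun P => (O P).lat) c

/-- **`arch`** of `GraphCore` / `ModEndsInput`: the valuation of `ℚ̄` at `A ∣ q` is of rank
one. -/
theorem modCore_arch (hq : q.Prime) (hA : A.LiesOverPrime q)
    (hoo : IsGaussSetup (M₀ * q * q) M₀ A Soo)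
    (hm : ∀ m, IsMidSetup M₀ q A (ε m) (Sm m)) (c₀ : Vtx Mid SS) (x : Qb)
    (hx : x ∈ (modFam Soo D hM Sm O c₀).A) (hx' : x⁻¹ ∉ (modFam Soo D hM Sm O c₀).A) (d : Qb) :
    ∃ j : ℕ, x ^ j * d ∈ (modFam Soo D hM Sm O c₀).A :=
  vtxFamily_arch Soo (valSetupZeroAt D hM Soo) Sm (fun P => (O P).S) A hoo.A_eq
    ((valSetupZeroAt_A D hM Soo).trans hoo.A_eq) (fun m => (hm m).A_eq) (fun P => (O P).A_eq)
    (arch_algebraicClosure A hq hA) c₀ x hx hx' d

/-- membership of a constant in the constants of a member of the family. -/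
theorem modCore_mem_A_iff (hoo : IsGaussSetup (M₀ * q * q) M₀ A Soo)
    (hm : ∀ m, IsMidSetup M₀ q A (ε m) (Sm m)) (c : Vtx Mid SS) (x : Qb) :
    x ∈ (modFam Soo D hM Sm O c).A ↔ x ∈ A := by
  rw [modCore_A Soo D hM Sm O ε hoo hm c]

/-- a constant is integral for a member of the family iff it lies in `A`. -/
theorem modCore_const_mem_iff (hoo : IsGaussSetup (M₀ * q * q) M₀ A Soo)
    (hm : ∀ m, IsMidSetup M₀ q A (ε m) (Sm m)) (c : Vtx Mid SS) (x : Qb) :
    algebraMap Qb (FBar (M₀ * q * q)) x ∈ (modFam Soo D hM Sm O c).Ov ↔ x ∈ A := by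
  rw [(modFam Soo D hM Sm O c).mem_Ov_iff x, modCore_A Soo D hM Sm O ε hoo hm c]

end ModCore

end Fermat.Agent.S36G
end
end MergeWrap_S36_G_ModCore
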