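import Mathlib
import Fermat.Agent.MU.S36.HPVal.ValFamily
import Fermat.Agent.MU.S36.HPVal.ValAt
import Fermat.Agent.MU.S36.Igusa.Pack
import Fermat.Agent.MU.S36.Val.Restr
import Fermat.Agent.MU.Lib.BadRed.Mod.AuxUnified
import Fermat.Agent.MU.S36.G.ModularGraphInst
import Fermat.Agent.MU.S36.G.AuxNu
import Fermat.Agent.MU.S36.HPVal.WPFinal
import Fermat.Agent.MU.S36.HPVal.ValAtT
import Fermat.Agent.MU.S36.Seed.UHorDatum

section MergeWrap_S36_G_ModWorldEx -- from S36/G/ModWorldEx.lean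

set_option autoImplicit false
set_option linter.style.haveILetI false
set_option linter.unusedSectionVars false
set_option linter.unusedVariables false
set_option synthInstance.maxHeartbeats 400000
set_option maxHeartbeats 1000000

/-!
# Cluster G (S36), MG-INST, slice (b): the components of the modular world EXIST  (helper38)

For a prime `q ∤ M₀`, a place `A ∣ q` of `ℚ̄` and the rigid auxiliary level (`AuxLevelOK q M₀`,
`nuTwo M₀ = 0`, `nuThree M₀ = 0`) all the fields of helper40's `ModWorld M₀ q A`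
(`S36/G/ModularGraphInst.lean`) exist.  This file does NOT import `ModularGraphInst.lean`: it
produces the components, the one-line packaging is `S36/G/ModWorldNonempty.lean`.

* `modWorldEx_instCharP`, `modWorldEx_instPerfect` : the instance arguments of `ModWorld`
  (`CharP k q`, `PerfectRing k q`, `k = IsLocalRing.ResidueField A`);
* `modWorldEx_hg`     : the genus equality `g(F_{M₀}) = g(F_{M₀,k})` (`genusFF_eq_of_aux`);
* `modWorldEx_vert`   : `D₀` (`D₀.Q = q ^ 2`, `D₀.R = M₀`, `hM₀ : M₀ q q = D₀.Q D₀.R`) and the Gauss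
  reduction `S_∞` of `F_{M₀ q²}` with the lattice property (for `S_∞` and for
  `valSetupZeroAt D₀ hM₀ S_∞`), the two rings incomparable (`exists_vertPair_sq`);
* `modWorldEx_ig`     : the Igusa pair (`nonempty_igPack`);
* `modWorldEx_pi`     : a root `ϖ` of `X ^ (q + 1) = q` (`ϖ ≠ 0`, `ϖ ∈ A`, `ϖ⁻¹ ∉ A`);
* `modWorldEx_family` : the family `WPFamily M₀ q A (wpdSetup ..) ϖ` for EVERY root `ϖ`, from
  `WPExistsAt M₀ q` (`wpFamily_nonempty`);
* `modWorldEx_parts`  : all of them together, `S0 = wpdSetup A q M₀ hq hA hqM hg` Gauss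
  (`isGaussRed_wpdSetup`).
-/

noncomputable section

namespace Fermat.Agent.S36G

open ModularCurve AlgebraicCurve IntermediateField Fermat.Agent.F3 Fermat.Agent.F3G
  Fermat.Agent.GaussInt Fermat.Agent.AtkinLehner Fermat.Agent.Deuring Fermat.Agent.BadRed
  Fermat.Agent.HPVal Fermat.Agent.HP Fermat.Agent.F3Genus

local notation "Qb" => AlgebraicClosure ℚ

variable {M₀ q : ℕ} [NeZero M₀] [NeZero q]

/-- the instance argument `CharP k q` of `ModWorld`. -/
theorem modWorldEx_instCharP (hq : q.Prime) {A : ValuationSubring Qb} (hA : A.LiesOverPrime q) :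
    CharP (IsLocalRing.ResidueField A) q :=
  haveI : Fact q.Prime := ⟨hq⟩
  Fermat.Agent.FrobTrace.charP_residueField A hA

/-- the instance argument `PerfectRing k q` of `ModWorld`. -/
theorem modWorldEx_instPerfect (A : ValuationSubring Qb) [Fact q.Prime]
    [CharP (IsLocalRing.ResidueField A) q] : PerfectRing (IsLocalRing.ResidueField A) q := by
  haveI : IsAlgClosed (IsLocalRing.ResidueField A) := isAlgClosed_residue A
  infer_instance

/-- the genus equality at the auxiliary level. -/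
theorem modWorldEx_hg (hq : q.Prime) (hqM : ¬ q ∣ M₀) (haux : AuxLevelOK q M₀)
    {A : ValuationSubring Qb} (hA : A.LiesOverPrime q) :
    genusFF Qb (modularFunctionFieldBar M₀) =
      genusFF (IsLocalRing.ResidueField A)
        (modularFunctionFieldFullC (IsLocalRing.ResidueField A) M₀) :=
  genusFF_eq_of_aux M₀ hq hqM haux hA

/-- **the vertical pair**: the Atkin–Lehner datum of `q²` and the Gauss reduction `S_∞` of
`F_{M₀ q²}`. -/
theorem modWorldEx_vert (hq : q.Prime) (hqM : ¬ q ∣ M₀) (A : ValuationSubring Qb)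
    (hA : A.LiesOverPrime q) :
    ∃ (D₀ : ALData) (hM₀ : M₀ * q * q = D₀.Q * D₀.R)
      (Soo : ValSetup Qb (FBar (M₀ * q * q)) (IsLocalRing.ResidueField A)
        (modularFunctionFieldFullC (IsLocalRing.ResidueField A) M₀)),
      D₀.Q = q ^ 2 ∧ D₀.R = M₀ ∧ IsGaussSetup (M₀ * q * q) M₀ A Soo ∧ HasLattice Soo ∧
        HasLattice (valSetupZeroAt D₀ hM₀ Soo) ∧
        ¬ Soo.Ov ≤ (valSetupZeroAt D₀ hM₀ Soo).Ov ∧ ¬ (valSetupZeroAt D₀ hM₀ Soo).Ov ≤ Soo.Ov := by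
  have hcop : Nat.Coprime (q ^ 2) M₀ :=
    Nat.Coprime.pow_left 2 ((Nat.Prime.coprime_iff_not_dvd hq).mpr hqM)
  obtain ⟨D, hQ, hR⟩ := ALData.exists_of_coprime (Q := q ^ 2) (R := M₀)
    (pow_pos hq.pos 2) (Nat.pos_of_ne_zero (NeZero.ne M₀)) hcop
  subst hR
  have hM : D.R * q * q = D.Q * D.R := by rw [hQ]; ring
  obtain ⟨S, hS, hL, hL0, h1, h2⟩ := exists_vertPair_sq hq D hQ hqM A hA hM
  exact ⟨D, hM, S, hQ, rfl, hS, hL, hL0, h1, h2⟩

/-- **the Igusa pair.** -/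
theorem modWorldEx_ig (hq : q.Prime) (hqM : ¬ q ∣ M₀) (hν2 : nuTwo M₀ = 0)
    (hν3 : nuThree M₀ = 0) (A : ValuationSubring Qb) (hA : A.LiesOverPrime q) :
    Nonempty (IgPack M₀ q A) :=
  nonempty_igPack M₀ q hq hqM hν2 hν3 A hA

/-- **the uniformiser**: a root of `X ^ (q + 1) = q`. -/
theorem modWorldEx_pi (hq : q.Prime) {A : ValuationSubring Qb} (hA : A.LiesOverPrime q) :
    ∃ ϖ : Qb, ϖ ^ (q + 1) = (q : Qb) ∧ ϖ ≠ 0 ∧ ϖ ∈ A ∧ ϖ⁻¹ ∉ A :=
  wpd_exists_pi (A := A) hq hA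

/-- **the family of the `w_P`**, for every root `ϖ` of `X ^ (q + 1) = q`. -/
theorem modWorldEx_family (hWP : WPExistsAt M₀ q) (hq : q.Prime) (hqM : ¬ q ∣ M₀)
    (A : ValuationSubring Qb) (hA : A.LiesOverPrime q)
    (hg : genusFF Qb (modularFunctionFieldBar M₀) =
      genusFF (IsLocalRing.ResidueField A)
        (modularFunctionFieldFullC (IsLocalRing.ResidueField A) M₀))
    [Fact q.Prime] [CharP (IsLocalRing.ResidueField A) q]
    [PerfectRing (IsLocalRing.ResidueField A) q] (ϖ : Qb) (hϖ : ϖ ^ (q + 1) = (q : Qb)) :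
    Nonempty (WPFamily M₀ q A (wpdSetup A q M₀ hq hA hqM hg) ϖ) :=
  wpFamily_nonempty (hWP hq hqM A hA hg ϖ hϖ)

/-- **all the components of the modular world** at the rigid auxiliary level. -/
theorem modWorldEx_parts (hWP : WPExistsAt M₀ q) (hq : q.Prime) (hqM : ¬ q ∣ M₀)
    (haux : AuxLevelOK q M₀) (hν2 : nuTwo M₀ = 0) (hν3 : nuThree M₀ = 0)
    (A : ValuationSubring Qb) (hA : A.LiesOverPrime q)
    [Fact q.Prime] [CharP (IsLocalRing.ResidueField A) q]
    [PerfectRing (IsLocalRing.ResidueField A) q] :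
    ∃ (D₀ : ALData) (hM₀ : M₀ * q * q = D₀.Q * D₀.R)
      (Soo : ValSetup Qb (FBar (M₀ * q * q)) (IsLocalRing.ResidueField A)
        (modularFunctionFieldFullC (IsLocalRing.ResidueField A) M₀))
      (ϖ : Qb),
      D₀.Q = q ^ 2 ∧ D₀.R = M₀ ∧ IsGaussSetup (M₀ * q * q) M₀ A Soo ∧ HasLattice Soo ∧
        Nonempty (IgPack M₀ q A) ∧
        IsGaussRed M₀ A (wpdSetup A q M₀ hq hA hqM (modWorldEx_hg hq hqM haux hA)) ∧
        ϖ ^ (q + 1) = (q : Qb) ∧
        Nonempty (WPFamily M₀ q A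
          (wpdSetup A q M₀ hq hA hqM (modWorldEx_hg hq hqM haux hA)) ϖ) := by
  obtain ⟨D₀, hM₀, Soo, hQ, hR, hS, hL, -, -, -⟩ := modWorldEx_vert hq hqM A hA
  obtain ⟨ϖ, hϖ, -, -, -⟩ := modWorldEx_pi hq hA
  exact ⟨D₀, hM₀, Soo, ϖ, hQ, hR, hS, hL, modWorldEx_ig hq hqM hν2 hν3 A hA,
    isGaussRed_wpdSetup A q M₀ hq hA hqM _, hϖ,
    modWorldEx_family hWP hq hqM A hA _ ϖ hϖ⟩

end Fermat.Agent.S36G
end
end MergeWrap_S36_G_ModWorldEx

section MergeWrap_S36_G_ModWorldNonempty -- from S36/G/ModWorldNonempty.lean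

set_option autoImplicit false
set_option linter.style.haveILetI false
set_option linter.unusedSectionVars false
set_option linter.unusedVariables false
set_option synthInstance.maxHeartbeats 400000
set_option maxHeartbeats 1000000

/-!
# Cluster G (S36), MG-INST, slice (b): the modular world EXISTS  (helper38)

`ModWorld M₀ q A` (helper40, `S36/G/ModularGraphInst.lean`) is inhabited for every prime
`q ∤ M₀`, every place `A ∣ q` of `ℚ̄`, at the rigid auxiliary level (`AuxLevelOK q M₀`,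
`nuTwo M₀ = 0`, `nuThree M₀ = 0`), from the output `WPExistsAt M₀ q` of block W-P.

* `modWorld_exists_of_family` : the world of a GIVEN family `W : WPFamily M₀ q A S0 ϖ`, with
  `X.ϖ = ϖ`, `X.S0 = S0` and any property `C` of the family transported to `X.W`;
* `modWorld_exists_at` : for EVERY root `ϖ` of `X ^ (q + 1) = q` a world `X` with `X.ϖ = ϖ`,
  `X.S0 = wpdSetup A q M₀ hq hA hqM hg`, `X.D₀.R = M₀`, and the lattice property / the
  incomparability of `v_0 = valSetupZeroAt X.D₀ X.hM₀ X.Soo`;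
* `nonempty_modWorld`  : `Nonempty (ModWorld M₀ q A)`;
* `modWorld_exists_at_aux23`, `nonempty_modWorld_aux23` : the same from `AuxGood23 q M₀` ALONE
  (`wpExistsAt_aux`, helper59; `auxGood23_nuTwo/_nuThree`, `AuxNu.lean`);
* `modWorld_exists_atT_aux23`, `modWorld_existsT_aux23` : **the final export**: the world with
  the `t`-datum `∀ P, WPTDat M₀ A (X.W.O P).t` (helper92, `S36/HPVal/ValAtT.lean`)
  `= ∀ P, UHorDatum A (X.W.t P)` (helper90, `S36/Seed/UHorDatum.lean`).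
-/

noncomputable section

namespace Fermat.Agent.S36G

open ModularCurve AlgebraicCurve IntermediateField Fermat.Agent.F3 Fermat.Agent.F3G
  Fermat.Agent.GaussInt Fermat.Agent.AtkinLehner Fermat.Agent.Kronecker Fermat.Agent.BadRed
  Fermat.Agent.BadRedG Fermat.Agent.Deuring Fermat.Agent.RR Fermat.Agent.HP Fermat.Agent.HPVal
  Fermat.Agent.F3Genus

local notation "Qb" => AlgebraicClosure ℚ

variable {M₀ q : ℕ} [NeZero M₀] [NeZero q]

/-- **the modular world of a given family `W` of the `w_P`**; any property `C` of the family is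
transported to the world (`C S0 ϖ W → C X.S0 X.ϖ X.W`). -/
theorem modWorld_exists_of_family (hq : q.Prime) (hqM : ¬ q ∣ M₀)
    (hν2 : nuTwo M₀ = 0) (hν3 : nuThree M₀ = 0)
    (A : ValuationSubring Qb) (hA : A.LiesOverPrime q)
    [Fact q.Prime] [CharP (IsLocalRing.ResidueField A) q]
    [PerfectRing (IsLocalRing.ResidueField A) q]
    {S0 : Fermat.Agent.S18Key.RedSetup Qb (FBar M₀) (IsLocalRing.ResidueField A)
      ↥(modularFunctionFieldFullC (IsLocalRing.ResidueField A) M₀)}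
    (hS0 : IsGaussRed M₀ A S0) {ϖ : Qb} (hϖ : ϖ ^ (q + 1) = (q : Qb))
    (W : WPFamily M₀ q A S0 ϖ)
    (C : ∀ (S0' : Fermat.Agent.S18Key.RedSetup Qb (FBar M₀) (IsLocalRing.ResidueField A)
        ↥(modularFunctionFieldFullC (IsLocalRing.ResidueField A) M₀)) (ϖ' : Qb),
      WPFamily M₀ q A S0' ϖ' → Prop)
    (hC : C S0 ϖ W) :
    ∃ X : ModWorld M₀ q A,
      X.ϖ = ϖ ∧ X.S0 = S0 ∧ C X.S0 X.ϖ X.W ∧
        X.D₀.R = M₀ ∧ HasLattice (valSetupZeroAt X.D₀ X.hM₀ X.Soo) ∧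
        ¬ X.Soo.Ov ≤ (valSetupZeroAt X.D₀ X.hM₀ X.Soo).Ov ∧
        ¬ (valSetupZeroAt X.D₀ X.hM₀ X.Soo).Ov ≤ X.Soo.Ov := by
  obtain ⟨D₀, hM₀, Soo, hQ, hR, hS, hL, hL0, h1, h2⟩ := modWorldEx_vert hq hqM A hA
  obtain ⟨I⟩ := modWorldEx_ig hq hqM hν2 hν3 A hA
  exact ⟨{ Soo := Soo, hSoo := hS, latoo := hL, D₀ := D₀, hM₀ := hM₀, hD₀ := hQ, I := I,
           S0 := S0, hS0 := hS0, ϖ := ϖ, hϖ := hϖ, W := W },
    rfl, rfl, hC, hR, hL0, h1, h2⟩

/-- **the modular world with a prescribed uniformiser.** -/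
theorem modWorld_exists_at (hWP : WPExistsAt M₀ q) (hq : q.Prime) (hqM : ¬ q ∣ M₀)
    (haux : AuxLevelOK q M₀) (hν2 : nuTwo M₀ = 0) (hν3 : nuThree M₀ = 0)
    (A : ValuationSubring Qb) (hA : A.LiesOverPrime q)
    [Fact q.Prime] [CharP (IsLocalRing.ResidueField A) q]
    [PerfectRing (IsLocalRing.ResidueField A) q] (ϖ : Qb) (hϖ : ϖ ^ (q + 1) = (q : Qb)) :
    ∃ X : ModWorld M₀ q A,
      X.ϖ = ϖ ∧ X.S0 = wpdSetup A q M₀ hq hA hqM (modWorldEx_hg hq hqM haux hA) ∧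
        X.D₀.R = M₀ ∧ HasLattice (valSetupZeroAt X.D₀ X.hM₀ X.Soo) ∧
        ¬ X.Soo.Ov ≤ (valSetupZeroAt X.D₀ X.hM₀ X.Soo).Ov ∧
        ¬ (valSetupZeroAt X.D₀ X.hM₀ X.Soo).Ov ≤ X.Soo.Ov := by
  obtain ⟨W⟩ := modWorldEx_family hWP hq hqM A hA (modWorldEx_hg hq hqM haux hA) ϖ hϖ
  obtain ⟨X, h1, h2, -, h3⟩ := modWorld_exists_of_family hq hqM hν2 hν3 A hA
    (isGaussRed_wpdSetup A q M₀ hq hA hqM _) hϖ W (fun _ _ _ => True) trivial
  exact ⟨X, h1, h2, h3⟩

/-- **the modular world exists** (rigid auxiliary level). -/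
theorem nonempty_modWorld (hWP : WPExistsAt M₀ q) (hq : q.Prime) (hqM : ¬ q ∣ M₀)
    (haux : AuxLevelOK q M₀) (hν2 : nuTwo M₀ = 0) (hν3 : nuThree M₀ = 0)
    (A : ValuationSubring Qb) (hA : A.LiesOverPrime q)
    [Fact q.Prime] [CharP (IsLocalRing.ResidueField A) q]
    [PerfectRing (IsLocalRing.ResidueField A) q] : Nonempty (ModWorld M₀ q A) := by
  obtain ⟨ϖ, hϖ, -, -, -⟩ := modWorldEx_pi hq hA
  obtain ⟨X, -⟩ := modWorld_exists_at hWP hq hqM haux hν2 hν3 A hA ϖ hϖ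
  exact ⟨X⟩

/-- `AuxLevelOK` from `AuxGood23`. -/
theorem modWorld_levelOK {q M : ℕ} (h : AuxGood23 q M) : AuxLevelOK q M := ⟨h.2.1, h.2.2⟩

/-- **the modular world with a prescribed uniformiser**, from `AuxGood23 q M₀` alone. -/
theorem modWorld_exists_at_aux23 (hq : q.Prime) (hqM : ¬ q ∣ M₀) (hgood : AuxGood23 q M₀)
    (A : ValuationSubring Qb) (hA : A.LiesOverPrime q)
    [Fact q.Prime] [CharP (IsLocalRing.ResidueField A) q]
    [PerfectRing (IsLocalRing.ResidueField A) q] (ϖ : Qb) (hϖ : ϖ ^ (q + 1) = (q : Qb)) :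
    ∃ X : ModWorld M₀ q A,
      X.ϖ = ϖ ∧
        X.S0 = wpdSetup A q M₀ hq hA hqM
          (modWorldEx_hg hq hqM (modWorld_levelOK hgood) hA) ∧
        X.D₀.R = M₀ ∧ HasLattice (valSetupZeroAt X.D₀ X.hM₀ X.Soo) ∧
        ¬ X.Soo.Ov ≤ (valSetupZeroAt X.D₀ X.hM₀ X.Soo).Ov ∧
        ¬ (valSetupZeroAt X.D₀ X.hM₀ X.Soo).Ov ≤ X.Soo.Ov :=
  modWorld_exists_at
    (wpExistsAt_aux M₀ q (modWorld_levelOK hgood) (auxGood23_nuTwo hgood)
      (auxGood23_nuThree hgood))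
    hq hqM (modWorld_levelOK hgood) (auxGood23_nuTwo hgood) (auxGood23_nuThree hgood) A hA ϖ hϖ

/-- **the modular world exists**, from `AuxGood23 q M₀` alone. -/
theorem nonempty_modWorld_aux23 (hq : q.Prime) (hqM : ¬ q ∣ M₀) (hgood : AuxGood23 q M₀)
    (A : ValuationSubring Qb) (hA : A.LiesOverPrime q)
    [Fact q.Prime] [CharP (IsLocalRing.ResidueField A) q]
    [PerfectRing (IsLocalRing.ResidueField A) q] : Nonempty (ModWorld M₀ q A) :=
  nonempty_modWorld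
    (wpExistsAt_aux M₀ q (modWorld_levelOK hgood) (auxGood23_nuTwo hgood)
      (auxGood23_nuThree hgood))
    hq hqM (modWorld_levelOK hgood) (auxGood23_nuTwo hgood) (auxGood23_nuThree hgood) A hA

/-- the `t`-datum of W-P (`WPTDat`, `S36/HPVal/ValAtT.lean`) is the one of SEED-UP
(`UHorDatum`, `S36/Seed/UHorDatum.lean`). -/
theorem modWorld_uhorDatum_iff {A : ValuationSubring Qb} (t : FBar M₀) :
    WPTDat M₀ A t ↔ UHorDatum A t := Iff.rfl

/-- **the modular world with a prescribed uniformiser and the `t`-datum**, from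
`AuxGood23 q M₀` alone: the final export of MG-INST (b). -/
theorem modWorld_exists_atT_aux23 (hq : q.Prime) (hqM : ¬ q ∣ M₀) (hgood : AuxGood23 q M₀)
    (A : ValuationSubring Qb) (hA : A.LiesOverPrime q)
    [Fact q.Prime] [CharP (IsLocalRing.ResidueField A) q]
    [PerfectRing (IsLocalRing.ResidueField A) q] (ϖ : Qb) (hϖ : ϖ ^ (q + 1) = (q : Qb)) :
    ∃ X : ModWorld M₀ q A,
      X.ϖ = ϖ ∧
        X.S0 = wpdSetup A q M₀ hq hA hqM
          (modWorldEx_hg hq hqM (modWorld_levelOK hgood) hA) ∧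
        (∀ P : ModSS A M₀ q, WPTDat M₀ A (X.W.O P).t) ∧
        (∀ P : ModSS A M₀ q, UHorDatum A (X.W.t P)) ∧
        X.D₀.R = M₀ ∧ HasLattice (valSetupZeroAt X.D₀ X.hM₀ X.Soo) ∧
        ¬ X.Soo.Ov ≤ (valSetupZeroAt X.D₀ X.hM₀ X.Soo).Ov ∧
        ¬ (valSetupZeroAt X.D₀ X.hM₀ X.Soo).Ov ≤ X.Soo.Ov := by
  obtain ⟨W, hW⟩ := wpFamilyT_aux M₀ q (modWorld_levelOK hgood) (auxGood23_nuTwo hgood)
    (auxGood23_nuThree hgood) hq hqM A hA
    (modWorldEx_hg hq hqM (modWorld_levelOK hgood) hA) ϖ hϖ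
  obtain ⟨X, h1, h2, h3, h4⟩ := modWorld_exists_of_family hq hqM (auxGood23_nuTwo hgood)
    (auxGood23_nuThree hgood) A hA (isGaussRed_wpdSetup A q M₀ hq hA hqM _) hϖ W
    (fun _ _ W' => ∀ P : ModSS A M₀ q, WPTDat M₀ A (W'.O P).t) hW
  exact ⟨X, h1, h2, h3, fun P => (modWorld_uhorDatum_iff _).mp (h3 P), h4⟩

/-- **the modular world with the `t`-datum exists**, from `AuxGood23 q M₀` alone. -/
theorem modWorld_existsT_aux23 (hq : q.Prime) (hqM : ¬ q ∣ M₀) (hgood : AuxGood23 q M₀)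
    (A : ValuationSubring Qb) (hA : A.LiesOverPrime q)
    [Fact q.Prime] [CharP (IsLocalRing.ResidueField A) q]
    [PerfectRing (IsLocalRing.ResidueField A) q] :
    ∃ X : ModWorld M₀ q A, ∀ P : ModSS A M₀ q, WPTDat M₀ A (X.W.O P).t := by
  obtain ⟨ϖ, hϖ, -, -, -⟩ := modWorldEx_pi hq hA
  obtain ⟨X, -, -, h, -⟩ := modWorld_exists_atT_aux23 hq hqM hgood A hA ϖ hϖ
  exact ⟨X, h⟩

end Fermat.Agent.S36G
end
end MergeWrap_S36_G_ModWorldNonempty
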