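import Mathlib
import Fermat.Agent.MU.S36.Seed.Deg
import Fermat.Agent.MU.S36.Seed.MN1
import Fermat.Agent.MU.S36.Seed.UDeg
import Fermat.Agent.MU.S36.Seed.Ends
import Fermat.Agent.MU.Lib.HP.Deg
import Fermat.Agent.MU.S36.Seed.MNAt
import Fermat.Agent.MU.S36.G.ModSS
import Fermat.Agent.MU.Lib.BadRed.Mod.UHyp
import Fermat.Agent.MU.S36.Seed.UMidRed
import Fermat.Agent.MU.S36.Genus.IgGenus
import Fermat.Agent.MU.S36.Genus.Small
import Fermat.Agent.MU.S36.G.ModIndep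
import Fermat.Agent.MU.S36.HPVal.DistFinal
import Fermat.Agent.MU.S36.Seed.OldSep
import Fermat.Agent.MU.S36.Seed.OldMid
import Fermat.Agent.MU.S36.Seed.Cusp
import Fermat.Agent.MU.S36.HPVal.Defs
import Fermat.Agent.MU.S36.HPVal.DiscModG
import Fermat.Agent.MU.S36.G.SeedInput
import Fermat.Agent.MU.S36.Seed.OldZero
import Fermat.Agent.MU.S36.Seed.SSFrob
import Fermat.Agent.MU.S36.Val.Restr
import Fermat.Agent.S36.G.Types
import Fermat.Agent.MU.Lib.BadRed.Graph.NodeCount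
import Fermat.Agent.MU.S36.Seed.EndsVert
import Fermat.Agent.MU.S36.Igusa.RamIndex
import Fermat.Agent.MU.Lib.RR.Hurwitz.Rel
import Fermat.Agent.MU.S36.G.ModularGraphInst
import Fermat.Agent.MU.S36.G.ModCore
import Fermat.Agent.MU.S36.Seed.EndsVertMod
import Fermat.Agent.MU.S36.Igusa.Final

section MergeWrap_S36_Seed_DegMod -- from S36/Seed/DegMod.lean

/-!
# Cluster G (S36), seat SEED-DEG (helper13): the seed function on the modular graph

Wiring of `sdeg_hdeg` (`S36/Seed/Deg.lean`) on the vertex type `Vtx Mid SS` of the modular graph.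
Seed function (helper92's SEED blueprint v1)

  `x = u + ϖ / u + ∑_cl y cl`,     `u = u₁`, `ϖ = q ^ 12`, `cl` = the classes of supersingular points

for an arbitrary family `S c : ValSetup K F k (Fk c)`, `c : Vtx Mid SS`, and a class map
`jcl : SS → Cl`.  The modular inputs are hypotheses, named after the seats which export them:

* `htr_oo`   : **U1**   (`red_∞ u` transcendental);
* `htr_mid`  : **UMID** (`red_m u` transcendental);
* `htr_zero` : **U2 / Zero2** (`red_0 (ϖ / u)` transcendental);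
* `hu_hor`, `hu'_hor` : **SEED-UP** (`u`, `ϖ / u ∈ 𝔪_{w_P}`);
* `hy_vert`, `hy_hor`, `hy_tr` : **W-P** (`y cl ∈ 𝔪_c` for `c` vertical and `c = hor P`, `P ∉ cl`;
  `red_{hor P} (y cl)` transcendental for `P ∈ cl`);
* `hdeg₁`, `hdeg₂` : **UDEG** (`finrank_uF_sq`, `finrank_red_uF`, `finrank_red_zero_uF`, IG degree);
* `hdegP` : **W-P DEG** (`[F : K(y cl)] ≤ ∑_{P ∈ cl} [k(H_P) : k(Ȳ_P)]`).

Results (`SeedRed` = the table of the reductions of `x`):
* `sdeg_seedRed`   : `x ∈ ⋂_c O_c`, `red_∞ x = red_∞ u`, `red_m x = red_m u`,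
  `red_0 x = red_0 (ϖ / u)`, `red_{hor P} x = red_{hor P} (y (jcl P))`;
* `sdeg_seed_transcendental`, `sdeg_seed_R_pos` : `red_c x` is transcendental, `0 < deg (x̄_c)_∞`;
* `sdeg_hdeg_vtx`  : **`deg (x)_∞ ≤ ∑_c deg (red_c x)_∞`**  (the hypothesis `hdeg` of SEED-X).
-/

set_option autoImplicit false
set_option linter.unusedSectionVars false

noncomputable section

open AlgebraicCurve Fermat.Agent.RR Fermat.Agent.Deuring IntermediateField

namespace Fermat.Agent.S36G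

open Fermat.Agent.BadRed.SeedPoles

/-! ### one valuation -/

section One

variable {K F k Fk : Type*} [Field K] [Field F] [Algebra K F] [Field k] [Field Fk] [Algebra k Fk]
  (S : ValSetup K F k Fk)

/-- a finite sum of elements of the maximal ideal of `O_v`. -/
theorem sdeg_red_sum_zero {ι : Type*} (s : Finset ι) (y : ι → F)
    (hy : ∀ i ∈ s, y i ∈ S.Ov ∧ S.red (y i) = 0) :
    ∑ i ∈ s, y i ∈ S.Ov ∧ S.red (∑ i ∈ s, y i) = 0 := by
  classical
  induction s using Finset.induction_on with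
  | empty =>
    rw [Finset.sum_empty]
    exact ⟨zero_mem _, S.red_zero⟩
  | insert a s ha ih =>
    rw [Finset.sum_insert ha]
    obtain ⟨h1, h2⟩ := ih (fun i hi => hy i (Finset.mem_insert_of_mem hi))
    obtain ⟨h3, h4⟩ := hy a (Finset.mem_insert_self a s)
    exact ⟨add_mem h3 h1, by rw [S.red_add h3 h1, h4, h2, add_zero]⟩

/-- a finite sum with one term outside the maximal ideal. -/
theorem sdeg_red_sum_single {ι : Type*} [DecidableEq ι] (s : Finset ι) (y : ι → F) {i₀ : ι}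
    (hi₀ : i₀ ∈ s) (h₀ : y i₀ ∈ S.Ov)
    (hy : ∀ i ∈ s, i ≠ i₀ → y i ∈ S.Ov ∧ S.red (y i) = 0) :
    ∑ i ∈ s, y i ∈ S.Ov ∧ S.red (∑ i ∈ s, y i) = S.red (y i₀) := by
  rw [← Finset.add_sum_erase s y hi₀]
  obtain ⟨h1, h2⟩ := sdeg_red_sum_zero S (s.erase i₀) y
    (fun i hi => hy i (Finset.mem_of_mem_erase hi) (Finset.ne_of_mem_erase hi))
  exact ⟨add_mem h₀ h1, by rw [S.red_add h₀ h1, h2, add_zero]⟩

/-- at a vertex where `u` is a unit (`∞`, `mid m`): `red x = red u`. -/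
theorem sdeg_red_seed_u {Cl : Type*} [Fintype Cl] {u : F} {ϖ : K} (y : Cl → F) (hϖ : ϖ ∈ S.A)
    (hϖres : S.res ⟨ϖ, hϖ⟩ = 0) (hu : S.red u ≠ 0)
    (hy : ∀ cl, y cl ∈ S.Ov ∧ S.red (y cl) = 0) :
    u + algebraMap K F ϖ / u + ∑ cl, y cl ∈ S.Ov ∧
      S.red (u + algebraMap K F ϖ / u + ∑ cl, y cl) = S.red u := by
  obtain ⟨-, -, h3, h4⟩ := red_add_div S hϖ hϖres hu
  obtain ⟨h5, h6⟩ := sdeg_red_sum_zero S Finset.univ y (fun cl _ => hy cl)
  exact ⟨add_mem h3 h5, by rw [S.red_add h3 h5, h4, h6, add_zero]⟩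

/-- at a vertex where `ϖ / u` is a unit (`0`): `red x = red (ϖ / u)`. -/
theorem sdeg_red_seed_u' {Cl : Type*} [Fintype Cl] {u : F} {ϖ : K} (y : Cl → F) (hϖ : ϖ ∈ S.A)
    (hϖres : S.res ⟨ϖ, hϖ⟩ = 0) (hu : S.red (algebraMap K F ϖ / u) ≠ 0)
    (hy : ∀ cl, y cl ∈ S.Ov ∧ S.red (y cl) = 0) :
    u + algebraMap K F ϖ / u + ∑ cl, y cl ∈ S.Ov ∧
      S.red (u + algebraMap K F ϖ / u + ∑ cl, y cl) = S.red (algebraMap K F ϖ / u) := by
  obtain ⟨-, -, h3, h4⟩ := red_add_div' S hϖ hϖres hu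
  obtain ⟨h5, h6⟩ := sdeg_red_sum_zero S Finset.univ y (fun cl _ => hy cl)
  exact ⟨add_mem h3 h5, by rw [S.red_add h3 h5, h4, h6, add_zero]⟩

/-- at a horizontal vertex `w_P`, `P ∈ cl₀`: `red x = red (y cl₀)`. -/
theorem sdeg_red_seed_y {Cl : Type*} [Fintype Cl] [DecidableEq Cl] {u : F} {ϖ : K} (y : Cl → F)
    (cl₀ : Cl) (hu : u ∈ S.Ov ∧ S.red u = 0)
    (hu' : algebraMap K F ϖ / u ∈ S.Ov ∧ S.red (algebraMap K F ϖ / u) = 0)
    (h₀ : y cl₀ ∈ S.Ov) (hy : ∀ cl, cl ≠ cl₀ → y cl ∈ S.Ov ∧ S.red (y cl) = 0) :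
    u + algebraMap K F ϖ / u + ∑ cl, y cl ∈ S.Ov ∧
      S.red (u + algebraMap K F ϖ / u + ∑ cl, y cl) = S.red (y cl₀) := by
  obtain ⟨h5, h6⟩ := sdeg_red_sum_single S Finset.univ y (Finset.mem_univ cl₀) h₀
    (fun cl _ hne => hy cl hne)
  have h3 : u + algebraMap K F ϖ / u ∈ S.Ov := add_mem hu.1 hu'.1
  have h4 : S.red (u + algebraMap K F ϖ / u) = 0 := by
    rw [S.red_add hu.1 hu'.1, hu.2, hu'.2, add_zero]
  exact ⟨add_mem h3 h5, by rw [S.red_add h3 h5, h4, h6, zero_add]⟩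

/-- a transcendental reduction is not zero. -/
theorem sdeg_red_ne_zero_of_transcendental {f : F} (h : Transcendental k (S.red f)) :
    S.red f ≠ 0 := by
  intro h0
  rw [h0] at h
  exact h isAlgebraic_zero

/-- an element with a transcendental (in particular nonzero) reduction is integral. -/
theorem sdeg_mem_of_transcendental {f : F} (h : Transcendental k (S.red f)) : f ∈ S.Ov := by
  by_contra hf
  exact sdeg_red_ne_zero_of_transcendental S h (S.red_of_not_mem hf)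

end One

/-! ### the modular graph -/

section Vtx

variable {Mid SS : Type} [Fintype Mid] [Fintype SS]
  {K F k : Type*} [Field K] [Field F] [Algebra K F] [Field k]
  {Fk : Vtx Mid SS → Type*} [∀ c, Field (Fk c)] [∀ c, Algebra k (Fk c)]
  (S : ∀ c : Vtx Mid SS, ValSetup K F k (Fk c))
  {Cl : Type*} [Fintype Cl] [DecidableEq Cl]

/-- the vertex `0`. -/
def sdegV₂ (Mid SS : Type) : Finset (Vtx Mid SS) := {Vtx.vert Vrt.zero}

/-- the horizontal vertices of a class. -/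
def sdegVP (Mid : Type) {SS : Type} [Fintype SS] (jcl : SS → Cl) (cl : Cl) :
    Finset (Vtx Mid SS) :=
  (Finset.univ.filter fun P => jcl P = cl).map ⟨Vtx.hor, mn1_hor_injective⟩

theorem mem_sdegV₂ {c : Vtx Mid SS} : c ∈ sdegV₂ Mid SS ↔ c = Vtx.vert Vrt.zero := by
  unfold sdegV₂
  exact Finset.mem_singleton

theorem mem_sdegVP {jcl : SS → Cl} {cl : Cl} {c : Vtx Mid SS} :
    c ∈ sdegVP Mid jcl cl ↔ ∃ P, jcl P = cl ∧ c = Vtx.hor P := by
  unfold sdegVP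
  rw [Finset.mem_map]
  constructor
  · rintro ⟨P, hP, rfl⟩
    exact ⟨P, (Finset.mem_filter.mp hP).2, rfl⟩
  · rintro ⟨P, hP, rfl⟩
    exact ⟨P, Finset.mem_filter.mpr ⟨Finset.mem_univ _, hP⟩, rfl⟩

theorem sum_sdegV₂ {M : Type*} [AddCommMonoid M] (g : Vtx Mid SS → M) :
    ∑ c ∈ sdegV₂ Mid SS, g c = g (Vtx.vert Vrt.zero) := by
  unfold sdegV₂
  exact Finset.sum_singleton _ _

theorem sum_sdegVP {M : Type*} [AddCommMonoid M] (jcl : SS → Cl) (cl : Cl)
    (g : Vtx Mid SS → M) :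
    ∑ c ∈ sdegVP Mid jcl cl, g c = ∑ P ∈ Finset.univ.filter (fun P => jcl P = cl), g (Vtx.hor P) := by
  unfold sdegVP
  rw [Finset.sum_map]
  rfl

theorem sdeg_disjoint₁₂ : Disjoint (mn1V₁ Mid SS) (sdegV₂ Mid SS) := by
  rw [Finset.disjoint_left]
  intro c h₁ h₂
  rw [mem_sdegV₂.mp h₂] at h₁
  exact zero_notMem_mn1V₁ h₁

theorem sdeg_disjoint₁P (jcl : SS → Cl) (cl : Cl) :
    Disjoint (mn1V₁ Mid SS) (sdegVP Mid jcl cl) := by
  rw [Finset.disjoint_left]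
  intro c h₁ h₂
  obtain ⟨P, -, rfl⟩ := mem_sdegVP.mp h₂
  rcases mem_mn1V₁.mp h₁ with h | ⟨m, h⟩ <;> cases h

theorem sdeg_disjoint₂P (jcl : SS → Cl) (cl : Cl) :
    Disjoint (sdegV₂ Mid SS) (sdegVP Mid jcl cl) := by
  rw [Finset.disjoint_left]
  intro c h₁ h₂
  obtain ⟨P, -, rfl⟩ := mem_sdegVP.mp h₂
  cases mem_sdegV₂.mp h₁

theorem sdeg_disjointPP (jcl : SS → Cl) (cl cl' : Cl) (h : cl ≠ cl') :
    Disjoint (sdegVP Mid jcl cl) (sdegVP Mid jcl cl') := by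
  rw [Finset.disjoint_left]
  intro c h₁ h₂
  obtain ⟨P, hP, rfl⟩ := mem_sdegVP.mp h₁
  obtain ⟨P', hP', hPP⟩ := mem_sdegVP.mp h₂
  cases hPP
  exact h (hP.symm.trans hP')

/-- **The table of the reductions of the seed function** `x = u + ϖ / u + ∑ y cl`. -/
structure SeedRed (jcl : SS → Cl) (u : F) (ϖ : K) (y : Cl → F) : Prop where
  mem : ∀ c, u + algebraMap K F ϖ / u + ∑ cl, y cl ∈ (S c).Ov
  red_oo : (S (Vtx.vert Vrt.oo)).red (u + algebraMap K F ϖ / u + ∑ cl, y cl) =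
    (S (Vtx.vert Vrt.oo)).red u
  red_mid : ∀ m, (S (Vtx.vert (Vrt.mid m))).red (u + algebraMap K F ϖ / u + ∑ cl, y cl) =
    (S (Vtx.vert (Vrt.mid m))).red u
  red_zero : (S (Vtx.vert Vrt.zero)).red (u + algebraMap K F ϖ / u + ∑ cl, y cl) =
    (S (Vtx.vert Vrt.zero)).red (algebraMap K F ϖ / u)
  red_hor : ∀ P, (S (Vtx.hor P)).red (u + algebraMap K F ϖ / u + ∑ cl, y cl) =
    (S (Vtx.hor P)).red (y (jcl P))

variable {S}

/-- **the reductions of the seed function.** -/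
theorem sdeg_seedRed (jcl : SS → Cl) {u : F} {ϖ : K} {y : Cl → F}
    (hϖ : ∀ c, ϖ ∈ (S c).A) (hϖres : ∀ c, (S c).res ⟨ϖ, hϖ c⟩ = 0)
    (htr_oo : Transcendental k ((S (Vtx.vert Vrt.oo)).red u))
    (htr_mid : ∀ m, Transcendental k ((S (Vtx.vert (Vrt.mid m))).red u))
    (htr_zero : Transcendental k ((S (Vtx.vert Vrt.zero)).red (algebraMap K F ϖ / u)))
    (hu_hor : ∀ P, u ∈ (S (Vtx.hor P)).Ov ∧ (S (Vtx.hor P)).red u = 0)
    (hu'_hor : ∀ P, algebraMap K F ϖ / u ∈ (S (Vtx.hor P)).Ov ∧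
      (S (Vtx.hor P)).red (algebraMap K F ϖ / u) = 0)
    (hy_vert : ∀ cl v, y cl ∈ (S (Vtx.vert v)).Ov ∧ (S (Vtx.vert v)).red (y cl) = 0)
    (hy_hor : ∀ cl P, jcl P ≠ cl → y cl ∈ (S (Vtx.hor P)).Ov ∧ (S (Vtx.hor P)).red (y cl) = 0)
    (hy_tr : ∀ P, Transcendental k ((S (Vtx.hor P)).red (y (jcl P)))) :
    SeedRed S jcl u ϖ y := by
  have hoo := sdeg_red_seed_u (S (Vtx.vert Vrt.oo)) y (hϖ _) (hϖres _)
    (sdeg_red_ne_zero_of_transcendental _ htr_oo) (fun cl => hy_vert cl _)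
  have hmid := fun m => sdeg_red_seed_u (S (Vtx.vert (Vrt.mid m))) y (hϖ _) (hϖres _)
    (sdeg_red_ne_zero_of_transcendental _ (htr_mid m)) (fun cl => hy_vert cl _)
  have hzero := sdeg_red_seed_u' (S (Vtx.vert Vrt.zero)) y (hϖ _) (hϖres _)
    (sdeg_red_ne_zero_of_transcendental _ htr_zero) (fun cl => hy_vert cl _)
  have hhor := fun P => sdeg_red_seed_y (S (Vtx.hor P)) y (jcl P) (hu_hor P) (hu'_hor P)
    (sdeg_mem_of_transcendental _ (hy_tr P)) (fun cl hne => hy_hor cl P (Ne.symm hne))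
  refine ⟨?_, hoo.2, fun m => (hmid m).2, hzero.2, fun P => (hhor P).2⟩
  rintro (v | P)
  · cases v with
    | oo => exact hoo.1
    | zero => exact hzero.1
    | mid m => exact (hmid m).1
  · exact (hhor P).1

/-- the reduction of the seed function is transcendental on every component. -/
theorem sdeg_seed_transcendental {jcl : SS → Cl} {u : F} {ϖ : K} {y : Cl → F}
    (h : SeedRed S jcl u ϖ y)
    (htr_oo : Transcendental k ((S (Vtx.vert Vrt.oo)).red u))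
    (htr_mid : ∀ m, Transcendental k ((S (Vtx.vert (Vrt.mid m))).red u))
    (htr_zero : Transcendental k ((S (Vtx.vert Vrt.zero)).red (algebraMap K F ϖ / u)))
    (hy_tr : ∀ P, Transcendental k ((S (Vtx.hor P)).red (y (jcl P)))) (c : Vtx Mid SS) :
    Transcendental k ((S c).red (u + algebraMap K F ϖ / u + ∑ cl, y cl)) := by
  rcases c with v | P
  · cases v with
    | oo => rw [h.red_oo]; exact htr_oo
    | zero => rw [h.red_zero]; exact htr_zero
    | mid m => rw [h.red_mid]; exact htr_mid m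
  · rw [h.red_hor]
    exact hy_tr P

/-- `R_pos` of the seed: `0 < deg (x̄_c)_∞` on every component. -/
theorem sdeg_seed_R_pos {jcl : SS → Cl} {u : F} {ϖ : K} {y : Cl → F}
    (h : SeedRed S jcl u ϖ y)
    (htr_oo : Transcendental k ((S (Vtx.vert Vrt.oo)).red u))
    (htr_mid : ∀ m, Transcendental k ((S (Vtx.vert (Vrt.mid m))).red u))
    (htr_zero : Transcendental k ((S (Vtx.vert Vrt.zero)).red (algebraMap K F ϖ / u)))
    (hy_tr : ∀ P, Transcendental k ((S (Vtx.hor P)).red (y (jcl P)))) (c : Vtx Mid SS) :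
    0 < Divisor.degree (poleDiv (S c).hFk
      ((S c).red (u + algebraMap K F ϖ / u + ∑ cl, y cl))) :=
  Fermat.Agent.RRHur.degree_poleDiv_pos (S c).hFk
    (sdeg_seed_transcendental h htr_oo htr_mid htr_zero hy_tr c)

/-- **SEED-DEG on the modular graph**: `deg (x)_∞ ≤ ∑_c deg (red_c x)_∞` for the seed function
`x = u + ϖ / u + ∑ y cl`. -/
theorem sdeg_hdeg_vtx [DecidableEq Mid] [DecidableEq SS] (hF : IsRRField K F)
    (jcl : SS → Cl) (u : F) (ϖ : K) (y : Cl → F)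
    (hu : Transcendental K u) [FiniteDimensional K⟮u⟯ F] (hϖ0 : ϖ ≠ 0)
    (hy : ∀ cl, Transcendental K (y cl)) (hyfin : ∀ cl, FiniteDimensional K⟮y cl⟯ F)
    (h : SeedRed S jcl u ϖ y)
    (htr_oo : Transcendental k ((S (Vtx.vert Vrt.oo)).red u))
    (htr_mid : ∀ m, Transcendental k ((S (Vtx.vert (Vrt.mid m))).red u))
    (htr_zero : Transcendental k ((S (Vtx.vert Vrt.zero)).red (algebraMap K F ϖ / u)))
    (hy_tr : ∀ P, Transcendental k ((S (Vtx.hor P)).red (y (jcl P))))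
    (hdeg₁ : Module.finrank K⟮u⟯ F ≤
      Module.finrank k⟮(S (Vtx.vert Vrt.oo)).red u⟯ (Fk (Vtx.vert Vrt.oo)) +
        ∑ m, Module.finrank k⟮(S (Vtx.vert (Vrt.mid m))).red u⟯ (Fk (Vtx.vert (Vrt.mid m))))
    (hdeg₂ : Module.finrank K⟮u⟯ F ≤
      Module.finrank k⟮(S (Vtx.vert Vrt.zero)).red (algebraMap K F ϖ / u)⟯
        (Fk (Vtx.vert Vrt.zero)))
    (hdegP : ∀ cl, Module.finrank K⟮y cl⟯ F ≤
      ∑ P ∈ Finset.univ.filter (fun P => jcl P = cl),
        Module.finrank k⟮(S (Vtx.hor P)).red (y cl)⟯ (Fk (Vtx.hor P))) :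
    Divisor.degree (poleDiv hF (u + algebraMap K F ϖ / u + ∑ cl, y cl)) ≤
      ∑ c, Divisor.degree (poleDiv (S c).hFk
        ((S c).red (u + algebraMap K F ϖ / u + ∑ cl, y cl))) := by
  refine sdeg_hdeg S hF u ϖ y hu hϖ0 hy hyfin (mn1V₁ Mid SS) (sdegV₂ Mid SS) (sdegVP Mid jcl)
    sdeg_disjoint₁₂ (sdeg_disjoint₁P jcl) (sdeg_disjoint₂P jcl) (sdeg_disjointPP jcl)
    ?_ ?_ ?_ ?_ ?_ ?_ ?_ ?_ ?_
  · intro c hc
    rcases mem_mn1V₁.mp hc with rfl | ⟨m, rfl⟩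
    · exact h.red_oo
    · exact h.red_mid m
  · intro c hc
    rw [mem_sdegV₂.mp hc]
    exact h.red_zero
  · intro cl c hc
    obtain ⟨P, hP, rfl⟩ := mem_sdegVP.mp hc
    rw [h.red_hor, hP]
  · intro c hc
    rcases mem_mn1V₁.mp hc with rfl | ⟨m, rfl⟩
    · exact htr_oo
    · exact htr_mid m
  · intro c hc
    rw [mem_sdegV₂.mp hc]
    exact htr_zero
  · intro cl c hc
    obtain ⟨P, hP, rfl⟩ := mem_sdegVP.mp hc
    rw [← hP]
    exact hy_tr P
  · rw [sum_mn1V₁ (fun c => Module.finrank k⟮(S c).red u⟯ (Fk c))]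
    exact hdeg₁
  · rw [sum_sdegV₂ (fun c => Module.finrank k⟮(S c).red (algebraMap K F ϖ / u)⟯ (Fk c))]
    exact hdeg₂
  · intro cl
    rw [sum_sdegVP jcl cl (fun c => Module.finrank k⟮(S c).red (y cl)⟯ (Fk c))]
    exact hdegP cl

/-! ### the seed with ONE function `y` (SEED blueprint v2: `y = q ^ (q n₀) · α₁ (h)`, no classes) -/

theorem sdeg_sum_unit (y : F) : ∑ _cl : Unit, y = y := by
  rw [Fintype.sum_unique]

/-- the table of the reductions of `x = u + ϖ / u + y`. -/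
theorem sdeg_seedRed_one {u : F} {ϖ : K} {y : F}
    (hϖ : ∀ c, ϖ ∈ (S c).A) (hϖres : ∀ c, (S c).res ⟨ϖ, hϖ c⟩ = 0)
    (htr_oo : Transcendental k ((S (Vtx.vert Vrt.oo)).red u))
    (htr_mid : ∀ m, Transcendental k ((S (Vtx.vert (Vrt.mid m))).red u))
    (htr_zero : Transcendental k ((S (Vtx.vert Vrt.zero)).red (algebraMap K F ϖ / u)))
    (hu_hor : ∀ P, u ∈ (S (Vtx.hor P)).Ov ∧ (S (Vtx.hor P)).red u = 0)
    (hu'_hor : ∀ P, algebraMap K F ϖ / u ∈ (S (Vtx.hor P)).Ov ∧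
      (S (Vtx.hor P)).red (algebraMap K F ϖ / u) = 0)
    (hy_vert : ∀ v, y ∈ (S (Vtx.vert v)).Ov ∧ (S (Vtx.vert v)).red y = 0)
    (hy_tr : ∀ P, Transcendental k ((S (Vtx.hor P)).red y)) :
    (∀ c, u + algebraMap K F ϖ / u + y ∈ (S c).Ov) ∧
    ((S (Vtx.vert Vrt.oo)).red (u + algebraMap K F ϖ / u + y) = (S (Vtx.vert Vrt.oo)).red u) ∧
    (∀ m, (S (Vtx.vert (Vrt.mid m))).red (u + algebraMap K F ϖ / u + y) =
      (S (Vtx.vert (Vrt.mid m))).red u) ∧
    ((S (Vtx.vert Vrt.zero)).red (u + algebraMap K F ϖ / u + y) =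
      (S (Vtx.vert Vrt.zero)).red (algebraMap K F ϖ / u)) ∧
    (∀ P, (S (Vtx.hor P)).red (u + algebraMap K F ϖ / u + y) = (S (Vtx.hor P)).red y) ∧
    ∀ c, Transcendental k ((S c).red (u + algebraMap K F ϖ / u + y)) := by
  have h : SeedRed S (fun _ : SS => ()) u ϖ (fun _ : Unit => y) :=
    sdeg_seedRed (fun _ : SS => ()) hϖ hϖres htr_oo htr_mid htr_zero hu_hor hu'_hor
      (fun _ v => hy_vert v) (fun cl P hne => absurd rfl hne) hy_tr
  have htr := sdeg_seed_transcendental h htr_oo htr_mid htr_zero hy_tr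
  have h1 := h.mem
  have h2 := h.red_oo
  have h3 := h.red_mid
  have h4 := h.red_zero
  have h5 := h.red_hor
  simp only [sdeg_sum_unit] at h1 h2 h3 h4 h5 htr
  exact ⟨h1, h2, h3, h4, h5, htr⟩

/-- `R_pos` for the seed `x = u + ϖ / u + y`. -/
theorem sdeg_R_pos_one {x : F} (htr : ∀ c, Transcendental k ((S c).red x)) (c : Vtx Mid SS) :
    0 < Divisor.degree (poleDiv (S c).hFk ((S c).red x)) :=
  Fermat.Agent.RRHur.degree_poleDiv_pos (S c).hFk (htr c)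

/-- **SEED-DEG, one `y`**: `deg (x)_∞ ≤ ∑_c deg (red_c x)_∞` for `x = u + ϖ / u + y`. -/
theorem sdeg_hdeg_one [DecidableEq Mid] [DecidableEq SS] (hF : IsRRField K F)
    (u : F) (ϖ : K) (y : F)
    (hu : Transcendental K u) [FiniteDimensional K⟮u⟯ F] (hϖ0 : ϖ ≠ 0)
    (hy : Transcendental K y) [hyfin : FiniteDimensional K⟮y⟯ F]
    (hϖ : ∀ c, ϖ ∈ (S c).A) (hϖres : ∀ c, (S c).res ⟨ϖ, hϖ c⟩ = 0)
    (htr_oo : Transcendental k ((S (Vtx.vert Vrt.oo)).red u))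
    (htr_mid : ∀ m, Transcendental k ((S (Vtx.vert (Vrt.mid m))).red u))
    (htr_zero : Transcendental k ((S (Vtx.vert Vrt.zero)).red (algebraMap K F ϖ / u)))
    (hu_hor : ∀ P, u ∈ (S (Vtx.hor P)).Ov ∧ (S (Vtx.hor P)).red u = 0)
    (hu'_hor : ∀ P, algebraMap K F ϖ / u ∈ (S (Vtx.hor P)).Ov ∧
      (S (Vtx.hor P)).red (algebraMap K F ϖ / u) = 0)
    (hy_vert : ∀ v, y ∈ (S (Vtx.vert v)).Ov ∧ (S (Vtx.vert v)).red y = 0)
    (hy_tr : ∀ P, Transcendental k ((S (Vtx.hor P)).red y))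
    (hdeg₁ : Module.finrank K⟮u⟯ F ≤
      Module.finrank k⟮(S (Vtx.vert Vrt.oo)).red u⟯ (Fk (Vtx.vert Vrt.oo)) +
        ∑ m, Module.finrank k⟮(S (Vtx.vert (Vrt.mid m))).red u⟯ (Fk (Vtx.vert (Vrt.mid m))))
    (hdeg₂ : Module.finrank K⟮u⟯ F ≤
      Module.finrank k⟮(S (Vtx.vert Vrt.zero)).red (algebraMap K F ϖ / u)⟯
        (Fk (Vtx.vert Vrt.zero)))
    (hdegP : Module.finrank K⟮y⟯ F ≤
      ∑ P, Module.finrank k⟮(S (Vtx.hor P)).red y⟯ (Fk (Vtx.hor P))) :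
    Divisor.degree (poleDiv hF (u + algebraMap K F ϖ / u + y)) ≤
      ∑ c, Divisor.degree (poleDiv (S c).hFk ((S c).red (u + algebraMap K F ϖ / u + y))) := by
  have h : SeedRed S (fun _ : SS => ()) u ϖ (fun _ : Unit => y) :=
    sdeg_seedRed (fun _ : SS => ()) hϖ hϖres htr_oo htr_mid htr_zero hu_hor hu'_hor
      (fun _ v => hy_vert v) (fun cl P hne => absurd rfl hne) hy_tr
  have hfilter : (Finset.univ.filter fun _P : SS => () = ()) = Finset.univ :=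
    Finset.filter_true_of_mem (fun _ _ => rfl)
  have key := sdeg_hdeg_vtx (S := S) hF (fun _ : SS => ()) u ϖ (fun _ : Unit => y) hu hϖ0
    (fun _ => hy) (fun _ => hyfin) h htr_oo htr_mid htr_zero hy_tr hdeg₁ hdeg₂
    (fun cl => by
      cases cl
      rw [hfilter]
      exact hdegP)
  simp only [sdeg_sum_unit] at key
  exact key

end Vtx

end Fermat.Agent.S36G
end
end MergeWrap_S36_Seed_DegMod

section MergeWrap_S36_Seed_DegP -- from S36/Seed/DegP.lean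

/-!
# Cluster G (S36), seat SEED-DEG, piece DEGP (helper13): the hypothesis `hdegP` of `sdeg_hdeg_one`

(FALLBACK for the SEED v2 function `y = c · ι₁ (h)`; SEED v3 takes `y ∈ K(u₁)` and gets `degP` from
`MNData.deg₂`.  The tower-law lemmas are general.)

SEED blueprint v2 (helper92): `y = c · ι₁ (h)`, `h ∈ F₀ = F_{M₀}` with `(h)_∞ = n ∑_P Pt P`,
`ι₁ : F₀ → F = F_{q² M₀}` of degree `q (q + 1)`, and `red_{w_P} y = a_P / Ȳ_P ^ n` with
`[k(H_P) : k(Ȳ_P)] = q (q + 1)`.  Everything is a TOWER LAW (no pull-back of divisors):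

* `sdegP_finrank_along`  : `[F : K(φ h)] = [F₀ : K(h)] · [F : φ F₀]`;
* `sdegP_finrank_const_mul` : `[F : K(c · y)] = [F : K(y)]`;
* `sdegP_finrank_const_div_pow` : `[Fk : k(a / Y ^ n)] = n · [Fk : k(Y)]`;
* `sdegP_finrank_of_poleDiv` : `[F₀ : K(h)] = n · s` if `(h)_∞ = n ∑_{P : SS} Pt P`, `s = #SS`;
* `sdegP_transcendental_along`, `sdegP_finiteDimensional_along` : `y` is transcendental and
  `F` is finite over `K(y)`;
* `sdegP_hdegP` : **`[F : K(y)] ≤ ∑_P [Fk_P : k(red_P y)]`** (the hypothesis `hdegP`).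
-/

set_option autoImplicit false
set_option linter.unusedSectionVars false
set_option linter.style.haveILetI false

noncomputable section

open AlgebraicCurve Fermat.Agent.RR Fermat.Agent.Deuring IntermediateField Polynomial

namespace Fermat.Agent.S36G

/-! ### the generic fibre: tower law along an embedding -/

section Along

variable {K F₀ F : Type*} [Field K] [Field F₀] [Field F] [Algebra K F₀] [Algebra K F]

/-- `K(c · y) = K(y)` for a constant `c ≠ 0`. -/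
theorem sdegP_adjoin_const_mul {c : K} (hc : c ≠ 0) (y : F) :
    K⟮algebraMap K F c * y⟯ = K⟮y⟯ := by
  have hcF : algebraMap K F c ≠ 0 := (_root_.map_ne_zero _).mpr hc
  apply le_antisymm
  · rw [IntermediateField.adjoin_simple_le_iff]
    exact mul_mem (IntermediateField.algebraMap_mem _ c)
      (IntermediateField.mem_adjoin_simple_self K y)
  · rw [IntermediateField.adjoin_simple_le_iff]
    have h2 : (algebraMap K F c)⁻¹ * (algebraMap K F c * y) ∈ K⟮algebraMap K F c * y⟯ :=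
      mul_mem (inv_mem (IntermediateField.algebraMap_mem _ c))
        (IntermediateField.mem_adjoin_simple_self K _)
    rwa [inv_mul_cancel_left₀ hcF] at h2

theorem sdegP_finrank_const_mul {c : K} (hc : c ≠ 0) (y : F) :
    Module.finrank K⟮algebraMap K F c * y⟯ F = Module.finrank K⟮y⟯ F := by
  rw [sdegP_adjoin_const_mul hc y]

/-- **tower law**: `[F : K(φ h)] = [F₀ : K(h)] · [F : φ F₀]`. -/
theorem sdegP_finrank_along (φ : F₀ →ₐ[K] F) (h : F₀) :
    Module.finrank K⟮φ h⟯ F = Module.finrank K⟮h⟯ F₀ * finrankAlong K φ := by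
  letI a0 : Algebra F₀ F := algebraAlong φ
  letI a1 : Algebra K⟮h⟯ F := ((algebraMap F₀ F).comp (algebraMap K⟮h⟯ F₀)).toAlgebra
  haveI : IsScalarTower K⟮h⟯ F₀ F := IsScalarTower.of_algebraMap_eq fun x => rfl
  have htower : Module.finrank K⟮h⟯ F₀ * Module.finrank F₀ F = Module.finrank K⟮h⟯ F :=
    Module.finrank_mul_finrank K⟮h⟯ F₀ F
  have hmap : K⟮φ h⟯ = K⟮h⟯.map φ := by
    rw [IntermediateField.adjoin_map, Set.image_singleton]
  let e₁ : K⟮h⟯ ≃+* K⟮φ h⟯ :=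
    ((IntermediateField.equivMap K⟮h⟯ φ).trans
      (IntermediateField.equivOfEq hmap.symm)).toRingEquiv
  have hc : (algebraMap K⟮φ h⟯ F).comp e₁.toRingHom =
      (RingEquiv.refl F).toRingHom.comp (algebraMap K⟮h⟯ F) := by
    refine RingHom.ext fun y => ?_
    rfl
  have he : @Module.finrank K⟮h⟯ F _ _ a1.toModule = Module.finrank K⟮φ h⟯ F :=
    @Algebra.finrank_eq_of_equiv_equiv K⟮h⟯ F _ _ a1 K⟮φ h⟯ F _ _ _ e₁ (RingEquiv.refl F) hc
  have htower' : Module.finrank K⟮h⟯ F₀ * @Module.finrank F₀ F _ _ a0.toModule =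
      @Module.finrank K⟮h⟯ F _ _ a1.toModule := htower
  rw [← he, ← htower']
  rfl

/-- `φ h` is transcendental if `h` is. -/
theorem sdegP_transcendental_along (φ : F₀ →ₐ[K] F) {h : F₀} (hh : Transcendental K h) :
    Transcendental K (φ h) := by
  intro halg
  exact hh ((isAlgebraic_algHom_iff φ φ.injective).mp halg)

end Along

/-! ### the special fibre -/

section Special

variable {k Fk : Type*} [Field k] [Field Fk] [Algebra k Fk]

/-- `[Fk : k(a / Y ^ n)] = n · [Fk : k(Y)]`. -/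
theorem sdegP_finrank_const_div_pow (hRR : IsRRField k Fk) {Y : Fk} (hY : Transcendental k Y)
    [FiniteDimensional k⟮Y⟯ Fk] {a : k} (ha : a ≠ 0) {n : ℕ} (hn : n ≠ 0) :
    Module.finrank k⟮algebraMap k Fk a / Y ^ n⟯ Fk = n * Module.finrank k⟮Y⟯ Fk := by
  rw [seedDeg_finrank_const_div ha]
  have hP : (Polynomial.X ^ n : k[X]).natDegree ≠ 0 := by
    rw [Polynomial.natDegree_X_pow]
    exact hn
  have h1 := Fermat.Agent.BadRed.finrank_adjoin_aeval hRR hY hP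
  rwa [map_pow, Polynomial.aeval_X, Polynomial.natDegree_X_pow] at h1

/-- `a / Y ^ n` is transcendental. -/
theorem sdegP_transcendental_const_div_pow {Y : Fk} (hY : Transcendental k Y) {a : k}
    (ha : a ≠ 0) {n : ℕ} (hn : n ≠ 0) : Transcendental k (algebraMap k Fk a / Y ^ n) := by
  have h1 : Transcendental k (Y ^ n) := hY.pow (Nat.pos_of_ne_zero hn)
  intro halg
  apply h1
  have h2 : IsAlgebraic k (algebraMap k Fk a * (algebraMap k Fk a / Y ^ n)⁻¹) :=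
    IsAlgebraic.mul (isAlgebraic_algebraMap a) (IsAlgebraic.inv halg)
  rwa [← div_eq_mul_inv, div_div_cancel₀ ((_root_.map_ne_zero _).mpr ha)] at h2

end Special

/-! ### the degree of `h` from its polar divisor -/

section Pole

variable {K F₀ : Type*} [Field K] [Field F₀] [Algebra K F₀]

/-- `[F₀ : K(h)] = n · #SS` if `(h)_∞ = n ∑_P Pt P`. -/
theorem sdegP_finrank_of_poleDiv (hF₀ : IsRRField K F₀) {SS : Type*} [Fintype SS]
    (Pt : SS → Place K F₀) {h : F₀} (hh : Transcendental K h) [FiniteDimensional K⟮h⟯ F₀]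
    (n : ℕ) (hpole : poleDiv hF₀ h = n • ∑ P, Finsupp.single (Pt P) (1 : ℤ)) :
    Module.finrank K⟮h⟯ F₀ = n * Fintype.card SS := by
  have h1 := Fermat.Agent.RRHur.degree_poleDiv_eq_finrank hF₀ hh
  rw [hpole, map_nsmul, map_sum] at h1
  simp only [degree_single_one hF₀, Finset.sum_const, Finset.card_univ, nsmul_eq_mul,
    mul_one] at h1
  exact_mod_cast h1.symm

end Pole

/-! ### the hypothesis `hdegP` -/

section Main

variable {Mid SS : Type} [Fintype Mid] [Fintype SS]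
  {K F₀ F k : Type*} [Field K] [Field F₀] [Field F] [Algebra K F₀] [Algebra K F] [Field k]
  {Fk : Vtx Mid SS → Type*} [∀ c, Field (Fk c)] [∀ c, Algebra k (Fk c)]
  {S : ∀ c : Vtx Mid SS, ValSetup K F k (Fk c)}

/-- **DEGP**: `[F : K(y)] ≤ ∑_P [Fk_P : k(red_P y)]` for `y = c · φ h`, if
`[F₀ : K(h)] ≤ n · #SS`, `[F : φ F₀] ≤ d` and `red_P y = a_P / Ȳ_P ^ n`, `[Fk_P : k(Ȳ_P)] = d`
(modular case: `d = q (q + 1)`). -/
theorem sdegP_hdegP (φ : F₀ →ₐ[K] F) (h : F₀) {c : K} (hc : c ≠ 0) {n d : ℕ} (hn : n ≠ 0)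
    (hN : Module.finrank K⟮h⟯ F₀ ≤ n * Fintype.card SS) (hd : finrankAlong K φ ≤ d)
    (a : SS → k) (ha : ∀ P, a P ≠ 0) (Y : ∀ P : SS, Fk (Vtx.hor P))
    (hY : ∀ P, Transcendental k (Y P)) (hYfin : ∀ P, FiniteDimensional k⟮Y P⟯ (Fk (Vtx.hor P)))
    (hYd : ∀ P, Module.finrank k⟮Y P⟯ (Fk (Vtx.hor P)) = d)
    (hred : ∀ P, (S (Vtx.hor P)).red (algebraMap K F c * φ h) =
      algebraMap k (Fk (Vtx.hor P)) (a P) / Y P ^ n) :
    Module.finrank K⟮algebraMap K F c * φ h⟯ F ≤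
      ∑ P, Module.finrank k⟮(S (Vtx.hor P)).red (algebraMap K F c * φ h)⟯ (Fk (Vtx.hor P)) := by
  rw [sdegP_finrank_const_mul hc, sdegP_finrank_along]
  have hsum : ∀ P, Module.finrank k⟮(S (Vtx.hor P)).red (algebraMap K F c * φ h)⟯
      (Fk (Vtx.hor P)) = n * d := by
    intro P
    haveI := hYfin P
    rw [hred P, sdegP_finrank_const_div_pow (S (Vtx.hor P)).hFk (hY P) (ha P) hn, hYd P]
  rw [Finset.sum_congr rfl (fun P _ => hsum P), Finset.sum_const, Finset.card_univ, smul_eq_mul]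
  calc Module.finrank K⟮h⟯ F₀ * finrankAlong K φ ≤ (n * Fintype.card SS) * d :=
        Nat.mul_le_mul hN hd
    _ = Fintype.card SS * (n * d) := by ring

/-- the reduction of `y` on `w_P` is transcendental. -/
theorem sdegP_red_transcendental {y : F} {n : ℕ} (hn : n ≠ 0)
    (a : SS → k) (ha : ∀ P, a P ≠ 0) (Y : ∀ P : SS, Fk (Vtx.hor P))
    (hY : ∀ P, Transcendental k (Y P))
    (hred : ∀ P, (S (Vtx.hor P)).red y = algebraMap k (Fk (Vtx.hor P)) (a P) / Y P ^ n)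
    (P : SS) : Transcendental k ((S (Vtx.hor P)).red y) := by
  rw [hred P]
  exact sdegP_transcendental_const_div_pow (hY P) (ha P) hn

end Main

end Fermat.Agent.S36G
end
end MergeWrap_S36_Seed_DegP

section MergeWrap_S36_Seed_EndsHor -- from S36/Seed/EndsHor.lean

set_option autoImplicit false
set_option linter.unusedSectionVars false
set_option linter.unusedVariables false
set_option linter.style.haveILetI false

/-!
# Cluster G (S36), SEED, seat ENDS-HOR: the inputs of the three node theorems on the horizontal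
components  (helper18)

The hypotheses "W-P" (`hu_hor`, `htr_hor`, `hdeg₂` / `hdeg_hor`) of the multi-node data
`mn1_data` (`S36/Seed/MN1.lean`), `mnA_data(_mod)` (`MNA.lean`), `mn2_data(_mod)` (`MN2.lean`), from
the three reductions `EndsRedA`, `EndsRed1`, `EndsRed2` of `S36/Seed/Ends.lean`
(`red_P x = c · X ^ (± 12)`, `X = X₁` or `X₂` a coordinate of `H_P`, of degree `q`):

* `x ∈ O_{w_P}`                    (`EndsRed*.mem`);
* `red_P x` is transcendental      (`EndsRed*.transcendental`);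
* `[k(H_P) : k(red_P x)] = 12 q`   (`EndsRed*.finrank`);
* `n ≤ #SS · 12 q → n ≤ ∑_P [k(H_P) : k(red_P x)]`   (`EndsRed*.hdeg`).

Single curve: `endsHor_finrank_const_mul_pow`, `endsHor_finrank_const_mul_pow_inv`,
`endsHor_transcendental_const_mul_pow(_inv)`.
-/

noncomputable section

open AlgebraicCurve IntermediateField Polynomial

namespace Fermat.Agent.S36G

open Fermat.Agent.RR Fermat.Agent.Deuring Fermat.Agent.BadRed Fermat.Agent.BadRedG
  Fermat.Agent.HP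

/-! ### a single function field -/

section Single

variable {k E : Type*} [Field k] [Field E] [Algebra k E]

/-- `c X ^ n` is transcendental. -/
theorem endsHor_transcendental_const_mul_pow {X : E} (hX : Transcendental k X) {c : k}
    (hc : c ≠ 0) {n : ℕ} (hn : n ≠ 0) : Transcendental k (algebraMap k E c * X ^ n) := by
  have h1 : Transcendental k (X ^ n) := hX.pow (Nat.pos_of_ne_zero hn)
  intro halg
  apply h1
  have hcE : algebraMap k E c ≠ 0 := (_root_.map_ne_zero _).mpr hc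
  have h2 : IsAlgebraic k ((algebraMap k E c)⁻¹ * (algebraMap k E c * X ^ n)) :=
    IsAlgebraic.mul (IsAlgebraic.inv (isAlgebraic_algebraMap c)) halg
  rwa [inv_mul_cancel_left₀ hcE] at h2

/-- `c (X ^ n)⁻¹` is transcendental. -/
theorem endsHor_transcendental_const_mul_pow_inv {X : E} (hX : Transcendental k X) {c : k}
    (hc : c ≠ 0) {n : ℕ} (hn : n ≠ 0) : Transcendental k (algebraMap k E c * (X ^ n)⁻¹) := by
  rw [← div_eq_mul_inv]
  exact sdegP_transcendental_const_div_pow hX hc hn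

/-- `[E : k(c X ^ n)] = n [E : k(X)]`. -/
theorem endsHor_finrank_const_mul_pow (hRR : IsRRField k E) {X : E} (hX : Transcendental k X)
    [FiniteDimensional k⟮X⟯ E] {c : k} (hc : c ≠ 0) {n : ℕ} (hn : n ≠ 0) :
    Module.finrank k⟮algebraMap k E c * X ^ n⟯ E = n * Module.finrank k⟮X⟯ E := by
  rw [sdegP_finrank_const_mul hc]
  have hP : (Polynomial.X ^ n : k[X]).natDegree ≠ 0 := by
    rw [Polynomial.natDegree_X_pow]
    exact hn
  have h1 := Fermat.Agent.BadRed.finrank_adjoin_aeval hRR hX hP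
  rwa [map_pow, Polynomial.aeval_X, Polynomial.natDegree_X_pow] at h1

/-- `[E : k(c / X ^ n)] = n [E : k(X)]`. -/
theorem endsHor_finrank_const_mul_pow_inv (hRR : IsRRField k E) {X : E}
    (hX : Transcendental k X) [FiniteDimensional k⟮X⟯ E] {c : k} (hc : c ≠ 0) {n : ℕ}
    (hn : n ≠ 0) :
    Module.finrank k⟮algebraMap k E c * (X ^ n)⁻¹⟯ E = n * Module.finrank k⟮X⟯ E := by
  rw [← div_eq_mul_inv]
  exact sdegP_finrank_const_div_pow hRR hX hc hn

end Single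

/-! ### the family -/

section Family

variable {K F k : Type} [Field K] [Field F] [Algebra K F] [Field k] [IsAlgClosed k]
  {Mid SS : Type}
  {Fk0 : Type} [Field Fk0] [Algebra k Fk0]
  {FkM : Mid → Type} [∀ m, Field (FkM m)] [∀ m, Algebra k (FkM m)]
  {FkP : SS → Type} [∀ P, Field (FkP P)] [∀ P, Algebra k (FkP P)]
  {S : ∀ c : Vtx Mid SS, ValSetup K F k (FkOf Fk0 FkM FkP c)}
  {q : ℕ} {H : ∀ P : SS, HPCurve k (FkOf Fk0 FkM FkP (Vtx.hor P)) q}

omit [IsAlgClosed k] in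
theorem EndsRedA.red_ne {xA : F} (h : EndsRedA S H xA) (P : SS) :
    (S (Vtx.hor P)).red xA ≠ 0 := by
  obtain ⟨c, hc, hr⟩ := h P
  rw [hr]
  exact mul_ne_zero ((_root_.map_ne_zero _).mpr hc) (pow_ne_zero _ (H P).X2_ne)

omit [IsAlgClosed k] in
theorem EndsRed1.red_ne {x1 : F} (h : EndsRed1 S H x1) (P : SS) :
    (S (Vtx.hor P)).red x1 ≠ 0 := by
  obtain ⟨c, hc, hr⟩ := h P
  rw [hr]
  exact mul_ne_zero ((_root_.map_ne_zero _).mpr hc) (inv_ne_zero (pow_ne_zero _ (H P).X1_ne))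

omit [IsAlgClosed k] in
theorem EndsRed2.red_ne {x2 : F} (h : EndsRed2 S H x2) (P : SS) :
    (S (Vtx.hor P)).red x2 ≠ 0 := by
  obtain ⟨c, hc, hr⟩ := h P
  rw [hr]
  exact mul_ne_zero ((_root_.map_ne_zero _).mpr hc) (pow_ne_zero _ (H P).X1_ne)

omit [IsAlgClosed k] in
/-- **`hu_hor` of (A)**. -/
theorem EndsRedA.mem {xA : F} (h : EndsRedA S H xA) (P : SS) : xA ∈ (S (Vtx.hor P)).Ov :=
  (S (Vtx.hor P)).mem_of_red_ne_zero (h.red_ne P)

omit [IsAlgClosed k] in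
/-- **`hu_hor` of (1)**. -/
theorem EndsRed1.mem {x1 : F} (h : EndsRed1 S H x1) (P : SS) : x1 ∈ (S (Vtx.hor P)).Ov :=
  (S (Vtx.hor P)).mem_of_red_ne_zero (h.red_ne P)

omit [IsAlgClosed k] in
/-- **`hu_hor` of (2)**. -/
theorem EndsRed2.mem {x2 : F} (h : EndsRed2 S H x2) (P : SS) : x2 ∈ (S (Vtx.hor P)).Ov :=
  (S (Vtx.hor P)).mem_of_red_ne_zero (h.red_ne P)

omit [IsAlgClosed k] in
theorem EndsRedA.inv_mem {xA : F} (h : EndsRedA S H xA) (P : SS) :
    xA⁻¹ ∈ (S (Vtx.hor P)).Ov :=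
  (S (Vtx.hor P)).inv_mem_of_red_ne_zero (h.red_ne P)

omit [IsAlgClosed k] in
theorem EndsRed1.inv_mem {x1 : F} (h : EndsRed1 S H x1) (P : SS) :
    x1⁻¹ ∈ (S (Vtx.hor P)).Ov :=
  (S (Vtx.hor P)).inv_mem_of_red_ne_zero (h.red_ne P)

omit [IsAlgClosed k] in
theorem EndsRed2.inv_mem {x2 : F} (h : EndsRed2 S H x2) (P : SS) :
    x2⁻¹ ∈ (S (Vtx.hor P)).Ov :=
  (S (Vtx.hor P)).inv_mem_of_red_ne_zero (h.red_ne P)

variable (hq : q.Prime) [CharP k q]

include hq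

/-- **`htr_hor` of (A)**. -/
theorem EndsRedA.transcendental {xA : F} (h : EndsRedA S H xA) (P : SS) :
    Transcendental k ((S (Vtx.hor P)).red xA) := by
  obtain ⟨c, hc, hr⟩ := h P
  rw [hr]
  exact endsHor_transcendental_const_mul_pow ((H P).X2_transcendental (ends_hq1 hq)) hc
    (by norm_num)

/-- **`htr_hor` of (1)**. -/
theorem EndsRed1.transcendental {x1 : F} (h : EndsRed1 S H x1) (P : SS) :
    Transcendental k ((S (Vtx.hor P)).red x1) := by
  obtain ⟨c, hc, hr⟩ := h P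
  rw [hr]
  exact endsHor_transcendental_const_mul_pow_inv (H P).transc hc (by norm_num)

/-- **`htr_hor` of (2)**. -/
theorem EndsRed2.transcendental {x2 : F} (h : EndsRed2 S H x2) (P : SS) :
    Transcendental k ((S (Vtx.hor P)).red x2) := by
  obtain ⟨c, hc, hr⟩ := h P
  rw [hr]
  exact endsHor_transcendental_const_mul_pow (H P).transc hc (by norm_num)

/-- (A): `[k(H_P) : k(red_P xA)] = 12 q`. -/
theorem EndsRedA.finrank {xA : F} (h : EndsRedA S H xA) (P : SS) :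
    Module.finrank k⟮(S (Vtx.hor P)).red xA⟯ (FkOf Fk0 FkM FkP (Vtx.hor P)) = 12 * q := by
  obtain ⟨c, hc, hr⟩ := h P
  haveI := (H P).finiteDimensional_X2 (ends_hq1 hq)
  rw [hr, endsHor_finrank_const_mul_pow ((H P).isRRField (ends_hq1 hq))
    ((H P).X2_transcendental (ends_hq1 hq)) hc (by norm_num), (H P).finrank_X2 (ends_hq1 hq)]

/-- (1): `[k(H_P) : k(red_P x1)] = 12 q`. -/
theorem EndsRed1.finrank {x1 : F} (h : EndsRed1 S H x1) (P : SS) :
    Module.finrank k⟮(S (Vtx.hor P)).red x1⟯ (FkOf Fk0 FkM FkP (Vtx.hor P)) = 12 * q := by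
  obtain ⟨c, hc, hr⟩ := h P
  haveI := (H P).finiteDimensional_X1
  rw [hr, endsHor_finrank_const_mul_pow_inv ((H P).isRRField (ends_hq1 hq))
    (H P).transc hc (by norm_num), (H P).finrank_X1 (ends_hq1 hq)]

/-- (2): `[k(H_P) : k(red_P x2)] = 12 q`. -/
theorem EndsRed2.finrank {x2 : F} (h : EndsRed2 S H x2) (P : SS) :
    Module.finrank k⟮(S (Vtx.hor P)).red x2⟯ (FkOf Fk0 FkM FkP (Vtx.hor P)) = 12 * q := by
  obtain ⟨c, hc, hr⟩ := h P
  haveI := (H P).finiteDimensional_X1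
  rw [hr, endsHor_finrank_const_mul_pow ((H P).isRRField (ends_hq1 hq))
    (H P).transc hc (by norm_num), (H P).finrank_X1 (ends_hq1 hq)]

variable [Fintype SS]

/-- (A): the sum of the horizontal degrees is `#SS · 12 q`. -/
theorem EndsRedA.sum_finrank {xA : F} (h : EndsRedA S H xA) :
    ∑ P : SS, Module.finrank k⟮(S (Vtx.hor P)).red xA⟯ (FkOf Fk0 FkM FkP (Vtx.hor P)) =
      Fintype.card SS * (12 * q) := by
  rw [Finset.sum_congr rfl fun P _ => h.finrank hq P, Finset.sum_const, Finset.card_univ,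
    smul_eq_mul]

/-- (1): the sum of the horizontal degrees is `#SS · 12 q`. -/
theorem EndsRed1.sum_finrank {x1 : F} (h : EndsRed1 S H x1) :
    ∑ P : SS, Module.finrank k⟮(S (Vtx.hor P)).red x1⟯ (FkOf Fk0 FkM FkP (Vtx.hor P)) =
      Fintype.card SS * (12 * q) := by
  rw [Finset.sum_congr rfl fun P _ => h.finrank hq P, Finset.sum_const, Finset.card_univ,
    smul_eq_mul]

/-- (2): the sum of the horizontal degrees is `#SS · 12 q`. -/
theorem EndsRed2.sum_finrank {x2 : F} (h : EndsRed2 S H x2) :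
    ∑ P : SS, Module.finrank k⟮(S (Vtx.hor P)).red x2⟯ (FkOf Fk0 FkM FkP (Vtx.hor P)) =
      Fintype.card SS * (12 * q) := by
  rw [Finset.sum_congr rfl fun P _ => h.finrank hq P, Finset.sum_const, Finset.card_univ,
    smul_eq_mul]

/-- **`hdeg_hor` of (A)**: `n ≤ #SS · 12 q → n ≤ ∑_P [k(H_P) : k(red_P xA)]`. -/
theorem EndsRedA.hdeg {xA : F} (h : EndsRedA S H xA) {n : ℕ}
    (hn : n ≤ Fintype.card SS * (12 * q)) :
    n ≤ ∑ P : SS, Module.finrank k⟮(S (Vtx.hor P)).red xA⟯ (FkOf Fk0 FkM FkP (Vtx.hor P)) := by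
  rw [h.sum_finrank hq]
  exact hn

/-- **`hdeg₂` of (1)**: `n ≤ #SS · 12 q → n ≤ ∑_P [k(H_P) : k(red_P x1)]`. -/
theorem EndsRed1.hdeg {x1 : F} (h : EndsRed1 S H x1) {n : ℕ}
    (hn : n ≤ Fintype.card SS * (12 * q)) :
    n ≤ ∑ P : SS, Module.finrank k⟮(S (Vtx.hor P)).red x1⟯ (FkOf Fk0 FkM FkP (Vtx.hor P)) := by
  rw [h.sum_finrank hq]
  exact hn

/-- **`hdeg_hor` of (2)**: `n ≤ #SS · 12 q → n ≤ ∑_P [k(H_P) : k(red_P x2)]`. -/
theorem EndsRed2.hdeg {x2 : F} (h : EndsRed2 S H x2) {n : ℕ}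
    (hn : n ≤ Fintype.card SS * (12 * q)) :
    n ≤ ∑ P : SS, Module.finrank k⟮(S (Vtx.hor P)).red x2⟯ (FkOf Fk0 FkM FkP (Vtx.hor P)) := by
  rw [h.sum_finrank hq]
  exact hn

omit [IsAlgClosed k] hq [CharP k q] [Fintype SS] in
/-- the numerical input: `(q - 1) ψ ≤ 12 #SS` gives `(q - 1) (q ψ) ≤ #SS · 12 q`
(`ψ = dedekindPsi M₀`; the hypothesis is the mass formula, GENUS). -/
theorem endsHor_num {s ψ : ℕ} (hmass : (q - 1) * ψ ≤ 12 * s) :
    (q - 1) * (q * ψ) ≤ s * (12 * q) := by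
  calc (q - 1) * (q * ψ) = q * ((q - 1) * ψ) := by ring
    _ ≤ q * (12 * s) := Nat.mul_le_mul_left q hmass
    _ = s * (12 * q) := by ring

end Family

end Fermat.Agent.S36G
end
end MergeWrap_S36_Seed_EndsHor

section MergeWrap_S36_Seed_MNAtRed -- from S36/Seed/MNAtRed.lean

set_option autoImplicit false
set_option linter.style.haveILetI false
set_option linter.unusedSectionVars false
set_option linter.unusedVariables false
set_option synthInstance.maxHeartbeats 400000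

noncomputable section

namespace Fermat.Agent.S36G

open IntermediateField ModularCurve AlgebraicCurve Fermat.Agent.GaussInt Fermat.Agent.AtkinLehner
  Fermat.Agent.Deuring Fermat.Agent.S28 Fermat.Agent.F3 Fermat.Agent.F3G Fermat.Agent.BadRed
  Fermat.Agent.RR Fermat.Agent.BadRedG Fermat.Agent.HP

local notation "Qb" => AlgebraicClosure ℚ

attribute [local instance 10000] SubalgebraClass.toAlgebra HahnSeries.powerSeriesAlgebra

section Red

variable (D : ALData) {M M₀ : ℕ} [NeZero M] [NeZero M₀] (q : ℕ) [NeZero q]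
  {A : ValuationSubring Qb}
  {Mid SS : Type} [Fintype SS]
  {FkM : Mid → Type} [∀ m, Field (FkM m)] [∀ m, Algebra (IsLocalRing.ResidueField A) (FkM m)]
  {FkP : SS → Type} [∀ P, Field (FkP P)] [∀ P, Algebra (IsLocalRing.ResidueField A) (FkP P)]
  (S : ∀ c : Vtx Mid SS, ValSetup Qb (FBar M) (IsLocalRing.ResidueField A)
    (FkOf (modularFunctionFieldFullC (IsLocalRing.ResidueField A) M₀) FkM FkP c))

/-- **`DA` from SEED-UP**: the multi-node data of the node family (A) (`u = u₂`, `V₁ = {∞}`,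
`V₂ = {hor P}`), the inputs on the horizontal components being discharged from `EndsRedA`
(`red_P (ϖ / u₂) = c · X₂ ^ 12`) and the mass inequality. -/
theorem mnA_data_at_of_red [Nonempty SS] (hM : M = D.Q * D.R) (hR : M₀ = D.R)
    (hQ : q * q = D.Q) (hq : q.Prime) (hqM : ¬ q ∣ M₀) (hA : A.LiesOverPrime q)
    (hAeq : ∀ c c' : Vtx Mid SS, (S c).A = (S c').A)
    (hres : ∀ (c c' : Vtx Mid SS) (x : Qb) (h : x ∈ (S c).A) (h' : x ∈ (S c').A),
      (S c).res ⟨x, h⟩ = (S c').res ⟨x, h'⟩)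
    (hindep : ∀ c c' : Vtx Mid SS, c ≠ c' → ¬ (S c).Ov ≤ (S c').Ov)
    (hoo : IsGaussSetup M M₀ A (S (Vtx.vert Vrt.oo)))
    (h2 : q * q ∣ M)
    {ϖ : Qb} (hϖ0 : ϖ ≠ 0) (hϖm : ϖ ∈ A) (hϖr : IsLocalRing.residue A ⟨ϖ, hϖm⟩ = 0)
    -- W-P + SEED-UP
    (H : ∀ P : SS, HPCurve (IsLocalRing.ResidueField A)
      (FkOf (modularFunctionFieldFullC (IsLocalRing.ResidueField A) M₀) FkM FkP (Vtx.hor P)) q)
    (hxA : EndsRedA S H (algebraMap Qb (FBar M) ϖ / uF2 M q h2))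
    -- GENUS
    (hmass : (q - 1) * dedekindPsi M₀ ≤ 12 * Fintype.card SS) :
    MNData S {Vtx.vert Vrt.oo} (mn1V₂ Mid SS) (uF2 M q h2) ϖ := by
  haveI : IsAlgClosed (IsLocalRing.ResidueField A) := Fermat.Agent.GaussInt.isAlgClosed_residue A
  haveI : CharP (IsLocalRing.ResidueField A) q := uh_charP_residue A hq hA
  exact mnA_data_at D q S hM hR hQ hq hqM hA hAeq hres hindep hoo h2 hϖ0 hϖm hϖr
    (fun P => hxA.mem P) (fun P => hxA.transcendental hq P) (hxA.hdeg hq (endsHor_num hmass))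

/-- **`D2` from SEED-UP**: the multi-node data of the node family (2) (`u = u₁ / ϖ₁`,
`ϖ = q ^ 12 / ϖ₁`, `V₁ = {hor P}`, `V₂ = {0}`), the inputs on the horizontal components being
discharged from `EndsRed2` (`red_P (u₁ / ϖ₁) = c · X₁ ^ 12`) and the mass inequality. -/
theorem mn2_data_at_of_red [Nonempty SS] (hM : M = D.Q * D.R) (hR : M₀ = D.R)
    (hQ : q * q = D.Q) (hq : q.Prime) (hqM : ¬ q ∣ M₀) (hA : A.LiesOverPrime q)
    (hAeq : ∀ c c' : Vtx Mid SS, (S c).A = (S c').A)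
    (hres : ∀ (c c' : Vtx Mid SS) (x : Qb) (h : x ∈ (S c).A) (h' : x ∈ (S c').A),
      (S c).res ⟨x, h⟩ = (S c').res ⟨x, h'⟩)
    (hindep : ∀ c c' : Vtx Mid SS, c ≠ c' → ¬ (S c).Ov ≤ (S c').Ov)
    (hoo : IsGaussSetup M M₀ A (S (Vtx.vert Vrt.oo)))
    (hzero : S (Vtx.vert Vrt.zero) = valSetupZeroAt D hM (S (Vtx.vert Vrt.oo)))
    (h1 : q ∣ M)
    {ϖ₁ : Qb} (hϖ0 : ϖ₁ ≠ 0) (hϖm : (q : Qb) ^ 12 / ϖ₁ ∈ A)
    (hϖr : IsLocalRing.residue A ⟨(q : Qb) ^ 12 / ϖ₁, hϖm⟩ = 0)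
    -- W-P + SEED-UP
    (H : ∀ P : SS, HPCurve (IsLocalRing.ResidueField A)
      (FkOf (modularFunctionFieldFullC (IsLocalRing.ResidueField A) M₀) FkM FkP (Vtx.hor P)) q)
    (hx2 : EndsRed2 S H (uF M q h1 / algebraMap Qb (FBar M) ϖ₁))
    -- GENUS
    (hmass : (q - 1) * dedekindPsi M₀ ≤ 12 * Fintype.card SS) :
    MNData S (mn1V₂ Mid SS) {Vtx.vert Vrt.zero}
      (uF M q h1 / algebraMap Qb (FBar M) ϖ₁) ((q : Qb) ^ 12 / ϖ₁) := by
  haveI : IsAlgClosed (IsLocalRing.ResidueField A) := Fermat.Agent.GaussInt.isAlgClosed_residue A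
  haveI : CharP (IsLocalRing.ResidueField A) q := uh_charP_residue A hq hA
  exact mn2_data_at D q S hM hR hQ hq hqM hA hAeq hres hindep hoo hzero h1 hϖ0 hϖm hϖr
    (fun P => hx2.mem P) (fun P => hx2.transcendental hq P) (hx2.hdeg hq (endsHor_num hmass))

end Red

/-! ### `SS = ModSS A M₀ q`: the mass inequality is `modSS_card_ge` -/

section ModSSInst

variable (D : ALData) {M M₀ : ℕ} [NeZero M] [NeZero M₀] (q : ℕ) [NeZero q]
  {A : ValuationSubring Qb} [Fintype (ModSS A M₀ q)]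
  {Mid : Type}
  {FkM : Mid → Type} [∀ m, Field (FkM m)] [∀ m, Algebra (IsLocalRing.ResidueField A) (FkM m)]
  {FkP : ModSS A M₀ q → Type} [∀ P, Field (FkP P)]
  [∀ P, Algebra (IsLocalRing.ResidueField A) (FkP P)]
  (S : ∀ c : Vtx Mid (ModSS A M₀ q),
    ValSetup Qb (FBar M) (IsLocalRing.ResidueField A)
      (FkOf (modularFunctionFieldFullC (IsLocalRing.ResidueField A) M₀) FkM FkP c))

/-- **`DA` for `SS = ModSS A M₀ q`** (`M₀` without elliptic points): the only input on the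
horizontal components is `EndsRedA`. -/
theorem mnA_data_at_modSS (hM : M = D.Q * D.R) (hR : M₀ = D.R)
    (hQ : q * q = D.Q) (hq : q.Prime) (hqM : ¬ q ∣ M₀)
    (hν2 : nuTwo M₀ = 0) (hν3 : nuThree M₀ = 0)
    (h2' : q = 2 → 3 ∣ M₀) (h3' : q = 3 → 2 ∣ M₀) (hA : A.LiesOverPrime q)
    (hAeq : ∀ c c' : Vtx Mid (ModSS A M₀ q), (S c).A = (S c').A)
    (hres : ∀ (c c' : Vtx Mid (ModSS A M₀ q)) (x : Qb) (h : x ∈ (S c).A) (h' : x ∈ (S c').A),
      (S c).res ⟨x, h⟩ = (S c').res ⟨x, h'⟩)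
    (hindep : ∀ c c' : Vtx Mid (ModSS A M₀ q), c ≠ c' → ¬ (S c).Ov ≤ (S c').Ov)
    (hoo : IsGaussSetup M M₀ A (S (Vtx.vert Vrt.oo)))
    (h2 : q * q ∣ M)
    {ϖ : Qb} (hϖ0 : ϖ ≠ 0) (hϖm : ϖ ∈ A) (hϖr : IsLocalRing.residue A ⟨ϖ, hϖm⟩ = 0)
    (H : ∀ P : ModSS A M₀ q, HPCurve (IsLocalRing.ResidueField A)
      (FkOf (modularFunctionFieldFullC (IsLocalRing.ResidueField A) M₀) FkM FkP (Vtx.hor P)) q)
    (hxA : EndsRedA S H (algebraMap Qb (FBar M) ϖ / uF2 M q h2)) :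
    MNData S {Vtx.vert Vrt.oo} (mn1V₂ Mid (ModSS A M₀ q)) (uF2 M q h2) ϖ :=
  haveI : Nonempty (ModSS A M₀ q) := modSS_nonempty hq hqM hν2 hν3 h2' h3' hA
  mnA_data_at_of_red D q S hM hR hQ hq hqM hA hAeq hres hindep hoo h2 hϖ0 hϖm hϖr H hxA
    (modSS_card_ge hq hqM hν2 hν3 h2' h3' hA)

/-- **`D2` for `SS = ModSS A M₀ q`** (`M₀` without elliptic points): the only input on the
horizontal components is `EndsRed2`. -/
theorem mn2_data_at_modSS (hM : M = D.Q * D.R) (hR : M₀ = D.R)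
    (hQ : q * q = D.Q) (hq : q.Prime) (hqM : ¬ q ∣ M₀)
    (hν2 : nuTwo M₀ = 0) (hν3 : nuThree M₀ = 0)
    (h2' : q = 2 → 3 ∣ M₀) (h3' : q = 3 → 2 ∣ M₀) (hA : A.LiesOverPrime q)
    (hAeq : ∀ c c' : Vtx Mid (ModSS A M₀ q), (S c).A = (S c').A)
    (hres : ∀ (c c' : Vtx Mid (ModSS A M₀ q)) (x : Qb) (h : x ∈ (S c).A) (h' : x ∈ (S c').A),
      (S c).res ⟨x, h⟩ = (S c').res ⟨x, h'⟩)
    (hindep : ∀ c c' : Vtx Mid (ModSS A M₀ q), c ≠ c' → ¬ (S c).Ov ≤ (S c').Ov)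
    (hoo : IsGaussSetup M M₀ A (S (Vtx.vert Vrt.oo)))
    (hzero : S (Vtx.vert Vrt.zero) = valSetupZeroAt D hM (S (Vtx.vert Vrt.oo)))
    (h1 : q ∣ M)
    {ϖ₁ : Qb} (hϖ0 : ϖ₁ ≠ 0) (hϖm : (q : Qb) ^ 12 / ϖ₁ ∈ A)
    (hϖr : IsLocalRing.residue A ⟨(q : Qb) ^ 12 / ϖ₁, hϖm⟩ = 0)
    (H : ∀ P : ModSS A M₀ q, HPCurve (IsLocalRing.ResidueField A)
      (FkOf (modularFunctionFieldFullC (IsLocalRing.ResidueField A) M₀) FkM FkP (Vtx.hor P)) q)
    (hx2 : EndsRed2 S H (uF M q h1 / algebraMap Qb (FBar M) ϖ₁)) :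
    MNData S (mn1V₂ Mid (ModSS A M₀ q)) {Vtx.vert Vrt.zero}
      (uF M q h1 / algebraMap Qb (FBar M) ϖ₁) ((q : Qb) ^ 12 / ϖ₁) :=
  haveI : Nonempty (ModSS A M₀ q) := modSS_nonempty hq hqM hν2 hν3 h2' h3' hA
  mn2_data_at_of_red D q S hM hR hQ hq hqM hA hAeq hres hindep hoo hzero h1 hϖ0 hϖm hϖr H hx2
    (modSS_card_ge hq hqM hν2 hν3 h2' h3' hA)

end ModSSInst

end Fermat.Agent.S36G
end
end MergeWrap_S36_Seed_MNAtRed

section MergeWrap_S36_Seed_MN1Mod -- from S36/Seed/MN1Mod.lean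

set_option autoImplicit false
set_option linter.style.haveILetI false
set_option linter.unusedSectionVars false
set_option linter.unusedVariables false
set_option synthInstance.maxHeartbeats 400000

/-!
# Cluster G (S36), SEED, seat MN1-MOD: the multi-node data of the node family (1) on
`X₀(M₀ q²)`  (helper18)

The modular instance of `mn1_data` (`S36/Seed/MN1.lean`), level `N = M₀ * q * q` (the level of
the middle setups `IsMidSetup` and of `WPOut`), parameter `u₁ = uF N q`, with the inputs at `∞`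
and at the middle vertices DISCHARGED:

* `∞`     : `S ∞` a Gauss setup (`uF_mem_Ov`, `transcendental_red_uF`, `finrank_red_uF`);
* `mid m` : `S (mid m)` a middle setup (`umid_uF_mem_Ov`, `umid_transcendental_red_uF`) and
            `[Ig : k(Z)] = midDeg q` (`IgDegree`), `#Mid = midCard q`;
* degree  : `[F : ℚ̄(u₁)] = (q - 1) q ψ(M₀) = (q - 1) ψ(M₀) (1 + #Mid · midDeg q)`.

What is left are the exports of W-P on the `hor P`:
* `mn1_data_mod`  : with `hu_hor`, `htr_hor`, `hdeg_hor` as hypotheses (the shape of helper91's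
  `mnA_data_mod`, `mn2_data_mod`);
* `mn1_data_mod_of_red` : with `EndsRed1 S H (ϖ₁ / u₁)` (`S36/Seed/Ends.lean`: the reduction is
  `c / X₁ ^ 12` on every `H_P`) and the mass inequality `(q - 1) ψ(M₀) ≤ 12 #SS`.

Pieces: `mn1Mod_finrank_incl`, `mn1Mod_finrank_mid`
(`[Ig : k(red_m u₁)] = midDeg q · (q - 1) ψ(M₀)`), `mn1Mod_num`.
-/

noncomputable section

namespace Fermat.Agent.S36G

open IntermediateField ModularCurve AlgebraicCurve Fermat.Agent.GaussInt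
  Fermat.Agent.Deuring Fermat.Agent.F3 Fermat.Agent.F3G Fermat.Agent.BadRed
  Fermat.Agent.RR Fermat.Agent.BadRedG Fermat.Agent.HP

local notation "Qb" => AlgebraicClosure ℚ

/-! ### arithmetic -/

/-- `(q - 1) (q ψ) = (q - 1) ψ + #Mid · (midDeg q · ((q - 1) ψ))` for `#Mid = midCard q`. -/
theorem mn1Mod_num {q : ℕ} (hq : q.Prime) (ψ c : ℕ) (hc : c = midCard q) :
    (q - 1) * (q * ψ) = (q - 1) * ψ + c * (midDeg q * ((q - 1) * ψ)) := by
  have h1 : c * midDeg q = q - 1 := by rw [hc]; exact gen_midCard_mul_midDeg hq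
  have h2 : q = 1 + (q - 1) := by
    have := hq.one_lt
    omega
  calc (q - 1) * (q * ψ) = (q - 1) * ((1 + (q - 1)) * ψ) := by rw [← h2]
    _ = (q - 1) * ψ + (c * midDeg q) * ((q - 1) * ψ) := by rw [h1]; ring
    _ = (q - 1) * ψ + c * (midDeg q * ((q - 1) * ψ)) := by ring

/-! ### the degree on the Igusa component -/

/-- tower law for an inclusion of intermediate fields:
`[B : k(y)] = [E : k(h)] · [B : E]` for `y = h ∈ E ≤ B`. -/
theorem mn1Mod_finrank_incl {k L : Type*} [Field k] [Field L] [Algebra k L]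
    {E B : IntermediateField k L} (hle : E ≤ B) (h : E) (y : B) (hy : (y : L) = (h : L)) :
    Module.finrank k⟮y⟯ B = Module.finrank k⟮h⟯ E * IntermediateField.relfinrank E B := by
  have hyh : y = IntermediateField.inclusion hle h := Subtype.ext hy
  rw [hyh, sdegP_finrank_along, ig_finrankAlong_inclusion]

attribute [local instance 10000] SubalgebraClass.toAlgebra HahnSeries.powerSeriesAlgebra

section Mid

variable (M₀ : ℕ) [NeZero M₀] {q : ℕ} {A : ValuationSubring Qb}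

/-- **`[Ig : k(y)] = midDeg q · (q - 1) ψ(M₀)`** for `y ∈ Ig` with expansion `ssFun`. -/
theorem mn1Mod_finrank_mid (hq : q.Prime) (hqM : ¬ q ∣ M₀) (hA : A.LiesOverPrime q)
    (hIg : IntermediateField.relfinrank
      (modularFunctionFieldFullC (IsLocalRing.ResidueField A) M₀)
      (igField (IsLocalRing.ResidueField A) M₀) = midDeg q)
    (h : ↥(modularFunctionFieldFullC (IsLocalRing.ResidueField A) M₀))
    (hh : (h : LaurentSeries (IsLocalRing.ResidueField A)) =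
      ssFun (IsLocalRing.ResidueField A) q)
    (y : ↥(igField (IsLocalRing.ResidueField A) M₀))
    (hy : (y : LaurentSeries (IsLocalRing.ResidueField A)) =
      ssFun (IsLocalRing.ResidueField A) q) :
    Module.finrank (IsLocalRing.ResidueField A)⟮y⟯
      ↥(igField (IsLocalRing.ResidueField A) M₀) = midDeg q * ((q - 1) * dedekindPsi M₀) := by
  have h1 := mn1Mod_finrank_incl (fullC_le_igField (IsLocalRing.ResidueField A) M₀) h y
    (hy.trans hh.symm)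
  have h2 := finrank_adjoin_ss M₀ hq hqM hA h hh
  rw [h1, hIg, h2, Nat.mul_comm]

end Mid

/-! ### the modular instance -/

section Mod

variable (M₀ q : ℕ) [NeZero M₀] [NeZero q] {A : ValuationSubring Qb}
  {Mid SS : Type} [Fintype Mid] [Fintype SS]
  {FkP : SS → Type} [∀ P, Field (FkP P)] [∀ P, Algebra (IsLocalRing.ResidueField A) (FkP P)]
  (S : ∀ c : Vtx Mid SS, ValSetup Qb (FBar (M₀ * q * q)) (IsLocalRing.ResidueField A)
    (FkOf (modularFunctionFieldFullC (IsLocalRing.ResidueField A) M₀)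
      (fun _ : Mid => ↥(igField (IsLocalRing.ResidueField A) M₀)) FkP c))

set_option maxHeartbeats 3200000 in
/-- **the multi-node data of the node family (1) on `X₀(M₀ q²)`**: `u = u₁`, `V₁ = {∞} ∪ Mid`,
`V₂ = {hor P}`.  The inputs at `∞` and at the middle vertices are discharged; the inputs at the
`hor P` are the exports of W-P. -/
theorem mn1_data_mod [Nonempty SS] (hq : q.Prime) (hqM : ¬ q ∣ M₀) (hA : A.LiesOverPrime q)
    (hAeq : ∀ c c' : Vtx Mid SS, (S c).A = (S c').A)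
    (hres : ∀ (c c' : Vtx Mid SS) (x : Qb) (h : x ∈ (S c).A) (h' : x ∈ (S c').A),
      (S c).res ⟨x, h⟩ = (S c').res ⟨x, h'⟩)
    (hindep : ∀ c c' : Vtx Mid SS, c ≠ c' → ¬ (S c).Ov ≤ (S c').Ov)
    (hoo : IsGaussSetup (M₀ * q * q) M₀ A (S (Vtx.vert Vrt.oo)))
    {z : Mid → Qbˣ} {ε : Mid → (↥(modularFunctionFieldBar (M₀ * q * q)) →ₐ[Qb] LaurentSeries Qb)}
    (hε : ∀ m, IsMidExp M₀ q (z m) (ε m))
    (hmid : ∀ m, IsMidSetup M₀ q A (ε m) (S (Vtx.vert (Vrt.mid m))))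
    (hcard : Fintype.card Mid = midCard q)
    (hIg : IntermediateField.relfinrank
      (modularFunctionFieldFullC (IsLocalRing.ResidueField A) M₀)
      (igField (IsLocalRing.ResidueField A) M₀) = midDeg q)
    {ϖ : Qb} (hϖ0 : ϖ ≠ 0) (hϖm : ϖ ∈ A) (hϖr : IsLocalRing.residue A ⟨ϖ, hϖm⟩ = 0)
    -- W-P
    (hu_hor : ∀ P, algebraMap Qb (FBar (M₀ * q * q)) ϖ /
      uF (M₀ * q * q) q (umid_dvd1 M₀ q) ∈ (S (Vtx.hor P)).Ov)
    (htr_hor : ∀ P, Transcendental (IsLocalRing.ResidueField A)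
      ((S (Vtx.hor P)).red (algebraMap Qb (FBar (M₀ * q * q)) ϖ /
        uF (M₀ * q * q) q (umid_dvd1 M₀ q))))
    (hdeg_hor : (q - 1) * (q * dedekindPsi M₀) ≤
      ∑ P, Module.finrank (IsLocalRing.ResidueField A)⟮(S (Vtx.hor P)).red
        (algebraMap Qb (FBar (M₀ * q * q)) ϖ / uF (M₀ * q * q) q (umid_dvd1 M₀ q))⟯
        (FkOf (modularFunctionFieldFullC (IsLocalRing.ResidueField A) M₀)
          (fun _ : Mid => ↥(igField (IsLocalRing.ResidueField A) M₀)) FkP (Vtx.hor P))) :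
    MNData S (mn1V₁ Mid SS) (mn1V₂ Mid SS) (uF (M₀ * q * q) q (umid_dvd1 M₀ q)) ϖ := by
  have hAoo : (S (Vtx.vert Vrt.oo)).A = A := hoo.A_eq
  have hm0 : ϖ ∈ (S (Vtx.vert Vrt.oo)).A := by
    rw [hAoo]
    exact hϖm
  have hr0 : (S (Vtx.vert Vrt.oo)).res ⟨ϖ, hm0⟩ = 0 := by
    rw [hoo.res_eq ϖ hm0 hϖm, hϖr]
  refine mn1_data S hAeq hres hindep hϖ0 hm0 hr0 (uF_mem_Ov hoo q _)
    (transcendental_red_uF hoo q _ hq.two_le) (fun m => umid_uF_mem_Ov (hmid m) (hε m))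
    (fun m => umid_transcendental_red_uF (hmid m) (hε m) hq.two_le) hu_hor htr_hor ?_ ?_
  · have h1 := finrank_uF_sq hq (show M₀ * q * q = q * q * M₀ by ring) hqM (umid_dvd1 M₀ q)
    have h2 := finrank_red_uF hoo q hq hqM hA (umid_dvd1 M₀ q)
    have h3 := fun m : Mid => mn1Mod_finrank_mid M₀ hq hqM hA hIg _
      (coe_red_uF hoo q (umid_dvd1 M₀ q) hq hA) _ (umid_coe_red_uF (hmid m) (hε m) hq hA)
    have h4 : Fintype.card Mid * (midDeg q * ((q - 1) * dedekindPsi M₀)) =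
        ∑ _m : Mid, midDeg q * ((q - 1) * dedekindPsi M₀) := by
      rw [Finset.sum_const, Finset.card_univ, smul_eq_mul]
    exact le_of_eq (h1.trans ((mn1Mod_num hq (dedekindPsi M₀) (Fintype.card Mid) hcard).trans
      (congrArg₂ (· + ·) h2.symm (h4.trans (Finset.sum_congr rfl fun m _ => (h3 m).symm)))))
  · have h1 := finrank_uF_sq hq (show M₀ * q * q = q * q * M₀ by ring) hqM (umid_dvd1 M₀ q)
    exact h1.le.trans hdeg_hor

set_option maxHeartbeats 3200000 in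
/-- **the multi-node data of the node family (1)** from the reduction of `ϖ₁ / u₁` on the
`H_P` (`EndsRed1`: `red_P (ϖ₁ / u₁) = c / X₁ ^ 12`) and the mass inequality
`(q - 1) ψ(M₀) ≤ 12 #SS`. -/
theorem mn1_data_mod_of_red [Nonempty SS] (hq : q.Prime) (hqM : ¬ q ∣ M₀)
    (hA : A.LiesOverPrime q)
    (hAeq : ∀ c c' : Vtx Mid SS, (S c).A = (S c').A)
    (hres : ∀ (c c' : Vtx Mid SS) (x : Qb) (h : x ∈ (S c).A) (h' : x ∈ (S c').A),
      (S c).res ⟨x, h⟩ = (S c').res ⟨x, h'⟩)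
    (hindep : ∀ c c' : Vtx Mid SS, c ≠ c' → ¬ (S c).Ov ≤ (S c').Ov)
    (hoo : IsGaussSetup (M₀ * q * q) M₀ A (S (Vtx.vert Vrt.oo)))
    {z : Mid → Qbˣ} {ε : Mid → (↥(modularFunctionFieldBar (M₀ * q * q)) →ₐ[Qb] LaurentSeries Qb)}
    (hε : ∀ m, IsMidExp M₀ q (z m) (ε m))
    (hmid : ∀ m, IsMidSetup M₀ q A (ε m) (S (Vtx.vert (Vrt.mid m))))
    (hcard : Fintype.card Mid = midCard q)
    (hIg : IntermediateField.relfinrank
      (modularFunctionFieldFullC (IsLocalRing.ResidueField A) M₀)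
      (igField (IsLocalRing.ResidueField A) M₀) = midDeg q)
    {ϖ : Qb} (hϖ0 : ϖ ≠ 0) (hϖm : ϖ ∈ A) (hϖr : IsLocalRing.residue A ⟨ϖ, hϖm⟩ = 0)
    -- W-P + SEED-UP
    (H : ∀ P : SS, HPCurve (IsLocalRing.ResidueField A)
      (FkOf (modularFunctionFieldFullC (IsLocalRing.ResidueField A) M₀)
        (fun _ : Mid => ↥(igField (IsLocalRing.ResidueField A) M₀)) FkP (Vtx.hor P)) q)
    (hx1 : EndsRed1 S H (algebraMap Qb (FBar (M₀ * q * q)) ϖ /
      uF (M₀ * q * q) q (umid_dvd1 M₀ q)))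
    -- GENUS
    (hmass : (q - 1) * dedekindPsi M₀ ≤ 12 * Fintype.card SS) :
    MNData S (mn1V₁ Mid SS) (mn1V₂ Mid SS) (uF (M₀ * q * q) q (umid_dvd1 M₀ q)) ϖ := by
  haveI : IsAlgClosed (IsLocalRing.ResidueField A) := Fermat.Agent.GaussInt.isAlgClosed_residue A
  haveI : CharP (IsLocalRing.ResidueField A) q := uh_charP_residue A hq hA
  exact mn1_data_mod M₀ q S hq hqM hA hAeq hres hindep hoo hε hmid hcard hIg hϖ0 hϖm hϖr
    (fun P => hx1.mem P) (fun P => hx1.transcendental hq P) (hx1.hdeg hq (endsHor_num hmass))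

end Mod

end Fermat.Agent.S36G
end
end MergeWrap_S36_Seed_MN1Mod

section MergeWrap_S36_G_ModMN -- from S36/G/ModMN.lean

set_option autoImplicit false
set_option linter.style.haveILetI false
set_option linter.unusedSectionVars false
set_option linter.unusedVariables false
set_option synthInstance.maxHeartbeats 400000

noncomputable section

namespace Fermat.Agent.S36G

open IntermediateField ModularCurve AlgebraicCurve Fermat.Agent.GaussInt Fermat.Agent.AtkinLehner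
  Fermat.Agent.Deuring Fermat.Agent.S28 Fermat.Agent.F3 Fermat.Agent.F3G Fermat.Agent.BadRed
  Fermat.Agent.RR Fermat.Agent.BadRedG Fermat.Agent.HP

local notation "Qb" => AlgebraicClosure ℚ

attribute [local instance 10000] SubalgebraClass.toAlgebra HahnSeries.powerSeriesAlgebra

/-! ### the arithmetic of `ϖ`, `ϖ ^ (q + 1) = q` -/

section Pi

variable {A : ValuationSubring Qb} {q : ℕ}

theorem modMN_pi_ne (hq : q.Prime) {ϖ : Qb} (hϖ : ϖ ^ (q + 1) = (q : Qb)) : ϖ ≠ 0 := by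
  rintro rfl
  rw [zero_pow (Nat.succ_ne_zero q)] at hϖ
  exact (Nat.cast_ne_zero.mpr hq.ne_zero : (q : Qb) ≠ 0) hϖ.symm

theorem modMN_natCast_mem (A : ValuationSubring Qb) (n : ℕ) : (n : Qb) ∈ A := by
  have h : ((n : A) : Qb) = (n : Qb) := by push_cast; rfl
  rw [← h]
  exact (n : A).2

theorem modMN_pi_inv_notMem (hq : q.Prime) (hA : A.LiesOverPrime q) {ϖ : Qb}
    (hϖ : ϖ ^ (q + 1) = (q : Qb)) : ϖ⁻¹ ∉ A := by
  have hq0 : (q : Qb) ≠ 0 := Nat.cast_ne_zero.mpr hq.ne_zero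
  have hqinv : (q : Qb)⁻¹ ∉ A := by
    have h2 : (q : Qb) ∈ A.nonunits := hA
    rw [ValuationSubring.mem_nonunits_iff_or] at h2
    exact h2.resolve_left hq0
  intro hinv
  apply hqinv
  rw [← hϖ, ← inv_pow]
  exact pow_mem hinv _

theorem modMN_pi_mem (hq : q.Prime) (hA : A.LiesOverPrime q) {ϖ : Qb}
    (hϖ : ϖ ^ (q + 1) = (q : Qb)) : ϖ ∈ A :=
  (A.mem_or_inv_mem ϖ).resolve_right (modMN_pi_inv_notMem hq hA hϖ)

theorem modMN_pow_ne (hq : q.Prime) {ϖ : Qb} (hϖ : ϖ ^ (q + 1) = (q : Qb)) (n : ℕ) :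
    ϖ ^ n ≠ 0 :=
  pow_ne_zero n (modMN_pi_ne hq hϖ)

theorem modMN_pow_mem (hq : q.Prime) (hA : A.LiesOverPrime q) {ϖ : Qb}
    (hϖ : ϖ ^ (q + 1) = (q : Qb)) (n : ℕ) : ϖ ^ n ∈ A :=
  pow_mem (modMN_pi_mem hq hA hϖ) n

theorem modMN_res_eq_zero {x : Qb} (h : x ∈ A) (hinv : x⁻¹ ∉ A) :
    IsLocalRing.residue A ⟨x, h⟩ = 0 := by
  rw [IsLocalRing.residue_eq_zero_iff, ← ValuationSubring.coe_mem_nonunits_iff,
    ValuationSubring.mem_nonunits_iff_or]
  exact Or.inr hinv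

theorem modMN_pow_inv_notMem (hq : q.Prime) (hA : A.LiesOverPrime q) {ϖ : Qb}
    (hϖ : ϖ ^ (q + 1) = (q : Qb)) {n : ℕ} (hn : n ≠ 0) : (ϖ ^ n)⁻¹ ∉ A := by
  intro hinv
  apply modMN_pi_inv_notMem hq hA hϖ
  obtain ⟨m, rfl⟩ := Nat.exists_eq_succ_of_ne_zero hn
  have h1 : ϖ⁻¹ = (ϖ ^ (m + 1))⁻¹ * ϖ ^ m := by
    have h0 : ϖ ≠ 0 := modMN_pi_ne hq hϖ
    have hm0 : ϖ ^ m ≠ 0 := modMN_pow_ne hq hϖ m
    field_simp
    rw [pow_succ, mul_comm]
  rw [h1]
  exact A.mul_mem _ _ hinv (modMN_pow_mem hq hA hϖ m)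

theorem modMN_pow_res (hq : q.Prime) (hA : A.LiesOverPrime q) {ϖ : Qb}
    (hϖ : ϖ ^ (q + 1) = (q : Qb)) {n : ℕ} (hn : n ≠ 0) (h : ϖ ^ n ∈ A) :
    IsLocalRing.residue A ⟨ϖ ^ n, h⟩ = 0 :=
  modMN_res_eq_zero h (modMN_pow_inv_notMem hq hA hϖ hn)

/-- `q ^ 12 / ϖ ^ 12 = ϖ ^ (12 q)`. -/
theorem modMN_q12_div (hq : q.Prime) {ϖ : Qb} (hϖ : ϖ ^ (q + 1) = (q : Qb)) :
    (q : Qb) ^ 12 / ϖ ^ 12 = ϖ ^ (12 * q) := by
  rw [div_eq_iff (modMN_pow_ne hq hϖ 12), ← hϖ, ← pow_mul, ← pow_add]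
  congr 1
  ring

end Pi

/-! ### the three multi-node data -/

section MN

variable (D : ALData) (M₀ q : ℕ) [NeZero M₀] [NeZero q] {A : ValuationSubring Qb}
  {Mid SS : Type} [Fintype Mid] [Fintype SS]
  {FkP : SS → Type} [∀ P, Field (FkP P)] [∀ P, Algebra (IsLocalRing.ResidueField A) (FkP P)]
  (S : ∀ c : Vtx Mid SS, ValSetup Qb (FBar (M₀ * q * q)) (IsLocalRing.ResidueField A)
    (FkOf (modularFunctionFieldFullC (IsLocalRing.ResidueField A) M₀)
      (fun _ : Mid => ↥(igField (IsLocalRing.ResidueField A) M₀)) FkP c))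

/-- **`DA`**: `MNData S {∞} {hor P} u₂ (ϖ ^ (12 q))`. -/
theorem modMN_DA [Nonempty SS] (hM : M₀ * q * q = D.Q * D.R) (hR : M₀ = D.R)
    (hQ : q * q = D.Q) (hq : q.Prime) (hqM : ¬ q ∣ M₀) (hA : A.LiesOverPrime q)
    (hAeq : ∀ c c' : Vtx Mid SS, (S c).A = (S c').A)
    (hres : ∀ (c c' : Vtx Mid SS) (x : Qb) (h : x ∈ (S c).A) (h' : x ∈ (S c').A),
      (S c).res ⟨x, h⟩ = (S c').res ⟨x, h'⟩)
    (hindep : ∀ c c' : Vtx Mid SS, c ≠ c' → ¬ (S c).Ov ≤ (S c').Ov)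
    (hoo : IsGaussSetup (M₀ * q * q) M₀ A (S (Vtx.vert Vrt.oo)))
    {ϖ : Qb} (hϖ : ϖ ^ (q + 1) = (q : Qb))
    (H : ∀ P : SS, HPCurve (IsLocalRing.ResidueField A)
      (FkOf (modularFunctionFieldFullC (IsLocalRing.ResidueField A) M₀)
        (fun _ : Mid => ↥(igField (IsLocalRing.ResidueField A) M₀)) FkP (Vtx.hor P)) q)
    (hxA : EndsRedA S H (algebraMap Qb (FBar (M₀ * q * q)) (ϖ ^ (12 * q)) /
      uF2 (M₀ * q * q) q (umid_dvd2 M₀ q)))
    (hmass : (q - 1) * dedekindPsi M₀ ≤ 12 * Fintype.card SS) :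
    MNData S {Vtx.vert Vrt.oo} (mn1V₂ Mid SS) (uF2 (M₀ * q * q) q (umid_dvd2 M₀ q))
      (ϖ ^ (12 * q)) :=
  mnA_data_at_of_red D q S hM hR hQ hq hqM hA hAeq hres hindep hoo (umid_dvd2 M₀ q)
    (modMN_pow_ne hq hϖ _) (modMN_pow_mem hq hA hϖ _)
    (modMN_pow_res hq hA hϖ (Nat.mul_ne_zero (by norm_num) hq.ne_zero) _) H hxA hmass

/-- **`D1`**: `MNData S ({∞} ∪ Mid) {hor P} u₁ (ϖ ^ 12)`. -/
theorem modMN_D1 [Nonempty SS] (hq : q.Prime) (hqM : ¬ q ∣ M₀) (hA : A.LiesOverPrime q)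
    (hAeq : ∀ c c' : Vtx Mid SS, (S c).A = (S c').A)
    (hres : ∀ (c c' : Vtx Mid SS) (x : Qb) (h : x ∈ (S c).A) (h' : x ∈ (S c').A),
      (S c).res ⟨x, h⟩ = (S c').res ⟨x, h'⟩)
    (hindep : ∀ c c' : Vtx Mid SS, c ≠ c' → ¬ (S c).Ov ≤ (S c').Ov)
    (hoo : IsGaussSetup (M₀ * q * q) M₀ A (S (Vtx.vert Vrt.oo)))
    {z : Mid → Qbˣ} {ε : Mid → (↥(modularFunctionFieldBar (M₀ * q * q)) →ₐ[Qb] LaurentSeries Qb)}
    (hε : ∀ m, IsMidExp M₀ q (z m) (ε m))
    (hmid : ∀ m, IsMidSetup M₀ q A (ε m) (S (Vtx.vert (Vrt.mid m))))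
    (hcard : Fintype.card Mid = midCard q)
    (hIg : IntermediateField.relfinrank
      (modularFunctionFieldFullC (IsLocalRing.ResidueField A) M₀)
      (igField (IsLocalRing.ResidueField A) M₀) = midDeg q)
    {ϖ : Qb} (hϖ : ϖ ^ (q + 1) = (q : Qb))
    (H : ∀ P : SS, HPCurve (IsLocalRing.ResidueField A)
      (FkOf (modularFunctionFieldFullC (IsLocalRing.ResidueField A) M₀)
        (fun _ : Mid => ↥(igField (IsLocalRing.ResidueField A) M₀)) FkP (Vtx.hor P)) q)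
    (hx2 : EndsRed2 S H (uF (M₀ * q * q) q (umid_dvd1 M₀ q) /
      algebraMap Qb (FBar (M₀ * q * q)) (ϖ ^ 12)))
    (hmass : (q - 1) * dedekindPsi M₀ ≤ 12 * Fintype.card SS) :
    MNData S (mn1V₁ Mid SS) (mn1V₂ Mid SS) (uF (M₀ * q * q) q (umid_dvd1 M₀ q)) (ϖ ^ 12) := by
  have hx1 : EndsRed1 S H (algebraMap Qb (FBar (M₀ * q * q)) (ϖ ^ 12) /
      uF (M₀ * q * q) q (umid_dvd1 M₀ q)) := by
    have h := hx2.inv
    rwa [inv_div] at h
  exact mn1_data_mod_of_red M₀ q S hq hqM hA hAeq hres hindep hoo hε hmid hcard hIg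
    (modMN_pow_ne hq hϖ _) (modMN_pow_mem hq hA hϖ _)
    (modMN_pow_res hq hA hϖ (by norm_num) _) H hx1 hmass

/-- **`D2`**: `MNData S {hor P} {0} (u₁ / ϖ ^ 12) (q ^ 12 / ϖ ^ 12)`. -/
theorem modMN_D2 [Nonempty SS] (hM : M₀ * q * q = D.Q * D.R) (hR : M₀ = D.R)
    (hQ : q * q = D.Q) (hq : q.Prime) (hqM : ¬ q ∣ M₀) (hA : A.LiesOverPrime q)
    (hAeq : ∀ c c' : Vtx Mid SS, (S c).A = (S c').A)
    (hres : ∀ (c c' : Vtx Mid SS) (x : Qb) (h : x ∈ (S c).A) (h' : x ∈ (S c').A),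
      (S c).res ⟨x, h⟩ = (S c').res ⟨x, h'⟩)
    (hindep : ∀ c c' : Vtx Mid SS, c ≠ c' → ¬ (S c).Ov ≤ (S c').Ov)
    (hoo : IsGaussSetup (M₀ * q * q) M₀ A (S (Vtx.vert Vrt.oo)))
    (hzero : S (Vtx.vert Vrt.zero) = valSetupZeroAt D hM (S (Vtx.vert Vrt.oo)))
    {ϖ : Qb} (hϖ : ϖ ^ (q + 1) = (q : Qb))
    (H : ∀ P : SS, HPCurve (IsLocalRing.ResidueField A)
      (FkOf (modularFunctionFieldFullC (IsLocalRing.ResidueField A) M₀)
        (fun _ : Mid => ↥(igField (IsLocalRing.ResidueField A) M₀)) FkP (Vtx.hor P)) q)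
    (hx2 : EndsRed2 S H (uF (M₀ * q * q) q (umid_dvd1 M₀ q) /
      algebraMap Qb (FBar (M₀ * q * q)) (ϖ ^ 12)))
    (hmass : (q - 1) * dedekindPsi M₀ ≤ 12 * Fintype.card SS) :
    MNData S (mn1V₂ Mid SS) {Vtx.vert Vrt.zero}
      (uF (M₀ * q * q) q (umid_dvd1 M₀ q) / algebraMap Qb (FBar (M₀ * q * q)) (ϖ ^ 12))
      ((q : Qb) ^ 12 / ϖ ^ 12) := by
  have hm : (q : Qb) ^ 12 / ϖ ^ 12 ∈ A := by
    rw [modMN_q12_div hq hϖ]
    exact modMN_pow_mem hq hA hϖ _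
  have hr : IsLocalRing.residue A ⟨(q : Qb) ^ 12 / ϖ ^ 12, hm⟩ = 0 := by
    refine modMN_res_eq_zero hm ?_
    rw [modMN_q12_div hq hϖ]
    exact modMN_pow_inv_notMem hq hA hϖ (Nat.mul_ne_zero (by norm_num) hq.ne_zero)
  exact mn2_data_at_of_red D q S hM hR hQ hq hqM hA hAeq hres hindep hoo hzero (umid_dvd1 M₀ q)
    (modMN_pow_ne hq hϖ _) hm hr H hx2 hmass

/-- **`D2`, with `ϖ₂ = ϖ ^ (12 q)`**. -/
theorem modMN_D2' [Nonempty SS] (hM : M₀ * q * q = D.Q * D.R) (hR : M₀ = D.R)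
    (hQ : q * q = D.Q) (hq : q.Prime) (hqM : ¬ q ∣ M₀) (hA : A.LiesOverPrime q)
    (hAeq : ∀ c c' : Vtx Mid SS, (S c).A = (S c').A)
    (hres : ∀ (c c' : Vtx Mid SS) (x : Qb) (h : x ∈ (S c).A) (h' : x ∈ (S c').A),
      (S c).res ⟨x, h⟩ = (S c').res ⟨x, h'⟩)
    (hindep : ∀ c c' : Vtx Mid SS, c ≠ c' → ¬ (S c).Ov ≤ (S c').Ov)
    (hoo : IsGaussSetup (M₀ * q * q) M₀ A (S (Vtx.vert Vrt.oo)))
    (hzero : S (Vtx.vert Vrt.zero) = valSetupZeroAt D hM (S (Vtx.vert Vrt.oo)))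
    {ϖ : Qb} (hϖ : ϖ ^ (q + 1) = (q : Qb))
    (H : ∀ P : SS, HPCurve (IsLocalRing.ResidueField A)
      (FkOf (modularFunctionFieldFullC (IsLocalRing.ResidueField A) M₀)
        (fun _ : Mid => ↥(igField (IsLocalRing.ResidueField A) M₀)) FkP (Vtx.hor P)) q)
    (hx2 : EndsRed2 S H (uF (M₀ * q * q) q (umid_dvd1 M₀ q) /
      algebraMap Qb (FBar (M₀ * q * q)) (ϖ ^ 12)))
    (hmass : (q - 1) * dedekindPsi M₀ ≤ 12 * Fintype.card SS) :
    MNData S (mn1V₂ Mid SS) {Vtx.vert Vrt.zero}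
      (uF (M₀ * q * q) q (umid_dvd1 M₀ q) / algebraMap Qb (FBar (M₀ * q * q)) (ϖ ^ 12))
      (ϖ ^ (12 * q)) := by
  have h := modMN_D2 D M₀ q S hM hR hQ hq hqM hA hAeq hres hindep hoo hzero hϖ H hx2 hmass
  rwa [modMN_q12_div hq hϖ] at h

end MN

end Fermat.Agent.S36G
end
end MergeWrap_S36_G_ModMN

section MergeWrap_S36_G_ModIndepFinal -- from S36/G/ModIndepFinal.lean

set_option autoImplicit false
set_option linter.style.haveILetI false
set_option linter.unusedSectionVars false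
set_option synthInstance.maxHeartbeats 400000

noncomputable section

namespace Fermat.Agent.S36G

open ModularCurve AlgebraicCurve Fermat.Agent.F3 Fermat.Agent.F3G Fermat.Agent.GaussInt
  Fermat.Agent.AtkinLehner Fermat.Agent.BadRed Fermat.Agent.Deuring Fermat.Agent.Kronecker
  Fermat.Agent.S36N

local notation "Qb" => AlgebraicClosure ℚ

attribute [local instance 10000] SubalgebraClass.toAlgebra HahnSeries.powerSeriesAlgebra

/-- shortcut (the instance found by unification is the same term, after a slow search). -/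
local instance (priority := 10000) modIndepFinalAlgFullC (A : ValuationSubring Qb) (N : ℕ) :
    Algebra (IsLocalRing.ResidueField A)
      (modularFunctionFieldFullC (IsLocalRing.ResidueField A) N) :=
  SubalgebraClass.toAlgebra (modularFunctionFieldFullC (IsLocalRing.ResidueField A) N)

section Final

variable {M₀ q : ℕ} [NeZero M₀] [NeZero q] (hq : q.Prime) (hqM : ¬ q ∣ M₀)
  (haux : AuxLevelOK q M₀)
  (A : ValuationSubring Qb) (hA : A.LiesOverPrime q)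
  {N₂ : ℕ} [NeZero N₂]
  (Soo : ValSetup Qb (FBar (M₀ * q * q)) (IsLocalRing.ResidueField A)
    (modularFunctionFieldFullC (IsLocalRing.ResidueField A) N₂))
  (hoo : IsGaussSetup (M₀ * q * q) N₂ A Soo)
  (D : ALData) (hDQ : D.Q = q ^ 2) (hM : M₀ * q * q = D.Q * D.R)
  {Mid SS : Type}
  {FkM : Mid → Type} [∀ m, Field (FkM m)] [∀ m, Algebra (IsLocalRing.ResidueField A) (FkM m)]
  {FkP : SS → Type} [∀ P, Field (FkP P)] [∀ P, Algebra (IsLocalRing.ResidueField A) (FkP P)]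
  (Sm : ∀ m, ValSetup Qb (FBar (M₀ * q * q)) (IsLocalRing.ResidueField A) (FkM m))
  (z : Mid → Qbˣ)
  (ε : Mid → (↥(modularFunctionFieldBar (M₀ * q * q)) →ₐ[Qb] LaurentSeries Qb))
  (hz : ∀ m, IsPrimitiveRoot (z m) q) (hε : ∀ m, IsMidExp M₀ q (z m) (ε m))
  (hSm : ∀ (m : Mid) (f : FBar (M₀ * q * q)), f ∈ (Sm m).Ov ↔ f ∈ expOv (ε m) A)
  (hAm : ∀ m, (Sm m).A = A)
  (h_m_m : ∀ m m', m ≠ m' → ¬ (Sm m).Ov ≤ (Sm m').Ov)
  {S0r : Fermat.Agent.S18Key.RedSetup Qb (FBar M₀) (IsLocalRing.ResidueField A)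
    ↥(modularFunctionFieldFullC (IsLocalRing.ResidueField A) M₀)}
  (hS0 : IsGaussRed M₀ A S0r)
  (pt : SS → Place (IsLocalRing.ResidueField A)
    ↥(modularFunctionFieldFullC (IsLocalRing.ResidueField A) M₀))
  (hpt : Function.Injective pt)
  (hss : ∀ P, IsSSPlace (IsLocalRing.ResidueField A) M₀ q (pt P))
  (O : ∀ P, WPOut M₀ q A S0r (pt P) (FkP P))

include hA hoo hS0 in
/-- **the pair `(∞, P)`**. -/
theorem modIndep_oo_hor (P : SS) : ¬ Soo.Ov ≤ (O P).S.Ov :=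
  (distFinal_inf_hor (O P) hS0 hA hoo).1

include hq hA hoo hDQ hS0 in
/-- **the pair `(0, P)`**. -/
theorem modIndep_zero_hor (P : SS) : ¬ (valSetupZeroAt D hM Soo).Ov ≤ (O P).S.Ov := by
  haveI : NeZero D.Q := ⟨D.hQ.ne'⟩
  haveI : NeZero D.R := ⟨D.hR.ne'⟩
  haveI : NeZero (D.Q * D.R) := ⟨(Nat.mul_pos D.hQ D.hR).ne'⟩
  exact (distFinal_zero_hor (O P) hS0 hA hoo D hM (modIndep_R_eq hq D hDQ hM).symm).1

include hA hε hSm hAm hS0 in
/-- **the pair `(m, P)`**. -/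
theorem modIndep_mid_hor (m : Mid) (P : SS) : ¬ (Sm m).Ov ≤ (O P).S.Ov :=
  (distFinal_mid_hor (O P) hS0 hA (Sm m) (hAm m) (hε m) (hSm m)).1

include hq hqM haux hA hS0 hpt hss in
/-- **the pair `(P, P')`**. -/
theorem modIndep_hor_hor (P P' : SS) (hne : P ≠ P') : ¬ (O P).S.Ov ≤ (O P').S.Ov :=
  (distFinal_hor_hor hS0 hq hqM haux hA (hss P) (hss P') (fun h => hne (hpt h)) (O P) (O P')).1

include hq hqM haux hA hoo hDQ hz hε hSm hAm h_m_m hS0 hpt hss in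
/-- **`indep` of the modular family**, all pairs. -/
theorem modIndep_final (c c' : Vtx Mid SS) (hne : c ≠ c') :
    ¬ (vtxFamily Soo (valSetupZeroAt D hM Soo) Sm (fun P => (O P).S) c).Ov ≤
      (vtxFamily Soo (valSetupZeroAt D hM Soo) Sm (fun P => (O P).S) c').Ov :=
  modIndep hq hqM A hA Soo hoo D hDQ hM Sm z ε hz hε hSm hAm (fun P => (O P).S)
    (fun P => (O P).A_eq) h_m_m
    (fun P => modIndep_oo_hor A hA Soo hoo hS0 pt O P)
    (fun P => modIndep_zero_hor hq A hA Soo hoo D hDQ hM hS0 pt O P)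
    (fun m P => modIndep_mid_hor A hA Sm z ε hε hSm hAm hS0 pt O m P)
    (fun P P' h => modIndep_hor_hor hq hqM haux A hA hS0 pt hpt hss O P P' h)
    c c' hne

end Final

end Fermat.Agent.S36G
end
end MergeWrap_S36_G_ModIndepFinal

section MergeWrap_S36_Seed_Sep -- from S36/Seed/Sep.lean

set_option autoImplicit false
set_option linter.style.haveILetI false
set_option linter.unusedSectionVars false
set_option linter.unusedVariables false
set_option synthInstance.maxHeartbeats 400000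

noncomputable section

namespace Fermat.Agent.S36G

open ModularCurve AlgebraicCurve Fermat.Agent.GaussInt Fermat.Agent.Deuring
  Fermat.Agent.BadRed Fermat.Agent.BadRedG Fermat.Agent.S24 Fermat.Agent.AtkinLehner
  Fermat.Agent.HPVal

local notation "Qb" => AlgebraicClosure ℚ

/- speed: the two instances which the `Algebra` queries of this file resolve to anyway; tried first,
they cut the elaboration time of the statements by a factor 5 -/
attribute [local instance 10000] SubalgebraClass.toAlgebra HahnSeries.powerSeriesAlgebra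

section Abs

variable (M₀ q : ℕ) [NeZero M₀] [NeZero q] {A : ValuationSubring Qb}
  {Mid SS : Type}
  {FkM : Mid → Type} [∀ m, Field (FkM m)] [∀ m, Algebra (IsLocalRing.ResidueField A) (FkM m)]
  {FkP : SS → Type} [∀ P, Field (FkP P)] [∀ P, Algebra (IsLocalRing.ResidueField A) (FkP P)]
  (S : ∀ c : Vtx Mid SS, ValSetup Qb ↥(modularFunctionFieldBar (M₀ * q * q))
    (IsLocalRing.ResidueField A)
    (FkOf ↥(modularFunctionFieldFullC (IsLocalRing.ResidueField A) M₀) FkM FkP c))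
  (hq : q.Prime) (hA : A.LiesOverPrime q) (hqM : ¬ q ∣ M₀)
  (ssPlace : SS → Place (IsLocalRing.ResidueField A)
    ↥(modularFunctionFieldFullC (IsLocalRing.ResidueField A) M₀))
  (pv : ∀ (_ : SS) (v : Vrt Mid), Place (IsLocalRing.ResidueField A)
    (FkOf ↥(modularFunctionFieldFullC (IsLocalRing.ResidueField A) M₀) FkM FkP (Vtx.vert v)))

/-- **(OLD on the horizontal components)**, the export of W-P used by SEED-SEP: the old function
`g₀ (z)` of a Gauss-integral `g₀` with cuspidal poles is integral at `w_{P'}` and reduces to the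
CONSTANT `ḡ₀ (P')`. -/
def SepHorOld : Prop :=
  ∀ (P' : SS) (g₀ : ↥(modularFunctionFieldBar M₀)),
    g₀ ∈ (modularValSetup A q M₀ hq hA hqM).Ov →
    (∀ v : Place Qb ↥(modularFunctionFieldBar M₀), 0 ≤ v.ord (jBar M₀) → 0 ≤ v.ord g₀) →
    ∀ c : IsLocalRing.ResidueField A,
      ValAt (ssPlace P') ((modularValSetup A q M₀ hq hA hqM).red g₀) c →
      oldFun2 M₀ q g₀ ∈ (S (Vtx.hor P')).Ov ∧
        (S (Vtx.hor P')).red (oldFun2 M₀ q g₀) =
          algebraMap (IsLocalRing.ResidueField A)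
            (FkOf ↥(modularFunctionFieldFullC (IsLocalRing.ResidueField A) M₀) FkM FkP
              (Vtx.hor P')) c

/-- **(OLD on the middle components)**, the export of IG used by SEED-SEP: the old function
`g₀ (z)` of a Gauss-integral `g₀` is integral at `v_m` and its reduction takes at `P_m` the value
of `ḡ₀` at `P`. -/
def SepMidOld : Prop :=
  ∀ (m : Mid) (g₀ : ↥(modularFunctionFieldBar M₀)),
    g₀ ∈ (modularValSetup A q M₀ hq hA hqM).Ov →
    oldFun2 M₀ q g₀ ∈ (S (Vtx.vert (Vrt.mid m))).Ov ∧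
      ∀ (P : SS) (c : IsLocalRing.ResidueField A),
        ValAt (ssPlace P) ((modularValSetup A q M₀ hq hA hqM).red g₀) c →
        ValAt (pv P (Vrt.mid m)) ((S (Vtx.vert (Vrt.mid m))).red (oldFun2 M₀ q g₀)) c

/-- `F_{M₀} ⊆ F_{M₀ q²}` (as fields of series). -/
theorem sep_bar_le : modularFunctionFieldBar M₀ ≤ modularFunctionFieldBar (M₀ * q * q) := by
  intro x hx
  have h := (oldFun2 M₀ q ⟨x, hx⟩).2
  rwa [coe_oldFun2] at h

/-- the poles of an old function of a function with cuspidal poles are zeros or poles of any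
parameter `u` whose zeros and poles contain the cusps. -/
theorem sep_old_poles {u : ↥(modularFunctionFieldBar (M₀ * q * q))}
    (hcusp : ∀ v : Place Qb ↥(modularFunctionFieldBar (M₀ * q * q)),
      v.ord (jBar (M₀ * q * q)) < 0 → v.ord u ≠ 0)
    (g₀ : ↥(modularFunctionFieldBar M₀))
    (h : ∀ v₀ : Place Qb ↥(modularFunctionFieldBar M₀), 0 ≤ v₀.ord (jBar M₀) → 0 ≤ v₀.ord g₀)
    (v : Place Qb ↥(modularFunctionFieldBar (M₀ * q * q)))
    (hv : v.ord (oldFun2 M₀ q g₀) < 0) : v.ord u ≠ 0 := by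
  apply hcusp v
  by_contra hcon
  rw [not_lt] at hcon
  have := ord_oldFun2_nonneg q g₀ h v hcon
  omega

variable {M₀ q S hq hA hqM ssPlace pv}

set_option maxHeartbeats 3200000 in
/-- the separating old function at `P`: all its properties on the modular family. -/
theorem sep_exists_old (haux : AuxLevelOK q M₀)
    (hoo : IsGaussSetup (M₀ * q * q) M₀ A (S (Vtx.vert Vrt.oo)))
    (hss : ∀ P, IsSSPlace (IsLocalRing.ResidueField A) M₀ q (ssPlace P))
    (hinj : Function.Injective ssPlace)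
    (hhor : SepHorOld M₀ q S hq hA hqM ssPlace) (P : SS) :
    ∃ g₀ : ↥(modularFunctionFieldBar M₀),
      g₀ ∈ (modularValSetup A q M₀ hq hA hqM).Ov ∧
      (∀ v : Place Qb ↥(modularFunctionFieldBar M₀), 0 ≤ v.ord (jBar M₀) → 0 ≤ v.ord g₀) ∧
      ValAt (ssPlace P) ((modularValSetup A q M₀ hq hA hqM).red g₀) 1 ∧
      oldFun2 M₀ q g₀ ∈ (S (Vtx.vert Vrt.oo)).Ov ∧
      (S (Vtx.vert Vrt.oo)).red (oldFun2 M₀ q g₀) = (modularValSetup A q M₀ hq hA hqM).red g₀ ∧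
      (∀ P' : SS, oldFun2 M₀ q g₀ ∈ (S (Vtx.hor P')).Ov) ∧
      ∀ P' : SS, P' ≠ P → (S (Vtx.hor P')).red (oldFun2 M₀ q g₀) = 0 := by
  obtain ⟨g₀, h1, h2, h3, h4, h5⟩ := seedOld_exists_delta M₀ hq hqM haux hA (ssPlace P) (hss P)
  have hle := sep_bar_le M₀ q
  have hold : IsOldOf (oldFun2 M₀ q g₀) g₀ := isOldOf_oldFun2 M₀ q g₀
  have h1' := (mem_modularValSetup_Ov_iff A q M₀ hq hA hqM g₀).mp h1
  refine ⟨g₀, h1, h2, h4, isOldOf_mem_gauss hoo hle hold h1',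
    red_isOldOf_gauss hq hA hqM hoo hle hold h1, fun P' => ?_, fun P' hne => ?_⟩
  · by_cases hP : P' = P
    · subst hP
      exact (hhor P' g₀ h1 h2 1 h4).1
    · exact (hhor P' g₀ h1 h2 0 (h5 (ssPlace P') (hss P') (fun e => hP (hinj e)))).1
  · have := (hhor P' g₀ h1 h2 0 (h5 (ssPlace P') (hss P') (fun e => hne (hinj e)))).2
    rw [this, map_zero]

set_option maxHeartbeats 3200000 in
/-- **SEED-SEP (A)**: the field `sepA` of `ModEndsInput`. -/
theorem sep_sepA (haux : AuxLevelOK q M₀)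
    (hoo : IsGaussSetup (M₀ * q * q) M₀ A (S (Vtx.vert Vrt.oo)))
    (hss : ∀ P, IsSSPlace (IsLocalRing.ResidueField A) M₀ q (ssPlace P))
    (hinj : Function.Injective ssPlace)
    (hpv : ∀ P, pv P Vrt.oo = ssPlace P)
    (hhor : SepHorOld M₀ q S hq hA hqM ssPlace)
    {VA₁ VA₂ : Finset (Vtx Mid SS)} (hVA₁ : ∀ c ∈ VA₁, c = Vtx.vert Vrt.oo)
    (hVA₂ : ∀ c ∈ VA₂, ∃ P, c = Vtx.hor P)
    {uA : ↥(modularFunctionFieldBar (M₀ * q * q))}
    (hcuspA : ∀ v : Place Qb ↥(modularFunctionFieldBar (M₀ * q * q)),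
      v.ord (jBar (M₀ * q * q)) < 0 → v.ord uA ≠ 0) :
    ∀ P : SS, ∃ g ∈ ncAdm S VA₁ VA₂ uA,
      ValAt (pv P Vrt.oo) ((S (Vtx.vert Vrt.oo)).red g) 1 ∧
        ∀ P' : SS, P' ≠ P → (S (Vtx.hor P')).red g = 0 := by
  intro P
  obtain ⟨g₀, h1, h2, h4, hmoo, hroo, hmhor, hrhor⟩ :=
    sep_exists_old haux hoo hss hinj hhor P
  refine ⟨oldFun2 M₀ q g₀, ⟨?_, ?_, ?_⟩, ?_, hrhor⟩
  · intro c hc
    rw [hVA₁ c hc]
    exact hmoo
  · intro c hc
    obtain ⟨P', rfl⟩ := hVA₂ c hc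
    exact hmhor P'
  · exact fun v hv => sep_old_poles M₀ q hcuspA g₀ h2 v hv
  · rw [hpv P, hroo]
    exact h4

set_option maxHeartbeats 3200000 in
/-- **SEED-SEP (1)**: the field `sep1` of `ModEndsInput`. -/
theorem sep_sep1 (haux : AuxLevelOK q M₀)
    (hoo : IsGaussSetup (M₀ * q * q) M₀ A (S (Vtx.vert Vrt.oo)))
    (hss : ∀ P, IsSSPlace (IsLocalRing.ResidueField A) M₀ q (ssPlace P))
    (hinj : Function.Injective ssPlace)
    (hhor : SepHorOld M₀ q S hq hA hqM ssPlace)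
    (hmid : SepMidOld M₀ q S hq hA hqM ssPlace pv)
    {VA₁ VA₂ V1₁ V1₂ : Finset (Vtx Mid SS)} (hVA₁ : ∀ c ∈ VA₁, c = Vtx.vert Vrt.oo)
    (hVA₂ : ∀ c ∈ VA₂, ∃ P, c = Vtx.hor P)
    (hV1₁ : ∀ c ∈ V1₁, c = Vtx.vert Vrt.oo ∨ ∃ m, c = Vtx.vert (Vrt.mid m))
    (hV1₂ : ∀ c ∈ V1₂, ∃ P, c = Vtx.hor P)
    {uA u1 : ↥(modularFunctionFieldBar (M₀ * q * q))}
    (hcuspA : ∀ v : Place Qb ↥(modularFunctionFieldBar (M₀ * q * q)),
      v.ord (jBar (M₀ * q * q)) < 0 → v.ord uA ≠ 0)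
    (hcusp1 : ∀ v : Place Qb ↥(modularFunctionFieldBar (M₀ * q * q)),
      v.ord (jBar (M₀ * q * q)) < 0 → v.ord u1 ≠ 0) :
    ∀ (P : SS) (m : Mid), ∃ g ∈ ncAdm S V1₁ V1₂ u1 ∩ ncAdm S VA₁ VA₂ uA,
      ValAt (pv P (Vrt.mid m)) ((S (Vtx.vert (Vrt.mid m))).red g) 1 ∧
        ∀ P' : SS, P' ≠ P → (S (Vtx.hor P')).red g = 0 := by
  intro P m
  obtain ⟨g₀, h1, h2, h4, hmoo, hroo, hmhor, hrhor⟩ :=
    sep_exists_old haux hoo hss hinj hhor P
  refine ⟨oldFun2 M₀ q g₀, ⟨⟨?_, ?_, ?_⟩, ⟨?_, ?_, ?_⟩⟩, ?_, hrhor⟩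
  · intro c hc
    rcases hV1₁ c hc with rfl | ⟨m', rfl⟩
    · exact hmoo
    · exact (hmid m' g₀ h1).1
  · intro c hc
    obtain ⟨P', rfl⟩ := hV1₂ c hc
    exact hmhor P'
  · exact fun v hv => sep_old_poles M₀ q hcusp1 g₀ h2 v hv
  · intro c hc
    rw [hVA₁ c hc]
    exact hmoo
  · intro c hc
    obtain ⟨P', rfl⟩ := hVA₂ c hc
    exact hmhor P'
  · exact fun v hv => sep_old_poles M₀ q hcuspA g₀ h2 v hv
  · exact (hmid m g₀ h1).2 P 1 h4

end Abs

/-! ### the parameters `u₁`, `u₂` -/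

section Cusp

variable (M₀ q : ℕ) [NeZero M₀] [NeZero q]

/-- the cusps are zeros or poles of `u₂`. -/
theorem sep_cusp_uF2 (hq : q.Prime) (h : q * q ∣ M₀ * q * q)
    (v : Place Qb ↥(modularFunctionFieldBar (M₀ * q * q)))
    (hv : v.ord (jBar (M₀ * q * q)) < 0) : v.ord (uF2 (M₀ * q * q) q h) ≠ 0 :=
  (ord_jBar_neg_iff_uF2 (M₀ * q * q) q h hq v).mp hv

/-- the cusps are zeros or poles of `u₁`. -/
theorem sep_cusp_uF (hq : q.Prime) (h : q ∣ M₀ * q * q)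
    (v : Place Qb ↥(modularFunctionFieldBar (M₀ * q * q)))
    (hv : v.ord (jBar (M₀ * q * q)) < 0) : v.ord (uF (M₀ * q * q) q h) ≠ 0 :=
  (ord_jBar_neg_iff_uF hq h v).mp hv

end Cusp

/-! ### the inputs from W-P and IG -/

section Inputs

variable {M₀ q : ℕ} [NeZero M₀] [NeZero q] {A : ValuationSubring Qb}
  {Mid SS : Type}
  {FkP : SS → Type} [∀ P, Field (FkP P)] [∀ P, Algebra (IsLocalRing.ResidueField A) (FkP P)]
  {hq : q.Prime} {hA : A.LiesOverPrime q} {hqM : ¬ q ∣ M₀}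
  {ssPlace : SS → Place (IsLocalRing.ResidueField A)
    ↥(modularFunctionFieldFullC (IsLocalRing.ResidueField A) M₀)}

set_option maxHeartbeats 3200000 in
/-- **`SepHorOld` from W-P**: a family of `WPOut` at the supersingular points, `S (hor P)` the
constant reduction `w_P`. -/
theorem sepHorOld_of_wpOut
    {FkM : Mid → Type} [∀ m, Field (FkM m)] [∀ m, Algebra (IsLocalRing.ResidueField A) (FkM m)]
    {S : ∀ c : Vtx Mid SS, ValSetup Qb ↥(modularFunctionFieldBar (M₀ * q * q))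
      (IsLocalRing.ResidueField A)
      (FkOf ↥(modularFunctionFieldFullC (IsLocalRing.ResidueField A) M₀) FkM FkP c)}
    {S0 : Fermat.Agent.S18Key.RedSetup Qb ↥(modularFunctionFieldBar M₀)
      (IsLocalRing.ResidueField A)
      ↥(modularFunctionFieldFullC (IsLocalRing.ResidueField A) M₀)}
    (hS0 : IsGaussRed M₀ A S0)
    (hss : ∀ P, IsSSPlace (IsLocalRing.ResidueField A) M₀ q (ssPlace P))
    (O : ∀ P', WPOut M₀ q A S0 (ssPlace P') (FkP P'))
    (hSP : ∀ P', S (Vtx.hor P') = (O P').S) :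
    SepHorOld M₀ q S hq hA hqM ssPlace := by
  intro P' g₀ h1 h2 c hc
  have hd : g₀ ∈ discRing S0 (ssPlace P') := hS0.mem_discRing_ss hq hA hqM h1 h2 (hss P')
  have hc' : ValAt (ssPlace P') (S0.red g₀) c := by
    rw [hS0.red_eq hq hA hqM]
    exact hc
  have h := (O P').old0 g₀ hd c hc'
  rw [hSP P']
  exact h

set_option maxHeartbeats 3200000 in
/-- **`SepMidOld` from IG**: `S (mid m)` the constant reduction of a middle expansion, `P_m` a
place of `Fk_m` over `P`. -/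
theorem sepMidOld_of_isMidSetup
    {S : ∀ c : Vtx Mid SS, ValSetup Qb ↥(modularFunctionFieldBar (M₀ * q * q))
      (IsLocalRing.ResidueField A)
      (FkOf ↥(modularFunctionFieldFullC (IsLocalRing.ResidueField A) M₀)
        (fun _ : Mid => ↥(igField (IsLocalRing.ResidueField A) M₀)) FkP c)}
    {pv : ∀ (_ : SS) (v : Vrt Mid), Place (IsLocalRing.ResidueField A)
      (FkOf ↥(modularFunctionFieldFullC (IsLocalRing.ResidueField A) M₀)
        (fun _ : Mid => ↥(igField (IsLocalRing.ResidueField A) M₀)) FkP (Vtx.vert v))}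
    {z : Mid → Qbˣ}
    {ε : Mid → (↥(modularFunctionFieldBar (M₀ * q * q)) →ₐ[Qb] LaurentSeries Qb)}
    (hε : ∀ m, IsMidExp M₀ q (z m) (ε m))
    (hSm : ∀ m, IsMidSetup M₀ q A (ε m) (S (Vtx.vert (Vrt.mid m))))
    (hpvM : ∀ P m, PlaceOver
      (IntermediateField.inclusion (fullC_le_igField (IsLocalRing.ResidueField A) M₀))
      (ssPlace P) (pv P (Vrt.mid m))) :
    SepMidOld M₀ q S hq hA hqM ssPlace pv := by
  intro m g₀ h1
  have hold : IsOldOf (oldFun2 M₀ q g₀) g₀ := isOldOf_oldFun2 M₀ q g₀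
  have h1' := (mem_modularValSetup_Ov_iff A q M₀ hq hA hqM g₀).mp h1
  exact ⟨isOldOf_mem_mid M₀ q (hε m) (hSm m) hold h1', fun P c hc =>
    valAt_red_isOldOf_mid M₀ q hq hA hqM (hε m) (hSm m) hold h1 (hpvM P m) hc⟩

end Inputs

/-! ### everything put together -/

section Mod

variable {M₀ q : ℕ} [NeZero M₀] [NeZero q] {A : ValuationSubring Qb}
  {Mid SS : Type} [Fintype Mid] [Fintype SS]
  {FkP : SS → Type} [∀ P, Field (FkP P)] [∀ P, Algebra (IsLocalRing.ResidueField A) (FkP P)]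
  {S : ∀ c : Vtx Mid SS, ValSetup Qb ↥(modularFunctionFieldBar (M₀ * q * q))
    (IsLocalRing.ResidueField A)
    (FkOf ↥(modularFunctionFieldFullC (IsLocalRing.ResidueField A) M₀)
      (fun _ : Mid => ↥(igField (IsLocalRing.ResidueField A) M₀)) FkP c)}
  {pv : ∀ (_ : SS) (v : Vrt Mid), Place (IsLocalRing.ResidueField A)
    (FkOf ↥(modularFunctionFieldFullC (IsLocalRing.ResidueField A) M₀)
      (fun _ : Mid => ↥(igField (IsLocalRing.ResidueField A) M₀)) FkP (Vtx.vert v))}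
  {ssPlace : SS → Place (IsLocalRing.ResidueField A)
    ↥(modularFunctionFieldFullC (IsLocalRing.ResidueField A) M₀)}
  {S0 : Fermat.Agent.S18Key.RedSetup Qb ↥(modularFunctionFieldBar M₀)
    (IsLocalRing.ResidueField A)
    ↥(modularFunctionFieldFullC (IsLocalRing.ResidueField A) M₀)}

set_option maxHeartbeats 3200000 in
/-- **SEED-SEP (A), modular**: `sepA` for `uA = u₂`, `VA₁ = {∞}`, `VA₂ = {hor P}`, from W-P. -/
theorem sep_sepA_mod (hq : q.Prime) (hA : A.LiesOverPrime q) (hqM : ¬ q ∣ M₀)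
    (haux : AuxLevelOK q M₀)
    (hoo : IsGaussSetup (M₀ * q * q) M₀ A (S (Vtx.vert Vrt.oo)))
    (hss : ∀ P, IsSSPlace (IsLocalRing.ResidueField A) M₀ q (ssPlace P))
    (hinj : Function.Injective ssPlace)
    (hpv : ∀ P, pv P Vrt.oo = ssPlace P)
    (hS0 : IsGaussRed M₀ A S0)
    (O : ∀ P', WPOut M₀ q A S0 (ssPlace P') (FkP P'))
    (hSP : ∀ P', S (Vtx.hor P') = (O P').S)
    (h : q * q ∣ M₀ * q * q) :
    ∀ P : SS, ∃ g ∈ ncAdm S {Vtx.vert Vrt.oo} (mn1V₂ Mid SS) (uF2 (M₀ * q * q) q h),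
      ValAt (pv P Vrt.oo) ((S (Vtx.vert Vrt.oo)).red g) 1 ∧
        ∀ P' : SS, P' ≠ P → (S (Vtx.hor P')).red g = 0 :=
  sep_sepA (hq := hq) (hA := hA) (hqM := hqM) haux hoo hss hinj hpv
    (sepHorOld_of_wpOut hS0 hss O hSP)
    (fun c hc => Finset.mem_singleton.mp hc) (fun c hc => mem_mn1V₂.mp hc)
    (sep_cusp_uF2 M₀ q hq h)

set_option maxHeartbeats 3200000 in
/-- **SEED-SEP (1), modular**: `sep1` for `u1 = u₁`, `uA = u₂`, `V1₁ = {∞} ∪ Mid`,
`V1₂ = VA₂ = {hor P}`, `VA₁ = {∞}`, from W-P and IG. -/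
theorem sep_sep1_mod (hq : q.Prime) (hA : A.LiesOverPrime q) (hqM : ¬ q ∣ M₀)
    (haux : AuxLevelOK q M₀)
    (hoo : IsGaussSetup (M₀ * q * q) M₀ A (S (Vtx.vert Vrt.oo)))
    (hss : ∀ P, IsSSPlace (IsLocalRing.ResidueField A) M₀ q (ssPlace P))
    (hinj : Function.Injective ssPlace)
    (hS0 : IsGaussRed M₀ A S0)
    (O : ∀ P', WPOut M₀ q A S0 (ssPlace P') (FkP P'))
    (hSP : ∀ P', S (Vtx.hor P') = (O P').S)
    {z : Mid → Qbˣ}
    {ε : Mid → (↥(modularFunctionFieldBar (M₀ * q * q)) →ₐ[Qb] LaurentSeries Qb)}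
    (hε : ∀ m, IsMidExp M₀ q (z m) (ε m))
    (hSm : ∀ m, IsMidSetup M₀ q A (ε m) (S (Vtx.vert (Vrt.mid m))))
    (hpvM : ∀ P m, PlaceOver
      (IntermediateField.inclusion (fullC_le_igField (IsLocalRing.ResidueField A) M₀))
      (ssPlace P) (pv P (Vrt.mid m)))
    (h1 : q ∣ M₀ * q * q) (h2 : q * q ∣ M₀ * q * q) :
    ∀ (P : SS) (m : Mid),
      ∃ g ∈ ncAdm S (mn1V₁ Mid SS) (mn1V₂ Mid SS) (uF (M₀ * q * q) q h1) ∩
          ncAdm S {Vtx.vert Vrt.oo} (mn1V₂ Mid SS) (uF2 (M₀ * q * q) q h2),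
        ValAt (pv P (Vrt.mid m)) ((S (Vtx.vert (Vrt.mid m))).red g) 1 ∧
          ∀ P' : SS, P' ≠ P → (S (Vtx.hor P')).red g = 0 :=
  sep_sep1 (hq := hq) (hA := hA) (hqM := hqM) haux hoo hss hinj
    (sepHorOld_of_wpOut hS0 hss O hSP) (sepMidOld_of_isMidSetup hε hSm hpvM)
    (fun c hc => Finset.mem_singleton.mp hc) (fun c hc => mem_mn1V₂.mp hc)
    (fun c hc => mem_mn1V₁.mp hc) (fun c hc => mem_mn1V₂.mp hc)
    (sep_cusp_uF2 M₀ q hq h2) (sep_cusp_uF M₀ q hq h1)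

end Mod

end Fermat.Agent.S36G
end
end MergeWrap_S36_Seed_Sep

section MergeWrap_S36_Seed_Sep2 -- from S36/Seed/Sep2.lean

set_option autoImplicit false
set_option linter.style.haveILetI false
set_option linter.unusedSectionVars false
set_option synthInstance.maxHeartbeats 400000

noncomputable section

namespace Fermat.Agent.S36G

open ModularCurve AlgebraicCurve Fermat.Agent.GaussInt Fermat.Agent.Deuring
  Fermat.Agent.BadRed Fermat.Agent.F3G Fermat.Agent.S24 Fermat.Agent.AtkinLehner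
  Fermat.Agent.F3 Fermat.Agent.Kronecker Fermat.Agent.BadRedG

local notation "Qb" => AlgebraicClosure ℚ

attribute [local instance 10000] SubalgebraClass.toAlgebra HahnSeries.powerSeriesAlgebra

section Core

variable {N M₀ : ℕ} [NeZero N] [NeZero M₀] {A : ValuationSubring Qb}
  {q : ℕ} (hq : q.Prime) (hA : A.LiesOverPrime q) (hqM : ¬ q ∣ M₀)

/-- **(WP-OLD)** in the shape used by `sep2`: the old functions `ι g₀`, `g₀` Gauss-integral with
CUSPIDAL poles, are integral for `w_P` (`P = ssPl i`), with reduction the constant `ḡ₀ (P)`. -/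
def Sep2Old {SS : Type} {FkP : SS → Type} [∀ P, Field (FkP P)]
    [∀ P, Algebra (IsLocalRing.ResidueField A) (FkP P)]
    (ι : ↥(modularFunctionFieldBar M₀) →+* FBar N)
    (ssPl : SS → Place (IsLocalRing.ResidueField A)
      ↥(modularFunctionFieldFullC (IsLocalRing.ResidueField A) M₀))
    (SP : ∀ P : SS, ValSetup Qb (FBar N) (IsLocalRing.ResidueField A) (FkP P)) : Prop :=
  ∀ (P : SS) (g₀ : ↥(modularFunctionFieldBar M₀)),
    g₀ ∈ (modularValSetup A q M₀ hq hA hqM).Ov →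
    (∀ v : Place Qb ↥(modularFunctionFieldBar M₀), 0 ≤ v.ord (jBar M₀) → 0 ≤ v.ord g₀) →
    ∀ c : IsLocalRing.ResidueField A,
      ValAt (ssPl P) ((modularValSetup A q M₀ hq hA hqM).red g₀) c →
        ι g₀ ∈ (SP P).Ov ∧ (SP P).red (ι g₀) = algebraMap (IsLocalRing.ResidueField A) (FkP P) c

/-- the value of `red_0` of an old function at a SUPERSINGULAR place `P` is `ḡ₀ (P)`
(`Q = q ^ 2`, `Frob²` fixes `P`). -/
theorem sep2_valAt_zero (haux : AuxLevelOK q M₀)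
    {S : ValSetup Qb (FBar N) (IsLocalRing.ResidueField A)
      (modularFunctionFieldFullC (IsLocalRing.ResidueField A) M₀)}
    (hS : IsGaussSetup N M₀ A S) (W : FBar N ≃ₐ[Qb] FBar N) (Q : ℕ) [NeZero Q]
    (hQe : Q = q ^ 2)
    (hQ : ∀ x ∈ modularFunctionFieldBar M₀, qExpand Qb Q x ∈ modularFunctionFieldBar N)
    {g : FBar N} {g₀ : ↥(modularFunctionFieldBar M₀)} (hW : IsOldTwist W Q g g₀)
    (hg₀ : g₀ ∈ (modularValSetup A q M₀ hq hA hqM).Ov)
    {P : Place (IsLocalRing.ResidueField A)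
      ↥(modularFunctionFieldFullC (IsLocalRing.ResidueField A) M₀)}
    (hP : IsSSPlace (IsLocalRing.ResidueField A) M₀ q P) (c : IsLocalRing.ResidueField A) :
    ValAt P ((comapEquiv S W).red g) c ↔
      ValAt P ((modularValSetup A q M₀ hq hA hqM).red g₀) c := by
  haveI : Fact q.Prime := ⟨hq⟩
  haveI : CharP (IsLocalRing.ResidueField A) q := Fermat.Agent.FrobTrace.charP_residueField A hA
  haveI : IsAlgClosed (IsLocalRing.ResidueField A) := Fermat.Agent.GaussInt.isAlgClosed_residue A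
  haveI : PerfectRing (IsLocalRing.ResidueField A) q := inferInstance
  rw [valAt_red_zero_isOldTwist hq hA hqM hS W Q hQe hQ hW hg₀ P c]
  have h2 : (frobAut (IsLocalRing.ResidueField A) M₀ q ^ 2) • P = P := by
    rw [pow_two]
    exact ssFrob_sq_smul hq (Nat.pos_of_ne_zero (NeZero.ne M₀)) hqM haux A hA P hP
  rw [h2]

variable {SS : Type} {FkP : SS → Type} [∀ P, Field (FkP P)]
  [∀ P, Algebra (IsLocalRing.ResidueField A) (FkP P)]

/-- **`sep2`, the function**: for every supersingular `P = ssPl i` an old function `g = ι g₀`,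
integral at `v_0 = v_∞ ∘ W` and at all the `w_{P'}`, with poles at the cusps only, with value `1`
at the place `P` of `v_0` and reduction `0` on the `H_{P'}`, `P' ≠ P`. -/
theorem sep2_core (haux : AuxLevelOK q M₀)
    {S : ValSetup Qb (FBar N) (IsLocalRing.ResidueField A)
      (modularFunctionFieldFullC (IsLocalRing.ResidueField A) M₀)}
    (hS : IsGaussSetup N M₀ A S) (W : FBar N ≃ₐ[Qb] FBar N) (Q : ℕ) [NeZero Q]
    (hQe : Q = q ^ 2)
    (hQ : ∀ x ∈ modularFunctionFieldBar M₀, qExpand Qb Q x ∈ modularFunctionFieldBar N)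
    (hle : modularFunctionFieldBar M₀ ≤ modularFunctionFieldBar N)
    (ι : ↥(modularFunctionFieldBar M₀) →+* FBar N)
    (hι : ∀ g₀, IsOldOf (ι g₀) g₀) (hW : ∀ g₀, IsOldTwist W Q (ι g₀) g₀)
    (ssPl : SS → Place (IsLocalRing.ResidueField A)
      ↥(modularFunctionFieldFullC (IsLocalRing.ResidueField A) M₀))
    (hss : ∀ P, IsSSPlace (IsLocalRing.ResidueField A) M₀ q (ssPl P))
    (hinj : Function.Injective ssPl)
    (SP : ∀ P : SS, ValSetup Qb (FBar N) (IsLocalRing.ResidueField A) (FkP P))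
    (hold : Sep2Old hq hA hqM ι ssPl SP) (P : SS) :
    ∃ g : FBar N, g ∈ (comapEquiv S W).Ov ∧ (∀ P' : SS, g ∈ (SP P').Ov) ∧
      (∀ v : Place Qb (FBar N), v.ord g < 0 → v.ord (jBar N) < 0) ∧
      ValAt (ssPl P) ((comapEquiv S W).red g) 1 ∧
      ∀ P' : SS, P' ≠ P → (SP P').red g = 0 := by
  obtain ⟨g₀, h1, h2, -, h4, h5⟩ := seedOld_exists_delta M₀ hq hqM haux hA (ssPl P) (hss P)
  have hg₀' := (mem_modularValSetup_Ov_iff A q M₀ hq hA hqM g₀).mp h1
  refine ⟨ι g₀, isOldTwist_mem_zero hS W Q hQ (hW g₀) hg₀', fun P' => ?_, fun v hv => ?_, ?_,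
    fun P' hne => ?_⟩
  · -- integral at `w_{P'}`
    by_cases hP' : P' = P
    · subst hP'
      exact (hold P' g₀ h1 h2 1 h4).1
    · exact (hold P' g₀ h1 h2 0 (h5 (ssPl P') (hss P') fun h => hP' (hinj h))).1
  · -- poles at the cusps
    by_contra hj
    rw [not_lt] at hj
    exact absurd (ord_isOldOf_nonneg hle (hι g₀) h2 v hj) (not_le.mpr hv)
  · -- value `1` at `P` on `v_0`
    exact (sep2_valAt_zero hq hA hqM haux hS W Q hQe hQ (hW g₀) h1 (hss P) 1).mpr h4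
  · -- reduction `0` on `H_{P'}`
    have h := (hold P' g₀ h1 h2 0 (h5 (ssPl P') (hss P') fun h => hne (hinj h))).2
    rw [h, map_zero]

end Core

/-! ### the field `sep2` of `ModEndsInput` -/

section Family

variable {N M₀ : ℕ} [NeZero N] [NeZero M₀] {A : ValuationSubring Qb}
  {q : ℕ} (hq : q.Prime) (hA : A.LiesOverPrime q) (hqM : ¬ q ∣ M₀)
  {Mid SS : Type}
  {FkM : Mid → Type} [∀ m, Field (FkM m)] [∀ m, Algebra (IsLocalRing.ResidueField A) (FkM m)]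
  {FkP : SS → Type} [∀ P, Field (FkP P)] [∀ P, Algebra (IsLocalRing.ResidueField A) (FkP P)]

/-- **`sep2`** for a family `S` on the vertices `Vtx Mid SS`: `S (vert ∞)` a Gauss setup,
`S (vert 0) = comapEquiv (S (vert ∞)) W`, (WP-OLD) on the `S (hor P)`; `V₁ ⊆ {hor P}`,
`V₂ ⊆ {vert 0}`, and `u` has a zero or a pole at every cusp. -/
theorem sep2_ncAdm (haux : AuxLevelOK q M₀)
    (S : ∀ c : Vtx Mid SS, ValSetup Qb (FBar N) (IsLocalRing.ResidueField A)
      (FkOf (modularFunctionFieldFullC (IsLocalRing.ResidueField A) M₀) FkM FkP c))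
    (hoo : IsGaussSetup N M₀ A (S (Vtx.vert Vrt.oo)))
    (W : FBar N ≃ₐ[Qb] FBar N)
    (hzero : S (Vtx.vert Vrt.zero) = comapEquiv (S (Vtx.vert Vrt.oo)) W)
    (Q : ℕ) [NeZero Q] (hQe : Q = q ^ 2)
    (hQ : ∀ x ∈ modularFunctionFieldBar M₀, qExpand Qb Q x ∈ modularFunctionFieldBar N)
    (hle : modularFunctionFieldBar M₀ ≤ modularFunctionFieldBar N)
    (ι : ↥(modularFunctionFieldBar M₀) →+* FBar N)
    (hι : ∀ g₀, IsOldOf (ι g₀) g₀) (hW : ∀ g₀, IsOldTwist W Q (ι g₀) g₀)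
    (ssPl : SS → Place (IsLocalRing.ResidueField A)
      ↥(modularFunctionFieldFullC (IsLocalRing.ResidueField A) M₀))
    (hss : ∀ P, IsSSPlace (IsLocalRing.ResidueField A) M₀ q (ssPl P))
    (hinj : Function.Injective ssPl)
    (hold : Sep2Old hq hA hqM ι ssPl (fun P => S (Vtx.hor P)))
    (V₁ V₂ : Finset (Vtx Mid SS)) (hV₁ : ∀ c ∈ V₁, ∃ P, c = Vtx.hor P)
    (hV₂ : ∀ c ∈ V₂, c = Vtx.vert Vrt.zero)
    (u : FBar N) (hu : ∀ v : Place Qb (FBar N), v.ord (jBar N) < 0 → v.ord u ≠ 0) (P : SS) :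
    ∃ g ∈ ncAdm S V₁ V₂ u,
      ValAt (ssPl P) ((S (Vtx.vert Vrt.zero)).red g) 1 ∧
        ∀ P' : SS, P' ≠ P → (S (Vtx.hor P')).red g = 0 := by
  obtain ⟨g, h1, h2, h3, h4, h5⟩ := sep2_core hq hA hqM haux hoo W Q hQe hQ hle ι hι hW ssPl hss
    hinj (fun P => S (Vtx.hor P)) hold P
  refine ⟨g, ⟨?_, ?_, fun v hv => hu v (h3 v hv)⟩, ?_, h5⟩
  · intro c hc
    obtain ⟨P', rfl⟩ := hV₁ c hc
    exact h2 P'
  · intro c hc
    rw [hV₂ c hc, hzero]
    exact h1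
  · rw [hzero]
    exact h4

end Family

/-! ### the modular instance at the level `M₀ * q * q` -/

section Mod

/-- `u₁ / ϖ₁` (the parameter of the node theorem (2)) has a zero or a pole at every cusp. -/
theorem sep2_cusp_div {N q : ℕ} [NeZero N] [NeZero q] (hq : q.Prime) (hN : q ∣ N) {ϖ₁ : Qb}
    (hϖ : ϖ₁ ≠ 0) (v : Place Qb (FBar N)) (hv : v.ord (jBar N) < 0) :
    v.ord (uF N q hN / algebraMap Qb (FBar N) ϖ₁) ≠ 0 :=
  (cusp_ord_div_const_ne_zero_iff v (uF_ne_zero N q hN) hϖ).mpr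
    ((ord_jBar_neg_iff_uF hq hN v).mp hv)

variable {M₀ q : ℕ} [NeZero M₀] [NeZero q] {A : ValuationSubring Qb}
  (hq : q.Prime) (hA : A.LiesOverPrime q) (hqM : ¬ q ∣ M₀)
  {Mid SS : Type}
  {FkM : Mid → Type} [∀ m, Field (FkM m)] [∀ m, Algebra (IsLocalRing.ResidueField A) (FkM m)]
  {FkP : SS → Type} [∀ P, Field (FkP P)] [∀ P, Algebra (IsLocalRing.ResidueField A) (FkP P)]

/-- `F_{M₀} ≤ F_{M₀ q q}`. -/
theorem sep2_le_level (M₀ q : ℕ) [NeZero M₀] [NeZero q] :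
    modularFunctionFieldBar M₀ ≤ modularFunctionFieldBar (M₀ * q * q) := by
  intro x hx
  have h := (oldFun2 M₀ q ⟨x, hx⟩).2
  rwa [coe_oldFun2] at h

/-- **the field `sep2` of `ModEndsInput`** at the level `M₀ * q * q`: `g = oldFun2 M₀ q g₀`
(`= wpIota0 M₀ q g₀`), `S (vert 0) = valSetupZeroAt D hM (S (vert ∞))` with `D.Q = q ^ 2`,
`D.R = M₀`, and `u = u₁ / ϖ₁`.  The only named input is (WP-OLD) for `ι₀` (`WPOut.old0`). -/
theorem sep2_mod (haux : AuxLevelOK q M₀)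
    (D : ALData) [NeZero D.Q] (hM : M₀ * q * q = D.Q * D.R) (hR : M₀ = D.R) (hQe : D.Q = q ^ 2)
    (S : ∀ c : Vtx Mid SS, ValSetup Qb (FBar (M₀ * q * q)) (IsLocalRing.ResidueField A)
      (FkOf (modularFunctionFieldFullC (IsLocalRing.ResidueField A) M₀) FkM FkP c))
    (hoo : IsGaussSetup (M₀ * q * q) M₀ A (S (Vtx.vert Vrt.oo)))
    (hzero : S (Vtx.vert Vrt.zero) = valSetupZeroAt D hM (S (Vtx.vert Vrt.oo)))
    (ssPl : SS → Place (IsLocalRing.ResidueField A)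
      ↥(modularFunctionFieldFullC (IsLocalRing.ResidueField A) M₀))
    (hss : ∀ P, IsSSPlace (IsLocalRing.ResidueField A) M₀ q (ssPl P))
    (hinj : Function.Injective ssPl)
    (hold : Sep2Old hq hA hqM ((oldFun2Hom M₀ q : ↥(modularFunctionFieldBar M₀) →ₐ[Qb]
      ↥(modularFunctionFieldBar (M₀ * q * q))) : ↥(modularFunctionFieldBar M₀) →+*
        FBar (M₀ * q * q)) ssPl (fun P => S (Vtx.hor P)))
    (V₁ V₂ : Finset (Vtx Mid SS)) (hV₁ : ∀ c ∈ V₁, ∃ P, c = Vtx.hor P)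
    (hV₂ : ∀ c ∈ V₂, c = Vtx.vert Vrt.zero)
    (hN : q ∣ M₀ * q * q) {ϖ₁ : Qb} (hϖ : ϖ₁ ≠ 0) (P : SS) :
    ∃ g ∈ ncAdm S V₁ V₂
        (uF (M₀ * q * q) q hN / algebraMap Qb (FBar (M₀ * q * q)) ϖ₁),
      ValAt (ssPl P) ((S (Vtx.vert Vrt.zero)).red g) 1 ∧
        ∀ P' : SS, P' ≠ P → (S (Vtx.hor P')).red g = 0 := by
  haveI : NeZero D.R := ⟨by rw [← hR]; exact NeZero.ne M₀⟩
  exact sep2_ncAdm hq hA hqM haux S hoo (wAt D hM) hzero D.Q hQe
    (qExpand_mem_of_level_eq D hM hR) (sep2_le_level M₀ q)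
    ((oldFun2Hom M₀ q : ↥(modularFunctionFieldBar M₀) →ₐ[Qb]
      ↥(modularFunctionFieldBar (M₀ * q * q))) : ↥(modularFunctionFieldBar M₀) →+*
        FBar (M₀ * q * q))
    (fun g₀ => isOldOf_oldFun2 M₀ q g₀)
    (fun g₀ => isOldTwist_wAt D hM hR (isOldOf_oldFun2 M₀ q g₀))
    ssPl hss hinj hold V₁ V₂ hV₁ hV₂ _ (fun v hv => sep2_cusp_div hq hN hϖ v hv) P

end Mod

end Fermat.Agent.S36G
end
end MergeWrap_S36_Seed_Sep2

section MergeWrap_S36_Seed_Sep2Mod -- from S36/Seed/Sep2Mod.lean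

set_option autoImplicit false
set_option linter.style.haveILetI false
set_option linter.unusedSectionVars false
set_option synthInstance.maxHeartbeats 400000

noncomputable section

namespace Fermat.Agent.S36G

open ModularCurve AlgebraicCurve Fermat.Agent.GaussInt Fermat.Agent.Deuring
  Fermat.Agent.BadRed Fermat.Agent.F3G Fermat.Agent.S24 Fermat.Agent.AtkinLehner
  Fermat.Agent.F3 Fermat.Agent.Kronecker Fermat.Agent.BadRedG Fermat.Agent.HPVal

local notation "Qb" => AlgebraicClosure ℚ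

attribute [local instance 10000] SubalgebraClass.toAlgebra HahnSeries.powerSeriesAlgebra

variable {M₀ q : ℕ} [NeZero M₀] [NeZero q] {A : ValuationSubring Qb}
  {Mid SS : Type} [Fintype SS]
  {FkM : Mid → Type} [∀ m, Field (FkM m)] [∀ m, Algebra (IsLocalRing.ResidueField A) (FkM m)]
  {FkP : SS → Type} [∀ P, Field (FkP P)] [∀ P, Algebra (IsLocalRing.ResidueField A) (FkP P)]
  {S : ∀ c : Vtx Mid SS, ValSetup Qb (FBar (M₀ * q * q)) (IsLocalRing.ResidueField A)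
    (FkOf ↥(modularFunctionFieldFullC (IsLocalRing.ResidueField A) M₀) FkM FkP c)}
  {ssPlace : SS → Place (IsLocalRing.ResidueField A)
    ↥(modularFunctionFieldFullC (IsLocalRing.ResidueField A) M₀)}

set_option maxHeartbeats 3200000 in
/-- helper70's `SepHorOld` is `Sep2Old` for the old functions `oldFun2 M₀ q g₀`. -/
theorem sep2Old_of_sepHorOld {hq : q.Prime} {hA : A.LiesOverPrime q} {hqM : ¬ q ∣ M₀}
    (h : SepHorOld M₀ q S hq hA hqM ssPlace) :
    Sep2Old hq hA hqM ((oldFun2Hom M₀ q : ↥(modularFunctionFieldBar M₀) →ₐ[Qb]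
      ↥(modularFunctionFieldBar (M₀ * q * q))) : ↥(modularFunctionFieldBar M₀) →+*
        FBar (M₀ * q * q)) ssPlace (fun P => S (Vtx.hor P)) := by
  intro P g₀ h1 h2 c hc
  exact h P g₀ h1 h2 c hc

set_option maxHeartbeats 3200000 in
/-- **the field `sep2`** from `SepHorOld`. -/
theorem sep2_of_sepHorOld (hq : q.Prime) (hA : A.LiesOverPrime q) (hqM : ¬ q ∣ M₀)
    (haux : AuxLevelOK q M₀)
    (D : ALData) [NeZero D.Q] (hM : M₀ * q * q = D.Q * D.R) (hR : M₀ = D.R) (hQe : D.Q = q ^ 2)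
    (hoo : IsGaussSetup (M₀ * q * q) M₀ A (S (Vtx.vert Vrt.oo)))
    (hzero : S (Vtx.vert Vrt.zero) = valSetupZeroAt D hM (S (Vtx.vert Vrt.oo)))
    (hss : ∀ P, IsSSPlace (IsLocalRing.ResidueField A) M₀ q (ssPlace P))
    (hinj : Function.Injective ssPlace)
    (pv : ∀ (_ : SS) (v : Vrt Mid), Place (IsLocalRing.ResidueField A)
      (FkOf ↥(modularFunctionFieldFullC (IsLocalRing.ResidueField A) M₀) FkM FkP (Vtx.vert v)))
    (hpv : ∀ P, pv P Vrt.zero = ssPlace P)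
    (hhor : SepHorOld M₀ q S hq hA hqM ssPlace)
    (hN : q ∣ M₀ * q * q) {ϖ₁ : Qb} (hϖ : ϖ₁ ≠ 0) :
    ∀ P : SS, ∃ g ∈ ncAdm S (mn1V₂ Mid SS) {Vtx.vert Vrt.zero}
        (uF (M₀ * q * q) q hN / algebraMap Qb (FBar (M₀ * q * q)) ϖ₁),
      ValAt (pv P Vrt.zero) ((S (Vtx.vert Vrt.zero)).red g) 1 ∧
        ∀ P' : SS, P' ≠ P → (S (Vtx.hor P')).red g = 0 := by
  intro P
  rw [hpv P]
  exact sep2_mod hq hA hqM haux D hM hR hQe S hoo hzero ssPlace hss hinj
    (sep2Old_of_sepHorOld hhor) (mn1V₂ Mid SS) {Vtx.vert Vrt.zero}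
    (fun c hc => mem_mn1V₂.mp hc) (fun c hc => Finset.mem_singleton.mp hc) hN hϖ P

set_option maxHeartbeats 3200000 in
/-- **SEED-SEP (2), modular**: `sep2` for `u2 = u₁ / ϖ₁`, `V2₁ = {hor P}`, `V2₂ = {vert 0}`,
from W-P. -/
theorem sep2_mod_wp (hq : q.Prime) (hA : A.LiesOverPrime q) (hqM : ¬ q ∣ M₀)
    (haux : AuxLevelOK q M₀)
    (D : ALData) [NeZero D.Q] (hM : M₀ * q * q = D.Q * D.R) (hR : M₀ = D.R) (hQe : D.Q = q ^ 2)
    (hoo : IsGaussSetup (M₀ * q * q) M₀ A (S (Vtx.vert Vrt.oo)))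
    (hzero : S (Vtx.vert Vrt.zero) = valSetupZeroAt D hM (S (Vtx.vert Vrt.oo)))
    (hss : ∀ P, IsSSPlace (IsLocalRing.ResidueField A) M₀ q (ssPlace P))
    (hinj : Function.Injective ssPlace)
    (pv : ∀ (_ : SS) (v : Vrt Mid), Place (IsLocalRing.ResidueField A)
      (FkOf ↥(modularFunctionFieldFullC (IsLocalRing.ResidueField A) M₀) FkM FkP (Vtx.vert v)))
    (hpv : ∀ P, pv P Vrt.zero = ssPlace P)
    {S0 : Fermat.Agent.S18Key.RedSetup Qb ↥(modularFunctionFieldBar M₀)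
      (IsLocalRing.ResidueField A)
      ↥(modularFunctionFieldFullC (IsLocalRing.ResidueField A) M₀)}
    (hS0 : IsGaussRed M₀ A S0)
    (O : ∀ P', WPOut M₀ q A S0 (ssPlace P') (FkP P'))
    (hSP : ∀ P', S (Vtx.hor P') = (O P').S)
    (hN : q ∣ M₀ * q * q) {ϖ₁ : Qb} (hϖ : ϖ₁ ≠ 0) :
    ∀ P : SS, ∃ g ∈ ncAdm S (mn1V₂ Mid SS) {Vtx.vert Vrt.zero}
        (uF (M₀ * q * q) q hN / algebraMap Qb (FBar (M₀ * q * q)) ϖ₁),
      ValAt (pv P Vrt.zero) ((S (Vtx.vert Vrt.zero)).red g) 1 ∧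
        ∀ P' : SS, P' ≠ P → (S (Vtx.hor P')).red g = 0 :=
  sep2_of_sepHorOld hq hA hqM haux D hM hR hQe hoo hzero hss hinj pv hpv
    (sepHorOld_of_wpOut (hq := hq) (hA := hA) (hqM := hqM) hS0 hss O hSP) hN hϖ

end Fermat.Agent.S36G
end
end MergeWrap_S36_Seed_Sep2Mod

section MergeWrap_S36_Seed_MidPtBridge -- from S36/Seed/MidPtBridge.lean

set_option autoImplicit false
set_option linter.style.haveILetI false
set_option linter.unusedSectionVars false
set_option linter.unusedVariables false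
set_option synthInstance.maxHeartbeats 400000

noncomputable section

namespace Fermat.Agent.S36G

open ModularCurve AlgebraicCurve Fermat.Agent.BadRed Fermat.Agent.RR

section Abs

variable {K E F : Type*} [Field K] [Field E] [Field F] [Algebra K E] [Algebra K F]

/-- restriction form ⟹ `PlaceOver`. -/
theorem seedBr_placeOver_of_restrict (φ : E →ₐ[K] F) (hφ : φ.toRingHom.IsIntegral)
    {P : Place K E} {Q : Place K F} (h : Q.restrictAlong φ hφ = P) : PlaceOver φ P Q :=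
  fun x hx => (Fermat.Agent.RRRel.ord_map_pos_iff φ hφ Q x).mpr (h ▸ hx)

/-- the restriction of `Q` lies under `Q`. -/
theorem seedBr_placeOver_restrict (φ : E →ₐ[K] F) (hφ : φ.toRingHom.IsIntegral)
    (Q : Place K F) : PlaceOver φ (Q.restrictAlong φ hφ) Q :=
  seedBr_placeOver_of_restrict φ hφ rfl

end Abs

section Mod

variable (M₀ q : ℕ) (hq : q.Prime) (hqM : ¬ q ∣ M₀) (k : Type) [Field k] [IsAlgClosed k]
  [CharP k q]

/-- `sevMidPt P` lies over `P`. -/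
theorem seedBr_sevMidPt_placeOver (P : Place k ↥(modularFunctionFieldFullC k M₀)) :
    PlaceOver (IntermediateField.inclusion (fullC_le_igField k M₀)) P
      (sevMidPt M₀ q hq hqM k P) :=
  seedBr_placeOver_of_restrict (igIncl k M₀) (sev_isIntegral M₀ q hq k)
    (sev_restrict_midPt M₀ q hq hqM k P)

/-- **`hpvM` of `sep_sep1_mod` for `pv := sevPv`.** -/
theorem seedBr_sevPv_placeOver {Mid SS : Type}
    (FkP : SS → Type) [∀ P, Field (FkP P)] [∀ P, Algebra k (FkP P)]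
    (ι : SS → Place k ↥(modularFunctionFieldFullC k M₀)) (P : SS) (m : Mid) :
    PlaceOver (IntermediateField.inclusion (fullC_le_igField k M₀)) (ι P)
      (sevPv M₀ q hq hqM k FkP ι P (Vrt.mid m)) :=
  seedBr_sevMidPt_placeOver M₀ q hq hqM k (ι P)

/-- **the two mid points agree at a supersingular place.** -/
theorem seedBr_sevMidPt_eq_igPv (hRR : IsRRField k ↥(igField k M₀))
    (P : Place k ↥(modularFunctionFieldFullC k M₀)) (hSS : IsSSPlace k M₀ q P)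
    (hno : ∀ u : ↥(modularFunctionFieldFullC k M₀), (u : LaurentSeries k) = ssFun k q →
      P.ord u = 12) :
    sevMidPt M₀ q hq hqM k P = igPv M₀ q hq hqM k hRR P :=
  igPv_unique hq hqM k hRR P hSS hno _ (seedBr_sevMidPt_placeOver M₀ q hq hqM k P)

/-- **restriction form for `igPv`** at a supersingular place (so that `EndsVert.lean` applies
to `pv := igPv`). -/
theorem seedBr_igPv_restrict (hRR : IsRRField k ↥(igField k M₀))
    (P : Place k ↥(modularFunctionFieldFullC k M₀)) (hSS : IsSSPlace k M₀ q P)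
    (hno : ∀ u : ↥(modularFunctionFieldFullC k M₀), (u : LaurentSeries k) = ssFun k q →
      P.ord u = 12) :
    (igPv M₀ q hq hqM k hRR P).restrictAlong (igIncl k M₀) (sev_isIntegral M₀ q hq k) = P := by
  rw [← seedBr_sevMidPt_eq_igPv M₀ q hq hqM k hRR P hSS hno]
  exact sev_restrict_midPt M₀ q hq hqM k P

/-- `sevPv` at a middle vertex is `igPv` (at the supersingular places). -/
theorem seedBr_sevPv_mid_eq_igPv {Mid SS : Type}
    (FkP : SS → Type) [∀ P, Field (FkP P)] [∀ P, Algebra k (FkP P)]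
    (hRR : IsRRField k ↥(igField k M₀))
    (ι : SS → Place k ↥(modularFunctionFieldFullC k M₀))
    (hss : ∀ P, IsSSPlace k M₀ q (ι P))
    (hno : ∀ Q : Place k ↥(modularFunctionFieldFullC k M₀), IsSSPlace k M₀ q Q →
      ∀ u : ↥(modularFunctionFieldFullC k M₀), (u : LaurentSeries k) = ssFun k q → Q.ord u = 12)
    (P : SS) (m : Mid) :
    sevPv M₀ q hq hqM k FkP ι P (Vrt.mid m) = igPv M₀ q hq hqM k hRR (ι P) :=
  seedBr_sevMidPt_eq_igPv M₀ q hq hqM k hRR (ι P) (hss P) (hno (ι P) (hss P))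

end Mod

end Fermat.Agent.S36G
end
end MergeWrap_S36_Seed_MidPtBridge

section MergeWrap_S36_G_ModularGraphEnds -- from S36/G/ModularGraphEnds.lean

set_option autoImplicit false
set_option linter.style.haveILetI false
set_option linter.unusedSectionVars false
set_option linter.unusedVariables false
set_option synthInstance.maxHeartbeats 400000
set_option maxHeartbeats 1600000

noncomputable section

namespace Fermat.Agent.S36G

open IntermediateField ModularCurve AlgebraicCurve Fermat.Agent.F3 Fermat.Agent.F3G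
  Fermat.Agent.GaussInt Fermat.Agent.AtkinLehner Fermat.Agent.Kronecker Fermat.Agent.BadRed
  Fermat.Agent.BadRedG Fermat.Agent.Deuring Fermat.Agent.RR Fermat.Agent.HP Fermat.Agent.HPVal

local notation "Qb" => AlgebraicClosure ℚ

attribute [local instance 10000] SubalgebraClass.toAlgebra HahnSeries.powerSeriesAlgebra

section Leaves

variable {M₀ q : ℕ} [NeZero M₀] [NeZero q] {A : ValuationSubring Qb}
  [Fact q.Prime] [CharP (IsLocalRing.ResidueField A) q]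
  [PerfectRing (IsLocalRing.ResidueField A) q] (X : ModWorld M₀ q A)

/-- `q * q = D₀.Q`. -/
theorem mge_hQ : q * q = X.D₀.Q := by
  rw [X.hD₀, pow_two]

/-- `M₀ = D₀.R`. -/
theorem mge_hR (hq : q.Prime) : M₀ = X.D₀.R :=
  (modIndep_R_eq hq X.D₀ X.hD₀ X.hM₀).symm

/-- `D₀.Q ≠ 0`. -/
theorem mge_neZero_Q (hq : q.Prime) : NeZero X.D₀.Q :=
  ⟨by rw [X.hD₀]; exact pow_ne_zero 2 hq.ne_zero⟩

/-- **`A_eq`**: the valuation ring of the constants is the same on every component. -/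
theorem mge_Aeq (c c' : Vtx (Fin (midCard q)) (ModSS A M₀ q)) : (X.S c).A = (X.S c').A :=
  modCore_A_eq X.Soo X.D₀ X.hM₀ X.I.S X.W.O X.I.ε X.hSoo X.I.isMidSetup c c'

/-- **`res_eq`**: the residue map of the constants is the same on every component. -/
theorem mge_res_eq (c c' : Vtx (Fin (midCard q)) (ModSS A M₀ q)) (x : Qb)
    (h : x ∈ (X.S c).A) (h' : x ∈ (X.S c').A) : (X.S c).res ⟨x, h⟩ = (X.S c').res ⟨x, h'⟩ :=
  modCore_res_eq X.Soo X.D₀ X.hM₀ X.I.S X.W.O X.I.ε X.hSoo X.I.isMidSetup c c' x h h'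

/-- **the constant reductions of the modular graph are pairwise incomparable.** -/
theorem mge_indep (hq : q.Prime) (hqM : ¬ q ∣ M₀) (hA : A.LiesOverPrime q)
    (haux : AuxLevelOK q M₀) (c c' : Vtx (Fin (midCard q)) (ModSS A M₀ q)) (hne : c ≠ c') :
    ¬ (X.S c).Ov ≤ (X.S c').Ov :=
  modIndep_final hq hqM haux A hA X.Soo X.hSoo X.D₀ X.hD₀ X.hM₀ X.I.S X.I.z X.I.ε X.I.prim
    X.I.isMidExp (fun m f => (X.I.isMidSetup m).mem_iff f) (fun m => (X.I.isMidSetup m).A_eq)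
    X.I.indep X.hS0 ModSS.place ModSS.place_injective ModSS.isSS X.W.O c c' hne

/-- **the mass inequality** `(q - 1) ψ(M₀) ≤ 12 |SS|`. -/
theorem mge_hmass [Fintype (ModSS A M₀ q)] (hq : q.Prime) (hqM : ¬ q ∣ M₀)
    (hA : A.LiesOverPrime q) (haux : AuxLevelOK q M₀) (hν2 : nuTwo M₀ = 0)
    (hν3 : nuThree M₀ = 0) :
    (q - 1) * dedekindPsi M₀ ≤ 12 * Fintype.card (ModSS A M₀ q) :=
  modSS_card_ge hq hqM hν2 hν3 haux.1 haux.2 hA

/-- **the degree of the Igusa cover.** -/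
theorem mge_hIg (hq : q.Prime) (hqM : ¬ q ∣ M₀) (hA : A.LiesOverPrime q)
    (hν2 : nuTwo M₀ = 0) (hν3 : nuThree M₀ = 0) :
    IntermediateField.relfinrank
      (modularFunctionFieldFullC (IsLocalRing.ResidueField A) M₀)
      (igField (IsLocalRing.ResidueField A) M₀) = midDeg q :=
  igDegreeRes_aux M₀ q hν2 hν3 hq hqM A hA

variable [Fintype (ModSS A M₀ q)]

/-- **`DA`**. -/
theorem mge_DA (hq : q.Prime) (hqM : ¬ q ∣ M₀) (hA : A.LiesOverPrime q)
    (haux : AuxLevelOK q M₀) (hν2 : nuTwo M₀ = 0) (hν3 : nuThree M₀ = 0)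
    (hxA : EndsRedA X.S (fun P => (X.W.O P).H)
      (algebraMap Qb (FBar (M₀ * q * q)) (X.ϖ ^ (12 * q)) / ModWorld.uA M₀ q)) :
    MNData X.S {Vtx.vert Vrt.oo} (mn1V₂ (Fin (midCard q)) (ModSS A M₀ q))
      (ModWorld.uA M₀ q) (X.ϖ ^ (12 * q)) :=
  haveI : Nonempty (ModSS A M₀ q) := modSS_nonempty hq hqM hν2 hν3 haux.1 haux.2 hA
  modMN_DA X.D₀ M₀ q X.S X.hM₀ (mge_hR X hq) (mge_hQ X) hq hqM hA (mge_Aeq X) (mge_res_eq X)
    (mge_indep X hq hqM hA haux) X.hSoo X.hϖ (fun P => (X.W.O P).H) hxA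
    (mge_hmass hq hqM hA haux hν2 hν3)

/-- **`D1`**. -/
theorem mge_D1 (hq : q.Prime) (hqM : ¬ q ∣ M₀) (hA : A.LiesOverPrime q)
    (haux : AuxLevelOK q M₀) (hν2 : nuTwo M₀ = 0) (hν3 : nuThree M₀ = 0)
    (hx2 : EndsRed2 X.S (fun P => (X.W.O P).H)
      (ModWorld.u1 M₀ q / algebraMap Qb (FBar (M₀ * q * q)) (X.ϖ ^ 12))) :
    MNData X.S (mn1V₁ (Fin (midCard q)) (ModSS A M₀ q))
      (mn1V₂ (Fin (midCard q)) (ModSS A M₀ q)) (ModWorld.u1 M₀ q) (X.ϖ ^ 12) :=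
  haveI : Nonempty (ModSS A M₀ q) := modSS_nonempty hq hqM hν2 hν3 haux.1 haux.2 hA
  modMN_D1 M₀ q X.S hq hqM hA (mge_Aeq X) (mge_res_eq X) (mge_indep X hq hqM hA haux) X.hSoo
    X.I.isMidExp X.I.isMidSetup (Fintype.card_fin _) (mge_hIg hq hqM hA hν2 hν3) X.hϖ
    (fun P => (X.W.O P).H) hx2 (mge_hmass hq hqM hA haux hν2 hν3)

/-- **`D2`**. -/
theorem mge_D2 (hq : q.Prime) (hqM : ¬ q ∣ M₀) (hA : A.LiesOverPrime q)
    (haux : AuxLevelOK q M₀) (hν2 : nuTwo M₀ = 0) (hν3 : nuThree M₀ = 0)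
    (hx2 : EndsRed2 X.S (fun P => (X.W.O P).H)
      (ModWorld.u1 M₀ q / algebraMap Qb (FBar (M₀ * q * q)) (X.ϖ ^ 12))) :
    MNData X.S (mn1V₂ (Fin (midCard q)) (ModSS A M₀ q)) {Vtx.vert Vrt.zero}
      (ModWorld.u1 M₀ q / algebraMap Qb (FBar (M₀ * q * q)) (X.ϖ ^ 12))
      ((q : Qb) ^ 12 / X.ϖ ^ 12) :=
  haveI : Nonempty (ModSS A M₀ q) := modSS_nonempty hq hqM hν2 hν3 haux.1 haux.2 hA
  modMN_D2 X.D₀ M₀ q X.S X.hM₀ (mge_hR X hq) (mge_hQ X) hq hqM hA (mge_Aeq X) (mge_res_eq X)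
    (mge_indep X hq hqM hA haux) X.hSoo rfl X.hϖ (fun P => (X.W.O P).H) hx2
    (mge_hmass hq hqM hA haux hν2 hν3)

variable [IsAlgClosed (IsLocalRing.ResidueField A)]

/-- **`sepA`**, `pv := sevModPv`. -/
theorem mge_sepA (hq : q.Prime) (hqM : ¬ q ∣ M₀) (hA : A.LiesOverPrime q)
    (haux : AuxLevelOK q M₀) :
    ∀ P : ModSS A M₀ q, ∃ g ∈ ncAdm X.S {Vtx.vert Vrt.oo}
        (mn1V₂ (Fin (midCard q)) (ModSS A M₀ q)) (ModWorld.uA M₀ q),
      ValAt (sevModPv M₀ q hq hqM (Fin (midCard q)) X.W.FkP P Vrt.oo)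
          ((X.S (Vtx.vert Vrt.oo)).red g) 1 ∧
        ∀ P' : ModSS A M₀ q, P' ≠ P → (X.S (Vtx.hor P')).red g = 0 :=
  sep_sepA_mod (S := X.S) (pv := sevModPv M₀ q hq hqM (Fin (midCard q)) X.W.FkP)
    (ssPlace := ModSS.place) hq hA hqM haux X.hSoo ModSS.isSS ModSS.place_injective
    (fun _ => rfl) X.hS0 X.W.O (fun _ => rfl) (umid_dvd2 M₀ q)

/-- **`sep1`**, `pv := sevModPv`. -/
theorem mge_sep1 (hq : q.Prime) (hqM : ¬ q ∣ M₀) (hA : A.LiesOverPrime q)
    (haux : AuxLevelOK q M₀) :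
    ∀ (P : ModSS A M₀ q) (m : Fin (midCard q)),
      ∃ g ∈ ncAdm X.S (mn1V₁ (Fin (midCard q)) (ModSS A M₀ q))
          (mn1V₂ (Fin (midCard q)) (ModSS A M₀ q)) (ModWorld.u1 M₀ q) ∩
        ncAdm X.S {Vtx.vert Vrt.oo} (mn1V₂ (Fin (midCard q)) (ModSS A M₀ q))
          (ModWorld.uA M₀ q),
      ValAt (sevModPv M₀ q hq hqM (Fin (midCard q)) X.W.FkP P (Vrt.mid m))
          ((X.S (Vtx.vert (Vrt.mid m))).red g) 1 ∧
        ∀ P' : ModSS A M₀ q, P' ≠ P → (X.S (Vtx.hor P')).red g = 0 :=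
  sep_sep1_mod (S := X.S) (pv := sevModPv M₀ q hq hqM (Fin (midCard q)) X.W.FkP)
    (ssPlace := ModSS.place) hq hA hqM haux X.hSoo ModSS.isSS ModSS.place_injective
    X.hS0 X.W.O (fun _ => rfl) X.I.isMidExp X.I.isMidSetup
    (fun P _ => seedBr_sevMidPt_placeOver M₀ q hq hqM (IsLocalRing.ResidueField A) P.place)
    (umid_dvd1 M₀ q) (umid_dvd2 M₀ q)

/-- **`sep2`**, `pv := sevModPv`. -/
theorem mge_sep2 (hq : q.Prime) (hqM : ¬ q ∣ M₀) (hA : A.LiesOverPrime q)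
    (haux : AuxLevelOK q M₀) :
    ∀ P : ModSS A M₀ q, ∃ g ∈ ncAdm X.S (mn1V₂ (Fin (midCard q)) (ModSS A M₀ q))
        {Vtx.vert Vrt.zero}
        (ModWorld.u1 M₀ q / algebraMap Qb (FBar (M₀ * q * q)) (X.ϖ ^ 12)),
      ValAt (sevModPv M₀ q hq hqM (Fin (midCard q)) X.W.FkP P Vrt.zero)
          ((X.S (Vtx.vert Vrt.zero)).red g) 1 ∧
        ∀ P' : ModSS A M₀ q, P' ≠ P → (X.S (Vtx.hor P')).red g = 0 :=
  haveI : NeZero X.D₀.Q := mge_neZero_Q X hq
  sep2_mod_wp (S := X.S) (ssPlace := ModSS.place) hq hA hqM haux X.D₀ X.hM₀ (mge_hR X hq)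
    X.hD₀ X.hSoo rfl ModSS.isSS ModSS.place_injective
    (sevModPv M₀ q hq hqM (Fin (midCard q)) X.W.FkP) (fun _ => rfl) X.hS0 X.W.O
    (fun _ => rfl) (umid_dvd1 M₀ q) (pow_ne_zero 12 (X.ϖ_ne hq))

end Leaves

namespace ModWorld

variable {M₀ q : ℕ} [NeZero M₀] [NeZero q] {A : ValuationSubring Qb}
  [Fact q.Prime] [CharP (IsLocalRing.ResidueField A) q]
  [PerfectRing (IsLocalRing.ResidueField A) q] (X : ModWorld M₀ q A)
  [Fintype (ModSS A M₀ q)] [IsAlgClosed (IsLocalRing.ResidueField A)]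

/-- **the `ModEndsInput` of the modular graph from SEED-UP and the vertical fields**:
`pv := sevModPv`; `pv_inj`, `DA`, `D1`, `D2`, `sepA`, `sep1`, `sep2` discharged. -/
def endsOfUp (hq : q.Prime) (hqM : ¬ q ∣ M₀) (hA : A.LiesOverPrime q)
    (haux : AuxLevelOK q M₀) (hν2 : nuTwo M₀ = 0) (hν3 : nuThree M₀ = 0)
    (hxA : EndsRedA X.S (fun P => (X.W.O P).H)
      (algebraMap Qb (FBar (M₀ * q * q)) (X.ϖ ^ (12 * q)) / uA M₀ q))
    (hx2 : EndsRed2 X.S (fun P => (X.W.O P).H)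
      (u1 M₀ q / algebraMap Qb (FBar (M₀ * q * q)) (X.ϖ ^ 12)))
    (zA : ∀ Q : Place (IsLocalRing.ResidueField A)
        (FkOf ↥(modularFunctionFieldFullC (IsLocalRing.ResidueField A) M₀)
          (fun _ : Fin (midCard q) => ↥(igField (IsLocalRing.ResidueField A) M₀)) X.W.FkP
          (Vtx.vert Vrt.oo)),
      0 < Q.ord ((X.S (Vtx.vert Vrt.oo)).red (uA M₀ q)) →
        ∃ P, sevModPv M₀ q hq hqM (Fin (midCard q)) X.W.FkP P Vrt.oo = Q)
    (oA : ∀ P, (sevModPv M₀ q hq hqM (Fin (midCard q)) X.W.FkP P Vrt.oo).ord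
      ((X.S (Vtx.vert Vrt.oo)).red (uA M₀ q)) = 12 * (q : ℤ))
    (z1oo : ∀ Q : Place (IsLocalRing.ResidueField A)
        (FkOf ↥(modularFunctionFieldFullC (IsLocalRing.ResidueField A) M₀)
          (fun _ : Fin (midCard q) => ↥(igField (IsLocalRing.ResidueField A) M₀)) X.W.FkP
          (Vtx.vert Vrt.oo)),
      0 < Q.ord ((X.S (Vtx.vert Vrt.oo)).red (u1 M₀ q)) →
        ∃ P, sevModPv M₀ q hq hqM (Fin (midCard q)) X.W.FkP P Vrt.oo = Q)
    (o1oo : ∀ P, (sevModPv M₀ q hq hqM (Fin (midCard q)) X.W.FkP P Vrt.oo).ord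
      ((X.S (Vtx.vert Vrt.oo)).red (u1 M₀ q)) = 12)
    (z1m : ∀ (m : Fin (midCard q)) (Q : Place (IsLocalRing.ResidueField A)
        (FkOf ↥(modularFunctionFieldFullC (IsLocalRing.ResidueField A) M₀)
          (fun _ : Fin (midCard q) => ↥(igField (IsLocalRing.ResidueField A) M₀)) X.W.FkP
          (Vtx.vert (Vrt.mid m)))),
      0 < Q.ord ((X.S (Vtx.vert (Vrt.mid m))).red (u1 M₀ q)) →
        ∃ P, sevModPv M₀ q hq hqM (Fin (midCard q)) X.W.FkP P (Vrt.mid m) = Q)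
    (o1m : ∀ P m, (sevModPv M₀ q hq hqM (Fin (midCard q)) X.W.FkP P (Vrt.mid m)).ord
      ((X.S (Vtx.vert (Vrt.mid m))).red (u1 M₀ q)) = 12 * (midDeg q : ℤ))
    (z2 : ∀ Q : Place (IsLocalRing.ResidueField A)
        (FkOf ↥(modularFunctionFieldFullC (IsLocalRing.ResidueField A) M₀)
          (fun _ : Fin (midCard q) => ↥(igField (IsLocalRing.ResidueField A) M₀)) X.W.FkP
          (Vtx.vert Vrt.zero)),
      0 < Q.ord ((X.S (Vtx.vert Vrt.zero)).red
        (algebraMap Qb (FBar (M₀ * q * q)) ((q : Qb) ^ 12 / X.ϖ ^ 12) /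
          (u1 M₀ q / algebraMap Qb (FBar (M₀ * q * q)) (X.ϖ ^ 12)))) →
        ∃ P, sevModPv M₀ q hq hqM (Fin (midCard q)) X.W.FkP P Vrt.zero = Q)
    (o2 : ∀ P, (sevModPv M₀ q hq hqM (Fin (midCard q)) X.W.FkP P Vrt.zero).ord
      ((X.S (Vtx.vert Vrt.zero)).red
        (algebraMap Qb (FBar (M₀ * q * q)) ((q : Qb) ^ 12 / X.ϖ ^ 12) /
          (u1 M₀ q / algebraMap Qb (FBar (M₀ * q * q)) (X.ϖ ^ 12)))) = 12 * (q : ℤ)) :
    ModEndsInput Qb (FBar (M₀ * q * q)) (IsLocalRing.ResidueField A) (Fin (midCard q))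
      (ModSS A M₀ q) ↥(modularFunctionFieldFullC (IsLocalRing.ResidueField A) M₀)
      (fun _ : Fin (midCard q) => ↥(igField (IsLocalRing.ResidueField A) M₀)) X.W.FkP :=
  X.ends hq hA (sevModPv M₀ q hq hqM (Fin (midCard q)) X.W.FkP)
    (sevModPv_inj M₀ q hq hqM (Fin (midCard q)) X.W.FkP)
    (mge_DA X hq hqM hA haux hν2 hν3 hxA) (mge_D1 X hq hqM hA haux hν2 hν3 hx2)
    (mge_D2 X hq hqM hA haux hν2 hν3 hx2) hxA hx2 zA oA z1oo o1oo z1m o1m z2 o2
    (mge_sepA X hq hqM hA haux) (mge_sep1 X hq hqM hA haux) (mge_sep2 X hq hqM hA haux)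

end ModWorld

end Fermat.Agent.S36G
end
end MergeWrap_S36_G_ModularGraphEnds
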